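import Mathlib
import Fermat.Agent.S28.H30_PrimeLevel
import Fermat.Agent.S28.H9_DeltaQuot
import Fermat.Agent.S18.H16_FKGen

/-!
# S16, package (U,2; p = 3 mod 4), step (3): `J / J_p` is a unit over `k[J]` (helper36)

* Part A (any field `K` with `N ≠ 0`): the Atkin–Lehner involution `alHom` of the function field
  `modularFunctionFieldFullC K N = K(j, j_N)`, swapping `j` and `j_N`.
* Part B (characteristic `2`): `j * Δ = 1`, hence `Δ(q^p)/Δ(q) = j / j_p`.
* Part C: `j / j_p` and `j_p / j` are integral over `k[j]`; valuation form.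
-/

set_option autoImplicit false
set_option linter.unusedSectionVars false
set_option linter.style.haveILetI false
set_option synthInstance.maxHeartbeats 400000

noncomputable section

namespace Fermat.Agent.S16.H36

open ModularCurve HahnSeries Polynomial IntermediateField Fermat.Agent.S28 Fermat.Agent.S18.H16

/-! ### 0. The swapped root `Φ_N(j, j_N) = 0` -/

theorem Jconj_one_of_eq_one (R : Type*) [CommRing R] (e : ℕ) [NeZero e] (he : e = 1) :
    Jconj R 1 e = jqModC R := by
  subst he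
  rw [Jconj_one, qExpand_one_apply]

/-- `Φ_N(j, j_N) = 0` over every commutative ring: `j(t)` is the conjugate of the triple
`(1, 0, N)` of `Φ_N(X, j(t^N))`. -/
theorem modPoly_root_swap (N : ℕ) [NeZero N] (D : ModularPolynomialData N)
    (hD : ∀ (k : Type) [Field k] (ζ : kˣ), IsPrimitiveRoot ζ N → RootsAt k N ζ D.Φ)
    (R : Type*) [CommRing R] :
    D.Φ.eval₂ (evalJ (qExpand R N (jqModC R))) (jqModC R) = 0 := by
  have hN : ((N : ℕ) : ℂ) ≠ 0 := Nat.cast_ne_zero.2 (NeZero.ne N)
  obtain ⟨ζ, hζ⟩ := exists_primitiveRoot_unit' ℂ N hN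
  have hC : D.Φ.eval₂ (evalJ (qExpand ℂ N (jqModC ℂ))) (jqModC ℂ) = 0 := by
    have h := hD ℂ ζ hζ 1 0 N ⟨one_mul N, Nat.pos_of_ne_zero (NeZero.ne N), by simp⟩
      ⟨by norm_num⟩
    rw [mul_zero, pow_zero] at h
    rwa [Jconj_one_of_eq_one ℂ (1 * 1) (mul_one 1)] at h
  have hZ : D.Φ.eval₂ (evalJ (qExpand ℤ N (jqModC ℤ))) (jqModC ℤ) = 0 := by
    apply S28.H16.coeffMap_injective (f := Int.castRingHom ℂ) Int.cast_injective
    rw [S28.H16.coeffMap_eval₂_evalJ, coeffMap_qExpand, coeffMap_jqModC, map_zero]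
    exact hC
  have := congrArg (coeffMap (Int.castRingHom R)) hZ
  rwa [S28.H16.coeffMap_eval₂_evalJ, coeffMap_qExpand, coeffMap_jqModC, map_zero] at this

/-! ### A. The Atkin–Lehner involution of `K(j, j_N)` -/

section AL

variable (N : ℕ) [NeZero N] (K : Type) [Field K]

local notation "FK" => modularFunctionFieldFullC K N

theorem transcendental_jNK : Transcendental K (jNK K N) := by
  have h : Transcendental K (algebraMap FK (LaurentSeries K) (jNK K N)) :=
    S28.H50.transcendental_qExpand_jqModC (k := K) N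
  exact (transcendental_algebraMap_iff (algebraMap FK (LaurentSeries K)).injective).1 h

/-- `K(Y) → K(j, j_N)`, `Y ↦ j_N`. -/
def alRat : RatFunc K →+* FK := S28.H50.ratFuncHom (jNK K N) (transcendental_jNK N K)

/-- `K(j) → K(j, j_N)`, `j ↦ j_N`. -/
def alBase : K⟮jK K N⟯ →+* FK :=
  (alRat N K).comp (((ratEquiv K N).symm : K⟮jK K N⟯ ≃+* RatFunc K) : K⟮jK K N⟯ →+* RatFunc K)

theorem alBase_comp_ratEquiv :
    (alBase N K).comp ((ratEquiv K N : RatFunc K ≃+* K⟮jK K N⟯) : RatFunc K →+* K⟮jK K N⟯) =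
      alRat N K := by
  ext x
  simp [alBase]

theorem alBase_algebraMap (c : K) :
    alBase N K (algebraMap K K⟮jK K N⟯ c) = algebraMap K FK c := by
  have h : (ratEquiv K N).symm (algebraMap K K⟮jK K N⟯ c) = algebraMap K (RatFunc K) c :=
    (ratEquiv K N).symm.commutes c
  show alRat N K ((ratEquiv K N).symm (algebraMap K K⟮jK K N⟯ c)) = _
  rw [h, RatFunc.algebraMap_eq_C, alRat, S28.H50.ratFuncHom_C]

theorem alBase_gen : alBase N K (AdjoinSimple.gen K (jK K N)) = jNK K N := by
  show alRat N K ((ratEquiv K N).symm (AdjoinSimple.gen K (jK K N))) = _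
  rw [ratEquiv, RatFunc.algEquivOfTranscendental_symm_gen, alRat, S28.H50.ratFuncHom_X]

/-- `(minpoly K(j) j_N)` transported along `j ↦ j_N` vanishes at `j`. -/
theorem eval₂_alBase_minpoly (hNK : ((N : ℕ) : K) ≠ 0) :
    (minpoly K⟮jK K N⟯ (jNK K N)).eval₂ (alBase N K) (jK K N) = 0 := by
  obtain ⟨D, hD, hirr⟩ := exists_modPoly_gen N
  rw [minpoly_jNK K N D (hirr K hNK), modPolyK, Polynomial.eval₂_map, alBase_comp_ratEquiv,
    ← Polynomial.eval_map, alRat, S28.H50.eval_map_redModPoly]
  apply (algebraMap FK (LaurentSeries K)).injective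
  rw [map_zero, Polynomial.hom_eval₂]
  rw [← modPoly_root_swap N D hD K]
  exact S28.H50.eval₂_hom_congr (by simp [evalJ]) D.Φ _

/-- `K(j, j_N) → K(j)(j_N)` (the latter is everything). -/
def toAdjoin (hNK : ((N : ℕ) : K) ≠ 0) : FK →+* K⟮jK K N⟯⟮jNK K N⟯ where
  toFun x := ⟨x, by rw [adjoin_jNK_eq_top_gen N K hNK]; exact IntermediateField.mem_top⟩
  map_one' := rfl
  map_mul' _ _ := rfl
  map_zero' := rfl
  map_add' _ _ := rfl

/-- The Atkin–Lehner involution as a ring homomorphism. -/
def alRingHom (hNK : ((N : ℕ) : K) ≠ 0) : FK →+* FK :=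
  (AdjoinRoot.lift (alBase N K) (jK K N) (eval₂_alBase_minpoly N K hNK)).comp
    ((((adjoinRootEquivAdjoin K⟮jK K N⟯ (isIntegral_jNK_gen N K hNK)).symm :
        K⟮jK K N⟯⟮jNK K N⟯ ≃+* AdjoinRoot (minpoly K⟮jK K N⟯ (jNK K N))) :
        K⟮jK K N⟯⟮jNK K N⟯ →+* AdjoinRoot (minpoly K⟮jK K N⟯ (jNK K N))).comp
      (toAdjoin N K hNK))

theorem alRingHom_apply (hNK : ((N : ℕ) : K) ≠ 0) (x : FK) :
    alRingHom N K hNK x =
      AdjoinRoot.lift (alBase N K) (jK K N) (eval₂_alBase_minpoly N K hNK)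
        ((adjoinRootEquivAdjoin K⟮jK K N⟯ (isIntegral_jNK_gen N K hNK)).symm
          (toAdjoin N K hNK x)) := rfl

theorem alRingHom_algebraMap_base (hNK : ((N : ℕ) : K) ≠ 0) (a : K⟮jK K N⟯) :
    alRingHom N K hNK (algebraMap K⟮jK K N⟯ FK a) = alBase N K a := by
  have h1 : toAdjoin N K hNK (algebraMap K⟮jK K N⟯ FK a) =
      algebraMap K⟮jK K N⟯ K⟮jK K N⟯⟮jNK K N⟯ a := rfl
  rw [alRingHom_apply, h1, AlgEquiv.commutes, AdjoinRoot.algebraMap_eq, AdjoinRoot.lift_of]

theorem alRingHom_jNK (hNK : ((N : ℕ) : K) ≠ 0) : alRingHom N K hNK (jNK K N) = jK K N := by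
  have h1 : toAdjoin N K hNK (jNK K N) = AdjoinSimple.gen K⟮jK K N⟯ (jNK K N) := rfl
  rw [alRingHom_apply, h1, adjoinRootEquivAdjoin_symm_apply_gen, AdjoinRoot.lift_root]

theorem alRingHom_jK (hNK : ((N : ℕ) : K) ≠ 0) : alRingHom N K hNK (jK K N) = jNK K N := by
  have h1 : jK K N = algebraMap K⟮jK K N⟯ FK (AdjoinSimple.gen K (jK K N)) := rfl
  rw [h1, alRingHom_algebraMap_base, alBase_gen]

theorem alRingHom_algebraMap (hNK : ((N : ℕ) : K) ≠ 0) (c : K) :
    alRingHom N K hNK (algebraMap K FK c) = algebraMap K FK c := by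
  have h1 : algebraMap K FK c = algebraMap K⟮jK K N⟯ FK (algebraMap K K⟮jK K N⟯ c) := rfl
  rw [h1, alRingHom_algebraMap_base, alBase_algebraMap]
  rfl

/-- **Atkin–Lehner involution** of `K(j, j_N)` as a `K`-algebra homomorphism: `j ↔ j_N`. -/
def alHom (hNK : ((N : ℕ) : K) ≠ 0) : FK →ₐ[K] FK where
  __ := alRingHom N K hNK
  commutes' c := alRingHom_algebraMap N K hNK c

@[simp] theorem alHom_jK (hNK : ((N : ℕ) : K) ≠ 0) : alHom N K hNK (jK K N) = jNK K N :=
  alRingHom_jK N K hNK

@[simp] theorem alHom_jNK (hNK : ((N : ℕ) : K) ≠ 0) : alHom N K hNK (jNK K N) = jK K N :=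
  alRingHom_jNK N K hNK

/-- Two `K`-algebra homomorphisms out of `K(j, j_N)` agreeing on `j` and `j_N` are equal. -/
theorem algHom_ext_of_jK_jNK (hNK : ((N : ℕ) : K) ≠ 0) {B : Type*} [Field B] [Algebra K B]
    (f g : FK →ₐ[K] B) (h1 : f (jK K N) = g (jK K N)) (h2 : f (jNK K N) = g (jNK K N)) :
    f = g := by
  let E : IntermediateField K FK :=
    { carrier := {x | f x = g x}
      mul_mem' := fun {a b} ha hb => by
        change f _ = g _ at ha hb ⊢
        rw [map_mul, map_mul, ha, hb]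
      one_mem' := by simp
      add_mem' := fun {a b} ha hb => by
        change f _ = g _ at ha hb ⊢
        rw [map_add, map_add, ha, hb]
      zero_mem' := by simp
      algebraMap_mem' := fun c => by simp
      inv_mem' := fun a ha => by
        change f _ = g _ at ha ⊢
        rw [map_inv₀, map_inv₀, ha] }
  have hE : IntermediateField.adjoin K {jK K N, jNK K N} ≤ E := by
    rw [IntermediateField.adjoin_le_iff]
    rintro x (rfl | rfl)
    · exact h1
    · exact h2
  rw [adjoin_pair_eq_top_gen N K hNK] at hE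
  ext x
  exact hE (IntermediateField.mem_top)

theorem alHom_comp_alHom (hNK : ((N : ℕ) : K) ≠ 0) :
    (alHom N K hNK).comp (alHom N K hNK) = AlgHom.id K FK :=
  algHom_ext_of_jK_jNK N K hNK _ _ (by simp) (by simp)

theorem alHom_alHom (hNK : ((N : ℕ) : K) ≠ 0) (x : FK) :
    alHom N K hNK (alHom N K hNK x) = x :=
  congrArg (fun f : FK →ₐ[K] FK => f x) (alHom_comp_alHom N K hNK)

/-- The Atkin–Lehner involution as a `K`-algebra automorphism. -/
def alEquiv (hNK : ((N : ℕ) : K) ≠ 0) : FK ≃ₐ[K] FK :=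
  AlgEquiv.ofAlgHom (alHom N K hNK) (alHom N K hNK) (alHom_comp_alHom N K hNK)
    (alHom_comp_alHom N K hNK)

@[simp] theorem alEquiv_apply (hNK : ((N : ℕ) : K) ≠ 0) (x : FK) :
    alEquiv N K hNK x = alHom N K hNK x := rfl

@[simp] theorem alEquiv_symm (hNK : ((N : ℕ) : K) ≠ 0) :
    (alEquiv N K hNK).symm = alEquiv N K hNK := by
  ext x
  rfl

end AL

/-! ### B. Characteristic `2` (more generally `240 = 0`): `j * Δ = 1` -/

section CharTwo

theorem eisenstein4_map_eq_one (R : Type*) [CommRing R] (h : (240 : R) = 0) :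
    eisenstein4.map (Int.castRingHom R) = 1 := by
  ext n
  rw [PowerSeries.coeff_map, eisenstein4, PowerSeries.coeff_mk, PowerSeries.coeff_one]
  split_ifs with hn
  · simp
  · rw [map_mul, map_ofNat, h, zero_mul]

theorem jqModC_eq_DeltaSInv (R : Type*) [CommRing R] (h : (240 : R) = 0) :
    jqModC R = DeltaSInv R := by
  rw [jqModC, DeltaSInv, jNum, map_mul, map_pow, eisenstein4_map_eq_one R h, one_pow, one_mul]

theorem jqModC_mul_DeltaS (R : Type*) [CommRing R] (h : (240 : R) = 0) :
    jqModC R * DeltaS R = 1 := by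
  rw [jqModC_eq_DeltaSInv R h, mul_comm, S28.H30.DeltaS_mul_DeltaSInv]

theorem ofNat_240_eq_zero (k : Type*) [CommRing k] [CharP k 2] : (240 : k) = 0 := by
  have h2 : (2 : k) = 0 := CharP.ofNat_eq_zero k 2
  have : (240 : k) = 2 * 120 := by norm_num
  rw [this, h2, zero_mul]

theorem DeltaQuot_eq_div (k : Type*) [Field k] (h : (240 : k) = 0) (p : ℕ) [NeZero p] :
    DeltaQuot k p = jqModC k / qExpand k p (jqModC k) := by
  have h1 : qExpand k p (jqModC k) * qExpand k p (DeltaS k) = 1 := by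
    rw [← map_mul, jqModC_mul_DeltaS k h, map_one]
  have h2 : qExpand k p (jqModC k) ≠ 0 := left_ne_zero_of_mul_eq_one h1
  rw [DeltaQuot, ← jqModC_eq_DeltaSInv k h, eq_div_iff h2]
  calc qExpand k p (DeltaS k) * jqModC k * qExpand k p (jqModC k)
      = jqModC k * (qExpand k p (jqModC k) * qExpand k p (DeltaS k)) := by ring
    _ = jqModC k := by rw [h1, mul_one]

end CharTwo

/-! ### C. Integrality of `j / j_p` and `j_p / j` over `k[j]` -/

section Integrality

/-- generic transitivity: if the image of `g` is integral over `f` and `x` is integral over `g`,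
then `x` is integral over `f`. -/
theorem isIntegralElem_trans {A S : Type*} [CommRing A] [CommRing S] (f g : A →+* S)
    (hg : ∀ a, f.IsIntegralElem (g a)) {x : S} (hx : g.IsIntegralElem x) :
    f.IsIntegralElem x := by
  letI : Algebra A S := f.toAlgebra
  let IC := integralClosure A S
  let g' : A →+* IC :=
    { toFun := fun a => ⟨g a, hg a⟩
      map_one' := Subtype.ext (map_one g)
      map_mul' := fun a b => Subtype.ext (map_mul g a b)
      map_zero' := Subtype.ext (map_zero g)
      map_add' := fun a b => Subtype.ext (map_add g a b) }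
  have hcomp : (algebraMap IC S).comp g' = g := by
    ext a
    rfl
  obtain ⟨P, hPm, hP⟩ := hx
  have hxIC : IsIntegral IC x := by
    refine ⟨P.map g', hPm.map g', ?_⟩
    rw [Polynomial.eval₂_map, hcomp]
    exact hP
  have h := isIntegral_trans (R := A) (A := IC) x hxIC
  exact h

/-- transport of integrality along a ring homomorphism. -/
theorem IsIntegralElem.map_hom {A S T : Type*} [CommRing A] [CommRing S] [CommRing T]
    (f : A →+* S) (w : S →+* T) {x : S} (hx : f.IsIntegralElem x) :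
    (w.comp f).IsIntegralElem (w x) := by
  obtain ⟨P, hPm, hP⟩ := hx
  refine ⟨P, hPm, ?_⟩
  rw [← Polynomial.hom_eval₂, hP, map_zero]

/-- descent of integrality along an injective ring homomorphism. -/
theorem IsIntegralElem.of_injective {A S T : Type*} [CommRing A] [CommRing S] [CommRing T]
    (f : A →+* S) (w : S →+* T) (hw : Function.Injective w) {x : S}
    (hx : (w.comp f).IsIntegralElem (w x)) : f.IsIntegralElem x := by
  obtain ⟨P, hPm, hP⟩ := hx
  refine ⟨P, hPm, hw ?_⟩
  rw [Polynomial.hom_eval₂, hP, map_zero]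

variable (k : Type) [Field k] (p : ℕ) [NeZero p]

local notation "Fk" => modularFunctionFieldFullC k p

/-- `k[Y] → k(j, j_p)`, `Y ↦ j`. -/
def evJ : k[X] →+* Fk := (Polynomial.aeval (R := k) (jK k p)).toRingHom

/-- `k[Y] → k(j, j_p)`, `Y ↦ j_p`. -/
def evJp : k[X] →+* Fk := (Polynomial.aeval (R := k) (jNK k p)).toRingHom

theorem val_comp_evJ :
    ((algebraMap Fk (LaurentSeries k)).comp (evJ k p)) =
      (Polynomial.aeval (R := k) (jqModC k)).toRingHom := by
  apply Polynomial.ringHom_ext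
  · intro c
    simp [evJ]
  · simp [evJ]

theorem evalJ_eq_comp' (x : LaurentSeries k) :
    evalJ x = ((Polynomial.aeval (R := k) x).toRingHom).comp
      (Polynomial.mapRingHom (Int.castRingHom k)) := S28.H30.evalJ_eq_comp k x

/-- series form of W1c in `IsIntegralElem` vocabulary. -/
theorem isIntegralElem_DeltaQuot (hp : ((p : ℕ) : k) ≠ 0) {P : Polynomial ℤ[X]}
    (hP : IsDeltaQuotPoly p P) :
    ((Polynomial.aeval (R := k) (jqModC k)).toRingHom).IsIntegralElem (DeltaQuot k p) := by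
  obtain ⟨hPm, hP0⟩ := hP
  set f := (Polynomial.aeval (R := k) (jqModC k)).toRingHom with hf
  have h1 := congrArg (coeffMap (Int.castRingHom k)) hP0
  rw [S28.H16.coeffMap_eval₂_evalJ, coeffMap_jqModC, map_zero, map_mul, map_pow, map_natCast,
    S28.H30.coeffMap_DeltaQuot, evalJ_eq_comp'] at h1
  have hw : f.IsIntegralElem ((p : LaurentSeries k) ^ 12 * DeltaQuot k p) := by
    refine ⟨P.map (Polynomial.mapRingHom (Int.castRingHom k)), hPm.map _, ?_⟩
    rw [Polynomial.eval₂_map]
    exact h1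
  have hc : f.IsIntegralElem (f (Polynomial.C (((p : ℕ) : k)⁻¹ ^ 12))) :=
    RingHom.isIntegralElem_map f
  have hmul := hc.mul f hw
  have hfc : f (Polynomial.C (((p : ℕ) : k)⁻¹ ^ 12)) =
      algebraMap k (LaurentSeries k) (((p : ℕ) : k)⁻¹) ^ 12 := by
    rw [hf, AlgHom.toRingHom_eq_coe, RingHom.coe_coe, Polynomial.aeval_C, map_pow]
  have hcast : ((p : ℕ) : LaurentSeries k) = algebraMap k (LaurentSeries k) ((p : ℕ) : k) := by
    rw [map_natCast]
  have : f (Polynomial.C (((p : ℕ) : k)⁻¹ ^ 12)) *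
      ((p : LaurentSeries k) ^ 12 * DeltaQuot k p) = DeltaQuot k p := by
    rw [hfc, hcast, ← mul_assoc, ← mul_pow, ← map_mul, inv_mul_cancel₀ hp, map_one, one_pow,
      one_mul]
  rwa [this] at hmul

/-- `j / j_p` is integral over `k[j]` (characteristic `2`, or any field with `240 = 0`). -/
theorem isIntegralElem_jK_div_jNK (h240 : (240 : k) = 0) (hp : ((p : ℕ) : k) ≠ 0)
    (hpp : p.Prime) : (evJ k p).IsIntegralElem (jK k p / jNK k p) := by
  obtain ⟨P, hP⟩ := S28.H9.exists_deltaQuotPoly p hpp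
  apply IsIntegralElem.of_injective (evJ k p) (algebraMap Fk (LaurentSeries k))
    (algebraMap Fk (LaurentSeries k)).injective
  rw [val_comp_evJ]
  have : algebraMap Fk (LaurentSeries k) (jK k p / jNK k p) = DeltaQuot k p := by
    rw [map_div₀, DeltaQuot_eq_div k h240 p]
    rfl
  rw [this]
  exact isIntegralElem_DeltaQuot k p hp hP

/-- `j_p` is integral over `k[j]`. -/
theorem isIntegralElem_jNK : (evJ k p).IsIntegralElem (jNK k p) := by
  obtain ⟨D, -, -⟩ := exists_modPoly_gen p
  apply IsIntegralElem.of_injective (evJ k p) (algebraMap Fk (LaurentSeries k))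
    (algebraMap Fk (LaurentSeries k)).injective
  rw [val_comp_evJ]
  refine ⟨D.Φ.map (Polynomial.mapRingHom (Int.castRingHom k)), D.monic.map _, ?_⟩
  rw [Polynomial.eval₂_map, ← evalJ_eq_comp']
  exact modPoly_root p D k

/-- every element of `k[j_p]` is integral over `k[j]`. -/
theorem isIntegralElem_evJp (a : k[X]) : (evJ k p).IsIntegralElem (evJp k p a) := by
  have hC : ∀ c : k, (evJ k p).IsIntegralElem (algebraMap k Fk c) := fun c => by
    have : algebraMap k Fk c = evJ k p (Polynomial.C c) := by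
      simp [evJ]
    rw [this]
    exact RingHom.isIntegralElem_map (evJ k p)
  induction a using Polynomial.induction_on' with
  | add a b ha hb =>
    rw [map_add]
    exact ha.add (evJ k p) hb
  | monomial n c =>
    have : evJp k p (Polynomial.monomial n c) = algebraMap k Fk c * jNK k p ^ n := by
      simp [evJp, ← Polynomial.C_mul_X_pow_eq_monomial]
    rw [this]
    refine (hC c).mul (evJ k p) ?_
    clear this
    induction n with
    | zero => simpa using hC 1
    | succ n ih =>
      rw [pow_succ]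
      exact ih.mul (evJ k p) (isIntegralElem_jNK k p)

theorem alHom_comp_evJ (hp : ((p : ℕ) : k) ≠ 0) :
    ((alHom p k hp : Fk →+* Fk)).comp (evJ k p) = evJp k p := by
  apply Polynomial.ringHom_ext
  · intro c
    simp [evJ, evJp]
  · simp [evJ, evJp]

/-- `j_p / j` is integral over `k[j]`. -/
theorem isIntegralElem_jNK_div_jK (h240 : (240 : k) = 0) (hp : ((p : ℕ) : k) ≠ 0)
    (hpp : p.Prime) : (evJ k p).IsIntegralElem (jNK k p / jK k p) := by
  have h1 := IsIntegralElem.map_hom (evJ k p) (alHom p k hp : Fk →+* Fk)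
    (isIntegralElem_jK_div_jNK k p h240 hp hpp)
  rw [alHom_comp_evJ] at h1
  have h2 : (alHom p k hp : Fk →+* Fk) (jK k p / jNK k p) = jNK k p / jK k p := by
    rw [map_div₀]
    simp
  rw [h2] at h1
  exact isIntegralElem_trans (evJ k p) (evJp k p) (isIntegralElem_evJp k p) h1

/-- `Subalgebra` form of integrality over `k[j]`. -/
theorem isIntegral_adjoin_of_isIntegralElem {x : Fk} (hx : (evJ k p).IsIntegralElem x) :
    IsIntegral (Algebra.adjoin k {jK k p}) x := by
  obtain ⟨P, hPm, hP⟩ := hx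
  let g : k[X] →+* Algebra.adjoin k {jK k p} :=
    (Polynomial.aeval (R := k)
      (⟨jK k p, Algebra.subset_adjoin (Set.mem_singleton _)⟩ : Algebra.adjoin k {jK k p})).toRingHom
  have hcomp : (algebraMap (Algebra.adjoin k {jK k p}) Fk).comp g = evJ k p := by
    apply Polynomial.ringHom_ext
    · intro c
      simp [g, evJ]
    · simp [g, evJ]
  refine ⟨P.map g, hPm.map g, ?_⟩
  rw [Polynomial.eval₂_map, hcomp]
  exact hP

end Integrality

/-! ### D. Valuation form -/

section ValuationForm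

/-- a valuation which is `≤ 1` on the image of `f` is `≤ 1` on everything integral over `f`. -/
theorem val_le_one_of_isIntegralElem {A K0 Γ0 : Type*} [CommRing A] [Field K0]
    [LinearOrderedCommGroupWithZero Γ0] (v : Valuation K0 Γ0) (f : A →+* K0)
    (hf : ∀ a, v (f a) ≤ 1) {x : K0} (hx : f.IsIntegralElem x) : v x ≤ 1 := by
  let g : A →+* v.integer :=
    { toFun := fun a => ⟨f a, hf a⟩
      map_one' := Subtype.ext (map_one f)
      map_mul' := fun a b => Subtype.ext (map_mul f a b)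
      map_zero' := Subtype.ext (map_zero f)
      map_add' := fun a b => Subtype.ext (map_add f a b) }
  have hcomp : (algebraMap v.integer K0).comp g = f := by
    ext a
    rfl
  obtain ⟨P, hPm, hP⟩ := hx
  have hxO : IsIntegral v.integer x := by
    refine ⟨P.map g, hPm.map g, ?_⟩
    rw [Polynomial.eval₂_map, hcomp]
    exact hP
  exact (Valuation.integer.integers v).mem_of_integral hxO

variable (k : Type) [Field k] (p : ℕ) [NeZero p]

local notation "Fk" => modularFunctionFieldFullC k p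

variable {K0 Γ0 : Type*} [Field K0] [LinearOrderedCommGroupWithZero Γ0]

/-- a valuation `≤ 1` on the constants and at `j` is `≤ 1` on `k[j]`. -/
theorem val_evJ_le_one (i : Fk →+* K0) (v : Valuation K0 Γ0)
    (hk : ∀ c : k, v (i (algebraMap k Fk c)) ≤ 1) (hJ : v (i (jK k p)) ≤ 1) (a : k[X]) :
    v (i (evJ k p a)) ≤ 1 := by
  induction a using Polynomial.induction_on' with
  | add a b ha hb =>
    rw [map_add, map_add]
    exact (v.map_add _ _).trans (max_le ha hb)
  | monomial n c =>
    have : evJ k p (Polynomial.monomial n c) = algebraMap k Fk c * jK k p ^ n := by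
      simp [evJ, ← Polynomial.C_mul_X_pow_eq_monomial]
    rw [this, map_mul, map_pow, map_mul, map_pow]
    exact mul_le_one' (hk c) (pow_le_one' hJ n)

/-- **integral elements have valuation `≤ 1`** at every place of (an extension of) `k(j, j_p)`
where `j` is finite. -/
theorem val_le_one_of_isIntegralElem_evJ (i : Fk →+* K0) (v : Valuation K0 Γ0)
    (hk : ∀ c : k, v (i (algebraMap k Fk c)) ≤ 1) (hJ : v (i (jK k p)) ≤ 1) {x : Fk}
    (hx : (evJ k p).IsIntegralElem x) : v (i x) ≤ 1 :=
  val_le_one_of_isIntegralElem v (i.comp (evJ k p)) (fun a => val_evJ_le_one k p i v hk hJ a)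
    (IsIntegralElem.map_hom (evJ k p) i hx)

theorem jK_ne_zero : jK k p ≠ 0 := fun h =>
  (transcendental_jK k p) (h ▸ isAlgebraic_zero)

theorem jNK_ne_zero : jNK k p ≠ 0 := fun h =>
  (transcendental_jNK p k) (h ▸ isAlgebraic_zero)

/-- **Step (3)**: `v(j / j_p) = 1` at every place with `v(j) ≤ 1`
(`240 = 0` in `k`, e.g. characteristic `2`; `p` a prime invertible in `k`). -/
theorem val_jK_div_jNK_eq_one (h240 : (240 : k) = 0) (hp : ((p : ℕ) : k) ≠ 0) (hpp : p.Prime)
    (i : Fk →+* K0) (v : Valuation K0 Γ0)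
    (hk : ∀ c : k, v (i (algebraMap k Fk c)) ≤ 1) (hJ : v (i (jK k p)) ≤ 1) :
    v (i (jK k p / jNK k p)) = 1 := by
  have h1 := val_le_one_of_isIntegralElem_evJ k p i v hk hJ
    (isIntegralElem_jK_div_jNK k p h240 hp hpp)
  have h2 := val_le_one_of_isIntegralElem_evJ k p i v hk hJ
    (isIntegralElem_jNK_div_jK k p h240 hp hpp)
  have hmul : v (i (jK k p / jNK k p)) * v (i (jNK k p / jK k p)) = 1 := by
    rw [← map_mul, ← map_mul, div_mul_div_comm, mul_comm (jNK k p),
      div_self (mul_ne_zero (jK_ne_zero k p) (jNK_ne_zero k p)), map_one, map_one]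
  refine le_antisymm h1 ?_
  calc (1 : Γ0) = v (i (jK k p / jNK k p)) * v (i (jNK k p / jK k p)) := hmul.symm
    _ ≤ v (i (jK k p / jNK k p)) * 1 := by gcongr
    _ = v (i (jK k p / jNK k p)) := mul_one _

/-- `v(j_p) = v(j)` at every place with `v(j) ≤ 1`. -/
theorem val_jNK_eq_val_jK (h240 : (240 : k) = 0) (hp : ((p : ℕ) : k) ≠ 0) (hpp : p.Prime)
    (i : Fk →+* K0) (v : Valuation K0 Γ0)
    (hk : ∀ c : k, v (i (algebraMap k Fk c)) ≤ 1) (hJ : v (i (jK k p)) ≤ 1) :
    v (i (jNK k p)) = v (i (jK k p)) := by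
  have h := val_jK_div_jNK_eq_one k p h240 hp hpp i v hk hJ
  have hne : v (i (jNK k p)) ≠ 0 := by
    rw [ne_eq, map_eq_zero, map_eq_zero]
    exact jNK_ne_zero k p
  rw [map_div₀, map_div₀, div_eq_one_iff_eq hne] at h
  exact h.symm

/-- characteristic `2` wrapper: an odd prime is invertible. -/
theorem natCast_ne_zero_of_charTwo [CharP k 2] (hpp : p.Prime) (hp2 : p ≠ 2) :
    ((p : ℕ) : k) ≠ 0 := by
  rw [ne_eq, CharP.cast_eq_zero_iff k 2 p]
  intro h
  exact hp2 ((Nat.prime_dvd_prime_iff_eq Nat.prime_two hpp).1 h).symm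

/-- **Step (3), characteristic `2`**: `v(j_p) = v(j)` wherever `v(j) ≤ 1`. -/
theorem val_jNK_eq_val_jK_charTwo [CharP k 2] (hpp : p.Prime) (hp2 : p ≠ 2)
    (i : Fk →+* K0) (v : Valuation K0 Γ0)
    (hk : ∀ c : k, v (i (algebraMap k Fk c)) ≤ 1) (hJ : v (i (jK k p)) ≤ 1) :
    v (i (jNK k p)) = v (i (jK k p)) :=
  val_jNK_eq_val_jK k p (ofNat_240_eq_zero k) (natCast_ne_zero_of_charTwo k p hpp hp2) hpp i v
    hk hJ

end ValuationForm

end Fermat.Agent.S16.H36
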