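import Mathlib
import Fermat.Agent.S29.H62_BaseChangeField

/-!
# S16 / P6 DICT-Q, part 2: coefficient descent for `laurentBaseChange` (helper38)

Wrappers around helper62's field descent `FL ∩ k((q)) = Fk` (`H62.mem_laurentBaseChange_of_coeffMap_mem`):

* `exists_coeffMap_eq_of_forall_mem_range` : a Laurent series over `L` all of whose coefficients
  come from `k` (via an injective ring hom) is `coeffMap` of a Laurent series over `k`;
* `exists_coeffMap_subtype_eq` : the same for a subring `A ⊆ k` (e.g. a valuation ring);
* `exists_bcField_eq_of_forall_coeff_mem_range` : an element of `laurentBaseChange L F₀` with all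
  coefficients in `k` comes from `laurentBaseChange k F₀`;
* `exists_integral_model` : an element of `laurentBaseChange L F₀` with all coefficients in (the image
  of) a subring `A ⊆ k` is `coeffMap (k → L) (coeffMap A.subtype z)` with
  `coeffMap A.subtype z ∈ laurentBaseChange k F₀` (the input shape of helper92's
  `H92.up_mem_gaussO`).
-/

set_option autoImplicit false

noncomputable section

namespace Fermat.Agent.S16.H38

open ModularCurve HahnSeries Fermat.Agent.S29

section Series

variable {R S : Type*} [CommRing R] [CommRing S]

/-- A Laurent series all of whose coefficients lie in the range of an injective ring hom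
`φ : R →+* S` is `coeffMap φ` of a Laurent series over `R`. -/
theorem exists_coeffMap_eq_of_forall_mem_range (φ : R →+* S) (hφ : Function.Injective φ)
    (x : LaurentSeries S) (h : ∀ n, x.coeff n ∈ Set.range φ) :
    ∃ y : LaurentSeries R, coeffMap φ y = x := by
  classical
  choose c hc using h
  have hsupp : Function.support c = x.support := by
    ext n
    rw [Function.mem_support, HahnSeries.mem_support, ← hc n, ne_eq, ne_eq,
      map_eq_zero_iff φ hφ]
  refine ⟨{ coeff := c
            isPWO_support' := by
              rw [hsupp]
              exact x.isPWO_support }, ?_⟩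
  ext n
  rw [coeffMap_coeff]
  exact hc n

theorem coeffMap_injective_of_injective (φ : R →+* S) (hφ : Function.Injective φ) :
    Function.Injective (coeffMap φ) := by
  intro x y h
  ext n
  have := congrArg (fun z => z.coeff n) h
  simp only [coeffMap_coeff] at this
  exact hφ this

end Series

section Subring

variable {k L : Type*} [Field k] [Field L] [Algebra k L]

/-- A Laurent series over `L` all of whose coefficients come from a subring `A ⊆ k` is the
image of a Laurent series over `A`. -/
theorem exists_coeffMap_subtype_eq (A : Subring k) (x : LaurentSeries L)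
    (h : ∀ n, ∃ a : A, algebraMap k L (a : k) = x.coeff n) :
    ∃ z : LaurentSeries A, coeffMap (algebraMap k L) (coeffMap A.subtype z) = x := by
  have hinj : Function.Injective ((algebraMap k L).comp A.subtype) :=
    (algebraMap k L).injective.comp Subtype.val_injective
  obtain ⟨z, hz⟩ := exists_coeffMap_eq_of_forall_mem_range ((algebraMap k L).comp A.subtype) hinj x
    (fun n => by
      obtain ⟨a, ha⟩ := h n
      exact ⟨a, ha⟩)
  exact ⟨z, by rw [coeffMap_coeffMap]; exact hz⟩

/-- Multiplicative form: if `x * b = a` in `L((q))` with `a`, `b` having coefficients in `k`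
(`b ≠ 0`) then `x` has coefficients in `k`. -/
theorem exists_coeffMap_eq_of_mul_eq {x : LaurentSeries L} {a b : LaurentSeries k}
    (hb : b ≠ 0) (hx : x * coeffMap (algebraMap k L) b = coeffMap (algebraMap k L) a) :
    x = coeffMap (algebraMap k L) (a / b) := by
  have hb' : coeffMap (algebraMap k L) b ≠ 0 := fun h0 =>
    hb (coeffMap_injective_of_injective _ (algebraMap k L).injective (by rw [h0, map_zero]))
  rw [map_div₀, ← hx, mul_div_assoc, div_self hb', mul_one]

end Subring

section Descent

variable {k L : Type*} [Field k] [Field L] [Algebra ℚ k] [Algebra ℚ L] [Algebra k L]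
  [IsScalarTower ℚ k L] (F₀ : IntermediateField ℚ (LaurentSeries ℚ))

/-- **Coefficient descent**: an element of `laurentBaseChange L F₀` all of whose coefficients lie
in `k` comes from `laurentBaseChange k F₀`. -/
theorem exists_bcField_eq_of_forall_coeff_mem_range (f : ↥(laurentBaseChange L F₀))
    (h : ∀ n, (f : LaurentSeries L).coeff n ∈ Set.range (algebraMap k L)) :
    ∃ g : ↥(laurentBaseChange k F₀), H62.bcField F₀ g = f := by
  obtain ⟨y, hy⟩ := exists_coeffMap_eq_of_forall_mem_range (algebraMap k L)
    (algebraMap k L).injective (f : LaurentSeries L) h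
  exact H62.exists_bcField_eq_of_coeffMap_eq F₀ hy.symm

/-- The element `g` is unique. -/
theorem existsUnique_bcField_eq_of_forall_coeff_mem_range (f : ↥(laurentBaseChange L F₀))
    (h : ∀ n, (f : LaurentSeries L).coeff n ∈ Set.range (algebraMap k L)) :
    ∃! g : ↥(laurentBaseChange k F₀), H62.bcField F₀ g = f := by
  obtain ⟨g, hg⟩ := exists_bcField_eq_of_forall_coeff_mem_range F₀ f h
  exact ⟨g, hg, fun g' hg' => H62.bcField_injective F₀ (hg'.trans hg.symm)⟩

/-- **Integral model**: an element of `laurentBaseChange L F₀` all of whose coefficients come from a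
subring `A ⊆ k` is the image of `z : LaurentSeries A` with
`coeffMap A.subtype z ∈ laurentBaseChange k F₀`. -/
theorem exists_integral_model (A : Subring k) (f : ↥(laurentBaseChange L F₀))
    (h : ∀ n, ∃ a : A, algebraMap k L (a : k) = (f : LaurentSeries L).coeff n) :
    ∃ (z : LaurentSeries A) (hz : coeffMap A.subtype z ∈ laurentBaseChange k F₀),
      H62.bcField F₀ ⟨coeffMap A.subtype z, hz⟩ = f := by
  obtain ⟨z, hz⟩ := exists_coeffMap_subtype_eq A (f : LaurentSeries L) h
  have hmem : coeffMap A.subtype z ∈ laurentBaseChange k F₀ :=
    H62.mem_laurentBaseChange_of_coeffMap_mem F₀ (by rw [hz]; exact f.2)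
  exact ⟨z, hmem, Subtype.ext hz⟩

end Descent

end Fermat.Agent.S16.H38
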