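/-
S16 project, package GEO-e (helper41): the geometric input of the `(U,2; p = 3 mod 4)` step, abstract
part, on top of the S18 PURITY package (`Fermat.Agent.S18.H41_PurityMain`).

Setting of PURITY: `R` a noetherian integrally closed domain, `π ∈ R` prime with `R ⧸ π` a PID (not
a field), `K = Frac R`, `L / K` finite separable, `B` the integral closure of `R` in `L`, and the
named conditions `VertCond R K L π`, `HorCond R K L π`.  (Instance: `R = A₁[μ, 1/(μ³-1)]`, the
Hesse line over the strict DVR `A₁`, `π = 2`, `L = F₁(μ)`.)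

Results (valuation-theoretic form, no completion, no derivation):
* `exists_valuationSubring_over` : for every maximal ideal `p ∋ π` of `R` there are a field `κ`, a
  ring homomorphism `φ : B → κ` killing `π` with `κ = Frac (φ B)`, and a valuation subring `O ≠ ⊤`
  of `κ` containing `φ B` and centred over `p`;
* `exists_valuation_eq_zpow`, `valuation_eq_zpow_of_span_pair` : for ANY such `(κ, φ, O)` the
  valuation is discrete: every nonzero value is an integral power of `v (φ f)`, `p = (π, f)`;
* `exists_valuation_max_lt_one`, `valuation_le_of_span_pair` : for ANY such `(κ, φ, O)`, a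
  generator `f` of `p / π` (`p = (π, f)`) has the largest value `< 1`: it is a uniformiser of `O`
  (the special fibre is unramified over the base line at every closed point);
* `sq_ne_of_max_lt_one` : hence `v (φ f)` is not a square in the value group;
* `ker_comp_algebraMap_eq_span` : the kernel of `R → B → κ` is `(π)`;
* `exists_ringHom_comp_eq` (Mathlib only) : a ring homomorphism `ψ : B₁ → κ` with the same kernel as
  `red : B₁ → Fk`, `Fk = Frac (red B₁)`, factors through an embedding `Fk → κ`;
* `not_isMaximal_ker_comp`, `ker_comp_eq_of_forall_isMaximal` (no PURITY needed) : for `B` integral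
  over a subring `B₁` (the modular chart ring), the kernel of `B₁ → B → κ` is not maximal; if
  `B₁ ⧸ π` is a one-dimensional domain the kernel is `π B₁`, so `Frac (B₁ ⧸ π)` embeds into `κ`.
-/
import Fermat.Agent.S18.H41_PurityMain

set_option autoImplicit false
set_option linter.unusedSectionVars false

open Module IsLocalRing

namespace Fermat.Agent.S16.H41

open Fermat.Agent.S18.H41

section Kernel

/-- If `κ = Frac (φ B)` and every nonzero element of `φ B` is a unit of the valuation subring
`O ⊇ φ B`, then `O = ⊤`. -/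
theorem valuationSubring_eq_top_of_forall_inv_mem {B κ : Type*} [CommRing B] [Field κ]
    (φ : B →+* κ) (hfrac : ∀ z : κ, ∃ a b : B, φ b ≠ 0 ∧ z * φ b = φ a)
    (O : ValuationSubring κ) (hO : ∀ b : B, φ b ∈ O)
    (hinv : ∀ b : B, φ b ≠ 0 → (φ b)⁻¹ ∈ O) : O = ⊤ := by
  rw [eq_top_iff]
  intro z _
  obtain ⟨a, b, hb, hab⟩ := hfrac z
  have : z = φ a * (φ b)⁻¹ := by
    rw [← hab, mul_assoc, mul_inv_cancel₀ hb, mul_one]
  rw [this]
  exact O.mul_mem _ _ (hO a) (hinv b hb)

/-- **The kernel on an integral subring is not maximal.**  `B` integral over `B₁`, `φ : B → κ` with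
`κ = Frac (φ B)`, `O ≠ ⊤` a valuation subring of `κ` containing `φ B`.  Then the kernel of
`B₁ → B → κ` is not a maximal ideal of `B₁`.  (Used to embed the residue function field
`Frac (B₁ ⧸ π)` of the modular chart into the field `κ` of the Hesse cover.) -/
theorem not_isMaximal_ker_comp {B₁ B κ : Type*} [CommRing B₁] [CommRing B] [Algebra B₁ B]
    [Algebra.IsIntegral B₁ B] [Field κ]
    (φ : B →+* κ) (hfrac : ∀ z : κ, ∃ a b : B, φ b ≠ 0 ∧ z * φ b = φ a)
    (O : ValuationSubring κ) (hO : ∀ b : B, φ b ∈ O) (hOtop : O ≠ ⊤) :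
    ¬ (RingHom.ker (φ.comp (algebraMap B₁ B))).IsMaximal := by
  intro hmax
  apply hOtop
  apply valuationSubring_eq_top_of_forall_inv_mem φ hfrac O hO
  intro b hb
  set ψ : B₁ →+* κ := φ.comp (algebraMap B₁ B) with hψ
  let _ : Field (B₁ ⧸ RingHom.ker ψ) := Ideal.Quotient.field _
  let ψb : (B₁ ⧸ RingHom.ker ψ) →+* κ := Ideal.Quotient.lift _ ψ (fun a ha => ha)
  let _ : Algebra (B₁ ⧸ RingHom.ker ψ) κ := ψb.toAlgebra
  let _ : Algebra B₁ κ := ψ.toAlgebra
  have : IsScalarTower B₁ (B₁ ⧸ RingHom.ker ψ) κ := IsScalarTower.of_algebraMap_eq (fun a => rfl)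
  -- `φ.range` as a subalgebra over the field `B₁ ⧸ ker ψ`
  let A : Subalgebra (B₁ ⧸ RingHom.ker ψ) κ :=
    { φ.range.toSubsemiring with
      algebraMap_mem' := by
        intro c
        obtain ⟨c, rfl⟩ := Ideal.Quotient.mk_surjective c
        exact ⟨algebraMap B₁ B c, rfl⟩ }
  have hbA : φ b ∈ A := ⟨b, rfl⟩
  have hint : IsIntegral B₁ (φ b) := by
    let φa : B →ₐ[B₁] κ := { φ with commutes' := fun a => rfl }
    exact (Algebra.IsIntegral.isIntegral (R := B₁) b).map φa
  have halg : IsAlgebraic (B₁ ⧸ RingHom.ker ψ) (φ b) := (hint.tower_top).isAlgebraic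
  have h1 : ((⟨φ b, hbA⟩ : A) : κ)⁻¹ ∈ A := A.inv_mem_of_algebraic (x := ⟨φ b, hbA⟩) halg
  obtain ⟨b', hb'⟩ := h1
  rw [← hb']
  exact hO b'

/-- Consumer form of `not_isMaximal_ker_comp`: if `P` is a prime of `B₁` killed by `B₁ → B → κ`
and every prime strictly above `P` is maximal (`B₁ ⧸ P` has dimension `≤ 1`), then the kernel of
`B₁ → κ` is exactly `P`: so `Frac (B₁ ⧸ P)` embeds into `κ`. -/
theorem ker_comp_eq_of_forall_isMaximal {B₁ B κ : Type*} [CommRing B₁] [CommRing B] [Algebra B₁ B]
    [Algebra.IsIntegral B₁ B] [Field κ]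
    (φ : B →+* κ) (hfrac : ∀ z : κ, ∃ a b : B, φ b ≠ 0 ∧ z * φ b = φ a)
    (O : ValuationSubring κ) (hO : ∀ b : B, φ b ∈ O) (hOtop : O ≠ ⊤)
    (P : Ideal B₁) (hP : P ≤ RingHom.ker (φ.comp (algebraMap B₁ B)))
    (hdim : ∀ Q : Ideal B₁, Q.IsPrime → P < Q → Q.IsMaximal) :
    RingHom.ker (φ.comp (algebraMap B₁ B)) = P := by
  by_contra hne
  have hlt : P < RingHom.ker (φ.comp (algebraMap B₁ B)) := lt_of_le_of_ne hP (Ne.symm hne)
  exact not_isMaximal_ker_comp φ hfrac O hO hOtop (hdim _ (RingHom.ker_isPrime _) hlt)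

/-- **Extension of a ring homomorphism to the fraction field of the image.**  `red : B₁ → Fk` with
`Fk = Frac (red B₁)`, and `ψ : B₁ → κ` (a field) with the same kernel.  Then there is a (unique)
field homomorphism `ι : Fk → κ` with `ι ∘ red = ψ`. -/
theorem exists_ringHom_comp_eq {B₁ Fk κ : Type*} [CommRing B₁] [Field Fk] [Field κ]
    (red : B₁ →+* Fk) (hfrac : ∀ γ : Fk, ∃ a b : B₁, red b ≠ 0 ∧ γ * red b = red a)
    (ψ : B₁ →+* κ) (hker : ∀ b : B₁, ψ b = 0 ↔ red b = 0) :
    ∃ ι : Fk →+* κ, ∀ b : B₁, ι (red b) = ψ b := by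
  classical
  let P : Ideal B₁ := RingHom.ker red
  have hP : P.IsPrime := RingHom.ker_isPrime red
  let D := B₁ ⧸ P
  let redb : D →+* Fk := Ideal.Quotient.lift P red (fun a ha => ha)
  have hredb : ∀ b, redb (Ideal.Quotient.mk P b) = red b := fun b => Ideal.Quotient.lift_mk P red _
  have hredb_inj : Function.Injective redb := by
    rw [injective_iff_map_eq_zero]
    intro d hd
    obtain ⟨b, rfl⟩ := Ideal.Quotient.mk_surjective d
    rw [hredb] at hd
    exact Ideal.Quotient.eq_zero_iff_mem.2 hd
  let ψb : D →+* κ := Ideal.Quotient.lift P ψ (fun a ha => (hker a).2 ha)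
  have hψb : ∀ b, ψb (Ideal.Quotient.mk P b) = ψ b := fun b => Ideal.Quotient.lift_mk P ψ _
  have hψb_inj : Function.Injective ψb := by
    rw [injective_iff_map_eq_zero]
    intro d hd
    obtain ⟨b, rfl⟩ := Ideal.Quotient.mk_surjective d
    rw [hψb] at hd
    exact Ideal.Quotient.eq_zero_iff_mem.2 ((hker b).1 hd)
  let _ : Algebra D Fk := redb.toAlgebra
  have hfaith : FaithfulSMul D Fk := (faithfulSMul_iff_algebraMap_injective D Fk).2 hredb_inj
  have hfr : IsFractionRing D Fk := by
    apply IsFractionRing.of_field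
    intro γ
    obtain ⟨a, b, hb, hab⟩ := hfrac γ
    refine ⟨Ideal.Quotient.mk P a, Ideal.Quotient.mk P b, ?_⟩
    change γ = redb _ / redb _
    rw [hredb, hredb, eq_div_iff hb, hab]
  refine ⟨IsFractionRing.lift (A := D) (K := Fk) hψb_inj, ?_⟩
  intro b
  have : red b = algebraMap D Fk (Ideal.Quotient.mk P b) := (hredb b).symm
  rw [this, IsFractionRing.lift_algebraMap, hψb]

end Kernel

section GeoE

universe uB

variable {R K L : Type*} {B : Type uB} [CommRing R] [IsDomain R] [IsNoetherianRing R] [IsIntegrallyClosed R]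
  [Field K] [Algebra R K] [IsFractionRing R K] [Field L] [Algebra K L] [Algebra R L]
  [IsScalarTower R K L]
  [CommRing B] [Algebra R B] [Algebra B L] [IsScalarTower R B L]
  [IsIntegralClosure B R L] [FiniteDimensional K L] [Algebra.IsSeparable K L]
  {π : R}

omit [IsDomain R] [IsNoetherianRing R] [IsIntegrallyClosed R] [IsFractionRing R K]
  [IsScalarTower R K L] [IsIntegralClosure B R L] [FiniteDimensional K L]
  [Algebra.IsSeparable K L] [Field K] [Algebra R K] [Field L] [Algebra K L] [Algebra R L]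
  [CommRing B] [Algebra R B] [Algebra B L] [IsScalarTower R B L] [CommRing R] in
/-- A localisation `A = C_x` which is a valuation ring (not a field), inside its fraction field
`κ`: the valuation subring `O = A` of `κ`, with the properties of the composite `ψ : C → A → κ`
used below. -/
theorem exists_valuationSubring_of_isLocalization {C : Type*} [CommRing C] (x : Ideal C)
    [x.IsPrime] (A : Type*) [CommRing A] [Algebra C A] [IsLocalization.AtPrime A x] [IsDomain A]
    [ValuationRing A] (κ : Type*) [Field κ] [Algebra A κ] [IsFractionRing A κ]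
    (hnf : ¬ IsField A) :
    ∃ O : ValuationSubring κ,
      (∀ c : C, (algebraMap A κ).comp (algebraMap C A) c = 0 ↔ algebraMap C A c = 0) ∧
      (∀ z : κ, ∃ a b : C, (algebraMap A κ).comp (algebraMap C A) b ≠ 0 ∧
        z * (algebraMap A κ).comp (algebraMap C A) b = (algebraMap A κ).comp (algebraMap C A) a) ∧
      (∀ c : C, (algebraMap A κ).comp (algebraMap C A) c ∈ O) ∧ O ≠ ⊤ ∧
      ∀ c ∈ x, O.valuation ((algebraMap A κ).comp (algebraMap C A) c) < 1 := by
  classical
  have hAκ : Function.Injective (algebraMap A κ) := IsFractionRing.injective A κ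
  let O : ValuationSubring κ :=
    { (algebraMap A κ).range with
      mem_or_inv_mem' := by
        intro z
        rcases ValuationRing.isInteger_or_isInteger A z with ⟨a, ha⟩ | ⟨a, ha⟩
        · exact Or.inl ⟨a, ha⟩
        · exact Or.inr ⟨a, ha⟩ }
  have hOmem : ∀ z : κ, z ∈ O ↔ ∃ a : A, algebraMap A κ a = z := fun z => Iff.rfl
  have : IsLocalRing A := IsLocalization.AtPrime.isLocalRing A x
  -- elements of the maximal ideal have valuation `< 1`
  have hlt : ∀ a : A, a ∈ maximalIdeal A → O.valuation (algebraMap A κ a) < 1 := by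
    intro a ha
    by_contra hge
    push Not at hge
    have hne : algebraMap A κ a ≠ 0 := by
      intro h0
      rw [h0, map_zero] at hge
      exact absurd hge (not_le.2 zero_lt_one)
    have hinv : (algebraMap A κ a)⁻¹ ∈ O := by
      rw [← ValuationSubring.valuation_le_one_iff, map_inv₀]
      exact inv_le_one_of_one_le₀ hge
    obtain ⟨b, hb⟩ := (hOmem _).1 hinv
    have : algebraMap A κ (a * b) = algebraMap A κ 1 := by
      rw [map_mul, hb, map_one, mul_inv_cancel₀ hne]
    have hab : a * b = 1 := hAκ this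
    exact (IsLocalRing.mem_maximalIdeal a).1 ha (IsUnit.of_mul_eq_one b hab)
  refine ⟨O, ?_, ?_, ?_, ?_, ?_⟩
  · intro c
    rw [RingHom.comp_apply, map_eq_zero_iff _ hAκ]
  · intro z
    obtain ⟨a, s, hs, rfl⟩ := IsFractionRing.div_surjective (A := A) z
    obtain ⟨c, t, hct⟩ := IsLocalization.exists_mk'_eq x.primeCompl a
    obtain ⟨c', t', hct'⟩ := IsLocalization.exists_mk'_eq x.primeCompl s
    have hs0 : s ≠ 0 := nonZeroDivisors.ne_zero hs
    have h1 : a * algebraMap C A t = algebraMap C A c := by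
      rw [← hct]; exact IsLocalization.mk'_spec A _ t
    have h2 : s * algebraMap C A t' = algebraMap C A c' := by
      rw [← hct']; exact IsLocalization.mk'_spec A _ t'
    have htu : IsUnit (algebraMap C A t) := IsLocalization.map_units A t
    have htu' : IsUnit (algebraMap C A t') := IsLocalization.map_units A t'
    have e1 : (algebraMap A κ).comp (algebraMap C A) (c * t') =
        algebraMap A κ a * algebraMap A κ (algebraMap C A t) * algebraMap A κ (algebraMap C A t') := by
      rw [RingHom.comp_apply, map_mul (algebraMap C A), ← h1, map_mul, map_mul]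
    have e2 : (algebraMap A κ).comp (algebraMap C A) (c' * t) =
        algebraMap A κ s * algebraMap A κ (algebraMap C A t') * algebraMap A κ (algebraMap C A t) := by
      rw [RingHom.comp_apply, map_mul (algebraMap C A), ← h2, map_mul, map_mul]
    have hsκ : algebraMap A κ s ≠ 0 := (map_ne_zero_iff _ hAκ).2 hs0
    refine ⟨c * t', c' * t, ?_, ?_⟩
    · rw [e2]
      exact mul_ne_zero (mul_ne_zero hsκ ((map_ne_zero_iff _ hAκ).2 htu'.ne_zero))
        ((map_ne_zero_iff _ hAκ).2 htu.ne_zero)
    · rw [e1, e2]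
      field_simp
  · intro c
    exact (hOmem _).2 ⟨_, rfl⟩
  · -- `O ≠ ⊤`
    intro htop
    apply hnf
    refine ⟨⟨0, 1, zero_ne_one⟩, mul_comm, ?_⟩
    intro a ha
    have hmem : (algebraMap A κ a)⁻¹ ∈ O := by rw [htop]; trivial
    obtain ⟨b, hb⟩ := (hOmem _).1 hmem
    refine ⟨b, hAκ ?_⟩
    rw [map_mul, hb, map_one, mul_inv_cancel₀ ((map_ne_zero_iff _ hAκ).2 ha)]
  · intro c hc
    rw [RingHom.comp_apply]
    exact hlt _ ((IsLocalization.AtPrime.to_map_mem_maximal_iff A x c).2 hc)

/-- **Valuations centred on the special fibre are discrete, with uniformiser a generator of the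
base point.**  Setting of `H41_PurityMain` (`R` noetherian normal domain, `π` prime, `R ⧸ π` a PID
not a field, `B` the integral closure of `R` in the finite separable `L / Frac R`, (VERT) and
(HOR)).  Let `φ : B → κ` be a ring homomorphism to a field killing `π`, with `κ` the fraction field
of `φ B`, and let `O ≠ ⊤` be a valuation subring of `κ` containing `φ B`.  Then there is `w : R`,
generating a maximal ideal of `R ⧸ π`, with `v (φ w) < 1` and **every nonzero value an integral
power of `v (φ w)`**. -/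
theorem exists_valuation_eq_zpow (hπ : Prime π)
    [IsPrincipalIdealRing (R ⧸ Ideal.span {π})] (hnf : ¬ IsField (R ⧸ Ideal.span {π}))
    (hV : VertCond R K L π) (hH : HorCond R K L π)
    {κ : Type*} [Field κ] (φ : B →+* κ) (hφπ : φ (algebraMap R B π) = 0)
    (hfrac : ∀ z : κ, ∃ a b : B, φ b ≠ 0 ∧ z * φ b = φ a)
    (O : ValuationSubring κ) (hO : ∀ b : B, φ b ∈ O) (hOtop : O ≠ ⊤) :
    ∃ w : R, (Ideal.span {Ideal.Quotient.mk (Ideal.span {π}) w}).IsMaximal ∧
      φ (algebraMap R B w) ≠ 0 ∧ O.valuation (φ (algebraMap R B w)) < 1 ∧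
      ∀ y : κ, y ≠ 0 → ∃ m : ℤ, O.valuation y = O.valuation (φ (algebraMap R B w)) ^ m := by
  classical
  set I : Ideal B := (Ideal.span {π}).map (algebraMap R B) with hI
  -- `φ` factors through the special fibre
  have hφI : ∀ a ∈ I, φ a = 0 := by
    intro a ha
    rw [hI, Ideal.map_span, Set.image_singleton, Ideal.mem_span_singleton'] at ha
    obtain ⟨c, rfl⟩ := ha
    rw [map_mul, hφπ, mul_zero]
  let φb : (B ⧸ I) →+* κ := Ideal.Quotient.lift I φ hφI
  have hφb : ∀ b : B, φb (Ideal.Quotient.mk I b) = φ b := fun b => Ideal.Quotient.lift_mk I φ hφI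
  have hφbO : ∀ c : B ⧸ I, φb c ∈ O.toSubring := by
    intro c
    obtain ⟨b, rfl⟩ := Ideal.Quotient.mk_surjective c
    rw [hφb]; exact hO b
  let ψ : (B ⧸ I) →+* O := φb.codRestrict O.toSubring hφbO
  have hψ : ∀ c, ((ψ c : O) : κ) = φb c := fun c => rfl
  -- the centre and a maximal ideal above it
  have hx₀ : (Ideal.comap ψ (maximalIdeal O)) ≠ ⊤ := (Ideal.comap_isPrime ψ _).ne_top
  obtain ⟨x, hxmax, hx₀x⟩ := Ideal.exists_le_maximal _ hx₀
  obtain ⟨w, hw0, hwmax, hwx, hwgen, hdom, hdvr⟩ :=
    exists_isDiscreteValuationRing_localization_quotient (K := K) (L := L) (B := B)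
      hπ hnf hV hH x
  obtain ⟨w₀, rfl⟩ := Ideal.Quotient.mk_surjective w
  -- the local homomorphism `C_x → O`
  have hunit : ∀ y : x.primeCompl, IsUnit (ψ y) := by
    rintro ⟨y, hy⟩
    by_contra hnu
    exact hy (hx₀x (by
      rw [Ideal.mem_comap]
      exact (IsLocalRing.mem_maximalIdeal _).2 hnu))
  let ι : Localization.AtPrime x →+* O := IsLocalization.lift (M := x.primeCompl) hunit
  have hι : ∀ c : B ⧸ I, ι (algebraMap _ _ c) = ψ c := fun c => IsLocalization.lift_eq hunit c
  set ϖ : Localization.AtPrime x := algebraMap _ (Localization.AtPrime x)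
    (algebraMap (R ⧸ Ideal.span {π}) (B ⧸ I) (Ideal.Quotient.mk (Ideal.span {π}) w₀)) with hϖ
  have hirr : Irreducible ϖ := (IsDiscreteValuationRing.irreducible_iff_uniformizer ϖ).2 hwgen
  have hιϖ : ((ι ϖ : O) : κ) = φ (algebraMap R B w₀) := by
    rw [hϖ, hι, hψ, Ideal.Quotient.algebraMap_quotient_map_quotient, hφb]
  -- units of `C_x` have valuation one
  have hvunit : ∀ u : (Localization.AtPrime x)ˣ, O.valuation ((ι u : O) : κ) = 1 := by
    intro u
    have h1 : IsUnit (ι (u : Localization.AtPrime x)) := (u.isUnit).map ι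
    exact (ValuationSubring.valuation_eq_one_iff O _).1 h1
  -- every nonzero element of `κ` is `unit * ϖ ^ (m - n)`
  set g := O.valuation (φ (algebraMap R B w₀)) with hg
  have hval : ∀ a : B, φ a ≠ 0 → ∃ m : ℕ, O.valuation (φ a) = g ^ m := by
    intro a ha
    have hne : algebraMap (B ⧸ I) (Localization.AtPrime x) (Ideal.Quotient.mk I a) ≠ 0 := by
      intro h0
      apply ha
      have := hι (Ideal.Quotient.mk I a)
      rw [h0, map_zero] at this
      have h2 : ((ψ (Ideal.Quotient.mk I a) : O) : κ) = 0 := by rw [← this]; rfl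
      rwa [hψ, hφb] at h2
    obtain ⟨m, u, hu⟩ := IsDiscreteValuationRing.eq_unit_mul_pow_irreducible hne hirr
    refine ⟨m, ?_⟩
    have h3 : φ a = ((ι (u : Localization.AtPrime x) : O) : κ) * (φ (algebraMap R B w₀)) ^ m := by
      rw [← hφb a, ← hψ, ← hι, hu, map_mul, map_pow, ← hιϖ]
      rfl
    rw [h3, map_mul, map_pow, hvunit, one_mul]
  -- `g < 1`, `g ≠ 0`
  have hgle : g ≤ 1 := by
    rw [hg, ← hιϖ]; exact O.valuation_le_one _
  have hall : ∀ a : B, φ a ≠ 0 → g = 1 → O.valuation (φ a) = 1 := by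
    intro a ha h1
    obtain ⟨m, hm⟩ := hval a ha
    rw [hm, h1, one_pow]
  have htop_of : (∀ a : B, φ a ≠ 0 → O.valuation (φ a) = 1) → O = ⊤ := by
    intro h
    rw [eq_top_iff]
    intro z _
    obtain ⟨a, b, hb, hab⟩ := hfrac z
    rw [← ValuationSubring.valuation_le_one_iff]
    by_cases ha : φ a = 0
    · rw [ha] at hab
      have : z = 0 := by
        rcases mul_eq_zero.1 hab with h | h
        · exact h
        · exact absurd h hb
      rw [this, map_zero]; exact zero_le_one
    · have h1 := congrArg O.valuation hab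
      rw [map_mul, h b hb, h a ha, mul_one] at h1
      rw [h1]
  have hφw : φ (algebraMap R B w₀) ≠ 0 := by
    intro h0
    apply hOtop
    apply htop_of
    intro a ha
    obtain ⟨m, hm⟩ := hval a ha
    rcases Nat.eq_zero_or_pos m with rfl | hmpos
    · rw [hm, pow_zero]
    · exfalso
      have : O.valuation (φ a) = 0 := by
        rw [hm, hg, h0, map_zero, zero_pow hmpos.ne']
      exact ha ((map_eq_zero _).1 this)
  have hg0 : g ≠ 0 := by
    rw [hg]; exact (map_ne_zero _).2 hφw
  have hglt : g < 1 := by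
    rcases lt_or_eq_of_le hgle with h | h
    · exact h
    · exact absurd (htop_of fun a ha => hall a ha h) hOtop
  refine ⟨w₀, hwmax, hφw, hglt, ?_⟩
  intro y hy0
  obtain ⟨a, b, hb, hab⟩ := hfrac y
  have ha : φ a ≠ 0 := by
    intro h0
    rw [h0] at hab
    rcases mul_eq_zero.1 hab with h | h
    · exact hy0 h
    · exact hb h
  obtain ⟨m, hm⟩ := hval a ha
  obtain ⟨n, hn⟩ := hval b hb
  have h1 := congrArg O.valuation hab
  rw [map_mul, hm, hn] at h1
  refine ⟨(m : ℤ) - n, ?_⟩
  have hgn : g ^ n ≠ 0 := pow_ne_zero _ hg0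
  rw [zpow_sub₀ hg0, zpow_natCast, zpow_natCast, eq_div_iff hgn, h1]

/-- **Valuations centred on the special fibre see a generator of the base point as uniformiser.**
Same setting as `exists_valuation_eq_zpow`: there is `w : R`, generating a maximal ideal of
`R ⧸ π`, such that `v (φ w)` is the **largest value `< 1`**. -/
theorem exists_valuation_max_lt_one (hπ : Prime π)
    [IsPrincipalIdealRing (R ⧸ Ideal.span {π})] (hnf : ¬ IsField (R ⧸ Ideal.span {π}))
    (hV : VertCond R K L π) (hH : HorCond R K L π)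
    {κ : Type*} [Field κ] (φ : B →+* κ) (hφπ : φ (algebraMap R B π) = 0)
    (hfrac : ∀ z : κ, ∃ a b : B, φ b ≠ 0 ∧ z * φ b = φ a)
    (O : ValuationSubring κ) (hO : ∀ b : B, φ b ∈ O) (hOtop : O ≠ ⊤) :
    ∃ w : R, (Ideal.span {Ideal.Quotient.mk (Ideal.span {π}) w}).IsMaximal ∧
      φ (algebraMap R B w) ≠ 0 ∧ O.valuation (φ (algebraMap R B w)) < 1 ∧
      ∀ y : κ, O.valuation y < 1 → O.valuation y ≤ O.valuation (φ (algebraMap R B w)) := by
  obtain ⟨w, hwmax, hw0, hwlt, hpow⟩ :=
    exists_valuation_eq_zpow (K := K) (L := L) hπ hnf hV hH φ hφπ hfrac O hO hOtop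
  refine ⟨w, hwmax, hw0, hwlt, ?_⟩
  intro y hy
  by_cases hy0 : y = 0
  · rw [hy0, map_zero]; exact zero_le
  obtain ⟨m, hm⟩ := hpow y hy0
  set g := O.valuation (φ (algebraMap R B w)) with hg
  have hg0 : g ≠ 0 := (map_ne_zero _).2 hw0
  have hgpos : 0 < g := zero_lt_iff.2 hg0
  rw [hm] at hy ⊢
  -- `g ^ m < 1` with `g < 1` forces `1 ≤ m`
  have hm1 : 1 ≤ m := by
    by_contra hlt
    push Not at hlt
    have hm0 : m ≤ 0 := by omega
    have : (1 : O.ValueGroup) ≤ g ^ m := by
      obtain ⟨n, rfl⟩ : ∃ n : ℕ, m = -(n : ℤ) := ⟨(-m).toNat, by omega⟩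
      rw [zpow_neg, zpow_natCast]
      exact (one_le_inv₀ (pow_pos hgpos n)).2 (pow_le_one₀ zero_le hwlt.le)
    exact absurd hy (not_lt.2 this)
  obtain ⟨n, rfl⟩ : ∃ n : ℕ, m = (n : ℤ) + 1 := ⟨(m - 1).toNat, by omega⟩
  rw [zpow_add_one₀ hg0, zpow_natCast]
  calc g ^ n * g ≤ 1 * g := mul_le_mul_left (pow_le_one₀ zero_le hwlt.le) g
    _ = g := one_mul g

variable (K L) in
include K L in
/-- **The kernel on the base ring is `(π)`.**  For `(κ, φ, O)` as above (`κ = Frac (φ B)`, `O ≠ ⊤`
containing `φ B`, `φ π = 0`), an element `r` of the base ring `R` dies in `κ` iff `π ∣ r`: the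
generic point of the component of the special fibre cut out by `φ` lies over the generic point of
the special fibre of the base.  (Only `R ⧸ π` a PID and `B` integral over `R` are used.) -/
theorem ker_comp_algebraMap_eq_span (hπ : Prime π)
    [IsPrincipalIdealRing (R ⧸ Ideal.span {π})]
    {κ : Type*} [Field κ] (φ : B →+* κ) (hφπ : φ (algebraMap R B π) = 0)
    (hfrac : ∀ z : κ, ∃ a b : B, φ b ≠ 0 ∧ z * φ b = φ a)
    (O : ValuationSubring κ) (hO : ∀ b : B, φ b ∈ O) (hOtop : O ≠ ⊤) :
    RingHom.ker (φ.comp (algebraMap R B)) = Ideal.span {π} := by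
  have hint : Algebra.IsIntegral R B := IsIntegralClosure.isIntegral_algebra R L
  have hprime : (Ideal.span {π}).IsPrime := (Ideal.span_singleton_prime hπ.ne_zero).mpr hπ
  have : IsDomain (R ⧸ Ideal.span {π}) := Ideal.Quotient.isDomain _
  refine ker_comp_eq_of_forall_isMaximal φ hfrac O hO hOtop (Ideal.span {π}) ?_ ?_
  · rw [Ideal.span_singleton_le_iff_mem, RingHom.mem_ker, RingHom.comp_apply, hφπ]
  · intro Q hQ hlt
    have hker : RingHom.ker (Ideal.Quotient.mk (Ideal.span {π})) ≤ Q := by
      rw [Ideal.mk_ker]; exact hlt.le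
    have hQ' : (Q.map (Ideal.Quotient.mk (Ideal.span {π}))).IsPrime :=
      Ideal.map_isPrime_of_surjective Ideal.Quotient.mk_surjective hker
    have hcomap : (Q.map (Ideal.Quotient.mk (Ideal.span {π}))).comap
        (Ideal.Quotient.mk (Ideal.span {π})) = Q := by
      rw [Ideal.comap_map_of_surjective _ Ideal.Quotient.mk_surjective, ← RingHom.ker_eq_comap_bot]
      exact sup_eq_left.2 hker
    have hne : Q.map (Ideal.Quotient.mk (Ideal.span {π})) ≠ ⊥ := by
      intro h0
      rw [h0, ← RingHom.ker_eq_comap_bot, Ideal.mk_ker] at hcomap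
      exact hlt.ne hcomap
    have hmax : (Q.map (Ideal.Quotient.mk (Ideal.span {π}))).IsMaximal := hQ'.isMaximal hne
    rw [← hcomap]
    exact Ideal.comap_isMaximal_of_surjective _ Ideal.Quotient.mk_surjective

/-- Variant of `exists_valuation_max_lt_one` for a given generator: if the centre of `O` on `R`
is contained in `(π, f)`, then `v (φ f)` is the largest value `< 1` (as soon as it is `< 1`). -/
theorem valuation_le_of_span_pair (hπ : Prime π)
    [IsPrincipalIdealRing (R ⧸ Ideal.span {π})] (hnf : ¬ IsField (R ⧸ Ideal.span {π}))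
    (hV : VertCond R K L π) (hH : HorCond R K L π)
    {κ : Type*} [Field κ] (φ : B →+* κ) (hφπ : φ (algebraMap R B π) = 0)
    (hfrac : ∀ z : κ, ∃ a b : B, φ b ≠ 0 ∧ z * φ b = φ a)
    (O : ValuationSubring κ) (hO : ∀ b : B, φ b ∈ O) (hOtop : O ≠ ⊤) (f : R)
    (hp : ∀ r : R, O.valuation (φ (algebraMap R B r)) < 1 → r ∈ Ideal.span {π, f}) :
    φ (algebraMap R B f) ≠ 0 ∧
      ∀ y : κ, O.valuation y < 1 → O.valuation y ≤ O.valuation (φ (algebraMap R B f)) := by
  obtain ⟨w, -, hw0, hwlt, hwmax⟩ :=
    exists_valuation_max_lt_one (K := K) (L := L) hπ hnf hV hH φ hφπ hfrac O hO hOtop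
  obtain ⟨c, d, hcd⟩ := Ideal.mem_span_pair.1 (hp w hwlt)
  have h1 : φ (algebraMap R B w) = φ (algebraMap R B d) * φ (algebraMap R B f) := by
    rw [← hcd, map_add, map_add, map_mul, map_mul, map_mul, map_mul, hφπ, mul_zero, zero_add]
  have hle : O.valuation (φ (algebraMap R B w)) ≤ O.valuation (φ (algebraMap R B f)) := by
    rw [h1, map_mul]
    calc O.valuation (φ (algebraMap R B d)) * O.valuation (φ (algebraMap R B f))
        ≤ 1 * O.valuation (φ (algebraMap R B f)) :=
          mul_le_mul_left ((ValuationSubring.valuation_le_one_iff O _).2 (hO _)) _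
      _ = _ := one_mul _
  refine ⟨fun h0 => hw0 (by rw [h1, h0, mul_zero]), fun y hy => (hwmax y hy).trans hle⟩

/-- Variant of `exists_valuation_eq_zpow` for a given generator: if the centre of `O` on `R` is
contained in `(π, f)` and `v (φ f) < 1`, every nonzero value is an integral power of `v (φ f)`. -/
theorem valuation_eq_zpow_of_span_pair (hπ : Prime π)
    [IsPrincipalIdealRing (R ⧸ Ideal.span {π})] (hnf : ¬ IsField (R ⧸ Ideal.span {π}))
    (hV : VertCond R K L π) (hH : HorCond R K L π)
    {κ : Type*} [Field κ] (φ : B →+* κ) (hφπ : φ (algebraMap R B π) = 0)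
    (hfrac : ∀ z : κ, ∃ a b : B, φ b ≠ 0 ∧ z * φ b = φ a)
    (O : ValuationSubring κ) (hO : ∀ b : B, φ b ∈ O) (hOtop : O ≠ ⊤) (f : R)
    (hf : O.valuation (φ (algebraMap R B f)) < 1)
    (hp : ∀ r : R, O.valuation (φ (algebraMap R B r)) < 1 → r ∈ Ideal.span {π, f}) :
    ∀ y : κ, y ≠ 0 → ∃ m : ℤ, O.valuation y = O.valuation (φ (algebraMap R B f)) ^ m := by
  obtain ⟨w, -, hw0, hwlt, hpow⟩ :=
    exists_valuation_eq_zpow (K := K) (L := L) hπ hnf hV hH φ hφπ hfrac O hO hOtop
  obtain ⟨c, d, hcd⟩ := Ideal.mem_span_pair.1 (hp w hwlt)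
  have h1 : φ (algebraMap R B w) = φ (algebraMap R B d) * φ (algebraMap R B f) := by
    rw [← hcd, map_add, map_add, map_mul, map_mul, map_mul, map_mul, hφπ, mul_zero, zero_add]
  have hle : O.valuation (φ (algebraMap R B w)) ≤ O.valuation (φ (algebraMap R B f)) := by
    rw [h1, map_mul]
    calc O.valuation (φ (algebraMap R B d)) * O.valuation (φ (algebraMap R B f))
        ≤ 1 * O.valuation (φ (algebraMap R B f)) :=
          mul_le_mul_left ((ValuationSubring.valuation_le_one_iff O _).2 (hO _)) _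
      _ = _ := one_mul _
  have hf0 : φ (algebraMap R B f) ≠ 0 := fun h0 => hw0 (by rw [h1, h0, mul_zero])
  -- `v (φ f)` is itself a power of `v (φ w)`, necessarily the first
  obtain ⟨m, hm⟩ := hpow _ hf0
  set g := O.valuation (φ (algebraMap R B w)) with hg
  have hg0 : g ≠ 0 := (map_ne_zero _).2 hw0
  have hgpos : 0 < g := zero_lt_iff.2 hg0
  have hm1 : m = 1 := by
    have hm_le : m ≤ 1 := by
      by_contra hlt
      push Not at hlt
      obtain ⟨n, rfl⟩ : ∃ n : ℕ, m = (n : ℤ) + 2 := ⟨(m - 2).toNat, by omega⟩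
      have : g ^ ((n : ℤ) + 2) < g := by
        rw [show ((n : ℤ) + 2) = ((n + 1 : ℕ) : ℤ) + 1 by push_cast; ring, zpow_add_one₀ hg0,
          zpow_natCast]
        calc g ^ (n + 1) * g < 1 * g :=
              mul_lt_mul_of_pos_right (pow_lt_one₀ zero_le hwlt (Nat.succ_ne_zero n)) hgpos
          _ = g := one_mul g
      rw [← hm] at this
      exact absurd hle (not_le.2 this)
    have hm_ge : 1 ≤ m := by
      by_contra hlt
      push Not at hlt
      obtain ⟨n, rfl⟩ : ∃ n : ℕ, m = -(n : ℤ) := ⟨(-m).toNat, by omega⟩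
      have : (1 : O.ValueGroup) ≤ g ^ (-(n : ℤ)) := by
        rw [zpow_neg, zpow_natCast]
        exact (one_le_inv₀ (pow_pos hgpos n)).2 (pow_le_one₀ zero_le hwlt.le)
      rw [← hm] at this
      exact absurd hf (not_lt.2 this)
    omega
  rw [hm1, zpow_one] at hm
  intro y hy0
  rw [hm]
  exact hpow y hy0

omit [IsDomain R] [IsNoetherianRing R] [IsIntegrallyClosed R] [IsFractionRing R K]
  [IsScalarTower R K L] [IsIntegralClosure B R L] [FiniteDimensional K L]
  [Algebra.IsSeparable K L] [Field K] [Algebra R K] [Field L] [Algebra K L] [Algebra R L]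
  [CommRing B] [Algebra R B] [Algebra B L] [IsScalarTower R B L] [CommRing R] in
/-- A largest value `< 1` of a valuation subring is not a square in the value group. -/
theorem sq_ne_of_max_lt_one {κ : Type*} [Field κ] (O : ValuationSubring κ) {t : κ} (ht0 : t ≠ 0)
    (ht : O.valuation t < 1)
    (hmax : ∀ y : κ, O.valuation y < 1 → O.valuation y ≤ O.valuation t)
    (γ : O.ValueGroup) : γ ^ 2 ≠ O.valuation t := by
  intro h
  obtain ⟨y, rfl⟩ := O.valuation_surjective γ
  have hy0 : O.valuation y ≠ 0 := by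
    intro h0
    rw [h0, zero_pow two_ne_zero] at h
    exact (map_ne_zero _).2 ht0 h.symm
  have hylt : O.valuation y < 1 := by
    by_contra hge
    push Not at hge
    have : (1 : O.ValueGroup) ≤ O.valuation y ^ 2 := one_le_pow_of_one_le' hge 2
    rw [h] at this
    exact absurd ht (not_lt.2 this)
  have h1 := hmax y hylt
  rw [← h, pow_two] at h1
  have h2 : O.valuation y * 1 ≤ O.valuation y * O.valuation y := by rwa [mul_one]
  have h3 : (1 : O.ValueGroup) ≤ O.valuation y :=
    le_of_mul_le_mul_left h2 (zero_lt_iff.2 hy0)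
  exact absurd hylt (not_lt.2 h3)

/-- **Existence of a place of the special fibre over a given closed point.**  In the setting of
`H41_PurityMain`, for every maximal ideal `p ∋ π` of `R` there are a field `κ`, a ring homomorphism
`φ : B → κ` killing `π` with `κ = Frac (φ B)`, and a valuation subring `O ≠ ⊤` of `κ` containing
`φ B` whose centre on `R` contains `p`.  (Then `exists_valuation_max_lt_one` /
`valuation_le_of_span_pair` apply: a generator of `p / π` is a uniformiser of `O`.) -/
theorem exists_valuationSubring_over (hπ : Prime π)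
    [IsPrincipalIdealRing (R ⧸ Ideal.span {π})] (hnf : ¬ IsField (R ⧸ Ideal.span {π}))
    (hV : VertCond R K L π) (hH : HorCond R K L π)
    (p : Ideal R) (hp : p.IsMaximal) (hπp : π ∈ p) :
    ∃ (κ : Type uB) (_ : Field κ) (φ : B →+* κ) (O : ValuationSubring κ),
      φ (algebraMap R B π) = 0 ∧ (∀ z : κ, ∃ a b : B, φ b ≠ 0 ∧ z * φ b = φ a) ∧
      (∀ b : B, φ b ∈ O) ∧ O ≠ ⊤ ∧ ∀ r ∈ p, O.valuation (φ (algebraMap R B r)) < 1 := by
  classical
  set I : Ideal B := (Ideal.span {π}).map (algebraMap R B) with hI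
  have hint : Algebra.IsIntegral R B := IsIntegralClosure.isIntegral_algebra R L
  have hinj : Function.Injective (algebraMap R B) := by
    have h1 : Function.Injective (algebraMap R L) := by
      rw [IsScalarTower.algebraMap_eq R K L]
      exact (algebraMap K L).injective.comp (IsFractionRing.injective R K)
    rw [IsScalarTower.algebraMap_eq R B L] at h1
    exact Function.Injective.of_comp h1
  -- a maximal ideal of `B` over `p`
  obtain ⟨M, hMmax, hMp⟩ := Ideal.exists_ideal_over_maximal_of_isIntegral (S := B) p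
    (by rw [(RingHom.injective_iff_ker_eq_bot _).1 hinj]; exact bot_le)
  have hIM : I ≤ M := by
    rw [hI, Ideal.map_le_iff_le_comap, hMp, Ideal.span_singleton_le_iff_mem]
    exact hπp
  -- its image in the special fibre
  set x : Ideal (B ⧸ I) := M.map (Ideal.Quotient.mk I) with hx
  have hxcomap : x.comap (Ideal.Quotient.mk I) = M := by
    rw [hx, Ideal.comap_map_of_surjective _ Ideal.Quotient.mk_surjective, ← RingHom.ker_eq_comap_bot,
      Ideal.mk_ker]
    exact sup_eq_left.2 hIM
  have hxmax : x.IsMaximal := by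
    rcases Ideal.map_eq_top_or_isMaximal_of_surjective (Ideal.Quotient.mk I)
      Ideal.Quotient.mk_surjective hMmax with h | h
    · exfalso
      rw [← hx] at h
      rw [h, Ideal.comap_top] at hxcomap
      exact hMmax.ne_top hxcomap.symm
    · exact h
  obtain ⟨w, hw0, hwmax, hwx, hwgen, hdom, hdvr⟩ :=
    exists_isDiscreteValuationRing_localization_quotient (K := K) (L := L) (B := B)
      hπ hnf hV hH x
  obtain ⟨O, hψ0, hfrac, hψO, hOtop, hlt⟩ :=
    exists_valuationSubring_of_isLocalization x (Localization.AtPrime x)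
      (FractionRing (Localization.AtPrime x)) (IsDiscreteValuationRing.not_isField _)
  refine ⟨FractionRing (Localization.AtPrime x), inferInstance,
    ((algebraMap (Localization.AtPrime x) (FractionRing (Localization.AtPrime x))).comp
      (algebraMap (B ⧸ I) (Localization.AtPrime x))).comp (Ideal.Quotient.mk I), O, ?_, ?_, ?_,
      hOtop, ?_⟩
  · -- `φ π = 0`
    have : Ideal.Quotient.mk I (algebraMap R B π) = 0 := by
      rw [Ideal.Quotient.eq_zero_iff_mem, hI]
      exact Ideal.mem_map_of_mem _ (Ideal.mem_span_singleton_self π)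
    rw [RingHom.comp_apply, this, map_zero]
  · intro z
    obtain ⟨a, b, hb, hab⟩ := hfrac z
    obtain ⟨a', rfl⟩ := Ideal.Quotient.mk_surjective a
    obtain ⟨b', rfl⟩ := Ideal.Quotient.mk_surjective b
    exact ⟨a', b', hb, hab⟩
  · intro b
    exact hψO _
  · -- the centre contains `p`
    intro r hr
    apply hlt
    have h1 : algebraMap R B r ∈ M := by
      have : r ∈ M.comap (algebraMap R B) := by rw [hMp]; exact hr
      exact this
    exact Ideal.mem_map_of_mem _ h1

end GeoE

end Fermat.Agent.S16.H41
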