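/-
S16 (helper39): GEO-e instance, piece (B) — **embedding the residue function field of a Gauss
model into any field receiving the bivariate polynomial ring compatibly**.

`M : H3.GaussModel ϖ π0 x1 θ xb θb` (Gauss valuation ring `O1 ⊆ F1`, reduction `res1 : O1 → Fk`).
Given a ring homomorphism `ψ : R0[X][X] → κ` into a field which
* does not kill the polynomials `s(x1)` with `s̄ ≠ 0`,
* factors through `R0[x1, θ] ⊆ F1`,
* kills `ϖ`,
there is a field embedding `ι : Fk → κ` with `ι (ḡ(xb, θb)) = ψ g`.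
No primality of the special fibre, no saturation, no lifting property is used.
-/
import Fermat.Agent.S18.H3_ChartRing
import Fermat.Agent.S16.H41_GeoE

set_option autoImplicit false

namespace Fermat.Agent.S16.H39

open Polynomial Fermat.Agent.S18

section

variable {R0 k F1 Fk κ : Type*} [CommRing R0] [Field k] [Field F1] [Algebra R0 F1]
  [Field Fk] [Algebra k Fk] [Field κ] {ϖ : R0} {π0 : R0 →+* k} {x1 θ : F1} {xb θb : Fk}

/-- `H3.eval2` as a ring homomorphism. -/
noncomputable def eval2Hom (x1 θ : F1) : R0[X][X] →+* F1 :=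
  Polynomial.eval₂RingHom ((aeval x1 : R0[X] →ₐ[R0] F1) : R0[X] →+* F1) θ

theorem eval2Hom_apply (x1 θ : F1) (g : R0[X][X]) :
    eval2Hom x1 θ g = H3.eval2 x1 θ g := rfl

/-- `H3.eval2b` as a ring homomorphism. -/
noncomputable def eval2bHom (π0 : R0 →+* k) (xb θb : Fk) : R0[X][X] →+* Fk :=
  Polynomial.eval₂RingHom
    (((aeval xb : k[X] →ₐ[k] Fk) : k[X] →+* Fk).comp (mapRingHom π0)) θb

theorem eval2bHom_apply (π0 : R0 →+* k) (xb θb : Fk) (g : R0[X][X]) :
    eval2bHom π0 xb θb g = H3.eval2b π0 xb θb g := rfl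

theorem eval2_C (x1 θ : F1) (s : R0[X]) : H3.eval2 x1 θ (C s) = aeval x1 s := by
  unfold H3.eval2
  rw [eval₂_C]
  rfl

theorem eval2b_C (π0 : R0 →+* k) (xb θb : Fk) (s : R0[X]) :
    H3.eval2b π0 xb θb (C s) = aeval xb (s.map π0) := by
  unfold H3.eval2b
  rw [eval₂_C]
  rfl

/-- **Piece (B): the embedding `Fk → κ`.** -/
theorem exists_embedding_of_gaussModel (M : H3.GaussModel ϖ π0 x1 θ xb θb)
    (hπ0 : Function.Surjective π0)
    (hgenk : ∀ γ : Fk, ∃ s : k[X], aeval xb s ≠ 0 ∧ ∃ g : k[X][X],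
      aeval xb s * γ = g.eval₂ ((aeval xb : k[X] →ₐ[k] Fk) : k[X] →+* Fk) θb)
    (ψ : R0[X][X] →+* κ)
    (h1 : ∀ s : R0[X], s.map π0 ≠ 0 → ψ (C s) ≠ 0)
    (h2 : ∀ g : R0[X][X], H3.eval2 x1 θ g = 0 → ψ g = 0)
    (h3 : ψ (C (C ϖ)) = 0) :
    ∃ ι : Fk →+* κ, ∀ g : R0[X][X], ι (H3.eval2b π0 xb θb g) = ψ g := by
  classical
  have hres : ∀ g : R0[X][X], ∃ h : H3.eval2 x1 θ g ∈ M.O1,
      M.res1 ⟨H3.eval2 x1 θ g, h⟩ = H3.eval2b π0 xb θb g := fun g => M.eval2_mem g
  refine H41.exists_ringHom_comp_eq (eval2bHom π0 xb θb) ?_ ψ ?_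
  · -- `Fk` is the fraction field of the image
    intro γ
    obtain ⟨s, hs, g, hg⟩ := hgenk γ
    obtain ⟨s', rfl⟩ := Polynomial.map_surjective π0 hπ0 s
    obtain ⟨g', rfl⟩ := Polynomial.map_surjective (mapRingHom π0)
      (Polynomial.map_surjective π0 hπ0) g
    refine ⟨g', C s', ?_, ?_⟩
    · rw [eval2bHom_apply, eval2b_C]
      exact hs
    · rw [eval2bHom_apply, eval2bHom_apply, eval2b_C, mul_comm, hg]
      unfold H3.eval2b
      rw [eval₂_map]
  · -- the kernels agree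
    intro g
    rw [eval2bHom_apply]
    obtain ⟨hgO, hgres⟩ := hres g
    constructor
    · -- `ψ g = 0 → ḡ = 0`
      intro hψ
      by_contra hne
      have hne' : M.res1 ⟨H3.eval2 x1 θ g, hgO⟩ ≠ 0 := by rw [hgres]; exact hne
      have hinv := M.inv_mem _ hgO hne'
      obtain ⟨s', hs', g', hg'⟩ := M.exists_repr _ hinv
      have hy0 : H3.eval2 x1 θ g ≠ 0 := by
        intro h0
        apply hne'
        have : (⟨H3.eval2 x1 θ g, hgO⟩ : M.O1) = 0 := Subtype.ext h0
        rw [this, map_zero]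
      -- `s'(x1) = g(x1,θ) g'(x1,θ)`
      have hrel : H3.eval2 x1 θ (C s' - g * g') = 0 := by
        rw [← eval2Hom_apply, map_sub, map_mul, eval2Hom_apply, eval2Hom_apply, eval2Hom_apply,
          eval2_C, ← hg']
        field_simp
        ring
      have := h2 _ hrel
      rw [map_sub, map_mul, hψ, zero_mul, sub_zero] at this
      exact h1 s' hs' this
    · -- `ḡ = 0 → ψ g = 0`
      intro h0
      have h0' : M.res1 ⟨H3.eval2 x1 θ g, hgO⟩ = 0 := by rw [hgres]; exact h0
      obtain ⟨z, hz, hgz⟩ := (M.res1_eq_zero_iff _ hgO).1 h0'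
      obtain ⟨s', hs', g', hg'⟩ := M.exists_repr z hz
      have hrel : H3.eval2 x1 θ (C s' * g - C (C ϖ) * g') = 0 := by
        rw [← eval2Hom_apply, map_sub, map_mul, map_mul, eval2Hom_apply, eval2Hom_apply,
          eval2Hom_apply, eval2Hom_apply, eval2_C, eval2_C, aeval_C, ← hg', hgz]
        ring
      have := h2 _ hrel
      rw [map_sub, map_mul, map_mul, h3, zero_mul, sub_zero] at this
      rcases mul_eq_zero.1 this with h | h
      · exact absurd h (h1 s' hs')
      · exact h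

end

end Fermat.Agent.S16.H39
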