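import Mathlib

/-!
# S16, package (U,2; p = 3 mod 4): square roots descend (helper17)

Characteristic `2`, abstract, Mathlib only.

* `exists_sq_add_mul_sq`: if `E/k(J)` is separable algebraic and `k` is perfect, then every
  `x ∈ E` is of the form `α² + J β²` with `α β ∈ E` (`{1, J}` is a `2`-basis of `E`).
* `mem_of_sq_mem`: if moreover `θ` is a derivation of the ambient field `L` with `θ J ≠ 0`, then
  `b ^ 2 ∈ E → b ∈ E` for every `b : L`  (`E ∩ L² = E²`); `mem_of_pow_four_mem` for fourth roots.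
* `theta_sq_add_mul_sq`: `θ (α² + J β²) = θ J * β²`.
-/

set_option autoImplicit false

open IntermediateField

namespace Fermat.Agent.S16.H17

section TwoBasis

variable {k L : Type*} [Field k] [Field L] [Algebra k L] [CharP L 2]

omit [Algebra k L] in
theorem add_sq_char_two (x y : L) : (x + y) ^ 2 = x ^ 2 + y ^ 2 := by
  have h2 : (2 : L) = 0 := CharP.ofNat_eq_zero L 2
  linear_combination (x * y) * h2

omit [Algebra k L] in
theorem neg_eq_self_char_two (x : L) : -x = x := by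
  have h2 : (2 : L) = 0 := CharP.ofNat_eq_zero L 2
  linear_combination (-x) * h2

/-- The subfield `E² + J E²` of `L` (for `J ∈ E`), as an intermediate field of `L/k`
(`k` perfect of characteristic `2`). -/
def sqSpan (hperf : ∀ c : k, ∃ d : k, d ^ 2 = c) (E : IntermediateField k L) (J : L)
    (hJ : J ∈ E) : IntermediateField k L where
  carrier := {x | ∃ α ∈ E, ∃ β ∈ E, x = α ^ 2 + J * β ^ 2}
  mul_mem' := by
    rintro _ _ ⟨α, hα, β, hβ, rfl⟩ ⟨α', hα', β', hβ', rfl⟩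
    refine ⟨α * α' + J * β * β', E.add_mem (E.mul_mem hα hα') (E.mul_mem (E.mul_mem hJ hβ) hβ'),
      α * β' + α' * β, E.add_mem (E.mul_mem hα hβ') (E.mul_mem hα' hβ), ?_⟩
    rw [add_sq_char_two, add_sq_char_two]
    ring
  one_mem' := ⟨1, E.one_mem, 0, E.zero_mem, by ring⟩
  add_mem' := by
    rintro _ _ ⟨α, hα, β, hβ, rfl⟩ ⟨α', hα', β', hβ', rfl⟩
    refine ⟨α + α', E.add_mem hα hα', β + β', E.add_mem hβ hβ', ?_⟩
    rw [add_sq_char_two, add_sq_char_two]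
    ring
  zero_mem' := ⟨0, E.zero_mem, 0, E.zero_mem, by ring⟩
  algebraMap_mem' c := by
    obtain ⟨d, rfl⟩ := hperf c
    exact ⟨algebraMap k L d, E.algebraMap_mem d, 0, E.zero_mem, by rw [map_pow]; ring⟩
  inv_mem' := by
    rintro _ ⟨α, hα, β, hβ, rfl⟩
    by_cases hx : α ^ 2 + J * β ^ 2 = 0
    · rw [hx, inv_zero]
      exact ⟨0, E.zero_mem, 0, E.zero_mem, by ring⟩
    · have hxE : α ^ 2 + J * β ^ 2 ∈ E :=
        E.add_mem (pow_mem hα 2) (E.mul_mem hJ (pow_mem hβ 2))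
      refine ⟨α / (α ^ 2 + J * β ^ 2), E.div_mem hα hxE, β / (α ^ 2 + J * β ^ 2),
        E.div_mem hβ hxE, ?_⟩
      field_simp

theorem mem_sqSpan (hperf : ∀ c : k, ∃ d : k, d ^ 2 = c) (E : IntermediateField k L) (J : L)
    (hJ : J ∈ E) (x : L) :
    x ∈ sqSpan hperf E J hJ ↔ ∃ α ∈ E, ∃ β ∈ E, x = α ^ 2 + J * β ^ 2 := Iff.rfl

theorem sqSpan_le (hperf : ∀ c : k, ∃ d : k, d ^ 2 = c) (E : IntermediateField k L) (J : L)
    (hJ : J ∈ E) : sqSpan hperf E J hJ ≤ E := by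
  rintro _ ⟨α, hα, β, hβ, rfl⟩
  exact E.add_mem (pow_mem hα 2) (E.mul_mem hJ (pow_mem hβ 2))

theorem self_mem_sqSpan (hperf : ∀ c : k, ∃ d : k, d ^ 2 = c) (E : IntermediateField k L) (J : L)
    (hJ : J ∈ E) : J ∈ sqSpan hperf E J hJ :=
  ⟨0, E.zero_mem, 1, E.one_mem, by ring⟩

theorem sq_mem_sqSpan (hperf : ∀ c : k, ∃ d : k, d ^ 2 = c) (E : IntermediateField k L) (J : L)
    (hJ : J ∈ E) {x : L} (hx : x ∈ E) : x ^ 2 ∈ sqSpan hperf E J hJ :=
  ⟨x, hx, 0, E.zero_mem, by ring⟩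

/-- **`2`-basis.** `k` perfect of characteristic `2`, `J ∈ E`, every element of `E` separable
over `k(J)`: then every `x ∈ E` is `α² + J β²` with `α, β ∈ E`. -/
theorem exists_sq_add_mul_sq (hperf : ∀ c : k, ∃ d : k, d ^ 2 = c) (E : IntermediateField k L)
    (J : L) (hJ : J ∈ E) (hsep : ∀ x ∈ E, IsSeparable k⟮J⟯ x) {x : L} (hx : x ∈ E) :
    ∃ α ∈ E, ∃ β ∈ E, x = α ^ 2 + J * β ^ 2 := by
  set S := sqSpan hperf E J hJ with hS
  have hkJ : k⟮J⟯ ≤ S := by
    rw [adjoin_simple_le_iff]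
    exact self_mem_sqSpan hperf E J hJ
  -- `S` as an intermediate field over `k(J)`
  let S' : IntermediateField k⟮J⟯ L :=
    { S.toSubfield with
      algebraMap_mem' := fun c => hkJ c.2 }
  have : CharP k⟮J⟯ 2 :=
    (RingHom.charP_iff (algebraMap k⟮J⟯ L) (algebraMap k⟮J⟯ L).injective 2).mpr inferInstance
  have : ExpChar k⟮J⟯ 2 := ExpChar.prime Nat.prime_two
  have hadj : k⟮J⟯⟮x⟯ = k⟮J⟯⟮x ^ 2⟯ :=
    adjoin_simple_eq_adjoin_pow_expChar_of_isSeparable k⟮J⟯ L (hsep x hx) 2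
  have hle : k⟮J⟯⟮x ^ 2⟯ ≤ S' := by
    rw [adjoin_simple_le_iff]
    exact sq_mem_sqSpan hperf E J hJ hx
  have hxS : x ∈ S' := hle (hadj ▸ mem_adjoin_simple_self k⟮J⟯ x)
  exact hxS

end TwoBasis

section Descent

variable {L : Type*} [Field L] [CharP L 2]

/-- In characteristic `2`, an additive map with the Leibniz rule kills squares. -/
theorem theta_sq (θ : L → L) (hmul : ∀ x y, θ (x * y) = θ x * y + x * θ y) (x : L) :
    θ (x ^ 2) = 0 := by
  have h2 : (2 : L) = 0 := CharP.ofNat_eq_zero L 2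
  rw [pow_two, hmul]
  linear_combination (θ x * x) * h2

theorem theta_sq_add_mul_sq (θ : L → L) (hadd : ∀ x y, θ (x + y) = θ x + θ y)
    (hmul : ∀ x y, θ (x * y) = θ x * y + x * θ y) (J α β : L) :
    θ (α ^ 2 + J * β ^ 2) = θ J * β ^ 2 := by
  rw [hadd, hmul, theta_sq θ hmul, theta_sq θ hmul]
  ring

/-- **Square roots descend.** `E` a set of elements of `L` (think: a subfield) in which every
element is `α² + J β²` with `α, β ∈ E`; `θ` a derivation of `L` with `θ J ≠ 0`.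
Then `b ^ 2 ∈ E → b ∈ E`. -/
theorem mem_of_sq_mem (θ : L → L) (hadd : ∀ x y, θ (x + y) = θ x + θ y)
    (hmul : ∀ x y, θ (x * y) = θ x * y + x * θ y) (E : Set L) (J : L) (hθJ : θ J ≠ 0)
    (hbasis : ∀ x ∈ E, ∃ α ∈ E, ∃ β ∈ E, x = α ^ 2 + J * β ^ 2)
    {b : L} (hb : b ^ 2 ∈ E) : b ∈ E := by
  obtain ⟨α, hα, β, -, h⟩ := hbasis _ hb
  have h1 : θ (b ^ 2) = 0 := theta_sq θ hmul b
  rw [h, theta_sq_add_mul_sq θ hadd hmul] at h1
  have hβ : β = 0 := by
    rcases mul_eq_zero.mp h1 with h0 | h0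
    · exact absurd h0 hθJ
    · exact pow_eq_zero_iff (two_ne_zero) |>.mp h0
  rw [hβ] at h
  have h2 : (b + α) ^ 2 = 0 := by
    have h2' : (2 : L) = 0 := CharP.ofNat_eq_zero L 2
    linear_combination h + (b * α + α ^ 2) * h2'
  have h3 : b + α = 0 := pow_eq_zero_iff (two_ne_zero) |>.mp h2
  have h4 : b = α := by
    have h2' : (2 : L) = 0 := CharP.ofNat_eq_zero L 2
    linear_combination h3 - α * h2'
  rw [h4]
  exact hα

/-- Fourth roots descend. -/
theorem mem_of_pow_four_mem (θ : L → L) (hadd : ∀ x y, θ (x + y) = θ x + θ y)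
    (hmul : ∀ x y, θ (x * y) = θ x * y + x * θ y) (E : Set L) (J : L) (hθJ : θ J ≠ 0)
    (hbasis : ∀ x ∈ E, ∃ α ∈ E, ∃ β ∈ E, x = α ^ 2 + J * β ^ 2)
    {b : L} (hb : b ^ 4 ∈ E) : b ∈ E := by
  apply mem_of_sq_mem θ hadd hmul E J hθJ hbasis
  apply mem_of_sq_mem θ hadd hmul E J hθJ hbasis
  rwa [← pow_mul]

end Descent

end Fermat.Agent.S16.H17
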