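import Fermat.Agent.S16.H76_U2RelQ
import Fermat.Agent.S16.H17_SqrtDescent
import Fermat.Agent.S16.H36_DeltaUnit

/-!
# S16, case (U,2), `p ≡ 3 mod 4`: the function-field side instantiated  (helper36)

`H76.u2_rel_qseries` specialised to `F := modularFunctionFieldFullC k p` (`k` perfect of
characteristic `2`), `ιQ :=` the inclusion into `k((q))`, `J := jK k p`, `Jp := jNK k p`:

* `hdec_fullC` : `F = F² + J F²` (from `H17.exists_sq_add_mul_sq` and the separability of
  `F / k(J)`, `H16.isSeparable_fullC_gen`);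
* `val_jK_le_one_of_hesse` : `v (ι' J) ≤ 1` from `ι' J * (μ³+1)³ = μ¹²`, `v μ < 1`;
* `u2_rel_fullC` : the contradiction with only the monic relation `hrel` for `δ` over `k[Δ]` and
  the cover data `(F', ι', v, μ, hnsq, hJμ, hk)` left as inputs (`hunit` is discharged by
  `H36.val_jNK_eq_val_jK_charTwo`).
-/

set_option autoImplicit false
set_option linter.unusedSectionVars false
set_option synthInstance.maxHeartbeats 400000

noncomputable section

namespace Fermat.Agent.S16.H36

open ModularCurve HahnSeries Polynomial IntermediateField Fermat.Agent.S28 Fermat.Agent.S18.H16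

section Sep

variable (k : Type) [Field k] (p : ℕ) [NeZero p]

/-- Separability of the elements of `k(j, j_p) ⊆ k((q))` over the subfield `k(j)` of `k((q))`. -/
theorem isSeparable_of_mem_fullC (hpk : ((p : ℕ) : k) ≠ 0) {x : LaurentSeries k}
    (hx : x ∈ modularFunctionFieldFullC k p) : IsSeparable k⟮jqModC k⟯ x := by
  have hsep : Algebra.IsSeparable k⟮jK k p⟯ (modularFunctionFieldFullC k p) :=
    isSeparable_fullC_gen p k hpk
  set x' : modularFunctionFieldFullC k p := ⟨x, hx⟩ with hx'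
  have h1 : IsSeparable k⟮jK k p⟯ x' := Algebra.IsSeparable.isSeparable _ x'
  set f := minpoly k⟮jK k p⟯ x' with hf
  have hlift : IntermediateField.lift (k⟮jK k p⟯) = k⟮jqModC k⟯ :=
    IntermediateField.lift_adjoin_simple k _ (jK k p)
  -- the polynomial `f` pushed to `k((q))`
  set ψ : k⟮jK k p⟯ →+* LaurentSeries k :=
    (algebraMap (modularFunctionFieldFullC k p) (LaurentSeries k)).comp
      (algebraMap k⟮jK k p⟯ (modularFunctionFieldFullC k p)) with hψ
  have hmem : f.map ψ ∈ Polynomial.lifts (algebraMap k⟮jqModC k⟯ (LaurentSeries k)) := by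
    rw [Polynomial.lifts_iff_coeff_lifts]
    intro n
    rw [Polynomial.coeff_map]
    have hc : ((f.coeff n : modularFunctionFieldFullC k p) : LaurentSeries k) ∈
        IntermediateField.lift (k⟮jK k p⟯) :=
      (IntermediateField.mem_lift _).2 (f.coeff n).2
    rw [hlift] at hc
    exact ⟨⟨_, hc⟩, rfl⟩
  obtain ⟨g, hg⟩ := hmem
  rw [Polynomial.coe_mapRingHom] at hg
  have hgsep : g.Separable := by
    have h2 : (f.map ψ).Separable := Polynomial.Separable.map (p := f) h1
    rw [← hg] at h2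
    exact (Polynomial.separable_map _).1 h2
  have hroot : Polynomial.aeval x g = 0 := by
    rw [Polynomial.aeval_def, ← Polynomial.eval_map, hg, Polynomial.eval_map, hψ]
    have h3 : Polynomial.eval₂ (algebraMap k⟮jK k p⟯ (modularFunctionFieldFullC k p)) x' f = 0 := by
      rw [← Polynomial.aeval_def]
      exact minpoly.aeval _ _
    have hxx : x = algebraMap (modularFunctionFieldFullC k p) (LaurentSeries k) x' := rfl
    rw [hxx, ← Polynomial.hom_eval₂, h3, map_zero]
  exact hgsep.of_dvd (minpoly.dvd _ _ hroot)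

end Sep

section Dec

variable (k : Type) [Field k] [CharP k 2] (p : ℕ) [NeZero p]

/-- **`hdec` for `k(j, j_p)`**: `k` perfect of characteristic `2`, `p ≠ 0` in `k`: every element
of `F = k(j,j_p)` is `A² + j B²` with `A, B ∈ F`. -/
theorem hdec_fullC (hperf : ∀ c : k, ∃ d : k, d ^ 2 = c) (hpk : ((p : ℕ) : k) ≠ 0)
    (y : modularFunctionFieldFullC k p) :
    ∃ A B : modularFunctionFieldFullC k p, y = A ^ 2 + jK k p * B ^ 2 := by
  have := H76.charP_laurent k
  obtain ⟨α, hα, β, hβ, h⟩ :=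
    H17.exists_sq_add_mul_sq hperf (modularFunctionFieldFullC k p) (jqModC k)
      (jqModC_mem_full k p) (fun x hx => isSeparable_of_mem_fullC k p hpk hx) y.2
  refine ⟨⟨α, hα⟩, ⟨β, hβ⟩, ?_⟩
  apply Subtype.ext
  exact h

end Dec

section Val

variable {F' Γ₀ : Type*} [Field F'] [LinearOrderedCommGroupWithZero Γ₀]

/-- From the Hesse relation `J (μ³+1)³ = μ¹²` and `v μ < 1`: `v J = v μ ^ 12`. -/
theorem val_eq_pow_of_hesse (v : Valuation F' Γ₀) (μ J : F') (hμ : v μ < 1)
    (hJμ : J * (μ ^ 3 + 1) ^ 3 = μ ^ 12) : v J = v μ ^ 12 := by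
  have h3 : v (μ ^ 3) < 1 := by
    rw [map_pow]
    exact pow_lt_one₀ zero_le hμ (by norm_num)
  have h1 : v (μ ^ 3 + 1) = 1 := by
    rw [add_comm]
    have := Valuation.map_add_eq_of_lt_left v (x := (1 : F')) (y := μ ^ 3) (by rw [map_one]; exact h3)
    rw [this, map_one]
  have h := congrArg v hJμ
  rw [map_mul, map_pow, map_pow, h1, one_pow, mul_one] at h
  exact h

theorem val_le_one_of_hesse (v : Valuation F' Γ₀) (μ J : F') (hμ : v μ < 1)
    (hJμ : J * (μ ^ 3 + 1) ^ 3 = μ ^ 12) : v J ≤ 1 := by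
  rw [val_eq_pow_of_hesse v μ J hμ hJμ]
  exact pow_le_one₀ zero_le hμ.le

end Val

section Main

open PowerSeries in
/-- **(U,2; `p ≡ 3 mod 4`), function-field side discharged.**  `k` perfect of characteristic `2`,
`F = k(j, j_p) ⊆ k((q))`.  Inputs: the monic relation `hrel` for `δ = ∑ σ'(n) qⁿ` over `k[Δ]`
(weight-2 growth), and a valued cover `(F', ι', v)` with a Hesse parameter `μ`:
`j = μ¹²/(μ³+1)³`, `v μ < 1` not a square in the value group, `v ≤ 1` on the constants. -/
theorem u2_rel_fullC (k : Type) [Field k] [CharP k 2] (hperf : ∀ c : k, ∃ d : k, d ^ 2 = c)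
    (p : ℕ) (hpp : p.Prime) (hp : p % 4 = 3)
    {F' : Type*} [Field F']
    (ι' : haveI : NeZero p := ⟨hpp.ne_zero⟩; modularFunctionFieldFullC k p →+* F')
    (n : ℕ) (hn : 0 < n) (P : ℕ → Polynomial k) (hP : ∀ m, m < n → 6 * (P m).natDegree ≤ n - m)
    (hrel : H76.deltaPS k p ^ n +
      ∑ m ∈ Finset.range n, Polynomial.aeval (H76.DeltaPS k) (P m) * H76.deltaPS k p ^ m = 0)
    {Γ₀ : Type*} [LinearOrderedCommGroupWithZero Γ₀] (v : Valuation F' Γ₀)
    (μ : F') (hμ0 : μ ≠ 0) (hμ : v μ < 1)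
    (hnsq : ∀ g : Γ₀, g ^ 2 ≠ v μ)
    (hJμ : haveI : NeZero p := ⟨hpp.ne_zero⟩; ι' (jK k p) * (μ ^ 3 + 1) ^ 3 = μ ^ 12)
    (hk : haveI : NeZero p := ⟨hpp.ne_zero⟩;
      ∀ c : k, v (ι' (algebraMap k (modularFunctionFieldFullC k p) c)) ≤ 1) : False := by
  have : NeZero p := ⟨hpp.ne_zero⟩
  have hp2 : p ≠ 2 := by
    rintro rfl
    norm_num at hp
  have hpk : ((p : ℕ) : k) ≠ 0 := natCast_ne_zero_of_charTwo k p hpp hp2
  have : CharP (modularFunctionFieldFullC k p) 2 :=
    (RingHom.charP_iff (algebraMap k (modularFunctionFieldFullC k p))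
      (algebraMap k (modularFunctionFieldFullC k p)).injective 2).1 inferInstance
  have : CharP F' 2 := (RingHom.charP_iff ι' ι'.injective 2).1 inferInstance
  have hJle : v (ι' (jK k p)) ≤ 1 := val_le_one_of_hesse v μ _ hμ hJμ
  have hunit : v (ι' (jK k p)) = v (ι' (jNK k p)) :=
    (val_jNK_eq_val_jK_charTwo k p hpp hp2 ι' v hk hJle).symm
  exact H76.u2_rel_qseries k p hp (modularFunctionFieldFullC k p).val ι' (jK k p) (jNK k p)
    rfl rfl (hdec_fullC k p hperf hpk) n hn P hP hrel v μ hμ0 hμ hnsq hJμ hunit hk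

end Main

end Fermat.Agent.S16.H36
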