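import Mathlib
import Fermat.Prelude.Thm_CongruenceSubgroup_one_mem_strictPeriods_Gamma0
import Fermat.Prelude.Def_FLTPrelim_Modularity

/-!
# (E) The weight-2 Eisenstein form of level `N`

`eisFun N z = E₂(z) - N E₂(N z)` is a modular form of weight `2` on `Γ₀(N)`; its `q`-expansion is
`(1 - N) - 24 ∑_{k ≥ 1} (σ(k) - N σ(k / N) [N ∣ k]) q^k`.
-/

namespace Fermat.Agent.S16.H49

open UpperHalfPlane EisensteinSeries ModularForm CongruenceSubgroup Matrix.SpecialLinearGroup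
open scoped MatrixGroups ModularForm Real Manifold

noncomputable section

/-- `z ↦ N z` on the upper half plane. -/
def scaleH (N : ℕ) [NeZero N] (z : ℍ) : ℍ :=
  ⟨(N : ℂ) * z, by
    have h : (0 : ℝ) < N := Nat.cast_pos.mpr (NeZero.pos N)
    simpa using mul_pos h z.im_pos⟩

@[simp] theorem coe_scaleH (N : ℕ) [NeZero N] (z : ℍ) : (scaleH N z : ℂ) = N * z := rfl

theorem im_scaleH (N : ℕ) [NeZero N] (z : ℍ) : (scaleH N z).im = N * z.im := by
  change ((N : ℂ) * z).im = _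
  simp

/-- the constant `1 / (2 ζ(2))` of the transformation law of `E₂`. -/
def c0 : ℂ := 1 / (2 * riemannZeta 2)

/-- The transformation law of `E₂` in pointwise form. -/
theorem E2_smul (γ : SL(2, ℤ)) (w : ℍ) :
    E2 (γ • w) = denom γ w ^ 2 * (E2 w - c0 * D2 γ w) := by
  have h := congrFun (E2_slash_action γ) w
  rw [SL_slash_apply] at h
  have hd : denom γ w ≠ 0 := denom_ne_zero γ w
  simp only [Pi.sub_apply, Pi.smul_apply, smul_eq_mul] at h
  rw [c0, ← h, zpow_neg, zpow_ofNat]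
  field_simp

/-- `E₂(N z)`. -/
def E2N (N : ℕ) [NeZero N] : ℍ → ℂ := fun z => E2 (scaleH N z)

/-- The function `E₂(z) - N E₂(N z)`. -/
def eisFun (N : ℕ) [NeZero N] : ℍ → ℂ := fun z => E2 z - N * E2 (scaleH N z)

theorem eisFun_apply (N : ℕ) [NeZero N] (z : ℍ) :
    eisFun N z = E2 z - N * E2 (scaleH N z) := rfl

/-! ### invariance under `Γ₀(N)` -/

/-- For `γ ∈ Γ₀(N)` with `γ 1 0 = N c₁`, the matrix `[[a, b N], [c₁, d]]`. -/
def conjN (N : ℕ) (γ : SL(2, ℤ)) (c₁ : ℤ) (hc : γ 1 0 = N * c₁) : SL(2, ℤ) :=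
  ⟨!![γ 0 0, γ 0 1 * N; c₁, γ 1 1], by
    have hdet := γ.det_coe
    rw [Matrix.det_fin_two] at hdet
    rw [Matrix.det_fin_two_of]
    rw [hc] at hdet
    linarith⟩

theorem scaleH_smul (N : ℕ) [NeZero N] (γ : SL(2, ℤ)) (c₁ : ℤ) (hc : γ 1 0 = N * c₁) (z : ℍ) :
    scaleH N (γ • z) = conjN N γ c₁ hc • scaleH N z := by
  apply UpperHalfPlane.ext
  rw [coe_scaleH, coe_specialLinearGroup_apply, coe_specialLinearGroup_apply, coe_scaleH]
  have hd := denom_ne_zero γ z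
  rw [ModularGroup.denom_apply] at hd
  have hcC : ((γ 1 0 : ℤ) : ℂ) = (N : ℂ) * (c₁ : ℂ) := by rw [hc]; push_cast; ring1
  simp only [conjN, algebraMap_int_eq, Matrix.SpecialLinearGroup.coe_mk,
    Matrix.of_apply, Matrix.cons_val_zero, Matrix.cons_val_one, Matrix.cons_val',
    Matrix.cons_val_fin_one, eq_intCast, Complex.ofReal_intCast, Int.cast_mul, Int.cast_natCast]
  push_cast
  have hd' : (c₁ : ℂ) * ((N : ℂ) * z) + (γ 1 1 : ℂ) ≠ 0 := by
    have : (c₁ : ℂ) * ((N : ℂ) * z) + (γ 1 1 : ℂ) = (γ 1 0 : ℂ) * z + (γ 1 1 : ℂ) := by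
      rw [hcC]; ring1
    rw [this]; exact hd
  rw [hcC] at hd ⊢
  field_simp

theorem denom_conjN (N : ℕ) [NeZero N] (γ : SL(2, ℤ)) (c₁ : ℤ) (hc : γ 1 0 = N * c₁) (z : ℍ) :
    denom (conjN N γ c₁ hc) (scaleH N z) = denom γ z := by
  rw [ModularGroup.denom_apply, ModularGroup.denom_apply, coe_scaleH]
  have hcC : ((γ 1 0 : ℤ) : ℂ) = (N : ℂ) * (c₁ : ℂ) := by rw [hc]; push_cast; ring1
  simp only [conjN, Matrix.SpecialLinearGroup.coe_mk,
    Matrix.of_apply, Matrix.cons_val_zero, Matrix.cons_val_one, Matrix.cons_val',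
    Matrix.cons_val_fin_one]
  rw [hcC]; ring1

theorem D2_conjN (N : ℕ) [NeZero N] (γ : SL(2, ℤ)) (c₁ : ℤ) (hc : γ 1 0 = N * c₁) (z : ℍ) :
    (N : ℂ) * D2 (conjN N γ c₁ hc) (scaleH N z) = D2 γ z := by
  rw [D2, D2, denom_conjN]
  have hcC : ((γ 1 0 : ℤ) : ℂ) = (N : ℂ) * (c₁ : ℂ) := by rw [hc]; push_cast; ring1
  have : ((conjN N γ c₁ hc) 1 0 : ℤ) = c₁ := by simp [conjN]
  rw [this, hcC]
  ring1

theorem eisFun_smul_of_dvd (N : ℕ) [NeZero N] (γ : SL(2, ℤ)) (c₁ : ℤ) (hc : γ 1 0 = N * c₁)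
    (z : ℍ) : eisFun N (γ • z) = denom γ z ^ 2 * eisFun N z := by
  rw [eisFun_apply, eisFun_apply, scaleH_smul N γ c₁ hc, E2_smul, E2_smul, denom_conjN,
    ← D2_conjN N γ c₁ hc z]
  ring1

theorem eisFun_slash_of_mem (N : ℕ) [NeZero N] (γ : SL(2, ℤ)) (hγ : γ ∈ Gamma0 N) :
    eisFun N ∣[(2 : ℤ)] γ = eisFun N := by
  rw [Gamma0_mem] at hγ
  obtain ⟨c₁, hc⟩ := (ZMod.intCast_zmod_eq_zero_iff_dvd _ _).1 hγ
  ext z
  rw [SL_slash_apply, eisFun_smul_of_dvd N γ c₁ hc]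
  have hd : denom γ z ≠ 0 := denom_ne_zero γ z
  rw [zpow_neg, zpow_ofNat]
  field_simp

/-! ### holomorphy -/

theorem mdifferentiable_E2N (N : ℕ) [NeZero N] : MDiff (E2N N) := by
  rw [UpperHalfPlane.mdifferentiable_iff]
  have hE := UpperHalfPlane.mdifferentiable_iff.1 E2_mdifferentiable
  have hN : (0 : ℝ) < N := Nat.cast_pos.mpr (NeZero.pos N)
  have hmap : Set.MapsTo (fun z : ℂ => (N : ℂ) * z) {z | 0 < z.im} {z | 0 < z.im} := by
    intro z hz
    have hz' : 0 < z.im := hz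
    change 0 < ((N : ℂ) * z).im
    simpa using mul_pos hN hz'
  have hcomp : DifferentiableOn ℂ ((E2 ∘ ofComplex) ∘ fun z : ℂ => (N : ℂ) * z) {z | 0 < z.im} :=
    hE.comp ((differentiable_id.const_mul (N : ℂ)).differentiableOn) hmap
  refine hcomp.congr (fun z hz => ?_)
  have hz' : 0 < z.im := hz
  have hz'' : 0 < ((N : ℂ) * z).im := hmap hz
  simp only [Function.comp_apply, E2N]
  rw [ofComplex_apply_of_im_pos hz', ofComplex_apply_of_im_pos hz'']
  rfl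

theorem mdifferentiable_eisFun (N : ℕ) [NeZero N] : MDiff (eisFun N) := by
  have h : eisFun N = E2 - (fun _ : ℍ => (N : ℂ)) * E2N N := by
    ext z
    rfl
  rw [h]
  exact E2_mdifferentiable.sub (mdifferentiable_const.mul (mdifferentiable_E2N N))

/-! ### the `q`-expansion -/

/-- the `q`-expansion coefficients of `E₂`. -/
def e2Coeff (m : ℕ) : ℂ := if m = 0 then 1 else -24 * ((ArithmeticFunction.sigma 1 m : ℕ) : ℂ)

/-- the `q`-expansion coefficients of `E₂(z) - N E₂(N z)`. -/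
def eisCoeff (N : ℕ) (k : ℕ) : ℂ := e2Coeff k - (if N ∣ k then (N : ℂ) * e2Coeff (k / N) else 0)

theorem hasSum_E2 (z : ℍ) :
    HasSum (fun m : ℕ => e2Coeff m • Complex.exp (2 * π * Complex.I * z) ^ m) (E2 z) := by
  unfold e2Coeff
  exact hasSum_qExpansion_E2 (z := z)

theorem hasSum_E2N (N : ℕ) [NeZero N] (z : ℍ) :
    HasSum (fun k : ℕ => (if N ∣ k then (N : ℂ) * e2Coeff (k / N) else 0) •
      Complex.exp (2 * π * Complex.I * z) ^ k) ((N : ℂ) * E2 (scaleH N z)) := by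
  have hN : 0 < N := NeZero.pos N
  have h1 := (hasSum_E2 (scaleH N z)).mul_left (N : ℂ)
  have hinj : Function.Injective (fun m : ℕ => N * m) := fun a b hab =>
    Nat.eq_of_mul_eq_mul_left hN hab
  rw [← hinj.hasSum_iff]
  · have hfun : ((fun k : ℕ => (if N ∣ k then (N : ℂ) * e2Coeff (k / N) else 0) •
          Complex.exp (2 * π * Complex.I * z) ^ k) ∘ fun m : ℕ => N * m)
        = fun m : ℕ => (N : ℂ) *
          (e2Coeff m • Complex.exp (2 * π * Complex.I * (scaleH N z)) ^ m) := by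
      funext m
      simp only [Function.comp_apply]
      rw [if_pos (dvd_mul_right N m), Nat.mul_div_cancel_left m hN, pow_mul, smul_eq_mul,
        smul_eq_mul, mul_assoc]
      congr 2
      rw [← Complex.exp_nat_mul, coe_scaleH]
      ring_nf
    rw [hfun]
    exact h1
  · intro k hk
    have : ¬ N ∣ k := by
      rintro ⟨m, rfl⟩
      exact hk ⟨m, rfl⟩
    simp [this]

theorem hasSum_eisFun (N : ℕ) [NeZero N] (z : ℍ) :
    HasSum (fun k : ℕ => eisCoeff N k • Complex.exp (2 * π * Complex.I * z) ^ k) (eisFun N z) := by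
  have h := (hasSum_E2 z).sub (hasSum_E2N N z)
  have hfun : (fun k : ℕ => eisCoeff N k • Complex.exp (2 * π * Complex.I * z) ^ k)
      = fun k : ℕ => e2Coeff k • Complex.exp (2 * π * Complex.I * z) ^ k -
        (if N ∣ k then (N : ℂ) * e2Coeff (k / N) else 0) •
          Complex.exp (2 * π * Complex.I * z) ^ k := by
    funext k
    simp only [eisCoeff, sub_smul]
  rw [hfun]
  exact h

theorem hasSum_eisFun' (N : ℕ) [NeZero N] (z : ℍ) :
    HasSum (fun k : ℕ => eisCoeff N k • Function.Periodic.qParam 1 z ^ k) (eisFun N z) := by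
  simpa only [Function.Periodic.qParam, Complex.ofReal_one, div_one] using hasSum_eisFun N z

theorem isBoundedAtImInfty_eisFun (N : ℕ) [NeZero N] : IsBoundedAtImInfty (eisFun N) :=
  isBoundedAtImInfty_of_hasSum_qExpansion one_pos fun τ => hasSum_eisFun' N τ

/-! ### boundedness at all cusps -/

theorem isBoundedAtImInfty_D2 (γ : SL(2, ℤ)) : IsBoundedAtImInfty (D2 γ) := by
  rw [UpperHalfPlane.isBoundedAtImInfty_iff]
  refine ⟨2 * π, 1, fun z hz => ?_⟩
  rw [D2]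
  by_cases hc : γ 1 0 = 0
  · simp [hc, Real.pi_pos.le]
  · have hcR : (0 : ℝ) < |((γ 1 0 : ℤ) : ℝ)| := abs_pos.mpr (by exact_mod_cast hc)
    have hden : |((γ 1 0 : ℤ) : ℝ)| ≤ ‖denom γ z‖ := by
      have h1 : (denom γ z).im = (γ 1 0 : ℝ) * z.im := by
        rw [ModularGroup.denom_apply]
        simp
      calc |((γ 1 0 : ℤ) : ℝ)| ≤ |((γ 1 0 : ℤ) : ℝ)| * z.im := by
            nlinarith [hz, hcR]
        _ = |(denom γ z).im| := by rw [h1, abs_mul, abs_of_pos z.im_pos]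
        _ ≤ ‖denom γ z‖ := Complex.abs_im_le_norm _
    have hdpos : 0 < ‖denom γ z‖ := lt_of_lt_of_le hcR hden
    rw [norm_div, div_le_iff₀ hdpos]
    have hnum : ‖2 * (π : ℂ) * Complex.I * ((γ 1 0 : ℤ) : ℂ)‖ = 2 * π * |((γ 1 0 : ℤ) : ℝ)| := by
      rw [norm_mul, norm_mul, norm_mul, Complex.norm_I, Complex.norm_intCast]
      simp [abs_of_pos Real.pi_pos]
    rw [hnum]
    have := Real.pi_pos
    nlinarith [hden, this]

theorem isBoundedAtImInfty_E2_slash (γ : SL(2, ℤ)) :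
    IsBoundedAtImInfty (E2 ∣[(2 : ℤ)] γ) := by
  rw [E2_slash_action]
  have h1 : IsBoundedAtImInfty E2 := isBoundedAtImInfty_E2
  have h2 : IsBoundedAtImInfty ((1 / (2 * riemannZeta 2)) • D2 γ) :=
    Filter.BoundedAtFilter.smul _ (isBoundedAtImInfty_D2 γ)
  have := Filter.BoundedAtFilter.add h1 (Filter.BoundedAtFilter.neg h2)
  rwa [← sub_eq_add_neg] at this

/-- The affine map `z ↦ (A z + B) / D` on the upper half plane. -/
def triH (A D B : ℤ) (hA : 0 < A) (hD : 0 < D) (z : ℍ) : ℍ :=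
  ⟨(((A : ℝ) / D : ℝ) : ℂ) * z + (((B : ℝ) / D : ℝ) : ℂ), by
    have hAD : (0 : ℝ) < (A : ℝ) / D := div_pos (by exact_mod_cast hA) (by exact_mod_cast hD)
    simpa using mul_pos hAD z.im_pos⟩

theorem coe_triH (A D B : ℤ) (hA : 0 < A) (hD : 0 < D) (z : ℍ) :
    (triH A D B hA hD z : ℂ) = ((A : ℂ) * z + B) / D := by
  change (((A : ℝ) / D : ℝ) : ℂ) * z + (((B : ℝ) / D : ℝ) : ℂ) = _
  have hD' : (D : ℂ) ≠ 0 := by exact_mod_cast hD.ne'
  push_cast
  field_simp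

theorem im_triH (A D B : ℤ) (hA : 0 < A) (hD : 0 < D) (z : ℍ) :
    (triH A D B hA hD z).im = (A : ℝ) / D * z.im := by
  change ((((A : ℝ) / D : ℝ) : ℂ) * z + (((B : ℝ) / D : ℝ) : ℂ)).im = _
  simp

theorem IsBoundedAtImInfty.comp_triH {g : ℍ → ℂ} (hg : IsBoundedAtImInfty g)
    (A D B : ℤ) (hA : 0 < A) (hD : 0 < D) :
    IsBoundedAtImInfty (fun z => g (triH A D B hA hD z)) := by
  rw [UpperHalfPlane.isBoundedAtImInfty_iff] at hg ⊢
  obtain ⟨M, R, h⟩ := hg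
  have hAD : (0 : ℝ) < (A : ℝ) / D := div_pos (by exact_mod_cast hA) (by exact_mod_cast hD)
  refine ⟨M, R / ((A : ℝ) / D), fun z hz => h _ ?_⟩
  rw [im_triH]
  rw [div_le_iff₀ hAD] at hz
  linarith

/-- Hermite reduction of `diag(N, 1) γ`. -/
theorem exists_hermite (N : ℕ) [NeZero N] (γ : SL(2, ℤ)) :
    ∃ (γ' : SL(2, ℤ)) (A D B : ℤ), 0 < A ∧ 0 < D ∧
      γ' 0 0 * A = N * γ 0 0 ∧ γ' 1 0 * A = γ 1 0 ∧
      γ' 0 0 * B + γ' 0 1 * D = N * γ 0 1 ∧ γ' 1 0 * B + γ' 1 1 * D = γ 1 1 := by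
  have hN0 : (N : ℤ) ≠ 0 := by exact_mod_cast NeZero.ne N
  have hNpos : (0 : ℤ) < N := by exact_mod_cast NeZero.pos N
  set a := γ 0 0 with ha
  set b := γ 0 1 with hb
  set c := γ 1 0 with hc
  set d := γ 1 1 with hd
  have hdet : a * d - b * c = 1 := by
    have := γ.det_coe
    rw [Matrix.det_fin_two] at this
    exact this
  have hgpos : 0 < Int.gcd (N : ℤ) c := Int.gcd_pos_of_ne_zero_left _ hN0
  set g : ℤ := (Int.gcd (N : ℤ) c : ℤ) with hg
  have hgpos' : 0 < g := by rw [hg]; exact_mod_cast hgpos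
  obtain ⟨D', hD'⟩ : g ∣ (N : ℤ) := Int.gcd_dvd_left _ _
  obtain ⟨c', hc'⟩ : g ∣ c := Int.gcd_dvd_right _ _
  have hD'pos : 0 < D' := by
    rcases lt_trichotomy D' 0 with h | h | h
    · exfalso; nlinarith
    · exfalso; rw [h, mul_zero] at hD'; exact hN0 hD'
    · exact h
  have hcop1 : IsCoprime D' c' := by
    have h := Int.gcd_div_gcd_div_gcd hgpos
    rw [← hg] at h
    have e1 : (N : ℤ) / g = D' := by rw [hD']; exact Int.mul_ediv_cancel_left _ hgpos'.ne'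
    have e2 : c / g = c' := by rw [hc']; exact Int.mul_ediv_cancel_left _ hgpos'.ne'
    rw [e1, e2] at h
    exact Int.isCoprime_iff_gcd_eq_one.mpr h
  have hcop2 : IsCoprime a c' := by
    have h : IsCoprime a c := ⟨d, -b, by linarith⟩
    rw [hc'] at h
    exact h.of_mul_right_right
  obtain ⟨u, v, huv⟩ : IsCoprime (D' * a) c' := hcop1.mul_left hcop2
  refine ⟨⟨!![D' * a, -v; c', u], ?_⟩, g, D', u * N * b + v * d, hgpos', hD'pos, ?_, ?_, ?_, ?_⟩
  · rw [Matrix.det_fin_two_of]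
    linarith
  · simp only [Matrix.of_apply, Matrix.cons_val_zero,
      Matrix.cons_val', Matrix.cons_val_fin_one]
    rw [hD']; ring
  · simp only [Matrix.of_apply, Matrix.cons_val_zero,
      Matrix.cons_val_one, Matrix.cons_val', Matrix.cons_val_fin_one]
    rw [hc']; ring
  · simp only [Matrix.of_apply, Matrix.cons_val_zero,
      Matrix.cons_val_one, Matrix.cons_val', Matrix.cons_val_fin_one]
    rw [hc'] at hdet
    rw [hD']
    linear_combination (D' * g * b) * huv + (D' * v) * hdet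
  · simp only [Matrix.of_apply, Matrix.cons_val_zero,
      Matrix.cons_val_one, Matrix.cons_val', Matrix.cons_val_fin_one]
    rw [hc'] at hdet
    rw [hD']
    linear_combination d * huv + (-(u * D')) * hdet

section Hermite

variable (N : ℕ) [NeZero N] (γ γ' : SL(2, ℤ)) (A D B : ℤ) (hA : 0 < A) (hD : 0 < D)
  (h11 : γ' 0 0 * A = N * γ 0 0) (h21 : γ' 1 0 * A = γ 1 0)
  (h12 : γ' 0 0 * B + γ' 0 1 * D = N * γ 0 1) (h22 : γ' 1 0 * B + γ' 1 1 * D = γ 1 1)

include h21 h22 in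
theorem denom_triH (z : ℍ) : denom γ' (triH A D B hA hD z) * D = denom γ z := by
  rw [ModularGroup.denom_apply, ModularGroup.denom_apply, coe_triH]
  have hD' : (D : ℂ) ≠ 0 := by exact_mod_cast hD.ne'
  have h21C : ((γ' 1 0 : ℤ) : ℂ) * A = (γ 1 0 : ℤ) := by exact_mod_cast congrArg (Int.cast : ℤ → ℂ) h21
  have h22C : ((γ' 1 0 : ℤ) : ℂ) * B + (γ' 1 1 : ℤ) * D = (γ 1 1 : ℤ) := by
    exact_mod_cast congrArg (Int.cast : ℤ → ℂ) h22
  field_simp
  linear_combination (z : ℂ) * h21C + h22C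

include h11 h21 h12 h22 in
theorem scaleH_smul_hermite (z : ℍ) : scaleH N (γ • z) = γ' • triH A D B hA hD z := by
  apply UpperHalfPlane.ext
  rw [coe_scaleH, coe_specialLinearGroup_apply, coe_specialLinearGroup_apply, coe_triH]
  have hD' : (D : ℂ) ≠ 0 := by exact_mod_cast hD.ne'
  have h11C : ((γ' 0 0 : ℤ) : ℂ) * A = N * (γ 0 0 : ℤ) := by
    exact_mod_cast congrArg (Int.cast : ℤ → ℂ) h11
  have h12C : ((γ' 0 0 : ℤ) : ℂ) * B + (γ' 0 1 : ℤ) * D = N * (γ 0 1 : ℤ) := by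
    exact_mod_cast congrArg (Int.cast : ℤ → ℂ) h12
  have h21C : ((γ' 1 0 : ℤ) : ℂ) * A = (γ 1 0 : ℤ) := by exact_mod_cast congrArg (Int.cast : ℤ → ℂ) h21
  have h22C : ((γ' 1 0 : ℤ) : ℂ) * B + (γ' 1 1 : ℤ) * D = (γ 1 1 : ℤ) := by
    exact_mod_cast congrArg (Int.cast : ℤ → ℂ) h22
  simp only [algebraMap_int_eq, eq_intCast, Complex.ofReal_intCast]
  have hd := denom_ne_zero γ z
  rw [ModularGroup.denom_apply] at hd
  have hnum : ((γ' 0 0 : ℤ) : ℂ) * (((A : ℂ) * z + B) / D) + (γ' 0 1 : ℤ)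
      = (N * ((γ 0 0 : ℤ) * (z : ℂ) + (γ 0 1 : ℤ))) / D := by
    field_simp
    linear_combination (z : ℂ) * h11C + h12C
  have hden : ((γ' 1 0 : ℤ) : ℂ) * (((A : ℂ) * z + B) / D) + (γ' 1 1 : ℤ)
      = ((γ 1 0 : ℤ) * (z : ℂ) + (γ 1 1 : ℤ)) / D := by
    field_simp
    linear_combination (z : ℂ) * h21C + h22C
  rw [hnum, hden]
  field_simp

include h11 h21 h12 h22 in
theorem E2N_slash_apply (z : ℍ) :
    (E2N N ∣[(2 : ℤ)] γ) z = ((D : ℂ) ^ 2)⁻¹ * (E2 ∣[(2 : ℤ)] γ') (triH A D B hA hD z) := by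
  have hden := denom_triH γ γ' A D B hA hD h21 h22 z
  have hsm := scaleH_smul_hermite N γ γ' A D B hA hD h11 h21 h12 h22 z
  rw [SL_slash_apply, SL_slash_apply, E2N, hsm, ← hden, mul_zpow]
  rw [zpow_neg, zpow_neg, zpow_ofNat, zpow_ofNat]
  ring

end Hermite

theorem isBoundedAtImInfty_E2N_slash (N : ℕ) [NeZero N] (γ : SL(2, ℤ)) :
    IsBoundedAtImInfty (E2N N ∣[(2 : ℤ)] γ) := by
  obtain ⟨γ', A, D, B, hA, hD, h11, h21, h12, h22⟩ := exists_hermite N γ
  have h1 := IsBoundedAtImInfty.comp_triH (isBoundedAtImInfty_E2_slash γ') A D B hA hD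
  have h2 : IsBoundedAtImInfty (((D : ℂ) ^ 2)⁻¹ •
      fun z => (E2 ∣[(2 : ℤ)] γ') (triH A D B hA hD z)) := Filter.BoundedAtFilter.smul _ h1
  have heq : E2N N ∣[(2 : ℤ)] γ = ((D : ℂ) ^ 2)⁻¹ •
      fun z => (E2 ∣[(2 : ℤ)] γ') (triH A D B hA hD z) := by
    ext z
    rw [E2N_slash_apply N γ γ' A D B hA hD h11 h21 h12 h22 z]
    rfl
  rw [heq]
  exact h2

theorem isBoundedAtImInfty_eisFun_slash (N : ℕ) [NeZero N] (γ : SL(2, ℤ)) :
    IsBoundedAtImInfty (eisFun N ∣[(2 : ℤ)] γ) := by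
  have h : eisFun N = E2 + (-(N : ℂ)) • E2N N := by
    ext z
    simp only [eisFun_apply, E2N, Pi.add_apply, Pi.smul_apply, smul_eq_mul]
    ring
  rw [h, SlashAction.add_slash, SL_smul_slash]
  exact Filter.BoundedAtFilter.add (isBoundedAtImInfty_E2_slash γ)
    (Filter.BoundedAtFilter.smul _ (isBoundedAtImInfty_E2N_slash N γ))

/-! ### the modular form -/

/-- **The weight-2 Eisenstein form of level `N`**: `E₂(z) - N E₂(N z)` on `Γ₀(N)`. -/
def eisTwo (N : ℕ) [NeZero N] : ModularForm (Gamma0 N) 2 where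
  toFun := eisFun N
  slash_action_eq' := by
    rintro _ ⟨γ, hγ, rfl⟩
    exact eisFun_slash_of_mem N γ hγ
  holo' := mdifferentiable_eisFun N
  bdd_at_cusps' {c} hc := by
    rw [Subgroup.IsArithmetic.isCusp_iff_isCusp_SL2Z] at hc
    rw [OnePoint.isBoundedAt_iff_forall_SL2Z hc]
    intro γ _
    exact isBoundedAtImInfty_eisFun_slash N γ

@[simp] theorem eisTwo_apply (N : ℕ) [NeZero N] (z : ℍ) :
    eisTwo N z = E2 z - N * E2 (scaleH N z) := rfl

theorem coe_eisTwo (N : ℕ) [NeZero N] : ⇑(eisTwo N) = eisFun N := rfl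

/-- The `q`-expansion of `eisTwo N`. -/
theorem qExpansion_coeff_eisTwo (N : ℕ) [NeZero N] (k : ℕ) :
    (qExpansion 1 (eisTwo N)).coeff k = eisCoeff N k := by
  have h1 : (1 : ℝ) ∈ ((Gamma0 N : Subgroup (GL (Fin 2) ℝ))).strictPeriods :=
    CongruenceSubgroup.one_mem_strictPeriods_Gamma0 N
  exact (ModularFormClass.qExpansion_coeff_unique one_pos h1
    (fun τ => hasSum_eisFun' N τ) k).symm

/-- The same in the prelude's `qCoeff` vocabulary. -/
theorem qCoeff_eisTwo (N : ℕ) [NeZero N] (k : ℕ) :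
    ModularFormClass.qCoeff (eisTwo N) k = eisCoeff N k :=
  qExpansion_coeff_eisTwo N k

theorem eisCoeff_zero (N : ℕ) : eisCoeff N 0 = 1 - N := by
  simp [eisCoeff, e2Coeff]

/-- `σ'_N(k) = σ(k) - N σ(k / N) [N ∣ k]`, an integer. -/
def sigmaPrime (N k : ℕ) : ℤ :=
  (ArithmeticFunction.sigma 1 k : ℤ) - (if N ∣ k then (N : ℤ) * (ArithmeticFunction.sigma 1 (k / N) : ℤ) else 0)

theorem eisCoeff_of_pos (N : ℕ) [NeZero N] {k : ℕ} (hk : 0 < k) :
    eisCoeff N k = -24 * (sigmaPrime N k : ℂ) := by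
  have hk0 : k ≠ 0 := hk.ne'
  by_cases hNk : N ∣ k
  · obtain ⟨m, rfl⟩ := hNk
    have hN : 0 < N := NeZero.pos N
    have hm : m ≠ 0 := by
      rintro rfl
      simp at hk
    simp only [eisCoeff, e2Coeff, sigmaPrime, if_neg hk0, dvd_mul_right, if_true,
      Nat.mul_div_cancel_left m hN, if_neg hm]
    push_cast
    ring
  · simp only [eisCoeff, e2Coeff, sigmaPrime, if_neg hk0, if_neg hNk]
    push_cast
    ring

/-- For a prime `p`, `σ'_p(k)` is the sum of the divisors of `k` prime to `p`. -/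
theorem sigmaPrime_prime {p : ℕ} (hp : p.Prime) {k : ℕ} (hk : 0 < k) :
    sigmaPrime p k = ∑ d ∈ k.divisors with ¬ p ∣ d, (d : ℤ) := by
  have hsplit : (∑ d ∈ k.divisors, (d : ℤ)) =
      ∑ d ∈ k.divisors with p ∣ d, (d : ℤ) + ∑ d ∈ k.divisors with ¬ p ∣ d, (d : ℤ) :=
    (Finset.sum_filter_add_sum_filter_not _ _ _).symm
  have hσ : ∀ n : ℕ, ((ArithmeticFunction.sigma 1 n : ℕ) : ℤ) = ∑ d ∈ n.divisors, (d : ℤ) := by
    intro n
    rw [ArithmeticFunction.sigma_one_apply]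
    push_cast
    rfl
  have hdiv : ∑ d ∈ k.divisors with p ∣ d, (d : ℤ) =
      if p ∣ k then (p : ℤ) * (ArithmeticFunction.sigma 1 (k / p) : ℤ) else 0 := by
    split_ifs with hpk
    · obtain ⟨m, rfl⟩ := hpk
      have hm : m ≠ 0 := by
        rintro rfl
        simp at hk
      rw [Nat.mul_div_cancel_left m hp.pos, hσ, Finset.mul_sum]
      symm
      refine Finset.sum_bij (fun e _ => p * e) ?_ ?_ ?_ ?_
      · intro e he
        rw [Nat.mem_divisors] at he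
        rw [Finset.mem_filter, Nat.mem_divisors]
        exact ⟨⟨Nat.mul_dvd_mul_left p he.1, Nat.mul_ne_zero hp.ne_zero hm⟩, dvd_mul_right p e⟩
      · intro a _ b _ hab
        exact Nat.eq_of_mul_eq_mul_left hp.pos hab
      · intro d hd
        rw [Finset.mem_filter, Nat.mem_divisors] at hd
        obtain ⟨⟨hdk, _⟩, e, rfl⟩ := hd
        refine ⟨e, ?_, rfl⟩
        rw [Nat.mem_divisors]
        exact ⟨(Nat.mul_dvd_mul_iff_left hp.pos).1 hdk, hm⟩
      · intro e _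
        push_cast
        rfl
    · apply Finset.sum_eq_zero
      intro d hd
      rw [Finset.mem_filter, Nat.mem_divisors] at hd
      exact absurd (hd.2.trans hd.1.1) hpk
  rw [sigmaPrime, hσ k, hsplit, hdiv]
  ring

end

end Fermat.Agent.S16.H49
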