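import Mathlib
import Fermat.Prelude.Def_CuspForm_HeckeLocal
import Fermat.Prelude.Def_CuspForm_HeckeEvalForms
import Fermat.Agent.S49.H70_ModThree
import Fermat.Agent.S49.H90_Normalize

/-!
# The `a₁`-duality between the integral Hecke algebra and the lattice of integral cusp forms
(helper52, for S16)

`SS N := intLattice N 2`, `TT N := heckeLatticeAlgebra N ∅ ⊆ End_ℤ (SS N)` (all `T_ℓ`, `ℓ ∤ N`, and `U_q`,
`q ∣ N`).  The pairing `⟨t, f⟩ = a₁(t f)` identifies `SS N` with `Hom_ℤ(TT N, ℤ)`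
(`pairS_bijective`).  Consequently every ring hom `ψ : TT N →+* ZMod m` is the system of
eigenvalues mod `m` of an integral cusp form (`exists_eigen_mod`).
-/

set_option autoImplicit false

open CongruenceSubgroup ModularFormClass CuspForm

namespace Fermat.Agent.S16.H52

noncomputable section

variable (N : ℕ) [NeZero N]

/-- The lattice of integral weight-2 cusp forms of level `N`. -/
abbrev SS (N : ℕ) : Type := ↥(intLattice N 2)

/-- The integral Hecke algebra (all `T_ℓ`, `U_q`) acting on `SS N`. -/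
abbrev TT (N : ℕ) [NeZero N] : Type := ↥(heckeLatticeAlgebra N ∅)

/-! ### Integer `q`-coefficients on the lattice -/

omit [NeZero N] in
theorem exists_int_qCoeff (f : SS N) (k : ℕ) :
    ∃ m : ℤ, qCoeff (f : CuspForm (Gamma0 N) 2) k = (m : ℂ) :=
  (S49.H70.mem_intLattice_iff (f : CuspForm (Gamma0 N) 2)).mp f.2 k

/-- The `k`-th `q`-coefficient of an integral cusp form, as an integer. -/
def cz (k : ℕ) (f : SS N) : ℤ := (exists_int_qCoeff N f k).choose

omit [NeZero N] in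
theorem cz_spec (k : ℕ) (f : SS N) :
    ((cz N k f : ℤ) : ℂ) = qCoeff (f : CuspForm (Gamma0 N) 2) k :=
  (exists_int_qCoeff N f k).choose_spec.symm

omit [NeZero N] in
theorem cz_eq_iff (k : ℕ) (f : SS N) (z : ℤ) :
    cz N k f = z ↔ qCoeff (f : CuspForm (Gamma0 N) 2) k = (z : ℂ) := by
  rw [← cz_spec, Int.cast_inj]

omit [NeZero N] in
theorem cz_add (k : ℕ) (f g : SS N) : cz N k (f + g) = cz N k f + cz N k g := by
  rw [cz_eq_iff, Submodule.coe_add, S49.H70.qCoeff_add, ← cz_spec, ← cz_spec, Int.cast_add]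

omit [NeZero N] in
theorem cz_zsmul (k : ℕ) (c : ℤ) (f : SS N) : cz N k (c • f) = c * cz N k f := by
  rw [cz_eq_iff, Submodule.coe_smul, S49.H70.qCoeff_zsmul, ← cz_spec, Int.cast_mul]

omit [NeZero N] in
theorem cz_zero_index (f : SS N) : cz N 0 f = 0 := by
  rw [cz_eq_iff, S49.H90.qCoeff_zero_eq, Int.cast_zero]

/-- `cz k` as a linear form. -/
def czLin (k : ℕ) : SS N →ₗ[ℤ] ℤ where
  toFun := cz N k
  map_add' := cz_add N k
  map_smul' c f := by rw [cz_zsmul]; rfl

omit [NeZero N] in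
@[simp] theorem czLin_apply (k : ℕ) (f : SS N) : czLin N k f = cz N k f := rfl

omit [NeZero N] in
theorem cz_sub (k : ℕ) (f g : SS N) : cz N k (f - g) = cz N k f - cz N k g :=
  map_sub (czLin N k) f g

omit [NeZero N] in
theorem cz_neg (k : ℕ) (f : SS N) : cz N k (-f) = -cz N k f :=
  map_neg (czLin N k) f

omit [NeZero N] in
theorem eq_zero_of_forall_cz (f : SS N) (h : ∀ k : ℕ, 1 ≤ k → cz N k f = 0) : f = 0 := by
  apply Subtype.ext
  apply S49.H90.eq_zero_of_forall_qCoeff_eq_zero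
  intro n
  rcases Nat.eq_zero_or_pos n with rfl | hn
  · exact S49.H90.qCoeff_zero_eq _
  · rw [← cz_spec, h n hn, Int.cast_zero]

/-! ### The generators of `TT N` and their effect on coefficients -/

/-- The generator `T_ℓ` (`ℓ ∤ N`) resp. `U_ℓ` (`ℓ ∣ N`) of `TT N`. -/
def tau (ℓ : Nat.Primes) : TT N := latticeRestrictHom N ∅ (heckeFormsGen N 2 ℓ)

theorem coe_tau_apply_of_not_dvd {ℓ : Nat.Primes} (h : ¬ (ℓ : ℕ) ∣ N) (f : SS N) :
    (((tau N ℓ : TT N) : Module.End ℤ (SS N)) f : CuspForm (Gamma0 N) 2) =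
      heckeTLin 2 ℓ.2 h (f : CuspForm (Gamma0 N) 2) := by
  rw [tau, heckeFormsGen_of_not_dvd h]
  rfl

theorem coe_tau_apply_of_dvd {ℓ : Nat.Primes} (h : (ℓ : ℕ) ∣ N) (f : SS N) :
    (((tau N ℓ : TT N) : Module.End ℤ (SS N)) f : CuspForm (Gamma0 N) 2) =
      heckeULin 2 h (f : CuspForm (Gamma0 N) 2) := by
  rw [tau, heckeFormsGen_of_dvd h]
  rfl

theorem cz_tau_of_not_dvd {ℓ : Nat.Primes} (h : ¬ (ℓ : ℕ) ∣ N) (k : ℕ) (f : SS N) :
    cz N k (((tau N ℓ : TT N) : Module.End ℤ (SS N)) f) =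
      cz N (k * ℓ) f + if (ℓ : ℕ) ∣ k then (ℓ : ℤ) * cz N (k / ℓ) f else 0 := by
  rw [cz_eq_iff, coe_tau_apply_of_not_dvd N h, S49.H70.qCoeff_heckeTLin,
    ModularForm.coeffHeckeT_apply]
  have h2 : ((ℓ : ℕ) : ℂ) ^ ((2 : ℤ) - 1) = ((ℓ : ℕ) : ℂ) := by norm_num
  rw [h2]
  split_ifs
  · push_cast [cz_spec]; rfl
  · push_cast [cz_spec]; rfl

theorem cz_tau_of_dvd {ℓ : Nat.Primes} (h : (ℓ : ℕ) ∣ N) (k : ℕ) (f : SS N) :
    cz N k (((tau N ℓ : TT N) : Module.End ℤ (SS N)) f) = cz N (k * ℓ) f := by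
  rw [cz_eq_iff, coe_tau_apply_of_dvd N h, S49.H70.qCoeff_heckeULin ℓ.2,
    ModularForm.coeffHeckeU_apply, cz_spec]

/-! ### The divisibility induction -/

/-- If `d ∣ a₁(t g)` for all `t ∈ 𝕋`, then `d ∣ a_k(g)` for all `k ≥ 1`. -/
theorem dvd_cz_of_forall_dvd_cz_one (d : ℤ) :
    ∀ k : ℕ, 1 ≤ k → ∀ g : SS N,
      (∀ t : TT N, d ∣ cz N 1 ((t : Module.End ℤ (SS N)) g)) → d ∣ cz N k g := by
  intro k
  induction k using Nat.strong_induction_on with
  | _ k ih =>
    intro hk g hg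
    rcases Nat.lt_or_ge 1 k with h1k | h1k
    · obtain ⟨l, hl, hlk⟩ := Nat.exists_prime_and_dvd (show k ≠ 1 by omega)
      obtain ⟨m, rfl⟩ := hlk
      have hm : 1 ≤ m := by
        rcases Nat.eq_zero_or_pos m with rfl | hm
        · simp at hk
        · exact hm
      have hmlt : m < l * m := by
        have := hl.two_le
        nlinarith
      set ℓ : Nat.Primes := ⟨l, hl⟩ with hℓ
      have hg' : ∀ t : TT N, d ∣ cz N 1 ((t : Module.End ℤ (SS N))
          (((tau N ℓ : TT N) : Module.End ℤ (SS N)) g)) := by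
        intro t
        have := hg (t * tau N ℓ)
        rwa [Subalgebra.coe_mul, Module.End.mul_apply] at this
      have h1 := ih m hmlt hm _ hg'
      rw [mul_comm]
      by_cases hlN : l ∣ N
      · rwa [cz_tau_of_dvd N (ℓ := ℓ) hlN] at h1
      · rw [cz_tau_of_not_dvd N (ℓ := ℓ) hlN] at h1
        by_cases hlm : l ∣ m
        · have hlm' : ((ℓ : Nat.Primes) : ℕ) ∣ m := hlm
          rw [if_pos hlm'] at h1
          have h2 : d ∣ cz N (m / l) g := by
            apply ih _ _ _ g hg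
            · calc m / l ≤ m := Nat.div_le_self _ _
                _ < l * m := hmlt
            · exact Nat.div_pos (Nat.le_of_dvd hm hlm) hl.pos
          exact (Int.dvd_add_left (Dvd.dvd.mul_left h2 _)).mp h1
        · have hlm' : ¬ ((ℓ : Nat.Primes) : ℕ) ∣ m := hlm
          rwa [if_neg hlm', add_zero] at h1
    · have : k = 1 := by omega
      subst this
      simpa using hg 1

/-! ### The pairing -/

/-- The `a₁`-pairing, `𝕊`-side first. -/
def pairS : SS N →ₗ[ℤ] (TT N →ₗ[ℤ] ℤ) :=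
  LinearMap.mk₂ ℤ (fun (f : SS N) (t : TT N) => cz N 1 ((t : Module.End ℤ (SS N)) f))
    (fun f g t => by rw [map_add, cz_add])
    (fun c f t => by rw [map_smul, cz_zsmul]; rfl)
    (fun f t t' => by rw [Subalgebra.coe_add, LinearMap.add_apply, cz_add])
    (fun c f t => by rw [Subalgebra.coe_smul, LinearMap.smul_apply, cz_zsmul]; rfl)

theorem pairS_apply (f : SS N) (t : TT N) :
    pairS N f t = cz N 1 ((t : Module.End ℤ (SS N)) f) := rfl

theorem pairS_injective : Function.Injective (pairS N) := by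
  rw [injective_iff_map_eq_zero]
  intro f hf
  apply eq_zero_of_forall_cz
  intro k hk
  have h := dvd_cz_of_forall_dvd_cz_one N 0 k hk f (fun t => by
    have : pairS N f t = 0 := by rw [hf]; rfl
    rw [pairS_apply] at this
    rw [this])
  exact zero_dvd_iff.mp h

theorem pairS_flip_injective : Function.Injective (pairS N).flip := by
  rw [injective_iff_map_eq_zero]
  intro t ht
  apply Subtype.ext
  apply LinearMap.ext
  intro f
  rw [ZeroMemClass.coe_zero, LinearMap.zero_apply]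
  apply pairS_injective N
  rw [map_zero]
  apply LinearMap.ext
  intro t'
  rw [pairS_apply, LinearMap.zero_apply, ← Module.End.mul_apply, ← Subalgebra.coe_mul, mul_comm,
    Subalgebra.coe_mul, Module.End.mul_apply, ← pairS_apply, ← LinearMap.flip_apply, ht,
    LinearMap.zero_apply]

theorem finrank_TT_eq_finrank_SS : Module.finrank ℤ (TT N) = Module.finrank ℤ (SS N) := by
  haveI := intLattice.moduleFinite N
  haveI := intLattice.moduleFree N
  apply le_antisymm
  · have h := LinearMap.finrank_le_finrank_of_injective (pairS_flip_injective N)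
    rwa [Module.finrank_linearMap_self] at h
  · have h := LinearMap.finrank_le_finrank_of_injective (pairS_injective N)
    rwa [Module.finrank_linearMap_self] at h

/-- **Perfectness of the `a₁`-pairing**: `𝕊 ≃ Hom_ℤ(𝕋, ℤ)`. -/
theorem pairS_surjective : Function.Surjective (pairS N) := by
  haveI := intLattice.moduleFinite N
  haveI := intLattice.moduleFree N
  intro φ
  -- the range has full rank, hence finite index
  have hrank : Module.finrank ℤ (LinearMap.range (pairS N)) =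
      Module.finrank ℤ (TT N →ₗ[ℤ] ℤ) := by
    rw [LinearMap.finrank_range_of_inj (pairS_injective N), Module.finrank_linearMap_self,
      finrank_TT_eq_finrank_SS]
  haveI hfin : Finite ((TT N →ₗ[ℤ] ℤ) ⧸ LinearMap.range (pairS N)) :=
    Submodule.finiteQuotientOfFreeOfRankEq _ hrank
  set d : ℕ := Nat.card ((TT N →ₗ[ℤ] ℤ) ⧸ LinearMap.range (pairS N)) with hd
  have hd0 : d ≠ 0 := Nat.card_ne_zero.mpr ⟨⟨0⟩, hfin⟩
  have hmem : d • φ ∈ LinearMap.range (pairS N) := by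
    rw [← Submodule.Quotient.mk_eq_zero, Submodule.Quotient.mk_smul]
    exact card_nsmul_eq_zero'
  obtain ⟨g, hg⟩ := hmem
  -- all coefficients of `g` are divisible by `d`
  have hdiv : ∀ k : ℕ, 1 ≤ k → (d : ℤ) ∣ cz N k g := fun k hk =>
    dvd_cz_of_forall_dvd_cz_one N d k hk g (fun t => by
      rw [← pairS_apply, hg]
      exact ⟨φ t, by simp⟩)
  -- divide `g` by `d`
  have hmemL : ((d : ℂ)⁻¹ • (g : CuspForm (Gamma0 N) 2)) ∈ intLattice N 2 := by
    rw [S49.H70.mem_intLattice_iff]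
    intro n
    rcases Nat.eq_zero_or_pos n with rfl | hn
    · exact ⟨0, by rw [S49.H90.qCoeff_zero_eq]; simp⟩
    · obtain ⟨c, hc⟩ := hdiv n hn
      refine ⟨c, ?_⟩
      rw [S49.H70.qCoeff_smul, ← cz_spec, hc]
      push_cast
      field_simp
  set f : SS N := ⟨_, hmemL⟩ with hf
  have hdf : (d : ℤ) • f = g := by
    apply Subtype.ext
    rw [Submodule.coe_smul, hf]
    show (d : ℤ) • ((d : ℂ)⁻¹ • (g : CuspForm (Gamma0 N) 2)) = g
    rw [← Int.cast_smul_eq_zsmul ℂ, smul_smul]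
    push_cast
    rw [mul_inv_cancel₀ (Nat.cast_ne_zero.mpr hd0), one_smul]
  refine ⟨f, ?_⟩
  have h2 : (d : ℤ) • pairS N f = (d : ℤ) • φ := by
    rw [← map_smul, hdf, hg, natCast_zsmul]
  exact smul_right_injective _ (Int.natCast_ne_zero.mpr hd0) h2

theorem pairS_bijective : Function.Bijective (pairS N) :=
  ⟨pairS_injective N, pairS_surjective N⟩

/-! ### Eigenforms mod `m` from characters of `𝕋` -/

/-- Every ring hom `ψ : 𝕋 → ℤ/m` is the eigenvalue system mod `m` of an integral cusp form: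
there is `f ∈ 𝕊` with `a₁(t f) ≡ ψ t` for all `t`; then `a_k(t f) ≡ ψ(t) a_k(f)` for all
`k ≥ 1` and `a₁(f) ≡ 1`. -/
theorem exists_eigen_mod (m : ℕ) (ψ : TT N →+* ZMod m) :
    ∃ f : SS N, (∀ t : TT N, ((cz N 1 ((t : Module.End ℤ (SS N)) f) : ℤ) : ZMod m) = ψ t) ∧
      ((cz N 1 f : ℤ) : ZMod m) = 1 ∧
      ∀ (t : TT N) (k : ℕ), 1 ≤ k →
        ((cz N k ((t : Module.End ℤ (SS N)) f) : ℤ) : ZMod m) = ψ t * ((cz N k f : ℤ) : ZMod m) := by
  -- lift `ψ` to a `ℤ`-linear form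
  obtain ⟨φ, hφ⟩ := Module.projective_lifting_property
    (Int.castAddHom (ZMod m)).toIntLinearMap (ψ : TT N →+ ZMod m).toIntLinearMap
    (ZMod.intCast_surjective)
  have hφ' : ∀ t : TT N, ((φ t : ℤ) : ZMod m) = ψ t := fun t => by
    have := LinearMap.congr_fun hφ t
    simpa using this
  obtain ⟨f, hf⟩ := pairS_surjective N φ
  have h1 : ∀ t : TT N, ((cz N 1 ((t : Module.End ℤ (SS N)) f) : ℤ) : ZMod m) = ψ t := fun t => by
    rw [← pairS_apply, hf, hφ']
  refine ⟨f, h1, ?_, ?_⟩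
  · have := h1 1
    rwa [OneMemClass.coe_one, Module.End.one_apply, map_one] at this
  · intro t k hk
    obtain ⟨c, hc⟩ := ZMod.intCast_surjective (ψ t)
    -- `h := t f - c f` has all `a₁(t' h) ≡ 0`
    have hdvd : (m : ℤ) ∣ cz N k ((t : Module.End ℤ (SS N)) f - c • f) := by
      apply dvd_cz_of_forall_dvd_cz_one N m k hk
      intro t'
      rw [← ZMod.intCast_zmod_eq_zero_iff_dvd, map_sub, map_smul, cz_sub, cz_zsmul]
      push_cast
      rw [← Module.End.mul_apply, ← Subalgebra.coe_mul, h1, h1, map_mul, hc]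
      ring
    rw [← ZMod.intCast_zmod_eq_zero_iff_dvd, cz_sub, cz_zsmul] at hdvd
    push_cast at hdvd
    rw [sub_eq_zero] at hdvd
    rw [hdvd, hc]

/-- Coefficient recursions mod `m` of the eigenform attached to `ψ`:
`x_k := a_k(f) mod m` satisfies `x_1 = 1`, `x_{kℓ} + [ℓ ∣ k] ℓ x_{k/ℓ} = ψ(T_ℓ) x_k` for `ℓ ∤ N`
and `x_{kq} = ψ(U_q) x_k` for `q ∣ N`. -/
theorem exists_seq_mod (m : ℕ) (ψ : TT N →+* ZMod m) :
    ∃ f : SS N, ((cz N 1 f : ℤ) : ZMod m) = 1 ∧
      (∀ (ℓ : Nat.Primes), ¬ (ℓ : ℕ) ∣ N → ∀ k : ℕ, 1 ≤ k →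
        ((cz N (k * ℓ) f : ℤ) : ZMod m) +
          (if (ℓ : ℕ) ∣ k then ((ℓ : ℕ) : ZMod m) * ((cz N (k / ℓ) f : ℤ) : ZMod m) else 0) =
          ψ (tau N ℓ) * ((cz N k f : ℤ) : ZMod m)) ∧
      (∀ (ℓ : Nat.Primes), (ℓ : ℕ) ∣ N → ∀ k : ℕ, 1 ≤ k →
        ((cz N (k * ℓ) f : ℤ) : ZMod m) = ψ (tau N ℓ) * ((cz N k f : ℤ) : ZMod m)) := by
  obtain ⟨f, -, h1, h2⟩ := exists_eigen_mod N m ψ
  refine ⟨f, h1, ?_, ?_⟩
  · intro ℓ hℓ k hk
    rw [← h2 (tau N ℓ) k hk, cz_tau_of_not_dvd N hℓ]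
    split_ifs <;> push_cast <;> rfl
  · intro ℓ hℓ k hk
    rw [← h2 (tau N ℓ) k hk, cz_tau_of_dvd N hℓ]

end

end Fermat.Agent.S16.H52
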