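import Mathlib

/-!
# The arithmetic function `σ'_p(k) = ∑_{d ∣ k, p ∤ d} d` and its Hecke recursions (helper52, S16)
-/

set_option autoImplicit false

namespace Fermat.Agent.S16.H52

/-- `σ'_p(k)`: the sum of the divisors of `k` prime to `p`; the `k`-th coefficient (`k ≥ 1`) of the
weight-2 Eisenstein series of level `p`. -/
def sigmaP (p k : ℕ) : ℕ := ∑ d ∈ k.divisors.filter (fun d => ¬ p ∣ d), d

theorem sigmaP_zero (p : ℕ) : sigmaP p 0 = 0 := by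
  simp [sigmaP]

theorem sigmaP_one {p : ℕ} (hp : 1 < p) : sigmaP p 1 = 1 := by
  have : (Nat.divisors 1).filter (fun d => ¬ p ∣ d) = {1} := by
    rw [Nat.divisors_one, Finset.filter_singleton, if_pos]
    intro h
    exact absurd (Nat.le_of_dvd one_pos h) (by omega)
  rw [sigmaP, this, Finset.sum_singleton]

/-- `σ'_p(k p) = σ'_p(k)`. -/
theorem sigmaP_mul_self {p : ℕ} (hp : p.Prime) (k : ℕ) : sigmaP p (k * p) = sigmaP p k := by
  rcases Nat.eq_zero_or_pos k with rfl | hk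
  · simp
  unfold sigmaP
  congr 1
  ext d
  simp only [Finset.mem_filter, Nat.mem_divisors]
  constructor
  · rintro ⟨⟨hd, -⟩, hpd⟩
    have hcop : Nat.Coprime d p := ((Nat.Prime.coprime_iff_not_dvd hp).mpr hpd).symm
    exact ⟨⟨hcop.dvd_of_dvd_mul_right hd, hk.ne'⟩, hpd⟩
  · rintro ⟨⟨hd, -⟩, hpd⟩
    exact ⟨⟨Dvd.dvd.mul_right hd p, Nat.mul_ne_zero hk.ne' hp.ne_zero⟩, hpd⟩

theorem sum_image_mul_left (ℓ : ℕ) (hℓ : ℓ ≠ 0) (C : Finset ℕ) :
    ∑ x ∈ C.image (fun d => ℓ * d), x = ℓ * ∑ d ∈ C, d := by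
  rw [Finset.sum_image, Finset.mul_sum]
  intro a _ b _ h
  exact Nat.eq_of_mul_eq_mul_left (Nat.pos_of_ne_zero hℓ) h

/-- `σ'_p(k ℓ) + [ℓ ∣ k] ℓ σ'_p(k/ℓ) = (1 + ℓ) σ'_p(k)` for primes `ℓ ≠ p`. -/
theorem sigmaP_mul_prime {p ℓ : ℕ} (hp : p.Prime) (hℓ : ℓ.Prime) (hne : ℓ ≠ p) (k : ℕ) :
    sigmaP p (k * ℓ) + (if ℓ ∣ k then ℓ * sigmaP p (k / ℓ) else 0) = (1 + ℓ) * sigmaP p k := by
  rcases Nat.eq_zero_or_pos k with rfl | hk
  · simp [sigmaP_zero]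
  have hpl : ¬ p ∣ ℓ := fun h => hne ((Nat.prime_dvd_prime_iff_eq hp hℓ).mp h).symm
  set A := k.divisors.filter (fun d => ¬ p ∣ d) with hA
  set B := A.image (fun d => ℓ * d) with hB
  have hAB : (k * ℓ).divisors.filter (fun d => ¬ p ∣ d) = A ∪ B := by
    ext x
    simp only [hA, hB, Finset.mem_filter, Nat.mem_divisors, Finset.mem_union, Finset.mem_image]
    constructor
    · rintro ⟨⟨hx, -⟩, hpx⟩
      by_cases hlx : ℓ ∣ x
      · obtain ⟨d, rfl⟩ := hlx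
        right
        refine ⟨d, ⟨⟨?_, hk.ne'⟩, fun h => hpx (Dvd.dvd.mul_left h ℓ)⟩, rfl⟩
        rw [mul_comm k ℓ] at hx
        exact Nat.dvd_of_mul_dvd_mul_left hℓ.pos hx
      · left
        have hcop : Nat.Coprime x ℓ := ((Nat.Prime.coprime_iff_not_dvd hℓ).mpr hlx).symm
        exact ⟨⟨hcop.dvd_of_dvd_mul_right hx, hk.ne'⟩, hpx⟩
    · rintro (⟨⟨hx, -⟩, hpx⟩ | ⟨d, ⟨⟨hd, -⟩, hpd⟩, rfl⟩)
      · exact ⟨⟨Dvd.dvd.mul_right hx ℓ, Nat.mul_ne_zero hk.ne' hℓ.ne_zero⟩, hpx⟩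
      · refine ⟨⟨?_, Nat.mul_ne_zero hk.ne' hℓ.ne_zero⟩, ?_⟩
        · rw [mul_comm k ℓ]
          exact Nat.mul_dvd_mul_left ℓ hd
        · intro h
          rcases (Nat.Prime.dvd_mul hp).mp h with h | h
          · exact hpl h
          · exact hpd h
  have hinter : ∑ x ∈ A ∩ B, x = if ℓ ∣ k then ℓ * sigmaP p (k / ℓ) else 0 := by
    split_ifs with hlk
    · have : A ∩ B = ((k / ℓ).divisors.filter (fun d => ¬ p ∣ d)).image (fun d => ℓ * d) := by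
        ext x
        simp only [hA, hB, Finset.mem_inter, Finset.mem_filter, Nat.mem_divisors,
          Finset.mem_image]
        constructor
        · rintro ⟨⟨⟨hx, -⟩, hpx⟩, d, ⟨⟨hd, -⟩, hpd⟩, rfl⟩
          refine ⟨d, ⟨⟨?_, ?_⟩, hpd⟩, rfl⟩
          · exact Nat.dvd_div_of_mul_dvd hx
          · exact (Nat.div_pos (Nat.le_of_dvd hk hlk) hℓ.pos).ne'
        · rintro ⟨d, ⟨⟨hd, -⟩, hpd⟩, rfl⟩
          have h1 : ℓ * d ∣ k := Nat.mul_dvd_of_dvd_div hlk hd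
          refine ⟨⟨⟨h1, hk.ne'⟩, ?_⟩, d, ⟨⟨(Dvd.intro_left ℓ rfl).trans h1, hk.ne'⟩, hpd⟩, rfl⟩
          intro h
          rcases (Nat.Prime.dvd_mul hp).mp h with h | h
          · exact hpl h
          · exact hpd h
      rw [this, sum_image_mul_left ℓ hℓ.ne_zero]
      rfl
    · have : A ∩ B = ∅ := by
        ext x
        simp only [hA, hB, Finset.mem_inter, Finset.mem_filter, Nat.mem_divisors,
          Finset.mem_image, Finset.notMem_empty, iff_false]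
        rintro ⟨⟨⟨hx, -⟩, -⟩, d, -, rfl⟩
        exact hlk ((Dvd.intro d rfl).trans hx)
      rw [this, Finset.sum_empty]
  have hsum := Finset.sum_union_inter (s₁ := A) (s₂ := B) (f := fun x => x)
  have hBsum : ∑ x ∈ B, x = ℓ * sigmaP p k := by
    rw [hB, sum_image_mul_left ℓ hℓ.ne_zero]
    rfl
  have hAsum : ∑ x ∈ A, x = sigmaP p k := rfl
  rw [sigmaP, hAB, ← hinter, hsum, hBsum, hAsum]
  ring

end Fermat.Agent.S16.H52
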