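import Mathlib
import Fermat.Prelude.Def_CuspForm_HeckeLocal
import Fermat.Prelude.Def_CuspForm_HeckeEvalForms
import Fermat.Prelude.Def_HeckeGalois_EichlerShimura
import Fermat.Prelude.Def_ModularCurve_ModularUnit

/-!
# S16 skeleton (helper52)

`T := heckeLatticeAlgebra p ∅`, `ρ : HeckeAlg →+* T` the evaluation map (surjective),
`ε : HeckeAlg →+* ℤ` the Eisenstein character (`ker ε = eisensteinIdeal p`).
Then `T ⧸ ρ(I) ≃ ℤ ⧸ ε(ker ρ)`, so the cardinality statement of S16 follows from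

* `(L)`: `ρ P = 0 → n ∣ ε P`;
* `(U')`: for the unique `m` with `ℤ ⧸ m ≃ T ⧸ ρ(I)`, `m ∣ n`
  (packaged through a ring hom `ψ : T →+* ZMod m` with `ψ ∘ ρ = ε mod m`).
-/

set_option autoImplicit false

open ModularCurve CuspForm

namespace Fermat.Agent.S16.H52

noncomputable section

variable (p : ℕ) [Fact p.Prime]

/-- The evaluation map `HeckeAlg → T` of the frozen statement. -/
abbrev rho : HeckeAlg →+* ↥(heckeLatticeAlgebra p ∅) :=
  (latticeRestrictHom p ∅).toRingHom.comp (heckeEvalForms p 2)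

/-- The Eisenstein character `X_ℓ ↦ 1 + ℓ` (`ℓ ≠ p`), `X_p ↦ 1`. -/
def eps : HeckeAlg →+* ℤ := (MvPolynomial.aeval (R := ℤ) (eisensteinSystem p)).toRingHom

omit [Fact p.Prime] in
theorem eps_apply (P : HeckeAlg) : eps p P = MvPolynomial.aeval (eisensteinSystem p) P := rfl

omit [Fact p.Prime] in
theorem eps_C (z : ℤ) : eps p (MvPolynomial.C z) = z := by
  rw [eps_apply, MvPolynomial.aeval_C]; rfl

omit [Fact p.Prime] in
theorem eps_heckeGen (ℓ : Nat.Primes) : eps p (heckeGen ℓ) = eisensteinSystem p ℓ := by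
  rw [eps_apply, aeval_heckeGen]

omit [Fact p.Prime] in
theorem mem_eisensteinIdeal_iff (P : HeckeAlg) : P ∈ eisensteinIdeal p ↔ eps p P = 0 :=
  mem_eigenIdeal_iff _ _

omit [Fact p.Prime] in
theorem sub_C_eps_mem (P : HeckeAlg) : P - MvPolynomial.C (eps p P) ∈ eisensteinIdeal p := by
  rw [mem_eisensteinIdeal_iff, map_sub, eps_C, sub_self]

/-- `heckeEvalForms` is onto the Hecke algebra (all generators are hit). -/
theorem heckeEvalForms_surjective (N : ℕ) [NeZero N] (k : ℤ) :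
    Function.Surjective (heckeEvalForms N k) := by
  rintro ⟨x, hx⟩
  suffices h : ∃ P, ((heckeEvalForms N k P : heckeAlgebra N k ∅) :
      Module.End ℂ (CuspForm (CongruenceSubgroup.Gamma0 N) k)) = x by
    obtain ⟨P, hP⟩ := h
    exact ⟨P, Subtype.ext hP⟩
  induction hx using Algebra.adjoin_induction with
  | mem x hx =>
    rcases hx with ⟨ℓ, hℓ, hℓN, -, rfl⟩ | ⟨q, hqN, hq, -, rfl⟩
    · refine ⟨heckeGen ⟨ℓ, hℓ⟩, ?_⟩
      rw [heckeEvalForms_heckeGen_of_not_dvd (ℓ := ⟨ℓ, hℓ⟩) hℓN]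
      rfl
    · refine ⟨heckeGen ⟨q, hq⟩, ?_⟩
      rw [heckeEvalForms_heckeGen_of_dvd (q := ⟨q, hq⟩) hqN]
      rfl
  | algebraMap r =>
    refine ⟨MvPolynomial.C r, ?_⟩
    rw [heckeEvalForms_C]
    rfl
  | add x y _ _ hx hy =>
    obtain ⟨P, rfl⟩ := hx
    obtain ⟨Q, rfl⟩ := hy
    exact ⟨P + Q, by rw [map_add]; rfl⟩
  | mul x y _ _ hx hy =>
    obtain ⟨P, rfl⟩ := hx
    obtain ⟨Q, rfl⟩ := hy
    exact ⟨P * Q, by rw [map_mul]; rfl⟩

theorem rho_surjective : Function.Surjective (rho p) :=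
  (latticeRestrictHom_surjective p ∅).comp (heckeEvalForms_surjective p 2)

theorem rho_C (z : ℤ) : rho p (MvPolynomial.C z) = (z : ↥(heckeLatticeAlgebra p ∅)) := by
  have : (MvPolynomial.C z : HeckeAlg) = ((z : ℤ) : HeckeAlg) := by
    rw [← MvPolynomial.algebraMap_eq]; simp
  rw [this, map_intCast]

/-- The image of the Eisenstein ideal in `T`. -/
abbrev eisT : Ideal ↥(heckeLatticeAlgebra p ∅) := Ideal.map (rho p) (eisensteinIdeal p)

theorem rho_sub_intCast_mem (P : HeckeAlg) :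
    rho p P - ((eps p P : ℤ) : ↥(heckeLatticeAlgebra p ∅)) ∈ eisT p := by
  have h := Ideal.mem_map_of_mem (rho p) (sub_C_eps_mem p P)
  rwa [map_sub, rho_C] at h

/-- The canonical map `ℤ → T ⧸ ρ(I)` is onto. -/
theorem intCast_quot_surjective :
    Function.Surjective (Int.castRingHom (↥(heckeLatticeAlgebra p ∅) ⧸ eisT p)) := by
  intro y
  obtain ⟨t, rfl⟩ := Ideal.Quotient.mk_surjective y
  obtain ⟨P, rfl⟩ := rho_surjective p t
  refine ⟨eps p P, ?_⟩
  rw [eq_intCast, ← map_intCast (Ideal.Quotient.mk (eisT p)), eq_comm, Ideal.Quotient.eq]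
  exact rho_sub_intCast_mem p P

/-- The order `m` of `T ⧸ ρ(I)` as a quotient of `ℤ` (`m = 0` if infinite). -/
def eisOrder : ℕ :=
  (Submodule.IsPrincipal.generator
    (RingHom.ker (Int.castRingHom (↥(heckeLatticeAlgebra p ∅) ⧸ eisT p)))).natAbs

theorem ker_intCast_eq :
    RingHom.ker (Int.castRingHom (↥(heckeLatticeAlgebra p ∅) ⧸ eisT p)) =
      Ideal.span {((eisOrder p : ℕ) : ℤ)} := by
  rw [eisOrder, Int.span_natAbs, Ideal.span_singleton_generator]

/-- `ℤ ⧸ m ≃ T ⧸ ρ(I)`. -/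
def quotEquiv : (ℤ ⧸ Ideal.span {((eisOrder p : ℕ) : ℤ)}) ≃+*
    (↥(heckeLatticeAlgebra p ∅) ⧸ eisT p) :=
  (Ideal.quotEquivOfEq (ker_intCast_eq p).symm).trans
    (RingHom.quotientKerEquivOfSurjective (intCast_quot_surjective p))

theorem natCard_quot_eq_eisOrder :
    Nat.card (↥(heckeLatticeAlgebra p ∅) ⧸ eisT p) = eisOrder p := by
  rw [← Nat.card_congr (quotEquiv p).toEquiv,
    Nat.card_congr (Int.quotientSpanNatEquivZMod (eisOrder p)).toEquiv, Nat.card_zmod]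

theorem intCast_mem_eisT_iff (z : ℤ) :
    ((z : ℤ) : ↥(heckeLatticeAlgebra p ∅)) ∈ eisT p ↔ ((eisOrder p : ℕ) : ℤ) ∣ z := by
  rw [← Ideal.mem_span_singleton, ← ker_intCast_eq, RingHom.mem_ker, eq_intCast,
    ← map_intCast (Ideal.Quotient.mk (eisT p)), Ideal.Quotient.eq_zero_iff_mem]

/-- `z ∈ ρ(I)` iff `z = ε(P)` for some `P ∈ ker ρ`. -/
theorem intCast_mem_eisT_iff_exists (z : ℤ) :
    ((z : ℤ) : ↥(heckeLatticeAlgebra p ∅)) ∈ eisT p ↔ ∃ P : HeckeAlg, rho p P = 0 ∧ eps p P = z := by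
  constructor
  · intro hz
    obtain ⟨Q, hQ, hQz⟩ := (Ideal.mem_map_iff_of_surjective (rho p) (rho_surjective p)).mp hz
    refine ⟨MvPolynomial.C z - Q, ?_, ?_⟩
    · rw [map_sub, rho_C, hQz, sub_self]
    · rw [map_sub, eps_C, (mem_eisensteinIdeal_iff p Q).mp hQ, sub_zero]
  · rintro ⟨P, hP, rfl⟩
    have h := rho_sub_intCast_mem p P
    rw [hP, zero_sub] at h
    exact (neg_mem_iff).mp h

/-- The ring hom `T → ZMod m` through which the Eisenstein character factors. -/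
def eisChar : ↥(heckeLatticeAlgebra p ∅) →+* ZMod (eisOrder p) :=
  ((Int.quotientSpanNatEquivZMod (eisOrder p)).toRingHom.comp
    (quotEquiv p).symm.toRingHom).comp (Ideal.Quotient.mk (eisT p))

theorem eisChar_intCast (z : ℤ) :
    eisChar p ((z : ℤ) : ↥(heckeLatticeAlgebra p ∅)) = (z : ZMod (eisOrder p)) :=
  map_intCast _ z

theorem eisChar_eq_zero_of_mem {t : ↥(heckeLatticeAlgebra p ∅)} (ht : t ∈ eisT p) :
    eisChar p t = 0 := by
  have : Ideal.Quotient.mk (eisT p) t = 0 := Ideal.Quotient.eq_zero_iff_mem.mpr ht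
  simp only [eisChar, RingHom.comp_apply, this, map_zero]

theorem eisChar_rho (P : HeckeAlg) :
    eisChar p (rho p P) = ((eps p P : ℤ) : ZMod (eisOrder p)) := by
  have h := eisChar_eq_zero_of_mem p (rho_sub_intCast_mem p P)
  rw [map_sub, eisChar_intCast, sub_eq_zero] at h
  exact h

/-- **Skeleton of S16.**  `(L)`: every relation `P` among the Hecke operators has
`n ∣ ε(P)`; `(U)`: the order `m` of `T ⧸ ρ(I)` divides `n`. -/
theorem natCard_eq_of_LU (n : ℕ)
    (hL : ∀ P : HeckeAlg, rho p P = 0 → (n : ℤ) ∣ eps p P)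
    (hU : eisOrder p ∣ n) :
    Nat.card (↥(heckeLatticeAlgebra p ∅) ⧸
        Ideal.map ((latticeRestrictHom p ∅).toRingHom.comp (heckeEvalForms p 2))
          (eisensteinIdeal p)) = n := by
  show Nat.card (↥(heckeLatticeAlgebra p ∅) ⧸ eisT p) = n
  rw [natCard_quot_eq_eisOrder]
  refine Nat.dvd_antisymm hU ?_
  have hm : ((eisOrder p : ℕ) : ↥(heckeLatticeAlgebra p ∅)) ∈ eisT p := by
    have := (intCast_mem_eisT_iff p ((eisOrder p : ℕ) : ℤ)).mpr dvd_rfl
    simpa using this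
  have hm' : (((eisOrder p : ℕ) : ℤ) : ↥(heckeLatticeAlgebra p ∅)) ∈ eisT p := by
    simpa using hm
  obtain ⟨P, hP, hPz⟩ := (intCast_mem_eisT_iff_exists p _).mp hm'
  have := hL P hP
  rw [hPz] at this
  exact Int.natCast_dvd_natCast.mp this

end

end Fermat.Agent.S16.H52
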