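import Mathlib
import Fermat.Agent.S16.H52_Skeleton
import Fermat.Agent.S16.H52_Duality
import Fermat.Agent.S16.H52_SigmaP

/-!
# S16: from the Eisenstein character to cusp forms congruent to the Eisenstein series (helper52)

`T ⧸ ρ(I) = ℤ/m` (`m = eisOrder p`).  The `a₁`-duality turns the character `T → ℤ/m` into an
integral cusp form `f` with `a_k(f) ≡ σ'_p(k) mod m` for all `k ≥ 1`
(`exists_cuspForm_congr_sigma`).  Hence the upper bound `m ∣ n` follows from the non-existence of
such forms modulo prime powers not dividing `n` (`eisOrder_dvd_of_forms`), and S16 is reduced to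
`(L)` + `(U_forms)` (`natCard_eq_of_L_forms`).
-/

set_option autoImplicit false

open ModularCurve CuspForm CongruenceSubgroup ModularFormClass

namespace Fermat.Agent.S16.H52

noncomputable section

variable (p : ℕ) [Fact p.Prime]

theorem rho_heckeGen (ℓ : Nat.Primes) : rho p (heckeGen ℓ) = tau p ℓ := by
  show latticeRestrictHom p ∅ (heckeEvalForms p 2 (heckeGen ℓ)) = _
  rw [heckeEvalForms_heckeGen]
  rfl

/-- The coefficients mod `m` of an Eisenstein eigenform mod `m` are the `σ'_p(k)`. -/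
theorem exists_cuspForm_congr_sigma_of_char (m : ℕ) (ψ : TT p →+* ZMod m)
    (hψ : ∀ P : HeckeAlg, ψ (rho p P) = ((eps p P : ℤ) : ZMod m)) :
    ∃ f : SS p, ∀ k : ℕ, 1 ≤ k → ((cz p k f : ℤ) : ZMod m) = ((sigmaP p k : ℕ) : ZMod m) := by
  have hp : p.Prime := Fact.out
  obtain ⟨f, h1, hT, hU⟩ := exists_seq_mod p m ψ
  refine ⟨f, ?_⟩
  have hψτ : ∀ ℓ : Nat.Primes, ψ (tau p ℓ) = ((eisensteinSystem p ℓ : ℤ) : ZMod m) := fun ℓ => by
    rw [← rho_heckeGen, hψ, eps_heckeGen]
  intro k
  induction k using Nat.strong_induction_on with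
  | _ k ih =>
    intro hk
    rcases Nat.lt_or_ge 1 k with h1k | h1k
    · obtain ⟨l, hl, hlk⟩ := Nat.exists_prime_and_dvd (show k ≠ 1 by omega)
      obtain ⟨k', rfl⟩ := hlk
      have hk' : 1 ≤ k' := by
        rcases Nat.eq_zero_or_pos k' with rfl | h
        · simp at hk
        · exact h
      have hlt : k' < l * k' := by
        have := hl.two_le
        nlinarith
      rw [mul_comm l k']
      by_cases hlp : l ∣ p
      · have hlp' : l = p := (Nat.prime_dvd_prime_iff_eq hl hp).mp hlp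
        have h := hU ⟨l, hl⟩ hlp k' hk'
        rw [hψτ, eisensteinSystem_of_dvd (ℓ := ⟨l, hl⟩) hlp, Int.cast_one, one_mul,
          ih k' hlt hk'] at h
        show ((cz p (k' * ((⟨l, hl⟩ : Nat.Primes) : ℕ)) f : ℤ) : ZMod m) = _
        rw [h, hlp', sigmaP_mul_self hp]
      · have hne : l ≠ p := fun h => hlp (h ▸ dvd_rfl)
        have h := hT ⟨l, hl⟩ hlp k' hk'
        rw [hψτ, eisensteinSystem_of_not_dvd (ℓ := ⟨l, hl⟩) hlp, ih k' hlt hk'] at h
        have hrec := sigmaP_mul_prime hp hl hne k'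
        have hrec' : ((sigmaP p (k' * l) : ℕ) : ZMod m) +
            (if l ∣ k' then ((l : ℕ) : ZMod m) * ((sigmaP p (k' / l) : ℕ) : ZMod m) else 0) =
            (1 + (l : ZMod m)) * ((sigmaP p k' : ℕ) : ZMod m) := by
          have := congrArg (fun x : ℕ => (x : ZMod m)) hrec
          simp only [Nat.cast_add, Nat.cast_mul, Nat.cast_one] at this
          rw [← this]
          split_ifs <;> simp
        show ((cz p (k' * ((⟨l, hl⟩ : Nat.Primes) : ℕ)) f : ℤ) : ZMod m) = _
        have h' : ((cz p (k' * l) f : ℤ) : ZMod m) +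
            (if l ∣ k' then ((l : ℕ) : ZMod m) * ((cz p (k' / l) f : ℤ) : ZMod m) else 0) =
            (1 + (l : ZMod m)) * ((sigmaP p k' : ℕ) : ZMod m) := by
          have h2 := h
          simp only [Int.cast_add, Int.cast_one, Int.cast_natCast] at h2
          exact h2
        by_cases hlk' : l ∣ k'
        · rw [if_pos hlk'] at h' hrec'
          have hdiv : ((cz p (k' / l) f : ℤ) : ZMod m) = ((sigmaP p (k' / l) : ℕ) : ZMod m) := by
            apply ih
            · calc k' / l ≤ k' := Nat.div_le_self _ _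
                _ < l * k' := hlt
            · exact Nat.div_pos (Nat.le_of_dvd hk' hlk') hl.pos
          rw [hdiv] at h'
          exact add_right_cancel (h'.trans hrec'.symm)
        · rw [if_neg hlk', add_zero] at h' hrec'
          exact h'.trans hrec'.symm
    · have : k = 1 := by omega
      subst this
      rw [h1, sigmaP_one hp.one_lt, Nat.cast_one]

/-- The integral cusp form congruent to the Eisenstein series modulo `m = #(T/I)`. -/
theorem exists_cuspForm_congr_sigma :
    ∃ f : SS p, ∀ k : ℕ, 1 ≤ k →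
      ((eisOrder p : ℕ) : ℤ) ∣ cz p k f - ((sigmaP p k : ℕ) : ℤ) := by
  obtain ⟨f, hf⟩ := exists_cuspForm_congr_sigma_of_char p (eisOrder p) (eisChar p) (eisChar_rho p)
  refine ⟨f, fun k hk => ?_⟩
  have := hf k hk
  rw [← ZMod.intCast_zmod_eq_zero_iff_dvd]
  push_cast
  rw [this, sub_self]

/-- Upper bound from forms: if modulo every prime power `l^a` the existence of an integral cusp
form `≡ Σ σ'_p(k) q^k` forces `l^a ∣ n`, then `#(T/I) ∣ n`. -/
theorem eisOrder_dvd_of_forms (n : ℕ)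
    (h : ∀ l a : ℕ, l.Prime → 0 < a →
      (∃ f : SS p, ∀ k : ℕ, 1 ≤ k → ((l ^ a : ℕ) : ℤ) ∣ cz p k f - ((sigmaP p k : ℕ) : ℤ)) →
        l ^ a ∣ n) :
    eisOrder p ∣ n := by
  obtain ⟨f, hf⟩ := exists_cuspForm_congr_sigma p
  rw [Nat.dvd_iff_prime_pow_dvd_dvd]
  intro l a hl hla
  rcases Nat.eq_zero_or_pos a with rfl | ha
  · simp
  apply h l a hl ha
  refine ⟨f, fun k hk => ?_⟩
  exact (Int.natCast_dvd_natCast.mpr hla).trans (hf k hk)

omit [Fact p.Prime] in
theorem eisensteinNumerator_ne_zero (hp : p.Prime) : eisensteinNumerator p ≠ 0 := by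
  unfold eisensteinNumerator
  have h1 : 0 < p - 1 := by have := hp.two_le; omega
  have hg : Nat.gcd (p - 1) 12 ∣ p - 1 := Nat.gcd_dvd_left _ _
  exact (Nat.div_pos (Nat.le_of_dvd h1 hg) (Nat.gcd_pos_of_pos_left _ h1)).ne'

/-- The `(U)`-hypothesis in `CuspForm`/`qCoeff` vocabulary. -/
def UForms (n : ℕ) : Prop :=
  ∀ l a : ℕ, l.Prime → 0 < a →
    (∃ f : CuspForm (Gamma0 p) 2, ∀ k : ℕ, ∃ z : ℤ,
      qCoeff f k = (z : ℂ) ∧ (1 ≤ k → ((l ^ a : ℕ) : ℤ) ∣ z - ((sigmaP p k : ℕ) : ℤ))) →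
      l ^ a ∣ n

theorem eisOrder_dvd_of_UForms (n : ℕ) (h : UForms p n) : eisOrder p ∣ n := by
  apply eisOrder_dvd_of_forms p n
  intro l a hl ha ⟨f, hf⟩
  apply h l a hl ha
  refine ⟨(f : CuspForm (Gamma0 p) 2), fun k => ⟨cz p k f, (cz_spec p k f).symm, fun hk => hf k hk⟩⟩

/-- **S16 from `(L)` and `(U_forms)`.** -/
theorem natCard_eq_of_L_forms
    (hL : ∀ P : HeckeAlg, rho p P = 0 → ((eisensteinNumerator p : ℕ) : ℤ) ∣ eps p P)
    (hU : UForms p (eisensteinNumerator p)) :
    Nat.card (↥(heckeLatticeAlgebra p ∅) ⧸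
        Ideal.map ((latticeRestrictHom p ∅).toRingHom.comp (heckeEvalForms p 2))
          (eisensteinIdeal p)) = eisensteinNumerator p :=
  natCard_eq_of_LU p _ hL
    (eisOrder_dvd_of_UForms p _ hU)

end

end Fermat.Agent.S16.H52
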