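/-
S16 coordination file (helper39): the FIXED shape of the `(U)` leaves and the arithmetic
bookkeeping that turns the five leaves into `H52.UForms p (eisensteinNumerator p)`.

* `ULeaf p l e`: for every `F ∈ M₂(Γ₀(p))` with integer `q`-coefficients `a n`, if `l ^ A ∣ a n`
  for all `n ≥ 1` then `l ^ A ∣ l ^ e * a 0`.
* `eisDiff p f = -(eisTwo p) - 24 • f` has coefficients `p - 1` and `24 (σ'(k) - a_k(f))`.
* `uForms_of_leaves`: leaves ⇒ `H52.UForms p (eisensteinNumerator p)`.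
* `natCard_of_leaves`: `(L)` + leaves ⇒ frozen S16 (for `5 ≤ p`).
-/
import Mathlib
import Fermat.Agent.S16.H52_EisForm
import Fermat.Agent.S16.H49_EisensteinForm

set_option autoImplicit false

open ModularCurve CuspForm CongruenceSubgroup ModularFormClass UpperHalfPlane

namespace Fermat.Agent.S16.H39

noncomputable section

/-- **The fixed shape of a `(U)` leaf.** -/
def ULeaf (p l e : ℕ) : Prop :=
  ∀ (F : ModularForm (Gamma0 p) 2) (a : ℕ → ℤ),
    (∀ n, (qExpansion 1 F).coeff n = (a n : ℂ)) →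
    ∀ A : ℕ, (∀ n, 1 ≤ n → (l : ℤ) ^ A ∣ a n) → (l : ℤ) ^ A ∣ (l : ℤ) ^ e * a 0

/-- `-(E₂(z) - p E₂(pz)) - 24 f`. -/
def eisDiff (p : ℕ) [NeZero p] (f : CuspForm (Gamma0 p) 2) : ModularForm (Gamma0 p) 2 :=
  -(H49.eisTwo p) - (24 : ℂ) • CuspForm.toModularFormₗ f

theorem coe_eisDiff (p : ℕ) [NeZero p] (f : CuspForm (Gamma0 p) 2) :
    ⇑(eisDiff p f) = -⇑(H49.eisTwo p) - (24 : ℂ) • ⇑f := by
  ext z
  simp [eisDiff]

theorem qExpansion_coeff_eisDiff (p : ℕ) [NeZero p] (f : CuspForm (Gamma0 p) 2) (k : ℕ) :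
    (qExpansion 1 (eisDiff p f)).coeff k = -(H49.eisCoeff p k) - 24 * qCoeff f k := by
  have h1 : (1 : ℝ) ∈ ((Gamma0 p : Subgroup (GL (Fin 2) ℝ))).strictPeriods :=
    CongruenceSubgroup.one_mem_strictPeriods_Gamma0 p
  have hE : AnalyticAt ℂ (cuspFunction 1 (H49.eisTwo p)) 0 :=
    ModularFormClass.analyticAt_cuspFunction_zero (H49.eisTwo p) one_pos h1
  have hf : AnalyticAt ℂ (cuspFunction 1 f) 0 :=
    ModularFormClass.analyticAt_cuspFunction_zero f one_pos h1
  have hnegE : AnalyticAt ℂ (cuspFunction 1 (-⇑(H49.eisTwo p))) 0 := by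
    have := ModularFormClass.analyticAt_cuspFunction_zero (-(H49.eisTwo p)) one_pos h1
    simpa using this
  have hsf : AnalyticAt ℂ (cuspFunction 1 ((24 : ℂ) • ⇑f)) 0 := by
    have := ModularFormClass.analyticAt_cuspFunction_zero ((24 : ℂ) • f) one_pos h1
    simpa using this
  rw [coe_eisDiff, UpperHalfPlane.qExpansion_sub hnegE hsf, UpperHalfPlane.qExpansion_neg hE,
    UpperHalfPlane.qExpansion_smul hf]
  simp only [map_sub, map_neg, PowerSeries.coeff_smul, smul_eq_mul]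
  rw [H49.qExpansion_coeff_eisTwo]
  rfl

/-- The constant coefficient of `eisDiff` is `p - 1`, the others are `24 (σ'_p(k) - a_k(f))`. -/
theorem qExpansion_coeff_eisDiff_int (p : ℕ) [Fact p.Prime] (f : CuspForm (Gamma0 p) 2)
    (z : ℕ → ℤ) (hz : ∀ k, qCoeff f k = (z k : ℂ)) (k : ℕ) :
    (qExpansion 1 (eisDiff p f)).coeff k =
      (((if k = 0 then (p : ℤ) - 1 else 24 * ((H52.sigmaP p k : ℤ) - z k)) : ℤ) : ℂ) := by
  have hp : p.Prime := Fact.out
  rw [qExpansion_coeff_eisDiff]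
  rcases Nat.eq_zero_or_pos k with rfl | hk
  · have h1 : (1 : ℝ) ∈ ((Gamma0 p : Subgroup (GL (Fin 2) ℝ))).strictPeriods :=
      CongruenceSubgroup.one_mem_strictPeriods_Gamma0 p
    have h0 : qCoeff f 0 = 0 := CuspFormClass.qExpansion_coeff_zero f one_pos h1
    rw [H49.eisCoeff_zero, h0, if_pos rfl]
    push_cast
    ring
  · rw [if_neg hk.ne', H49.eisCoeff_of_pos p hk, H49.sigmaPrime_prime hp hk, hz k]
    have : ((H52.sigmaP p k : ℕ) : ℤ) = ∑ d ∈ k.divisors with ¬ p ∣ d, (d : ℤ) := by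
      unfold H52.sigmaP
      push_cast
      rfl
    rw [this]
    push_cast
    ring

/-- Applying a leaf to `eisDiff p f`. -/
theorem leaf_apply {p l e : ℕ} [Fact p.Prime] (hleaf : ULeaf p l e)
    (f : CuspForm (Gamma0 p) 2) (z : ℕ → ℤ) (hz : ∀ k, qCoeff f k = (z k : ℂ))
    (a w : ℕ) (c : ℤ) (h24 : (24 : ℤ) = (l : ℤ) ^ w * c)
    (hzd : ∀ k, 1 ≤ k → ((l ^ a : ℕ) : ℤ) ∣ z k - ((H52.sigmaP p k : ℕ) : ℤ)) :
    (l : ℤ) ^ (a + w) ∣ (l : ℤ) ^ e * ((p : ℤ) - 1) := by
  have h := hleaf (eisDiff p f)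
    (fun k => if k = 0 then (p : ℤ) - 1 else 24 * ((H52.sigmaP p k : ℤ) - z k))
    (qExpansion_coeff_eisDiff_int p f z hz) (a + w) ?_
  · simpa using h
  · intro n hn
    have hn0 : n ≠ 0 := by omega
    simp only [if_neg hn0]
    have h1 : (l : ℤ) ^ a ∣ (H52.sigmaP p n : ℤ) - z n := by
      have := hzd n hn
      rw [← dvd_neg, neg_sub] at this
      simpa using this
    rw [h24, pow_add, mul_comm ((l : ℤ) ^ a), mul_assoc]
    exact mul_dvd_mul_left _ (Dvd.dvd.mul_left h1 c)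

/-- Arithmetic: if `12 = l ^ v * c` with `c` prime to `l` and `l ^ (a + v) ∣ p - 1`, then
`l ^ a ∣ eisensteinNumerator p`. -/
theorem pow_dvd_eisensteinNumerator {p l a v c : ℕ} (h12 : 12 = l ^ v * c)
    (hc : Nat.Coprime l c) (h : l ^ (a + v) ∣ p - 1) : l ^ a ∣ eisensteinNumerator p := by
  have hg : Nat.gcd (p - 1) 12 ∣ 12 := Nat.gcd_dvd_right _ _
  have hn : eisensteinNumerator p * Nat.gcd (p - 1) 12 = p - 1 :=
    Nat.div_mul_cancel (Nat.gcd_dvd_left _ _)
  have h1 : l ^ (a + v) ∣ eisensteinNumerator p * 12 := by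
    rw [← hn] at h
    exact h.trans (Nat.mul_dvd_mul_left _ hg)
  rw [h12, pow_add, ← mul_assoc, mul_comm (eisensteinNumerator p) (l ^ v), mul_assoc,
    mul_comm (l ^ a)] at h1
  have hlv : 0 < l ^ v := by
    rcases Nat.eq_zero_or_pos (l ^ v) with h0 | h0
    · rw [h0] at h12; simp at h12
    · exact h0
  have h2 : l ^ a ∣ eisensteinNumerator p * c := Nat.dvd_of_mul_dvd_mul_left hlv h1
  exact (Nat.Coprime.pow_left a hc).dvd_of_dvd_mul_right h2

/-- **The five leaves give `(U)`** (for `5 ≤ p`). -/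
theorem uForms_of_leaves (p : ℕ) [Fact p.Prime] (hp5 : 5 ≤ p)
    (h5 : ∀ l : ℕ, l.Prime → 5 ≤ l → ULeaf p l 0)
    (h3a : p % 3 = 1 → ULeaf p 3 0) (h3b : p % 3 = 2 → ULeaf p 3 1)
    (h2a : p % 4 = 1 → ULeaf p 2 1) (h2b : p % 4 = 3 → ULeaf p 2 2) :
    H52.UForms p (eisensteinNumerator p) := by
  have hp : p.Prime := Fact.out
  have hp1 : (1 : ℤ) ≤ p := by exact_mod_cast hp.one_lt.le
  have hcast : ((p : ℤ) - 1) = ((p - 1 : ℕ) : ℤ) := by
    rw [Nat.cast_sub hp.one_lt.le]; simp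
  intro l a hl ha ⟨f, hf⟩
  choose z hz hzd using hf
  -- three cases for `l`
  have hcases : l = 2 ∨ l = 3 ∨ 5 ≤ l := by
    rcases Nat.lt_or_ge l 5 with h | h
    · have := hl.two_le
      interval_cases l
      · left; rfl
      · right; left; rfl
      · exact absurd hl (by decide)
    · right; right; exact h
  rcases hcases with rfl | rfl | hl5
  · -- l = 2
    have hp2 : p % 2 = 1 := by
      rcases hp.eq_two_or_odd with h | h
      · omega
      · exact h
    have hmod : p % 4 = 1 ∨ p % 4 = 3 := by omega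
    rcases hmod with hm | hm
    · have h := leaf_apply (h2a hm) f z hz a 3 3 (by norm_num) hzd
      rw [hcast] at h
      have h' : 2 ^ (a + 3) ∣ 2 ^ 1 * (p - 1) := by exact_mod_cast h
      have h'' : 2 ^ (a + 2) ∣ p - 1 := by
        rw [show a + 3 = 1 + (a + 2) by ring, pow_add] at h'
        exact Nat.dvd_of_mul_dvd_mul_left (by norm_num) h'
      exact pow_dvd_eisensteinNumerator (v := 2) (c := 3) (by norm_num) (by decide) h''
    · exfalso
      have h := leaf_apply (h2b hm) f z hz a 3 3 (by norm_num) hzd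
      rw [hcast] at h
      have h' : 2 ^ (a + 3) ∣ 2 ^ 2 * (p - 1) := by exact_mod_cast h
      have h'' : 2 ^ (a + 1) ∣ p - 1 := by
        rw [show a + 3 = 2 + (a + 1) by ring, pow_add] at h'
        exact Nat.dvd_of_mul_dvd_mul_left (by norm_num) h'
      have h4 : 4 ∣ p - 1 := by
        refine Dvd.dvd.trans ?_ h''
        exact ⟨2 ^ (a - 1), by
          rw [show a + 1 = 2 + (a - 1) by omega, pow_add]; norm_num⟩
      omega
  · -- l = 3
    have hmod : p % 3 = 1 ∨ p % 3 = 2 := by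
      have : p % 3 ≠ 0 := by
        intro h0
        have h3 : 3 ∣ p := Nat.dvd_of_mod_eq_zero h0
        have := (Nat.prime_dvd_prime_iff_eq Nat.prime_three hp).mp h3
        omega
      omega
    rcases hmod with hm | hm
    · have h := leaf_apply (h3a hm) f z hz a 1 8 (by norm_num) hzd
      rw [hcast] at h
      have h' : 3 ^ (a + 1) ∣ 3 ^ 0 * (p - 1) := by exact_mod_cast h
      rw [pow_zero, one_mul] at h'
      exact pow_dvd_eisensteinNumerator (v := 1) (c := 4) (by norm_num) (by decide) h'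
    · exfalso
      have h := leaf_apply (h3b hm) f z hz a 1 8 (by norm_num) hzd
      rw [hcast] at h
      have h' : 3 ^ (a + 1) ∣ 3 ^ 1 * (p - 1) := by exact_mod_cast h
      have h'' : 3 ^ a ∣ p - 1 := by
        rw [show a + 1 = 1 + a by ring, pow_add] at h'
        exact Nat.dvd_of_mul_dvd_mul_left (by norm_num) h'
      have h3 : 3 ∣ p - 1 := Dvd.dvd.trans (dvd_pow_self 3 (by omega)) h''
      omega
  · -- l ≥ 5
    have h := leaf_apply (h5 l hl hl5) f z hz a 0 24 (by norm_num) hzd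
    rw [hcast] at h
    have h' : l ^ (a + 0) ∣ l ^ 0 * (p - 1) := by exact_mod_cast h
    rw [pow_zero, one_mul] at h'
    have hc : Nat.Coprime l 12 := by
      rw [Nat.Prime.coprime_iff_not_dvd hl]
      intro h12
      have hle : l ≤ 12 := Nat.le_of_dvd (by norm_num) h12
      interval_cases l <;> first | (exact absurd hl (by decide)) | (exact absurd h12 (by decide))
    exact pow_dvd_eisensteinNumerator (v := 0) (c := 12) (by norm_num) hc h'

/-! ### Adapter: a `no G ≡ 1 mod l^b` core gives a leaf -/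

/-- The "core" shape: there is no `G ∈ M₂(Γ₀(p))` with rational `q`-coefficients `c`, `c 0 = 1`,
and `c n ∈ l ^ b ℤ_(l)` for all `n ≥ 1`. -/
def NoUnitForm (p l b : ℕ) : Prop :=
  ∀ (G : ModularForm (Gamma0 p) 2) (c : ℕ → ℚ),
    (∀ n, (qExpansion 1 G).coeff n = ((c n : ℚ) : ℂ)) → c 0 = 1 →
    (∀ n, 1 ≤ n → ∃ x : ℚ, c n = (l : ℚ) ^ b * x ∧ ¬ (l ∣ x.den)) → False

theorem uLeaf_of_noUnitForm {p l e : ℕ} (hl : l.Prime) (h : NoUnitForm p l (e + 1)) :
    ULeaf p l e := by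
  intro F a hF A hdiv
  by_contra hnd
  have hl0 : (l : ℤ) ≠ 0 := by exact_mod_cast hl.ne_zero
  have hlprime : Prime (l : ℤ) := Nat.prime_iff_prime_int.mp hl
  have ha0 : a 0 ≠ 0 := by
    intro h0
    apply hnd
    rw [h0, mul_zero]
    exact dvd_zero _
  -- write `a 0 = l ^ v * u`, `l ∤ u`
  obtain ⟨v, u, hu, hvu⟩ : ∃ (v : ℕ) (u : ℤ), ¬ (l : ℤ) ∣ u ∧ a 0 = (l : ℤ) ^ v * u := by
    have hfin : FiniteMultiplicity (l : ℤ) (a 0) :=
      Int.finiteMultiplicity_iff.mpr ⟨by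
        intro h1
        have : l = 1 := by
          have := Int.natAbs_natCast l
          omega
        exact hl.one_lt.ne' this, ha0⟩
    obtain ⟨u, hu1, hu2⟩ := hfin.exists_eq_pow_mul_and_not_dvd
    exact ⟨_, u, hu2, hu1⟩
  have hu0 : u ≠ 0 := by
    rintro rfl
    exact hu (dvd_zero _)
  have hlt : e + v < A := by
    by_contra hge
    have hge := not_lt.mp hge
    apply hnd
    rw [hvu, ← mul_assoc, ← pow_add]
    exact Dvd.dvd.mul_right (pow_dvd_pow _ hge) u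
  have h1 : (1 : ℝ) ∈ ((Gamma0 p : Subgroup (GL (Fin 2) ℝ))).strictPeriods :=
    CongruenceSubgroup.one_mem_strictPeriods_Gamma0 p
  refine h (((a 0 : ℂ))⁻¹ • F) (fun n => (a n : ℚ) / (a 0 : ℚ)) ?_ ?_ ?_
  · intro n
    have hF' : AnalyticAt ℂ (cuspFunction 1 F) 0 :=
      ModularFormClass.analyticAt_cuspFunction_zero F one_pos h1
    have : ⇑(((a 0 : ℂ))⁻¹ • F) = ((a 0 : ℂ))⁻¹ • ⇑F := rfl
    rw [this, UpperHalfPlane.qExpansion_smul hF']
    simp only [PowerSeries.coeff_smul, smul_eq_mul, hF n]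
    push_cast
    field_simp
  · have : ((a 0 : ℤ) : ℚ) ≠ 0 := by exact_mod_cast ha0
    exact div_self this
  · intro n hn
    obtain ⟨t, ht⟩ := hdiv n hn
    refine ⟨Rat.divInt ((l : ℤ) ^ (A - v - e - 1) * t) u, ?_, ?_⟩
    · rw [ht, hvu, Rat.divInt_eq_div]
      have hlq : (l : ℚ) ≠ 0 := by exact_mod_cast hl.ne_zero
      have huq : (u : ℚ) ≠ 0 := by exact_mod_cast hu0
      have hA : A = (e + 1) + v + (A - v - e - 1) := by omega
      push_cast
      field_simp
      rw [show (l : ℚ) ^ A = (l : ℚ) ^ ((e + 1) + v + (A - v - e - 1)) by rw [← hA]]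
      ring
    · intro hden
      have hd : (((Rat.divInt ((l : ℤ) ^ (A - v - e - 1) * t) u).den : ℕ) : ℤ) ∣ u := Rat.den_dvd _ _
      exact hu (Dvd.dvd.trans (by exact_mod_cast hden) hd)

/-- **S16 from `(L)` and the five leaves** (for `5 ≤ p`; the small levels are
`H48_SmallLevel`). -/
theorem natCard_of_leaves (p : ℕ) [Fact p.Prime] (hp5 : 5 ≤ p)
    (hL : ∀ P : HeckeAlg, H52.rho p P = 0 → ((eisensteinNumerator p : ℕ) : ℤ) ∣ H52.eps p P)
    (h5 : ∀ l : ℕ, l.Prime → 5 ≤ l → ULeaf p l 0)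
    (h3a : p % 3 = 1 → ULeaf p 3 0) (h3b : p % 3 = 2 → ULeaf p 3 1)
    (h2a : p % 4 = 1 → ULeaf p 2 1) (h2b : p % 4 = 3 → ULeaf p 2 2) :
    Nat.card (↥(heckeLatticeAlgebra p ∅) ⧸
        Ideal.map ((latticeRestrictHom p ∅).toRingHom.comp (heckeEvalForms p 2))
          (eisensteinIdeal p)) = eisensteinNumerator p :=
  H52.natCard_eq_of_L_forms p hL (uForms_of_leaves p hp5 h5 h3a h3b h2a h2b)

end

end Fermat.Agent.S16.H39
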