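/-
S16, STEP 0 (helper48): pure algebra reduction of the frozen statement.

With `Ψ : HeckeAlg →+* heckeLatticeAlgebra p ∅` the evaluation map (surjective) and
`ε : HeckeAlg →+* ℤ` the Eisenstein character (`eisensteinIdeal p = ker ε`), one has
`T ⧸ Ψ(ker ε) ≃ ℤ ⧸ ε(ker Ψ)`, so the frozen cardinality is the non-negative generator of the
ideal `ε(ker Ψ)` of `ℤ`.  Hence S16 follows from
  (L)  `∀ t ∈ ker Ψ, (n : ℤ) ∣ ε t`   and   (U)  `∃ t ∈ ker Ψ, ε t = n`,
with `n = eisensteinNumerator p`.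
-/
import Fermat.Prelude.Def_CuspForm_HeckeLocal
import Fermat.Prelude.Def_CuspForm_HeckeEvalForms
import Fermat.Prelude.Def_HeckeGalois_EichlerShimura
import Fermat.Prelude.Def_ModularCurve_ModularUnit

set_option autoImplicit false

open ModularCurve CuspForm

namespace Fermat.Agent.S16.H48

section Abstract

variable {A T : Type*} [CommRing A] [CommRing T]

/-- `T ⧸ Ψ(ker ε) ≃ ℤ ⧸ ε(ker Ψ)` for surjective `Ψ : A → T`, `ε : A → ℤ`. -/
noncomputable def quotientEquivInt (Ψ : A →+* T) (hΨ : Function.Surjective Ψ)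
    (ε : A →+* ℤ) (hε : Function.Surjective ε) :
    (T ⧸ Ideal.map Ψ (RingHom.ker ε)) ≃+* (ℤ ⧸ Ideal.map ε (RingHom.ker Ψ)) := by
  let g : A →+* (ℤ ⧸ Ideal.map ε (RingHom.ker Ψ)) := (Ideal.Quotient.mk _).comp ε
  let h : A →+* (T ⧸ Ideal.map Ψ (RingHom.ker ε)) := (Ideal.Quotient.mk _).comp Ψ
  have hg : Function.Surjective g := Ideal.Quotient.mk_surjective.comp hε
  have hh : Function.Surjective h := Ideal.Quotient.mk_surjective.comp hΨ
  have kg : RingHom.ker g = RingHom.ker Ψ ⊔ RingHom.ker ε := by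
    rw [← RingHom.comap_ker, Ideal.mk_ker, Ideal.comap_map_of_surjective ε hε]; rfl
  have kh : RingHom.ker h = RingHom.ker Ψ ⊔ RingHom.ker ε := by
    rw [← RingHom.comap_ker, Ideal.mk_ker, Ideal.comap_map_of_surjective Ψ hΨ, sup_comm]; rfl
  exact ((RingHom.quotientKerEquivOfSurjective hh).symm.trans
    (Ideal.quotEquivOfEq (kh.trans kg.symm))).trans (RingHom.quotientKerEquivOfSurjective hg)

theorem natCard_quotient_map_ker (Ψ : A →+* T) (hΨ : Function.Surjective Ψ)
    (ε : A →+* ℤ) (hε : Function.Surjective ε) (m : ℕ)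
    (hm : Ideal.map ε (RingHom.ker Ψ) = Ideal.span {(m : ℤ)}) :
    Nat.card (T ⧸ Ideal.map Ψ (RingHom.ker ε)) = m := by
  rw [Nat.card_congr (quotientEquivInt Ψ hΨ ε hε).toEquiv, hm,
    Nat.card_congr (Int.quotientSpanNatEquivZMod m).toEquiv, Nat.card_zmod]

/-- the ideal `ε(ker Ψ)` of `ℤ` is `(m)` as soon as `m` divides all its elements and is hit. -/
theorem map_ker_eq_span (Ψ : A →+* T) (ε : A →+* ℤ) (m : ℕ)
    (hL : ∀ t : A, Ψ t = 0 → (m : ℤ) ∣ ε t) (hU : ∃ t : A, Ψ t = 0 ∧ ε t = m) :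
    Ideal.map ε (RingHom.ker Ψ) = Ideal.span {(m : ℤ)} := by
  apply le_antisymm
  · rw [Ideal.map_le_iff_le_comap]
    intro t ht
    rw [Ideal.mem_comap, Ideal.mem_span_singleton]
    exact hL t ht
  · rw [Ideal.span_singleton_le_iff_mem]
    obtain ⟨t, ht, hte⟩ := hU
    rw [← hte]
    exact Ideal.mem_map_of_mem ε ht

end Abstract

section Concrete

variable (N : ℕ)

/-- the Eisenstein character `HeckeAlg → ℤ`. -/
noncomputable def eisChar : HeckeAlg →+* ℤ :=
  (MvPolynomial.aeval (R := ℤ) (eisensteinSystem N)).toRingHom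

theorem eisChar_apply (t : HeckeAlg) :
    eisChar N t = MvPolynomial.aeval (R := ℤ) (eisensteinSystem N) t := rfl

@[simp] theorem eisChar_C (a : ℤ) : eisChar N (MvPolynomial.C a) = a := by
  simp [eisChar]

@[simp] theorem eisChar_heckeGen (ℓ : Nat.Primes) :
    eisChar N (heckeGen ℓ) = eisensteinSystem N ℓ :=
  aeval_heckeGen _ ℓ

theorem eisChar_surjective : Function.Surjective (eisChar N) :=
  fun a => ⟨MvPolynomial.C a, eisChar_C N a⟩

theorem ker_eisChar : RingHom.ker (eisChar N) = eisensteinIdeal N := rfl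

variable [NeZero N]

/-- the evaluation `HeckeAlg → heckeAlgebra N k ∅` is surjective. -/
theorem heckeEvalForms_surjective (k : ℤ) : Function.Surjective (heckeEvalForms N k) := by
  rintro ⟨x, hx⟩
  have hx' : x ∈ Algebra.adjoin ℤ (heckeGenerators N k ∅) := hx
  suffices h : ∃ t : HeckeAlg,
      ((heckeEvalForms N k t : heckeAlgebra N k ∅) :
        Module.End ℂ (CuspForm (CongruenceSubgroup.Gamma0 N) k)) = x by
    obtain ⟨t, ht⟩ := h
    exact ⟨t, Subtype.ext ht⟩
  clear hx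
  induction hx' using Algebra.adjoin_induction with
  | mem y hy =>
    rcases hy with ⟨ℓ, hℓ, hℓN, -, rfl⟩ | ⟨q, hqN, hq, -, rfl⟩
    · refine ⟨heckeGen ⟨ℓ, hℓ⟩, ?_⟩
      rw [heckeEvalForms_heckeGen_of_not_dvd (ℓ := ⟨ℓ, hℓ⟩) hℓN]
      rfl
    · refine ⟨heckeGen ⟨q, hq⟩, ?_⟩
      rw [heckeEvalForms_heckeGen_of_dvd (q := ⟨q, hq⟩) hqN]
      rfl
  | algebraMap r =>
    refine ⟨MvPolynomial.C r, ?_⟩
    rw [heckeEvalForms_C]
    rfl
  | add y z _ _ hy hz =>
    obtain ⟨s, hs⟩ := hy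
    obtain ⟨t, ht⟩ := hz
    exact ⟨s + t, by rw [map_add, ← hs, ← ht]; rfl⟩
  | mul y z _ _ hy hz =>
    obtain ⟨s, hs⟩ := hy
    obtain ⟨t, ht⟩ := hz
    exact ⟨s * t, by rw [map_mul, ← hs, ← ht]; rfl⟩

/-- the composite `HeckeAlg → heckeLatticeAlgebra N ∅` of the frozen statement. -/
noncomputable def evalLattice : HeckeAlg →+* ↥(heckeLatticeAlgebra N ∅) :=
  (latticeRestrictHom N ∅).toRingHom.comp (heckeEvalForms N 2)

theorem evalLattice_surjective : Function.Surjective (evalLattice N) :=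
  (latticeRestrictHom_surjective N ∅).comp (heckeEvalForms_surjective N 2)

/-- with an integral structure (S23) the kernel of `evalLattice` is the kernel of the action on
cusp forms. -/
theorem evalLattice_eq_zero_iff (hint : HasIntegralStructure N 2) (t : HeckeAlg) :
    evalLattice N t = 0 ↔ heckeEvalForms N 2 t = 0 := by
  constructor
  · intro h
    apply (latticeRestrictHom_bijective N ∅ hint).1
    rw [map_zero]
    exact h
  · intro h
    change (latticeRestrictHom N ∅) (heckeEvalForms N 2 t) = 0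
    rw [h, map_zero]

/-- **STEP 0.** The frozen cardinality is the non-negative generator of `ε(ker Ψ)`. -/
theorem natCard_eq_of_map_ker (m : ℕ)
    (hm : Ideal.map (eisChar N) (RingHom.ker (evalLattice N)) = Ideal.span {(m : ℤ)}) :
    Nat.card (↥(heckeLatticeAlgebra N ∅) ⧸
        Ideal.map ((latticeRestrictHom N ∅).toRingHom.comp (heckeEvalForms N 2))
          (eisensteinIdeal N)) = m :=
  natCard_quotient_map_ker (evalLattice N) (evalLattice_surjective N) (eisChar N)
    (eisChar_surjective N) m hm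

/-- **STEP 0, (L)+(U) form.** -/
theorem natCard_eq_of_LU (m : ℕ)
    (hL : ∀ t : HeckeAlg, evalLattice N t = 0 → (m : ℤ) ∣ eisChar N t)
    (hU : ∃ t : HeckeAlg, evalLattice N t = 0 ∧ eisChar N t = m) :
    Nat.card (↥(heckeLatticeAlgebra N ∅) ⧸
        Ideal.map ((latticeRestrictHom N ∅).toRingHom.comp (heckeEvalForms N 2))
          (eisensteinIdeal N)) = m :=
  natCard_eq_of_map_ker N m (map_ker_eq_span _ _ m hL hU)

/-- **STEP 0, (L)+(U) form on cusp forms** (with the integral structure of S23). -/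
theorem natCard_eq_of_LU' (hint : HasIntegralStructure N 2) (m : ℕ)
    (hL : ∀ t : HeckeAlg, heckeEvalForms N 2 t = 0 → (m : ℤ) ∣ eisChar N t)
    (hU : ∃ t : HeckeAlg, heckeEvalForms N 2 t = 0 ∧ eisChar N t = m) :
    Nat.card (↥(heckeLatticeAlgebra N ∅) ⧸
        Ideal.map ((latticeRestrictHom N ∅).toRingHom.comp (heckeEvalForms N 2))
          (eisensteinIdeal N)) = m := by
  refine natCard_eq_of_LU N m (fun t ht => hL t ((evalLattice_eq_zero_iff N hint t).1 ht)) ?_
  obtain ⟨t, ht, hte⟩ := hU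
  exact ⟨t, (evalLattice_eq_zero_iff N hint t).2 ht, hte⟩

end Concrete

end Fermat.Agent.S16.H48
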