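/-
S16, the degenerate levels (helper48): if `S_2(Γ₀(N)) = 0` the frozen cardinality is `1`.
This settles the frozen S16 at `p ∈ {2, 3, 5, 7, 13}` (in particular the pairs `(p, ℓ) = (2, 2)`
and `(3, 3)`, which the `ℓ ∈ {2, 3}` arguments with `ℓ ≠ p` and the `ℓ ≥ 5` argument do not cover).
-/
import Fermat.Agent.S16.H48_Step0
import Fermat.Agent.S07
import Fermat.Agent.S20
import Fermat.Agent.S23.H70_FiniteDim

set_option autoImplicit false

open ModularCurve CuspForm CongruenceSubgroup

namespace Fermat.Agent.S16.H48

/-- If there are no cusp forms, the Hecke lattice algebra is the zero ring and the frozen quotient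
has one element. -/
theorem natCard_eq_one_of_subsingleton (N : ℕ) [NeZero N]
    [Subsingleton (CuspForm (Gamma0 N) 2)] :
    Nat.card (↥(heckeLatticeAlgebra N ∅) ⧸
        Ideal.map ((latticeRestrictHom N ∅).toRingHom.comp (heckeEvalForms N 2))
          (eisensteinIdeal N)) = 1 := by
  haveI h1 : Subsingleton ↥(intLattice N 2) := ⟨fun a b => Subtype.ext (Subsingleton.elim _ _)⟩
  haveI h2 : Subsingleton (Module.End ℤ ↥(intLattice N 2)) :=
    ⟨fun a b => LinearMap.ext fun x => Subsingleton.elim _ _⟩
  haveI h3 : Subsingleton ↥(heckeLatticeAlgebra N ∅) :=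
    ⟨fun a b => Subtype.ext (Subsingleton.elim _ _)⟩
  haveI h4 : Subsingleton (↥(heckeLatticeAlgebra N ∅) ⧸
        Ideal.map ((latticeRestrictHom N ∅).toRingHom.comp (heckeEvalForms N 2))
          (eisensteinIdeal N)) :=
    ⟨fun a b => by
      obtain ⟨a, rfl⟩ := Ideal.Quotient.mk_surjective a
      obtain ⟨b, rfl⟩ := Ideal.Quotient.mk_surjective b
      rw [Subsingleton.elim a b]⟩
  exact Nat.card_unique

/-- `finrank = 0` gives `Subsingleton` (finite-dimensionality from the Sturm bound). -/
theorem subsingleton_of_genusFormula_eq_zero (N : ℕ) [NeZero N] (h : genusFormula N = 0) :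
    Subsingleton (CuspForm (Gamma0 N) 2) := by
  haveI := Fermat.Agent.S23.H70.finiteDimensional_cuspForm N 2
  have h0 : Module.finrank ℂ (CuspForm (Gamma0 N) 2) = 0 := by
    have := Fermat.Agent.S20.result N
    rw [h] at this
    exact_mod_cast this
  exact Module.finrank_zero_iff.mp h0

instance subsingleton_two : Subsingleton (CuspForm (Gamma0 2) 2) :=
  ⟨fun a b => by rw [Fermat.Agent.S07.result a, Fermat.Agent.S07.result b]⟩

theorem eisensteinNumerator_two : eisensteinNumerator 2 = 1 := by decide

theorem eisensteinNumerator_three : eisensteinNumerator 3 = 1 := by decide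

/-- frozen S16 at `p = 2`. -/
theorem result_two :
    Nat.card (↥(heckeLatticeAlgebra 2 ∅) ⧸
        Ideal.map ((latticeRestrictHom 2 ∅).toRingHom.comp (heckeEvalForms 2 2))
          (eisensteinIdeal 2)) = eisensteinNumerator 2 := by
  rw [eisensteinNumerator_two]
  exact natCard_eq_one_of_subsingleton 2

/-! ### the genus-zero prime levels `3, 5, 7, 13` -/

theorem dedekindPsi_prime' {p : ℕ} (hp : p.Prime) : dedekindPsi p = p + 1 := by
  have h := Fermat.Agent.S20.H78.dedekindPsi_prime_pow (p := p) (k := 1) hp one_pos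
  simpa using h

theorem nuTwo_eq_card (N : ℕ) [NeZero N] :
    nuTwo N = Fintype.card {x : ZMod N // x ^ 2 + 1 = 0} := by
  rw [nuTwo, Nat.card_eq_fintype_card]

theorem nuThree_eq_card (N : ℕ) [NeZero N] :
    nuThree N = Fintype.card {x : ZMod N // x ^ 2 + x + 1 = 0} := by
  rw [nuThree, Nat.card_eq_fintype_card]

theorem genusFormula_three : genusFormula 3 = 0 := by
  have h1 : dedekindPsi 3 = 4 := dedekindPsi_prime' Nat.prime_three
  have h2 : nuTwo 3 = 0 := by rw [nuTwo_eq_card]; decide
  have h3 : nuThree 3 = 1 := by rw [nuThree_eq_card]; decide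
  have h4 : cuspCount 3 = 2 := by decide
  rw [genusFormula, h1, h2, h3, h4]; norm_num

theorem genusFormula_five : genusFormula 5 = 0 := by
  have h1 : dedekindPsi 5 = 6 := dedekindPsi_prime' Nat.prime_five
  have h2 : nuTwo 5 = 2 := by rw [nuTwo_eq_card]; decide
  have h3 : nuThree 5 = 0 := by rw [nuThree_eq_card]; decide
  have h4 : cuspCount 5 = 2 := by decide
  rw [genusFormula, h1, h2, h3, h4]; norm_num

theorem genusFormula_seven : genusFormula 7 = 0 := by
  have h1 : dedekindPsi 7 = 8 := dedekindPsi_prime' (by norm_num)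
  have h2 : nuTwo 7 = 0 := by rw [nuTwo_eq_card]; decide
  have h3 : nuThree 7 = 2 := by rw [nuThree_eq_card]; decide
  have h4 : cuspCount 7 = 2 := by decide
  rw [genusFormula, h1, h2, h3, h4]; norm_num

theorem genusFormula_thirteen : genusFormula 13 = 0 := by
  have h1 : dedekindPsi 13 = 14 := dedekindPsi_prime' (by norm_num)
  have h2 : nuTwo 13 = 2 := by rw [nuTwo_eq_card]; decide
  have h3 : nuThree 13 = 2 := by rw [nuThree_eq_card]; decide
  have h4 : cuspCount 13 = 2 := by decide
  rw [genusFormula, h1, h2, h3, h4]; norm_num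

instance subsingleton_three : Subsingleton (CuspForm (Gamma0 3) 2) :=
  subsingleton_of_genusFormula_eq_zero 3 genusFormula_three

instance subsingleton_five : Subsingleton (CuspForm (Gamma0 5) 2) :=
  subsingleton_of_genusFormula_eq_zero 5 genusFormula_five

instance subsingleton_seven : Subsingleton (CuspForm (Gamma0 7) 2) :=
  subsingleton_of_genusFormula_eq_zero 7 genusFormula_seven

instance subsingleton_thirteen : Subsingleton (CuspForm (Gamma0 13) 2) :=
  subsingleton_of_genusFormula_eq_zero 13 genusFormula_thirteen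

/-- frozen S16 at the five genus-zero prime levels. -/
theorem result_of_mem {p : ℕ} (hp : p ∈ ({2, 3, 5, 7, 13} : Finset ℕ)) [NeZero p] :
    Nat.card (↥(heckeLatticeAlgebra p ∅) ⧸
        Ideal.map ((latticeRestrictHom p ∅).toRingHom.comp (heckeEvalForms p 2))
          (eisensteinIdeal p)) = eisensteinNumerator p := by
  simp only [Finset.mem_insert, Finset.mem_singleton] at hp
  rcases hp with rfl | rfl | rfl | rfl | rfl
  · rw [eisensteinNumerator_two]; exact natCard_eq_one_of_subsingleton 2
  · rw [eisensteinNumerator_three]; exact natCard_eq_one_of_subsingleton 3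
  · rw [eisensteinNumerator_five]; exact natCard_eq_one_of_subsingleton 5
  · rw [eisensteinNumerator_seven]; exact natCard_eq_one_of_subsingleton 7
  · rw [eisensteinNumerator_thirteen]; exact natCard_eq_one_of_subsingleton 13

/-- For every other prime level there is a nonzero cusp form is NOT claimed here; the general
argument may assume `p ∉ {2, 3}` (or `p ∉ {2, 3, 5, 7, 13}`) freely. -/
theorem result_of_small_or {p : ℕ} [Fact p.Prime]
    (h : p ∉ ({2, 3, 5, 7, 13} : Finset ℕ) →
      Nat.card (↥(heckeLatticeAlgebra p ∅) ⧸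
        Ideal.map ((latticeRestrictHom p ∅).toRingHom.comp (heckeEvalForms p 2))
          (eisensteinIdeal p)) = eisensteinNumerator p) :
    Nat.card (↥(heckeLatticeAlgebra p ∅) ⧸
        Ideal.map ((latticeRestrictHom p ∅).toRingHom.comp (heckeEvalForms p 2))
          (eisensteinIdeal p)) = eisensteinNumerator p := by
  haveI : NeZero p := ⟨(Fact.out : p.Prime).ne_zero⟩
  by_cases hp : p ∈ ({2, 3, 5, 7, 13} : Finset ℕ)
  · exact result_of_mem hp
  · exact h hp

end Fermat.Agent.S16.H48
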