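/-
S16 / (L), part 1: the lifting lemma of `S29/H98_ParLift` with the hypothesis on finite order
elements weakened to `γ ^ 12 = 1 → χ γ = 0` (the proof only uses conjugates of powers of `S` and
`U`), so that no classification of the torsion of `SL(2,ℤ)` is needed by the consumers.

* `exists_parabolicHom_lift_pow` : additive form (`χ : Γ → ZMod m`);
* `exists_expChar_eq_pow` : multiplicative form (`χ : Γ → C` with values in `⟨ζ⟩`).
-/
import Mathlib
import Fermat.Agent.S29.H98_ParLift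

set_option autoImplicit false
set_option linter.unusedSectionVars false

namespace Fermat.Agent.S16.H98

open scoped MatrixGroups
open ModularCurve.Period
open Fermat.Agent.S41.H98 Fermat.Agent.S41.H58 Fermat.Agent.S29.H98 Fermat.Agent.S29.H85

section Lift

variable (Γ : Subgroup SL(2, ℤ)) [Γ.FiniteIndex]

/-- if `t ^ k = 1`, `k ∣ 12`, and `χ` kills the elements of `Γ` with `γ ^ 12 = 1`, the cocycle
vanishes at the orbit periods of `t`. -/
theorem cocycle_period_eq_zero_of_pow {A : Type*} [AddCommGroup A]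
    {f : SL(2, ℤ) → Cos Γ → A} (hf : IsCocycle Γ f)
    {χ : Additive Γ →+ A} (hb : ∀ γ : Γ, f γ (base Γ) = χ (Additive.ofMul γ))
    (hfin : ∀ γ : Γ, γ ^ 12 = 1 → χ (Additive.ofMul γ) = 0)
    (t : SL(2, ℤ)) (k : ℕ) (hk : k ∣ 12) (htk : t ^ k = 1) (x : Cos Γ) :
    f (t ^ Function.minimalPeriod (t • ·) x) x = 0 := by
  obtain ⟨hmem, he⟩ := cocycle_apply_eq_base Γ hf hb _ x (pow_minimalPeriod_smul Γ t x)
  rw [he]
  apply hfin
  apply Subtype.ext
  rw [Subgroup.coe_pow, Subgroup.coe_one]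
  change ((Quotient.out x : SL(2, ℤ))⁻¹ * t ^ Function.minimalPeriod (t • ·) x
    * Quotient.out x) ^ 12 = 1
  have hconj : ∀ (h a : SL(2, ℤ)) (j : ℕ), (h⁻¹ * a * h) ^ j = h⁻¹ * a ^ j * h := by
    intro h a j
    induction j with
    | zero => simp
    | succ j ih =>
      rw [pow_succ, ih, pow_succ]
      group
  obtain ⟨c, hc⟩ := hk
  rw [hconj, ← pow_mul, mul_comm, pow_mul, hc, pow_mul, htk, one_pow, one_pow, mul_one,
    inv_mul_cancel]

/-- representation modulo `m`, `12`-power form. -/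
theorem exists_rep_isWit_mod_pow (hneg : (-1 : SL(2, ℤ)) ∈ Γ) (m : ℕ) [NeZero m]
    (χ : Additive Γ →+ ZMod m) (hpar : IsParabolicHom Γ χ)
    (hfin : ∀ γ : Γ, γ ^ 12 = 1 → χ (Additive.ofMul γ) = 0) :
    ∃ v w : Cos Γ → ZMod m, (modelData Γ hneg (ZMod m)).IsWit v w ∧ Rep Γ χ v := by
  have hF := isCocycle_shap Γ χ
  obtain ⟨m0, hm0⟩ := exists_cob_of_period Γ m hF mU
    (cocycle_period_eq_zero_of_pow Γ hF (shap_base Γ χ) hfin mU 3 (by norm_num) mU_pow_three)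
  obtain ⟨f, hfdef⟩ : ∃ f : SL(2, ℤ) → Cos Γ → ZMod m,
      f = fun g => shap Γ χ g - (gact Γ g m0 - m0) := ⟨_, rfl⟩
  have hf : IsCocycle Γ f := by
    rw [hfdef]
    exact isCocycle_sub hF (Fermat.Agent.S41.H58.isCocycle_cob Γ m0)
  have hfU : f mU = 0 := by
    rw [hfdef]
    change shap Γ χ mU - (gact Γ mU m0 - m0) = 0
    rw [hm0, sub_self]
  have hfb : ∀ γ : Γ, f γ (base Γ) = χ (Additive.ofMul γ) := by
    intro γ
    have hx : (γ : SL(2, ℤ))⁻¹ • base Γ = base Γ := by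
      rw [inv_smul_eq_iff, smul_base]
    rw [hfdef]
    change shap Γ χ γ (base Γ) - (m0 ((γ : SL(2, ℤ))⁻¹ • base Γ) - m0 (base Γ)) = _
    rw [hx, sub_self, sub_zero, shap_base]
  obtain ⟨v, hv⟩ := exists_cob_of_period Γ m hf mS
    (cocycle_period_eq_zero_of_pow Γ hf hfb hfin mS 4 (by norm_num) mS_pow_four)
  obtain ⟨y, hy⟩ := exists_cob_of_period Γ m hf mT
    (cocycle_period_eq_zero_of_par Γ hf hfb hpar)
  have hT : f mT = gact Γ mU (gact Γ mS v) - gact Γ mU v := by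
    rw [mT_eq, hf, hfU, zero_add, hv, gact_sub]
  refine ⟨v, v - y, ?_, f, hf, hfU, hv, fun γ => (hfb γ).symm⟩
  rw [modelData_isWit_iff]
  have e : gact Γ mT v = gact Γ mU (gact Γ mS v) := by rw [mT_eq, gact_mul]
  rw [gact_sub, e]
  rw [hT] at hy
  have e2 : gact Γ mU (gact Γ mS v) - gact Γ mT y - (v - y)
      = gact Γ mU (gact Γ mS v) - v - (gact Γ mT y - y) := by abel
  rw [e2, ← hy]
  abel

/-- **The lifting lemma, `12`-power form.**  Every homomorphism `χ : Γ → ℤ/m` killing the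
parabolic elements and the elements with `γ ^ 12 = 1` is the reduction modulo `m` of a parabolic
homomorphism `Γ → ℤ`. -/
theorem exists_parabolicHom_lift_pow (hneg : (-1 : SL(2, ℤ)) ∈ Γ) (m : ℕ) [NeZero m]
    (χ : Additive Γ →+ ZMod m) (hpar : IsParabolicHom Γ χ)
    (hfin : ∀ γ : Γ, γ ^ 12 = 1 → χ (Additive.ofMul γ) = 0) :
    ∃ φ : parabolicHoms ℤ Γ ℤ, ∀ γ : Γ,
      (((φ : Additive Γ →+ ℤ) (Additive.ofMul γ) : ℤ) : ZMod m) = χ (Additive.ofMul γ) := by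
  classical
  let _ : Fintype (Cos Γ) := cosFintype Γ
  obtain ⟨v', w', hwit, f', hf', hU', hS', hb'⟩ := exists_rep_isWit_mod_pow Γ hneg m χ hpar hfin
  obtain ⟨v, w, hw, hv, -⟩ := @exists_lift_isWit (Cos Γ) (cosFintype Γ) (Classical.decEq _)
    (MulAction.toPerm mS) (MulAction.toPerm mU) (fun x => mS_smul_mS_smul Γ hneg x) m _ v' w' hwit
  obtain ⟨φ, f, hf, hU, hS, hb⟩ := exists_parabolicHom_of_isWit Γ hneg (v := v) (w := w) hw
  refine ⟨φ, fun γ => ?_⟩
  have hfr : IsCocycle Γ (fun g => red m (f g)) := by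
    intro g h
    funext x
    change ((f (g * h) x : ℤ) : ZMod m) = ((f g x : ℤ) : ZMod m) + ((f h (g⁻¹ • x) : ℤ) : ZMod m)
    rw [hf g h, Pi.add_apply, gact_apply, Int.cast_add]
  have hfrU : (fun g => red m (f g)) mU = f' mU := by
    change red m (f mU) = f' mU
    rw [hU, hU', red_zero]
  have hfrS : (fun g => red m (f g)) mS = f' mS := by
    change red m (f mS) = f' mS
    rw [hS, hS', red_sub, ← hv]
    rfl
  have heq := cocycle_ext Γ hfr hf' hfrS hfrU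
  rw [hb γ, hb' γ, ← heq]
  rfl

/-- **The image of the Kummer bridge, `12`-power form.** -/
theorem exists_expChar_eq_pow {C : Type*} [CommGroup C] (hneg : (-1 : SL(2, ℤ)) ∈ Γ) {ζ : C}
    {m : ℕ} [NeZero m] (hζ : IsPrimitiveRoot ζ m) (χ : Γ →* C)
    (hval : ∀ γ : Γ, χ γ ∈ Subgroup.zpowers ζ)
    (hpar : ∀ γ : Γ, ((γ : SL(2, ℤ)) : Matrix (Fin 2) (Fin 2) ℤ).trace ^ 2 = 4 → χ γ = 1)
    (hfin : ∀ γ : Γ, γ ^ 12 = 1 → χ γ = 1) :
    ∃ x : parabolicHoms ℤ Γ ℤ, expChar ζ (x : Additive Γ →+ ℤ) = χ := by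
  have hk : ∀ γ : Γ, ∃ k : ℤ, ζ ^ k = χ γ := fun γ => Subgroup.mem_zpowers_iff.mp (hval γ)
  choose k hk using hk
  have hcast : ∀ a b : ℤ, ζ ^ a = ζ ^ b → ((a : ℤ) : ZMod m) = ((b : ℤ) : ZMod m) := by
    intro a b hab
    rw [ZMod.intCast_eq_intCast_iff_dvd_sub]
    rw [← hζ.zpow_eq_one_iff_dvd, zpow_sub, hab, mul_inv_cancel]
  let χ' : Additive Γ →+ ZMod m := AddMonoidHom.mk'
    (fun g => ((k (Additive.toMul g) : ℤ) : ZMod m)) (fun a b => by
      rw [← Int.cast_add]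
      apply hcast
      rw [zpow_add, hk, hk, hk, toMul_add, map_mul])
  have hχ' : ∀ γ : Γ, χ' (Additive.ofMul γ) = ((k γ : ℤ) : ZMod m) := fun γ => rfl
  have hone : ∀ γ : Γ, χ γ = 1 → χ' (Additive.ofMul γ) = 0 := by
    intro γ h1
    rw [hχ', ← Int.cast_zero]
    apply hcast
    rw [hk, h1, zpow_zero]
  obtain ⟨x, hx⟩ := exists_parabolicHom_lift_pow Γ hneg m χ' (fun γ hγ => hone γ (hpar γ hγ))
    (fun γ hγ => hone γ (hfin γ hγ))
  refine ⟨x, ?_⟩
  ext γ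
  rw [expChar_apply, ← hk γ]
  have h2 := hx γ
  rw [hχ', ZMod.intCast_eq_intCast_iff_dvd_sub, ← hζ.zpow_eq_one_iff_dvd, zpow_sub] at h2
  exact (mul_inv_eq_one.mp h2).symm

end Lift

end Fermat.Agent.S16.H98
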