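/-
S16 / (L): the lower bound `n ∣ #(𝕋 / I)` via the Shimura class.

`p` prime, `ν = gcd(p - 1, 12)`, `n = (p - 1) / ν = eisensteinNumerator p`.
The character `χ = d ^ ν : Γ₀(p) → (ℤ/p)ˣ` kills the parabolic elements and the elements with
`γ ^ 12 = 1`, so by the lifting lemma it is `expChar (g ^ ν) x` for a class
`x ∈ L = parabolicHoms ℤ Γ₀(p) ℤ` (`g` a generator of `(ℤ/p)ˣ`).  The class `x` has exact order `n`
in `L / n L` and is Eisenstein modulo `n`; as the Hecke algebra acts on `L` (`H85.cohHeckeRep`),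
every integer in the image of the Eisenstein ideal is divisible by `n`.

Main result: `lower_bound`.
-/
import Mathlib
import Fermat.Prelude.Def_CuspForm_HeckeLocal
import Fermat.Prelude.Def_CuspForm_HeckeEvalForms
import Fermat.Prelude.Def_HeckeGalois_EichlerShimura
import Fermat.Prelude.Def_ModularCurve_ModularUnit
import Fermat.Agent.S16.H98_ParLift12
import Fermat.Agent.S41.H49_EisGamma0
import Fermat.Agent.S41.H85_HeckeModule
import Fermat.Agent.S23

set_option autoImplicit false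
set_option linter.unusedSectionVars false

namespace Fermat.Agent.S16.H98

open CongruenceSubgroup ModularCurve ModularCurve.Period CuspForm Matrix.SpecialLinearGroup ModularForm
open scoped MatrixGroups
open Fermat.Agent.S41 Fermat.Agent.S41.H85 Fermat.Agent.S29.H85
open P2MW.S_ModularForm_heckeT_slash_eq_self_of_mem_Gamma0.ModularForm.HeckeSlashInvariance

/-! ### arithmetic of `ν` and `n` -/

section Arith

variable (p : ℕ) [hp : Fact p.Prime]

/-- `ν = gcd (p - 1, 12)`. -/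
def nu : ℕ := Nat.gcd (p - 1) 12

theorem nu_mul_numerator : nu p * eisensteinNumerator p = p - 1 :=
  Nat.mul_div_cancel' (Nat.gcd_dvd_left _ _)

theorem numerator_pos : 0 < eisensteinNumerator p := by
  have h1 : 0 < p - 1 := Nat.sub_pos_of_lt hp.out.one_lt
  have h2 := nu_mul_numerator p
  rcases Nat.eq_zero_or_pos (eisensteinNumerator p) with h | h
  · rw [h, mul_zero] at h2
    omega
  · exact h

instance numerator_neZero : NeZero (eisensteinNumerator p) := ⟨(numerator_pos p).ne'⟩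

/-- `p ≡ 1` modulo `n`. -/
theorem natCast_self_eq_one : ((p : ℕ) : ZMod (eisensteinNumerator p)) = 1 := by
  have h1 : 1 ≤ p := hp.out.one_lt.le
  have h3 : ((p - 1 : ℕ) : ZMod (eisensteinNumerator p)) = 0 := by
    rw [ZMod.natCast_eq_zero_iff]
    exact eisensteinNumerator_dvd p
  have h4 : ((p - 1 + 1 : ℕ) : ZMod (eisensteinNumerator p)) = 1 := by
    rw [Nat.cast_add, h3, zero_add, Nat.cast_one]
  rwa [Nat.sub_add_cancel h1] at h4

theorem neg_one_pow_nu : (-1 : (ZMod p)ˣ) ^ nu p = 1 := by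
  rcases hp.out.eq_two_or_odd with h2 | hodd
  · have : Fintype.card (ZMod p)ˣ = 1 := by rw [ZMod.card_units, h2]
    have hs : Subsingleton (ZMod p)ˣ := Fintype.card_le_one_iff_subsingleton.mp this.le
    exact Subsingleton.elim _ _
  · have h2 : 2 ∣ nu p := by
      unfold nu
      apply Nat.dvd_gcd
      · omega
      · norm_num
    obtain ⟨k, hk⟩ := h2
    rw [hk, pow_mul]
    simp

end Arith

/-! ### the character `d` and the Shimura character -/

section Char

variable (p : ℕ) [hp : Fact p.Prime]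

/-- `γ ↦ d(γ) mod p`. -/
noncomputable def dHom : Gamma0 p →* (ZMod p)ˣ := (Gamma0Map p).toHomUnits

theorem dHom_coe (γ : Gamma0 p) :
    ((dHom p γ : (ZMod p)ˣ) : ZMod p) = (((γ : SL(2, ℤ)) 1 1 : ℤ) : ZMod p) := by
  unfold dHom
  rw [MonoidHom.coe_toHomUnits]
  rfl

theorem dHom_eq_of_cast_eq {γ γ' : Gamma0 p}
    (h : (((γ : SL(2, ℤ)) 1 1 : ℤ) : ZMod p) = (((γ' : SL(2, ℤ)) 1 1 : ℤ) : ZMod p)) :
    dHom p γ = dHom p γ' := by
  apply Units.ext
  rw [dHom_coe, dHom_coe, h]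

/-- the Shimura character `d ^ ν`. -/
noncomputable def shimuraChar : Gamma0 p →* (ZMod p)ˣ := (powMonoidHom (nu p)).comp (dHom p)

theorem shimuraChar_apply (γ : Gamma0 p) : shimuraChar p γ = dHom p γ ^ nu p := rfl

theorem cast_c_eq_zero (γ : Gamma0 p) : (((γ : SL(2, ℤ)) 1 0 : ℤ) : ZMod p) = 0 :=
  Gamma0_mem.mp γ.2

/-- `a d = 1` modulo `p` on `Γ₀(p)`. -/
theorem cast_a_mul_d (γ : Gamma0 p) :
    (((γ : SL(2, ℤ)) 0 0 : ℤ) : ZMod p) * (((γ : SL(2, ℤ)) 1 1 : ℤ) : ZMod p) = 1 := by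
  have hdet := Matrix.SpecialLinearGroup.det_coe (γ : SL(2, ℤ))
  rw [Matrix.det_fin_two] at hdet
  have := congrArg (Int.cast : ℤ → ZMod p) hdet
  push_cast at this
  rw [cast_c_eq_zero, mul_zero, sub_zero] at this
  exact this

/-- the Shimura character kills the parabolic elements. -/
theorem shimuraChar_eq_one_of_trace (γ : Gamma0 p)
    (hγ : ((γ : SL(2, ℤ)) : Matrix (Fin 2) (Fin 2) ℤ).trace ^ 2 = 4) : shimuraChar p γ = 1 := by
  rw [Matrix.trace_fin_two] at hγ
  set a : ZMod p := (((γ : SL(2, ℤ)) 0 0 : ℤ) : ZMod p) with ha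
  set d : ZMod p := (((γ : SL(2, ℤ)) 1 1 : ℤ) : ZMod p) with hd
  have had : a * d = 1 := cast_a_mul_d p γ
  have htr : (a + d) ^ 2 = 4 := by
    have := congrArg (Int.cast : ℤ → ZMod p) hγ
    push_cast at this
    exact this
  have h1 : (a - d) ^ 2 = 0 := by linear_combination htr - 4 * had
  have h2 : a = d := sub_eq_zero.mp (pow_eq_zero_iff (two_ne_zero) |>.mp h1)
  have h3 : (d - 1) * (d + 1) = 0 := by
    rw [h2] at had
    linear_combination had
  rw [shimuraChar_apply]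
  rcases mul_eq_zero.mp h3 with h | h
  · have : dHom p γ = 1 := by
      apply Units.ext
      rw [dHom_coe, Units.val_one]
      exact sub_eq_zero.mp h
    rw [this, one_pow]
  · have : dHom p γ = -1 := by
      apply Units.ext
      rw [dHom_coe, Units.val_neg, Units.val_one]
      exact eq_neg_of_add_eq_zero_left h
    rw [this, neg_one_pow_nu]

/-- the Shimura character kills the elements with `γ ^ 12 = 1`. -/
theorem shimuraChar_eq_one_of_pow (γ : Gamma0 p) (hγ : γ ^ 12 = 1) : shimuraChar p γ = 1 := by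
  rw [shimuraChar_apply]
  unfold nu
  rw [pow_gcd_eq_one]
  refine ⟨ZMod.units_pow_card_sub_one_eq_one p _, ?_⟩
  rw [← map_pow, hγ, map_one]

/-- `d` is surjective. -/
theorem dHom_surjective : Function.Surjective (dHom p) := by
  intro u
  have hcop : IsCoprime (((u : ZMod p).val : ℕ) : ℤ) (p : ℤ) := by
    rw [Int.isCoprime_iff_gcd_eq_one, Int.gcd_natCast_natCast, Nat.gcd_comm]
    rw [Nat.Coprime.gcd_eq_one]
    rw [Nat.Prime.coprime_iff_not_dvd hp.out]
    intro hdvd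
    have h0 : (((u : ZMod p).val : ℕ) : ZMod p) = 0 := (ZMod.natCast_eq_zero_iff _ _).mpr hdvd
    rw [ZMod.natCast_zmod_val] at h0
    exact u.ne_zero h0
  obtain ⟨a, b, hab⟩ := hcop
  let g : SL(2, ℤ) := ⟨!![a, -b; (p : ℤ), (((u : ZMod p).val : ℕ) : ℤ)], by
    rw [Matrix.det_fin_two_of]
    linear_combination hab⟩
  have hg : g ∈ Gamma0 p := by
    rw [Gamma0_mem]
    change (((p : ℤ)) : ZMod p) = 0
    simp
  refine ⟨⟨g, hg⟩, ?_⟩
  apply Units.ext
  rw [dHom_coe]
  change ((((u : ZMod p).val : ℕ) : ℤ) : ZMod p) = _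
  rw [Int.cast_natCast, ZMod.natCast_zmod_val]

end Char

/-! ### the Shimura class -/

section Class

variable (p : ℕ) [hp : Fact p.Prime]

theorem neg_one_mem : (-1 : SL(2, ℤ)) ∈ Gamma0 p := by
  rw [Gamma0_mem]
  simp

/-- existence of the Shimura class `x ∈ L` with `expChar (g ^ ν) x = d ^ ν`. -/
theorem exists_shimuraClass : ∃ (g : (ZMod p)ˣ) (x : parabolicHoms ℤ (Gamma0 p) ℤ),
    IsPrimitiveRoot (g ^ nu p) (eisensteinNumerator p) ∧
    expChar (g ^ nu p) (x : Additive (Gamma0 p) →+ ℤ) = shimuraChar p := by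
  obtain ⟨g, hg⟩ := IsCyclic.exists_generator (α := (ZMod p)ˣ)
  have hord : orderOf g = p - 1 := by
    rw [orderOf_eq_card_of_forall_mem_zpowers hg, Nat.card_eq_fintype_card, ZMod.card_units]
  have hζ : IsPrimitiveRoot (g ^ nu p) (eisensteinNumerator p) := by
    have h1 := IsPrimitiveRoot.orderOf g
    rw [hord] at h1
    exact h1.pow (Nat.sub_pos_of_lt hp.out.one_lt) (nu_mul_numerator p).symm
  have : NeZero p := ⟨hp.out.ne_zero⟩
  obtain ⟨x, hx⟩ := exists_expChar_eq_pow (Gamma0 p) (neg_one_mem p) hζ (shimuraChar p)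
    (fun γ => by
      obtain ⟨k, hk⟩ := Subgroup.mem_zpowers_iff.mp (hg (dHom p γ))
      rw [Subgroup.mem_zpowers_iff]
      refine ⟨k, ?_⟩
      rw [shimuraChar_apply, ← hk, ← zpow_natCast, ← zpow_natCast, ← zpow_mul, ← zpow_mul,
        mul_comm])
    (shimuraChar_eq_one_of_trace p) (shimuraChar_eq_one_of_pow p)
  exact ⟨g, x, hζ, hx⟩

variable {p} {g : (ZMod p)ˣ} {x : parabolicHoms ℤ (Gamma0 p) ℤ}

/-- the values of `x` modulo `n` only depend on `d` modulo `p`. -/
theorem cast_eq_of_dHom_eq (hζ : IsPrimitiveRoot (g ^ nu p) (eisensteinNumerator p))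
    (hx : expChar (g ^ nu p) (x : Additive (Gamma0 p) →+ ℤ) = shimuraChar p) {γ γ' : Gamma0 p}
    (h : dHom p γ = dHom p γ') :
    (((x : Additive (Gamma0 p) →+ ℤ) (Additive.ofMul γ) : ℤ) : ZMod (eisensteinNumerator p))
      = (((x : Additive (Gamma0 p) →+ ℤ) (Additive.ofMul γ') : ℤ) : ZMod (eisensteinNumerator p)) := by
  have e1 := DFunLike.congr_fun hx γ
  have e2 := DFunLike.congr_fun hx γ'
  rw [expChar_apply, shimuraChar_apply] at e1 e2
  rw [ZMod.intCast_eq_intCast_iff_dvd_sub, ← hζ.zpow_eq_one_iff_dvd, zpow_sub, e1, e2, h,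
    mul_inv_cancel]

/-- `x` modulo `n` kills `Γ₀(p) ∩ Γ(p)`. -/
theorem cast_eq_zero_of_mem_Gamma (hζ : IsPrimitiveRoot (g ^ nu p) (eisensteinNumerator p))
    (hx : expChar (g ^ nu p) (x : Additive (Gamma0 p) →+ ℤ) = shimuraChar p) (γ : Gamma0 p)
    (hγ : (γ : SL(2, ℤ)) ∈ Gamma p) :
    (((x : Additive (Gamma0 p) →+ ℤ) (Additive.ofMul γ) : ℤ) : ZMod (eisensteinNumerator p)) = 0 := by
  have h1 : dHom p γ = dHom p 1 := by
    apply dHom_eq_of_cast_eq
    rw [(Gamma_mem.mp hγ).2.2.2]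
    simp
  rw [cast_eq_of_dHom_eq hζ hx h1, ofMul_one, map_zero, Int.cast_zero]

/-- **exact order**: `a • x ∈ n L` implies `n ∣ a`. -/
theorem dvd_of_smul_mem_pSub (hζ : IsPrimitiveRoot (g ^ nu p) (eisensteinNumerator p))
    (hx : expChar (g ^ nu p) (x : Additive (Gamma0 p) →+ ℤ) = shimuraChar p) (a : ℤ)
    (h : a • x ∈ H66.pSub (eisensteinNumerator p) (parabolicHoms ℤ (Gamma0 p) ℤ)) :
    (eisensteinNumerator p : ℤ) ∣ a := by
  obtain ⟨y, hy⟩ := H66.mem_pSub.mp h
  obtain ⟨γ0, hγ0⟩ := dHom_surjective p g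
  have e := DFunLike.congr_fun hx γ0
  rw [expChar_apply, shimuraChar_apply, hγ0] at e
  have hval : (eisensteinNumerator p : ℤ) * (y : Additive (Gamma0 p) →+ ℤ) (Additive.ofMul γ0)
      = a * (x : Additive (Gamma0 p) →+ ℤ) (Additive.ofMul γ0) := by
    have := congrArg (fun z : parabolicHoms ℤ (Gamma0 p) ℤ =>
      (z : Additive (Gamma0 p) →+ ℤ) (Additive.ofMul γ0)) hy
    simpa [Submodule.coe_smul, AddMonoidHom.smul_apply, smul_eq_mul] using this
  rw [← hζ.zpow_eq_one_iff_dvd]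
  calc (g ^ nu p) ^ a = ((g ^ nu p) ^ ((x : Additive (Gamma0 p) →+ ℤ) (Additive.ofMul γ0))) ^ a := by
        rw [e]
    _ = (g ^ nu p) ^ (a * (x : Additive (Gamma0 p) →+ ℤ) (Additive.ofMul γ0)) := by
        rw [← zpow_mul, mul_comm]
    _ = ((g ^ nu p) ^ (eisensteinNumerator p : ℤ))
          ^ ((y : Additive (Gamma0 p) →+ ℤ) (Additive.ofMul γ0)) := by
        rw [← hval, zpow_mul]
    _ = 1 := by rw [zpow_natCast, hζ.pow_eq_one, one_zpow]

/-! ### the Shimura class is Eisenstein modulo `n` -/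

/-- a class all of whose values are divisible by `n` lies in `n L`. -/
theorem mem_pSub_of_cast_eq_zero {z : parabolicHoms ℤ (Gamma0 p) ℤ}
    (h : ∀ γ : Gamma0 p, (((z : Additive (Gamma0 p) →+ ℤ) (Additive.ofMul γ) : ℤ) :
      ZMod (eisensteinNumerator p)) = 0) :
    z ∈ H66.pSub (eisensteinNumerator p) (parabolicHoms ℤ (Gamma0 p) ℤ) := by
  rw [mem_pSub_iff_forall_dvd (numerator_pos p).ne']
  intro γ
  exact (ZMod.intCast_zmod_eq_zero_iff_dvd _ _).mp (h γ)

/-- `T_ℓ x ≡ (ℓ + 1) x` modulo `n L` for every prime `ℓ ≠ p`. -/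
theorem heckeTPar_sub_mem_pSub (hζ : IsPrimitiveRoot (g ^ nu p) (eisensteinNumerator p))
    (hx : expChar (g ^ nu p) (x : Additive (Gamma0 p) →+ ℤ) = shimuraChar p) {ℓ : ℕ}
    (hℓ : ℓ.Prime) (hℓp : ¬ ℓ ∣ p) :
    heckeTPar ℤ ℤ hℓ hℓp x - ((1 : ℤ) + ((ℓ : ℕ) : ℤ)) • x
      ∈ H66.pSub (eisensteinNumerator p) (parabolicHoms ℤ (Gamma0 p) ℤ) := by
  have : NeZero p := ⟨hp.out.ne_zero⟩
  have : Fact ℓ.Prime := ⟨hℓ⟩
  have hcop : ℓ.Coprime p := by
    rw [Nat.coprime_primes hℓ hp.out]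
    rintro rfl
    exact hℓp dvd_rfl
  set φ : Additive (Gamma0 p) →+ ZMod (eisensteinNumerator p) :=
    (Int.castAddHom (ZMod (eisensteinNumerator p))).comp (x : Additive (Gamma0 p) →+ ℤ) with hφ
  have h1 : heckeTHom (ZMod (eisensteinNumerator p)) hℓ hℓp φ = (ℓ + 1) • φ :=
    H49.heckeTHom_eq_nsmul_of_kills_Gamma (M := p) hℓ hℓp hcop φ
      (fun γ hγ => cast_eq_zero_of_mem_Gamma hζ hx γ hγ)
  have h2 : (Int.castAddHom (ZMod (eisensteinNumerator p))).comp
      (heckeTHom ℤ hℓ hℓp (x : Additive (Gamma0 p) →+ ℤ))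
      = heckeTHom (ZMod (eisensteinNumerator p)) hℓ hℓp φ :=
    ((heckeTDatum p ℓ hℓp).op_comp_hom (Int.castAddHom (ZMod (eisensteinNumerator p)))
      (x : Additive (Gamma0 p) →+ ℤ)).symm
  apply mem_pSub_of_cast_eq_zero
  intro γ
  have h3 : ((heckeTHom ℤ hℓ hℓp (x : Additive (Gamma0 p) →+ ℤ) (Additive.ofMul γ) : ℤ) :
      ZMod (eisensteinNumerator p))
      = (ℓ + 1) • (((x : Additive (Gamma0 p) →+ ℤ) (Additive.ofMul γ) : ℤ) :
        ZMod (eisensteinNumerator p)) :=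
    DFunLike.congr_fun (h2.trans h1) (Additive.ofMul γ)
  rw [Submodule.coe_sub, Submodule.coe_smul, AddMonoidHom.sub_apply, AddMonoidHom.smul_apply,
    coe_heckeTPar_apply, Int.cast_sub, h3, smul_eq_mul, Int.cast_mul, nsmul_eq_mul]
  push_cast
  ring

theorem heckeMatrix_mul_mapGL_entries {q : ℕ} (hq : q ≠ 0) (g : SL(2, ℤ)) (j : ℕ) :
    ((heckeMatrix q j * mapGL ℝ g : GL (Fin 2) ℝ) : Matrix (Fin 2) (Fin 2) ℝ)
      = !![(g 0 0 : ℝ) + j * (g 1 0 : ℝ), (g 0 1 : ℝ) + j * (g 1 1 : ℝ);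
           q * (g 1 0 : ℝ), q * (g 1 1 : ℝ)] := by
  ext a b
  fin_cases a <;> fin_cases b <;> simp [hq, Matrix.mul_apply, Fin.sum_univ_two]

/-- the bookkeeping cocycle of `U_q` does not change `d` modulo `p`. -/
theorem dHom_coc_heckeUDatum {q : ℕ} [NeZero q] (hqp : q ∣ p) (γ : Gamma0 p) (i : ZMod q) :
    dHom p ((heckeUDatum p q hqp).coc γ i) = dHom p γ := by
  have hq : q ≠ 0 := NeZero.ne q
  have h := (heckeUDatum p q hqp).eq γ i
  rw [heckeUDatum_α] at h
  simp only [gl_apply] at h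
  have h10 := entry_eq h 1 0
  have h11 := entry_eq h 1 1
  rw [heckeMatrix_mul_mapGL_entries hq, mapGL_mul_heckeMatrix_entries q hq] at h10 h11
  simp only [Matrix.of_apply, Matrix.cons_val', Matrix.cons_val_zero, Matrix.cons_val_one,
    Matrix.cons_val_fin_one] at h10 h11
  set g' := (heckeUDatum p q hqp).coc γ i with hg'
  set j := ((heckeUDatum p q hqp).perm γ i).val with hj
  have h10' : (q : ℤ) * ((γ : SL(2, ℤ)) 1 0) = (g' : SL(2, ℤ)) 1 0 := by exact_mod_cast h10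
  have h11' : (q : ℤ) * ((γ : SL(2, ℤ)) 1 1) = ((g' : SL(2, ℤ)) 1 0) * (j : ℤ)
      + ((g' : SL(2, ℤ)) 1 1) * (q : ℤ) := by exact_mod_cast h11
  have hq0 : (q : ℤ) ≠ 0 := by exact_mod_cast hq
  have h3 : (g' : SL(2, ℤ)) 1 1 = (γ : SL(2, ℤ)) 1 1 - ((γ : SL(2, ℤ)) 1 0) * (j : ℤ) := by
    apply mul_left_cancel₀ hq0
    rw [← h10'] at h11'
    linear_combination -h11'
  apply dHom_eq_of_cast_eq
  rw [h3]
  push_cast
  rw [cast_c_eq_zero, zero_mul, sub_zero]

/-- `U_q x ≡ x` modulo `n L` (`q ∣ p`, `q ≡ 1` modulo `n`). -/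
theorem heckeUPar_sub_mem_pSub (hζ : IsPrimitiveRoot (g ^ nu p) (eisensteinNumerator p))
    (hx : expChar (g ^ nu p) (x : Additive (Gamma0 p) →+ ℤ) = shimuraChar p) {q : ℕ} [NeZero q]
    (hqp : q ∣ p) (hq1 : ((q : ℕ) : ZMod (eisensteinNumerator p)) = 1) :
    heckeUPar ℤ ℤ hqp x - x
      ∈ H66.pSub (eisensteinNumerator p) (parabolicHoms ℤ (Gamma0 p) ℤ) := by
  apply mem_pSub_of_cast_eq_zero
  intro γ
  have hop : heckeUHom ℤ hqp (x : Additive (Gamma0 p) →+ ℤ) (Additive.ofMul γ)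
      = ∑ i : ZMod q, (x : Additive (Gamma0 p) →+ ℤ)
          (Additive.ofMul ((heckeUDatum p q hqp).coc γ i)) := rfl
  rw [Submodule.coe_sub, AddMonoidHom.sub_apply, coe_heckeUPar_apply, Int.cast_sub, hop,
    Int.cast_sum]
  have hi : ∀ i ∈ (Finset.univ : Finset (ZMod q)),
      (((x : Additive (Gamma0 p) →+ ℤ) (Additive.ofMul ((heckeUDatum p q hqp).coc γ i)) : ℤ) :
        ZMod (eisensteinNumerator p))
      = (((x : Additive (Gamma0 p) →+ ℤ) (Additive.ofMul γ) : ℤ) :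
        ZMod (eisensteinNumerator p)) :=
    fun i _ => cast_eq_of_dHom_eq hζ hx (dHom_coc_heckeUDatum hqp γ i)
  rw [Finset.sum_congr rfl hi, Finset.sum_const, Finset.card_univ, ZMod.card, nsmul_eq_mul, hq1,
    one_mul, sub_self]

end Class

/-! ### the abstract ideal argument -/

section Abstract

variable {σ T0 T L : Type*} [CommRing T0] [CommRing T] [AddCommGroup L]
  (ρ : T0 →+* Module.End ℤ L) (F : MvPolynomial σ ℤ →+* T0) (eis : σ → ℤ) (P : Submodule ℤ L)
  (x : L)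

/-- if `x` is an eigenvector modulo `P` for the generators, it is one for the whole polynomial
algebra. -/
theorem abstract_congr (hP : ∀ (s : T0) (y : L), y ∈ P → ρ s y ∈ P)
    (hgen : ∀ ℓ : σ, ρ (F (MvPolynomial.X ℓ)) x - eis ℓ • x ∈ P) (t : MvPolynomial σ ℤ) :
    ρ (F t) x - (MvPolynomial.aeval eis t : ℤ) • x ∈ P := by
  induction t using MvPolynomial.induction_on with
  | C a =>
    have h1 : F (MvPolynomial.C a) = ((a : ℤ) : T0) := by
      rw [← MvPolynomial.algebraMap_eq, eq_intCast (algebraMap ℤ (MvPolynomial σ ℤ)) a,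
        map_intCast]
    rw [h1, map_intCast, Module.End.intCast_apply, MvPolynomial.aeval_C,
      eq_intCast (algebraMap ℤ ℤ) a, Int.cast_id, sub_self]
    exact zero_mem _
  | add s t hs ht =>
    have e : ρ (F (s + t)) x - (MvPolynomial.aeval eis (s + t) : ℤ) • x
        = (ρ (F s) x - (MvPolynomial.aeval eis s : ℤ) • x)
          + (ρ (F t) x - (MvPolynomial.aeval eis t : ℤ) • x) := by
      rw [map_add, map_add, LinearMap.add_apply, map_add, add_smul]
      abel
    rw [e]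
    exact add_mem hs ht
  | mul_X t ℓ ht =>
    have e : ρ (F (t * MvPolynomial.X ℓ)) x
        - (MvPolynomial.aeval eis (t * MvPolynomial.X ℓ) : ℤ) • x
        = ρ (F t) (ρ (F (MvPolynomial.X ℓ)) x - eis ℓ • x)
          + eis ℓ • (ρ (F t) x - (MvPolynomial.aeval eis t : ℤ) • x) := by
      rw [map_mul, map_mul, Module.End.mul_apply, map_mul, MvPolynomial.aeval_X, map_sub,
        map_smul, smul_sub, smul_smul, mul_comm]
      abel
    rw [e]
    exact add_mem (hP _ _ (hgen ℓ)) (Submodule.smul_mem _ _ ht)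

/-- the abstract lower bound: an integer in the image of the eigen-ideal maps `x` into `P`. -/
theorem abstract_smul_mem (π : T0 →+* T) (hπs : Function.Surjective π)
    (hπi : Function.Injective π) (hP : ∀ (s : T0) (y : L), y ∈ P → ρ s y ∈ P)
    (hgen : ∀ ℓ : σ, ρ (F (MvPolynomial.X ℓ)) x - eis ℓ • x ∈ P) (a : ℤ)
    (ha : ((a : ℤ) : T) ∈ Ideal.map (π.comp F) (RingHom.ker (MvPolynomial.aeval (R := ℤ) eis))) :
    a • x ∈ P := by
  let J : Ideal T0 :=
    { carrier := {t | ρ t x ∈ P}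
      add_mem' := fun {s t} hs ht => by
        show ρ (s + t) x ∈ P
        rw [map_add, LinearMap.add_apply]
        exact add_mem hs ht
      zero_mem' := by
        show ρ 0 x ∈ P
        rw [map_zero, LinearMap.zero_apply]
        exact zero_mem _
      smul_mem' := fun s t ht => by
        show ρ (s * t) x ∈ P
        rw [map_mul, Module.End.mul_apply]
        exact hP _ _ ht }
  have hJ : Ideal.map F (RingHom.ker (MvPolynomial.aeval (R := ℤ) eis)) ≤ J := by
    rw [Ideal.map_le_iff_le_comap]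
    intro t ht
    have h0 : MvPolynomial.aeval eis t = 0 := RingHom.mem_ker.mp ht
    have h1 := abstract_congr ρ F eis P x hP hgen t
    rw [h0, zero_smul, sub_zero] at h1
    exact h1
  rw [← Ideal.map_map] at ha
  obtain ⟨t, ht, hta⟩ := (Ideal.mem_map_iff_of_surjective π hπs).mp ha
  have hta' : t = ((a : ℤ) : T0) := by
    apply hπi
    rw [map_intCast]
    exact hta
  rw [hta'] at ht
  have h2 : ρ ((a : ℤ) : T0) x ∈ P := hJ ht
  rwa [map_intCast, Module.End.intCast_apply] at h2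

end Abstract

/-! ### the lower bound -/

section Final

variable (p : ℕ) [hp : Fact p.Prime]

/-- **The lower bound** `n ∣ #(𝕋 / I)` in the shape of the S16 interface: every integer in the
image of the Eisenstein ideal in `heckeLatticeAlgebra p ∅` is divisible by
`eisensteinNumerator p`. -/
theorem lower_bound (a : ℤ)
    (ha : ((a : ℤ) : ↥(heckeLatticeAlgebra p ∅)) ∈
      Ideal.map ((latticeRestrictHom p ∅).toRingHom.comp (heckeEvalForms p 2))
        (eisensteinIdeal p)) :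
    (eisensteinNumerator p : ℤ) ∣ a := by
  obtain ⟨g, x, hζ, hx⟩ := exists_shimuraClass p
  apply dvd_of_smul_mem_pSub hζ hx a
  refine abstract_smul_mem (cohHeckeRep p ∅) (heckeEvalForms p 2) (eisensteinSystem p)
    (H66.pSub (eisensteinNumerator p) (parabolicHoms ℤ (Gamma0 p) ℤ)) x
    (latticeRestrictHom p ∅).toRingHom (latticeRestrictHom_surjective p ∅)
    (latticeRestrictHom_bijective p ∅ (Fermat.Agent.S23.result p)).1
    (fun s y hy => H66.map_mem_pSub _ hy) ?_ a ha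
  intro ℓ
  by_cases h : (ℓ : ℕ) ∣ p
  · have hℓp : (ℓ : ℕ) = p := (Nat.prime_dvd_prime_iff_eq ℓ.2 hp.out).mp h
    have : NeZero (ℓ : ℕ) := ⟨ℓ.2.ne_zero⟩
    have h1 : heckeEvalForms p 2 (MvPolynomial.X ℓ)
        = heckeAlgebra.U ℓ.2 h (Set.notMem_empty _) := heckeEvalForms_heckeGen_of_dvd h
    rw [h1, cohHeckeRep_U ℓ.2 h (Set.notMem_empty _), eisensteinSystem_of_dvd h, one_smul]
    apply heckeUPar_sub_mem_pSub hζ hx h
    rw [hℓp]
    exact natCast_self_eq_one p
  · have h1 : heckeEvalForms p 2 (MvPolynomial.X ℓ)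
        = heckeAlgebra.T ℓ.2 h (Set.notMem_empty _) := heckeEvalForms_heckeGen_of_not_dvd h
    rw [h1, cohHeckeRep_T ℓ.2 h (Set.notMem_empty _), eisensteinSystem_of_not_dvd h]
    exact heckeTPar_sub_mem_pSub hζ hx ℓ.2 h

end Final

end Fermat.Agent.S16.H98
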