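/-
S16 / (L) in the shape of the FIXED backbone `H52.natCard_eq_of_L_forms` (coordination v1):
`hL : ∀ P : HeckeAlg, H52.rho p P = 0 → (eisensteinNumerator p : ℤ) ∣ H52.eps p P`,
and the frozen statement from `H52.UForms p (eisensteinNumerator p)` alone.
-/
import Mathlib
import Fermat.Agent.S16.H98_ShimuraClass
import Fermat.Agent.S16.H52_EisForm

set_option autoImplicit false

open ModularCurve CuspForm

namespace Fermat.Agent.S16.H98

variable (p : ℕ) [hp : Fact p.Prime]

/-- **(L)** in the shape of `H52.natCard_eq_of_L_forms` / `H52.natCard_eq_of_LU`. -/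
theorem hL_forms : ∀ P : HeckeAlg, H52.rho p P = 0 →
    ((eisensteinNumerator p : ℕ) : ℤ) ∣ H52.eps p P := by
  intro P hP
  have h : ((H52.eps p P : ℤ) : ↥(heckeLatticeAlgebra p ∅)) ∈ H52.eisT p :=
    (H52.intCast_mem_eisT_iff_exists p _).mpr ⟨P, hP, rfl⟩
  exact lower_bound p _ h

/-- `n ∣ #(𝕋 / I)` in the `H52.eisOrder` vocabulary. -/
theorem numerator_dvd_eisOrder : eisensteinNumerator p ∣ H52.eisOrder p := by
  have hm : (((H52.eisOrder p : ℕ) : ℤ) : ↥(heckeLatticeAlgebra p ∅)) ∈ H52.eisT p :=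
    (H52.intCast_mem_eisT_iff p _).mpr dvd_rfl
  exact Int.natCast_dvd_natCast.mp (lower_bound p _ hm)

/-- **S16 from (U) alone**, (U) in the `H52.UForms` shape of the backbone. -/
theorem frozen_of_UForms (hU : H52.UForms p (eisensteinNumerator p)) :
    Nat.card (↥(heckeLatticeAlgebra p ∅) ⧸
        Ideal.map ((latticeRestrictHom p ∅).toRingHom.comp (heckeEvalForms p 2))
          (eisensteinIdeal p)) =
      eisensteinNumerator p :=
  H52.natCard_eq_of_L_forms p (hL_forms p) hU

/-- **S16 from (U) alone**, (U) as `eisOrder p ∣ n`. -/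
theorem frozen_of_eisOrder_dvd (hU : H52.eisOrder p ∣ eisensteinNumerator p) :
    Nat.card (↥(heckeLatticeAlgebra p ∅) ⧸
        Ideal.map ((latticeRestrictHom p ∅).toRingHom.comp (heckeEvalForms p 2))
          (eisensteinIdeal p)) =
      eisensteinNumerator p :=
  H52.natCard_eq_of_LU p _ (hL_forms p) hU

end Fermat.Agent.S16.H98
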