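import Fermat.Statements.S16
import Fermat.Agent.S16.H39_Leaves
import Fermat.Agent.S16.H98_LowerH52
import Fermat.Agent.S16.H48_SmallLevel

/-!
# S16: final assembly, dry run in the `H39.ULeaf` shape (helper16)

The frozen statement S16 from the five arithmetic leaves in the shape of `H39.ULeaf`.  The lower
bound (`H98.hL_forms`), the duality/algebra backbone (`H39.natCard_of_leaves`) and the genus-zero
levels (`H48.result_of_small_or`) are unconditional; the leaves are only needed for
`p ∉ {2, 3, 5, 7, 13}`.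
-/

set_option autoImplicit false

open ModularCurve CuspForm CongruenceSubgroup ModularFormClass

namespace Fermat.Agent.S16.H16

/-- A prime outside `{2, 3, 5, 7, 13}` is at least `11`. -/
theorem eleven_le_of_not_mem {p : ℕ} (hp : p.Prime)
    (h : p ∉ ({2, 3, 5, 7, 13} : Finset ℕ)) : 11 ≤ p := by
  by_contra hge
  have hlt : p < 11 := Nat.lt_of_not_le hge
  simp only [Finset.mem_insert, Finset.mem_singleton, not_or] at h
  obtain ⟨h2, h3, h5, h7, -⟩ := h
  interval_cases p <;> first | omega | (exact absurd hp (by norm_num))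

/-- **S16 from the five `ULeaf` leaves.**  Each leaf is only needed for
`p ∉ {2, 3, 5, 7, 13}`. -/
theorem result_of_uLeaves (p : ℕ) [Fact p.Prime]
    (h5 : p ∉ ({2, 3, 5, 7, 13} : Finset ℕ) → ∀ l : ℕ, l.Prime → 5 ≤ l → H39.ULeaf p l 0)
    (h3a : p ∉ ({2, 3, 5, 7, 13} : Finset ℕ) → p % 3 = 1 → H39.ULeaf p 3 0)
    (h3b : p ∉ ({2, 3, 5, 7, 13} : Finset ℕ) → p % 3 = 2 → H39.ULeaf p 3 1)
    (h2a : p ∉ ({2, 3, 5, 7, 13} : Finset ℕ) → p % 4 = 1 → H39.ULeaf p 2 1)
    (h2b : p ∉ ({2, 3, 5, 7, 13} : Finset ℕ) → p % 4 = 3 → H39.ULeaf p 2 2) :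
    Nat.card (↥(heckeLatticeAlgebra p ∅) ⧸
        Ideal.map ((latticeRestrictHom p ∅).toRingHom.comp (heckeEvalForms p 2))
          (eisensteinIdeal p)) =
      eisensteinNumerator p :=
  H48.result_of_small_or fun hp =>
    H39.natCard_of_leaves p (le_trans (by norm_num) (eleven_le_of_not_mem Fact.out hp))
      (H98.hL_forms p) (h5 hp) (h3a hp) (h3b hp) (h2a hp) (h2b hp)

end Fermat.Agent.S16.H16
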