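import Mathlib
import Fermat.Agent.S16.H52_EisForm

/-!
# S16: arithmetic glue from the five leaf statements to `UForms` (helper52)

`Cong p f M` : the integral cusp form `f` is congruent to the Eisenstein series modulo `M`
(`a_k(f) ≡ σ'_p(k)` for all `k ≥ 1`).  The five leaves

* `(U5)`  `l ≥ 5`: `Cong p f (l^a) → l^a ∣ p - 1`;
* `(U3a)` `p ≡ 1 mod 3`: `Cong p f (3^a) → 3^(a+1) ∣ p - 1`;
* `(U3b)` `p ≡ 2 mod 3`: `¬ Cong p f 3`;
* `(U2a)` `p ≡ 1 mod 4`: `Cong p f (2^a) → 2^(a+2) ∣ p - 1`;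
* `(U2b)` `p ≡ 3 mod 4`: `¬ Cong p f 2`

give `UForms p (eisensteinNumerator p)`.
-/

set_option autoImplicit false

open ModularCurve CuspForm CongruenceSubgroup ModularFormClass

namespace Fermat.Agent.S16.H52

noncomputable section

/-- `f` has integral `q`-expansion and `a_k(f) ≡ σ'_p(k) mod M` for all `k ≥ 1`. -/
def Cong (p : ℕ) (f : CuspForm (Gamma0 p) 2) (M : ℕ) : Prop :=
  ∀ k : ℕ, ∃ z : ℤ, qCoeff f k = (z : ℂ) ∧ (1 ≤ k → ((M : ℕ) : ℤ) ∣ z - ((sigmaP p k : ℕ) : ℤ))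

theorem Cong.of_dvd {p : ℕ} {f : CuspForm (Gamma0 p) 2} {M M' : ℕ} (h : Cong p f M)
    (hM : M' ∣ M) : Cong p f M' := fun k => by
  obtain ⟨z, hz, hdvd⟩ := h k
  exact ⟨z, hz, fun hk => (Int.natCast_dvd_natCast.mpr hM).trans (hdvd hk)⟩

theorem uForms_iff (p : ℕ) (n : ℕ) :
    UForms p n ↔ ∀ l a : ℕ, l.Prime → 0 < a → ∀ f : CuspForm (Gamma0 p) 2,
      Cong p f (l ^ a) → l ^ a ∣ n := by
  constructor
  · intro h l a hl ha f hf
    exact h l a hl ha ⟨f, hf⟩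
  · rintro h l a hl ha ⟨f, hf⟩
    exact h l a hl ha f hf

/-! ### Arithmetic of `n = (p-1)/gcd(p-1,12)` -/

theorem eisensteinNumerator_mul_gcd (p : ℕ) :
    eisensteinNumerator p * Nat.gcd (p - 1) 12 = p - 1 :=
  Nat.div_mul_cancel (Nat.gcd_dvd_left _ _)

/-- `l ≥ 5`: `l^a ∣ p - 1 → l^a ∣ n`. -/
theorem pow_dvd_numerator_of_ge_five {p l a : ℕ} (hl : l.Prime) (hl5 : 5 ≤ l)
    (h : l ^ a ∣ p - 1) : l ^ a ∣ eisensteinNumerator p := by
  rw [← eisensteinNumerator_mul_gcd p] at h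
  have hcop12 : Nat.Coprime l 12 := by
    rw [Nat.Prime.coprime_iff_not_dvd hl]
    intro h12
    have : l ∣ 2 ^ 2 * 3 := by norm_num; exact h12
    rcases (Nat.Prime.dvd_mul hl).mp this with h2 | h3
    · have := (Nat.prime_dvd_prime_iff_eq hl Nat.prime_two).mp (hl.dvd_of_dvd_pow h2)
      omega
    · have := (Nat.prime_dvd_prime_iff_eq hl Nat.prime_three).mp h3
      omega
  have hcop : Nat.Coprime (l ^ a) (Nat.gcd (p - 1) 12) :=
    Nat.Coprime.coprime_dvd_right (Nat.gcd_dvd_right _ _) (hcop12.pow_left a)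
  exact hcop.dvd_of_dvd_mul_right h

/-- `l = 3`, `3 ∣ p - 1`: `3^(a+1) ∣ p - 1 → 3^a ∣ n`. -/
theorem three_pow_dvd_numerator {p a : ℕ} (h3 : 3 ∣ p - 1) (h : 3 ^ (a + 1) ∣ p - 1) :
    3 ^ a ∣ eisensteinNumerator p := by
  set g := Nat.gcd (p - 1) 12 with hg
  have hg3 : 3 ∣ g := Nat.dvd_gcd h3 (by norm_num)
  obtain ⟨g', hg'⟩ := hg3
  have hg'4 : g' ∣ 4 := by
    have h12 : g ∣ 12 := Nat.gcd_dvd_right _ _
    rw [hg'] at h12
    have : 3 * g' ∣ 3 * 4 := by norm_num; exact h12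
    exact Nat.dvd_of_mul_dvd_mul_left (by norm_num) this
  rw [← eisensteinNumerator_mul_gcd p, ← hg, hg', pow_succ] at h
  have h' : 3 ^ a * 3 ∣ (eisensteinNumerator p * g') * 3 := by
    have : eisensteinNumerator p * (3 * g') = (eisensteinNumerator p * g') * 3 := by ring
    rwa [this] at h
  have h'' : 3 ^ a ∣ eisensteinNumerator p * g' := Nat.dvd_of_mul_dvd_mul_right (by norm_num) h'
  have hcop : Nat.Coprime (3 ^ a) g' := by
    apply Nat.Coprime.coprime_dvd_right hg'4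
    exact Nat.Coprime.pow_left a (by norm_num)
  exact hcop.dvd_of_dvd_mul_right h''

/-- `l = 2`, `4 ∣ p - 1`: `2^(a+2) ∣ p - 1 → 2^a ∣ n`. -/
theorem two_pow_dvd_numerator {p a : ℕ} (h4 : 4 ∣ p - 1) (h : 2 ^ (a + 2) ∣ p - 1) :
    2 ^ a ∣ eisensteinNumerator p := by
  set g := Nat.gcd (p - 1) 12 with hg
  have hg4 : 4 ∣ g := Nat.dvd_gcd h4 (by norm_num)
  obtain ⟨g', hg'⟩ := hg4
  have hg'3 : g' ∣ 3 := by
    have h12 : g ∣ 12 := Nat.gcd_dvd_right _ _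
    rw [hg'] at h12
    have : 4 * g' ∣ 4 * 3 := by norm_num; exact h12
    exact Nat.dvd_of_mul_dvd_mul_left (by norm_num) this
  rw [← eisensteinNumerator_mul_gcd p, ← hg, hg', pow_add] at h
  have h' : 2 ^ a * 4 ∣ (eisensteinNumerator p * g') * 4 := by
    have : eisensteinNumerator p * (4 * g') = (eisensteinNumerator p * g') * 4 := by ring
    rw [this] at h
    norm_num at h ⊢
    exact h
  have h'' : 2 ^ a ∣ eisensteinNumerator p * g' := Nat.dvd_of_mul_dvd_mul_right (by norm_num) h'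
  have hcop : Nat.Coprime (2 ^ a) g' := by
    apply Nat.Coprime.coprime_dvd_right hg'3
    exact Nat.Coprime.pow_left a (by norm_num)
  exact hcop.dvd_of_dvd_mul_right h''

/-! ### The glue -/

/-- **`UForms` from the five leaves.** -/
theorem uForms_of_leaves (p : ℕ) (hp : p.Prime) (hp2 : p ≠ 2) (hp3 : p ≠ 3)
    (h5 : ∀ l a : ℕ, l.Prime → 5 ≤ l → 0 < a → ∀ f : CuspForm (Gamma0 p) 2,
      Cong p f (l ^ a) → l ^ a ∣ p - 1)
    (h3a : p % 3 = 1 → ∀ a : ℕ, 0 < a → ∀ f : CuspForm (Gamma0 p) 2,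
      Cong p f (3 ^ a) → 3 ^ (a + 1) ∣ p - 1)
    (h3b : p % 3 = 2 → ∀ f : CuspForm (Gamma0 p) 2, ¬ Cong p f 3)
    (h2a : p % 4 = 1 → ∀ a : ℕ, 0 < a → ∀ f : CuspForm (Gamma0 p) 2,
      Cong p f (2 ^ a) → 2 ^ (a + 2) ∣ p - 1)
    (h2b : p % 4 = 3 → ∀ f : CuspForm (Gamma0 p) 2, ¬ Cong p f 2) :
    UForms p (eisensteinNumerator p) := by
  rw [uForms_iff]
  intro l a hl ha f hf
  have hp1 : 1 ≤ p := hp.one_lt.le
  rcases Nat.lt_or_ge l 5 with hlt | hge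
  · -- l ∈ {2, 3}
    have hl23 : l = 2 ∨ l = 3 := by
      have h2 := hl.two_le
      interval_cases l
      · left; rfl
      · right; rfl
      · exact absurd hl (by norm_num)
    rcases hl23 with rfl | rfl
    · -- l = 2
      have hodd : p % 2 = 1 := by
        rcases hp.eq_two_or_odd with h | h
        · exact absurd h hp2
        · exact h
      have h4 : p % 4 = 1 ∨ p % 4 = 3 := by omega
      rcases h4 with h4 | h4
      · have hdiv : 4 ∣ p - 1 := by omega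
        exact two_pow_dvd_numerator hdiv (h2a h4 a ha f hf)
      · exact absurd (hf.of_dvd (dvd_pow_self 2 ha.ne')) (h2b h4 f)
    · -- l = 3
      have h3 : p % 3 = 1 ∨ p % 3 = 2 := by
        have : p % 3 ≠ 0 := by
          intro h0
          have : 3 ∣ p := Nat.dvd_of_mod_eq_zero h0
          exact hp3 ((Nat.prime_dvd_prime_iff_eq Nat.prime_three hp).mp this).symm
        omega
      rcases h3 with h3 | h3
      · have hdiv : 3 ∣ p - 1 := by omega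
        exact three_pow_dvd_numerator hdiv (h3a h3 a ha f hf)
      · exact absurd (hf.of_dvd (dvd_pow_self 3 ha.ne')) (h3b h3 f)
  · exact pow_dvd_numerator_of_ge_five hl hge (h5 l a hl hge ha f hf)

/-- Bridge for `(L)` stated on integers in the ideal (helper98 / helper94 shape). -/
theorem hL_of_intCast (p : ℕ) [Fact p.Prime] (n : ℕ)
    (h : ∀ a : ℤ, ((a : ℤ) : ↥(heckeLatticeAlgebra p ∅)) ∈
      Ideal.map ((latticeRestrictHom p ∅).toRingHom.comp (heckeEvalForms p 2))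
        (eisensteinIdeal p) → (n : ℤ) ∣ a) :
    ∀ P : HeckeAlg, rho p P = 0 → (n : ℤ) ∣ eps p P := by
  intro P hP
  apply h
  exact (intCast_mem_eisT_iff_exists p (eps p P)).mpr ⟨P, hP, rfl⟩

/-- **S16 from `(L)` and the five leaves** (for `p ∉ {2, 3}`). -/
theorem natCard_eq_of_L_leaves (p : ℕ) [Fact p.Prime] (hp2 : p ≠ 2) (hp3 : p ≠ 3)
    (hL : ∀ a : ℤ, ((a : ℤ) : ↥(heckeLatticeAlgebra p ∅)) ∈
      Ideal.map ((latticeRestrictHom p ∅).toRingHom.comp (heckeEvalForms p 2))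
        (eisensteinIdeal p) → ((eisensteinNumerator p : ℕ) : ℤ) ∣ a)
    (h5 : ∀ l a : ℕ, l.Prime → 5 ≤ l → 0 < a → ∀ f : CuspForm (Gamma0 p) 2,
      Cong p f (l ^ a) → l ^ a ∣ p - 1)
    (h3a : p % 3 = 1 → ∀ a : ℕ, 0 < a → ∀ f : CuspForm (Gamma0 p) 2,
      Cong p f (3 ^ a) → 3 ^ (a + 1) ∣ p - 1)
    (h3b : p % 3 = 2 → ∀ f : CuspForm (Gamma0 p) 2, ¬ Cong p f 3)
    (h2a : p % 4 = 1 → ∀ a : ℕ, 0 < a → ∀ f : CuspForm (Gamma0 p) 2,
      Cong p f (2 ^ a) → 2 ^ (a + 2) ∣ p - 1)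
    (h2b : p % 4 = 3 → ∀ f : CuspForm (Gamma0 p) 2, ¬ Cong p f 2) :
    Nat.card (↥(heckeLatticeAlgebra p ∅) ⧸
        Ideal.map ((latticeRestrictHom p ∅).toRingHom.comp (heckeEvalForms p 2))
          (eisensteinIdeal p)) = eisensteinNumerator p :=
  natCard_eq_of_L_forms p (hL_of_intCast p _ hL)
    (uForms_of_leaves p Fact.out hp2 hp3 h5 h3a h3b h2a h2b)

end

end Fermat.Agent.S16.H52
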