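import Mathlib

/-!
# The discriminant modulo 3: `Δ = S - S³` in `𝔽₃⟦q⟧`

Let `S = ∑ σ(k) q^k`, `D = q d/dq`, `P = 1 - 24 S`.  The two Ramanujan identities
`12 DP = P² - Q` and `3 DQ = PQ - R` give, identically,
`Q³ - R² = 1728 * deltaPoly S`, where `deltaPoly S = D²S + 36 * (…)` is an explicit polynomial with
integer coefficients in `S`, `DS`, `D²S`.  Hence the `q`-expansion of the discriminant is congruent to
`D²S` modulo `36`, and modulo `3` one gets the Artin–Schreier relation `Δ = S - S³`.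
-/

set_option autoImplicit false

namespace Fermat.Agent.S16.H12

open PowerSeries

section qD

variable {R : Type*} [CommRing R]

/-- The derivation `q d/dq` on formal power series. -/
noncomputable def qD (f : R⟦X⟧) : R⟦X⟧ := X * d⁄dX R f

theorem coeff_qD (f : R⟦X⟧) (n : ℕ) : coeff n (qD f) = (n : R) * coeff n f := by
  unfold qD
  cases n with
  | zero => simp
  | succ m =>
    rw [coeff_succ_X_mul, coeff_derivative]
    push_cast
    ring

theorem qD_add (f g : R⟦X⟧) : qD (f + g) = qD f + qD g := by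
  unfold qD; rw [map_add, mul_add]

theorem qD_sub (f g : R⟦X⟧) : qD (f - g) = qD f - qD g := by
  unfold qD; rw [map_sub, mul_sub]

theorem qD_mul (f g : R⟦X⟧) : qD (f * g) = f * qD g + g * qD f := by
  unfold qD
  rw [Derivation.leibniz, smul_eq_mul, smul_eq_mul]
  ring

theorem qD_one : qD (1 : R⟦X⟧) = 0 := by
  unfold qD; rw [derivative_one, mul_zero]

theorem qD_natCast (n : ℕ) : qD ((n : R⟦X⟧)) = 0 := by
  unfold qD; rw [Derivation.map_natCast, mul_zero]

theorem qD_natCast_mul (n : ℕ) (f : R⟦X⟧) : qD ((n : R⟦X⟧) * f) = (n : R⟦X⟧) * qD f := by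
  rw [qD_mul, qD_natCast, mul_zero, add_zero]

theorem qD_ofNat_mul (n : ℕ) [n.AtLeastTwo] (f : R⟦X⟧) :
    qD ((OfNat.ofNat n : R⟦X⟧) * f) = (OfNat.ofNat n : R⟦X⟧) * qD f := by
  have h : (OfNat.ofNat n : R⟦X⟧) = ((n : ℕ) : R⟦X⟧) := (Nat.cast_ofNat (R := R⟦X⟧) (n := n)).symm
  rw [h]
  exact qD_natCast_mul n f

theorem map_qD {S : Type*} [CommRing S] (φ : R →+* S) (f : R⟦X⟧) :
    (qD f).map φ = qD (f.map φ) := by
  ext n
  rw [coeff_map, coeff_qD, coeff_qD, coeff_map, map_mul, map_natCast]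

/-- The explicit integer polynomial in `S`, `DS`, `D²S` giving the discriminant. -/
noncomputable def deltaPoly (S : R⟦X⟧) : R⟦X⟧ :=
  qD (qD S) + 36 * (qD S) ^ 2 - 72 * S * qD (qD S) - 432 * (qD (qD S)) ^ 2
    + 432 * qD S * qD (qD S) + 13824 * (qD S) ^ 3 - 10368 * S * qD S * qD (qD S)
    - 1728 * S * (qD S) ^ 2 + 1728 * S ^ 2 * qD (qD S) + 20736 * S ^ 2 * (qD S) ^ 2
    - 13824 * S ^ 3 * qD (qD S)

/-- The part of `deltaPoly` divisible by `36`. -/
noncomputable def deltaRest (S : R⟦X⟧) : R⟦X⟧ :=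
  (qD S) ^ 2 - 2 * S * qD (qD S) - 12 * (qD (qD S)) ^ 2
    + 12 * qD S * qD (qD S) + 384 * (qD S) ^ 3 - 288 * S * qD S * qD (qD S)
    - 48 * S * (qD S) ^ 2 + 48 * S ^ 2 * qD (qD S) + 576 * S ^ 2 * (qD S) ^ 2
    - 384 * S ^ 3 * qD (qD S)

theorem deltaPoly_eq (S : R⟦X⟧) : deltaPoly S = qD (qD S) + 36 * deltaRest S := by
  unfold deltaPoly deltaRest; ring

/-- **The discriminant as a polynomial in `S`, `DS`, `D²S`.** From the two Ramanujan identities
`12 DP = P² - Q`, `3 DQ = PQ - R` with `P = 1 - 24 S`. -/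
theorem cube_sub_sq_eq (S P Q T : R⟦X⟧) (hP : P = 1 - 24 * S)
    (h1 : 12 * qD P = P ^ 2 - Q) (h2 : 3 * qD Q = P * Q - T) :
    Q ^ 3 - T ^ 2 = 1728 * deltaPoly S := by
  have hDP : qD P = -(24 * qD S) := by
    rw [hP, qD_sub, qD_one, qD_ofNat_mul, zero_sub]
  have hQ : Q = P ^ 2 + 288 * qD S := by
    have : Q = P ^ 2 - 12 * qD P := by rw [h1]; ring
    rw [this, hDP]; ring
  have hDQ : qD Q = -(48 * (P * qD S)) + 288 * qD (qD S) := by
    rw [hQ, qD_add, qD_ofNat_mul, pow_two, qD_mul, hDP]; ring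
  have hT : T = P * Q - 3 * qD Q := by rw [h2]; ring
  rw [hT, hDQ, hQ, hP]
  unfold deltaPoly
  ring

end qD

section Sigma

open ArithmeticFunction

/-- The series `∑ σ_j(k) q^k` with integer coefficients. -/
noncomputable def sigmaSeries (j : ℕ) : ℤ⟦X⟧ := PowerSeries.mk fun k => (sigma j k : ℤ)

@[simp] theorem coeff_sigmaSeries (j k : ℕ) : coeff k (sigmaSeries j) = (sigma j k : ℤ) := by
  simp [sigmaSeries]

/-- `σ(3j) ≡ σ(j) mod 3`. -/
theorem sigma_three_mul_mod_three (j : ℕ) : ((sigma 1 (3 * j) : ℕ) : ZMod 3) = (sigma 1 j : ℕ) := by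
  rcases Nat.eq_zero_or_pos j with rfl | hj
  · simp
  have hsub : Nat.divisors j ⊆ Nat.divisors (3 * j) :=
    Nat.divisors_subset_of_dvd (by omega) (Dvd.intro_left 3 rfl)
  rw [sigma_one_apply, sigma_one_apply, ← Finset.sum_sdiff hsub, Nat.cast_add]
  have hzero : ((∑ d ∈ Nat.divisors (3 * j) \ Nat.divisors j, d : ℕ) : ZMod 3) = 0 := by
    rw [Nat.cast_sum]
    refine Finset.sum_eq_zero fun d hd => ?_
    rw [Finset.mem_sdiff, Nat.mem_divisors, Nat.mem_divisors] at hd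
    obtain ⟨⟨hd1, -⟩, hd2⟩ := hd
    have h3 : 3 ∣ d := by
      by_contra h3
      have hcop : Nat.Coprime d 3 := ((Nat.Prime.coprime_iff_not_dvd Nat.prime_three).mpr h3).symm
      exact hd2 ⟨hcop.dvd_of_dvd_mul_left hd1, hj.ne'⟩
    exact (ZMod.natCast_eq_zero_iff d 3).mpr h3
  rw [hzero, zero_add]

/-- `k² σ(k) ≡ σ(k) - [3 ∣ k] σ(k/3) mod 3`. -/
theorem sq_mul_sigma_mod_three (k : ℕ) :
    ((k : ZMod 3) ^ 2 * ((sigma 1 k : ℕ) : ZMod 3)) =
      ((sigma 1 k : ℕ) : ZMod 3) - if 3 ∣ k then ((sigma 1 (k / 3) : ℕ) : ZMod 3) else 0 := by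
  split_ifs with h
  · obtain ⟨j, rfl⟩ := h
    rw [Nat.mul_div_cancel_left j (by norm_num : 0 < 3), sigma_three_mul_mod_three, sub_self]
    have : ((3 * j : ℕ) : ZMod 3) = 0 := by
      rw [ZMod.natCast_eq_zero_iff]; exact Dvd.intro j rfl
    rw [this]; ring
  · rw [sub_zero]
    have hk : (k : ZMod 3) ≠ 0 := by
      rw [Ne, ZMod.natCast_eq_zero_iff]; exact h
    have hsq : (k : ZMod 3) ^ 2 = 1 := by
      have := ZMod.pow_card_sub_one_eq_one hk
      simpa using this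
    rw [hsq, one_mul]

end Sigma

section Frobenius

/-- The cube of a power series over `𝔽₃` is its `3`-expansion. -/
theorem pow_three_eq_expand (f : (ZMod 3)⟦X⟧) :
    f ^ 3 = PowerSeries.expand 3 (by norm_num) f := by
  ext n
  have h1 : coeff n (f ^ 3) = coeff n (((trunc (n + 1) f : Polynomial (ZMod 3)) : (ZMod 3)⟦X⟧) ^ 3) := by
    rw [← coeff_coe_trunc_of_lt (Nat.lt_succ_self n) (f := f ^ 3), ← trunc_trunc_pow,
      coeff_coe_trunc_of_lt (Nat.lt_succ_self n)]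
  have : Fact (Nat.Prime 3) := ⟨Nat.prime_three⟩
  rw [h1, ← Polynomial.coe_pow, ← ZMod.expand_card, Polynomial.coeff_coe, Polynomial.coeff_expand
    (by norm_num : 0 < 3), PowerSeries.coeff_expand]
  split_ifs with h
  · rw [coeff_trunc, if_pos]
    exact lt_of_le_of_lt (Nat.div_le_self n 3) (Nat.lt_succ_self n)
  · rfl

end Frobenius

section Main

open ArithmeticFunction

/-- `D²S ≡ S - S³ mod 3` for `S = ∑ σ(k) q^k`. -/
theorem map_qD_qD_sigmaSeries :
    (qD (qD (sigmaSeries 1))).map (Int.castRingHom (ZMod 3)) =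
      (sigmaSeries 1).map (Int.castRingHom (ZMod 3)) -
        ((sigmaSeries 1).map (Int.castRingHom (ZMod 3))) ^ 3 := by
  ext k
  rw [pow_three_eq_expand, map_sub, coeff_map, coeff_qD, coeff_qD, PowerSeries.coeff_expand,
    coeff_map, coeff_sigmaSeries]
  have h := sq_mul_sigma_mod_three k
  simp only [map_mul, map_natCast]
  rw [← mul_assoc, ← pow_two, h]
  congr 1
  split_ifs with h3
  · rw [coeff_map, coeff_sigmaSeries]; simp
  · rfl

/-- **The Artin–Schreier relation.** The integral `q`-series `deltaPoly S` (`= Δ`, see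
`cube_sub_sq_eq`) reduces modulo `3` to `S - S³`. -/
theorem map_deltaPoly_sigmaSeries :
    (deltaPoly (sigmaSeries 1)).map (Int.castRingHom (ZMod 3)) =
      (sigmaSeries 1).map (Int.castRingHom (ZMod 3)) -
        ((sigmaSeries 1).map (Int.castRingHom (ZMod 3))) ^ 3 := by
  rw [deltaPoly_eq, map_add, map_mul, map_qD_qD_sigmaSeries]
  have h36 : (36 : ℤ⟦X⟧).map (Int.castRingHom (ZMod 3)) = 0 := by
    have : (36 : ℤ⟦X⟧) = C (36 : ℤ) := by simp
    rw [this, map_C]
    have : (Int.castRingHom (ZMod 3)) 36 = 0 := by decide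
    rw [this, _root_.map_zero]
  rw [h36, zero_mul, add_zero]

/-- The same in any commutative ring of characteristic `3`. -/
theorem map_deltaPoly_sigmaSeries_of_charP (k : Type*) [CommRing k] [CharP k 3] :
    (deltaPoly (sigmaSeries 1)).map (Int.castRingHom k) =
      (sigmaSeries 1).map (Int.castRingHom k) - ((sigmaSeries 1).map (Int.castRingHom k)) ^ 3 := by
  have hφ : Int.castRingHom k = (ZMod.castHom (dvd_refl 3) k).comp (Int.castRingHom (ZMod 3)) :=
    RingHom.ext_int _ _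
  have hmap : ∀ f : ℤ⟦X⟧, f.map (Int.castRingHom k) =
      (f.map (Int.castRingHom (ZMod 3))).map (ZMod.castHom (dvd_refl 3) k) := by
    intro f
    ext n
    rw [coeff_map, coeff_map, coeff_map, hφ, RingHom.comp_apply]
  rw [hmap (deltaPoly (sigmaSeries 1)), hmap (sigmaSeries 1), map_deltaPoly_sigmaSeries, map_sub,
    map_pow]

/-- The integral `q`-expansions of `E₂`, `E₄`, `E₆`. -/
noncomputable def eisP : ℤ⟦X⟧ := 1 - 24 * sigmaSeries 1

/-- The integral `q`-expansion of `E₄`. -/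
noncomputable def eisQ : ℤ⟦X⟧ := 1 + 240 * sigmaSeries 3

/-- The integral `q`-expansion of `E₆`. -/
noncomputable def eisR : ℤ⟦X⟧ := 1 - 504 * sigmaSeries 5

/-- From the two formal Ramanujan identities, `E₄³ - E₆² = 1728 Δ` with `Δ = deltaPoly S`. -/
theorem eisQ_cube_sub_eisR_sq (h1 : 12 * qD eisP = eisP ^ 2 - eisQ)
    (h2 : 3 * qD eisQ = eisP * eisQ - eisR) :
    eisQ ^ 3 - eisR ^ 2 = 1728 * deltaPoly (sigmaSeries 1) :=
  cube_sub_sq_eq (sigmaSeries 1) eisP eisQ eisR rfl h1 h2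

/-- Uniqueness: any integral series `Δ` with `1728 Δ = E₄³ - E₆²` is `deltaPoly S`, hence reduces
to `S - S³` modulo `3`. -/
theorem map_eq_of_mul_eq (h1 : 12 * qD eisP = eisP ^ 2 - eisQ)
    (h2 : 3 * qD eisQ = eisP * eisQ - eisR) (Δ : ℤ⟦X⟧) (hΔ : 1728 * Δ = eisQ ^ 3 - eisR ^ 2)
    (k : Type*) [CommRing k] [CharP k 3] :
    Δ.map (Int.castRingHom k) =
      (sigmaSeries 1).map (Int.castRingHom k) - ((sigmaSeries 1).map (Int.castRingHom k)) ^ 3 := by
  have h : (1728 : ℤ⟦X⟧) * Δ = 1728 * deltaPoly (sigmaSeries 1) := by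
    rw [hΔ, eisQ_cube_sub_eisR_sq h1 h2]
  have hΔ' : Δ = deltaPoly (sigmaSeries 1) := by
    ext n
    have hn := congrArg (coeff n) h
    have h1728 : (1728 : ℤ⟦X⟧) = C (1728 : ℤ) := by simp
    rw [h1728, coeff_C_mul, coeff_C_mul] at hn
    exact mul_left_cancel₀ (by norm_num) hn
  rw [hΔ', map_deltaPoly_sigmaSeries_of_charP]

end Main

end Fermat.Agent.S16.H12
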