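import Mathlib

set_option autoImplicit false

/-!
# S16 / (U5a) Swinnerton-Dyer, part (4): the q-expansion map on isobaric polynomials

`helper95`.  `MvPolynomial (Fin 2) R` with weights `wt = ![4, 6]` (`X 0 = Q = E₄`, `X 1 = R = E₆`),
`e4Z`, `e6Z : ℤ⟦X⟧` the q-series of `E₄`, `E₆`, `ev R : MvPolynomial (Fin 2) R →ₐ[R] R⟦X⟧`.

* `exists_eq_add_disc_mul` : an isobaric `P` of weight `k` is
  `C (P(1,1)) * mono k + (X^3 - Y^2) * G`, `G` isobaric of weight `k - 12`;
* `ev_injective_of_isobaric` : over a field with `6 ≠ 0`, `ev` is injective on isobaric polynomials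
  of a given weight.
-/

noncomputable section

namespace Fermat.Agent.S16.H95

open MvPolynomial

/-- weights of `Q = E₄`, `R = E₆`. -/
def wt : Fin 2 → ℕ := ![4, 6]

/-- the q-series of `E₄` over `ℤ`. -/
def e4Z : PowerSeries ℤ :=
  PowerSeries.mk fun n => if n = 0 then 1 else 240 * (ArithmeticFunction.sigma 3 n : ℤ)

/-- the q-series of `E₆` over `ℤ`. -/
def e6Z : PowerSeries ℤ :=
  PowerSeries.mk fun n => if n = 0 then 1 else -504 * (ArithmeticFunction.sigma 5 n : ℤ)

section Ev

variable (R : Type*) [CommRing R]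

/-- the q-series of `E₄` over `R`. -/
def e4 : PowerSeries R := e4Z.map (Int.castRingHom R)

/-- the q-series of `E₆` over `R`. -/
def e6 : PowerSeries R := e6Z.map (Int.castRingHom R)

/-- the q-expansion map `P ↦ P(E₄, E₆)`. -/
def ev : MvPolynomial (Fin 2) R →ₐ[R] PowerSeries R := MvPolynomial.aeval ![e4 R, e6 R]

@[simp] theorem ev_X0 : ev R (X 0) = e4 R := by simp [ev]
@[simp] theorem ev_X1 : ev R (X 1) = e6 R := by simp [ev]
@[simp] theorem ev_C (c : R) : ev R (C c) = PowerSeries.C c := by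
  simp [ev]

@[simp] theorem constantCoeff_e4 : PowerSeries.constantCoeff (e4 R) = 1 := by
  simp [e4, e4Z, ← PowerSeries.coeff_zero_eq_constantCoeff_apply]

@[simp] theorem constantCoeff_e6 : PowerSeries.constantCoeff (e6 R) = 1 := by
  simp [e6, e6Z, ← PowerSeries.coeff_zero_eq_constantCoeff_apply]

@[simp] theorem coeff_one_e4 : PowerSeries.coeff 1 (e4 R) = 240 := by
  simp [e4, e4Z]

@[simp] theorem coeff_one_e6 : PowerSeries.coeff 1 (e6 R) = -504 := by
  simp [e6, e6Z]

end Ev

section Division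

variable (R : Type*) [CommRing R]

/-- the discriminant polynomial `Q³ - R²` (`= 1728 Δ`). -/
def disc : MvPolynomial (Fin 2) R := X 0 ^ 3 - X 1 ^ 2

/-- the distinguished monomial of weight `k` (`Q^a R^b` with `b ∈ {0, 1}`). -/
def mono (k : ℕ) : MvPolynomial (Fin 2) R :=
  X 0 ^ ((k - 6 * ((k / 2) % 2)) / 4) * X 1 ^ ((k / 2) % 2)

variable {R}

theorem isWeightedHomogeneous_X0 : (X 0 : MvPolynomial (Fin 2) R).IsWeightedHomogeneous wt 4 :=
  isWeightedHomogeneous_X R wt 0

theorem isWeightedHomogeneous_X1 : (X 1 : MvPolynomial (Fin 2) R).IsWeightedHomogeneous wt 6 :=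
  isWeightedHomogeneous_X R wt 1

theorem isWeightedHomogeneous_disc : (disc R).IsWeightedHomogeneous wt 12 := by
  unfold disc
  exact (isWeightedHomogeneous_X0.pow 3).sub (isWeightedHomogeneous_X1.pow 2)

theorem isWeightedHomogeneous_mono {k : ℕ} (hk : ∃ a b : ℕ, 4 * a + 6 * b = k) :
    (mono R k).IsWeightedHomogeneous wt k := by
  obtain ⟨a, b, rfl⟩ := hk
  unfold mono
  have e1 : ((4 * a + 6 * b) / 2) % 2 = b % 2 := by omega
  have e2 : (4 * a + 6 * b - 6 * (b % 2)) / 4 = a + 3 * (b / 2) := by omega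
  rw [e1, e2]
  have h := (isWeightedHomogeneous_X0 (R := R)).pow (a + 3 * (b / 2)) |>.mul
    ((isWeightedHomogeneous_X1 (R := R)).pow (b % 2))
  convert h using 1
  simp only [smul_eq_mul]
  omega

/-- the geometric-sum cofactor. -/
def geomCof (R : Type*) [CommRing R] (a b : ℕ) : MvPolynomial (Fin 2) R :=
  X 0 ^ a * X 1 ^ (b % 2) *
    ∑ i ∈ Finset.range (b / 2), (X 1 ^ 2) ^ i * (X 0 ^ 3) ^ (b / 2 - 1 - i)

theorem isWeightedHomogeneous_geomCof (a b : ℕ) :
    (geomCof R a b).IsWeightedHomogeneous wt (4 * a + 6 * b - 12) := by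
  unfold geomCof
  rcases Nat.eq_zero_or_pos (b / 2) with h0 | hpos
  · rw [h0]; simp only [Finset.range_zero, Finset.sum_empty, mul_zero]
    exact isWeightedHomogeneous_zero R wt _
  · have hsum : (∑ i ∈ Finset.range (b / 2), (X 1 ^ 2) ^ i * (X 0 ^ 3) ^ (b / 2 - 1 - i) :
        MvPolynomial (Fin 2) R).IsWeightedHomogeneous wt (12 * (b / 2 - 1)) := by
      apply IsWeightedHomogeneous.sum
      intro i hi
      have hi' := Finset.mem_range.mp hi
      have h := ((isWeightedHomogeneous_X1 (R := R)).pow 2 |>.pow i).mul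
        ((isWeightedHomogeneous_X0 (R := R)).pow 3 |>.pow (b / 2 - 1 - i))
      convert h using 1
      simp only [smul_eq_mul]
      omega
    have h := ((isWeightedHomogeneous_X0 (R := R)).pow a).mul
      ((isWeightedHomogeneous_X1 (R := R)).pow (b % 2)) |>.mul hsum
    convert h using 1
    simp only [smul_eq_mul]
    omega

theorem monomial_eq_mono_sub (a b : ℕ) :
    (X 0 ^ a * X 1 ^ b : MvPolynomial (Fin 2) R) =
      mono R (4 * a + 6 * b) - disc R * geomCof R a b := by
  have h := geom_sum₂_mul (X 1 ^ 2 : MvPolynomial (Fin 2) R) (X 0 ^ 3) (b / 2)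
  have hb : (X 1 : MvPolynomial (Fin 2) R) ^ b = X 1 ^ (b % 2) * (X 1 ^ 2) ^ (b / 2) := by
    rw [← pow_mul, ← pow_add, Nat.mod_add_div]
  have e1 : ((4 * a + 6 * b) / 2) % 2 = b % 2 := by omega
  have e2 : (4 * a + 6 * b - 6 * (b % 2)) / 4 = a + 3 * (b / 2) := by omega
  have ha : (X 0 : MvPolynomial (Fin 2) R) ^ (a + 3 * (b / 2)) = X 0 ^ a * (X 0 ^ 3) ^ (b / 2) := by
    rw [← pow_mul, ← pow_add]
  unfold mono disc geomCof
  rw [e1, e2, ha, hb]
  linear_combination (-(X 0 ^ a * X 1 ^ (b % 2)) : MvPolynomial (Fin 2) R) * h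

end Division

section Decomp

variable (R : Type*) [CommRing R]

/-- evaluation at `Q = R = 1` (the constant term of the q-expansion). -/
def evalOne : MvPolynomial (Fin 2) R →ₐ[R] R := MvPolynomial.aeval (fun _ => (1 : R))

variable {R}

theorem monomial_eq_C_mul (d : Fin 2 →₀ ℕ) (r : R) :
    (monomial d r : MvPolynomial (Fin 2) R) = C r * (X 0 ^ d 0 * X 1 ^ d 1) := by
  rw [monomial_eq, Finsupp.prod_fintype _ _ (fun i => by simp), Fin.prod_univ_two]

theorem weight_eq (d : Fin 2 →₀ ℕ) : Finsupp.weight wt d = 4 * d 0 + 6 * d 1 := by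
  rw [Finsupp.weight_eq_sum, Fin.sum_univ_two]
  simp [wt, mul_comm]

theorem evalOne_monomial (d : Fin 2 →₀ ℕ) (r : R) : evalOne R (monomial d r) = r := by
  rw [monomial_eq_C_mul]
  simp [evalOne]

/-- **Division by `Q³ - R²`.** -/
theorem exists_eq_add_disc_mul {k : ℕ} {P : MvPolynomial (Fin 2) R}
    (hP : P.IsWeightedHomogeneous wt k) :
    ∃ G : MvPolynomial (Fin 2) R, G.IsWeightedHomogeneous wt (k - 12) ∧ (k < 12 → G = 0) ∧
      P = C (evalOne R P) * mono R k + disc R * G := by
  induction hP using IsWeightedHomogeneous.induction_on with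
  | zero => exact ⟨0, isWeightedHomogeneous_zero _ _ _, fun _ => rfl, by simp⟩
  | add p q hp hq ihp ihq =>
    obtain ⟨G1, h1, h1', e1⟩ := ihp
    obtain ⟨G2, h2, h2', e2⟩ := ihq
    refine ⟨G1 + G2, h1.add h2, fun h => by rw [h1' h, h2' h, add_zero], ?_⟩
    rw [map_add, C_add]
    conv_lhs => rw [e1, e2]
    ring
  | monomial d r hr =>
    rw [weight_eq] at hr
    subst hr
    refine ⟨C (-r) * geomCof R (d 0) (d 1),
      (isWeightedHomogeneous_geomCof (d 0) (d 1)).C_mul _, fun h => ?_, ?_⟩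
    · have h0 : d 1 / 2 = 0 := by omega
      unfold geomCof
      rw [h0]
      simp
    · rw [evalOne_monomial, monomial_eq_C_mul, monomial_eq_mono_sub]
      simp only [C_neg]
      ring

end Decomp

section Inj

variable (R : Type*) [CommRing R]

theorem constantCoeff_ev (P : MvPolynomial (Fin 2) R) :
    PowerSeries.constantCoeff (ev R P) = evalOne R P := by
  have h : (PowerSeries.constantCoeff (R := R)).comp (ev R).toRingHom = (evalOne R).toRingHom := by
    apply MvPolynomial.ringHom_ext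
    · intro r; simp [evalOne]
    · intro i
      fin_cases i <;> simp [evalOne]
  exact congrArg (fun f => f P) h

theorem ev_disc : ev R (disc R) = e4 R ^ 3 - e6 R ^ 2 := by
  simp [disc]

theorem constantCoeff_ev_disc : PowerSeries.constantCoeff (ev R (disc R)) = 0 := by
  rw [ev_disc]; simp

theorem coeff_one_ev_disc : PowerSeries.coeff 1 (ev R (disc R)) = 1728 := by
  rw [ev_disc, map_sub, PowerSeries.coeff_one_pow, PowerSeries.coeff_one_pow]
  simp
  norm_num

theorem ev_disc_ne_zero {κ : Type*} [Field κ] (h6 : (6 : κ) ≠ 0) : ev κ (disc κ) ≠ 0 := by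
  intro h
  have h1 := coeff_one_ev_disc κ
  rw [h, map_zero] at h1
  have : (1728 : κ) = 6 ^ 3 * 8 := by norm_num
  have h2 : (2 : κ) ≠ 0 := by
    intro h2; apply h6
    have : (6 : κ) = 2 * 3 := by norm_num
    rw [this, h2, zero_mul]
  have h8 : (8 : κ) ≠ 0 := by
    have : (8 : κ) = 2 ^ 3 := by norm_num
    rw [this]; exact pow_ne_zero _ h2
  exact (mul_ne_zero (pow_ne_zero 3 h6) h8) (by rw [← this]; exact h1.symm)

/-- **(4) The q-expansion map is injective on isobaric polynomials** (over a field with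
`6 ≠ 0`). -/
theorem ev_injective_of_isobaric {κ : Type*} [Field κ] (h6 : (6 : κ) ≠ 0) {k : ℕ}
    {P : MvPolynomial (Fin 2) κ} (hP : P.IsWeightedHomogeneous wt k) (h0 : ev κ P = 0) :
    P = 0 := by
  induction k using Nat.strong_induction_on generalizing P with
  | _ k ih =>
    obtain ⟨G, hG, hG0, hPG⟩ := exists_eq_add_disc_mul hP
    have hc : evalOne κ P = 0 := by
      rw [← constantCoeff_ev, h0, map_zero]
    rw [hc, C_0, zero_mul, zero_add] at hPG
    by_cases hk : k < 12
    · rw [hPG, hG0 hk, mul_zero]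
    · have hG' : ev κ G = 0 := by
        have : ev κ (disc κ) * ev κ G = 0 := by rw [← map_mul, ← hPG, h0]
        exact (mul_eq_zero.mp this).resolve_left (ev_disc_ne_zero h6)
      rw [hPG, ih (k - 12) (by omega) hG hG', mul_zero]

theorem ev_eq_of_isobaric {κ : Type*} [Field κ] (h6 : (6 : κ) ≠ 0) {k : ℕ}
    {P P' : MvPolynomial (Fin 2) κ} (hP : P.IsWeightedHomogeneous wt k)
    (hP' : P'.IsWeightedHomogeneous wt k) (h : ev κ P = ev κ P') : P = P' :=
  sub_eq_zero.mp (ev_injective_of_isobaric h6 (hP.sub hP') (by rw [map_sub, h, sub_self]))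

end Inj

section BaseChange

variable {R S : Type*} [CommRing R] [CommRing S] (φ : R →+* S)

theorem e4_map : (e4 R).map φ = e4 S := by
  unfold e4
  ext n
  simp

theorem e6_map : (e6 R).map φ = e6 S := by
  unfold e6
  ext n
  simp

/-- `ev` commutes with base change. -/
theorem ev_map (P : MvPolynomial (Fin 2) R) :
    ev S (MvPolynomial.map φ P) = (ev R P).map φ := by
  have h : (ev S).toRingHom.comp (MvPolynomial.map φ) =
      (PowerSeries.map φ).comp (ev R).toRingHom := by
    apply MvPolynomial.ringHom_ext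
    · intro r; simp
    · intro i
      fin_cases i
      · simp [e4_map]
      · simp [e6_map]
  exact congrArg (fun f => f P) h

theorem isWeightedHomogeneous_map {k : ℕ} {P : MvPolynomial (Fin 2) R}
    (hP : P.IsWeightedHomogeneous wt k) : (MvPolynomial.map φ P).IsWeightedHomogeneous wt k := by
  intro d hd
  rw [coeff_map] at hd
  exact hP (fun h => hd (by rw [h, map_zero]))

end BaseChange

end Fermat.Agent.S16.H95
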