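import Fermat.Agent.S16.H8_RamanujanE2
import Fermat.Agent.S16.H12_DeltaMod3
import Fermat.Agent.S16.H95_Isobaric

/-!
# The formal Ramanujan identities in `ℤ⟦q⟧`

With `P = 1 - 24 ∑ σ₁(n) qⁿ`, `Q = 1 + 240 ∑ σ₃(n) qⁿ`, `R = 1 - 504 ∑ σ₅(n) qⁿ` and
`θ = q d/dq` (`H12.qD`):

* `12 θP = P² - Q`, `3 θQ = PQ - R`, `2 θR = PR - Q²` in `ℤ⟦q⟧`,

for both the `H12.eisP/eisQ/eisR` and the `e2Z`/`H95.e4Z`/`H95.e6Z` spellings, and over every
commutative ring by base change.  They are extracted from the analytic identities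
`D E₂ = (E₂² - E₄)/12`, `D E₄ = (E₂E₄ - E₆)/3`, `D E₆ = (E₂E₆ - E₄²)/2` through
`qExpansion_D : qExpansion 1 (D f) = θ (qExpansion 1 f)`.
-/

set_option autoImplicit false

open UpperHalfPlane hiding I
open Real Complex Filter Topology Function
open scoped Manifold MatrixGroups ModularForm ArithmeticFunction.sigma
open Derivative ModularForm EisensteinSeries

namespace Fermat.Agent.S16.H8

open Fermat.Agent.S24.H8

local notation "𝕢" => Periodic.qParam

/-! ### Functions with a `q`-expansion -/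

/-- A function on the upper half plane with a `q`-expansion at `∞`: `1`-periodic, holomorphic,
bounded at `i∞`. -/
structure IsQFun (f : ℍ → ℂ) : Prop where
  per : Periodic (f ∘ ofComplex) 1
  hol : MDiff f
  bdd : IsBoundedAtImInfty f

theorem IsQFun.analyticAt {f : ℍ → ℂ} (hf : IsQFun f) : AnalyticAt ℂ (cuspFunction 1 f) 0 :=
  analyticAt_cuspFunction_zero one_pos hf.per hf.hol hf.bdd

theorem IsQFun.mul {f g : ℍ → ℂ} (hf : IsQFun f) (hg : IsQFun g) : IsQFun (f * g) where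
  per := by
    have : (f * g) ∘ ofComplex = (f ∘ ofComplex) * (g ∘ ofComplex) := rfl
    rw [this]
    exact hf.per.mul hg.per
  hol := hf.hol.mul hg.hol
  bdd := hf.bdd.mul hg.bdd

theorem IsQFun.sub {f g : ℍ → ℂ} (hf : IsQFun f) (hg : IsQFun g) : IsQFun (f - g) where
  per := by
    have : (f - g) ∘ ofComplex = (f ∘ ofComplex) - (g ∘ ofComplex) := rfl
    rw [this]
    exact hf.per.sub hg.per
  hol := hf.hol.sub hg.hol
  bdd := hf.bdd.sub hg.bdd

theorem IsQFun.add {f g : ℍ → ℂ} (hf : IsQFun f) (hg : IsQFun g) : IsQFun (f + g) where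
  per := by
    have : (f + g) ∘ ofComplex = (f ∘ ofComplex) + (g ∘ ofComplex) := rfl
    rw [this]
    exact hf.per.add hg.per
  hol := hf.hol.add hg.hol
  bdd := hf.bdd.add hg.bdd

theorem isQFun_modularForm {k : ℤ} (f : ModularForm 𝒮ℒ k) : IsQFun f where
  per := SlashInvariantFormClass.periodic_comp_ofComplex f one_mem_strictPeriods_SL
  hol := ModularFormClass.holo f
  bdd := ModularFormClass.bdd_at_infty f

theorem isQFun_E2 : IsQFun E2 where
  per := E2_periodic
  hol := E2_mdifferentiable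
  bdd := isBoundedAtImInfty_E2

/-! ### The `q`-expansion of the derivative -/

theorem cuspFunction_D_eq {f : ℍ → ℂ} (hf : IsQFun f) {q : ℂ} (hq : ‖q‖ < 1) :
    cuspFunction 1 (D f) q = q * deriv (cuspFunction 1 f) q := by
  rcases eq_or_ne q 0 with rfl | hq0
  · rw [zero_mul]
    exact UpperHalfPlane.IsZeroAtImInfty.cuspFunction_apply_zero
      (isZeroAtImInfty_normalizedDeriv hf.per hf.hol hf.bdd) one_pos
  · have h1 := Periodic.im_invQParam_pos_of_norm_lt_one one_pos hq hq0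
    let τ : ℍ := ⟨Periodic.invQParam 1 q, h1⟩
    have h2 := Periodic.cuspFunction_eq_of_nonzero 1 (D f ∘ ofComplex) hq0
    have h3 : cuspFunction 1 (D f) q = D f τ := by
      simpa [UpperHalfPlane.ofComplex_apply_of_im_pos h1] using! h2
    have h4 : 𝕢 1 (τ : ℂ) = q := Periodic.qParam_right_inv one_ne_zero hq0
    rw [h3, normalizedDeriv_eq_qParam_mul_deriv_cuspFunction hf.per hf.hol hf.bdd τ, h4]

theorem cuspFunction_D_eventuallyEq {f : ℍ → ℂ} (hf : IsQFun f) :
    cuspFunction 1 (D f) =ᶠ[𝓝 0] fun q => q * deriv (cuspFunction 1 f) q := by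
  filter_upwards [Metric.ball_mem_nhds (0 : ℂ) one_pos] with q hq
  exact cuspFunction_D_eq hf (by simpa using hq)

theorem analyticAt_cuspFunction_D {f : ℍ → ℂ} (hf : IsQFun f) :
    AnalyticAt ℂ (cuspFunction 1 (D f)) 0 := by
  have h : AnalyticAt ℂ (fun q : ℂ => q * deriv (cuspFunction 1 f) q) 0 :=
    analyticAt_id.mul hf.analyticAt.deriv
  exact h.congr (cuspFunction_D_eventuallyEq hf).symm

theorem iteratedDeriv_id_mul_deriv_zero {F : ℂ → ℂ} (hF : AnalyticAt ℂ F 0) (m : ℕ) :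
    iteratedDeriv m (fun q : ℂ => q * deriv F q) 0 = (m : ℂ) * iteratedDeriv m F 0 := by
  have h1 : ContDiffAt ℂ m (fun a : ℂ => a) 0 := contDiffAt_id
  have h2 : ContDiffAt ℂ m (deriv F) 0 := hF.deriv.contDiffAt
  rw [iteratedDeriv_fun_mul h1 h2]
  simp only [iteratedDeriv_fun_id_zero]
  cases m with
  | zero => simp
  | succ k =>
    rw [Finset.sum_eq_single 1]
    · simp [iteratedDeriv_succ']
    · intro b _ hb
      simp [hb]
    · intro h
      simp at h

/-- **The `q`-expansion of the normalised derivative `D = (2πi)⁻¹ d/dz` is `q d/dq` of the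
`q`-expansion.** -/
theorem qExpansion_D {f : ℍ → ℂ} (hf : IsQFun f) :
    qExpansion 1 (D f) = H12.qD (qExpansion 1 f) := by
  ext m
  rw [H12.coeff_qD, qExpansion_coeff, qExpansion_coeff,
    (cuspFunction_D_eventuallyEq hf).iteratedDeriv_eq m,
    iteratedDeriv_id_mul_deriv_zero hf.analyticAt]
  ring

theorem qExpansion_D_modularForm {k : ℤ} (f : ModularForm 𝒮ℒ k) :
    qExpansion 1 (D f) = H12.qD (qExpansion 1 f) :=
  qExpansion_D (isQFun_modularForm f)

theorem qExpansion_coeff_D {f : ℍ → ℂ} (hf : IsQFun f) (n : ℕ) :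
    (qExpansion 1 (D f)).coeff n = (n : ℂ) * (qExpansion 1 f).coeff n := by
  rw [qExpansion_D hf, H12.coeff_qD]

/-- Uniqueness of `q`-expansion coefficients for plain functions on `ℍ`. -/
theorem qExpansion_coeff_unique_fun {f : ℍ → ℂ} {c : ℕ → ℂ}
    (hfanalytic : AnalyticAt ℂ (cuspFunction 1 f) 0)
    (hf : ∀ τ : ℍ, HasSum (fun m ↦ c m • 𝕢 1 τ ^ m) (f τ)) (m : ℕ) :
    c m = (qExpansion 1 f).coeff m := by
  have h1 := (hasFPowerSeriesOnBall_cuspFunction one_pos hfanalytic hf).hasFPowerSeriesAt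
  have h2 : HasFPowerSeriesAt (cuspFunction 1 f)
      (.ofScalars ℂ fun m ↦ (qExpansion 1 f).coeff m) 0 := by
    simpa [qExpansion_coeff, div_eq_mul_inv, mul_comm] using hfanalytic.hasFPowerSeriesAt
  simpa [FormalMultilinearSeries.coeff_ofScalars] using
    congr_arg (FormalMultilinearSeries.coeff · m) (h1.eq_formalMultilinearSeries h2)

theorem qExpansion_smul_sub_mul {f g a b : ℍ → ℂ} (hf : IsQFun f) (hg : IsQFun g)
    (ha : IsQFun a) (hb : IsQFun b) (c : ℂ) :
    qExpansion 1 (c • (f * g - a * b)) =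
      c • (qExpansion 1 f * qExpansion 1 g - qExpansion 1 a * qExpansion 1 b) := by
  rw [qExpansion_smul ((hf.mul hg).sub (ha.mul hb)).analyticAt,
    qExpansion_sub (hf.mul hg).analyticAt (ha.mul hb).analyticAt,
    qExpansion_mul hf.analyticAt hg.analyticAt, qExpansion_mul ha.analyticAt hb.analyticAt]

theorem qExpansion_smul_mul_sub {f g a : ℍ → ℂ} (hf : IsQFun f) (hg : IsQFun g)
    (ha : IsQFun a) (c : ℂ) :
    qExpansion 1 (c • (f * g - a)) =
      c • (qExpansion 1 f * qExpansion 1 g - qExpansion 1 a) := by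
  rw [qExpansion_smul ((hf.mul hg).sub ha).analyticAt,
    qExpansion_sub (hf.mul hg).analyticAt ha.analyticAt,
    qExpansion_mul hf.analyticAt hg.analyticAt]

/-! ### Power series bookkeeping -/

theorem coeff_ofNat_mul {R : Type*} [CommRing R] (a : ℕ) [a.AtLeastTwo] (f : PowerSeries R)
    (n : ℕ) :
    PowerSeries.coeff n ((OfNat.ofNat a : PowerSeries R) * f) =
      (OfNat.ofNat a : R) * PowerSeries.coeff n f := by
  rw [← map_ofNat (PowerSeries.C (R := R)) a, PowerSeries.coeff_C_mul]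

theorem ofNat_mul_inv_smul (a : ℕ) [a.AtLeastTwo] (f : PowerSeries ℂ) :
    (OfNat.ofNat a : PowerSeries ℂ) * ((OfNat.ofNat a : ℂ)⁻¹ • f) = f := by
  ext n
  rw [coeff_ofNat_mul, PowerSeries.coeff_smul, smul_eq_mul, ← mul_assoc,
    mul_inv_cancel₀ (OfNat.ofNat_ne_zero a), one_mul]

/-! ### The integral `q`-series and the bridges to Mathlib's `E₂`, `E₄`, `E₆` -/

/-- The `q`-series of `E₂` over `ℤ`. -/
def e2Z : PowerSeries ℤ :=
  PowerSeries.mk fun n => if n = 0 then 1 else -24 * (ArithmeticFunction.sigma 1 n : ℤ)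

theorem e2Z_eq_eisP : e2Z = H12.eisP := by
  ext n
  rw [H12.eisP, map_sub, coeff_ofNat_mul, H12.coeff_sigmaSeries, e2Z, PowerSeries.coeff_mk,
    PowerSeries.coeff_one]
  by_cases hn : n = 0
  · subst hn
    simp
  · simp [hn]

theorem e4Z_eq_eisQ : H95.e4Z = H12.eisQ := by
  ext n
  rw [H12.eisQ, map_add, coeff_ofNat_mul, H12.coeff_sigmaSeries, H95.e4Z, PowerSeries.coeff_mk,
    PowerSeries.coeff_one]
  by_cases hn : n = 0
  · subst hn
    simp
  · simp [hn]

theorem e6Z_eq_eisR : H95.e6Z = H12.eisR := by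
  ext n
  rw [H12.eisR, map_sub, coeff_ofNat_mul, H12.coeff_sigmaSeries, H95.e6Z, PowerSeries.coeff_mk,
    PowerSeries.coeff_one]
  by_cases hn : n = 0
  · subst hn
    simp
  · simp [hn]

/-- The `q`-expansion of Mathlib's `E2` is the base change of `e2Z`. -/
theorem qExpansion_E2 : qExpansion 1 E2 = e2Z.map (Int.castRingHom ℂ) := by
  ext m
  have h := qExpansion_coeff_unique_fun isQFun_E2.analyticAt
    (c := fun m => if m = 0 then 1 else -24 * σ 1 m)
    (fun τ => by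
      simpa only [Function.Periodic.qParam, ofReal_one, div_one] using
        hasSum_qExpansion_E2 (z := τ)) m
  rw [← h, PowerSeries.coeff_map, e2Z, PowerSeries.coeff_mk]
  split_ifs <;> simp

/-- The `q`-expansion of Mathlib's `E₄` is the base change of `H95.e4Z`. -/
theorem qExpansion_E₄ : qExpansion 1 E₄ = H95.e4Z.map (Int.castRingHom ℂ) := by
  ext m
  rw [E_qExpansion_coeff _ ⟨2, rfl⟩, PowerSeries.coeff_map, H95.e4Z, PowerSeries.coeff_mk]
  by_cases hm : m = 0
  · simp [hm]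
  · rw [if_neg hm, if_neg hm, show bernoulli 4 = -1 / 30 by decide +kernel]
    push_cast
    norm_num

/-- The `q`-expansion of Mathlib's `E₆` is the base change of `H95.e6Z`. -/
theorem qExpansion_E₆ : qExpansion 1 E₆ = H95.e6Z.map (Int.castRingHom ℂ) := by
  ext m
  rw [E_qExpansion_coeff _ ⟨3, rfl⟩, PowerSeries.coeff_map, H95.e6Z, PowerSeries.coeff_mk]
  by_cases hm : m = 0
  · simp [hm]
  · rw [if_neg hm, if_neg hm, show bernoulli 6 = 1 / 42 by decide +kernel]
    push_cast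
    norm_num

theorem qExpansion_E₄_eq_e4 : qExpansion 1 E₄ = H95.e4 ℂ := qExpansion_E₄

theorem qExpansion_E₆_eq_e6 : qExpansion 1 E₆ = H95.e6 ℂ := qExpansion_E₆

/-! ### The Ramanujan identities for the complex `q`-expansions -/

theorem D_E2_fun : D E2 = (12 : ℂ)⁻¹ • (E2 * E2 - ⇑E₄) := by
  funext z
  rw [D_E2]
  simp only [Pi.smul_apply, Pi.sub_apply, Pi.mul_apply, smul_eq_mul]
  ring

theorem D_E₄_fun : D E₄ = (3 : ℂ)⁻¹ • (E2 * ⇑E₄ - ⇑E₆) := by
  funext z
  rw [D_E₄]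
  simp only [Pi.smul_apply, Pi.sub_apply, Pi.mul_apply, smul_eq_mul]
  ring

theorem D_E₆_fun : D E₆ = (2 : ℂ)⁻¹ • (E2 * ⇑E₆ - ⇑E₄ * ⇑E₄) := by
  funext z
  rw [D_E₆]
  simp only [Pi.smul_apply, Pi.sub_apply, Pi.mul_apply, smul_eq_mul]
  ring

theorem ramanujan_qExpansion_E2 :
    12 * H12.qD (qExpansion 1 E2) = qExpansion 1 E2 ^ 2 - qExpansion 1 E₄ := by
  rw [← qExpansion_D isQFun_E2, D_E2_fun,
    qExpansion_smul_mul_sub isQFun_E2 isQFun_E2 (isQFun_modularForm E₄), ofNat_mul_inv_smul, sq]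

theorem ramanujan_qExpansion_E₄ :
    3 * H12.qD (qExpansion 1 E₄) = qExpansion 1 E2 * qExpansion 1 E₄ - qExpansion 1 E₆ := by
  rw [← qExpansion_D (isQFun_modularForm E₄), D_E₄_fun,
    qExpansion_smul_mul_sub isQFun_E2 (isQFun_modularForm E₄) (isQFun_modularForm E₆),
    ofNat_mul_inv_smul]

theorem ramanujan_qExpansion_E₆ :
    2 * H12.qD (qExpansion 1 E₆) = qExpansion 1 E2 * qExpansion 1 E₆ - qExpansion 1 E₄ ^ 2 := by
  rw [← qExpansion_D (isQFun_modularForm E₆), D_E₆_fun,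
    qExpansion_smul_sub_mul isQFun_E2 (isQFun_modularForm E₆) (isQFun_modularForm E₄)
      (isQFun_modularForm E₄), ofNat_mul_inv_smul, sq]

/-! ### Descent to `ℤ⟦q⟧` -/

theorem map_intCast_injective :
    Function.Injective (PowerSeries.map (Int.castRingHom ℂ)) :=
  PowerSeries.map_injective _ (RingHom.injective_int (Int.castRingHom ℂ))

/-- **Ramanujan's identity `12 θP = P² - Q` in `ℤ⟦q⟧`.** -/
theorem ramanujan_e2Z : 12 * H12.qD e2Z = e2Z ^ 2 - H95.e4Z := by
  apply map_intCast_injective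
  rw [map_mul, map_ofNat, H12.map_qD, map_sub, map_pow, ← qExpansion_E2, ← qExpansion_E₄]
  exact ramanujan_qExpansion_E2

/-- **Ramanujan's identity `3 θQ = PQ - R` in `ℤ⟦q⟧`.** -/
theorem ramanujan_e4Z : 3 * H12.qD H95.e4Z = e2Z * H95.e4Z - H95.e6Z := by
  apply map_intCast_injective
  rw [map_mul, map_ofNat, H12.map_qD, map_sub, map_mul, ← qExpansion_E2, ← qExpansion_E₄,
    ← qExpansion_E₆]
  exact ramanujan_qExpansion_E₄

/-- **Ramanujan's identity `2 θR = PR - Q²` in `ℤ⟦q⟧`.** -/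
theorem ramanujan_e6Z : 2 * H12.qD H95.e6Z = e2Z * H95.e6Z - H95.e4Z ^ 2 := by
  apply map_intCast_injective
  rw [map_mul, map_ofNat, H12.map_qD, map_sub, map_mul, map_pow, ← qExpansion_E2,
    ← qExpansion_E₄, ← qExpansion_E₆]
  exact ramanujan_qExpansion_E₆

/-- `12 θP = P² - Q` for helper12's series. -/
theorem ramanujan_eisP : 12 * H12.qD H12.eisP = H12.eisP ^ 2 - H12.eisQ := by
  rw [← e2Z_eq_eisP, ← e4Z_eq_eisQ]
  exact ramanujan_e2Z

/-- `3 θQ = PQ - R` for helper12's series. -/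
theorem ramanujan_eisQ : 3 * H12.qD H12.eisQ = H12.eisP * H12.eisQ - H12.eisR := by
  rw [← e2Z_eq_eisP, ← e4Z_eq_eisQ, ← e6Z_eq_eisR]
  exact ramanujan_e4Z

/-- `2 θR = PR - Q²` for helper12's series. -/
theorem ramanujan_eisR : 2 * H12.qD H12.eisR = H12.eisP * H12.eisR - H12.eisQ ^ 2 := by
  rw [← e2Z_eq_eisP, ← e4Z_eq_eisQ, ← e6Z_eq_eisR]
  exact ramanujan_e6Z

/-- `Q³ - R² = 1728 (θ²S + 36 (…))`, unconditionally. -/
theorem eisQ_cube_sub_eisR_sq :
    H12.eisQ ^ 3 - H12.eisR ^ 2 = 1728 * H12.deltaPoly (H12.sigmaSeries 1) :=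
  H12.eisQ_cube_sub_eisR_sq ramanujan_eisP ramanujan_eisQ

/-! ### Base change to an arbitrary commutative ring -/

section BaseChange

variable (R : Type*) [CommRing R]

/-- The `q`-series of `E₂` over `R`. -/
noncomputable def e2 : PowerSeries R := e2Z.map (Int.castRingHom R)

theorem e2_map {S : Type*} [CommRing S] (φ : R →+* S) : (e2 R).map φ = e2 S := by
  ext n
  simp [e2]

theorem ramanujan_e2 : 12 * H12.qD (e2 R) = e2 R ^ 2 - H95.e4 R := by
  have h := congrArg (PowerSeries.map (Int.castRingHom R)) ramanujan_e2Z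
  rwa [map_mul, map_ofNat, H12.map_qD, map_sub, map_pow] at h

theorem ramanujan_e4 : 3 * H12.qD (H95.e4 R) = e2 R * H95.e4 R - H95.e6 R := by
  have h := congrArg (PowerSeries.map (Int.castRingHom R)) ramanujan_e4Z
  rwa [map_mul, map_ofNat, H12.map_qD, map_sub, map_mul] at h

theorem ramanujan_e6 : 2 * H12.qD (H95.e6 R) = e2 R * H95.e6 R - H95.e4 R ^ 2 := by
  have h := congrArg (PowerSeries.map (Int.castRingHom R)) ramanujan_e6Z
  rwa [map_mul, map_ofNat, H12.map_qD, map_sub, map_mul, map_pow] at h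

end BaseChange

end Fermat.Agent.S16.H8
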