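import Fermat.Agent.S16.H17_U3bFF
import Fermat.Agent.S16.H8_RamanujanFormal
import Fermat.Agent.S16.H52_Assembly

/-!
# S16 (U3b): the leaf `p ≡ 2 mod 3`, unconditional (helper17, function-field route)

* `uLeaf_three_one_final p (hp5 : 5 ≤ p) : H39.ULeaf p 3 1` (every prime `p ≥ 5`);
* `noUnitForm_three_final p hp5 : H39.NoUnitForm p 3 2`;
* `not_cong_three p hp5 (h : p % 3 = 2) f : ¬ H52.Cong p f 3` (helper52's `h3b` shape).
-/

set_option autoImplicit false

noncomputable section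

namespace Fermat.Agent.S16.H17

open ModularCurve CuspForm CongruenceSubgroup ModularFormClass

/-- For every prime `p ≥ 5` there is no `G ∈ M₂(Γ₀(p))` with `3`-integral rational `q`-expansion
`≡ 1 mod 9`. -/
theorem noUnitForm_three_final (p : ℕ) [Fact p.Prime] (hp5 : 5 ≤ p) : H39.NoUnitForm p 3 2 :=
  noUnitForm_three p hp5 H8.ramanujan_eisP H8.ramanujan_eisQ

/-- **(U3b) leaf**, for every prime `p ≥ 5`. -/
theorem uLeaf_three_one_final (p : ℕ) [Fact p.Prime] (hp5 : 5 ≤ p) : H39.ULeaf p 3 1 :=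
  uLeaf_three_one p hp5 H8.ramanujan_eisP H8.ramanujan_eisQ

/-- **(U3b) in helper52's shape.** -/
theorem not_cong_three (p : ℕ) [Fact p.Prime] (hp5 : 5 ≤ p) (h : p % 3 = 2)
    (f : CuspForm (Gamma0 p) 2) : ¬ H52.Cong p f 3 := by
  intro hc
  choose z hz hzd using hc
  have h9 := H39.leaf_apply (uLeaf_three_one_final p hp5) f z hz 1 1 8 (by norm_num)
    (fun k hk => by simpa using hzd k hk)
  have h3 : (3 : ℤ) ∣ (p : ℤ) - 1 := by
    have h9' : (3 : ℤ) * 3 ∣ 3 * ((p : ℤ) - 1) := by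
      have : ((3 : ℕ) : ℤ) ^ (1 + 1) = 3 * 3 := by norm_num
      rw [this] at h9
      simpa using h9
    exact (mul_dvd_mul_iff_left (by norm_num : (3 : ℤ) ≠ 0)).mp h9'
  omega

end Fermat.Agent.S16.H17
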