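/-
S16 / (U5b), helper46: the `p + 1` cosets of `Γ₀(p)` in `SL(2, ℤ)`, in the `GL(2, ℝ)` vocabulary of
Mathlib's `SlashInvariantForm.quotientFunc`.

Representatives: `1` and `(S T^x)⁻¹`, `0 ≤ x < p`; so the conjugates of a `Γ₀(p)`-invariant `f` are
`f` and `f ∣[k] (S T^x)`.
-/
import Mathlib

set_option autoImplicit false

open UpperHalfPlane Matrix.SpecialLinearGroup CongruenceSubgroup ModularGroup
open scoped ModularForm MatrixGroups

noncomputable section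

namespace Fermat.Agent.S16.H46

/-- Inverses of the coset representatives of `SL(2, ℤ) / Γ₀(p)`: `1` and `S T^x`. -/
def rho (p : ℕ) : Option (Fin p) → SL(2, ℤ)
  | none => 1
  | some x => S * T ^ ((x : ℕ) : ℤ)

theorem coe_S_mul_T_zpow (n : ℤ) :
    ((S * T ^ n : SL(2, ℤ)) : Matrix (Fin 2) (Fin 2) ℤ) = !![0, -1; 1, n] := by
  rw [Matrix.SpecialLinearGroup.coe_mul, coe_T_zpow, coe_S]
  ext i j
  fin_cases i <;> fin_cases j <;> simp [Matrix.mul_apply, Fin.sum_univ_two]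

theorem rho_none_apply (p : ℕ) (i j : Fin 2) :
    (rho p none : SL(2, ℤ)) i j = (1 : Matrix (Fin 2) (Fin 2) ℤ) i j := rfl

theorem rho_some_one_zero {p : ℕ} (x : Fin p) : (rho p (some x) : SL(2, ℤ)) 1 0 = 1 := by
  change ((S * T ^ ((x : ℕ) : ℤ) : SL(2, ℤ)) : Matrix (Fin 2) (Fin 2) ℤ) 1 0 = 1
  rw [coe_S_mul_T_zpow]
  rfl

theorem rho_some_one_one {p : ℕ} (x : Fin p) : (rho p (some x) : SL(2, ℤ)) 1 1 = (x : ℕ) := by
  change ((S * T ^ ((x : ℕ) : ℤ) : SL(2, ℤ)) : Matrix (Fin 2) (Fin 2) ℤ) 1 1 = _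
  rw [coe_S_mul_T_zpow]
  rfl

theorem mul_inv_one_zero (A B : SL(2, ℤ)) :
    (A * B⁻¹ : SL(2, ℤ)) 1 0 = A 1 0 * B 1 1 - A 1 1 * B 1 0 := by
  rw [Matrix.SpecialLinearGroup.coe_mul, SL2_inv_expl, Matrix.mul_apply, Fin.sum_univ_two]
  simp
  ring

theorem mul_one_zero (A B : SL(2, ℤ)) :
    (A * B : SL(2, ℤ)) 1 0 = A 1 0 * B 0 0 + A 1 1 * B 1 0 := by
  rw [Matrix.SpecialLinearGroup.coe_mul, Matrix.mul_apply, Fin.sum_univ_two]

variable {p : ℕ} [hp : Fact p.Prime]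

theorem rho_injective {o o' : Option (Fin p)} (h : rho p o * (rho p o')⁻¹ ∈ Gamma0 p) :
    o = o' := by
  rw [Gamma0_mem, mul_inv_one_zero] at h
  rcases o with _ | x <;> rcases o' with _ | y
  · rfl
  · exfalso
    rw [rho_none_apply, rho_none_apply, rho_some_one_zero] at h
    simp only [Matrix.one_apply_ne (show (1 : Fin 2) ≠ 0 by decide), Matrix.one_apply_eq] at h
    simp only [zero_mul, mul_one, zero_sub, Int.cast_neg, Int.cast_one, neg_eq_zero] at h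
    exact one_ne_zero h
  · exfalso
    rw [rho_none_apply, rho_none_apply, rho_some_one_zero] at h
    simp only [Matrix.one_apply_ne (show (1 : Fin 2) ≠ 0 by decide), Matrix.one_apply_eq] at h
    simp only [mul_one, mul_zero, sub_zero, Int.cast_one] at h
    exact one_ne_zero h
  · rw [rho_some_one_zero, rho_some_one_zero, rho_some_one_one, rho_some_one_one] at h
    simp only [one_mul, mul_one, Int.cast_sub, Int.cast_natCast] at h
    have h2 : ((y : ℕ) : ZMod p) = ((x : ℕ) : ZMod p) := sub_eq_zero.mp h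
    have h3 := (ZMod.natCast_eq_natCast_iff' _ _ _).mp h2
    rw [Nat.mod_eq_of_lt y.2, Nat.mod_eq_of_lt x.2] at h3
    exact congrArg some (Fin.ext h3.symm)

theorem exists_rho_mul_mem (γ : SL(2, ℤ)) : ∃ o : Option (Fin p), rho p o * γ ∈ Gamma0 p := by
  by_cases h : ((γ 1 0 : ℤ) : ZMod p) = 0
  · exact ⟨none, by rw [Gamma0_mem]; simpa [rho] using h⟩
  · have : NeZero p := ⟨hp.out.ne_zero⟩
    obtain ⟨t, ht⟩ : ∃ t : ZMod p, t = -((γ 0 0 : ℤ) : ZMod p) / ((γ 1 0 : ℤ) : ZMod p) := ⟨_, rfl⟩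
    refine ⟨some ⟨t.val, ZMod.val_lt t⟩, ?_⟩
    rw [Gamma0_mem, mul_one_zero, rho_some_one_zero, rho_some_one_one]
    have hcast : ((((⟨t.val, ZMod.val_lt t⟩ : Fin p) : ℕ) : ℤ) : ZMod p) = t := by
      rw [Int.cast_natCast]
      exact ZMod.natCast_zmod_val t
    rw [one_mul, Int.cast_add, Int.cast_mul, hcast, ht]
    field_simp
    ring

/-- Representatives give a bijection onto a quotient. -/
theorem bijective_mk_of_reps {G : Type*} [Group G] (H : Subgroup G) {ι : Type*} (r : ι → G)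
    (hinj : ∀ i j, (r i)⁻¹ * r j ∈ H → i = j) (hsurj : ∀ g, ∃ i, (r i)⁻¹ * g ∈ H) :
    Function.Bijective (fun i => (QuotientGroup.mk (r i) : G ⧸ H)) := by
  constructor
  · intro i j hij
    exact hinj i j (QuotientGroup.eq.mp hij)
  · intro q
    induction q using QuotientGroup.induction_on with
    | H g =>
      obtain ⟨i, hi⟩ := hsurj g
      exact ⟨i, QuotientGroup.eq.mpr hi⟩

local notation "Γp" => (Gamma0 p : Subgroup (GL (Fin 2) ℝ))

omit hp in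
theorem rangeRestrict_mem_iff (γ : SL(2, ℤ)) :
    (mapGL ℝ).rangeRestrict γ ∈ (Γp).subgroupOf 𝒮ℒ ↔ γ ∈ Gamma0 p := by
  rw [Subgroup.mem_subgroupOf]
  exact Subgroup.mem_map_iff_mem (mapGL_injective (R := ℤ) (S := ℝ))

/-- The coset representatives in `𝒮ℒ`. -/
def cosetRep (p : ℕ) (o : Option (Fin p)) : ↥(𝒮ℒ) := (mapGL ℝ).rangeRestrict (rho p o)⁻¹

omit hp in
theorem cosetRep_val_inv (o : Option (Fin p)) :
    ((cosetRep p o : ↥(𝒮ℒ)) : GL (Fin 2) ℝ)⁻¹ = mapGL ℝ (rho p o) := by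
  simp [cosetRep]

theorem cosetRep_bijective :
    Function.Bijective
      (fun o : Option (Fin p) => (QuotientGroup.mk (cosetRep p o) : ↥(𝒮ℒ) ⧸ (Γp).subgroupOf 𝒮ℒ)) := by
  refine bijective_mk_of_reps _ _ ?_ ?_
  · intro o o' h
    have : (cosetRep p o)⁻¹ * cosetRep p o' = (mapGL ℝ).rangeRestrict (rho p o * (rho p o')⁻¹) := by
      simp [cosetRep]
    rw [this, rangeRestrict_mem_iff] at h
    exact rho_injective h
  · intro g
    obtain ⟨γ, rfl⟩ := (mapGL (R := ℤ) ℝ).rangeRestrict_surjective g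
    obtain ⟨o, ho⟩ := exists_rho_mul_mem (p := p) γ
    refine ⟨o, ?_⟩
    have : (cosetRep p o)⁻¹ * (mapGL ℝ).rangeRestrict γ = (mapGL ℝ).rangeRestrict (rho p o * γ) := by
      simp [cosetRep]
    rw [this, rangeRestrict_mem_iff]
    exact ho

variable (p) in
/-- The cosets of `Γ₀(p)` in `SL(2, ℤ)`, indexed by `Option (Fin p)`. -/
def cosetEquiv : Option (Fin p) ≃ ↥(𝒮ℒ) ⧸ (Γp).subgroupOf 𝒮ℒ :=
  Equiv.ofBijective
    (fun o : Option (Fin p) => (QuotientGroup.mk (cosetRep p o) : ↥(𝒮ℒ) ⧸ (Γp).subgroupOf 𝒮ℒ))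
    (cosetRep_bijective (p := p))

theorem cosetEquiv_apply (o : Option (Fin p)) :
    cosetEquiv p o = (QuotientGroup.mk (cosetRep p o) : ↥(𝒮ℒ) ⧸ (Γp).subgroupOf 𝒮ℒ) := rfl

open SlashInvariantForm in
/-- The conjugate attached to the coset `o` is `f ∣[k] rho o`. -/
theorem quotientFunc_cosetEquiv {F : Type*} [FunLike F ℍ ℂ] {k : ℤ}
    [SlashInvariantFormClass F Γp k] (f : F) (o : Option (Fin p)) :
    quotientFunc (ℋ := 𝒮ℒ) f (cosetEquiv p o) = (f : ℍ → ℂ) ∣[k] (mapGL ℝ (rho p o)) := by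
  rw [cosetEquiv_apply]
  change quotientFunc f ⟦cosetRep p o⟧ = _
  rw [quotientFunc_mk, cosetRep_val_inv]

end Fermat.Agent.S16.H46
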