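/-
S16 / (U5b), helper46: the Atkin-Lehner involution at prime level, weight 2, and the conjugates of a
form on `Γ₀(p)`.

* `alW p = [[0, -1], [p, 0]]` normalises `Γ₀(p)`; `alForm F = F ∣[2] alW p` is again a modular form
  on `Γ₀(p)`;
* `F ∣[2] (S T^x) = (F ∣[2] alW p) ∣[2] heckeMatrix p x`;
* trace zero (`M₂(SL(2, ℤ)) = 0`): `F = - heckeU 2 p (F ∣[2] alW p)`, hence
  `F ∣[2] alW p = - heckeU 2 p F`.
-/
import Mathlib
import Fermat.Prelude.Def_ModularForm_HeckeOperator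
import Fermat.Agent.S16.H46_Cosets

set_option autoImplicit false

open UpperHalfPlane Matrix.SpecialLinearGroup CongruenceSubgroup ModularGroup ModularForm
open scoped ModularForm MatrixGroups

noncomputable section

namespace Fermat.Agent.S16.H46

/-- Scalar matrices in `GL(2, ℝ)`. -/
def scalarGL (c : ℝ) (hc : c ≠ 0) : GL (Fin 2) ℝ :=
  Matrix.GeneralLinearGroup.mkOfDetNeZero !![c, 0; 0, c]
    (by rw [Matrix.det_fin_two_of]; simp [hc])

@[simp] theorem val_scalarGL (c : ℝ) (hc : c ≠ 0) :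
    ((scalarGL c hc : GL (Fin 2) ℝ) : Matrix (Fin 2) (Fin 2) ℝ) = !![c, 0; 0, c] := rfl

theorem det_scalarGL (c : ℝ) (hc : c ≠ 0) : ((scalarGL c hc).det : ℝ) = c * c := by
  rw [Matrix.GeneralLinearGroup.val_det_apply, val_scalarGL, Matrix.det_fin_two_of]
  ring

/-- Scalar matrices act trivially in weight `2`. -/
theorem slash_scalarGL (f : ℍ → ℂ) (c : ℝ) (hc : c ≠ 0) : f ∣[(2 : ℤ)] scalarGL c hc = f := by
  have hdet : 0 < ((scalarGL c hc).det : ℝ) := by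
    rw [det_scalarGL]
    exact mul_self_pos.mpr hc
  have hc' : (c : ℂ) ≠ 0 := by exact_mod_cast hc
  ext τ
  have hsmul : scalarGL c hc • τ = τ := by
    apply UpperHalfPlane.ext
    rw [UpperHalfPlane.coe_smul_of_det_pos hdet]
    simp only [UpperHalfPlane.num, UpperHalfPlane.denom, val_scalarGL]
    simp
    field_simp
  rw [ModularForm.slash_apply, hsmul, UpperHalfPlane.σ, if_pos hdet, det_scalarGL]
  simp only [UpperHalfPlane.denom, val_scalarGL]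
  simp
  field_simp

variable {p : ℕ} [hp : Fact p.Prime]

/-- `p ≠ 0` as a real number. -/
theorem natCast_real_ne_zero : (p : ℝ) ≠ 0 := by exact_mod_cast hp.out.ne_zero

variable (p) in
/-- The Atkin-Lehner matrix `[[0, -1], [p, 0]]`. -/
def alW : GL (Fin 2) ℝ :=
  Matrix.GeneralLinearGroup.mkOfDetNeZero !![0, -1; (p : ℝ), 0]
    (by rw [Matrix.det_fin_two_of]; simpa using natCast_real_ne_zero (p := p))

@[simp] theorem val_alW :
    ((alW p : GL (Fin 2) ℝ) : Matrix (Fin 2) (Fin 2) ℝ) = !![0, -1; (p : ℝ), 0] := rfl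

theorem val_mapGL (γ : SL(2, ℤ)) (i j : Fin 2) :
    ((mapGL ℝ γ : GL (Fin 2) ℝ) : Matrix (Fin 2) (Fin 2) ℝ) i j = ((γ i j : ℤ) : ℝ) := by
  simp

/-- `W * [[1, x], [0, p]] = p • (S T^x)`. -/
theorem alW_mul_heckeMatrix (x : ℕ) :
    alW p * heckeMatrix p x =
      scalarGL (p : ℝ) natCast_real_ne_zero * mapGL ℝ (S * T ^ (x : ℤ)) := by
  apply Matrix.GeneralLinearGroup.ext
  intro i j
  rw [Matrix.GeneralLinearGroup.coe_mul, Matrix.GeneralLinearGroup.coe_mul,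
    val_heckeMatrix hp.out.ne_zero, val_alW, val_scalarGL, Matrix.mul_apply, Matrix.mul_apply,
    Fin.sum_univ_two, Fin.sum_univ_two]
  simp only [val_mapGL, coe_S_mul_T_zpow]
  fin_cases i <;> fin_cases j <;> simp

/-- The conjugate `F ∣ (S T^x)` through the Atkin-Lehner involution. -/
theorem slash_S_mul_T_zpow (f : ℍ → ℂ) (x : ℕ) :
    f ∣[(2 : ℤ)] mapGL ℝ (S * T ^ (x : ℤ)) = (f ∣[(2 : ℤ)] alW p) ∣[(2 : ℤ)] heckeMatrix p x := by
  rw [← SlashAction.slash_mul, alW_mul_heckeMatrix, SlashAction.slash_mul, slash_scalarGL]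

/-- `W * W = -p`. -/
theorem alW_mul_alW :
    alW p * alW p = scalarGL (-(p : ℝ)) (neg_ne_zero.mpr natCast_real_ne_zero) := by
  apply Matrix.GeneralLinearGroup.ext
  intro i j
  rw [Matrix.GeneralLinearGroup.coe_mul, val_alW, val_scalarGL, Matrix.mul_apply, Fin.sum_univ_two]
  fin_cases i <;> fin_cases j <;> simp

theorem slash_alW_alW (f : ℍ → ℂ) : (f ∣[(2 : ℤ)] alW p) ∣[(2 : ℤ)] alW p = f := by
  rw [← SlashAction.slash_mul, alW_mul_alW, slash_scalarGL]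

/-- `W` normalises `Γ₀(p)`. -/
theorem exists_alW_mul_eq {γ : SL(2, ℤ)} (hγ : γ ∈ Gamma0 p) :
    ∃ γ' ∈ Gamma0 p, alW p * mapGL ℝ γ = mapGL ℝ γ' * alW p := by
  rw [Gamma0_mem, ZMod.intCast_zmod_eq_zero_iff_dvd] at hγ
  obtain ⟨c', hc'⟩ := hγ
  have hdet : γ 0 0 * γ 1 1 - γ 0 1 * γ 1 0 = 1 := by
    have := γ.det_coe
    rwa [Matrix.det_fin_two] at this
  obtain ⟨γ', hγ'⟩ : ∃ γ' : SL(2, ℤ),
      (γ' : Matrix (Fin 2) (Fin 2) ℤ) = !![γ 1 1, -c'; -(p : ℤ) * γ 0 1, γ 0 0] := by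
    refine ⟨⟨!![γ 1 1, -c'; -(p : ℤ) * γ 0 1, γ 0 0], ?_⟩, rfl⟩
    rw [Matrix.det_fin_two_of]
    rw [hc'] at hdet
    linarith
  have h00 : γ' 0 0 = γ 1 1 := by rw [hγ']; rfl
  have h01 : γ' 0 1 = -c' := by rw [hγ']; rfl
  have h10 : γ' 1 0 = -(p : ℤ) * γ 0 1 := by rw [hγ']; rfl
  have h11 : γ' 1 1 = γ 0 0 := by rw [hγ']; rfl
  refine ⟨γ', ?_, ?_⟩
  · rw [Gamma0_mem, h10]
    simp
  · apply Matrix.GeneralLinearGroup.ext
    intro i j
    rw [Matrix.GeneralLinearGroup.coe_mul, Matrix.GeneralLinearGroup.coe_mul, val_alW,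
      Matrix.mul_apply, Matrix.mul_apply, Fin.sum_univ_two, Fin.sum_univ_two]
    simp only [val_mapGL]
    have hc'' : ((γ 1 0 : ℤ) : ℝ) = (p : ℝ) * (c' : ℝ) := by exact_mod_cast hc'
    fin_cases i <;> fin_cases j <;> simp [hc'', h00, h01, h10, h11] <;> ring

local notation "Γp" => (Gamma0 p : Subgroup (GL (Fin 2) ℝ))

/-- `F ∣ W` is again `Γ₀(p)`-invariant. -/
theorem slash_alW_slash_mem {F : Type*} [FunLike F ℍ ℂ] [SlashInvariantFormClass F Γp 2] (f : F)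
    {g : GL (Fin 2) ℝ} (hg : g ∈ Γp) :
    ((f : ℍ → ℂ) ∣[(2 : ℤ)] alW p) ∣[(2 : ℤ)] g = (f : ℍ → ℂ) ∣[(2 : ℤ)] alW p := by
  obtain ⟨γ, hγ, rfl⟩ := Subgroup.mem_map.mp hg
  obtain ⟨γ', hγ', h⟩ := exists_alW_mul_eq hγ
  rw [← SlashAction.slash_mul, h, SlashAction.slash_mul,
    SlashInvariantFormClass.slash_action_eq f _ (Subgroup.mem_map_of_mem _ hγ')]

open ConjAct Pointwise in
theorem conj_alW_le : toConjAct (alW p) • Γp ≤ Γp := by
  intro g hg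
  rw [Subgroup.mem_pointwise_smul_iff_inv_smul_mem, ← toConjAct_inv, toConjAct_smul, inv_inv] at hg
  obtain ⟨γ, hγ, h⟩ := Subgroup.mem_map.mp hg
  -- `W⁻¹ g W = γ`, so `g = W γ W⁻¹ = γ'`
  obtain ⟨γ', hγ', h'⟩ := exists_alW_mul_eq hγ
  have : g = mapGL ℝ γ' := by
    have h1 : alW p * mapGL ℝ γ = g * alW p := by
      rw [h]
      group
    rw [h'] at h1
    exact (mul_right_cancel h1).symm
  rw [this]
  exact Subgroup.mem_map_of_mem _ hγ'

/-- The Atkin-Lehner transform of a weight-2 modular form on `Γ₀(p)`. -/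
def alForm (F : ModularForm Γp 2) : ModularForm Γp 2 where
  toFun := (F : ℍ → ℂ) ∣[(2 : ℤ)] alW p
  slash_action_eq' _ hg := slash_alW_slash_mem F hg
  holo' := (ModularFormClass.holo F).slash 2 (alW p)
  bdd_at_cusps' {c} hc γ hγ := by
    rw [← SlashAction.slash_mul]
    refine ModularFormClass.bdd_at_cusps F (c := alW p • c) ?_ (alW p * γ) ?_
    · exact (hc.smul (alW p)).mono conj_alW_le
    · rw [mul_smul, hγ]

@[simp] theorem coe_alForm (F : ModularForm Γp 2) :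
    ⇑(alForm F) = (F : ℍ → ℂ) ∣[(2 : ℤ)] alW p := rfl

/-- There are no modular forms of weight `2` and level `1`. -/
theorem levelOne_weight_two_eq_zero (f : ModularForm 𝒮ℒ 2) : f = 0 :=
  rank_zero_iff_forall_zero.mp ModularForm.levelOne_weight_two_rank_zero f

open SlashInvariantForm in
/-- Sums over the cosets, reindexed. -/
theorem sum_quotientFunc_eq {F : Type*} [FunLike F ℍ ℂ] {k : ℤ} [SlashInvariantFormClass F Γp k]
    (f : F) [Fintype (↥(𝒮ℒ) ⧸ (Γp).subgroupOf 𝒮ℒ)] :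
    ∑ q : ↥(𝒮ℒ) ⧸ (Γp).subgroupOf 𝒮ℒ, quotientFunc f q =
      (f : ℍ → ℂ) + ∑ x : Fin p, (f : ℍ → ℂ) ∣[k] mapGL ℝ (S * T ^ ((x : ℕ) : ℤ)) := by
  rw [← (cosetEquiv p).sum_comp, Fintype.sum_option, quotientFunc_cosetEquiv]
  congr 1
  · change (f : ℍ → ℂ) ∣[k] mapGL ℝ (1 : SL(2, ℤ)) = _
    rw [map_one, SlashAction.slash_one]
  · refine Finset.sum_congr rfl fun x _ => ?_
    rw [quotientFunc_cosetEquiv]
    rfl

/-- Trace zero: `F + ∑ₓ F ∣ (S T^x) = 0`. -/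
theorem add_sum_slash_eq_zero (F : ModularForm Γp 2) :
    (F : ℍ → ℂ) + ∑ x : Fin p, (F : ℍ → ℂ) ∣[(2 : ℤ)] mapGL ℝ (S * T ^ ((x : ℕ) : ℤ)) = 0 := by
  have h := levelOne_weight_two_eq_zero (ModularForm.trace 𝒮ℒ F)
  have h2 : (ModularForm.trace 𝒮ℒ F : ℍ → ℂ) = 0 := by rw [h]; rfl
  rw [ModularForm.coe_trace] at h2
  let := Fintype.ofFinite (↥(𝒮ℒ) ⧸ (Γp).subgroupOf 𝒮ℒ)
  rw [← sum_quotientFunc_eq F]
  exact h2

/-- `F = - U_p (F ∣ W)`. -/
theorem eq_neg_heckeU_slash_alW (F : ModularForm Γp 2) :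
    (F : ℍ → ℂ) = - heckeU 2 p ((F : ℍ → ℂ) ∣[(2 : ℤ)] alW p) := by
  have h := add_sum_slash_eq_zero F
  rw [eq_neg_iff_add_eq_zero, heckeU_def, ← Fin.sum_univ_eq_sum_range
    (fun j => ((F : ℍ → ℂ) ∣[(2 : ℤ)] alW p) ∣[(2 : ℤ)] heckeMatrix p j)]
  rw [← h]
  congr 1
  refine Finset.sum_congr rfl fun x _ => ?_
  rw [slash_S_mul_T_zpow (p := p)]

/-- **Atkin-Lehner at prime level, weight 2**: `F ∣ W = - U_p F`. -/
theorem slash_alW_eq_neg_heckeU (F : ModularForm Γp 2) :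
    (F : ℍ → ℂ) ∣[(2 : ℤ)] alW p = - heckeU 2 p (F : ℍ → ℂ) := by
  have h := eq_neg_heckeU_slash_alW (alForm F)
  rwa [coe_alForm, slash_alW_alW] at h

/-- The conjugates of `F`: `F ∣ (S T^x) = - (U_p F) ∣ [[1, x], [0, p]]`. -/
theorem slash_S_mul_T_zpow_eq (F : ModularForm Γp 2) (x : ℕ) :
    (F : ℍ → ℂ) ∣[(2 : ℤ)] mapGL ℝ (S * T ^ (x : ℤ)) =
      - (heckeU 2 p (F : ℍ → ℂ) ∣[(2 : ℤ)] heckeMatrix p x) := by
  rw [slash_S_mul_T_zpow (p := p), slash_alW_eq_neg_heckeU, SlashAction.neg_slash]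

end Fermat.Agent.S16.H46
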