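/-
S16 / (U5b), helper46: the combinatorial endgame.

For primes `l ≥ 5` and `p` (`l = p` allowed), the multiset `{p, -1, ..., -1}` (`p` copies of `-1`)
has an elementary symmetric function `e_j` which is nonzero mod `l` with `(l - 1) ∤ 2 j`.
(These are, up to the factor `c^j`, the residues mod `l` of the elementary symmetric functions of
the `p + 1` conjugates of `p • F` for a weight-2 form `F ≡ c` on `Γ₀(p)`.)
-/
import Mathlib

set_option autoImplicit false

open Polynomial

namespace Fermat.Agent.S16.H46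

/-- `esymm` commutes with ring homomorphisms. -/
theorem map_esymm {R S : Type*} [CommSemiring R] [CommSemiring S] (φ : R →+* S) (s : Multiset R)
    (n : ℕ) : φ (s.esymm n) = (s.map φ).esymm n := by
  unfold Multiset.esymm
  rw [map_multiset_sum, Multiset.powersetCard_map, Multiset.map_map, Multiset.map_map]
  refine congrArg Multiset.sum (Multiset.map_congr rfl fun t _ => ?_)
  simp only [Function.comp_apply]
  rw [map_multiset_prod]

/-- `esymm` is homogeneous. -/
theorem esymm_map_mul_left {R : Type*} [CommSemiring R] (c : R) (s : Multiset R) (n : ℕ) :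
    (s.map (c * ·)).esymm n = c ^ n * s.esymm n := by
  unfold Multiset.esymm
  rw [Multiset.powersetCard_map, Multiset.map_map, ← Multiset.sum_map_mul_left]
  refine congrArg Multiset.sum (Multiset.map_congr rfl fun t ht => ?_)
  simp only [Function.comp_apply]
  rw [Multiset.prod_map_mul, Multiset.map_const', Multiset.prod_replicate, Multiset.map_id']
  rw [(Multiset.mem_powersetCard.mp ht).2]

section Field

variable {l : ℕ} [hl : Fact l.Prime]

/-- The multiset `{p, -1, ..., -1}` over a commutative ring. -/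
def conjRes (R : Type*) [CommRing R] (p : ℕ) : Multiset R := (p : R) ::ₘ Multiset.replicate p (-1)

theorem card_conjRes (R : Type*) [CommRing R] (p : ℕ) : (conjRes R p).card = p + 1 := by
  simp [conjRes]

theorem map_conjRes {R S : Type*} [CommRing R] [CommRing S] (φ : R →+* S) (p : ℕ) :
    (conjRes R p).map φ = conjRes S p := by
  simp [conjRes]

/-- The polynomial with roots `-conjRes`. -/
theorem prod_conjRes (R : Type*) [CommRing R] (p : ℕ) :
    ((conjRes R p).map fun r => X + C r).prod = (X + C (p : R)) * (X - 1) ^ p := by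
  simp [conjRes, sub_eq_add_neg]

theorem coeff_eq_esymm (R : Type*) [CommRing R] (p : ℕ) {k : ℕ} (hk : k ≤ p + 1) :
    ((X + C (p : R)) * (X - 1) ^ p).coeff k = (conjRes R p).esymm (p + 1 - k) := by
  rw [← prod_conjRes, Multiset.prod_X_add_C_coeff _ (by rwa [card_conjRes]), card_conjRes]

/-- **The combinatorial endgame**, general form.  For a prime `l`, a divisor `D` of `l - 1` with
`D ∤ 2`, and `p ≥ 2`, some elementary symmetric function `e_j` of `{p, -1, ..., -1}` is nonzero
mod `l` with `D ∤ 2 j`. -/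
theorem exists_esymm_ne_zero_of_dvd {D : ℕ} (hD : D ∣ l - 1) (hD2 : ¬ D ∣ 2) {p : ℕ}
    (hp2 : 2 ≤ p) :
    ∃ j, j ≤ p + 1 ∧ (conjRes (ZMod l) p).esymm j ≠ 0 ∧ ¬ D ∣ 2 * j := by
  by_contra hcon
  push Not at hcon
  have hl2 : 2 ≤ l := hl.out.two_le
  obtain ⟨e, he⟩ := hD
  have he0 : e ≠ 0 := by
    rintro rfl
    omega
  -- a generator of the units and `ω := g ^ (2 e)`
  obtain ⟨g, hg⟩ := IsCyclic.exists_generator (α := (ZMod l)ˣ)
  have hord : orderOf g = l - 1 := by
    rw [orderOf_eq_card_of_forall_mem_zpowers hg, Nat.card_eq_fintype_card, ZMod.card_units]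
  set ω : ZMod l := ((g ^ (2 * e) : (ZMod l)ˣ) : ZMod l) with hω
  have hω1 : ω ≠ 1 := by
    intro h
    have h1 : g ^ (2 * e) = 1 := Units.ext (by simpa [hω] using h)
    have h2 := orderOf_dvd_iff_pow_eq_one.mpr h1
    rw [hord, he, mul_comm 2 e, mul_comm D e] at h2
    exact hD2 ((Nat.mul_dvd_mul_iff_left (Nat.pos_of_ne_zero he0)).mp h2)
  have hω0 : ω ≠ 0 := (g ^ (2 * e)).ne_zero
  have hωpow : ∀ j, D ∣ 2 * j → ω ^ j = 1 := by
    intro j hj
    obtain ⟨t, ht⟩ := hj
    have : g ^ (2 * e * j) = 1 := by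
      apply orderOf_dvd_iff_pow_eq_one.mp
      rw [hord, he]
      exact ⟨t, by rw [show 2 * e * j = e * (2 * j) by ring, ht]; ring⟩
    rw [hω, ← Units.val_pow_eq_pow_val, ← pow_mul, this, Units.val_one]
  obtain ⟨Q, hQ⟩ : ∃ Q : (ZMod l)[X], Q = (X + C ((p : ℕ) : ZMod l)) * (X - 1) ^ p := ⟨_, rfl⟩
  -- the functional equation `Q(ω Y) = ω ^ (p + 1) Q(Y)`
  have hcoeff : ∀ k, Q.coeff k * ω ^ k = ω ^ (p + 1) * Q.coeff k := by
    intro k
    rcases le_or_gt k (p + 1) with hk | hk
    · by_cases h0 : Q.coeff k = 0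
      · rw [h0, zero_mul, mul_zero]
      · have h1 := coeff_eq_esymm (ZMod l) p hk
        rw [← hQ] at h1
        have h2 := hcon (p + 1 - k) (by omega) (h1 ▸ h0)
        have h3 := hωpow _ h2
        have : ω ^ (p + 1) = ω ^ k * ω ^ (p + 1 - k) := by
          rw [← pow_add]
          congr 1
          omega
        rw [this, h3, mul_one, mul_comm]
    · have hdeg : Q.natDegree ≤ p + 1 := by
        rw [hQ]
        refine (natDegree_mul_le).trans ?_
        have h1 : (X + C ((p : ℕ) : ZMod l)).natDegree ≤ 1 := by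
          rw [natDegree_X_add_C]
        have h2 : ((X - 1 : (ZMod l)[X]) ^ p).natDegree ≤ p := by
          refine (natDegree_pow_le).trans ?_
          rw [show (X - 1 : (ZMod l)[X]) = X - C 1 by simp, natDegree_X_sub_C, mul_one]
        omega
      rw [coeff_eq_zero_of_natDegree_lt (by omega), zero_mul, mul_zero]
  have hfe : Q.comp (C ω * X) = C (ω ^ (p + 1)) * Q := by
    ext k
    rw [comp_C_mul_X_coeff, coeff_C_mul, hcoeff]
  -- evaluate at `1`
  have hQ1 : Q.eval 1 = 0 := by
    rw [hQ, eval_mul, eval_pow, eval_sub, eval_X, eval_one, sub_self, zero_pow (by omega),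
      mul_zero]
  have hQω : Q.eval ω = 0 := by
    have := congrArg (eval 1) hfe
    rw [eval_comp, eval_mul, eval_C, eval_X, mul_one, eval_mul, eval_C, hQ1, mul_zero] at this
    exact this
  have hωp : ω + (p : ZMod l) = 0 := by
    rw [hQ, eval_mul, eval_add, eval_X, eval_C, eval_pow, eval_sub, eval_X, eval_one] at hQω
    rcases mul_eq_zero.mp hQω with h | h
    · exact h
    · exact absurd (sub_eq_zero.mp (pow_eq_zero_iff (by omega) |>.mp h)) hω1
  -- the derivative
  have hder : derivative Q = (X - 1) ^ p + (X + C ((p : ℕ) : ZMod l)) *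
      (C ((p : ℕ) : ZMod l) * (X - 1) ^ (p - 1)) := by
    rw [hQ, derivative_mul, derivative_add, derivative_X, derivative_C, add_zero, one_mul,
      derivative_pow, derivative_sub, derivative_X, derivative_one, sub_zero, mul_one]
  have hD1 : (derivative Q).eval 1 = 0 := by
    rw [hder]
    simp only [eval_add, eval_mul, eval_pow, eval_sub, eval_X, eval_one, eval_C, sub_self]
    rw [zero_pow (by omega), zero_pow (by omega)]
    ring
  have hDω : (derivative Q).eval ω = 0 := by
    have := congrArg (fun P => eval 1 (derivative P)) hfe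
    simp only [derivative_comp, derivative_mul, derivative_C, derivative_X, zero_mul, mul_one,
      zero_add, eval_mul, eval_C, eval_comp, eval_X, hD1, mul_zero] at this
    rcases mul_eq_zero.mp this with h | h
    · exact absurd h hω0
    · exact h
  rw [hder] at hDω
  simp only [eval_add, eval_mul, eval_pow, eval_sub, eval_X, eval_one, eval_C] at hDω
  rw [hωp, zero_mul, add_zero] at hDω
  exact hω1 (sub_eq_zero.mp (pow_eq_zero_iff (by omega) |>.mp hDω))

/-- **The combinatorial endgame.**  For a prime `l ≥ 5` and `p ≥ 2`, some elementary symmetric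
function `e_j` of `{p, -1, ..., -1}` is nonzero mod `l` with `(l - 1) ∤ 2 j`. -/
theorem exists_esymm_ne_zero (h5 : 5 ≤ l) {p : ℕ} (hp2 : 2 ≤ p) :
    ∃ j, j ≤ p + 1 ∧ (conjRes (ZMod l) p).esymm j ≠ 0 ∧ ¬ (l - 1) ∣ 2 * j :=
  exists_esymm_ne_zero_of_dvd dvd_rfl
    (fun h => by have := Nat.le_of_dvd (by norm_num) h; omega) hp2

/-- Integer version, general form. -/
theorem exists_not_dvd_esymm_of_dvd {D : ℕ} (hD : D ∣ l - 1) (hD2 : ¬ D ∣ 2) {p : ℕ}
    (hp2 : 2 ≤ p) :
    ∃ j, j ≤ p + 1 ∧ ¬ (l : ℤ) ∣ (conjRes ℤ p).esymm j ∧ ¬ D ∣ 2 * j := by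
  obtain ⟨j, hj, hne, hnd⟩ := exists_esymm_ne_zero_of_dvd hD hD2 hp2
  refine ⟨j, hj, ?_, hnd⟩
  intro hdvd
  apply hne
  rw [← map_conjRes (Int.castRingHom (ZMod l)) p, ← map_esymm]
  exact (ZMod.intCast_zmod_eq_zero_iff_dvd _ _).mpr hdvd

/-- Integer version: some `e_j` of `{p, -1, ..., -1} ⊆ ℤ` is prime to `l` with `(l - 1) ∤ 2 j`. -/
theorem exists_not_dvd_esymm (h5 : 5 ≤ l) {p : ℕ} (hp2 : 2 ≤ p) :
    ∃ j, j ≤ p + 1 ∧ ¬ (l : ℤ) ∣ (conjRes ℤ p).esymm j ∧ ¬ (l - 1) ∣ 2 * j := by
  obtain ⟨j, hj, hne, hnd⟩ := exists_esymm_ne_zero h5 hp2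
  refine ⟨j, hj, ?_, hnd⟩
  intro hdvd
  apply hne
  rw [← map_conjRes (Int.castRingHom (ZMod l)) p, ← map_esymm]
  exact (ZMod.intCast_zmod_eq_zero_iff_dvd _ _).mpr hdvd

end Field

end Fermat.Agent.S16.H46
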