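/-
S16 / (U5b), helper46: width-`h` `q`-expansions from convergent `q`-series.

* a holomorphic `f : ℍ → ℂ` given everywhere by `∑ c m * 𝕢 h τ ^ m` has analytic cusp function and
  `qExpansion h f` has coefficients `c`;  `IntRed` from such a series with coefficients in `𝒪`;
* change of width `1 → p` for `1`-periodic series;
* the series of `τ ↦ G ((τ + x) / p)` in width `p`.
-/
import Mathlib
import Fermat.Prelude.Def_ModularForm_HeckeOperator
import Fermat.Agent.S16.H46_IntRed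

set_option autoImplicit false

open UpperHalfPlane Function ModularForm
open scoped ModularForm Real Manifold

noncomputable section

namespace Fermat.Agent.S16.H46

local notation "𝕢" => Periodic.qParam

/-- Periodicity of `f ∘ ofComplex` from periodicity on `ℍ`. -/
theorem periodic_comp_ofComplex_of_forall {f : ℍ → ℂ} {h : ℝ}
    (hf : ∀ τ : ℍ, f (h +ᵥ τ) = f τ) : Periodic (f ∘ ofComplex) h := by
  intro w
  by_cases! hw : 0 < Complex.im w
  · have : 0 < Complex.im (w + h) := by simp [hw]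
    simp only [comp_apply, ofComplex_apply_of_im_pos this, ofComplex_apply_of_im_pos hw]
    rw [← hf ⟨w, hw⟩]
    congr 1
    ext
    simp [add_comm]
  · have : Complex.im (w + h) ≤ 0 := by simpa using hw
    simp [ofComplex_apply_of_im_nonpos this, ofComplex_apply_of_im_nonpos hw]

theorem qParam_add_self {h : ℝ} (hh : h ≠ 0) (z : ℂ) : 𝕢 h (z + h) = 𝕢 h z := by
  have hh' : (h : ℂ) ≠ 0 := by exact_mod_cast hh
  unfold Periodic.qParam
  rw [show 2 * (π : ℂ) * Complex.I * (z + h) / h = 2 * π * Complex.I * z / h + 2 * π * Complex.I by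
    field_simp]
  exact Complex.exp_periodic _

theorem qParam_vadd {h : ℝ} (hh : h ≠ 0) (τ : ℍ) : 𝕢 h ((h +ᵥ τ : ℍ) : ℂ) = 𝕢 h (τ : ℂ) := by
  have h1 : ((h +ᵥ τ : ℍ) : ℂ) = (τ : ℂ) + h := by simp [add_comm]
  rw [h1]
  exact qParam_add_self hh (τ : ℂ)

section Series

variable {f : ℍ → ℂ} {h : ℝ} {c : ℕ → ℂ}

theorem vadd_eq_of_hasSum (hh : h ≠ 0)
    (hc : ∀ τ : ℍ, HasSum (fun m => c m • 𝕢 h τ ^ m) (f τ)) (τ : ℍ) :
    f (h +ᵥ τ) = f τ := by
  have h1 := hc (h +ᵥ τ)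
  rw [qParam_vadd hh] at h1
  exact h1.unique (hc τ)

theorem analyticAt_of_hasSum (hh : 0 < h)
    (hc : ∀ τ : ℍ, HasSum (fun m => c m • 𝕢 h τ ^ m) (f τ)) (hhol : MDiff f) :
    AnalyticAt ℂ (cuspFunction h f) 0 :=
  analyticAt_cuspFunction_zero hh (periodic_comp_ofComplex_of_forall (vadd_eq_of_hasSum hh.ne' hc)) hhol
    (isBoundedAtImInfty_of_hasSum_qExpansion hh hc)

theorem qExpansion_coeff_of_hasSum (hh : 0 < h)
    (hc : ∀ τ : ℍ, HasSum (fun m => c m • 𝕢 h τ ^ m) (f τ)) (hhol : MDiff f) (m : ℕ) :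
    (qExpansion h f).coeff m = c m := by
  have han := analyticAt_of_hasSum hh hc hhol
  have h1 := (hasFPowerSeriesOnBall_cuspFunction hh han hc).hasFPowerSeriesAt
  have h2 : HasFPowerSeriesAt (cuspFunction h f)
      (FormalMultilinearSeries.ofScalars ℂ fun m => (qExpansion h f).coeff m) 0 := by
    simpa [qExpansion_coeff, div_eq_mul_inv, mul_comm] using han.hasFPowerSeriesAt
  have h3 := congr_arg (FormalMultilinearSeries.coeff · m) (h1.eq_formalMultilinearSeries h2)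
  simpa [FormalMultilinearSeries.coeff_ofScalars] using h3.symm

/-- `IntRed` from a convergent series with coefficients in `𝒪`. -/
theorem intRed_of_hasSum {𝒪 : Subring ℂ} {κ : Type*} [CommRing κ] (φ : 𝒪 →+* κ) (hh : 0 < h)
    (hc : ∀ τ : ℍ, HasSum (fun m => c m • 𝕢 h τ ^ m) (f τ)) (hhol : MDiff f)
    (hmem : ∀ m, c m ∈ 𝒪) (r : PowerSeries κ) (hr : ∀ m, φ ⟨c m, hmem m⟩ = r.coeff m) :
    IntRed φ h f r where
  analytic := analyticAt_of_hasSum hh hc hhol
  lift := by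
    refine ⟨PowerSeries.mk fun m => ⟨c m, hmem m⟩, ?_, ?_⟩
    · ext m
      rw [PowerSeries.coeff_map, PowerSeries.coeff_mk, qExpansion_coeff_of_hasSum hh hc hhol]
      rfl
    · ext m
      rw [PowerSeries.coeff_map, PowerSeries.coeff_mk, hr]

end Series

section Width

variable {p : ℕ}

/-- The primitive `p`-th root of unity `exp (2 π i / p)`. -/
def zetaC (p : ℕ) : ℂ := Complex.exp (2 * π * Complex.I / p)

theorem zetaC_pow (hp : p ≠ 0) : zetaC p ^ p = 1 := by
  have hp' : (p : ℂ) ≠ 0 := by exact_mod_cast hp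
  rw [zetaC, ← Complex.exp_nat_mul, mul_div_cancel₀ _ hp', Complex.exp_two_pi_mul_I]

theorem qParam_pow_width (hp : p ≠ 0) (z : ℂ) : 𝕢 (p : ℝ) z ^ p = 𝕢 1 z := by
  have hp' : (p : ℂ) ≠ 0 := by exact_mod_cast hp
  unfold Periodic.qParam
  rw [← Complex.exp_nat_mul]
  congr 1
  push_cast
  field_simp

/-- Change of width `1 → p` for a `1`-periodic series. -/
theorem hasSum_width (hp : p ≠ 0) {c : ℕ → ℂ} {z : ℂ} {v : ℂ}
    (h : HasSum (fun n => c n • 𝕢 1 z ^ n) v) :
    HasSum (fun m => (if p ∣ m then c (m / p) else 0) • 𝕢 (p : ℝ) z ^ m) v := by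
  have hinj : Function.Injective fun n : ℕ => p * n := fun a b hab =>
    Nat.eq_of_mul_eq_mul_left (Nat.pos_of_ne_zero hp) hab
  refine (hinj.hasSum_iff ?_).mp ?_
  · intro m hm
    rw [if_neg, zero_smul]
    rintro ⟨n, rfl⟩
    exact hm ⟨n, rfl⟩
  · convert h using 2 with n
    simp only [Function.comp_apply]
    rw [if_pos (dvd_mul_right p n), Nat.mul_div_cancel_left n (Nat.pos_of_ne_zero hp), pow_mul,
      qParam_pow_width hp]

theorem qParam_heckeMatrix_smul (hp : p ≠ 0) (x : ℕ) (τ : ℍ) :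
    𝕢 1 ((heckeMatrix p x • τ : ℍ) : ℂ) = 𝕢 (p : ℝ) (τ : ℂ) * zetaC p ^ x := by
  have hp' : (p : ℂ) ≠ 0 := by exact_mod_cast hp
  rw [coe_heckeMatrix_smul hp, zetaC, ← Complex.exp_nat_mul]
  unfold Periodic.qParam
  rw [← Complex.exp_add]
  congr 1
  push_cast
  field_simp

/-- The width-`p` series of `τ ↦ G ((τ + x) / p)`. -/
theorem hasSum_comp_heckeMatrix (hp : p ≠ 0) {g : ℕ → ℂ} {G : ℍ → ℂ}
    (hG : ∀ τ : ℍ, HasSum (fun n => g n • 𝕢 1 τ ^ n) (G τ)) (x : ℕ) (τ : ℍ) :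
    HasSum (fun n => (g n * zetaC p ^ (x * n)) • 𝕢 (p : ℝ) τ ^ n) (G (heckeMatrix p x • τ)) := by
  convert hG (heckeMatrix p x • τ) using 2 with n
  rw [qParam_heckeMatrix_smul hp, mul_pow, ← pow_mul, smul_eq_mul, smul_eq_mul]
  ring

end Width

end Fermat.Agent.S16.H46
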