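/-
helper77 — S16 package (U5b-5) CHOICE OF 𝒪 (Mathlib only).

For a prime `l` there is a valuation subring `V` of `ℂ` with `l` in its maximal ideal.  It
contains every algebraic integer (valuation rings are integrally closed), in particular all roots
of unity, and the inverse of every integer prime to `l`.  Consumer form: `𝒪 := V.toSubring`,
`κ := ResidueField`, `φ := residue`.
-/
import Mathlib

set_option autoImplicit false

namespace Fermat.Agent.S16.H77

open IsLocalRing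

/-- **A valuation subring of `ℂ` over the prime `l`.** -/
theorem exists_valuationSubring_over (l : ℕ) [hl : Fact l.Prime] :
    ∃ V : ValuationSubring ℂ, (l : ℂ) ∈ V.nonunits ∧ (∀ x : ℂ, IsIntegral ℤ x → x ∈ V) ∧
      (∀ m : ℤ, ¬ (l : ℤ) ∣ m → (m : ℂ)⁻¹ ∈ V) := by
  classical
  -- the image of ℤ in ℂ and its ideal generated by `l`
  let A : Subring ℂ := (Int.castRingHom ℂ).range
  let lA : A := ⟨(l : ℂ), ⟨(l : ℤ), by simp⟩⟩
  have hI : Ideal.span {lA} ≠ ⊤ := by
    intro htop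
    rw [Ideal.span_singleton_eq_top] at htop
    obtain ⟨⟨u, hu⟩, hu'⟩ := isUnit_iff_exists_inv.mp htop
    obtain ⟨z, rfl⟩ := hu
    have h1 : ((l : ℂ)) * ((z : ℤ) : ℂ) = 1 := by
      have := congrArg Subtype.val hu'
      simpa [lA] using this
    have h2 : ((l : ℤ) * z : ℤ) = 1 := by
      have : (((l : ℤ) * z : ℤ) : ℂ) = ((1 : ℤ) : ℂ) := by push_cast; exact h1
      exact_mod_cast this
    have h3 : (l : ℤ) ∣ 1 := ⟨z, h2.symm⟩
    have h4 : l ∣ 1 := by exact_mod_cast h3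
    exact hl.out.one_lt.ne' (Nat.dvd_one.mp h4)
  obtain ⟨V, hAV, hIV⟩ := Ideal.image_subset_nonunits_valuationSubring (Ideal.span {lA}) hI
  have hlV : (l : ℂ) ∈ V.nonunits :=
    hIV ⟨lA, Ideal.subset_span (Set.mem_singleton lA), rfl⟩
  have hZ : ∀ z : ℤ, (z : ℂ) ∈ V := fun z => hAV ⟨z, rfl⟩
  refine ⟨V, hlV, ?_, ?_⟩
  · -- integrally closed
    intro x hx
    have hx' : IsIntegral V x := by
      obtain ⟨P, hP, hPx⟩ := hx
      refine ⟨P.map (Int.castRingHom V), hP.map _, ?_⟩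
      rw [Polynomial.eval₂_map]
      have : (algebraMap V ℂ).comp (Int.castRingHom V) = algebraMap ℤ ℂ :=
        RingHom.ext_int _ _
      rw [this]
      exact hPx
    obtain ⟨y, hy⟩ := (IsIntegrallyClosed.isIntegral_iff (R := V) (K := ℂ)).mp hx'
    rw [← hy]
    exact y.2
  · -- integers prime to `l` are units of `V`
    intro m hm
    have hcop : IsCoprime (l : ℤ) m := by
      have hp : Prime (l : ℤ) := Nat.prime_iff_prime_int.mp hl.out
      exact (Prime.coprime_iff_not_dvd hp).mpr hm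
    obtain ⟨a, b, hab⟩ := hcop
    -- if `m⁻¹ ∉ V`, then `v m < 1`, and `1 = a l + b m` would have `v 1 < 1`
    by_contra hmV
    have hv_l : V.valuation (l : ℂ) < 1 := V.mem_nonunits_iff.mp hlV
    have hv_m : V.valuation (m : ℂ) < 1 :=
      V.mem_nonunits_iff.mp (V.mem_nonunits_iff_or.mpr (Or.inr hmV))
    have hv_a : V.valuation (a : ℂ) ≤ 1 := (V.valuation_le_one_iff _).mpr (hZ a)
    have hv_b : V.valuation (b : ℂ) ≤ 1 := (V.valuation_le_one_iff _).mpr (hZ b)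
    have hsum : (1 : ℂ) = (a : ℂ) * (l : ℂ) + (b : ℂ) * (m : ℂ) := by
      have := congrArg (fun z : ℤ => (z : ℂ)) hab
      push_cast at this
      exact this.symm
    have h1 : V.valuation ((a : ℂ) * (l : ℂ)) < 1 := by
      rw [map_mul]
      exact Right.mul_lt_one_of_le_of_lt hv_a hv_l
    have h2 : V.valuation ((b : ℂ) * (m : ℂ)) < 1 := by
      rw [map_mul]
      exact Right.mul_lt_one_of_le_of_lt hv_b hv_m
    have h3 : V.valuation (1 : ℂ) < 1 := by
      rw [hsum]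
      exact lt_of_le_of_lt (Valuation.map_add _ _ _) (max_lt h1 h2)
    rw [map_one] at h3
    exact lt_irrefl _ h3

/-- integers prime to `l` are units of a subring of `ℂ` containing their inverses. -/
theorem isUnit_intCast_of_inv_mem (𝒪 : Subring ℂ) (m : ℤ) (hm0 : m ≠ 0)
    (hinv : (m : ℂ)⁻¹ ∈ 𝒪) : IsUnit ((m : ℤ) : 𝒪) := by
  refine isUnit_iff_exists_inv.mpr ⟨⟨(m : ℂ)⁻¹, hinv⟩, ?_⟩
  apply Subtype.ext
  have hm : (m : ℂ) ≠ 0 := by exact_mod_cast hm0
  simp [hm]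

/-- **CHOICE OF `𝒪`** (consumer form).  For a prime `l` there are a local subring `𝒪 ⊆ ℂ`, a field
`κ` of characteristic `l` and a ring hom `φ : 𝒪 →+* κ` with kernel the maximal ideal, such that
`𝒪` contains all algebraic integers (so all roots of unity), every integer prime to `l` is a unit
of `𝒪`, and an integer is killed by `φ` iff it is divisible by `l`. -/
theorem exists_subring_hom (l : ℕ) [hl : Fact l.Prime] :
    ∃ (𝒪 : Subring ℂ) (_ : IsLocalRing 𝒪) (κ : Type) (_ : Field κ) (φ : 𝒪 →+* κ),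
      CharP κ l ∧ (∀ x : 𝒪, φ x = 0 ↔ x ∈ IsLocalRing.maximalIdeal 𝒪) ∧
      (l : 𝒪) ∈ IsLocalRing.maximalIdeal 𝒪 ∧ φ (l : 𝒪) = 0 ∧
      (∀ z : ℤ, φ ((z : ℤ) : 𝒪) = 0 ↔ (l : ℤ) ∣ z) ∧
      (∀ x : ℂ, IsIntegral ℤ x → x ∈ 𝒪) ∧
      (∀ m : ℤ, ¬ (l : ℤ) ∣ m → IsUnit ((m : ℤ) : 𝒪)) ∧
      Function.Surjective φ := by
  obtain ⟨V, hlV, hint, hinv⟩ := exists_valuationSubring_over l
  let 𝒪 : Subring ℂ := V.toSubring
  have hloc : IsLocalRing 𝒪 := inferInstanceAs (IsLocalRing V)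
  let φ : 𝒪 →+* IsLocalRing.ResidueField 𝒪 := IsLocalRing.residue 𝒪
  have hker : ∀ x : 𝒪, φ x = 0 ↔ x ∈ IsLocalRing.maximalIdeal 𝒪 :=
    fun x => IsLocalRing.residue_eq_zero_iff x
  have hlmem : (l : 𝒪) ∈ IsLocalRing.maximalIdeal 𝒪 := by
    have h1 : (((l : 𝒪) : 𝒪) : ℂ) = (l : ℂ) := by simp
    have h2 : (((l : V) : V) : ℂ) ∈ V.nonunits := by
      have : (((l : V) : V) : ℂ) = (l : ℂ) := by simp
      rw [this]; exact hlV
    exact (ValuationSubring.coe_mem_nonunits_iff (A := V) (a := (l : V))).mp h2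
  have hφl : φ (l : 𝒪) = 0 := (hker _).mpr hlmem
  have hunit : ∀ m : ℤ, ¬ (l : ℤ) ∣ m → IsUnit ((m : ℤ) : 𝒪) := by
    intro m hm
    have hm0 : m ≠ 0 := by
      rintro rfl
      exact hm (dvd_zero _)
    exact isUnit_intCast_of_inv_mem 𝒪 m hm0 (hinv m hm)
  have hchar : CharP (IsLocalRing.ResidueField 𝒪) l := by
    refine (CharP.charP_iff_prime_eq_zero hl.out).mpr ?_
    have : ((l : ℕ) : IsLocalRing.ResidueField 𝒪) = φ (l : 𝒪) := by simp [φ]
    rw [this, hφl]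
  refine ⟨𝒪, hloc, IsLocalRing.ResidueField 𝒪, inferInstance, φ, hchar, hker, hlmem, hφl, ?_,
    hint, hunit, IsLocalRing.residue_surjective⟩
  intro z
  constructor
  · intro hz
    by_contra hnd
    have hu := (hunit z hnd).map φ
    rw [hz] at hu
    exact not_isUnit_zero hu
  · rintro ⟨w, rfl⟩
    have : (((l : ℤ) * w : ℤ) : 𝒪) = (l : 𝒪) * ((w : ℤ) : 𝒪) := by push_cast; ring
    rw [this, map_mul, hφl, zero_mul]

/-- Roots of unity are algebraic integers. -/
theorem isIntegral_of_pow_eq_one {x : ℂ} {n : ℕ} (hn : 0 < n) (hx : x ^ n = 1) :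
    IsIntegral ℤ x :=
  IsIntegral.of_pow hn (hx ▸ isIntegral_one)

/-- `exp (2πi/p)` is an algebraic integer (this is helper46's `zetaC p`). -/
theorem isIntegral_exp_two_pi_div (p : ℕ) (hp : p ≠ 0) :
    IsIntegral ℤ (Complex.exp (2 * Real.pi * Complex.I / p)) := by
  refine isIntegral_of_pow_eq_one (Nat.pos_of_ne_zero hp) ?_
  have hp' : (p : ℂ) ≠ 0 := by exact_mod_cast hp
  rw [← Complex.exp_nat_mul, mul_div_cancel₀ _ hp', Complex.exp_two_pi_mul_I]

end Fermat.Agent.S16.H77
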