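/-
S16 / (U5b), helper46, file 1: elementary symmetric functions of the conjugates of a modular form.

For `𝒢, ℋ` subgroups of `GL(2, ℝ)` with `𝒢 ⊓ ℋ` of finite index in `ℋ` and `ℋ` of determinant `± 1`,
and `f` a modular form of weight `k` for `𝒢`, the `i`-th elementary symmetric function of the
`ℋ`-conjugates of `f` is a modular form of weight `k * i` for `ℋ`.  (Mathlib's `ModularForm.trace`
is the case `i = 1`, `ModularForm.norm` the case `i = [ℋ : 𝒢 ⊓ ℋ]`.)
-/
import Mathlib

set_option autoImplicit false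

open UpperHalfPlane
open scoped ModularForm Topology Filter Manifold MatrixGroups

noncomputable section

namespace Fermat.Agent.S16.H46

variable {𝒢 ℋ : Subgroup (GL (Fin 2) ℝ)} {F : Type*} (f : F) [FunLike F ℍ ℂ] {k : ℤ}

local notation "𝒬" => ℋ ⧸ (𝒢.subgroupOf ℋ)

open SlashInvariantForm

section SIF

variable [SlashInvariantFormClass F 𝒢 k]

variable (ℋ) [𝒢.IsFiniteRelIndex ℋ]

/-- The `i`-th elementary symmetric function of the conjugates, as a function. -/
def esymmFun (i : ℕ) : ℍ → ℂ :=
  let := Fintype.ofFinite 𝒬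
  ∑ S ∈ Finset.powersetCard i (Finset.univ : Finset 𝒬), ∏ q ∈ S, quotientFunc f q

theorem esymmFun_eq [Fintype 𝒬] (i : ℕ) :
    esymmFun ℋ f i = ∑ S ∈ Finset.powersetCard i (Finset.univ : Finset 𝒬),
      ∏ q ∈ S, quotientFunc f q := by
  unfold esymmFun
  congr!

theorem esymmFun_slash [ℋ.HasDetPlusMinusOne] (i : ℕ) {h : GL (Fin 2) ℝ} (hh : h ∈ ℋ) :
    esymmFun ℋ f i ∣[k * i] h = esymmFun ℋ f i := by
  classical
  let := Fintype.ofFinite 𝒬
  rw [esymmFun_eq, SlashAction.sum_slash]
  -- the permutation of the cosets induced by `h⁻¹`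
  let σ : Equiv.Perm 𝒬 := MulAction.toPerm ((⟨h, hh⟩ : ℋ)⁻¹)
  have key : ∀ S ∈ Finset.powersetCard i (Finset.univ : Finset 𝒬),
      (∏ q ∈ S, quotientFunc f q) ∣[k * i] h = ∏ q ∈ S.map σ.toEmbedding, quotientFunc f q := by
    intro S hS
    have hcard : S.card = i := (Finset.mem_powersetCard.mp hS).2
    subst hcard
    rw [ModularForm.prod_slash, Subgroup.HasDetPlusMinusOne.abs_det hh, one_zpow, one_smul,
      Finset.prod_map]
    refine Finset.prod_congr rfl fun q _ => ?_
    rw [quotientFunc_smul f hh q]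
    rfl
  rw [Finset.sum_congr rfl key]
  -- reindex the sum over `i`-subsets
  refine Finset.sum_bij (fun S _ => S.map σ.toEmbedding) ?_ ?_ ?_ ?_
  · intro S hS
    rw [Finset.mem_powersetCard] at hS ⊢
    exact ⟨Finset.subset_univ _, by rw [Finset.card_map, hS.2]⟩
  · intro S _ S' _ hSS'
    exact Finset.map_injective _ hSS'
  · intro S hS
    refine ⟨S.map σ.symm.toEmbedding, ?_, ?_⟩
    · rw [Finset.mem_powersetCard] at hS ⊢
      exact ⟨Finset.subset_univ _, by rw [Finset.card_map, hS.2]⟩
    · ext q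
      simp
  · intro S _
    rfl

/-- The `i`-th elementary symmetric function of the conjugates, as a slash-invariant form. -/
def esymmSIF [ℋ.HasDetPlusMinusOne] (i : ℕ) : SlashInvariantForm ℋ (k * i) where
  toFun := esymmFun ℋ f i
  slash_action_eq' _ hh := esymmFun_slash ℋ f i hh

end SIF

section MF

variable (ℋ) [𝒢.IsFiniteRelIndex ℋ] [ℋ.HasDetPlusMinusOne] [ModularFormClass F 𝒢 k]

/-- The `i`-th elementary symmetric function of the conjugates of a modular form, as a modular
form of weight `k * i`. -/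
def esymmForm (i : ℕ) : ModularForm ℋ (k * i) where
  __ := esymmSIF ℋ f i
  holo' := by
    classical
    let := Fintype.ofFinite 𝒬
    change MDiff (esymmFun ℋ f i)
    rw [esymmFun_eq]
    refine MDifferentiable.sum fun S _ => ?_
    exact MDifferentiable.prod (Quotient.forall.mpr fun ⟨r, hr⟩ _ ↦
      (ModularForm.translate f r⁻¹).holo')
  bdd_at_cusps' {c} hc γ := by
    classical
    rintro rfl
    let := Fintype.ofFinite 𝒬
    change IsBoundedAtImInfty (esymmFun ℋ f i ∣[k * i] γ)
    rw [esymmFun_eq, SlashAction.sum_slash, IsBoundedAtImInfty, Filter.BoundedAtFilter,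
      Finset.sum_fn]
    refine Asymptotics.IsBigO.fun_sum fun S hS => ?_
    have hcard : S.card = i := (Finset.mem_powersetCard.mp hS).2
    subst hcard
    rw [ModularForm.prod_slash]
    apply Asymptotics.IsBigO.const_smul_left
    rw [show (1 : ℍ → ℝ) = (fun x ↦ ∏ (_i ∈ S), (1 : ℝ)) by ext; simp, Finset.prod_fn]
    refine Asymptotics.IsBigO.finsetProd ?_
    refine Quotient.forall.mpr fun ⟨r, hr⟩ _ ↦ ?_
    refine (ModularForm.translate f _).bdd_at_cusps' ?_ γ rfl
    simpa using hc.of_isFiniteRelIndex_conj hr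

@[simp] theorem coe_esymmForm (i : ℕ) : ⇑(esymmForm ℋ f i) = esymmFun ℋ f i := rfl

end MF

end Fermat.Agent.S16.H46
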