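/-
helper77 — S16 package (U5b-2) ESYMM (Mathlib only).

Elementary symmetric functions of the coset translates of a modular form, as modular forms for
the bigger group.  Same construction as Mathlib's `ModularForm.norm` / `ModularForm.trace`
(`Mathlib/NumberTheory/ModularForms/NormTrace.lean`): `esymmForm ℋ f 1` is the trace and
`esymmForm ℋ f (Nat.card 𝒬)` is the norm.
-/
import Mathlib

set_option autoImplicit false

open UpperHalfPlane SlashInvariantForm
open scoped ModularForm Topology Filter Manifold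

namespace Fermat.Agent.S16.H77

variable {𝒢 ℋ : Subgroup (GL (Fin 2) ℝ)} {F : Type*} (f : F) [FunLike F ℍ ℂ] {k : ℤ}

local notation "𝒬" => ℋ ⧸ (𝒢.subgroupOf ℋ)

section fn

variable [SlashInvariantFormClass F 𝒢 k]

/-- The `i`-th elementary symmetric function of the translates of `f`, as a function on `ℍ`,
for an arbitrary `Fintype` structure on the coset space. -/
noncomputable def esymmFun' [Fintype 𝒬] (i : ℕ) : ℍ → ℂ :=
  ∑ s ∈ Finset.powersetCard i (Finset.univ : Finset 𝒬), ∏ q ∈ s, quotientFunc f q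

theorem esymmFun'_congr (inst1 inst2 : Fintype 𝒬) (i : ℕ) :
    @esymmFun' 𝒢 ℋ F f _ k _ inst1 i = @esymmFun' 𝒢 ℋ F f _ k _ inst2 i := by
  have : inst1 = inst2 := Subsingleton.elim _ _
  subst this
  rfl

theorem esymmFun'_apply [Fintype 𝒬] (i : ℕ) (τ : ℍ) :
    esymmFun' (ℋ := ℋ) f i τ =
      ∑ s ∈ Finset.powersetCard i (Finset.univ : Finset 𝒬), ∏ q ∈ s, quotientFunc f q τ := by
  simp [esymmFun', Finset.sum_apply, Finset.prod_apply]

theorem esymmFun'_apply_eq_multiset [Fintype 𝒬] (i : ℕ) (τ : ℍ) :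
    esymmFun' (ℋ := ℋ) f i τ =
      ((Finset.univ : Finset 𝒬).val.map (fun q => quotientFunc f q τ)).esymm i := by
  rw [esymmFun'_apply, ← Finset.esymm_map_val]

/-- Reindexing along an equivalence `ι ≃ 𝒬`. -/
theorem esymmFun'_apply_eq_multiset_equiv [Fintype 𝒬] {ι : Type*} [Fintype ι] (e : ι ≃ 𝒬)
    (i : ℕ) (τ : ℍ) :
    esymmFun' (ℋ := ℋ) f i τ =
      ((Finset.univ : Finset ι).val.map (fun j => quotientFunc f (e j) τ)).esymm i := by
  rw [esymmFun'_apply_eq_multiset]
  congr 1
  have : (Finset.univ : Finset 𝒬) = (Finset.univ : Finset ι).map e.toEmbedding :=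
    (Finset.map_univ_equiv e).symm
  rw [this, Finset.map_val, Multiset.map_map]
  rfl

theorem quotientFunc_slash_eq {h : GL (Fin 2) ℝ} (hh : h ∈ ℋ) (q : 𝒬) :
    quotientFunc f q ∣[k] h = quotientFunc f (MulAction.toPerm ((⟨h, hh⟩ : ℋ)⁻¹) q) :=
  quotientFunc_smul f hh q

/-- slash of a product over a finset of the right cardinality, `|det| = 1`. -/
theorem prod_slash_of_card {ι : Type*} (s : Finset ι) (i : ℕ) (hs : s.card = i)
    (φ : ι → ℍ → ℂ) {g : GL (Fin 2) ℝ} (hg : |g.det.val| = 1) :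
    (∏ q ∈ s, φ q) ∣[k * i] g = ∏ q ∈ s, φ q ∣[k] g := by
  subst hs
  rw [ModularForm.prod_slash, hg, one_zpow, one_smul]

theorem esymmFun'_slash [Fintype 𝒬] [ℋ.HasDetPlusMinusOne] (i : ℕ) {h : GL (Fin 2) ℝ}
    (hh : h ∈ ℋ) : esymmFun' (ℋ := ℋ) f i ∣[k * i] h = esymmFun' (ℋ := ℋ) f i := by
  classical
  unfold esymmFun'
  rw [SlashAction.sum_slash]
  set σ : Equiv.Perm 𝒬 := MulAction.toPerm ((⟨h, hh⟩ : ℋ)⁻¹) with hσ
  have hdet : |h.det.val| = 1 := Subgroup.HasDetPlusMinusOne.abs_det hh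
  have hterm : ∀ s ∈ Finset.powersetCard i (Finset.univ : Finset 𝒬),
      (∏ q ∈ s, quotientFunc f q) ∣[k * i] h
        = ∏ q ∈ s.map σ.toEmbedding, quotientFunc f q := by
    intro s hs
    rw [prod_slash_of_card s i (Finset.mem_powersetCard.mp hs).2 _ hdet, Finset.prod_map]
    refine Finset.prod_congr rfl ?_
    intro q _
    exact quotientFunc_slash_eq f hh q
  rw [Finset.sum_congr rfl hterm]
  have hmap : (Finset.powersetCard i (Finset.univ : Finset 𝒬)).map
      (Finset.mapEmbedding σ.toEmbedding).toEmbedding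
        = Finset.powersetCard i (Finset.univ : Finset 𝒬) := by
    rw [← Finset.powersetCard_map, Finset.map_univ_equiv]
  conv_rhs => rw [← hmap]
  rw [Finset.sum_map]
  rfl

end fn

theorem mdifferentiable_quotientFunc [ModularFormClass F 𝒢 k] (q : 𝒬) :
    MDiff (quotientFunc f q) := by
  induction q using Quotient.inductionOn with
  | h r => exact (ModularForm.translate f r.val⁻¹).holo'

section forms

variable (ℋ) [𝒢.IsFiniteRelIndex ℋ]

/-- The `i`-th elementary symmetric function of the translates, as a slash-invariant form. -/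
noncomputable def esymmSIF [SlashInvariantFormClass F 𝒢 k] [ℋ.HasDetPlusMinusOne] (i : ℕ) :
    SlashInvariantForm ℋ (k * i) where
  toFun := @esymmFun' 𝒢 ℋ F f _ k _ (Fintype.ofFinite 𝒬) i
  slash_action_eq' h hh := by
    let _ := Fintype.ofFinite 𝒬
    exact esymmFun'_slash f i hh

/-- **ESYMM.** The `i`-th elementary symmetric function of the `ℋ`-translates of a modular form
`f` for `𝒢`, as a modular form of weight `k * i` for `ℋ`. -/
noncomputable def esymmForm [ℋ.HasDetPlusMinusOne] [ModularFormClass F 𝒢 k] (i : ℕ) :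
    ModularForm ℋ (k * i) where
  __ := esymmSIF ℋ f i
  holo' := by
    let _ := Fintype.ofFinite 𝒬
    change MDiff (esymmFun' (ℋ := ℋ) f i)
    unfold esymmFun'
    exact .sum (fun s _ => .prod (fun q _ => mdifferentiable_quotientFunc f q))
  bdd_at_cusps' h γ := by
    rintro rfl
    let _ := Fintype.ofFinite 𝒬
    classical
    change IsBoundedAtImInfty ((esymmFun' (ℋ := ℋ) f i) ∣[k * i] γ)
    unfold esymmFun'
    rw [SlashAction.sum_slash, IsBoundedAtImInfty, Filter.BoundedAtFilter]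
    have hterm : ∀ s ∈ Finset.powersetCard i (Finset.univ : Finset 𝒬),
        ((∏ q ∈ s, quotientFunc f q) ∣[k * i] γ) =O[atImInfty] (1 : ℍ → ℝ) := by
      intro s hs
      have hcard : s.card = i := (Finset.mem_powersetCard.mp hs).2
      subst hcard
      rw [ModularForm.prod_slash]
      apply Asymptotics.IsBigO.const_smul_left
      rw [show (1 : ℍ → ℝ) = (fun x ↦ ∏ _i ∈ s, (1 : ℝ)) by ext; simp, Finset.prod_fn]
      refine .finsetProd (fun q _ => ?_)
      induction q using Quotient.inductionOn with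
      | h r =>
        obtain ⟨r, hr⟩ := r
        refine (ModularForm.translate f _).bdd_at_cusps' ?_ γ rfl
        simpa using h.of_isFiniteRelIndex_conj hr
    rw [show (1 : ℍ → ℝ) = (fun _ ↦ (1 : ℝ)) from rfl]
    have := Asymptotics.IsBigO.sum (s := Finset.powersetCard i (Finset.univ : Finset 𝒬))
      (A := fun s => ((∏ q ∈ s, quotientFunc f q) ∣[k * i] γ)) (g := fun _ : ℍ => (1 : ℝ))
      (l := atImInfty) (fun s hs => hterm s hs)
    simpa [Finset.sum_fn] using this

variable [ℋ.HasDetPlusMinusOne] [ModularFormClass F 𝒢 k]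

theorem coe_esymmForm (i : ℕ) :
    ⇑(esymmForm ℋ f i) = @esymmFun' 𝒢 ℋ F f _ k _ (Fintype.ofFinite 𝒬) i := rfl

theorem coe_esymmForm' [Fintype 𝒬] (i : ℕ) :
    ⇑(esymmForm ℋ f i) = esymmFun' (ℋ := ℋ) f i := by
  rw [coe_esymmForm]
  exact esymmFun'_congr f _ _ i

theorem esymmForm_apply [Fintype 𝒬] (i : ℕ) (τ : ℍ) :
    esymmForm ℋ f i τ =
      ∑ s ∈ Finset.powersetCard i (Finset.univ : Finset 𝒬), ∏ q ∈ s, quotientFunc f q τ := by
  rw [coe_esymmForm' ℋ f i, esymmFun'_apply]

theorem esymmForm_apply_eq_multiset [Fintype 𝒬] (i : ℕ) (τ : ℍ) :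
    esymmForm ℋ f i τ =
      ((Finset.univ : Finset 𝒬).val.map (fun q => quotientFunc f q τ)).esymm i := by
  rw [coe_esymmForm' ℋ f i, esymmFun'_apply_eq_multiset]

/-- Reindexed along any `e : ι ≃ ℋ ⧸ 𝒢.subgroupOf ℋ`. -/
theorem esymmForm_apply_eq_multiset_equiv {ι : Type*} [Fintype ι] (e : ι ≃ 𝒬) (i : ℕ) (τ : ℍ) :
    esymmForm ℋ f i τ =
      ((Finset.univ : Finset ι).val.map (fun j => quotientFunc f (e j) τ)).esymm i := by
  let _ := Fintype.ofFinite 𝒬
  rw [coe_esymmForm' ℋ f i, esymmFun'_apply_eq_multiset_equiv f e i τ]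

/-- The generating polynomial identity: `∏ (X - φ_q τ) = ∑_j (-1)^j e_j(τ) X^(n-j)`. -/
theorem prod_X_sub_quotientFunc {ι : Type*} [Fintype ι] (e : ι ≃ 𝒬) (τ : ℍ) :
    (∏ j : ι, (Polynomial.X - Polynomial.C (quotientFunc f (e j) τ))) =
      ∑ j ∈ Finset.range (Fintype.card ι + 1),
        (-1) ^ j * (Polynomial.C (esymmForm ℋ f j τ) * Polynomial.X ^ (Fintype.card ι - j)) := by
  have h := Multiset.prod_X_sub_X_eq_sum_esymm
    ((Finset.univ : Finset ι).val.map (fun j => quotientFunc f (e j) τ))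
  rw [Multiset.map_map, Multiset.card_map] at h
  have hc : Multiset.card (Finset.univ : Finset ι).val = Fintype.card ι := rfl
  rw [hc] at h
  rw [show (∏ j : ι, (Polynomial.X - Polynomial.C (quotientFunc f (e j) τ))) =
    (Multiset.map ((fun t => Polynomial.X - Polynomial.C t) ∘ fun j => quotientFunc f (e j) τ)
      (Finset.univ : Finset ι).val).prod from rfl, h]
  refine Finset.sum_congr rfl ?_
  intro j _
  rw [esymmForm_apply_eq_multiset_equiv ℋ f e j τ]

end forms

end Fermat.Agent.S16.H77
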