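/-
helper77 — S16 package (U5b-4) ROOT-SYMMETRY (Mathlib only).

If the elementary symmetric functions `e_i` of the multiset `a ::ₘ replicate p d` over a field
of characteristic `l ≥ 5` vanish for every `i` not divisible by `(l-1)/2`, then `a = d = 0`.
(Used with the Swinnerton-Dyer weight congruence: a level-one form of weight `2 i` which is a
nonzero constant mod `l` forces `(l-1) ∣ 2 i`.)
-/
import Mathlib

set_option autoImplicit false

namespace Fermat.Agent.S16.H77

open Polynomial Multiset

/-- `esymm` of a rescaled multiset. -/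
theorem esymm_map_mul_left {R : Type*} [CommSemiring R] (u : R) (s : Multiset R) (i : ℕ) :
    (s.map (fun x => u * x)).esymm i = u ^ i * s.esymm i := by
  classical
  unfold Multiset.esymm
  rw [Multiset.powersetCard_map, Multiset.map_map, ← Multiset.sum_map_mul_left]
  refine congrArg Multiset.sum (Multiset.map_congr rfl ?_)
  intro t ht
  have hcard : Multiset.card t = i := (Multiset.mem_powersetCard.mp ht).2
  simp only [Function.comp_apply]
  rw [Multiset.prod_map_mul, Multiset.map_const', Multiset.prod_replicate, hcard,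
    Multiset.map_id']

/-- Two multisets with the same elementary symmetric functions are equal (over a field, or
any commutative domain). -/
theorem eq_of_esymm_eq {R : Type*} [CommRing R] [IsDomain R] (s t : Multiset R)
    (hcard : Multiset.card s = Multiset.card t) (h : ∀ i, s.esymm i = t.esymm i) : s = t := by
  have hP : (s.map fun a => X - C a).prod = (t.map fun a => X - C a).prod := by
    rw [Multiset.prod_X_sub_X_eq_sum_esymm, Multiset.prod_X_sub_X_eq_sum_esymm, hcard]
    refine Finset.sum_congr rfl ?_
    intro j _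
    rw [h j]
  have := congrArg Polynomial.roots hP
  rwa [Polynomial.roots_multiset_prod_X_sub_C, Polynomial.roots_multiset_prod_X_sub_C] at this

/-- If `e_i(s) = 0` whenever `h ∤ i` and `u ^ h = 1`, then `s` is stable under `x ↦ u x`. -/
theorem map_mul_eq_self_of_sparse {R : Type*} [CommRing R] [IsDomain R] (s : Multiset R)
    (h : ℕ) (u : R) (hu : u ^ h = 1)
    (hs : ∀ i, ¬ h ∣ i → s.esymm i = 0) : s.map (fun x => u * x) = s := by
  refine eq_of_esymm_eq _ _ (by simp) ?_
  intro i
  rw [esymm_map_mul_left]
  by_cases hi : h ∣ i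
  · obtain ⟨m, rfl⟩ := hi
    rw [pow_mul, hu, one_pow, one_mul]
  · rw [hs i hi, mul_zero]

/-- In characteristic `l ≥ 5` the element `4` has `4 ^ ((l-1)/2) = 1` and `4 ≠ 1`. -/
theorem four_pow_half {κ : Type*} [Field κ] {l : ℕ} [Fact l.Prime] [CharP κ l] (hl : 5 ≤ l) :
    (4 : κ) ^ ((l - 1) / 2) = 1 ∧ (4 : κ) ≠ 1 := by
  have hlp : l.Prime := Fact.out
  have hodd : l % 2 = 1 := by
    rcases hlp.eq_two_or_odd with h2 | h2
    · omega
    · exact h2
  constructor
  · have h2 : (2 : ZMod l) ≠ 0 := by
      intro h0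
      have : ((2 : ℕ) : ZMod l) = 0 := by exact_mod_cast h0
      rw [ZMod.natCast_eq_zero_iff] at this
      have := Nat.le_of_dvd (by norm_num) this
      omega
    have hz : (2 : ZMod l) ^ (l - 1) = 1 := ZMod.pow_card_sub_one_eq_one h2
    have hk : (2 : κ) ^ (l - 1) = 1 := by
      have := congrArg (ZMod.castHom (dvd_refl l) κ) hz
      rw [map_pow, map_one, map_ofNat] at this
      exact this
    have h4 : (4 : κ) = 2 ^ 2 := by norm_num
    rw [h4, ← pow_mul]
    have : 2 * ((l - 1) / 2) = l - 1 := by omega
    rw [this, hk]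
  · intro h41
    have h3 : ((3 : ℕ) : κ) = 0 := by
      have : (4 : κ) - 1 = 0 := by rw [h41]; ring
      push_cast
      linear_combination this
    rw [CharP.cast_eq_zero_iff κ l 3] at h3
    have := Nat.le_of_dvd (by norm_num) h3
    omega

/-- A multiset `a ::ₘ replicate p d` (`p ≥ 2`) stable under multiplication by `u ≠ 1` is
`0 ::ₘ replicate p 0`. -/
theorem cons_replicate_stable {κ : Type*} [Field κ] {p : ℕ} (hp : 2 ≤ p) (a d u : κ)
    (hu1 : u ≠ 1)
    (hst : (a ::ₘ Multiset.replicate p d).map (fun x => u * x) = a ::ₘ Multiset.replicate p d) :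
    a = 0 ∧ d = 0 := by
  classical
  have hfix : ∀ x : κ, u * x = x → x = 0 := by
    intro x hx
    have : (u - 1) * x = 0 := by rw [sub_mul, hx, one_mul, sub_self]
    rcases mul_eq_zero.mp this with h | h
    · exact absurd (sub_eq_zero.mp h) hu1
    · exact h
  rw [Multiset.map_cons, Multiset.map_replicate] at hst
  by_cases had : a = d
  · subst had
    have hmem : u * a ∈ a ::ₘ Multiset.replicate p a := by
      rw [← hst]; exact Multiset.mem_cons_self _ _
    have : u * a = a := by
      rcases Multiset.mem_cons.mp hmem with h | h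
      · exact h
      · exact Multiset.eq_of_mem_replicate h
    exact ⟨hfix a this, hfix a this⟩
  · exfalso
    have hca := congrArg (Multiset.count a) hst
    simp only [Multiset.count_cons, Multiset.count_replicate] at hca
    have hda : ¬ (d = a) := fun h => had h.symm
    simp only [hda, if_false, if_true, zero_add] at hca
    by_cases hud : u * d = a
    · rw [if_pos hud] at hca
      split_ifs at hca <;> omega
    · rw [if_neg hud] at hca
      have hua : u * a = a := by
        by_contra hne
        rw [if_neg (fun h => hne h.symm)] at hca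
        omega
      have ha0 : a = 0 := hfix a hua
      have hd0 : d ≠ 0 := fun h => had (ha0.trans h.symm)
      have hcd := congrArg (Multiset.count d) hst
      simp only [Multiset.count_cons, Multiset.count_replicate] at hcd
      have h1 : ¬ (u * d = d) := fun h => hd0 (hfix d h)
      have h2 : ¬ (d = u * a) := by
        rw [ha0, mul_zero]; exact hd0
      simp only [h1, h2, hda, if_false, if_true, add_zero] at hcd
      omega

/-- **ROOT-SYMMETRY.** Over a field of characteristic `l ≥ 5`, the elementary symmetric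
functions of `a ::ₘ replicate p d` (`p ≥ 2`, `(a, d) ≠ (0, 0)`) cannot all vanish off the
multiples of `(l-1)/2`. -/
theorem esymm_sparse_false {κ : Type*} [Field κ] {l : ℕ} [Fact l.Prime] [CharP κ l]
    (hl : 5 ≤ l) {p : ℕ} (hp : 2 ≤ p) (a d : κ) (had : a ≠ 0 ∨ d ≠ 0)
    (h : ∀ i, ¬ ((l - 1) / 2 ∣ i) → (a ::ₘ Multiset.replicate p d).esymm i = 0) : False := by
  obtain ⟨hu, hu1⟩ := four_pow_half (κ := κ) hl
  have hst := map_mul_eq_self_of_sparse (a ::ₘ Multiset.replicate p d) ((l - 1) / 2) 4 hu h
  obtain ⟨ha, hd⟩ := cons_replicate_stable hp a d 4 hu1 hst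
  rcases had with h' | h'
  · exact h' ha
  · exact h' hd

/-- The same in "Swinnerton-Dyer contrapositive" form: if every nonvanishing `e_i` has
`(l-1) ∣ 2 i`, contradiction. -/
theorem esymm_swd_false {κ : Type*} [Field κ] {l : ℕ} [Fact l.Prime] [CharP κ l]
    (hl : 5 ≤ l) {p : ℕ} (hp : 2 ≤ p) (a d : κ) (had : a ≠ 0 ∨ d ≠ 0)
    (h : ∀ i : ℕ, (a ::ₘ Multiset.replicate p d).esymm i ≠ 0 → ((l : ℤ) - 1) ∣ 2 * (i : ℤ)) :
    False := by
  have hlp : l.Prime := Fact.out
  have hodd : l % 2 = 1 := by
    rcases hlp.eq_two_or_odd with h2 | h2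
    · omega
    · exact h2
  refine esymm_sparse_false hl hp a d had ?_
  intro i hi
  by_contra hne
  apply hi
  have hdiv := h i hne
  have hnat : (l - 1) ∣ 2 * i := by
    have : ((l - 1 : ℕ) : ℤ) ∣ ((2 * i : ℕ) : ℤ) := by
      have h1 : ((l - 1 : ℕ) : ℤ) = (l : ℤ) - 1 := by
        have : 1 ≤ l := by omega
        push_cast [this]; ring
      rw [h1]; push_cast; exact hdiv
    exact Int.natCast_dvd_natCast.mp this
  have hl1 : l - 1 = 2 * ((l - 1) / 2) := by omega
  rw [hl1] at hnat
  exact (Nat.mul_dvd_mul_iff_left (by norm_num : 0 < 2)).mp hnat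

end Fermat.Agent.S16.H77
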