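/-
helper77 — S16 package (U5b-4) ROOT-SYMMETRY, general sparsity modulus `d`
(coordinator's shape #2252: `1 < d`, `¬ l ∣ d`).

If the elementary symmetric functions `e_i` of `a ::ₘ replicate p b` (`p ≥ 2`, `(a,b) ≠ (0,0)`)
over a field `κ` vanish for all `i` not divisible by `d`, where `1 < d` and `d ≠ 0` in `κ`,
contradiction.  (Pass to the algebraic closure, which contains a primitive `d`-th root of unity.)
-/
import Fermat.Agent.S16.H77_RootSym

set_option autoImplicit false

namespace Fermat.Agent.S16.H77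

open Multiset

/-- `esymm` commutes with ring homomorphisms. -/
theorem esymm_map_ringHom {R S : Type*} [CommSemiring R] [CommSemiring S] (φ : R →+* S)
    (s : Multiset R) (i : ℕ) : (s.map φ).esymm i = φ (s.esymm i) := by
  classical
  unfold Multiset.esymm
  rw [Multiset.powersetCard_map, Multiset.map_map, map_multiset_sum, Multiset.map_map]
  refine congrArg Multiset.sum (Multiset.map_congr rfl ?_)
  intro t _
  simp only [Function.comp_apply, map_multiset_prod]

/-- ROOT-SYMMETRY with an explicit root of unity `u ≠ 1`, `u ^ d = 1` in `κ`. -/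
theorem esymm_sparse_false_of_root {κ : Type*} [Field κ] {d : ℕ} (u : κ) (hu : u ^ d = 1)
    (hu1 : u ≠ 1) {p : ℕ} (hp : 2 ≤ p) (a b : κ) (hab : a ≠ 0 ∨ b ≠ 0)
    (h : ∀ i, ¬ d ∣ i → (a ::ₘ Multiset.replicate p b).esymm i = 0) : False := by
  have hst := map_mul_eq_self_of_sparse (a ::ₘ Multiset.replicate p b) d u hu h
  obtain ⟨ha, hb⟩ := cons_replicate_stable hp a b u hu1 hst
  rcases hab with h' | h'
  · exact h' ha
  · exact h' hb

/-- **ROOT-SYMMETRY, general modulus.** `1 < d`, `(d : κ) ≠ 0`. -/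
theorem esymm_sparse_false_gen {κ : Type*} [Field κ] {d : ℕ} (hd : 1 < d) (hdκ : (d : κ) ≠ 0)
    {p : ℕ} (hp : 2 ≤ p) (a b : κ) (hab : a ≠ 0 ∨ b ≠ 0)
    (h : ∀ i, ¬ d ∣ i → (a ::ₘ Multiset.replicate p b).esymm i = 0) : False := by
  have : NeZero (d : κ) := ⟨hdκ⟩
  obtain ⟨ζ, hζ⟩ := HasEnoughRootsOfUnity.exists_primitiveRoot (AlgebraicClosure κ) d
  let φ : κ →+* AlgebraicClosure κ := algebraMap κ (AlgebraicClosure κ)
  have hφ : Function.Injective φ := (algebraMap κ (AlgebraicClosure κ)).injective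
  have hmap : (φ a ::ₘ Multiset.replicate p (φ b)) = (a ::ₘ Multiset.replicate p b).map φ := by
    rw [Multiset.map_cons, Multiset.map_replicate]
  refine esymm_sparse_false_of_root ζ hζ.pow_eq_one (hζ.ne_one hd) hp (φ a) (φ b) ?_ ?_
  · rcases hab with h' | h'
    · exact Or.inl (fun h0 => h' (hφ (by rw [h0, _root_.map_zero])))
    · exact Or.inr (fun h0 => h' (hφ (by rw [h0, _root_.map_zero])))
  · intro i hi
    rw [hmap, esymm_map_ringHom, h i hi, _root_.map_zero]

/-- The same with `CharP κ l` and `¬ l ∣ d`. -/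
theorem esymm_sparse_false_of_not_dvd {κ : Type*} [Field κ] (l : ℕ) [CharP κ l] {d : ℕ}
    (hd : 1 < d) (hld : ¬ l ∣ d) {p : ℕ} (hp : 2 ≤ p) (a b : κ) (hab : a ≠ 0 ∨ b ≠ 0)
    (h : ∀ i, ¬ d ∣ i → (a ::ₘ Multiset.replicate p b).esymm i = 0) : False :=
  esymm_sparse_false_gen hd (fun h0 => hld ((CharP.cast_eq_zero_iff κ l d).mp h0)) hp a b hab h

/-- Consumer form for the level-one weight lemma (helper51's shape: every admissible weight is
divisible by `2 * d`; here the weight of `e_i` is `2 * i`). -/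
theorem esymm_weight_false {κ : Type*} [Field κ] (l : ℕ) [CharP κ l] {d : ℕ}
    (hd : 1 < d) (hld : ¬ l ∣ d) {p : ℕ} (hp : 2 ≤ p) (a b : κ) (hab : a ≠ 0 ∨ b ≠ 0)
    (h : ∀ i : ℕ, (a ::ₘ Multiset.replicate p b).esymm i ≠ 0 →
      (2 * (d : ℤ)) ∣ 2 * (i : ℤ)) : False := by
  refine esymm_sparse_false_of_not_dvd l hd hld hp a b hab ?_
  intro i hi
  by_contra hne
  apply hi
  have h2 := h i hne
  have h3 : (d : ℤ) ∣ (i : ℤ) := (mul_dvd_mul_iff_left (by norm_num : (2 : ℤ) ≠ 0)).mp h2
  exact Int.natCast_dvd_natCast.mp h3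

/-- Consumer form for helper83's `swd_weak` shape: one fixed `D ≥ 3` (e.g. `4 ≤ D`, `D ∣ l - 1`)
prime to the characteristic divides every admissible weight; the weight of `e_i` is `2 * i`. -/
theorem esymm_weight_false' {κ : Type*} [Field κ] (l : ℕ) [CharP κ l] {D : ℕ}
    (hD : 3 ≤ D) (hlD : ¬ l ∣ D) {p : ℕ} (hp : 2 ≤ p) (a b : κ) (hab : a ≠ 0 ∨ b ≠ 0)
    (h : ∀ i : ℕ, (a ::ₘ Multiset.replicate p b).esymm i ≠ 0 → (D : ℤ) ∣ 2 * (i : ℤ)) :
    False := by
  rcases Nat.even_or_odd D with ⟨d, hd⟩ | hodd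
  · -- `D = d + d`
    have hd2 : D = 2 * d := by omega
    refine esymm_weight_false l (d := d) (by omega) (fun hld => hlD ?_) hp a b hab ?_
    · rw [hd2]; exact Dvd.dvd.mul_left hld 2
    · intro i hi
      have := h i hi
      rw [hd2] at this
      push_cast at this
      exact this
  · refine esymm_sparse_false_of_not_dvd l (d := D) (by omega) hlD hp a b hab ?_
    intro i hi
    by_contra hne
    apply hi
    have h2 : D ∣ 2 * i := by
      have := h i hne
      exact Int.natCast_dvd_natCast.mp (by push_cast; exact this)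
    have hcop : Nat.Coprime D 2 := Nat.coprime_two_right.mpr hodd
    exact hcop.dvd_of_dvd_mul_left h2

end Fermat.Agent.S16.H77
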