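/-
helper77 — S16 package (U5b-3b) ESYMM-QEXP (Mathlib + H77_Esymm).

The `q`-expansion of `esymmForm ℋ f i` in terms of the width-`h` expansions of the coset
translates, the change of width, and integrality/congruence of the coefficients over a subring
`𝒪 ⊆ ℂ` modulo an ideal `𝔪`.
-/
import Fermat.Agent.S16.H77_Esymm
import Fermat.Agent.S16.H77_RootSymGen

set_option autoImplicit false

open UpperHalfPlane SlashInvariantForm Function
open scoped ModularForm Topology Filter Manifold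

namespace Fermat.Agent.S16.H77

/-! ### (A0) functions with an analytic cusp function -/

/-- `g` has an analytic cusp function of width `h` at `0`. -/
def Good (h : ℝ) (g : ℍ → ℂ) : Prop := AnalyticAt ℂ (cuspFunction h g) 0

variable {h : ℝ}

theorem cuspFunction_one' (h : ℝ) : cuspFunction h (1 : ℍ → ℂ) = 1 := by
  ext q
  rcases eq_or_ne q 0 with rfl | hq
  · simpa [cuspFunction, Periodic.cuspFunction] using! tendsto_const_nhds.limUnder_eq
  · simp [cuspFunction, Periodic.cuspFunction_eq_of_nonzero h _ hq]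

theorem cuspFunction_zero' (h : ℝ) : cuspFunction h (0 : ℍ → ℂ) = 0 := by
  ext q
  rcases eq_or_ne q 0 with rfl | hq
  · simpa [cuspFunction, Periodic.cuspFunction] using! tendsto_const_nhds.limUnder_eq
  · simp [cuspFunction, Periodic.cuspFunction_eq_of_nonzero h _ hq]

theorem good_one (h : ℝ) : Good h (1 : ℍ → ℂ) := by
  unfold Good; rw [cuspFunction_one']; exact analyticAt_const

theorem good_zero (h : ℝ) : Good h (0 : ℍ → ℂ) := by
  unfold Good; rw [cuspFunction_zero']; exact analyticAt_const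

theorem Good.mul {g₁ g₂ : ℍ → ℂ} (h₁ : Good h g₁) (h₂ : Good h g₂) : Good h (g₁ * g₂) := by
  unfold Good at *
  rw [cuspFunction_mul h₁.continuousAt h₂.continuousAt]
  exact h₁.mul h₂

theorem Good.add {g₁ g₂ : ℍ → ℂ} (h₁ : Good h g₁) (h₂ : Good h g₂) : Good h (g₁ + g₂) := by
  unfold Good at *
  rw [cuspFunction_add h₁.continuousAt h₂.continuousAt]
  exact h₁.add h₂

theorem good_prod {ι : Type*} (s : Finset ι) (φ : ι → ℍ → ℂ) (hφ : ∀ q ∈ s, Good h (φ q)) :
    Good h (∏ q ∈ s, φ q) ∧ qExpansion h (∏ q ∈ s, φ q) = ∏ q ∈ s, qExpansion h (φ q) := by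
  classical
  induction s using Finset.induction_on with
  | empty =>
    simp only [Finset.prod_empty]
    exact ⟨good_one h, qExpansion_one h⟩
  | insert a t ha IH =>
    have hIH := IH (fun q hq => hφ q (Finset.mem_insert_of_mem hq))
    have hga := hφ a (Finset.mem_insert_self a t)
    rw [Finset.prod_insert ha, Finset.prod_insert ha]
    exact ⟨hga.mul hIH.1, by rw [qExpansion_mul hga hIH.1, hIH.2]⟩

theorem good_sum {ι : Type*} (s : Finset ι) (φ : ι → ℍ → ℂ) (hφ : ∀ q ∈ s, Good h (φ q)) :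
    Good h (∑ q ∈ s, φ q) ∧ qExpansion h (∑ q ∈ s, φ q) = ∑ q ∈ s, qExpansion h (φ q) := by
  classical
  induction s using Finset.induction_on with
  | empty =>
    simp only [Finset.sum_empty]
    exact ⟨good_zero h, qExpansion_zero h⟩
  | insert a t ha IH =>
    have hIH := IH (fun q hq => hφ q (Finset.mem_insert_of_mem hq))
    have hga := hφ a (Finset.mem_insert_self a t)
    rw [Finset.sum_insert ha, Finset.sum_insert ha]
    exact ⟨hga.add hIH.1, by rw [qExpansion_add hga hIH.1, hIH.2]⟩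

/-- `q`-expansion of the elementary symmetric function of finitely many good functions. -/
theorem qExpansion_esymm_fun {ι : Type*} [Fintype ι] (φ : ι → ℍ → ℂ)
    (hφ : ∀ j, Good h (φ j)) (i : ℕ) :
    Good h (∑ s ∈ Finset.powersetCard i (Finset.univ : Finset ι), ∏ q ∈ s, φ q) ∧
    qExpansion h (∑ s ∈ Finset.powersetCard i (Finset.univ : Finset ι), ∏ q ∈ s, φ q) =
      ((Finset.univ : Finset ι).val.map (fun j => qExpansion h (φ j))).esymm i := by
  have hprod := fun s : Finset ι => good_prod (h := h) s φ (fun q _ => hφ q)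
  have hsum := good_sum (h := h) (Finset.powersetCard i (Finset.univ : Finset ι))
    (fun s => ∏ q ∈ s, φ q) (fun s _ => (hprod s).1)
  refine ⟨hsum.1, ?_⟩
  rw [hsum.2, Finset.esymm_map_val]
  exact Finset.sum_congr rfl (fun s _ => (hprod s).2)

/-! ### (A) the q-expansion of `esymmForm` -/

section A

variable {𝒢 : Subgroup (GL (Fin 2) ℝ)} (ℋ : Subgroup (GL (Fin 2) ℝ)) {F : Type*} (f : F)
  [FunLike F ℍ ℂ] {k : ℤ} [𝒢.IsFiniteRelIndex ℋ] [ℋ.HasDetPlusMinusOne] [ModularFormClass F 𝒢 k]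

local notation "𝒬" => ℋ ⧸ (𝒢.subgroupOf ℋ)

/-- **(A)** `qExpansion h (esymmForm ℋ f i)` is the `i`-th elementary symmetric function of the
width-`h` expansions of the translates (reindexed along `e : ι ≃ 𝒬`). -/
theorem qExpansion_esymmForm {ι : Type*} [Fintype ι] (e : ι ≃ 𝒬)
    (han : ∀ j, Good h (quotientFunc f (e j))) (i : ℕ) :
    qExpansion h (esymmForm ℋ f i) =
      ((Finset.univ : Finset ι).val.map (fun j => qExpansion h (quotientFunc f (e j)))).esymm i
      := by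
  have hfun : ⇑(esymmForm ℋ f i) =
      ∑ s ∈ Finset.powersetCard i (Finset.univ : Finset ι), ∏ j ∈ s, quotientFunc f (e j) := by
    funext τ
    rw [esymmForm_apply_eq_multiset_equiv ℋ f e i τ, Finset.esymm_map_val]
    simp [Finset.sum_apply, Finset.prod_apply]
  rw [hfun]
  exact (qExpansion_esymm_fun (fun j => quotientFunc f (e j)) han i).2

theorem good_esymmForm {ι : Type*} [Fintype ι] (e : ι ≃ 𝒬)
    (han : ∀ j, Good h (quotientFunc f (e j))) (i : ℕ) :
    Good h (esymmForm ℋ f i) := by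
  have hfun : ⇑(esymmForm ℋ f i) =
      ∑ s ∈ Finset.powersetCard i (Finset.univ : Finset ι), ∏ j ∈ s, quotientFunc f (e j) := by
    funext τ
    rw [esymmForm_apply_eq_multiset_equiv ℋ f e i τ, Finset.esymm_map_val]
    simp [Finset.sum_apply, Finset.prod_apply]
  rw [hfun]
  exact (qExpansion_esymm_fun (fun j => quotientFunc f (e j)) han i).1

end A

/-! ### (B) change of width -/

/-- `qExpansion_coeff_unique` for a plain function on `ℍ`. -/
theorem qExpansion_coeff_unique_fun {g : ℍ → ℂ} {c : ℕ → ℂ} (hh : 0 < h)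
    (han : AnalyticAt ℂ (cuspFunction h g) 0)
    (hg : ∀ τ : ℍ, HasSum (fun m ↦ c m • Periodic.qParam h τ ^ m) (g τ)) (m : ℕ) :
    c m = (qExpansion h g).coeff m := by
  let _inst : FunLike (ℍ → ℂ) ℍ ℂ := { coe := id, coe_injective := fun _ _ h => h }
  exact qExpansion_coeff_unique (F := ℍ → ℂ) g hh han hg m

theorem qParam_one_eq_pow (n : ℕ) (hn : 0 < n) (z : ℂ) :
    Periodic.qParam (1 : ℝ) z = Periodic.qParam (n : ℝ) z ^ n := by
  have hn' : (n : ℂ) ≠ 0 := by exact_mod_cast hn.ne'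
  simp only [Periodic.qParam]
  rw [← Complex.exp_nat_mul]
  congr 1
  push_cast
  field_simp

/-- **(B)** A `1`-periodic holomorphic function bounded at `i∞` has width-`n` expansion
`(qExpansion 1 g)(X ^ n)`. -/
theorem qExpansion_width_coeff {g : ℍ → ℂ} (hper : Periodic (g ∘ ofComplex) ((1 : ℝ) : ℂ))
    (hhol : MDiff g)
    (hbdd : IsBoundedAtImInfty g) {n : ℕ} (hn : 0 < n) (j : ℕ) :
    (qExpansion (n : ℝ) g).coeff j =
      if n ∣ j then (qExpansion (1 : ℝ) g).coeff (j / n) else 0 := by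
  have hnpos : (0 : ℝ) < n := by exact_mod_cast hn
  have hpern : Periodic (g ∘ ofComplex) ((n : ℝ) : ℂ) := by
    have := hper.nat_mul n
    simp only [Complex.ofReal_one, mul_one] at this
    rw [Complex.ofReal_natCast]
    exact this
  have han : AnalyticAt ℂ (cuspFunction (n : ℝ) g) 0 :=
    analyticAt_cuspFunction_zero hnpos hpern hhol hbdd
  symm
  refine qExpansion_coeff_unique_fun hnpos han
    (c := fun j => if n ∣ j then (qExpansion (1 : ℝ) g).coeff (j / n) else 0) ?_ j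
  intro τ
  have h1 := hasSum_qExpansion (h := (1 : ℝ)) one_pos hper hhol hbdd τ
  have hinj : Function.Injective (fun m : ℕ => n * m) :=
    fun a b hab => Nat.eq_of_mul_eq_mul_left hn hab
  refine (hinj.hasSum_iff ?_).mp ?_
  · intro x hx
    have : ¬ n ∣ x := by
      rintro ⟨m, rfl⟩
      exact hx ⟨m, rfl⟩
    simp [this]
  · convert h1 using 1
    funext m
    simp only [Function.comp_apply, dvd_mul_right, if_true, Nat.mul_div_cancel_left m hn]
    rw [qParam_one_eq_pow n hn, pow_mul]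

/-- (B) for a modular form with `1 ∈ strictPeriods`. -/
theorem qExpansion_width_coeff_form {Γ : Subgroup (GL (Fin 2) ℝ)} {F : Type*} [FunLike F ℍ ℂ]
    {k : ℤ} [ModularFormClass F Γ k] (f : F) (hΓ : (1 : ℝ) ∈ Γ.strictPeriods) {n : ℕ}
    (hn : 0 < n) (j : ℕ) :
    (qExpansion (n : ℝ) f).coeff j =
      if n ∣ j then (qExpansion (1 : ℝ) f).coeff (j / n) else 0 := by
  have : Fact (IsCusp OnePoint.infty Γ) := ⟨Γ.isCusp_of_mem_strictPeriods one_pos hΓ⟩
  exact qExpansion_width_coeff (SlashInvariantFormClass.periodic_comp_ofComplex f hΓ)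
    (ModularFormClass.holo f) (ModularFormClass.bdd_at_infty f) hn j

/-! ### (A') the translates are good -/

section A'

open ConjAct Pointwise

variable {𝒢 ℋ : Subgroup (GL (Fin 2) ℝ)} {F : Type*} (f : F) [FunLike F ℍ ℂ] {k : ℤ}
  [ModularFormClass F 𝒢 k]

/-- A coset translate `f ∣[k] r⁻¹` has an analytic cusp function of width `h` as soon as `h` is a
strict period of the conjugate group `r 𝒢 r⁻¹`. -/
theorem good_quotientFunc_mk (hh : 0 < h) (r : ℋ)
    (hper : h ∈ (toConjAct (r.val⁻¹)⁻¹ • 𝒢).strictPeriods) :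
    Good h (quotientFunc f (⟦r⟧ : ℋ ⧸ 𝒢.subgroupOf ℋ)) := by
  have := ModularFormClass.analyticAt_cuspFunction_zero (ModularForm.translate f r.val⁻¹) hh hper
  exact this

/-- The translate is `h`-periodic, holomorphic and bounded, with the expected `HasSum`. -/
theorem hasSum_qExpansion_quotientFunc_mk (hh : 0 < h) (r : ℋ)
    (hper : h ∈ (toConjAct (r.val⁻¹)⁻¹ • 𝒢).strictPeriods) (τ : ℍ) :
    HasSum (fun m : ℕ ↦ (qExpansion h (quotientFunc f (⟦r⟧ : ℋ ⧸ 𝒢.subgroupOf ℋ))).coeff m •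
      Periodic.qParam h τ ^ m) (quotientFunc f (⟦r⟧ : ℋ ⧸ 𝒢.subgroupOf ℋ) τ) := by
  have hcusp : Fact (IsCusp OnePoint.infty (toConjAct (r.val⁻¹)⁻¹ • 𝒢)) :=
    ⟨Subgroup.isCusp_of_mem_strictPeriods hh hper⟩
  exact UpperHalfPlane.hasSum_qExpansion hh
    (SlashInvariantFormClass.periodic_comp_ofComplex (ModularForm.translate f r.val⁻¹) hper)
    (ModularFormClass.holo (ModularForm.translate f r.val⁻¹))
    (ModularFormClass.bdd_at_infty (ModularForm.translate f r.val⁻¹)) τ

end A'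

/-! ### (C) integrality and congruence of elementary symmetric functions of power series -/

section C

variable (𝒪 : Subring ℂ) (𝔪 : Ideal 𝒪)

theorem esymm_series_lift {ι : Type*} [Fintype ι] (P' : ι → PowerSeries 𝒪) (c : ι → 𝒪)
    (hc : ∀ j, (P' j).map (Ideal.Quotient.mk 𝔪) = PowerSeries.C (Ideal.Quotient.mk 𝔪 (c j)))
    (i : ℕ) :
    (((Finset.univ : Finset ι).val.map P').esymm i).map 𝒪.subtype =
        ((Finset.univ : Finset ι).val.map (fun j => (P' j).map 𝒪.subtype)).esymm i ∧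
    (((Finset.univ : Finset ι).val.map P').esymm i).map (Ideal.Quotient.mk 𝔪) =
        PowerSeries.C (Ideal.Quotient.mk 𝔪 (((Finset.univ : Finset ι).val.map c).esymm i)) := by
  constructor
  · rw [← esymm_map_ringHom (PowerSeries.map 𝒪.subtype), Multiset.map_map]
    rfl
  · have e1 := esymm_map_ringHom (PowerSeries.map (Ideal.Quotient.mk 𝔪))
      ((Finset.univ : Finset ι).val.map P') i
    have e2 := esymm_map_ringHom (Ideal.Quotient.mk 𝔪) ((Finset.univ : Finset ι).val.map c) i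
    have e3 := esymm_map_ringHom (PowerSeries.C : (𝒪 ⧸ 𝔪) →+* PowerSeries (𝒪 ⧸ 𝔪))
      (((Finset.univ : Finset ι).val.map c).map (Ideal.Quotient.mk 𝔪)) i
    rw [← e1, ← e2, ← e3, Multiset.map_map, Multiset.map_map, Multiset.map_map]
    congr 1
    refine Multiset.map_congr rfl ?_
    intro j _
    exact hc j

end C

/-! ### (D) the link: coefficients of `esymmForm` over `𝒪`, modulo `𝔪` -/

section D

variable {𝒢 : Subgroup (GL (Fin 2) ℝ)} (ℋ : Subgroup (GL (Fin 2) ℝ)) {F : Type*} (f : F)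
  [FunLike F ℍ ℂ] {k : ℤ} [𝒢.IsFiniteRelIndex ℋ] [ℋ.HasDetPlusMinusOne] [ModularFormClass F 𝒢 k]

local notation "𝒬" => ℋ ⧸ (𝒢.subgroupOf ℋ)

/-- **(D), power-series form.** If the width-`n` expansion of the `j`-th translate is
`(P' j).map 𝒪.subtype` with `P' j ≡ c j` (a constant) modulo `𝔪`, then the (width one)
`q`-expansion of `esymmForm ℋ f i` is `E'.map 𝒪.subtype` with `E' ≡ e_i(c)` modulo `𝔪`. -/
theorem exists_series_esymmForm (hℋ : (1 : ℝ) ∈ ℋ.strictPeriods) {ι : Type*} [Fintype ι]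
    (e : ι ≃ 𝒬) {n : ℕ} (hn : 0 < n) (han : ∀ j, Good (n : ℝ) (quotientFunc f (e j)))
    (𝒪 : Subring ℂ) (𝔪 : Ideal 𝒪) (P' : ι → PowerSeries 𝒪) (c : ι → 𝒪)
    (hP : ∀ j, (P' j).map 𝒪.subtype = qExpansion (n : ℝ) (quotientFunc f (e j)))
    (hc : ∀ j, (P' j).map (Ideal.Quotient.mk 𝔪) = PowerSeries.C (Ideal.Quotient.mk 𝔪 (c j)))
    (i : ℕ) :
    ∃ E' : PowerSeries 𝒪, E'.map 𝒪.subtype = qExpansion (1 : ℝ) (esymmForm ℋ f i) ∧
      E'.map (Ideal.Quotient.mk 𝔪) =
        PowerSeries.C (Ideal.Quotient.mk 𝔪 (((Finset.univ : Finset ι).val.map c).esymm i)) := by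
  obtain ⟨h1, h2⟩ := esymm_series_lift 𝒪 𝔪 P' c hc i
  set E'' : PowerSeries 𝒪 := ((Finset.univ : Finset ι).val.map P').esymm i with hE''
  have hA : E''.map 𝒪.subtype = qExpansion (n : ℝ) (esymmForm ℋ f i) := by
    rw [h1, qExpansion_esymmForm ℋ f e han i]
    congr 1
    refine Multiset.map_congr rfl ?_
    intro j _
    exact hP j
  have hB : ∀ m : ℕ, (qExpansion (1 : ℝ) (esymmForm ℋ f i)).coeff m =
      (qExpansion (n : ℝ) (esymmForm ℋ f i)).coeff (n * m) := by
    intro m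
    rw [qExpansion_width_coeff_form (esymmForm ℋ f i) hℋ hn (n * m), if_pos (dvd_mul_right n m),
      Nat.mul_div_cancel_left m hn]
  refine ⟨PowerSeries.mk (fun m => PowerSeries.coeff (n * m) E''), ?_, ?_⟩
  · ext m
    rw [PowerSeries.coeff_map, PowerSeries.coeff_mk, hB m, ← hA, PowerSeries.coeff_map]
  · ext m
    rw [PowerSeries.coeff_map, PowerSeries.coeff_mk, ← PowerSeries.coeff_map, h2,
      PowerSeries.coeff_C, PowerSeries.coeff_C]
    have : n * m = 0 ↔ m = 0 := by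
      constructor
      · intro h0
        rcases Nat.mul_eq_zero.mp h0 with h0 | h0
        · omega
        · exact h0
      · rintro rfl; simp
    simp only [this]

/-- **(D), coefficient form** (the hypotheses `hf / h0 / hpos` of the level-one weight lemmas
`swd_weak` / `count_sparse`). -/
theorem esymmForm_coeff_congr (hℋ : (1 : ℝ) ∈ ℋ.strictPeriods) {ι : Type*} [Fintype ι]
    (e : ι ≃ 𝒬) {n : ℕ} (hn : 0 < n) (han : ∀ j, Good (n : ℝ) (quotientFunc f (e j)))
    (𝒪 : Subring ℂ) (𝔪 : Ideal 𝒪) (c : ι → 𝒪)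
    (hmem : ∀ j m, (qExpansion (n : ℝ) (quotientFunc f (e j))).coeff m ∈ 𝒪)
    (h0 : ∀ j, (⟨_, hmem j 0⟩ : 𝒪) - c j ∈ 𝔪)
    (hpos : ∀ j m, 1 ≤ m → (⟨_, hmem j m⟩ : 𝒪) ∈ 𝔪) (i : ℕ) :
    ∃ hf : ∀ m, (qExpansion (1 : ℝ) (esymmForm ℋ f i)).coeff m ∈ 𝒪,
      ((⟨_, hf 0⟩ : 𝒪) - ((Finset.univ : Finset ι).val.map c).esymm i ∈ 𝔪) ∧
      ∀ m, 1 ≤ m → (⟨_, hf m⟩ : 𝒪) ∈ 𝔪 := by
  set P' : ι → PowerSeries 𝒪 := fun j => PowerSeries.mk (fun m => ⟨_, hmem j m⟩) with hP'
  have hP : ∀ j, (P' j).map 𝒪.subtype = qExpansion (n : ℝ) (quotientFunc f (e j)) := by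
    intro j
    ext m
    simp [hP', PowerSeries.coeff_map, PowerSeries.coeff_mk]
  have hc : ∀ j, (P' j).map (Ideal.Quotient.mk 𝔪) =
      PowerSeries.C (Ideal.Quotient.mk 𝔪 (c j)) := by
    intro j
    ext m
    rw [PowerSeries.coeff_map, PowerSeries.coeff_mk, PowerSeries.coeff_C]
    by_cases hm : m = 0
    · subst hm
      rw [if_pos rfl]
      exact (Ideal.Quotient.eq).mpr (h0 j)
    · rw [if_neg hm]
      exact Ideal.Quotient.eq_zero_iff_mem.mpr (hpos j m (Nat.one_le_iff_ne_zero.mpr hm))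
  obtain ⟨E', hE1, hE2⟩ := exists_series_esymmForm ℋ f hℋ e hn han 𝒪 𝔪 P' c hP hc i
  have hcoeff : ∀ m, (qExpansion (1 : ℝ) (esymmForm ℋ f i)).coeff m = (PowerSeries.coeff m E' : 𝒪) := by
    intro m
    rw [← hE1, PowerSeries.coeff_map]
    rfl
  have hf : ∀ m, (qExpansion (1 : ℝ) (esymmForm ℋ f i)).coeff m ∈ 𝒪 := by
    intro m
    rw [hcoeff m]
    exact (PowerSeries.coeff m E').2
  have hsub : ∀ m, (⟨_, hf m⟩ : 𝒪) = PowerSeries.coeff m E' := by
    intro m
    exact Subtype.ext (hcoeff m)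
  have hred : ∀ m, Ideal.Quotient.mk 𝔪 (PowerSeries.coeff m E') =
      if m = 0 then Ideal.Quotient.mk 𝔪 (((Finset.univ : Finset ι).val.map c).esymm i) else 0 := by
    intro m
    rw [← PowerSeries.coeff_map, hE2, PowerSeries.coeff_C]
  refine ⟨hf, ?_, ?_⟩
  · rw [hsub 0]
    have := hred 0
    rw [if_pos rfl] at this
    exact (Ideal.Quotient.eq).mp this
  · intro m hm
    rw [hsub m]
    have := hred m
    rw [if_neg (by omega)] at this
    exact Ideal.Quotient.eq_zero_iff_mem.mp this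

end D

end Fermat.Agent.S16.H77
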