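/-
helper77 — S16 package (U5b-3b) ESYMM-QEXP, general form (requests #2191 helper59, #2318 helper76).

Same link as `H77_EsymmQExp` (D), but for an ARBITRARY ring hom `φ : 𝒪 →+* κ` instead of
`Ideal.Quotient.mk 𝔪`, and for ARBITRARY reductions of the translates' expansions (not only
constants).  Plus: pure integrality (no congruence), and the bridge to helper46's `H46.esymmForm`.
-/
import Fermat.Agent.S16.H77_EsymmQExp
import Fermat.Agent.S16.H46_Esymm

set_option autoImplicit false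

open UpperHalfPlane SlashInvariantForm Function
open scoped ModularForm Topology Filter Manifold

namespace Fermat.Agent.S16.H77

section gen

variable {𝒢 : Subgroup (GL (Fin 2) ℝ)} (ℋ : Subgroup (GL (Fin 2) ℝ)) {F : Type*} (f : F)
  [FunLike F ℍ ℂ] {k : ℤ} [𝒢.IsFiniteRelIndex ℋ] [ℋ.HasDetPlusMinusOne] [ModularFormClass F 𝒢 k]

local notation "𝒬" => ℋ ⧸ (𝒢.subgroupOf ℋ)

/-- helper46's `esymmForm` and ours are the same modular form. -/
theorem esymmForm46_eq (i : ℕ) : H46.esymmForm ℋ f i = esymmForm ℋ f i := by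
  apply DFunLike.coe_injective
  let _ := Fintype.ofFinite 𝒬
  rw [H46.coe_esymmForm, H46.esymmFun_eq, coe_esymmForm' ℋ f i]
  rfl

/-- **(D-gen), power-series form.** `𝒪 ⊆ ℂ` a subring, `P' j : 𝒪⟦X⟧` the width-`n` expansion of
the `j`-th translate.  Then the `q`-expansion of `esymmForm ℋ f i` is `E'.map 𝒪.subtype` where
`E'(X^n) = e_i(P')`; in particular (`coeff_map_of_coeff_eq`) for every ring hom `φ : 𝒪 →+* κ`,
`coeff m (E'.map φ) = coeff (n m) (e_i (P'.map φ))`. -/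
theorem exists_series_esymmForm_hom (hℋ : (1 : ℝ) ∈ ℋ.strictPeriods) {ι : Type*} [Fintype ι]
    (e : ι ≃ 𝒬) {n : ℕ} (hn : 0 < n) (han : ∀ j, Good (n : ℝ) (quotientFunc f (e j)))
    (𝒪 : Subring ℂ) (P' : ι → PowerSeries 𝒪)
    (hP : ∀ j, (P' j).map 𝒪.subtype = qExpansion (n : ℝ) (quotientFunc f (e j))) (i : ℕ) :
    ∃ E' : PowerSeries 𝒪, E'.map 𝒪.subtype = qExpansion (1 : ℝ) (esymmForm ℋ f i) ∧
      (∀ m, PowerSeries.coeff m E' =
        PowerSeries.coeff (n * m) (((Finset.univ : Finset ι).val.map P').esymm i)) := by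
  set E'' : PowerSeries 𝒪 := ((Finset.univ : Finset ι).val.map P').esymm i with hE''
  have h1 : E''.map 𝒪.subtype =
      ((Finset.univ : Finset ι).val.map (fun j => (P' j).map 𝒪.subtype)).esymm i := by
    rw [← esymm_map_ringHom (PowerSeries.map 𝒪.subtype), Multiset.map_map]
    rfl
  have hA : E''.map 𝒪.subtype = qExpansion (n : ℝ) (esymmForm ℋ f i) := by
    rw [h1, qExpansion_esymmForm ℋ f e han i]
    congr 1
    refine Multiset.map_congr rfl ?_
    intro j _
    exact hP j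
  have hB : ∀ m : ℕ, (qExpansion (1 : ℝ) (esymmForm ℋ f i)).coeff m =
      (qExpansion (n : ℝ) (esymmForm ℋ f i)).coeff (n * m) := by
    intro m
    rw [qExpansion_width_coeff_form (esymmForm ℋ f i) hℋ hn (n * m), if_pos (dvd_mul_right n m),
      Nat.mul_div_cancel_left m hn]
  refine ⟨PowerSeries.mk (fun m => PowerSeries.coeff (n * m) E''), ?_, ?_⟩
  · ext m
    rw [PowerSeries.coeff_map, PowerSeries.coeff_mk, hB m, ← hA, PowerSeries.coeff_map]
  · intro m
    rw [PowerSeries.coeff_mk]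

/-- Reduction of the series `E'` of `exists_series_esymmForm_hom` along any ring hom. -/
theorem coeff_map_of_coeff_eq {𝒪 : Type*} [CommRing 𝒪] {ι : Type*} [Fintype ι]
    (P' : ι → PowerSeries 𝒪) (E' : PowerSeries 𝒪) (n i : ℕ)
    (hE : ∀ m, PowerSeries.coeff m E' =
      PowerSeries.coeff (n * m) (((Finset.univ : Finset ι).val.map P').esymm i))
    {κ : Type*} [CommRing κ] (φ : 𝒪 →+* κ) (m : ℕ) :
    PowerSeries.coeff m (E'.map φ) = PowerSeries.coeff (n * m)
      (((Finset.univ : Finset ι).val.map (fun j => (P' j).map φ)).esymm i) := by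
  rw [PowerSeries.coeff_map, hE m, ← PowerSeries.coeff_map,
    ← esymm_map_ringHom (PowerSeries.map φ), Multiset.map_map]
  rfl

/-- **(D-gen), constant reductions.** If `(P' j).map φ = C (γ j)` for all `j`, then
`E'.map φ = C (e_i(γ))`. -/
theorem exists_series_esymmForm_hom_const (hℋ : (1 : ℝ) ∈ ℋ.strictPeriods) {ι : Type*}
    [Fintype ι] (e : ι ≃ 𝒬) {n : ℕ} (hn : 0 < n)
    (han : ∀ j, Good (n : ℝ) (quotientFunc f (e j)))
    (𝒪 : Subring ℂ) (P' : ι → PowerSeries 𝒪)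
    (hP : ∀ j, (P' j).map 𝒪.subtype = qExpansion (n : ℝ) (quotientFunc f (e j)))
    {κ : Type*} [CommRing κ] (φ : 𝒪 →+* κ) (γ : ι → κ)
    (hγ : ∀ j, (P' j).map φ = PowerSeries.C (γ j)) (i : ℕ) :
    ∃ E' : PowerSeries 𝒪, E'.map 𝒪.subtype = qExpansion (1 : ℝ) (esymmForm ℋ f i) ∧
      E'.map φ = PowerSeries.C (((Finset.univ : Finset ι).val.map γ).esymm i) := by
  obtain ⟨E', hE1, hE2⟩ := exists_series_esymmForm_hom ℋ f hℋ e hn han 𝒪 P' hP i
  refine ⟨E', hE1, ?_⟩
  ext m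
  rw [coeff_map_of_coeff_eq P' E' n i hE2 φ m]
  have e3 := esymm_map_ringHom (PowerSeries.C : κ →+* PowerSeries κ)
    ((Finset.univ : Finset ι).val.map γ) i
  have hmap : (Finset.univ : Finset ι).val.map (fun j => (P' j).map φ) =
      ((Finset.univ : Finset ι).val.map γ).map (PowerSeries.C : κ →+* PowerSeries κ) := by
    rw [Multiset.map_map]
    refine Multiset.map_congr rfl ?_
    intro j _
    exact hγ j
  rw [hmap, e3, PowerSeries.coeff_C, PowerSeries.coeff_C]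
  have : n * m = 0 ↔ m = 0 := by
    constructor
    · intro h0
      rcases Nat.mul_eq_zero.mp h0 with h0 | h0
      · omega
      · exact h0
    · rintro rfl; simp
  simp only [this]

/-- **(D-mem) pure integrality**: if all translates have width-`n` expansions with coefficients in
`𝒪`, so has `esymmForm ℋ f i` (width one). -/
theorem esymmForm_coeff_mem (hℋ : (1 : ℝ) ∈ ℋ.strictPeriods) {ι : Type*} [Fintype ι]
    (e : ι ≃ 𝒬) {n : ℕ} (hn : 0 < n) (han : ∀ j, Good (n : ℝ) (quotientFunc f (e j)))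
    (𝒪 : Subring ℂ)
    (hmem : ∀ j m, (qExpansion (n : ℝ) (quotientFunc f (e j))).coeff m ∈ 𝒪) (i : ℕ) (m : ℕ) :
    (qExpansion (1 : ℝ) (esymmForm ℋ f i)).coeff m ∈ 𝒪 := by
  set P' : ι → PowerSeries 𝒪 := fun j => PowerSeries.mk (fun m => ⟨_, hmem j m⟩) with hP'
  have hP : ∀ j, (P' j).map 𝒪.subtype = qExpansion (n : ℝ) (quotientFunc f (e j)) := by
    intro j
    ext m
    simp [hP', PowerSeries.coeff_map, PowerSeries.coeff_mk]
  obtain ⟨E', hE1, -⟩ := exists_series_esymmForm_hom ℋ f hℋ e hn han 𝒪 P' hP i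
  rw [← hE1, PowerSeries.coeff_map]
  exact (PowerSeries.coeff m E').2

/-- **(D-gen), coefficient form with a ring hom** (the `φ`-shape of helper83's
`swd_weak_of_hasse`): translates with coefficients in `𝒪`, `φ`-reduction the constant `γ j`. -/
theorem esymmForm_coeff_hom (hℋ : (1 : ℝ) ∈ ℋ.strictPeriods) {ι : Type*} [Fintype ι]
    (e : ι ≃ 𝒬) {n : ℕ} (hn : 0 < n) (han : ∀ j, Good (n : ℝ) (quotientFunc f (e j)))
    (𝒪 : Subring ℂ) {κ : Type*} [CommRing κ] (φ : 𝒪 →+* κ) (γ : ι → κ)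
    (hmem : ∀ j m, (qExpansion (n : ℝ) (quotientFunc f (e j))).coeff m ∈ 𝒪)
    (h0 : ∀ j, φ ⟨_, hmem j 0⟩ = γ j)
    (hpos : ∀ j m, 1 ≤ m → φ ⟨_, hmem j m⟩ = 0) (i : ℕ) :
    ∃ hf : ∀ m, (qExpansion (1 : ℝ) (esymmForm ℋ f i)).coeff m ∈ 𝒪,
      φ ⟨_, hf 0⟩ = ((Finset.univ : Finset ι).val.map γ).esymm i ∧
      ∀ m, 1 ≤ m → φ ⟨_, hf m⟩ = 0 := by
  set P' : ι → PowerSeries 𝒪 := fun j => PowerSeries.mk (fun m => ⟨_, hmem j m⟩) with hP'
  have hP : ∀ j, (P' j).map 𝒪.subtype = qExpansion (n : ℝ) (quotientFunc f (e j)) := by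
    intro j
    ext m
    simp [hP', PowerSeries.coeff_map, PowerSeries.coeff_mk]
  have hγ : ∀ j, (P' j).map φ = PowerSeries.C (γ j) := by
    intro j
    ext m
    rw [PowerSeries.coeff_map, PowerSeries.coeff_mk, PowerSeries.coeff_C]
    by_cases hm : m = 0
    · subst hm
      rw [if_pos rfl]
      exact h0 j
    · rw [if_neg hm]
      exact hpos j m (Nat.one_le_iff_ne_zero.mpr hm)
  obtain ⟨E', hE1, hE2⟩ := exists_series_esymmForm_hom_const ℋ f hℋ e hn han 𝒪 P' hP φ γ hγ i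
  have hcoeff : ∀ m, (qExpansion (1 : ℝ) (esymmForm ℋ f i)).coeff m =
      (PowerSeries.coeff m E' : 𝒪) := by
    intro m
    rw [← hE1, PowerSeries.coeff_map]
    rfl
  have hf : ∀ m, (qExpansion (1 : ℝ) (esymmForm ℋ f i)).coeff m ∈ 𝒪 := by
    intro m
    rw [hcoeff m]
    exact (PowerSeries.coeff m E').2
  have hsub : ∀ m, (⟨_, hf m⟩ : 𝒪) = PowerSeries.coeff m E' := by
    intro m
    exact Subtype.ext (hcoeff m)
  have hred : ∀ m, φ (PowerSeries.coeff m E') =
      if m = 0 then ((Finset.univ : Finset ι).val.map γ).esymm i else 0 := by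
    intro m
    rw [← PowerSeries.coeff_map, hE2, PowerSeries.coeff_C]
  refine ⟨hf, ?_, ?_⟩
  · rw [hsub 0, hred 0, if_pos rfl]
  · intro m hm
    rw [hsub m, hred m, if_neg (by omega)]

end gen

end Fermat.Agent.S16.H77
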