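import Mathlib
import Fermat.Agent.S16.H95_Isobaric

set_option autoImplicit false

/-!
# S16 / (U5a) Swinnerton-Dyer, part (3): level-one forms with coefficients in `𝒪`

`helper95`.  `𝒪 ⊆ ℂ` a subring in which `6` is invertible.  Every `f ∈ M_k(SL₂(ℤ))` all of whose
q-expansion coefficients lie in `𝒪` is an `𝒪`-isobaric polynomial in `E₄`, `E₆`:
`qExpansion 1 f = (ev 𝒪 P).map 𝒪.subtype` with `P` isobaric of weight `k`.
-/

noncomputable section

namespace Fermat.Agent.S16.H95

open UpperHalfPlane ModularForm EisensteinSeries MatrixGroups ModularFormClass MvPolynomial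

/-! ### bridge to Mathlib's `E₄`, `E₆`, `Δ` -/

theorem qExpansion_E4 : qExpansion 1 E₄ = e4 ℂ := by
  ext n
  rw [E_qExpansion_coeff _ ⟨2, rfl⟩]
  simp only [e4, e4Z, PowerSeries.coeff_map, PowerSeries.coeff_mk]
  split_ifs with h
  · simp
  · norm_num [show bernoulli 4 = -1 / 30 by decide +kernel]

theorem qExpansion_E6 : qExpansion 1 E₆ = e6 ℂ := by
  ext n
  rw [E_qExpansion_coeff _ ⟨3, rfl⟩]
  simp only [e6, e6Z, PowerSeries.coeff_map, PowerSeries.coeff_mk]
  split_ifs with h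
  · simp
  · norm_num [show bernoulli 6 = 1 / 42 by decide +kernel]

/-- `E₄³ - E₆²` as a form of weight 12. -/
def discForm : ModularForm 𝒮ℒ 12 :=
  ModularForm.mcast (by decide) (E₄.pow 3) - ModularForm.mcast (by decide) (E₆.pow 2)

theorem qExpansion_discForm : qExpansion 1 discForm = ev ℂ (disc ℂ) := by
  rw [ev_disc, ← qExpansion_E4, ← qExpansion_E6]
  simp only [discForm, FunLike.coe_sub, coe_mcast,
    ModularForm.qExpansion_sub one_pos one_mem_strictPeriods_SL,
    ModularForm.qExpansion_pow one_pos one_mem_strictPeriods_SL]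

theorem discriminant_eq_smul_discForm :
    (ModularForm.discriminant : ℍ → ℂ) = ((1 / 1728 : ℂ)) • (discForm : ℍ → ℂ) := by
  funext z
  rw [discriminant_eq_E₄_cube_sub_E₆_sq z]
  simp only [discForm, FunLike.coe_sub, coe_mcast, ModularForm.coe_pow, Pi.smul_apply,
    Pi.sub_apply, Pi.pow_apply, smul_eq_mul]
  ring

theorem qExpansion_discriminant :
    qExpansion 1 ModularForm.discriminant = (1 / 1728 : ℂ) • ev ℂ (disc ℂ) := by
  rw [discriminant_eq_smul_discForm,
    ModularForm.qExpansion_smul one_pos one_mem_strictPeriods_SL, qExpansion_discForm]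

/-! ### power series with coefficients in a subring -/

section Coeff

variable (𝒪 : Subring ℂ)

/-- division by a series `D = q + ...` with coefficients in `𝒪` preserves `𝒪`-coefficients. -/
theorem exists_map_eq_of_mul_eq (A' D' : PowerSeries 𝒪) (C : PowerSeries ℂ)
    (hD0 : PowerSeries.coeff 0 D' = 0) (hD1 : PowerSeries.coeff 1 D' = 1)
    (h : A'.map 𝒪.subtype = D'.map 𝒪.subtype * C) :
    ∃ C' : PowerSeries 𝒪, C'.map 𝒪.subtype = C := by
  set U' : PowerSeries 𝒪 := PowerSeries.mk fun n => PowerSeries.coeff (n + 1) D' with hU'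
  set A'' : PowerSeries 𝒪 := PowerSeries.mk fun n => PowerSeries.coeff (n + 1) A' with hA''
  have hDU : D' = PowerSeries.X * U' := by
    have := PowerSeries.eq_X_mul_shift_add_const D'
    rw [← PowerSeries.coeff_zero_eq_constantCoeff_apply, hD0, map_zero, add_zero] at this
    exact this
  have hA0 : PowerSeries.coeff 0 A' = 0 := by
    have h1 : PowerSeries.constantCoeff (A'.map 𝒪.subtype) =
        PowerSeries.constantCoeff (D'.map 𝒪.subtype) * PowerSeries.constantCoeff C := by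
      rw [h, map_mul]
    have hD0' : PowerSeries.constantCoeff D' = 0 := by
      rw [← PowerSeries.coeff_zero_eq_constantCoeff_apply]; exact hD0
    rw [← PowerSeries.coeff_zero_eq_constantCoeff_apply, PowerSeries.coeff_map,
      ← PowerSeries.coeff_zero_eq_constantCoeff_apply, PowerSeries.coeff_map, hD0, map_zero,
      zero_mul] at h1
    exact Subtype.ext (by simpa using h1)
  have hAA : A' = PowerSeries.X * A'' := by
    have := PowerSeries.eq_X_mul_shift_add_const A'
    rw [← PowerSeries.coeff_zero_eq_constantCoeff_apply, hA0, map_zero, add_zero] at this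
    exact this
  have hUunit : IsUnit U' := by
    rw [PowerSeries.isUnit_iff_constantCoeff, ← PowerSeries.coeff_zero_eq_constantCoeff_apply,
      hU', PowerSeries.coeff_mk, zero_add, hD1]
    exact isUnit_one
  obtain ⟨u, hu⟩ := hUunit
  refine ⟨(↑u⁻¹ : PowerSeries 𝒪) * A'', ?_⟩
  rw [hAA, hDU, map_mul, map_mul, PowerSeries.map_X, mul_assoc] at h
  have h2 := PowerSeries.X_mul_cancel h
  have hUmap : (U'.map 𝒪.subtype) * ((↑u⁻¹ : PowerSeries 𝒪).map 𝒪.subtype) = 1 := by
    rw [← map_mul, ← hu, Units.mul_inv, map_one]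
  calc ((↑u⁻¹ : PowerSeries 𝒪) * A'').map 𝒪.subtype
      = (↑u⁻¹ : PowerSeries 𝒪).map 𝒪.subtype * (U'.map 𝒪.subtype * C) := by rw [map_mul, h2]
    _ = (U'.map 𝒪.subtype * (↑u⁻¹ : PowerSeries 𝒪).map 𝒪.subtype) * C := by ring
    _ = C := by rw [hUmap, one_mul]

theorem exists_map_eq_of_coeff_mem (A : PowerSeries ℂ) (hA : ∀ n, PowerSeries.coeff n A ∈ 𝒪) :
    ∃ A' : PowerSeries 𝒪, A'.map 𝒪.subtype = A :=
  ⟨PowerSeries.mk fun n => ⟨PowerSeries.coeff n A, hA n⟩, by ext n; simp⟩

theorem coeff_mem_of_map_eq {A : PowerSeries ℂ} {A' : PowerSeries 𝒪}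
    (h : A'.map 𝒪.subtype = A) (n : ℕ) : PowerSeries.coeff n A ∈ 𝒪 := by
  rw [← h, PowerSeries.coeff_map]
  exact (PowerSeries.coeff n A').2

end Coeff

/-! ### the structure theorem -/

/-- the monomial form `E₄^a E₆^b` of weight `4a + 6b`. -/
def monoForm (a b : ℕ) : ModularForm 𝒮ℒ ((4 * a + 6 * b : ℕ) : ℤ) :=
  ModularForm.mcast (by push_cast; ring) ((E₄.pow a).mul (E₆.pow b))

theorem qExpansion_monoForm (a b : ℕ) :
    qExpansion 1 (monoForm a b) = e4 ℂ ^ a * e6 ℂ ^ b := by
  simp only [monoForm, coe_mcast, ModularForm.coe_mul]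
  rw [ModularForm.qExpansion_mul_coe one_pos one_mem_strictPeriods_SL,
    ModularForm.qExpansion_pow one_pos one_mem_strictPeriods_SL,
    ModularForm.qExpansion_pow one_pos one_mem_strictPeriods_SL, qExpansion_E4, qExpansion_E6]

theorem isUnit_1728 {𝒪 : Subring ℂ} (h6 : IsUnit (6 : 𝒪)) : IsUnit (1728 : 𝒪) := by
  have h2 : IsUnit (2 : 𝒪) := by
    have : (6 : 𝒪) = 2 * 3 := by norm_num
    rw [this] at h6
    exact isUnit_of_mul_isUnit_left h6
  have : (1728 : 𝒪) = 6 ^ 3 * 2 ^ 3 := by norm_num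
  rw [this]
  exact (h6.pow 3).mul (h2.pow 3)

theorem isWeightedHomogeneous_X_pow_mul (R : Type*) [CommRing R] (a b : ℕ) :
    (X 0 ^ a * X 1 ^ b : MvPolynomial (Fin 2) R).IsWeightedHomogeneous wt (4 * a + 6 * b) := by
  have h := ((isWeightedHomogeneous_X0 (R := R)).pow a).mul
    ((isWeightedHomogeneous_X1 (R := R)).pow b)
  convert h using 1
  simp only [smul_eq_mul]
  ring

theorem not_rep_iff {k : ℕ} (h : ¬ ∃ a b : ℕ, 4 * a + 6 * b = k) : Odd k ∨ k = 2 := by
  by_contra hcon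
  push Not at hcon
  obtain ⟨hodd, h2⟩ := hcon
  rw [Nat.not_odd_iff_even] at hodd
  obtain ⟨m, hm⟩ := hodd
  apply h
  rcases Nat.even_or_odd' m with ⟨t, ht | ht⟩
  · exact ⟨t, 0, by omega⟩
  · exact ⟨t - 1, 1, by omega⟩

/-- **(3) Structure of level-one forms with coefficients in `𝒪`.** -/
theorem exists_isobaric_of_coeff_mem (𝒪 : Subring ℂ) (h6 : IsUnit (6 : 𝒪)) :
    ∀ (k : ℕ) (f : ModularForm 𝒮ℒ (k : ℤ)),
      (∀ n, PowerSeries.coeff n (qExpansion 1 f) ∈ 𝒪) →
      ∃ P : MvPolynomial (Fin 2) 𝒪, P.IsWeightedHomogeneous wt k ∧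
        qExpansion 1 f = (ev 𝒪 P).map 𝒪.subtype := by
  intro k
  induction k using Nat.strong_induction_on with
  | _ k ih =>
  intro f hf
  by_cases hrep : ∃ a b : ℕ, 4 * a + 6 * b = k
  · obtain ⟨a, b, rfl⟩ := hrep
    obtain ⟨F', hF'⟩ := exists_map_eq_of_coeff_mem 𝒪 _ hf
    set c0 : 𝒪 := ⟨_, hf 0⟩ with hc0
    set g : ModularForm 𝒮ℒ ((4 * a + 6 * b : ℕ) : ℤ) := f - (c0 : ℂ) • monoForm a b with hg
    have hgq : qExpansion 1 g = qExpansion 1 f - (c0 : ℂ) • (e4 ℂ ^ a * e6 ℂ ^ b) := by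
      rw [hg, FunLike.coe_sub, ModularForm.qExpansion_sub one_pos one_mem_strictPeriods_SL,
        FunLike.coe_smul, ModularForm.qExpansion_smul one_pos one_mem_strictPeriods_SL,
        qExpansion_monoForm]
    have hg0 : PowerSeries.coeff 0 (qExpansion 1 g) = 0 := by
      rw [hgq, map_sub, PowerSeries.coeff_smul, PowerSeries.coeff_zero_eq_constantCoeff_apply,
        PowerSeries.coeff_zero_eq_constantCoeff_apply, map_mul, map_pow, map_pow,
        constantCoeff_e4, constantCoeff_e6]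
      simp [hc0]
    have hfac := qExpansion_eq_qExpansion_discriminant_mul g hg0
    set h := CuspForm.discriminantEquiv (g.toCuspForm hg0) with hh
    -- `𝒪`-models
    obtain ⟨u, hu⟩ := isUnit_1728 h6
    set A' : PowerSeries 𝒪 := F' - PowerSeries.C c0 * (e4 𝒪 ^ a * e6 𝒪 ^ b) with hA'
    have hA'map : A'.map 𝒪.subtype = qExpansion 1 g := by
      rw [hgq, hA', map_sub, map_mul, map_mul, map_pow, map_pow, e4_map, e6_map, hF',
        PowerSeries.map_C, PowerSeries.smul_eq_C_mul]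
      rfl
    set D' : PowerSeries 𝒪 := PowerSeries.C (↑u⁻¹ : 𝒪) * ev 𝒪 (disc 𝒪) with hD'
    have huinv : ((↑u⁻¹ : 𝒪) : ℂ) = 1 / 1728 := by
      have h1 : (↑u⁻¹ : 𝒪) * (1728 : 𝒪) = 1 := by rw [← hu]; exact u.inv_mul
      have h2 := congrArg (fun x : 𝒪 => (x : ℂ)) h1
      simp only [Subring.coe_mul, Subring.coe_one] at h2
      have h3 : ((1728 : 𝒪) : ℂ) = 1728 := by norm_cast
      rw [h3] at h2
      field_simp
      exact h2
    have hD'map : D'.map 𝒪.subtype = qExpansion 1 ModularForm.discriminant := by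
      have hdm : MvPolynomial.map 𝒪.subtype (disc 𝒪) = disc ℂ := by simp [disc]
      have hsub : 𝒪.subtype (↑u⁻¹ : 𝒪) = 1 / 1728 := huinv
      rw [qExpansion_discriminant, hD', map_mul, PowerSeries.map_C, PowerSeries.smul_eq_C_mul,
        ← ev_map, hdm, hsub]
    have hD0 : PowerSeries.coeff 0 D' = 0 := by
      rw [hD', PowerSeries.coeff_C_mul, PowerSeries.coeff_zero_eq_constantCoeff_apply,
        constantCoeff_ev_disc, mul_zero]
    have hD1 : PowerSeries.coeff 1 D' = 1 := by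
      rw [hD', PowerSeries.coeff_C_mul, coeff_one_ev_disc, ← hu]
      exact u.inv_mul
    obtain ⟨H', hH'⟩ := exists_map_eq_of_mul_eq 𝒪 A' D' (qExpansion 1 h) hD0 hD1
      (by rw [hA'map, hD'map]; exact hfac)
    by_cases hk : 4 * a + 6 * b < 12
    · -- negative weight: `h = 0`
      have hzero : (h : ℍ → ℂ) = 0 :=
        levelOne_neg_weight_eq_zero (by push_cast; omega) h
      have hq0 : qExpansion 1 g = 0 := by
        rw [hfac, hzero, UpperHalfPlane.qExpansion_zero, mul_zero]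
      refine ⟨C c0 * (X 0 ^ a * X 1 ^ b), (isWeightedHomogeneous_X_pow_mul 𝒪 a b).C_mul _, ?_⟩
      have : qExpansion 1 f = (c0 : ℂ) • (e4 ℂ ^ a * e6 ℂ ^ b) := by
        rw [hgq, sub_eq_zero] at hq0; exact hq0
      rw [this]
      simp only [map_mul, map_pow, ev_C, ev_X0, ev_X1, e4_map, e6_map, PowerSeries.map_C,
        PowerSeries.smul_eq_C_mul, Subring.coe_subtype]
    · -- induction
      have hk12 : 12 ≤ 4 * a + 6 * b := by omega
      set h' : ModularForm 𝒮ℒ ((4 * a + 6 * b - 12 : ℕ) : ℤ) :=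
        ModularForm.mcast (by push_cast [hk12]; ring) h with hh'
      have hh'q : qExpansion 1 h' = qExpansion 1 h := by rw [hh', coe_mcast]
      obtain ⟨Ph, hPh, hPhq⟩ := ih (4 * a + 6 * b - 12) (by omega) h'
        (fun n => by rw [hh'q]; exact coeff_mem_of_map_eq 𝒪 hH' n)
      refine ⟨C c0 * (X 0 ^ a * X 1 ^ b) + C (↑u⁻¹ : 𝒪) * (disc 𝒪 * Ph), ?_, ?_⟩
      · refine ((isWeightedHomogeneous_X_pow_mul 𝒪 a b).C_mul _).add ?_
        have := (isWeightedHomogeneous_disc (R := 𝒪)).mul hPh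
        have e : 12 + (4 * a + 6 * b - 12) = 4 * a + 6 * b := by omega
        rw [e] at this
        exact this.C_mul _
      · have hfq : qExpansion 1 f = (c0 : ℂ) • (e4 ℂ ^ a * e6 ℂ ^ b) + qExpansion 1 g := by
          rw [hgq]; ring
        rw [hfq, hfac, ← hh'q, hPhq, ← hD'map, hD']
        simp only [map_add, map_mul, ev_C, map_pow, ev_X0, ev_X1, e4_map, e6_map,
          PowerSeries.map_C, PowerSeries.smul_eq_C_mul]
        simp only [Subring.coe_subtype]
        ring
  · -- no monomials: `f = 0`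
    have hf0 : f = 0 := by
      rcases not_rep_iff hrep with hodd | h2
      · exact levelOne_odd_weight_eq_zero (by exact_mod_cast hodd) f
      · subst h2
        exact (rank_zero_iff_forall_zero.mp levelOne_weight_two_rank_zero) f
    refine ⟨0, isWeightedHomogeneous_zero _ _ _, ?_⟩
    rw [hf0, map_zero, map_zero]
    exact UpperHalfPlane.qExpansion_zero 1

end Fermat.Agent.S16.H95
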