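import Mathlib
import Fermat.Agent.S16.H95_LevelOneStructure

set_option autoImplicit false

/-!
# S16 / (U5a): the weak Swinnerton-Dyer theorem for level one (`helper83`)

On top of `helper95`'s `H95_Isobaric` (`ev`, injectivity on isobaric pieces) and
`H95_LevelOneStructure` (level-one forms with coefficients in `𝒪 ∋ 1/6` are isobaric polynomials
in `E₄, E₆`), following `helper39`'s shortcut (#2221):

* `swd_weak_core` : over a field `κ` with `6 ≠ 0`, given an isobaric `A` of weight `N ≥ 4` with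
  `ev κ A = 1` (the Hasse invariant), there is `D ≥ 4`, `D ∣ N`, such that two isobaric
  polynomials with the same nonzero q-series have weights congruent mod `D`.
* `swd_weak_of_hasse`, `swd_weak_congr_of_hasse` : the statement for level-one modular forms with
  coefficients in a subring `𝒪 ⊆ ℂ`, reduced along a ring hom `φ : 𝒪 →+* κ`.
-/

noncomputable section

namespace Fermat.Agent.S16.H83

open MvPolynomial Fermat.Agent.S16.H95

section Core

variable {κ : Type*} [Field κ]

/-- an isobaric polynomial of weight `N` has total degree at most `N / 4`. -/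
theorem totalDegree_le_of_isobaric {N : ℕ} {A : MvPolynomial (Fin 2) κ}
    (hA : A.IsWeightedHomogeneous wt N) : 4 * A.totalDegree ≤ N := by
  have h : A.totalDegree ≤ N / 4 := by
    rw [MvPolynomial.totalDegree]
    refine Finset.sup_le fun d hd => ?_
    have hw := hA (MvPolynomial.mem_support_iff.mp hd)
    rw [weight_eq] at hw
    have hs : (d.sum fun _ e => e) = d 0 + d 1 := by
      rw [Finsupp.sum_fintype _ _ (fun _ => rfl), Fin.sum_univ_two]
    rw [hs]
    omega
  omega

theorem le_totalDegree_pow {π : MvPolynomial (Fin 2) κ} (hπ : 1 ≤ π.totalDegree) (m : ℕ) :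
    m ≤ (π ^ m).totalDegree := by
  have hπ0 : π ≠ 0 := by
    rintro rfl
    simp at hπ
  induction m with
  | zero => exact Nat.zero_le _
  | succ n ih =>
    rw [pow_succ, totalDegree_mul_of_isDomain (pow_ne_zero _ hπ0) hπ0]
    omega

/-- **Core UFD count.** -/
theorem swd_weak_core (h6 : (6 : κ) ≠ 0) {N : ℕ} (hN : 4 ≤ N) (A : MvPolynomial (Fin 2) κ)
    (hA : A.IsWeightedHomogeneous wt N) (hevA : ev κ A = 1) :
    ∃ D : ℕ, 4 ≤ D ∧ D ∣ N ∧ ∀ (k k' : ℕ) (F G : MvPolynomial (Fin 2) κ),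
      F.IsWeightedHomogeneous wt k → G.IsWeightedHomogeneous wt k' →
      ev κ F = ev κ G → ev κ F ≠ 0 → (D : ℤ) ∣ (k : ℤ) - k' := by
  classical
  have hA0 : A ≠ 0 := by
    rintro rfl
    rw [map_zero] at hevA
    exact zero_ne_one hevA
  have hAu : ¬ IsUnit A := by
    intro hu
    rw [MvPolynomial.isUnit_iff_eq_C_of_isReduced] at hu
    obtain ⟨c, hc, rfl⟩ := hu
    have h0 := hA (d := 0) (by simpa using hc.ne_zero)
    simp at h0
    omega
  obtain ⟨π, hπirr, hπdvd⟩ := WfDvdMonoid.exists_irreducible_factor hAu hA0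
  have hπ : Prime π := UniqueFactorizationMonoid.irreducible_iff_prime.mp hπirr
  have hfinA : FiniteMultiplicity π A := FiniteMultiplicity.of_prime_left hπ hA0
  set m := multiplicity π A with hm
  have hm1 : 1 ≤ m := by
    have : π ^ 1 ∣ A := by simpa using hπdvd
    exact hfinA.pow_dvd_iff_le_multiplicity.mp this
  have hπdeg : 1 ≤ π.totalDegree := by
    by_contra hcon
    have h0 : π.totalDegree = 0 := by omega
    rw [totalDegree_eq_zero_iff_eq_C] at h0
    have hc : coeff 0 π ≠ 0 := by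
      intro hc
      rw [hc, map_zero] at h0
      exact hπ.ne_zero h0
    apply hπ.not_isUnit
    rw [h0]
    exact (IsUnit.mk0 _ hc).map C
  have hm4 : 4 * m ≤ N := by
    have hdvd : π ^ m ∣ A := pow_multiplicity_dvd π A
    have h1 : (π ^ m).totalDegree ≤ A.totalDegree := totalDegree_le_of_dvd_of_isDomain hdvd hA0
    have h2 := le_totalDegree_pow hπdeg m
    have h3 := totalDegree_le_of_isobaric hA
    omega
  set g := Nat.gcd N m with hg
  have hgpos : 0 < g := Nat.gcd_pos_of_pos_right _ hm1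
  have hgm : g ≤ m := Nat.le_of_dvd hm1 (Nat.gcd_dvd_right _ _)
  have hND : g * (N / g) = N := Nat.mul_div_cancel' (Nat.gcd_dvd_left _ _)
  have hmD : g * (m / g) = m := Nat.mul_div_cancel' (Nat.gcd_dvd_right _ _)
  have hcop : Nat.Coprime (N / g) (m / g) := Nat.coprime_div_gcd_div_gcd hgpos
  refine ⟨N / g, ?_, Dvd.intro_left _ hND, ?_⟩
  · by_contra hcon
    have : N / g ≤ 3 := by omega
    have : g * (N / g) ≤ g * 3 := Nat.mul_le_mul_left _ this
    omega
  · intro k k' F G hF hG hev hne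
    have hF0 : F ≠ 0 := by
      rintro rfl
      exact hne (map_zero _)
    have hG0 : G ≠ 0 := by
      rintro rfl
      rw [map_zero] at hev
      exact hne hev
    have h1 : (F ^ N * A ^ k').IsWeightedHomogeneous wt (N * k + N * k') := by
      have := (hF.pow N).mul (hA.pow k')
      convert this using 1
      simp only [smul_eq_mul]
      ring
    have h2 : (G ^ N * A ^ k).IsWeightedHomogeneous wt (N * k + N * k') := by
      have := (hG.pow N).mul (hA.pow k)
      convert this using 1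
      simp only [smul_eq_mul]
      ring
    have hkey : F ^ N * A ^ k' = G ^ N * A ^ k := by
      refine ev_eq_of_isobaric h6 h1 h2 ?_
      rw [map_mul, map_mul, map_pow, map_pow, map_pow, map_pow, hevA, one_pow, one_pow, mul_one,
        mul_one, hev]
    have hfinF : FiniteMultiplicity π F := FiniteMultiplicity.of_prime_left hπ hF0
    have hfinG : FiniteMultiplicity π G := FiniteMultiplicity.of_prime_left hπ hG0
    have hmult := congrArg (emultiplicity π) hkey
    rw [emultiplicity_mul hπ, emultiplicity_mul hπ, emultiplicity_pow hπ, emultiplicity_pow hπ,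
      emultiplicity_pow hπ, emultiplicity_pow hπ, hfinF.emultiplicity_eq_multiplicity,
      hfinG.emultiplicity_eq_multiplicity, hfinA.emultiplicity_eq_multiplicity] at hmult
    have hnat : N * multiplicity π F + k' * m = N * multiplicity π G + k * m := by
      exact_mod_cast hmult
    set a := multiplicity π F
    set b := multiplicity π G
    -- `(k - k') * m = N * (a - b)` in `ℤ`
    have hint : ((k : ℤ) - k') * (m / g : ℕ) = ((N / g : ℕ) : ℤ) * ((a : ℤ) - b) := by
      have h3 : ((k : ℤ) - k') * m = (N : ℤ) * ((a : ℤ) - b) := by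
        have := congrArg (fun x : ℕ => (x : ℤ)) hnat
        push_cast at this
        linarith
      have hg0 : (g : ℤ) ≠ 0 := by exact_mod_cast hgpos.ne'
      apply mul_left_cancel₀ hg0
      have e1 : (g : ℤ) * ((m / g : ℕ) : ℤ) = m := by exact_mod_cast hmD
      have e2 : (g : ℤ) * ((N / g : ℕ) : ℤ) = N := by exact_mod_cast hND
      calc (g : ℤ) * (((k : ℤ) - k') * (m / g : ℕ))
          = ((k : ℤ) - k') * ((g : ℤ) * ((m / g : ℕ) : ℤ)) := by ring
        _ = ((k : ℤ) - k') * m := by rw [e1]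
        _ = (N : ℤ) * ((a : ℤ) - b) := h3
        _ = ((g : ℤ) * ((N / g : ℕ) : ℤ)) * ((a : ℤ) - b) := by rw [e2]
        _ = (g : ℤ) * (((N / g : ℕ) : ℤ) * ((a : ℤ) - b)) := by ring
    have hcopZ : IsCoprime ((N / g : ℕ) : ℤ) ((m / g : ℕ) : ℤ) :=
      Nat.isCoprime_iff_coprime.mpr hcop
    exact hcopZ.dvd_of_dvd_mul_right ⟨_, hint⟩

end Core

section Forms

open UpperHalfPlane ModularForm EisensteinSeries MatrixGroups ModularFormClass

variable {κ : Type*} [Field κ]

/-- the reduction along `φ : 𝒪 →+* κ` of a level-one form with coefficients in `𝒪` is the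
q-series of an isobaric polynomial over `κ`. -/
theorem exists_isobaric_reduction (𝒪 : Subring ℂ) (h6 : IsUnit (6 : 𝒪)) (φ : 𝒪 →+* κ)
    (k : ℕ) (f : ModularForm 𝒮ℒ (k : ℤ))
    (hf : ∀ n, PowerSeries.coeff n (qExpansion 1 f) ∈ 𝒪) :
    ∃ F : MvPolynomial (Fin 2) κ, F.IsWeightedHomogeneous wt k ∧
      ∀ n, PowerSeries.coeff n (ev κ F) = φ ⟨_, hf n⟩ := by
  obtain ⟨P, hP, hPq⟩ := exists_isobaric_of_coeff_mem 𝒪 h6 k f hf
  refine ⟨MvPolynomial.map φ P, isWeightedHomogeneous_map φ hP, fun n => ?_⟩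
  rw [ev_map, PowerSeries.coeff_map]
  congr 1
  apply Subtype.ext
  have := congrArg (PowerSeries.coeff n) hPq
  rw [PowerSeries.coeff_map] at this
  exact this.symm

/-- a level-one form of negative weight has zero q-expansion. -/
theorem qExpansion_eq_zero_of_neg {k : ℤ} (hk : k < 0) (f : ModularForm 𝒮ℒ k) :
    qExpansion 1 f = 0 := by
  rw [levelOne_neg_weight_eq_zero hk f, UpperHalfPlane.qExpansion_zero]

/-- **Weak Swinnerton-Dyer, from a Hasse invariant.**  `κ` a field with `6 ≠ 0` carrying an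
isobaric `A` of weight `N ≥ 4` with `ev κ A = 1`.  Then there is `D ≥ 4`, `D ∣ N`, such that
(1) the weight of every level-one form which reduces to a nonzero constant is divisible by `D`,
(2) two level-one forms with the same nonzero reduction have weights congruent mod `D`. -/
theorem swd_weak_of_hasse (h6κ : (6 : κ) ≠ 0) {N : ℕ} (hN : 4 ≤ N)
    (hH : ∃ A : MvPolynomial (Fin 2) κ, A.IsWeightedHomogeneous wt N ∧ ev κ A = 1) :
    ∃ D : ℕ, 4 ≤ D ∧ D ∣ N ∧
      (∀ (𝒪 : Subring ℂ) (_ : IsUnit (6 : 𝒪)) (φ : 𝒪 →+* κ) (k : ℤ) (f : ModularForm 𝒮ℒ k)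
        (hf : ∀ n, PowerSeries.coeff n (qExpansion 1 f) ∈ 𝒪),
        φ ⟨_, hf 0⟩ ≠ 0 → (∀ n, 1 ≤ n → φ ⟨_, hf n⟩ = 0) → (D : ℤ) ∣ k) ∧
      (∀ (𝒪 : Subring ℂ) (_ : IsUnit (6 : 𝒪)) (φ : 𝒪 →+* κ) (k k' : ℤ) (f : ModularForm 𝒮ℒ k)
        (g : ModularForm 𝒮ℒ k')
        (hf : ∀ n, PowerSeries.coeff n (qExpansion 1 f) ∈ 𝒪)
        (hg : ∀ n, PowerSeries.coeff n (qExpansion 1 g) ∈ 𝒪),
        (∀ n, φ ⟨_, hf n⟩ = φ ⟨_, hg n⟩) → (∃ n, φ ⟨_, hf n⟩ ≠ 0) → (D : ℤ) ∣ k - k') := by
  obtain ⟨A, hA, hevA⟩ := hH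
  obtain ⟨D, hD4, hDN, hD⟩ := swd_weak_core h6κ hN A hA hevA
  -- the two-form statement
  have hcongr : ∀ (𝒪 : Subring ℂ) (_ : IsUnit (6 : 𝒪)) (φ : 𝒪 →+* κ) (k k' : ℤ)
      (f : ModularForm 𝒮ℒ k) (g : ModularForm 𝒮ℒ k')
      (hf : ∀ n, PowerSeries.coeff n (qExpansion 1 f) ∈ 𝒪)
      (hg : ∀ n, PowerSeries.coeff n (qExpansion 1 g) ∈ 𝒪),
      (∀ n, φ ⟨_, hf n⟩ = φ ⟨_, hg n⟩) → (∃ n, φ ⟨_, hf n⟩ ≠ 0) → (D : ℤ) ∣ k - k' := by
    intro 𝒪 h6 φ k k' f g hf hg hfg hne
    obtain ⟨n₀, hn₀⟩ := hne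
    -- weights are nonnegative
    have hk : 0 ≤ k := by
      by_contra hcon
      have h0 := qExpansion_eq_zero_of_neg (not_le.mp hcon) f
      apply hn₀
      have : (⟨_, hf n₀⟩ : 𝒪) = 0 := by
        apply Subtype.ext
        simp [h0]
      rw [this, map_zero]
    have hk' : 0 ≤ k' := by
      by_contra hcon
      have h0 := qExpansion_eq_zero_of_neg (not_le.mp hcon) g
      apply hn₀
      rw [hfg]
      have : (⟨_, hg n₀⟩ : 𝒪) = 0 := by
        apply Subtype.ext
        simp [h0]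
      rw [this, map_zero]
    obtain ⟨m, rfl⟩ := Int.eq_ofNat_of_zero_le hk
    obtain ⟨m', rfl⟩ := Int.eq_ofNat_of_zero_le hk'
    obtain ⟨F, hF, hFc⟩ := exists_isobaric_reduction 𝒪 h6 φ m f hf
    obtain ⟨G, hG, hGc⟩ := exists_isobaric_reduction 𝒪 h6 φ m' g hg
    refine hD m m' F G hF hG ?_ ?_
    · ext n
      rw [hFc, hGc, hfg]
    · intro h0
      apply hn₀
      rw [← hFc, h0, map_zero]
  refine ⟨D, hD4, hDN, ?_, hcongr⟩
  -- the constant statement: compare with the constant form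
  intro 𝒪 h6 φ k f hf h0 hpos
  have hk : 0 ≤ k := by
    by_contra hcon
    have hq := qExpansion_eq_zero_of_neg (not_le.mp hcon) f
    apply h0
    have : (⟨_, hf 0⟩ : 𝒪) = 0 := by
      apply Subtype.ext
      simp [hq]
    rw [this, map_zero]
  obtain ⟨m, rfl⟩ := Int.eq_ofNat_of_zero_le hk
  obtain ⟨F, hF, hFc⟩ := exists_isobaric_reduction 𝒪 h6 φ m f hf
  have hFev : ev κ F = ev κ (C (φ ⟨_, hf 0⟩)) := by
    ext n
    rw [hFc, ev_C, PowerSeries.coeff_C]
    split_ifs with hn
    · subst hn; rfl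
    · exact hpos n (Nat.one_le_iff_ne_zero.mpr hn)
  have := hD m 0 F (C (φ ⟨_, hf 0⟩)) hF (isWeightedHomogeneous_C _ _) hFev ?_
  · simpa using this
  · rw [hFev, ev_C]
    intro hC
    apply h0
    have := congrArg (PowerSeries.coeff 0) hC
    simpa using this

end Forms

end Fermat.Agent.S16.H83
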