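import Mathlib
import Fermat.Agent.S16.H83_SwDWeak

set_option autoImplicit false

/-!
# S16 / (U5a): the Hasse invariant `E_{l-1} ≡ 1 mod l` and the final weak Swinnerton-Dyer
statements (`helper83`)

* `bernoulli_pred_prime` : von Staudt–Clausen at `l - 1`: `B_{l-1} * (l * Q) = u`, `l ∤ u`.
* `exists_hasse` : for `𝒪 ⊆ ℂ` with `6` invertible and `φ : 𝒪 →+* κ` into a field with `φ l = 0`,
  there is an isobaric `A` of weight `l - 1` over `κ` with `ev κ A = 1`.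
* `swd_weak` : the weak Swinnerton-Dyer theorem in the `φ`-shape;
  `swd_weak_local` : in the local-ring shape; `count_sparse` : in the `2 * d ∣ k` shape.
-/

noncomputable section

namespace Fermat.Agent.S16.H83

open Finset

/-- von Staudt–Clausen at `l - 1`: `B_{l-1} = u / (l * Q)` with `l ∤ u`. -/
theorem bernoulli_pred_prime (l : ℕ) [hl : Fact l.Prime] (hl3 : 3 ≤ l) :
    ∃ u : ℤ, ∃ Q : ℕ, ¬ (l : ℤ) ∣ u ∧ Q ≠ 0 ∧ bernoulli (l - 1) * (l * Q) = u := by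
  have hlp := hl.out
  obtain ⟨k, hk⟩ : ∃ k, l - 1 = 2 * k := by
    have := hlp.eq_two_or_odd'
    rcases this with h | h
    · omega
    · obtain ⟨m, hm⟩ := h
      exact ⟨m, by omega⟩
  obtain ⟨n, hn⟩ := Bernoulli.vonStaudt_clausen k
  rw [← hk] at hn
  set s := (range (l - 1 + 2)).filter (fun p => p.Prime ∧ (p - 1) ∣ (l - 1)) with hs
  have hls : l ∈ s := by
    rw [hs, mem_filter, mem_range]
    exact ⟨by omega, hlp, dvd_rfl⟩
  set T := s.erase l with hT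
  set Q : ℕ := ∏ p ∈ T, p with hQ
  have hTlt : ∀ p ∈ T, p.Prime ∧ p < l := by
    intro p hp
    rw [hT, mem_erase, hs, mem_filter, mem_range] at hp
    exact ⟨hp.2.2.1, by omega⟩
  have hQ0 : Q ≠ 0 := by
    rw [hQ, Finset.prod_ne_zero_iff]
    intro p hp
    exact (hTlt p hp).1.ne_zero
  have hlQ : ¬ l ∣ Q := by
    rw [hQ, Prime.dvd_finsetProd_iff hlp.prime]
    rintro ⟨p, hp, hdvd⟩
    have := hTlt p hp
    have := Nat.le_of_dvd this.1.pos hdvd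
    omega
  set I : ℤ := ∑ p ∈ T, ∏ q ∈ T.erase p, (q : ℤ) with hI
  have hSI : (∑ p ∈ T, (1 : ℚ) / p) * Q = I := by
    rw [hI, Finset.sum_mul]
    push_cast
    refine Finset.sum_congr rfl fun p hp => ?_
    have hp0 : (p : ℚ) ≠ 0 := by exact_mod_cast (hTlt p hp).1.ne_zero
    rw [hQ]
    push_cast
    rw [← Finset.mul_prod_erase T _ hp]
    field_simp
  have hsum : ∑ p ∈ s, (1 : ℚ) / p = 1 / l + ∑ p ∈ T, (1 : ℚ) / p := by
    rw [hT]
    exact (Finset.add_sum_erase s (fun p => (1 : ℚ) / p) hls).symm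
  rw [hsum] at hn
  have hl0 : (l : ℚ) ≠ 0 := by exact_mod_cast hlp.ne_zero
  refine ⟨n * l * Q - Q - l * I, Q, ?_, hQ0, ?_⟩
  · intro hdvd
    have h1 : (l : ℤ) ∣ n * l * Q - l * I := ⟨n * Q - I, by ring⟩
    have h2 : (l : ℤ) ∣ (Q : ℤ) := by
      have := dvd_sub h1 hdvd
      have e : n * l * Q - l * I - (n * l * Q - Q - l * I) = Q := by ring
      rwa [e] at this
    exact hlQ (by exact_mod_cast h2)
  · have hB : bernoulli (l - 1) = n - 1 / l - ∑ p ∈ T, (1 : ℚ) / p := by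
      rw [hn]; ring
    rw [hB]
    push_cast
    rw [← hSI]
    field_simp

/-- the Eisenstein coefficient `-(2k / B_k)` at `k = l - 1` is `l * M / N` with `l ∤ N`. -/
theorem eisenstein_coeff_pred_prime (l : ℕ) [hl : Fact l.Prime] (hl3 : 3 ≤ l) :
    ∃ N M : ℤ, ¬ (l : ℤ) ∣ N ∧
      (N : ℚ) * (-(2 * ((l - 1 : ℕ) : ℚ) / bernoulli (l - 1))) = l * M := by
  obtain ⟨u, Q, hu, hQ0, hB⟩ := bernoulli_pred_prime l hl3
  have hu0 : (u : ℚ) ≠ 0 := by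
    intro h
    apply hu
    have : u = 0 := by exact_mod_cast h
    rw [this]
    exact dvd_zero _
  have hl0 : (l : ℚ) ≠ 0 := by exact_mod_cast hl.out.ne_zero
  have hQ0' : (Q : ℚ) ≠ 0 := by exact_mod_cast hQ0
  have hBne : bernoulli (l - 1) ≠ 0 := by
    intro h
    rw [h, zero_mul] at hB
    exact hu0 hB.symm
  refine ⟨u, -(2 * ((l - 1 : ℕ) : ℤ) * Q), hu, ?_⟩
  rw [← hB]
  push_cast
  field_simp

section Hasse

open UpperHalfPlane ModularForm EisensteinSeries MatrixGroups ModularFormClass MvPolynomial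
open Fermat.Agent.S16.H95
open scoped ArithmeticFunction.sigma

/-- **The Hasse invariant.**  `E_{l-1} ≡ 1 mod l`, as an isobaric polynomial over `κ`. -/
theorem exists_hasse (l : ℕ) [hl : Fact l.Prime] (hl5 : 5 ≤ l) (𝒪 : Subring ℂ)
    (h6 : IsUnit (6 : 𝒪)) {κ : Type*} [Field κ] (φ : 𝒪 →+* κ) (hφl : φ (l : 𝒪) = 0) :
    ∃ A : MvPolynomial (Fin 2) κ, A.IsWeightedHomogeneous wt (l - 1) ∧ ev κ A = 1 := by
  obtain ⟨N, M, hN, hNM⟩ := eisenstein_coeff_pred_prime l (by omega)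
  have hk3 : 3 ≤ l - 1 := by omega
  have hkeven : Even (l - 1) := by
    rcases hl.out.eq_two_or_odd' with h | h
    · omega
    · obtain ⟨m, hm⟩ := h
      exact ⟨m, by omega⟩
  set f : ModularForm 𝒮ℒ ((l - 1 : ℕ) : ℤ) := (N : ℂ) • E hk3 with hf
  have hq : qExpansion 1 f = (N : ℂ) • qExpansion 1 (E hk3) := by
    rw [hf, FunLike.coe_smul, ModularForm.qExpansion_smul one_pos one_mem_strictPeriods_SL]
  have hcoeff : ∀ n, PowerSeries.coeff n (qExpansion 1 f) =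
      if n = 0 then ((N : ℤ) : ℂ) else ((l * M * (σ (l - 1 - 1) n : ℤ) : ℤ) : ℂ) := by
    intro n
    rw [hq, PowerSeries.coeff_smul, E_qExpansion_coeff hk3 hkeven n]
    split_ifs with h
    · simp
    · have := congrArg (fun x : ℚ => (x : ℂ)) hNM
      push_cast at this
      push_cast
      rw [smul_eq_mul, ← mul_assoc, this]
  have hmem : ∀ n, PowerSeries.coeff n (qExpansion 1 f) ∈ 𝒪 := by
    intro n
    rw [hcoeff]
    split_ifs
    · exact intCast_mem 𝒪 _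
    · exact intCast_mem 𝒪 _
  obtain ⟨F, hF, hFc⟩ := exists_isobaric_reduction 𝒪 h6 φ (l - 1) f hmem
  have hlκ : (l : κ) = 0 := by simpa using hφl
  have : CharP κ l := (CharP.charP_iff_prime_eq_zero hl.out).mpr hlκ
  have hNκ : (N : κ) ≠ 0 := by
    rw [Ne, CharP.intCast_eq_zero_iff κ l]
    exact hN
  have hFev : ev κ F = PowerSeries.C (N : κ) := by
    ext n
    rw [hFc, PowerSeries.coeff_C]
    have hval : (⟨_, hmem n⟩ : 𝒪) =
        if n = 0 then ((N : ℤ) : 𝒪) else ((l * M * (σ (l - 1 - 1) n : ℤ) : ℤ) : 𝒪) := by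
      apply Subtype.ext
      simp only [hcoeff n]
      split_ifs <;> simp
    rw [hval]
    split_ifs with h
    · simp
    · rw [map_intCast]
      push_cast
      rw [hlκ]
      ring
  refine ⟨C ((N : κ)⁻¹) * F, hF.C_mul _, ?_⟩
  rw [map_mul, ev_C, hFev, ← map_mul, inv_mul_cancel₀ hNκ, map_one]

end Hasse

section Final

open UpperHalfPlane ModularForm EisensteinSeries MatrixGroups ModularFormClass
open Fermat.Agent.S16.H95

/-- **Weak Swinnerton-Dyer theorem, `φ`-shape.**  `l ≥ 5` prime, `𝒪 ⊆ ℂ` a subring with `6`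
invertible, `φ : 𝒪 →+* κ` a ring hom to a field with `φ l = 0`.  There is `D ≥ 4`, `D ∣ l - 1`
such that (1) every level-one form with coefficients in `𝒪` whose reduction is a nonzero constant
has weight divisible by `D`; (2) two level-one forms with coefficients in `𝒪` and the same nonzero
reduction have weights congruent mod `D`. -/
theorem swd_weak (l : ℕ) [hl : Fact l.Prime] (hl5 : 5 ≤ l) (𝒪 : Subring ℂ)
    (h6 : IsUnit (6 : 𝒪)) {κ : Type*} [Field κ] (φ : 𝒪 →+* κ) (hφl : φ (l : 𝒪) = 0) :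
    ∃ D : ℕ, 4 ≤ D ∧ D ∣ l - 1 ∧
      (∀ (k : ℤ) (f : ModularForm 𝒮ℒ k)
        (hf : ∀ n, PowerSeries.coeff n (qExpansion 1 f) ∈ 𝒪),
        φ ⟨_, hf 0⟩ ≠ 0 → (∀ n, 1 ≤ n → φ ⟨_, hf n⟩ = 0) → (D : ℤ) ∣ k) ∧
      (∀ (k k' : ℤ) (f : ModularForm 𝒮ℒ k) (g : ModularForm 𝒮ℒ k')
        (hf : ∀ n, PowerSeries.coeff n (qExpansion 1 f) ∈ 𝒪)
        (hg : ∀ n, PowerSeries.coeff n (qExpansion 1 g) ∈ 𝒪),
        (∀ n, φ ⟨_, hf n⟩ = φ ⟨_, hg n⟩) → (∃ n, φ ⟨_, hf n⟩ ≠ 0) → (D : ℤ) ∣ k - k') := by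
  have h6κ : (6 : κ) ≠ 0 := by
    have := (h6.map φ).ne_zero
    rwa [map_ofNat] at this
  obtain ⟨D, hD4, hDN, h1, h2⟩ := swd_weak_of_hasse h6κ (N := l - 1) (by omega)
    (exists_hasse l hl5 𝒪 h6 φ hφl)
  exact ⟨D, hD4, hDN, fun k f hf => h1 𝒪 h6 φ k f hf,
    fun k k' f g hf hg => h2 𝒪 h6 φ k k' f g hf hg⟩

/-- in a local subring of `ℂ` whose maximal ideal contains the prime `l ≥ 5`, `6` is a unit. -/
theorem isUnit_six_of_local (l : ℕ) [hl : Fact l.Prime] (hl5 : 5 ≤ l) (𝒪 : Subring ℂ)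
    [IsLocalRing 𝒪] (hl𝒪 : (l : 𝒪) ∈ IsLocalRing.maximalIdeal 𝒪) : IsUnit (6 : 𝒪) := by
  by_contra h
  have h6m : (6 : 𝒪) ∈ IsLocalRing.maximalIdeal 𝒪 := (IsLocalRing.mem_maximalIdeal _).mpr h
  have hcop : Nat.Coprime 6 l := by
    have h2 : Nat.Coprime 2 l := (Nat.coprime_primes Nat.prime_two hl.out).mpr (by omega)
    have h3 : Nat.Coprime 3 l := (Nat.coprime_primes Nat.prime_three hl.out).mpr (by omega)
    exact Nat.Coprime.mul_left h2 h3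
  obtain ⟨a, b, hab⟩ := Nat.isCoprime_iff_coprime.mpr hcop
  have h1 : (1 : 𝒪) ∈ IsLocalRing.maximalIdeal 𝒪 := by
    have e : (1 : 𝒪) = (a : 𝒪) * 6 + (b : 𝒪) * (l : 𝒪) := by
      have := congrArg (fun x : ℤ => (x : 𝒪)) hab
      push_cast at this
      exact this.symm
    rw [e]
    exact Ideal.add_mem _ (Ideal.mul_mem_left _ _ h6m) (Ideal.mul_mem_left _ _ hl𝒪)
  exact (IsLocalRing.maximalIdeal.isMaximal 𝒪).ne_top ((Ideal.eq_top_iff_one _).mpr h1)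

/-- **Weak Swinnerton-Dyer theorem, local-ring shape.** -/
theorem swd_weak_local (l : ℕ) [hl : Fact l.Prime] (hl5 : 5 ≤ l) (𝒪 : Subring ℂ) [IsLocalRing 𝒪]
    (hl𝒪 : (l : 𝒪) ∈ IsLocalRing.maximalIdeal 𝒪) :
    ∃ D : ℕ, 4 ≤ D ∧ D ∣ l - 1 ∧
      (∀ (k : ℤ) (f : ModularForm 𝒮ℒ k)
        (hf : ∀ n, PowerSeries.coeff n (qExpansion 1 f) ∈ 𝒪),
        (⟨_, hf 0⟩ : 𝒪) ∉ IsLocalRing.maximalIdeal 𝒪 →
        (∀ n, 1 ≤ n → (⟨_, hf n⟩ : 𝒪) ∈ IsLocalRing.maximalIdeal 𝒪) → (D : ℤ) ∣ k) ∧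
      (∀ (k k' : ℤ) (f : ModularForm 𝒮ℒ k) (g : ModularForm 𝒮ℒ k')
        (hf : ∀ n, PowerSeries.coeff n (qExpansion 1 f) ∈ 𝒪)
        (hg : ∀ n, PowerSeries.coeff n (qExpansion 1 g) ∈ 𝒪),
        (∀ n, (⟨_, hf n⟩ - ⟨_, hg n⟩ : 𝒪) ∈ IsLocalRing.maximalIdeal 𝒪) →
        (∃ n, (⟨_, hf n⟩ : 𝒪) ∉ IsLocalRing.maximalIdeal 𝒪) → (D : ℤ) ∣ k - k') := by
  have h6 := isUnit_six_of_local l hl5 𝒪 hl𝒪
  obtain ⟨D, hD4, hDN, h1, h2⟩ := swd_weak l hl5 𝒪 h6 (IsLocalRing.residue 𝒪)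
    ((IsLocalRing.residue_eq_zero_iff _).mpr hl𝒪)
  refine ⟨D, hD4, hDN, ?_, ?_⟩
  · intro k f hf h0 hpos
    refine h1 k f hf ?_ ?_
    · rwa [Ne, IsLocalRing.residue_eq_zero_iff]
    · intro n hn
      exact (IsLocalRing.residue_eq_zero_iff _).mpr (hpos n hn)
  · intro k k' f g hf hg hfg hne
    refine h2 k k' f g hf hg ?_ ?_
    · intro n
      have := (IsLocalRing.residue_eq_zero_iff _).mpr (hfg n)
      rwa [map_sub, sub_eq_zero] at this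
    · obtain ⟨n, hn⟩ := hne
      exact ⟨n, by rwa [Ne, IsLocalRing.residue_eq_zero_iff]⟩

/-- from `D ≥ 4`, `D ∣ l - 1`: the `2 * d` shape. -/
theorem exists_two_mul_of_dvd {l D : ℕ} (hl : l.Prime) (hD4 : 4 ≤ D) (hDN : D ∣ l - 1) :
    ∃ d : ℕ, 1 < d ∧ d ∣ l - 1 ∧ ¬ l ∣ d ∧ ∀ k : ℤ, (D : ℤ) ∣ k → (2 : ℤ) ∣ k → (2 * d : ℤ) ∣ k := by
  have hl1 : 0 < l - 1 := by have := hl.two_le; omega
  have key : ∀ d : ℕ, 1 < d → d ∣ l - 1 → ¬ l ∣ d := by
    intro d hd hdl hld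
    have h1 := Nat.le_of_dvd hl1 hdl
    have h2 := Nat.le_of_dvd (by omega) hld
    omega
  rcases Nat.even_or_odd' D with ⟨t, ht | ht⟩
  · -- `D = 2 t`
    refine ⟨t, by omega, Dvd.dvd.trans ⟨2, by omega⟩ hDN, key t (by omega)
      (Dvd.dvd.trans ⟨2, by omega⟩ hDN), ?_⟩
    intro k hk _
    have : (2 * t : ℤ) = (D : ℤ) := by rw [ht]; push_cast; ring
    rw [this]
    exact hk
  · -- `D` odd
    refine ⟨D, by omega, hDN, key D (by omega) hDN, ?_⟩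
    intro k hk h2
    have hcop : IsCoprime (2 : ℤ) (D : ℤ) := by
      have : Nat.Coprime 2 D := by
        rw [Nat.coprime_two_left]
        exact ⟨t, ht⟩
      exact_mod_cast Nat.isCoprime_iff_coprime.mpr this
    exact hcop.mul_dvd h2 hk

/-- **The `count_sparse` shape** (consumer shape of the S16 coordination post): there is `d > 1`,
`d ∣ l - 1`, `l ∤ d`, with `2 * d ∣ k` for every level-one form of weight `k` with coefficients in
the local ring `𝒪` which reduces to a nonzero constant. -/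
theorem count_sparse (l : ℕ) [hl : Fact l.Prime] (hl5 : 5 ≤ l) (𝒪 : Subring ℂ) [IsLocalRing 𝒪]
    (hl𝒪 : (l : 𝒪) ∈ IsLocalRing.maximalIdeal 𝒪) :
    ∃ d : ℕ, 1 < d ∧ d ∣ l - 1 ∧ ¬ l ∣ d ∧
      ∀ (k : ℤ) (f : ModularForm 𝒮ℒ k)
        (hf : ∀ n, PowerSeries.coeff n (qExpansion 1 f) ∈ 𝒪),
        (⟨_, hf 0⟩ : 𝒪) ∉ IsLocalRing.maximalIdeal 𝒪 →
        (∀ n, 1 ≤ n → (⟨_, hf n⟩ : 𝒪) ∈ IsLocalRing.maximalIdeal 𝒪) → (2 * d : ℤ) ∣ k := by
  obtain ⟨D, hD4, hDN, h1, -⟩ := swd_weak_local l hl5 𝒪 hl𝒪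
  obtain ⟨d, hd1, hdl, hld, hd⟩ := exists_two_mul_of_dvd hl.out hD4 hDN
  refine ⟨d, hd1, hdl, hld, ?_⟩
  intro k f hf h0 hpos
  refine hd k (h1 k f hf h0 hpos) ?_
  -- the weight of a nonzero level-one form is even
  by_contra hodd
  rw [← even_iff_two_dvd, Int.not_even_iff_odd] at hodd
  have hf0 := levelOne_odd_weight_eq_zero hodd f
  apply h0
  have : (⟨_, hf 0⟩ : 𝒪) = 0 := by
    apply Subtype.ext
    simp [hf0, UpperHalfPlane.qExpansion_zero]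
  rw [this]
  exact zero_mem _

end Final

end Fermat.Agent.S16.H83
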