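/-
S16 / (U5), helper46: the leaf `ULeaf p l 0` for every prime `l ≥ 5` (any prime level `p`, `l = p`
included).

For `F ∈ M₂(Γ₀(p))` with integer `q`-coefficients `a n` and `l ∣ a n` for all `n ≥ 1`: the `p + 1`
conjugates of `p • F` under `SL(2, ℤ)` are `p • F` and `τ ↦ (F ∣ W_p)((τ + x) / p)`, `x < p`, with
`F ∣ W_p = - U_p F` (`H46_AtkinLehner`).  Their width-`p` expansions have coefficients in `ℤ[ζ_p]`
and reduce, modulo a prime of `ℤ[ζ_p]` over `l`, to the constants `p c̄` and `- c̄` (`p` times),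
`c̄ = a 0 mod l`.  The elementary symmetric functions are level-one forms of weight `2 i` whose
reductions are the constants `e_i(p c̄, - c̄, …, - c̄)` (helper77's `esymmForm_coeff_hom`); by the weak
Swinnerton-Dyer theorem (helper83's `swd_weak`) `e_i ≠ 0 ⇒ D ∣ 2 i` for some `4 ≤ D ∣ l - 1`, and
the combinatorial endgame (`H46_Comb`) forces `c̄ = 0`.
-/
import Mathlib
import Fermat.Prelude.Def_ModularForm_HeckeOperator
import Fermat.Prelude.Thm_ModularFormClass_qCoeff_heckeU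
import Fermat.Prelude.Thm_CongruenceSubgroup_one_mem_strictPeriods_Gamma0
import Fermat.Agent.S16.H46_AtkinLehner
import Fermat.Agent.S16.H46_Expansion
import Fermat.Agent.S16.H46_Comb
import Fermat.Agent.S16.H77_EsymmQExpGen
import Fermat.Agent.S16.H77_ChooseO
import Fermat.Agent.S16.H83_SwD
import Fermat.Agent.S16.H39_Leaves

set_option autoImplicit false

open UpperHalfPlane Matrix.SpecialLinearGroup CongruenceSubgroup ModularGroup ModularForm Function
open scoped ModularForm MatrixGroups Real Manifold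

noncomputable section

namespace Fermat.Agent.S16.H46

local notation "𝕢" => Periodic.qParam

variable {p : ℕ} [hp : Fact p.Prime]

local notation "Γp" => (Gamma0 p : Subgroup (GL (Fin 2) ℝ))

omit hp in
theorem one_mem_strictPeriods_Γp : (1 : ℝ) ∈ (Γp).strictPeriods :=
  CongruenceSubgroup.one_mem_strictPeriods_Gamma0 p

/-- The `q`-series of a form on `Γ₀(p)`. -/
theorem hasSum_of_coeff (F : ModularForm Γp 2) (τ : ℍ) :
    HasSum (fun n => (qExpansion 1 F).coeff n • 𝕢 1 τ ^ n) (F τ) := by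
  have : Fact (IsCusp OnePoint.infty Γp) :=
    ⟨Subgroup.isCusp_of_mem_strictPeriods one_pos (one_mem_strictPeriods_Γp (p := p))⟩
  exact ModularForm.hasSum_qExpansion F one_pos (one_mem_strictPeriods_Γp (p := p)) τ

/-- Coefficients of the Atkin-Lehner transform: `a_n(F ∣ W) = - a_{np}(F)`. -/
theorem coeff_alForm (F : ModularForm Γp 2) (n : ℕ) :
    (qExpansion 1 (alForm F)).coeff n = - (qExpansion 1 F).coeff (n * p) := by
  have h1 : ⇑(alForm F) = heckeU 2 p ⇑(-F) := by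
    rw [coe_alForm, slash_alW_eq_neg_heckeU, FunLike.coe_neg, heckeU_neg]
  have h2 := ModularFormClass.qCoeff_heckeU (-F) (one_mem_strictPeriods_Γp (p := p))
    hp.out.ne_zero n
  unfold ModularFormClass.qCoeff at h2
  rw [h1, h2, coeffHeckeU_apply, FunLike.coe_neg,
    ModularForm.qExpansion_neg one_pos (one_mem_strictPeriods_Γp (p := p)) F, map_neg]

theorem det_alW_pos : 0 < ((alW p).det : ℝ) := by
  rw [Matrix.GeneralLinearGroup.val_det_apply, val_alW, Matrix.det_fin_two_of]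
  have : (0 : ℝ) < p := by exact_mod_cast hp.out.pos
  simpa using this

/-- The conjugates of `p • F`. -/
def conjFun (F : ModularForm Γp 2) : Option (Fin p) → ℍ → ℂ
  | none => ⇑((p : ℂ) • F)
  | some x => fun τ => alForm F (heckeMatrix p x • τ)

open SlashInvariantForm in
theorem quotientFunc_eq_conjFun (F : ModularForm Γp 2) (o : Option (Fin p)) :
    quotientFunc (ℋ := 𝒮ℒ) ((p : ℂ) • F) (cosetEquiv p o) = conjFun F o := by
  rw [quotientFunc_cosetEquiv]
  rcases o with _ | x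
  · change ⇑((p : ℂ) • F) ∣[(2 : ℤ)] mapGL ℝ (1 : SL(2, ℤ)) = _
    rw [map_one, SlashAction.slash_one]
    rfl
  · change ⇑((p : ℂ) • F) ∣[(2 : ℤ)] mapGL ℝ (S * T ^ ((x : ℕ) : ℤ)) = _
    rw [slash_S_mul_T_zpow (p := p), FunLike.coe_smul, ModularForm.smul_slash, UpperHalfPlane.σ,
      if_pos det_alW_pos]
    ext τ
    have hp' : (p : ℂ) ≠ 0 := by exact_mod_cast hp.out.ne_zero
    rw [slash_heckeMatrix_apply 2 hp.out.ne_zero]
    simp only [conjFun, coe_alForm, Pi.smul_apply, smul_eq_mul, ContinuousAlgEquiv.refl_apply]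
    field_simp

theorem mdiff_conjFun (F : ModularForm Γp 2) (o : Option (Fin p)) : MDiff (conjFun F o) := by
  rw [← quotientFunc_eq_conjFun, quotientFunc_cosetEquiv]
  exact (ModularFormClass.holo ((p : ℂ) • F)).slash 2 _

/-- The width-`p` coefficients of the conjugates of `p • F`, in a subring `𝒪 ∋ ζ_p`. -/
def conjCoeff (p : ℕ) (𝒪 : Subring ℂ) (ζ : 𝒪) (a : ℕ → ℤ) : Option (Fin p) → ℕ → 𝒪
  | none => fun m => if p ∣ m then (p : 𝒪) * (a (m / p) : 𝒪) else 0
  | some x => fun m => -(a (m * p) : 𝒪) * ζ ^ ((x : ℕ) * m)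

theorem conjFun_none_apply (F : ModularForm Γp 2) (τ : ℍ) : conjFun F none τ = (p : ℂ) * F τ := by
  simp [conjFun]

theorem hasSum_conjFun (F : ModularForm Γp 2) (a : ℕ → ℤ)
    (ha : ∀ n, (qExpansion 1 F).coeff n = (a n : ℂ)) (𝒪 : Subring ℂ) (ζ : 𝒪)
    (hζ : (ζ : ℂ) = zetaC p) (o : Option (Fin p)) (τ : ℍ) :
    HasSum (fun m => ((conjCoeff p 𝒪 ζ a o m : 𝒪) : ℂ) • 𝕢 (p : ℝ) τ ^ m) (conjFun F o τ) := by
  rcases o with _ | x
  · have h1 := (hasSum_of_coeff F τ).mul_left (p : ℂ)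
    have h2 : HasSum (fun n => ((p : ℂ) * (a n : ℂ)) • 𝕢 1 (τ : ℂ) ^ n) ((p : ℂ) * F τ) := by
      simp only [ha, smul_eq_mul] at h1 ⊢
      simpa only [mul_assoc] using h1
    have h3 := hasSum_width hp.out.ne_zero h2
    rw [conjFun_none_apply]
    convert h3 using 2 with m
    simp only [conjCoeff]
    split_ifs <;> simp
  · have hG : ∀ τ : ℍ, HasSum (fun n => (-(a (n * p) : ℂ)) • 𝕢 1 (τ : ℂ) ^ n) (alForm F τ) := by
      intro τ
      have h := hasSum_of_coeff (alForm F) τ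
      simp only [coeff_alForm, ha] at h
      exact h
    have h := hasSum_comp_heckeMatrix hp.out.ne_zero hG x τ
    change HasSum _ (alForm F (heckeMatrix p x • τ))
    convert h using 2 with m
    simp only [conjCoeff]
    push_cast
    rw [hζ]

theorem natCast_real_pos : (0 : ℝ) < (p : ℝ) := by exact_mod_cast hp.out.pos

/-- The reduction of the coefficients of the symmetric functions of the conjugates. -/
theorem esymm_reduction (F : ModularForm Γp 2) (a : ℕ → ℤ)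
    (ha : ∀ n, (qExpansion 1 F).coeff n = (a n : ℂ)) (𝒪 : Subring ℂ) (ζ : 𝒪)
    (hζ : (ζ : ℂ) = zetaC p) {κ : Type*} [CommRing κ] (φ : 𝒪 →+* κ) (l : ℕ)
    (hφl : φ (l : 𝒪) = 0) (hdiv : ∀ n, 1 ≤ n → (l : ℤ) ∣ a n) (i : ℕ) :
    ∃ hf : ∀ m, (qExpansion (1 : ℝ) (H77.esymmForm 𝒮ℒ ((p : ℂ) • F) i)).coeff m ∈ 𝒪,
      φ ⟨_, hf 0⟩ = ((Finset.univ : Finset (Option (Fin p))).val.map
        (fun o => φ (conjCoeff p 𝒪 ζ a o 0))).esymm i ∧
      ∀ m, 1 ≤ m → φ ⟨_, hf m⟩ = 0 := by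
  have hcoeff : ∀ (o : Option (Fin p)) (m : ℕ),
      (qExpansion (p : ℝ) (SlashInvariantForm.quotientFunc (ℋ := 𝒮ℒ) ((p : ℂ) • F)
        (cosetEquiv p o))).coeff m = ((conjCoeff p 𝒪 ζ a o m : 𝒪) : ℂ) := by
    intro o m
    rw [quotientFunc_eq_conjFun]
    exact qExpansion_coeff_of_hasSum natCast_real_pos (hasSum_conjFun F a ha 𝒪 ζ hζ o)
      (mdiff_conjFun F o) m
  have hmem : ∀ (o : Option (Fin p)) (m : ℕ),
      (qExpansion (p : ℝ) (SlashInvariantForm.quotientFunc (ℋ := 𝒮ℒ) ((p : ℂ) • F)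
        (cosetEquiv p o))).coeff m ∈ 𝒪 := by
    intro o m
    rw [hcoeff]
    exact (conjCoeff p 𝒪 ζ a o m).2
  have heq : ∀ (o : Option (Fin p)) (m : ℕ),
      (⟨_, hmem o m⟩ : 𝒪) = conjCoeff p 𝒪 ζ a o m := fun o m => Subtype.ext (hcoeff o m)
  have hφa : ∀ n, 1 ≤ n → φ ((a n : ℤ) : 𝒪) = 0 := by
    intro n hn
    obtain ⟨b, hb⟩ := hdiv n hn
    rw [hb]
    push_cast
    rw [map_mul, hφl, zero_mul]
  refine H77.esymmForm_coeff_hom 𝒮ℒ ((p : ℂ) • F) one_mem_strictPeriods_SL (cosetEquiv p)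
    (n := p) hp.out.pos ?_ 𝒪 φ (fun o => φ (conjCoeff p 𝒪 ζ a o 0)) hmem ?_ ?_ i
  · intro o
    rw [quotientFunc_eq_conjFun]
    exact analyticAt_of_hasSum natCast_real_pos (hasSum_conjFun F a ha 𝒪 ζ hζ o) (mdiff_conjFun F o)
  · intro o
    rw [heq]
  · intro o m hm
    rw [heq]
    rcases o with _ | x
    · simp only [conjCoeff]
      split_ifs with hpm
      · have h1 : 1 ≤ m / p := by
          obtain ⟨c, rfl⟩ := hpm
          rw [Nat.mul_div_cancel_left c hp.out.pos]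
          rcases Nat.eq_zero_or_pos c with rfl | hc
          · simp at hm
          · exact hc
        rw [map_mul, hφa _ h1, mul_zero]
      · exact map_zero φ
    · simp only [conjCoeff]
      have h1 : 1 ≤ m * p := Nat.mul_pos (by omega) hp.out.pos
      rw [map_mul, map_neg, hφa _ h1, neg_zero, zero_mul]

omit hp in
/-- The residues of the constant terms of the conjugates. -/
theorem map_conjCoeff_zero (𝒪 : Subring ℂ) (ζ : 𝒪) (a : ℕ → ℤ) {κ : Type*} [CommRing κ]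
    (φ : 𝒪 →+* κ) :
    (Finset.univ : Finset (Option (Fin p))).val.map (fun o => φ (conjCoeff p 𝒪 ζ a o 0)) =
      (conjRes κ p).map (φ ((a 0 : ℤ) : 𝒪) * ·) := by
  rw [univ_option]
  change φ (conjCoeff p 𝒪 ζ a none 0) ::ₘ
    ((Finset.univ : Finset (Fin p)).val.map Option.some).map
      (fun o => φ (conjCoeff p 𝒪 ζ a o 0)) = _
  rw [Multiset.map_map]
  have h1 : φ (conjCoeff p 𝒪 ζ a none 0) = φ ((a 0 : ℤ) : 𝒪) * (p : κ) := by
    simp only [conjCoeff, dvd_zero, if_true, Nat.zero_div]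
    rw [map_mul, map_natCast, mul_comm]
  have h2 : ∀ x : Fin p, ((fun o => φ (conjCoeff p 𝒪 ζ a o 0)) ∘ Option.some) x =
      φ ((a 0 : ℤ) : 𝒪) * (-1) := by
    intro x
    simp only [Function.comp_apply, conjCoeff, zero_mul, mul_zero, pow_zero, mul_one]
    rw [map_neg, mul_neg_one]
  rw [h1, Multiset.map_congr rfl (fun x _ => h2 x), Multiset.map_const', conjRes,
    Multiset.map_cons, Multiset.map_replicate]
  congr 2
  simp

/-- **(U5b) core**: with the weak Swinnerton-Dyer theorem in level one. -/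
theorem dvd_coeff_zero (l : ℕ) [hl : Fact l.Prime] (hl5 : 5 ≤ l) (F : ModularForm Γp 2)
    (a : ℕ → ℤ) (ha : ∀ n, (qExpansion 1 F).coeff n = (a n : ℂ)) (𝒪 : Subring ℂ)
    (hζ : zetaC p ∈ 𝒪) (h6 : IsUnit (6 : 𝒪)) {κ : Type*} [Field κ] (φ : 𝒪 →+* κ)
    (hφl : φ (l : 𝒪) = 0) (hφz : ∀ z : ℤ, φ (z : 𝒪) = 0 → (l : ℤ) ∣ z)
    (hdiv : ∀ n, 1 ≤ n → (l : ℤ) ∣ a n) : (l : ℤ) ∣ a 0 := by
  apply hφz
  by_contra hc
  obtain ⟨D, hD4, hDl, hswd, -⟩ := H83.swd_weak l hl5 𝒪 h6 φ hφl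
  have hD2 : ¬ D ∣ 2 := fun h => by
    have := Nat.le_of_dvd (by norm_num) h
    omega
  obtain ⟨j, -, hj1, hj2⟩ := exists_not_dvd_esymm_of_dvd (l := l) hDl hD2 hp.out.two_le
  obtain ⟨hf, h0, hpos⟩ := esymm_reduction F a ha 𝒪 ⟨zetaC p, hζ⟩ rfl φ l hφl hdiv j
  rw [map_conjCoeff_zero, esymm_map_mul_left, ← map_conjRes (Int.castRingHom κ) p,
    ← map_esymm] at h0
  have hne : φ ⟨_, hf 0⟩ ≠ 0 := by
    rw [h0]
    refine mul_ne_zero (pow_ne_zero _ hc) ?_
    intro hz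
    apply hj1
    apply hφz
    rw [map_intCast]
    exact hz
  have hdvd := hswd _ _ hf hne hpos
  apply hj2
  exact_mod_cast hdvd

theorem not_dvd_six {l : ℕ} (hl : l.Prime) (hl5 : 5 ≤ l) : ¬ (l : ℤ) ∣ 6 := by
  intro h
  have h' : l ∣ 6 := by exact_mod_cast h
  have hle := Nat.le_of_dvd (by norm_num) h'
  interval_cases l
  · norm_num at h'
  · norm_num at hl

/-- **(U5), `A = 1`**: for a prime `l ≥ 5` and `F ∈ M₂(Γ₀(p))` with integer coefficients `a n`,
if `l ∣ a n` for all `n ≥ 1` then `l ∣ a 0`. -/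
theorem dvd_coeff_zero_of_forall_dvd (l : ℕ) [hl : Fact l.Prime] (hl5 : 5 ≤ l)
    (F : ModularForm Γp 2) (a : ℕ → ℤ) (ha : ∀ n, (qExpansion 1 F).coeff n = (a n : ℂ))
    (hdiv : ∀ n, 1 ≤ n → (l : ℤ) ∣ a n) : (l : ℤ) ∣ a 0 := by
  obtain ⟨𝒪, _, κ, _, φ, -, -, -, hφl, hφz, hint, hunit, -⟩ := H77.exists_subring_hom l
  refine dvd_coeff_zero l hl5 F a ha 𝒪
    (hint _ (H77.isIntegral_exp_two_pi_div p hp.out.ne_zero)) ?_ φ hφl
    (fun z hz => (hφz z).mp hz) hdiv
  have h := hunit 6 (not_dvd_six hl.out hl5)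
  simpa using h

variable (p) in
/-- **Leaf (U5)**: `ULeaf p l 0` for every prime `l ≥ 5` (and every prime level `p`). -/
theorem uLeaf_five (l : ℕ) (hl : l.Prime) (hl5 : 5 ≤ l) : H39.ULeaf p l 0 := by
  have : Fact l.Prime := ⟨hl⟩
  have hl0 : (l : ℤ) ≠ 0 := by exact_mod_cast hl.ne_zero
  have hlC : (l : ℂ) ≠ 0 := by exact_mod_cast hl.ne_zero
  intro F a ha A
  induction A generalizing F a with
  | zero => intro _; simp
  | succ A ih =>
    intro hdiv
    have h1 : ∀ n, 1 ≤ n → (l : ℤ) ∣ a n := fun n hn =>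
      dvd_trans (dvd_pow_self _ (Nat.succ_ne_zero A)) (hdiv n hn)
    have h0 : (l : ℤ) ∣ a 0 := dvd_coeff_zero_of_forall_dvd l hl5 F a ha h1
    have hall : ∀ n, (l : ℤ) ∣ a n := by
      intro n
      rcases Nat.eq_zero_or_pos n with rfl | hn
      · exact h0
      · exact h1 n hn
    have ha' : ∀ n, a n = (l : ℤ) * (a n / (l : ℤ)) := by
      intro n
      exact (Int.mul_ediv_cancel' (hall n)).symm
    have hF' : ∀ n, (qExpansion 1 (((l : ℂ)⁻¹) • F : ModularForm Γp 2)).coeff n =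
        ((a n / l : ℤ) : ℂ) := by
      intro n
      rw [FunLike.coe_smul, ModularForm.qExpansion_smul one_pos one_mem_strictPeriods_Γp,
        PowerSeries.coeff_smul, ha]
      conv_lhs => rw [ha' n]
      push_cast
      rw [smul_eq_mul, inv_mul_cancel_left₀ hlC]
    have h2 := ih (((l : ℂ)⁻¹) • F) (fun n => a n / l) hF' (fun n hn => by
      have h3 := hdiv n hn
      rw [ha' n, pow_succ'] at h3
      exact (mul_dvd_mul_iff_left hl0).mp h3)
    simp only [pow_zero, one_mul] at h2 ⊢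
    rw [ha' 0, pow_succ']
    exact mul_dvd_mul_left _ h2

end Fermat.Agent.S16.H46
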