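/-
S16 (helper39, coordinator): the frozen statement from the ONE leaf that is still open,
`ULeaf p 2 2` for `p ≡ 7 mod 8`.  Everything else is discharged by the landed leaves:
`H46.uLeaf_five` (U5), `H63.uLeaf_three_zero` (U3a), `H17.uLeaf_three_one_final` (U3b),
`H63.uLeaf_two_one` (U2a), `H63.uLeaf_two_two` (U2b, `p ≡ 3 mod 8`), and
`H16.result_of_uLeaves` ((L) + small levels + duality + bookkeeping).
-/
import Fermat.Agent.S16.H16_FinalDraftU
import Fermat.Agent.S16.H46_U5b
import Fermat.Agent.S16.H63_Leaves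
import Fermat.Agent.S16.H17_U3bFinal

set_option autoImplicit false

open ModularCurve CuspForm CongruenceSubgroup

namespace Fermat.Agent.S16.H39

/-- **S16 from the last open leaf.** -/
theorem result_of_last_leaf (p : ℕ) [Fact p.Prime]
    (h : p ∉ ({2, 3, 5, 7, 13} : Finset ℕ) → p % 8 = 7 → ULeaf p 2 2) :
    Nat.card (↥(heckeLatticeAlgebra p ∅) ⧸
        Ideal.map ((latticeRestrictHom p ∅).toRingHom.comp (heckeEvalForms p 2))
          (eisensteinIdeal p)) =
      eisensteinNumerator p := by
  refine H16.result_of_uLeaves p (fun _ l hl hl5 => H46.uLeaf_five p l hl hl5)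
    (fun _ h3 => H63.uLeaf_three_zero h3)
    (fun hp _ => H17.uLeaf_three_one_final p
      (le_trans (by norm_num) (H16.eleven_le_of_not_mem Fact.out hp)))
    (fun _ h4 => H63.uLeaf_two_one h4) ?_
  intro hp h4
  have h8 : p % 8 = 3 ∨ p % 8 = 7 := by omega
  rcases h8 with h8 | h8
  · exact H63.uLeaf_two_two h8
  · exact h hp h8

end Fermat.Agent.S16.H39
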