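/-
S16 (helper39, coordinator): the frozen statement from the ONE leaf that is still open, in the
`Cong` shape that the (U2b) owners (helper76 main route, helper60 hedge) produce:
`p ≡ 7 mod 8 → ∀ f : CuspForm (Gamma0 p) 2, ¬ H52.Cong p f 2`.
Everything else is discharged by the landed leaves (see `H39_AlmostFinal`).
-/
import Fermat.Agent.S16.H39_AlmostFinal
import Fermat.Agent.S16.H52_Assembly

set_option autoImplicit false

open ModularCurve CuspForm CongruenceSubgroup

namespace Fermat.Agent.S16.H39

/-- A `ULeaf p 2 2` leaf (`p ≡ 3 mod 4`) forbids cusp forms congruent to the Eisenstein series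
modulo `2`. -/
theorem not_cong_two_of_uLeaf {p : ℕ} [Fact p.Prime] (h4 : p % 4 = 3) (h : ULeaf p 2 2)
    (f : CuspForm (Gamma0 p) 2) : ¬ H52.Cong p f 2 := by
  intro hf
  have hp : p.Prime := Fact.out
  have hcast : ((p : ℤ) - 1) = ((p - 1 : ℕ) : ℤ) := by
    rw [Nat.cast_sub hp.one_lt.le]; simp
  choose z hz hzd using hf
  have h := leaf_apply h f z hz 1 3 3 (by norm_num) (by simpa using hzd)
  rw [hcast] at h
  have h' : 2 ^ (1 + 3) ∣ 2 ^ 2 * (p - 1) := by exact_mod_cast h
  have h'' : 4 ∣ p - 1 := by
    have : (2 : ℕ) ^ 2 * 4 ∣ 2 ^ 2 * (p - 1) := by simpa using h'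
    exact Nat.dvd_of_mul_dvd_mul_left (by norm_num) this
  omega

/-- **The five leaves give `(U)`**, with the `(U2b)` leaf in `Cong` shape. -/
theorem uForms_of_leaves_cong (p : ℕ) [Fact p.Prime] (hp5 : 5 ≤ p)
    (h5 : ∀ l : ℕ, l.Prime → 5 ≤ l → ULeaf p l 0)
    (h3a : p % 3 = 1 → ULeaf p 3 0) (h3b : p % 3 = 2 → ULeaf p 3 1)
    (h2a : p % 4 = 1 → ULeaf p 2 1)
    (h2b : p % 4 = 3 → ∀ f : CuspForm (Gamma0 p) 2, ¬ H52.Cong p f 2) :
    H52.UForms p (eisensteinNumerator p) := by
  by_cases h4 : p % 4 = 3
  · -- split off the prime `2`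
    intro l a hl ha hex
    by_cases hl2 : l = 2
    · subst hl2
      obtain ⟨f, hf⟩ := hex
      have hf' : H52.Cong p f (2 ^ a) := hf
      exact absurd (hf'.of_dvd (dvd_pow_self 2 ha.ne')) (h2b h4 f)
    · -- for `l ≠ 2` the `(U2b)` leaf is never used
      -- re-run the argument for `l ≠ 2` only
      have hp : p.Prime := Fact.out
      have hcast : ((p : ℤ) - 1) = ((p - 1 : ℕ) : ℤ) := by
        rw [Nat.cast_sub hp.one_lt.le]; simp
      obtain ⟨f, hf⟩ := hex
      choose z hz hzd using hf
      have hcases : l = 3 ∨ 5 ≤ l := by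
        rcases Nat.lt_or_ge l 5 with h | h
        · have := hl.two_le
          interval_cases l
          · exact absurd rfl hl2
          · left; rfl
          · exact absurd hl (by decide)
        · right; exact h
      rcases hcases with rfl | hl5
      · have hmod : p % 3 = 1 ∨ p % 3 = 2 := by
          have : p % 3 ≠ 0 := by
            intro h0
            have h3 : 3 ∣ p := Nat.dvd_of_mod_eq_zero h0
            have := (Nat.prime_dvd_prime_iff_eq Nat.prime_three hp).mp h3
            omega
          omega
        rcases hmod with hm | hm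
        · have h := leaf_apply (h3a hm) f z hz a 1 8 (by norm_num) hzd
          rw [hcast] at h
          have h' : 3 ^ (a + 1) ∣ 3 ^ 0 * (p - 1) := by exact_mod_cast h
          rw [pow_zero, one_mul] at h'
          exact pow_dvd_eisensteinNumerator (v := 1) (c := 4) (by norm_num) (by decide) h'
        · exfalso
          have h := leaf_apply (h3b hm) f z hz a 1 8 (by norm_num) hzd
          rw [hcast] at h
          have h' : 3 ^ (a + 1) ∣ 3 ^ 1 * (p - 1) := by exact_mod_cast h
          have h'' : 3 ^ a ∣ p - 1 := by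
            rw [show a + 1 = 1 + a by ring, pow_add] at h'
            exact Nat.dvd_of_mul_dvd_mul_left (by norm_num) h'
          have h3 : 3 ∣ p - 1 := Dvd.dvd.trans (dvd_pow_self 3 (by omega)) h''
          omega
      · have h := leaf_apply (h5 l hl hl5) f z hz a 0 24 (by norm_num) hzd
        rw [hcast] at h
        have h' : l ^ (a + 0) ∣ l ^ 0 * (p - 1) := by exact_mod_cast h
        rw [pow_zero, one_mul] at h'
        have hc : Nat.Coprime l 12 := by
          rw [Nat.Prime.coprime_iff_not_dvd hl]
          intro h12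
          have hle : l ≤ 12 := Nat.le_of_dvd (by norm_num) h12
          interval_cases l <;>
            first | (exact absurd hl (by decide)) | (exact absurd h12 (by decide))
        exact pow_dvd_eisensteinNumerator (v := 0) (c := 12) (by norm_num) hc h'
  · exact uForms_of_leaves p hp5 h5 h3a h3b h2a (fun h => absurd h h4)

/-- **S16 from the last open leaf, `Cong` shape.** -/
theorem result_of_last_cong (p : ℕ) [Fact p.Prime]
    (h : p ∉ ({2, 3, 5, 7, 13} : Finset ℕ) → p % 8 = 7 →
      ∀ f : CuspForm (Gamma0 p) 2, ¬ H52.Cong p f 2) :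
    Nat.card (↥(heckeLatticeAlgebra p ∅) ⧸
        Ideal.map ((latticeRestrictHom p ∅).toRingHom.comp (heckeEvalForms p 2))
          (eisensteinIdeal p)) =
      eisensteinNumerator p :=
  H48.result_of_small_or fun hp =>
    have hp11 : 11 ≤ p := H16.eleven_le_of_not_mem Fact.out hp
    H52.natCard_eq_of_L_forms p (H98.hL_forms p)
      (uForms_of_leaves_cong p (le_trans (by norm_num) hp11)
        (fun l hl hl5 => H46.uLeaf_five p l hl hl5)
        (fun h3 => H63.uLeaf_three_zero h3)
        (fun _ => H17.uLeaf_three_one_final p (le_trans (by norm_num) hp11))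
        (fun h4 => H63.uLeaf_two_one h4)
        (fun h4 f => by
          have h8 : p % 8 = 3 ∨ p % 8 = 7 := by omega
          rcases h8 with h8 | h8
          · exact not_cong_two_of_uLeaf h4 (H63.uLeaf_two_two h8) f
          · exact h hp h8 f))

end Fermat.Agent.S16.H39
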