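/-
S16, package (E-MF): the weight-2 Eisenstein series of level `Γ₀(N)`,
`E2(z) - N * E2(N z)`, as a Mathlib `ModularForm`.

Everything is derived from Mathlib's `EisensteinSeries.E2_slash_action`
(`E2 ∣[2] γ = E2 - (1/(2ζ(2))) • D2 γ`), `E2_mdifferentiable`, `isBoundedAtImInfty_E2`,
and the Hermite normal form of `diag(N,1) * g` from `S23.H85_DeltaN`.
-/
import Mathlib
import Fermat.Prelude.Def_ModularForm_HeckeOperator
import Fermat.Prelude.Def_FLTPrelim_Modularity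
import Fermat.Agent.S23.H85_DeltaN

set_option autoImplicit false

open UpperHalfPlane CongruenceSubgroup ModularForm Matrix Filter EisensteinSeries
open scoped MatrixGroups ModularForm Manifold Pointwise Real

namespace Fermat.Agent.S16.H14

noncomputable section

open Fermat.Agent.S23.H85

/-! ### The correction term `D2` -/

/-- `D2 γ` is bounded at `i∞`. -/
theorem isBoundedAtImInfty_D2 (γ : SL(2, ℤ)) : IsBoundedAtImInfty (D2 γ) := by
  rw [UpperHalfPlane.isBoundedAtImInfty_iff]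
  refine ⟨2 * π, 1, fun z hz => ?_⟩
  by_cases hc : γ 1 0 = 0
  · have : D2 γ z = 0 := by simp [D2, hc]
    rw [this, norm_zero]; positivity
  · have hcR : (1 : ℝ) ≤ |((γ 1 0 : ℤ) : ℝ)| := by
      have : (1 : ℤ) ≤ |γ 1 0| := Int.one_le_abs hc
      exact_mod_cast this
    have him : (denom γ z).im = (γ 1 0 : ℝ) * z.im := by
      simp [UpperHalfPlane.denom]
    have hden : |((γ 1 0 : ℤ) : ℝ)| * z.im ≤ ‖denom γ z‖ := by
      have := Complex.abs_im_le_norm (denom γ z)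
      rw [him, abs_mul, abs_of_pos z.im_pos] at this
      exact this
    have hpos : 0 < |((γ 1 0 : ℤ) : ℝ)| * z.im := by
      have := z.im_pos
      positivity
    have hnum : ‖(2 * (π : ℂ) * Complex.I * (γ 1 0 : ℂ))‖ = 2 * π * |((γ 1 0 : ℤ) : ℝ)| := by
      simp [abs_of_pos Real.pi_pos]
    change ‖(2 * (π : ℂ) * Complex.I * (γ 1 0 : ℂ)) / denom γ z‖ ≤ 2 * π
    rw [norm_div, hnum, div_le_iff₀ (lt_of_lt_of_le hpos hden)]
    have h2π : 0 ≤ 2 * π := by positivity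
    calc 2 * π * |((γ 1 0 : ℤ) : ℝ)| ≤ 2 * π * (|((γ 1 0 : ℤ) : ℝ)| * z.im) := by
          apply mul_le_mul_of_nonneg_left _ h2π
          nlinarith [abs_nonneg ((γ 1 0 : ℤ) : ℝ)]
      _ ≤ 2 * π * ‖denom γ z‖ := mul_le_mul_of_nonneg_left hden h2π

/-- `E2 ∣[2] γ` is bounded at `i∞` for every `γ ∈ SL(2,ℤ)`. -/
theorem isBoundedAtImInfty_E2_slash (γ : SL(2, ℤ)) :
    IsBoundedAtImInfty (E2 ∣[(2 : ℤ)] γ) := by
  rw [E2_slash_action]
  exact isBoundedAtImInfty_E2.sub ((isBoundedAtImInfty_D2 γ).const_smul_left _)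


/-! ### The raw function `E2 - E2 ∣[2] diag(N,1)` -/

section Raw

variable (N : ℕ) [NeZero N]

/-- The function `z ↦ E2 z - N * E2 (N z)`, written with the slash operator of `diag(N,1)`. -/
def eisRawFun : ℍ → ℂ := E2 - E2 ∣[(2 : ℤ)] heckeDiagMatrix N

theorem eisRawFun_apply (z : ℍ) :
    eisRawFun N z = E2 z - (N : ℂ) * E2 (heckeDiagMatrix N • z) := by
  change E2 z - (E2 ∣[(2 : ℤ)] heckeDiagMatrix N) z = _
  rw [slash_heckeDiagMatrix_apply 2 (NeZero.ne N)]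
  norm_num

/-- The `D2`-corrections of `γ ∈ Γ₀(N)` and of its `diag(N,1)`-conjugate match. -/
theorem D2_conjMat_slash (γ : SL(2, ℤ)) (c' : ℤ) (hc : γ 1 0 = N * c') :
    (D2 (conjMat N γ c' hc)) ∣[(2 : ℤ)] heckeDiagMatrix N = D2 γ := by
  ext z
  rw [slash_heckeDiagMatrix_apply 2 (NeZero.ne N)]
  have hN : (N : ℂ) ≠ 0 := Nat.cast_ne_zero.mpr (NeZero.ne N)
  have h1 : denom (conjMat N γ c' hc) ((heckeDiagMatrix N • z : ℍ) : ℂ) =
      (c' : ℂ) * ((N : ℂ) * z) + γ 1 1 := by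
    rw [UpperHalfPlane.denom, coe_heckeDiagMatrix_smul (NeZero.ne N)]
    simp
  have h2 : denom γ z = ((N : ℂ) * c') * z + γ 1 1 := by
    rw [UpperHalfPlane.denom]
    simp [hc]
  have h3 : ((conjMat N γ c' hc) 1 0 : ℤ) = c' := by simp
  have hd : (c' : ℂ) * ((N : ℂ) * z) + γ 1 1 ≠ 0 := by
    rw [← h1]; exact denom_ne_zero _ _
  have hd' : ((N : ℂ) * c') * z + γ 1 1 ≠ 0 := by
    rw [← h2]; exact denom_ne_zero _ _
  simp only [D2]
  rw [h1, h2, h3, hc]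
  push_cast
  field_simp

/-- **`Γ₀(N)`-invariance** of `E2 - E2 ∣[2] diag(N,1)`. -/
theorem eisRawFun_slash (γ : SL(2, ℤ)) (hγ : γ ∈ Gamma0 N) :
    eisRawFun N ∣[(2 : ℤ)] (SpecialLinearGroup.mapGL ℝ γ) = eisRawFun N := by
  have hγ' : ((γ 1 0 : ℤ) : ZMod N) = 0 := Gamma0_mem.mp hγ
  obtain ⟨c', hc⟩ : (N : ℤ) ∣ γ 1 0 := (ZMod.intCast_zmod_eq_zero_iff_dvd _ N).mp hγ'
  have e1 : E2 ∣[(2 : ℤ)] (SpecialLinearGroup.mapGL ℝ γ) =
      E2 - (1 / (2 * riemannZeta 2)) • D2 γ := E2_slash_action γ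
  have e2 : (E2 ∣[(2 : ℤ)] heckeDiagMatrix N) ∣[(2 : ℤ)] (SpecialLinearGroup.mapGL ℝ γ) =
      E2 ∣[(2 : ℤ)] heckeDiagMatrix N - (1 / (2 * riemannZeta 2)) • D2 γ := by
    rw [← SlashAction.slash_mul, ← conjMat_mul N γ c' hc, SlashAction.slash_mul]
    have : E2 ∣[(2 : ℤ)] (SpecialLinearGroup.mapGL ℝ (conjMat N γ c' hc)) =
        E2 - (1 / (2 * riemannZeta 2)) • D2 (conjMat N γ c' hc) := E2_slash_action _
    rw [this, sub_eq_add_neg, SlashAction.add_slash, SlashAction.neg_slash,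
      ModularForm.smul_slash, σ_heckeDiagMatrix, D2_conjMat_slash, ← sub_eq_add_neg]
    rfl
  rw [eisRawFun, sub_eq_add_neg, SlashAction.add_slash, SlashAction.neg_slash, e1, e2]
  abel

/-- `(E2 ∣[2] diag(N,1)) ∣[2] g` is bounded at `i∞` for every `g ∈ SL(2,ℤ)` (Hermite form). -/
theorem isBoundedAtImInfty_E2_slash_diag_slash (g : SL(2, ℤ)) :
    IsBoundedAtImInfty
      ((E2 ∣[(2 : ℤ)] heckeDiagMatrix N) ∣[(2 : ℤ)] (SpecialLinearGroup.mapGL ℝ g)) := by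
  obtain ⟨g', t, b, u, htu, -, -, -, -, hmat⟩ := hermite_GL N g
  rw [← SlashAction.slash_mul, hmat, SlashAction.slash_mul]
  refine IsBoundedAtImInfty.slash 2 (g := upperTriangularGL t b u htu) ?_
    (isBoundedAtImInfty_E2_slash g')
  rw [val_upperTriangularGL]
  simp

/-- Every `SL(2,ℤ)`-translate of `E2 - E2 ∣[2] diag(N,1)` is bounded at `i∞`. -/
theorem isBoundedAtImInfty_eisRawFun_slash (g : SL(2, ℤ)) :
    IsBoundedAtImInfty (eisRawFun N ∣[(2 : ℤ)] (SpecialLinearGroup.mapGL ℝ g)) := by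
  rw [eisRawFun, sub_eq_add_neg, SlashAction.add_slash, SlashAction.neg_slash, ← sub_eq_add_neg]
  exact (isBoundedAtImInfty_E2_slash g).sub (isBoundedAtImInfty_E2_slash_diag_slash N g)

omit [NeZero N] in
theorem mdifferentiable_eisRawFun : MDiff (eisRawFun N) :=
  E2_mdifferentiable.sub (E2_mdifferentiable.slash 2 (heckeDiagMatrix N))

/-- **The weight-2 Eisenstein series of level `Γ₀(N)`**, `E2(z) - N * E2(N z)`, as a modular
form on (the image in `GL(2,ℝ)` of) `Γ₀(N)`.  It is zero for `N = 1`. -/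
def eisRaw : ModularForm ((Gamma0 N).map (SpecialLinearGroup.mapGL ℝ)) 2 where
  toFun := eisRawFun N
  slash_action_eq' γ hγ := by
    obtain ⟨g, hg, rfl⟩ := hγ
    exact eisRawFun_slash N g hg
  holo' := mdifferentiable_eisRawFun N
  bdd_at_cusps' {c} hc := by
    have hc' : IsCusp c (𝒮ℒ : Subgroup (GL (Fin 2) ℝ)) :=
      hc.mono (Subgroup.map_le_range _ _)
    rw [OnePoint.isBoundedAt_iff_forall_SL2Z hc']
    intro g _
    exact isBoundedAtImInfty_eisRawFun_slash N g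

theorem coe_eisRaw : (eisRaw N : ℍ → ℂ) = eisRawFun N := rfl

/-- The defining formula: `eisRaw N z = E2 z - N * E2 (N z)` (with `N z` written as the action
of `diag(N,1)` on `ℍ`; see `coe_diag_smul`). -/
theorem eisRaw_apply (z : ℍ) :
    eisRaw N z = E2 z - (N : ℂ) * E2 (heckeDiagMatrix N • z) :=
  eisRawFun_apply N z

theorem coe_diag_smul (z : ℍ) : ((heckeDiagMatrix N • z : ℍ) : ℂ) = (N : ℂ) * z :=
  coe_heckeDiagMatrix_smul (NeZero.ne N) z

end Raw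


/-! ### The Fricke involution -/

section Fricke

/-- The constant in the `S`-transformation of `E2`: `(1/(2ζ(2))) * 2πi = 6i/π`. -/
def kappaE2 : ℂ := (1 / (2 * riemannZeta 2)) * (2 * π * Complex.I)

/-- Pointwise `S`-transformation of `E2`: `E2(-1/z) = z² E2(z) - κ z`. -/
theorem E2_S_apply (z w : ℍ) (hw : (w : ℂ) = -1 / (z : ℂ)) :
    E2 w = (z : ℂ) ^ 2 * E2 z - kappaE2 * z := by
  have hz : (z : ℂ) ≠ 0 := ne_zero z
  have h1 : (E2 ∣[(2 : ℤ)] ModularGroup.S) z = E2 z - (1 / (2 * riemannZeta 2)) * D2 ModularGroup.S z := by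
    rw [E2_slash_action]; rfl
  rw [SlashInvariantForm.slash_S_apply, D2_S] at h1
  have hw' : w = UpperHalfPlane.mk (-(z : ℂ))⁻¹ z.im_inv_neg_coe_pos := by
    apply UpperHalfPlane.ext
    rw [hw]
    simp [neg_div, inv_neg]
  rw [hw']
  have h2 : E2 (UpperHalfPlane.mk (-(z : ℂ))⁻¹ z.im_inv_neg_coe_pos) =
      (E2 z - 1 / (2 * riemannZeta 2) * (2 * π * Complex.I / z)) * (z : ℂ) ^ 2 := by
    rw [← h1, mul_assoc, ← zpow_natCast (z : ℂ) 2, ← zpow_add₀ hz]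
    norm_num
  rw [h2, kappaE2]
  field_simp

variable (N : ℕ) [NeZero N]

/-- **Fricke involution** (function form): if `w = -1/(N z)` then
`eisRaw N w = - N z² · eisRaw N z`, i.e. `E ∣ W_N = -E`. -/
theorem eisRaw_fricke (z w : ℍ) (hw : (w : ℂ) = -1 / ((N : ℂ) * (z : ℂ))) :
    eisRaw N w = -(N : ℂ) * (z : ℂ) ^ 2 * eisRaw N z := by
  have hN : (N : ℂ) ≠ 0 := Nat.cast_ne_zero.mpr (NeZero.ne N)
  have hz : (z : ℂ) ≠ 0 := ne_zero z
  rw [eisRaw_apply, eisRaw_apply]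
  have h1 : E2 w = ((heckeDiagMatrix N • z : ℍ) : ℂ) ^ 2 * E2 (heckeDiagMatrix N • z) -
      kappaE2 * ((heckeDiagMatrix N • z : ℍ) : ℂ) :=
    E2_S_apply (heckeDiagMatrix N • z) w (by rw [coe_diag_smul, hw])
  have h2 : E2 (heckeDiagMatrix N • w) = (z : ℂ) ^ 2 * E2 z - kappaE2 * z :=
    E2_S_apply z (heckeDiagMatrix N • w) (by rw [coe_diag_smul, hw]; field_simp)
  rw [h1, h2, coe_diag_smul]
  ring

end Fricke

end

end Fermat.Agent.S16.H14
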