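/-
S16, package (TRACE), part 1: the Fricke involution `W_N = [[0,-1],[N,0]]` as an operator on
`ModularForm Γ₀(N) k`.
-/
import Mathlib
import Fermat.Agent.S16.H14_EisensteinForm

set_option autoImplicit false

open UpperHalfPlane CongruenceSubgroup ModularForm Matrix Filter EisensteinSeries
open scoped MatrixGroups ModularForm Manifold Pointwise Real

namespace Fermat.Agent.S16.H14

noncomputable section

open Fermat.Agent.S23.H85

variable (N : ℕ) [NeZero N]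

/-- The Fricke matrix `[[0,-1],[N,0]]`. -/
def frickeMat : GL (Fin 2) ℝ :=
  Matrix.GeneralLinearGroup.mkOfDetNeZero !![0, -1; (N : ℝ), 0]
    (by simp [Matrix.det_fin_two_of, NeZero.ne N])

@[simp] theorem val_frickeMat :
    ((frickeMat N : GL (Fin 2) ℝ) : Matrix (Fin 2) (Fin 2) ℝ) = !![0, -1; (N : ℝ), 0] := rfl

theorem det_frickeMat : ((frickeMat N).det : ℝ) = N := by
  rw [Matrix.GeneralLinearGroup.val_det_apply, val_frickeMat, Matrix.det_fin_two_of]
  ring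

theorem det_frickeMat_pos : 0 < ((frickeMat N).det : ℝ) := by
  rw [det_frickeMat]; exact_mod_cast Nat.pos_of_ne_zero (NeZero.ne N)

theorem σ_frickeMat : UpperHalfPlane.σ (frickeMat N) = .refl ℝ ℂ := by
  rw [UpperHalfPlane.σ, if_pos (det_frickeMat_pos N)]

theorem denom_frickeMat (z : ℍ) : UpperHalfPlane.denom (frickeMat N) z = (N : ℂ) * z := by
  simp [UpperHalfPlane.denom]

theorem coe_frickeMat_smul (z : ℍ) :
    ((frickeMat N • z : ℍ) : ℂ) = -1 / ((N : ℂ) * (z : ℂ)) := by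
  rw [UpperHalfPlane.coe_smul_of_det_pos (det_frickeMat_pos N)]
  simp [UpperHalfPlane.num, UpperHalfPlane.denom]

theorem slash_frickeMat_apply (k : ℤ) (f : ℍ → ℂ) (z : ℍ) :
    (f ∣[k] frickeMat N) z =
      f (frickeMat N • z) * (N : ℂ) ^ (k - 1) * ((N : ℂ) * z) ^ (-k) := by
  rw [ModularForm.slash_apply, σ_frickeMat, det_frickeMat, denom_frickeMat]
  simp

/-- `W_N = S * diag(N,1)`. -/
theorem frickeMat_eq :
    frickeMat N = SpecialLinearGroup.mapGL ℝ ModularGroup.S * heckeDiagMatrix N := by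
  apply Matrix.GeneralLinearGroup.ext
  intro i j
  rw [Matrix.GeneralLinearGroup.coe_mul, val_heckeDiagMatrix (NeZero.ne N), val_frickeMat]
  fin_cases i <;> fin_cases j <;>
    simp [Matrix.mul_apply, Fin.sum_univ_two, ModularGroup.S]

/-- The `W_N`-conjugate `[[d, -c/N],[-N b, a]]` of `γ = [[a,b],[c,d]] ∈ Γ₀(N)`. -/
def frickeConj (γ : SL(2, ℤ)) (c' : ℤ) (hc : γ 1 0 = N * c') : SL(2, ℤ) :=
  ⟨!![γ 1 1, -c'; -(N * γ 0 1), γ 0 0], by
    have := γ.det_coe
    rw [Matrix.det_fin_two] at this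
    rw [Matrix.det_fin_two_of]
    rw [hc] at this
    linarith⟩

omit [NeZero N] in
theorem frickeConj_mem (γ : SL(2, ℤ)) (c' : ℤ) (hc : γ 1 0 = N * c') :
    frickeConj N γ c' hc ∈ Gamma0 N := by
  rw [Gamma0_mem]
  simp [frickeConj]

theorem frickeMat_mul (γ : SL(2, ℤ)) (c' : ℤ) (hc : γ 1 0 = N * c') :
    frickeMat N * SpecialLinearGroup.mapGL ℝ γ =
      SpecialLinearGroup.mapGL ℝ (frickeConj N γ c' hc) * frickeMat N := by
  have hcR : ((γ 1 0 : ℤ) : ℝ) = N * c' := by exact_mod_cast congrArg (Int.cast : ℤ → ℝ) hc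
  apply Matrix.GeneralLinearGroup.ext
  intro i j
  rw [Matrix.GeneralLinearGroup.coe_mul, Matrix.GeneralLinearGroup.coe_mul, val_frickeMat]
  fin_cases i <;> fin_cases j <;>
    simp [Matrix.mul_apply, Fin.sum_univ_two, frickeConj, hcR] <;> ring

/-- `f ∣[k] W_N` is again `Γ₀(N)`-invariant when `f` is. -/
theorem slash_frickeMat_slash {k : ℤ} (f : ℍ → ℂ)
    (hf : ∀ γ ∈ Gamma0 N, f ∣[k] (SpecialLinearGroup.mapGL ℝ γ) = f)
    (γ : SL(2, ℤ)) (hγ : γ ∈ Gamma0 N) :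
    (f ∣[k] frickeMat N) ∣[k] (SpecialLinearGroup.mapGL ℝ γ) = f ∣[k] frickeMat N := by
  have hγ' : ((γ 1 0 : ℤ) : ZMod N) = 0 := Gamma0_mem.mp hγ
  obtain ⟨c', hc⟩ : (N : ℤ) ∣ γ 1 0 := (ZMod.intCast_zmod_eq_zero_iff_dvd _ N).mp hγ'
  rw [← SlashAction.slash_mul, frickeMat_mul N γ c' hc, SlashAction.slash_mul,
    hf _ (frickeConj_mem N γ c' hc)]

/-- **The Fricke operator** `F ↦ F ∣[k] W_N` on modular forms of level `Γ₀(N)`. -/
def fricke {k : ℤ} (F : ModularForm ((Gamma0 N).map (SpecialLinearGroup.mapGL ℝ)) k) :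
    ModularForm ((Gamma0 N).map (SpecialLinearGroup.mapGL ℝ)) k where
  toFun := (F : ℍ → ℂ) ∣[k] frickeMat N
  slash_action_eq' γ hγ := by
    obtain ⟨g, hg, rfl⟩ := hγ
    exact slash_frickeMat_slash N F
      (fun γ hγ => SlashInvariantForm.slash_action_eqn F _ ⟨γ, hγ, rfl⟩) g hg
  holo' := (ModularFormClass.holo F).slash k _
  bdd_at_cusps' {c} hc := by
    have hc' : IsCusp c (𝒮ℒ : Subgroup (GL (Fin 2) ℝ)) :=
      hc.mono (Subgroup.map_le_range _ _)
    rw [OnePoint.isBoundedAt_iff_forall_SL2Z hc']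
    intro g _
    obtain ⟨g', t, b, u, htu, -, -, -, -, hmat⟩ := hermite_GL N g
    change IsBoundedAtImInfty
      (((F : ℍ → ℂ) ∣[k] frickeMat N) ∣[k] (SpecialLinearGroup.mapGL ℝ g))
    rw [← SlashAction.slash_mul, frickeMat_eq, mul_assoc, hmat, ← mul_assoc, ← map_mul,
      SlashAction.slash_mul]
    refine IsBoundedAtImInfty.slash k (g := upperTriangularGL t b u htu) ?_
      (ModularFormClass.bdd_at_infty_slash F (ModularGroup.S * g'))
    rw [val_upperTriangularGL]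
    simp

theorem coe_fricke {k : ℤ} (F : ModularForm ((Gamma0 N).map (SpecialLinearGroup.mapGL ℝ)) k) :
    (fricke N F : ℍ → ℂ) = (F : ℍ → ℂ) ∣[k] frickeMat N := rfl

theorem fricke_apply {k : ℤ} (F : ModularForm ((Gamma0 N).map (SpecialLinearGroup.mapGL ℝ)) k)
    (z : ℍ) :
    fricke N F z = F (frickeMat N • z) * (N : ℂ) ^ (k - 1) * ((N : ℂ) * z) ^ (-k) :=
  slash_frickeMat_apply N k F z

/-- `W_N ∘ W_N = id` on `ℍ`. -/
theorem frickeMat_smul_smul (z : ℍ) : frickeMat N • (frickeMat N • z) = z := by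
  apply UpperHalfPlane.ext
  have hN : (N : ℂ) ≠ 0 := Nat.cast_ne_zero.mpr (NeZero.ne N)
  have hz : (z : ℂ) ≠ 0 := ne_zero z
  rw [coe_frickeMat_smul, coe_frickeMat_smul]
  field_simp

/-- In weight `2` the Fricke operator is an involution. -/
theorem fricke_fricke (F : ModularForm ((Gamma0 N).map (SpecialLinearGroup.mapGL ℝ)) 2) :
    fricke N (fricke N F) = F := by
  apply DFunLike.ext
  intro z
  have hN : (N : ℂ) ≠ 0 := Nat.cast_ne_zero.mpr (NeZero.ne N)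
  have hz : (z : ℂ) ≠ 0 := ne_zero z
  rw [fricke_apply, fricke_apply, frickeMat_smul_smul, coe_frickeMat_smul]
  have : ((2 : ℤ) - 1) = 1 := by norm_num
  simp only [this, zpow_one, _root_.zpow_neg]
  have e1 : ((N : ℂ) * (-1 / ((N : ℂ) * (z : ℂ)))) ^ (2 : ℤ) = ((z : ℂ) ^ 2)⁻¹ := by
    rw [zpow_ofNat]; field_simp
  have e2 : ((N : ℂ) * (z : ℂ)) ^ (2 : ℤ) = (N : ℂ) ^ 2 * (z : ℂ) ^ 2 := by
    rw [zpow_ofNat]; ring
  rw [e1, e2]
  field_simp

/-- The Eisenstein series is a `-1`-eigenvector of the Fricke operator. -/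
theorem fricke_eisRaw : fricke N (eisRaw N) = -eisRaw N := by
  apply DFunLike.ext
  intro z
  have hN : (N : ℂ) ≠ 0 := Nat.cast_ne_zero.mpr (NeZero.ne N)
  have hz : (z : ℂ) ≠ 0 := ne_zero z
  rw [fricke_apply, eisRaw_fricke N z (frickeMat N • z) (coe_frickeMat_smul N z)]
  have : ((2 : ℤ) - 1) = 1 := by norm_num
  simp only [this, zpow_one, _root_.zpow_neg, _root_.neg_apply]
  have e2 : ((N : ℂ) * (z : ℂ)) ^ (2 : ℤ) = (N : ℂ) ^ 2 * (z : ℂ) ^ 2 := by
    rw [zpow_ofNat]; ring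
  rw [e2]
  field_simp

end

end Fermat.Agent.S16.H14
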