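/-
S16, package (TRACE), part 2: for `p` prime and `f` a `Γ₀(p)`-invariant function of weight `k`,
the sum `f + ∑_{x ∈ ℤ/p} f ∣[k] (S T^x)` is `SL(2,ℤ)`-invariant.  In weight `2` it is a modular
form of level one, hence zero, which gives `F ∣ W_p = - U_p F` for every `F ∈ M₂(Γ₀(p))`.
-/
import Mathlib
import Fermat.Agent.S16.H14_Fricke

set_option autoImplicit false

open UpperHalfPlane CongruenceSubgroup ModularForm Matrix Filter
open scoped MatrixGroups ModularForm Manifold Pointwise Real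

namespace Fermat.Agent.S16.H14

noncomputable section

/-! ### Matrices -/

/-- The matrix `S T^n = [[0,-1],[1,n]]`. -/
def stMat (n : ℤ) : SL(2, ℤ) := ⟨!![0, -1; 1, n], by simp [Matrix.det_fin_two_of]⟩

@[simp] theorem coe_stMat (n : ℤ) :
    ((stMat n : SL(2, ℤ)) : Matrix (Fin 2) (Fin 2) ℤ) = !![0, -1; 1, n] := rfl

theorem stMat_zero : stMat 0 = ModularGroup.S := by
  ext i j; fin_cases i <;> fin_cases j <;> simp [ModularGroup.S]

theorem stMat_mul_T (n : ℤ) : stMat n * ModularGroup.T = stMat (n + 1) := by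
  ext i j
  fin_cases i <;> fin_cases j <;>
    simp [ModularGroup.T, Matrix.mul_apply, Fin.sum_univ_two]
  ring

/-- `[[1,0],[-l,1]]`. -/
def lowMat (l : ℤ) : SL(2, ℤ) := ⟨!![1, 0; -l, 1], by simp [Matrix.det_fin_two_of]⟩

theorem lowMat_mul_stMat (l m : ℤ) : lowMat l * stMat m = stMat (m + l) := by
  ext i j
  fin_cases i <;> fin_cases j <;>
    simp [lowMat, Matrix.mul_apply, Fin.sum_univ_two]
  ring

theorem lowMat_mem (N : ℕ) (l : ℤ) (h : (N : ℤ) ∣ l) : lowMat l ∈ Gamma0 N := by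
  rw [Gamma0_mem]
  simp only [lowMat, Matrix.of_apply, Matrix.cons_val', Matrix.cons_val_zero,
    Matrix.cons_val_one]
  rw [ZMod.intCast_zmod_eq_zero_iff_dvd]
  simpa using h

/-- `[[-j',-1],[j j'+1, j]]`. -/
def swapMat (j j' : ℤ) : SL(2, ℤ) :=
  ⟨!![-j', -1; j * j' + 1, j], by rw [Matrix.det_fin_two_of]; ring⟩

theorem stMat_mul_S (j j' : ℤ) : stMat j * ModularGroup.S = swapMat j j' * stMat j' := by
  ext a b
  fin_cases a <;> fin_cases b <;>
    simp [swapMat, ModularGroup.S, Matrix.mul_apply, Fin.sum_univ_two]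

theorem swapMat_mem (N : ℕ) (j j' : ℤ) (h : (N : ℤ) ∣ j * j' + 1) : swapMat j j' ∈ Gamma0 N := by
  rw [Gamma0_mem]
  simp only [swapMat, Matrix.of_apply, Matrix.cons_val', Matrix.cons_val_zero,
    Matrix.cons_val_one]
  rw [ZMod.intCast_zmod_eq_zero_iff_dvd]
  simpa using h

theorem neg_one_mem_Gamma0 (N : ℕ) : (-1 : SL(2, ℤ)) ∈ Gamma0 N := by
  rw [Gamma0_mem]; simp

theorem T_mem_Gamma0 (N : ℕ) : ModularGroup.T ∈ Gamma0 N := by
  rw [Gamma0_mem]; simp [ModularGroup.T]

theorem S_mul_S : ModularGroup.S * ModularGroup.S = (-1 : SL(2, ℤ)) := by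
  ext i j
  fin_cases i <;> fin_cases j <;>
    simp [ModularGroup.S, Matrix.mul_apply, Fin.sum_univ_two]


/-! ### Generators -/

/-- A function fixed by `S` and `T` is fixed by all of `SL(2,ℤ)`. -/
theorem slash_eq_of_S_T {f : ℍ → ℂ} {k : ℤ} (hS : f ∣[k] ModularGroup.S = f)
    (hT : f ∣[k] ModularGroup.T = f) (g : SL(2, ℤ)) : f ∣[k] g = f := by
  have hg : g ∈ Subgroup.closure {ModularGroup.S, ModularGroup.T} := by
    simp [SpecialLinearGroup.SL2Z_generators]
  induction hg using Subgroup.closure_induction with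
  | one => simp
  | mem g hg =>
      simp only [Set.mem_insert_iff, Set.mem_singleton_iff] at hg
      rcases hg with rfl | rfl
      · exact hS
      · exact hT
  | mul g h _ _ ig ih => rw [SlashAction.slash_mul, ig, ih]
  | inv g _ ig =>
      nth_rw 1 [← ig]
      rw [← SlashAction.slash_mul, mul_inv_cancel, SlashAction.slash_one]

/-! ### The trace sum -/

section TraceSum

variable {p : ℕ} [hp : Fact p.Prime] {k : ℤ} (f : ℍ → ℂ)

/-- The translate `f ∣[k] S T^n`. -/
def trTerm (k : ℤ) (n : ℤ) : ℍ → ℂ := f ∣[k] stMat n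

variable (hf : ∀ γ ∈ Gamma0 p, f ∣[k] γ = f)

omit hp in
include hf in
theorem trTerm_add_mul (n l : ℤ) (h : (p : ℤ) ∣ l) : trTerm f k (n + l) = trTerm f k n := by
  unfold trTerm
  rw [← lowMat_mul_stMat l n, SlashAction.slash_mul, hf _ (lowMat_mem p l h)]

omit hp in
include hf in
theorem trTerm_congr {n m : ℤ} (h : (p : ℤ) ∣ n - m) : trTerm f k n = trTerm f k m := by
  have := trTerm_add_mul f hf m (n - m) h
  rwa [add_sub_cancel] at this

/-- The translate `f ∣[k] S T^x` for `x ∈ ℤ/p`. -/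
def trZ (p : ℕ) (k : ℤ) (x : ZMod p) : ℍ → ℂ := trTerm f k (x.val : ℤ)

include hf in
theorem trZ_intCast (n : ℤ) : trZ f p k (n : ZMod p) = trTerm f k n := by
  apply trTerm_congr f hf
  rw [← ZMod.intCast_eq_intCast_iff_dvd_sub]
  simp

include hf in
theorem trZ_slash_T (x : ZMod p) : trZ f p k x ∣[k] ModularGroup.T = trZ f p k (x + 1) := by
  have h1 : trZ f p k x ∣[k] ModularGroup.T = trTerm f k ((x.val : ℤ) + 1) := by
    unfold trZ trTerm
    rw [← SlashAction.slash_mul, stMat_mul_T]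
  rw [h1, ← trZ_intCast f hf]
  congr 1
  push_cast
  simp

theorem trZ_zero : trZ f p k 0 = f ∣[k] ModularGroup.S := by
  unfold trZ trTerm
  rw [ZMod.val_zero, Nat.cast_zero, stMat_zero]

include hf in
theorem trZ_zero_slash_S : trZ f p k 0 ∣[k] ModularGroup.S = f := by
  rw [trZ_zero, ← SlashAction.slash_mul, S_mul_S]
  exact hf _ (neg_one_mem_Gamma0 p)

include hf in
theorem trZ_slash_S {x : ZMod p} (hx : x ≠ 0) :
    trZ f p k x ∣[k] ModularGroup.S = trZ f p k (-x⁻¹) := by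
  have hdvd : (p : ℤ) ∣ (x.val : ℤ) * ((-x⁻¹).val : ℤ) + 1 := by
    rw [← ZMod.intCast_zmod_eq_zero_iff_dvd]
    push_cast
    simp only [ZMod.natCast_val, ZMod.cast_id', id_eq]
    rw [mul_neg, mul_inv_cancel₀ hx]
    ring
  unfold trZ trTerm
  rw [← SlashAction.slash_mul, stMat_mul_S _ ((-x⁻¹).val : ℤ), SlashAction.slash_mul,
    hf _ (swapMat_mem p _ _ hdvd)]

/-- The trace sum `f + ∑_{x ∈ ℤ/p} f ∣[k] S T^x`. -/
def traceFun (p : ℕ) [Fact p.Prime] (k : ℤ) : ℍ → ℂ :=
  haveI : NeZero p := ⟨(Fact.out : p.Prime).ne_zero⟩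
  f + ∑ x : ZMod p, trZ f p k x

include hf in
theorem traceFun_slash_T : traceFun f p k ∣[k] ModularGroup.T = traceFun f p k := by
  have : NeZero p := ⟨hp.out.ne_zero⟩
  unfold traceFun
  rw [SlashAction.add_slash, SlashAction.sum_slash, hf _ (T_mem_Gamma0 p)]
  congr 1
  simp_rw [trZ_slash_T f hf]
  exact Equiv.sum_comp (Equiv.addRight (1 : ZMod p)) (fun x => trZ f p k x)

include hf in
theorem traceFun_slash_S : traceFun f p k ∣[k] ModularGroup.S = traceFun f p k := by
  have : NeZero p := ⟨hp.out.ne_zero⟩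
  unfold traceFun
  rw [SlashAction.add_slash, SlashAction.sum_slash]
  rw [← Finset.add_sum_erase Finset.univ (fun x => trZ f p k x ∣[k] ModularGroup.S)
      (Finset.mem_univ (0 : ZMod p)),
    ← Finset.add_sum_erase Finset.univ (fun x => trZ f p k x) (Finset.mem_univ (0 : ZMod p))]
  rw [trZ_zero_slash_S f hf, ← trZ_zero (p := p) f]
  have hsum : ∑ x ∈ Finset.univ.erase (0 : ZMod p), trZ f p k x ∣[k] ModularGroup.S =
      ∑ x ∈ Finset.univ.erase (0 : ZMod p), trZ f p k x := by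
    refine Finset.sum_nbij' (fun x => -x⁻¹) (fun x => -x⁻¹) ?_ ?_ ?_ ?_ ?_
    · intro x hx
      have hx0 : x ≠ 0 := (Finset.mem_erase.mp hx).1
      simp [hx0]
    · intro x hx
      have hx0 : x ≠ 0 := (Finset.mem_erase.mp hx).1
      simp [hx0]
    · intro x _
      simp
    · intro x _
      simp
    · intro x hx
      exact trZ_slash_S f hf (Finset.mem_erase.mp hx).1
  rw [hsum]
  abel

include hf in
/-- **The trace sum is `SL(2,ℤ)`-invariant.** -/
theorem traceFun_slash (g : SL(2, ℤ)) : traceFun f p k ∣[k] g = traceFun f p k :=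
  slash_eq_of_S_T (traceFun_slash_S f hf) (traceFun_slash_T f hf) g

end TraceSum


/-! ### Vanishing in weight two and the relation `F ∣ W_p = - U_p F` -/

section Vanishing

open Fermat.Agent.S23.H85
open P2MW.S_UpperHalfPlane_qCoeff_heckeT.M4cP1W2

variable {p : ℕ} [hp : Fact p.Prime]

theorem neZero_of_fact_prime : NeZero p := ⟨hp.out.ne_zero⟩

attribute [local instance] neZero_of_fact_prime

theorem slash_eq_of_mem_Gamma0 {N : ℕ} {k : ℤ}
    (F : ModularForm ((Gamma0 N).map (SpecialLinearGroup.mapGL ℝ)) k) :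
    ∀ γ ∈ Gamma0 N, (F : ℍ → ℂ) ∣[k] γ = F :=
  fun γ hγ => SlashInvariantForm.slash_action_eqn F _ ⟨γ, hγ, rfl⟩

/-- The trace of `F ∈ M_k(Γ₀(p))` to level one, as a modular form. -/
def traceForm {k : ℤ} (F : ModularForm ((Gamma0 p).map (SpecialLinearGroup.mapGL ℝ)) k) :
    ModularForm (𝒮ℒ : Subgroup (GL (Fin 2) ℝ)) k where
  toFun := traceFun F p k
  slash_action_eq' γ hγ := by
    obtain ⟨g, rfl⟩ := hγ
    exact traceFun_slash (F : ℍ → ℂ) (slash_eq_of_mem_Gamma0 F) g
  holo' := by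
    unfold traceFun
    refine (ModularFormClass.holo F).add ?_
    refine Finset.sum_induction _ (fun g : ℍ → ℂ => MDiff g) (fun _ _ ha hb => ha.add hb)
      mdifferentiable_const (fun x _ => ?_)
    exact (ModularFormClass.holo F).slash k _
  bdd_at_cusps' {c} hc := by
    rw [OnePoint.isBoundedAt_iff_forall_SL2Z hc]
    intro g _
    rw [traceFun_slash (F : ℍ → ℂ) (slash_eq_of_mem_Gamma0 F) g]
    unfold traceFun
    refine Filter.BoundedAtFilter.add ?_ ?_
    · have h1 : IsBoundedAtImInfty ((F : ℍ → ℂ) ∣[k] (1 : SL(2, ℤ))) :=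
        ModularFormClass.bdd_at_infty_slash F (1 : SL(2, ℤ))
      rw [SlashAction.slash_one] at h1
      exact h1
    · refine Finset.sum_induction _ (fun g : ℍ → ℂ => IsBoundedAtImInfty g)
        (fun _ _ ha hb => ha.add hb) UpperHalfPlane.zero_form_isBoundedAtImInfty (fun x _ => ?_)
      exact ModularFormClass.bdd_at_infty_slash F (stMat _)

theorem coe_traceForm {k : ℤ} (F : ModularForm ((Gamma0 p).map (SpecialLinearGroup.mapGL ℝ)) k) :
    (traceForm F : ℍ → ℂ) = traceFun F p k := rfl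

/-- **The trace of a weight-2 form of level `Γ₀(p)` to level one vanishes.** -/
theorem traceFun_eq_zero (F : ModularForm ((Gamma0 p).map (SpecialLinearGroup.mapGL ℝ)) 2) :
    traceFun F p 2 = 0 := by
  have h := rank_zero_iff_forall_zero.mp ModularForm.levelOne_weight_two_rank_zero (traceForm F)
  rw [← coe_traceForm, h]
  rfl

/-- `W_p ∘ [[1,j],[0,p]] = S T^j` on `ℍ`. -/
theorem frickeMat_smul_heckeMatrix_smul (j : ℕ) (z : ℍ) :
    frickeMat p • (heckeMatrix p j • z) = stMat (j : ℤ) • z := by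
  have hp0 : p ≠ 0 := hp.out.ne_zero
  have hpC : (p : ℂ) ≠ 0 := Nat.cast_ne_zero.mpr hp0
  apply UpperHalfPlane.ext
  rw [coe_frickeMat_smul, coe_heckeMatrix_smul hp0, UpperHalfPlane.coe_specialLinearGroup_apply]
  have hden : (z : ℂ) + (j : ℂ) ≠ 0 := by
    have h := UpperHalfPlane.denom_ne_zero (stMat (j : ℤ)) z
    rw [ModularGroup.denom_apply] at h
    simpa using h
  simp only [coe_stMat, Matrix.of_apply, Matrix.cons_val', Matrix.cons_val_zero,
    Matrix.cons_val_one, Matrix.cons_val_fin_one]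
  simp only [algebraMap_int_eq, Int.coe_castRingHom, Int.cast_zero, Int.cast_neg, Int.cast_one,
    Int.cast_natCast, Complex.ofReal_zero, Complex.ofReal_neg, Complex.ofReal_one,
    Complex.ofReal_natCast, zero_mul, zero_add, one_mul]
  field_simp

/-- `(f ∣ W_p) ∣ [[1,j],[0,p]] = f ∣ S T^j` in weight `2`. -/
theorem slash_frickeMat_slash_heckeMatrix (f : ℍ → ℂ) (j : ℕ) :
    (f ∣[(2 : ℤ)] frickeMat p) ∣[(2 : ℤ)] heckeMatrix p j = f ∣[(2 : ℤ)] stMat (j : ℤ) := by
  have hp0 : p ≠ 0 := hp.out.ne_zero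
  have hpC : (p : ℂ) ≠ 0 := Nat.cast_ne_zero.mpr hp0
  ext z
  have hden : (z : ℂ) + (j : ℂ) ≠ 0 := by
    have h := UpperHalfPlane.denom_ne_zero (stMat (j : ℤ)) z
    rw [ModularGroup.denom_apply] at h
    simpa using h
  rw [slash_heckeMatrix_apply 2 hp0, slash_frickeMat_apply, ModularForm.SL_slash_apply,
    frickeMat_smul_heckeMatrix_smul, coe_heckeMatrix_smul hp0, ModularGroup.denom_apply]
  have h2 : ((2 : ℤ) - 1) = 1 := by norm_num
  simp only [h2, zpow_one, coe_stMat, Matrix.of_apply, Matrix.cons_val', Matrix.cons_val_zero,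
    Matrix.cons_val_one, Matrix.cons_val_fin_one, Int.cast_one, one_mul, Int.cast_natCast]
  rw [mul_div_cancel₀ _ hpC]
  field_simp

/-- The `ℤ/p`-indexed sum is the sum over `j = 0, …, p-1`. -/
theorem sum_trZ_eq_sum_range (f : ℍ → ℂ) (k : ℤ) :
    ∑ x : ZMod p, trZ f p k x = ∑ j ∈ Finset.range p, trTerm f k (j : ℤ) := by
  symm
  refine Finset.sum_bij (fun j _ => (j : ZMod p)) (fun _ _ => Finset.mem_univ _) ?_ ?_ ?_
  · intro a ha b hb h
    have ha' := Finset.mem_range.mp ha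
    have hb' := Finset.mem_range.mp hb
    have := congrArg ZMod.val h
    rwa [ZMod.val_natCast_of_lt ha', ZMod.val_natCast_of_lt hb'] at this
  · intro b _
    exact ⟨b.val, Finset.mem_range.mpr (ZMod.val_lt b), ZMod.natCast_zmod_val b⟩
  · intro j hj
    unfold trZ
    rw [ZMod.val_natCast_of_lt (Finset.mem_range.mp hj)]

/-- The trace sum in Hecke-operator form: `Tr F = F + U_p (F ∣ W_p)`. -/
theorem traceFun_eq_add_heckeU (F : ModularForm ((Gamma0 p).map (SpecialLinearGroup.mapGL ℝ)) 2) :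
    traceFun F p 2 = (F : ℍ → ℂ) + heckeU 2 p (fricke p F) := by
  unfold traceFun heckeU
  rw [sum_trZ_eq_sum_range]
  congr 1
  refine Finset.sum_congr rfl (fun j _ => ?_)
  rw [coe_fricke, slash_frickeMat_slash_heckeMatrix]
  rfl

/-- `F = - U_p (F ∣ W_p)` for `F ∈ M₂(Γ₀(p))`. -/
theorem eq_neg_heckeU_fricke (F : ModularForm ((Gamma0 p).map (SpecialLinearGroup.mapGL ℝ)) 2) :
    (F : ℍ → ℂ) = -heckeU 2 p (fricke p F) := by
  have h := traceFun_eq_zero F
  rw [traceFun_eq_add_heckeU] at h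
  exact eq_neg_of_add_eq_zero_left h

/-- **`F ∣ W_p = - U_p F`** for `F ∈ M₂(Γ₀(p))`, `p` prime. -/
theorem fricke_eq_neg_heckeU (F : ModularForm ((Gamma0 p).map (SpecialLinearGroup.mapGL ℝ)) 2) :
    (fricke p F : ℍ → ℂ) = -heckeU 2 p F := by
  have h := eq_neg_heckeU_fricke (fricke p F)
  rwa [fricke_fricke] at h

/-- **The `q`-expansion of `F ∣ W_p`**: `a_n(F ∣ W_p) = - a_{np}(F)`. -/
theorem qCoeff_fricke (F : ModularForm ((Gamma0 p).map (SpecialLinearGroup.mapGL ℝ)) 2) (n : ℕ) :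
    ModularFormClass.qCoeff (fricke p F) n = -ModularFormClass.qCoeff F (n * p) := by
  have hΓ := CongruenceSubgroup.one_mem_strictPeriods_Gamma0 p
  have h1 : ModularFormClass.qCoeff (heckeU 2 p F) n = ModularFormClass.qCoeff F (n * p) := by
    rw [qCoeff_heckeU_class hp.out.ne_zero F hΓ n, coeffHeckeU_apply]
  have h2 : heckeU 2 p F = ((-(fricke p F) : ModularForm _ 2) : ℍ → ℂ) := by
    rw [FunLike.coe_neg, fricke_eq_neg_heckeU, neg_neg]
  rw [← h1, h2]
  unfold ModularFormClass.qCoeff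
  rw [FunLike.coe_neg, ModularForm.qExpansion_neg one_pos hΓ (fricke p F)]
  simp

end Vanishing

end

end Fermat.Agent.S16.H14
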