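import Mathlib
import Fermat.Agent.S28.H17_FormalIdentity
import Fermat.Agent.S16.H95_LevelOneStructure

/-!
# Level-one modular forms modulo two  (helper76, S16 package (U2b)/(G3))

* `qExpansion_discriminant_eq_int` : `qExpansion 1 Δ = (q ∏ (1 - qⁿ)²⁴)` with its INTEGER
  coefficients (from `S28.H17.isQSum_Delta`);
* `exists_poly_Delta_of_coeff_mem` : let `𝒪 ⊆ ℂ` be a subring and `π : 𝒪 →+* κ` with `2 = 0` in
  `κ`.  If `f ∈ M_w(SL₂(ℤ))` has all its `q`-coefficients in `𝒪`, then the reduction of its
  `q`-expansion is a POLYNOMIAL in `Δ̄ = q ∏ (1 - qⁿ)²⁴` of degree `≤ w / 12`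
  (`E₄ ≡ E₆ ≡ 1 mod 2` and the Victor-Miller induction; the level-one analogue at `ℓ = 2` of
  `H95.exists_isobaric_of_coeff_mem`, which needs `6` invertible).
-/

set_option autoImplicit false

noncomputable section

namespace Fermat.Agent.S16.H76

open UpperHalfPlane ModularForm EisensteinSeries MatrixGroups ModularFormClass ModularCurve
open Fermat.Agent.S16.H95
open Fermat.Agent.S24.H17 (IsQSum)

local notation "𝕢" => Function.Periodic.qParam

/-- The sum of the `q`-expansion of the discriminant, as a Laurent `q`-sum. -/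
theorem isQSum_qExpansion_discriminant :
    IsQSum (HahnSeries.ofPowerSeries ℤ ℂ (qExpansion 1 ModularForm.discriminant))
      ModularForm.discriminant := by
  intro τ
  have hq : 𝕢 1 (τ : ℂ) ≠ 0 := Function.Periodic.qParam_ne_zero _
  have hZ : ∀ n : ℤ, n < -((0 : ℕ) : ℤ) →
      (HahnSeries.ofPowerSeries ℤ ℂ (qExpansion 1 ModularForm.discriminant)).coeff n = 0 := by
    intro n hn
    exact ofPowerSeries_coeff_of_neg _ (by simpa using hn)
  refine (Fermat.Agent.S24.H17.hasSum_bridge _ 0 hZ hq _).mpr ?_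
  have h := ModularForm.hasSum_qExpansion (f := CuspForm.discriminant) one_pos
    one_mem_strictPeriods_SL τ
  rw [CuspForm.coe_discriminant] at h
  simp only [Nat.cast_zero, sub_zero, pow_zero, one_mul, HahnSeries.ofPowerSeries_apply_coeff]
  simpa [smul_eq_mul] using h

/-- The `q`-expansion of `Δ` is `q ∏ (1 - qⁿ)²⁴`, with integer coefficients. -/
theorem qExpansion_discriminant_eq_int :
    qExpansion 1 ModularForm.discriminant =
      (PowerSeries.X * dedekindEtaUnit).map (Int.castRingHom ℂ) := by
  have h1 := isQSum_qExpansion_discriminant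
  have h2 := Fermat.Agent.S28.H17.isQSum_Delta
  have h3 := h1.series_unique h2
  apply HahnSeries.ofPowerSeries_injective (Γ := ℤ)
  rw [h3, Fermat.Agent.S28.DeltaS, map_mul, PowerSeries.map_X, map_mul,
    HahnSeries.ofPowerSeries_X]

section Mod2

variable {κ : Type*} [CommRing κ]

theorem e4_eq_one_of_two_eq_zero (h2 : (2 : κ) = 0) : e4 κ = 1 := by
  ext n
  simp only [e4, e4Z, PowerSeries.coeff_map, PowerSeries.coeff_mk, PowerSeries.coeff_one]
  split_ifs with h
  · simp
  · have : ((240 : ℤ) : κ) = 0 := by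
      have : ((240 : ℤ) : κ) = 2 * 120 := by push_cast; norm_num
      rw [this, h2, zero_mul]
    rw [eq_intCast, Int.cast_mul, this, zero_mul]

theorem e6_eq_one_of_two_eq_zero (h2 : (2 : κ) = 0) : e6 κ = 1 := by
  ext n
  simp only [e6, e6Z, PowerSeries.coeff_map, PowerSeries.coeff_mk, PowerSeries.coeff_one]
  split_ifs with h
  · simp
  · have : ((-504 : ℤ) : κ) = 0 := by
      have : ((-504 : ℤ) : κ) = 2 * (-252) := by push_cast; norm_num
      rw [this, h2, zero_mul]
    rw [eq_intCast, Int.cast_mul, this, zero_mul]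

/-- **Level-one forms modulo two.** -/
theorem exists_poly_Delta_of_coeff_mem (𝒪 : Subring ℂ) (π : 𝒪 →+* κ) (h2 : (2 : κ) = 0) :
    ∀ (w : ℕ) (f : ModularForm 𝒮ℒ (w : ℤ)) (F' : PowerSeries 𝒪),
      F'.map 𝒪.subtype = qExpansion 1 f →
      ∃ P : Polynomial κ, 12 * P.natDegree ≤ w ∧
        F'.map π = Polynomial.aeval (PowerSeries.X * dedekindEtaUnit.map (Int.castRingHom κ)) P := by
  have hinj : Function.Injective (PowerSeries.map 𝒪.subtype) :=
    PowerSeries.map_injective _ Subtype.val_injective
  intro w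
  induction w using Nat.strong_induction_on with
  | _ w ih =>
  intro f F' hF'
  by_cases hrep : ∃ a b : ℕ, 4 * a + 6 * b = w
  · obtain ⟨a, b, rfl⟩ := hrep
    set c0 : 𝒪 := PowerSeries.coeff 0 F' with hc0
    have hc0' : (c0 : ℂ) = PowerSeries.coeff 0 (qExpansion 1 f) := by
      rw [← hF', PowerSeries.coeff_map]; rfl
    set g : ModularForm 𝒮ℒ ((4 * a + 6 * b : ℕ) : ℤ) := f - (c0 : ℂ) • monoForm a b with hg
    have hgq : qExpansion 1 g = qExpansion 1 f - (c0 : ℂ) • (e4 ℂ ^ a * e6 ℂ ^ b) := by
      rw [hg, FunLike.coe_sub, ModularForm.qExpansion_sub one_pos one_mem_strictPeriods_SL,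
        FunLike.coe_smul, ModularForm.qExpansion_smul one_pos one_mem_strictPeriods_SL,
        qExpansion_monoForm]
    have hg0 : PowerSeries.coeff 0 (qExpansion 1 g) = 0 := by
      rw [hgq, map_sub, PowerSeries.coeff_smul, PowerSeries.coeff_zero_eq_constantCoeff_apply,
        PowerSeries.coeff_zero_eq_constantCoeff_apply, map_mul, map_pow, map_pow,
        constantCoeff_e4, constantCoeff_e6, ← PowerSeries.coeff_zero_eq_constantCoeff_apply,
        ← hc0']
      simp
    have hfac := qExpansion_eq_qExpansion_discriminant_mul g hg0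
    set h := CuspForm.discriminantEquiv (g.toCuspForm hg0) with hh
    -- `𝒪`-models
    set A' : PowerSeries 𝒪 := F' - PowerSeries.C c0 * (e4 𝒪 ^ a * e6 𝒪 ^ b) with hA'
    have hA'map : A'.map 𝒪.subtype = qExpansion 1 g := by
      rw [hgq, hA', map_sub, map_mul, map_mul, map_pow, map_pow, e4_map, e6_map, hF',
        PowerSeries.map_C, PowerSeries.smul_eq_C_mul]
      rfl
    set D' : PowerSeries 𝒪 := (PowerSeries.X * dedekindEtaUnit).map (Int.castRingHom 𝒪) with hD'
    have hD'map : D'.map 𝒪.subtype = qExpansion 1 ModularForm.discriminant := by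
      rw [qExpansion_discriminant_eq_int, hD']
      ext n
      simp only [PowerSeries.coeff_map]
      simp
    have hD0 : PowerSeries.coeff 0 D' = 0 := by
      rw [hD', map_mul, PowerSeries.map_X, PowerSeries.coeff_zero_X_mul]
    have hD1 : PowerSeries.coeff 1 D' = 1 := by
      rw [hD', map_mul, PowerSeries.map_X, show (1 : ℕ) = 0 + 1 from rfl,
        PowerSeries.coeff_succ_X_mul, PowerSeries.coeff_map,
        PowerSeries.coeff_zero_eq_constantCoeff_apply, constantCoeff_dedekindEtaUnit, map_one]
    obtain ⟨H', hH'⟩ := exists_map_eq_of_mul_eq 𝒪 A' D' (qExpansion 1 h) hD0 hD1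
      (by rw [hA'map, hD'map]; exact hfac)
    have hD'κ : D'.map π = PowerSeries.X * dedekindEtaUnit.map (Int.castRingHom κ) := by
      rw [hD', map_mul, map_mul, PowerSeries.map_X, PowerSeries.map_X]
      congr 1
      ext n
      simp only [PowerSeries.coeff_map]
      simp
    have hmonoκ : (PowerSeries.C c0 * (e4 𝒪 ^ a * e6 𝒪 ^ b)).map π = PowerSeries.C (π c0) := by
      rw [map_mul, map_mul, map_pow, map_pow, e4_map, e6_map, e4_eq_one_of_two_eq_zero h2,
        e6_eq_one_of_two_eq_zero h2, one_pow, one_pow, mul_one, mul_one, PowerSeries.map_C]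
    by_cases hk : 4 * a + 6 * b < 12
    · -- negative weight: `h = 0`
      have hzero : (h : ℍ → ℂ) = 0 :=
        levelOne_neg_weight_eq_zero (by push_cast; omega) h
      have hq0 : qExpansion 1 g = 0 := by
        rw [hfac, hzero, UpperHalfPlane.qExpansion_zero, mul_zero]
      have hA0 : A' = 0 := hinj (by rw [hA'map, hq0, map_zero])
      have hFeq : F' = PowerSeries.C c0 * (e4 𝒪 ^ a * e6 𝒪 ^ b) := by
        rw [hA'] at hA0; exact sub_eq_zero.mp hA0
      refine ⟨Polynomial.C (π c0), by simp, ?_⟩
      rw [hFeq, hmonoκ, Polynomial.aeval_C]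
      rfl
    · -- induction
      have hk12 : 12 ≤ 4 * a + 6 * b := by omega
      set h' : ModularForm 𝒮ℒ ((4 * a + 6 * b - 12 : ℕ) : ℤ) :=
        ModularForm.mcast (by push_cast [hk12]; ring) h with hh'
      have hh'q : qExpansion 1 h' = qExpansion 1 h := by rw [hh', coe_mcast]
      obtain ⟨Ph, hPhdeg, hPhq⟩ := ih (4 * a + 6 * b - 12) (by omega) h' H'
        (by rw [hH', hh'q])
      have hFeq : F' = PowerSeries.C c0 * (e4 𝒪 ^ a * e6 𝒪 ^ b) + D' * H' := by
        have hA'eq : A'.map 𝒪.subtype = (D' * H').map 𝒪.subtype := by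
          rw [hA'map, hfac, map_mul, hD'map, hH']
        have := hinj hA'eq
        rw [hA'] at this
        rw [← this]; ring
      refine ⟨Polynomial.C (π c0) + Polynomial.X * Ph, ?_, ?_⟩
      · have h1 : (Polynomial.C (π c0) + Polynomial.X * Ph).natDegree ≤ Ph.natDegree + 1 := by
          refine (Polynomial.natDegree_add_le _ _).trans ?_
          rw [Polynomial.natDegree_C]
          refine max_le (Nat.zero_le _) ?_
          refine (Polynomial.natDegree_mul_le).trans ?_
          rw [add_comm]
          exact Nat.add_le_add_left Polynomial.natDegree_X_le _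
        omega
      · rw [hFeq, map_add, hmonoκ, map_mul, hD'κ, hPhq, map_add, map_mul, Polynomial.aeval_C,
          Polynomial.aeval_X]
        rfl
  · -- no monomials: `f = 0`
    have hf0 : f = 0 := by
      rcases not_rep_iff hrep with hodd | h2'
      · exact levelOne_odd_weight_eq_zero (by exact_mod_cast hodd) f
      · subst h2'
        exact (rank_zero_iff_forall_zero.mp levelOne_weight_two_rank_zero) f
    have hF0 : F' = 0 := by
      apply hinj
      rw [hF', hf0, map_zero]
      exact UpperHalfPlane.qExpansion_zero 1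
    refine ⟨0, by simp, ?_⟩
    rw [hF0, map_zero, map_zero]

end Mod2

end Fermat.Agent.S16.H76
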