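import Fermat.Agent.S16.H41_U2CoreNsq

/-!
# S16, case (U,2), `p ≡ 3 mod 4`: the core with the integrality input as a monic relation (helper76)

The hypothesis `hbar`, `hh`, `hint` of `H76.u2_core` / `H41.u2_core_nsq` ("`δ⁶ J` is the reduction of
`f⁶/Δ`, integral over `k[J]`") is replaced by a pure `q`-series statement:

  `δ ^ n + ∑_{m < n} P_m(1/J) δ ^ m = 0`,  `P_m ∈ k[X]`,  `6 * natDegree P_m ≤ n - m`

("`δ` is integral over `k[Δ̄]` with weight-two growth", `Δ̄ = 1/J`).  It comes from the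
characteristic polynomial of a weight-two form over the level-one forms (`H77.esymmForm`) and the
structure of level-one forms modulo two.

* `val_eval₂_inv_le`, `val_pow_six_mul_le_one` : the valuation lemma;
* `exists_delta0` : `δ = θ z / z` lies in `ιQ F`;
* `u2_core_rel` : the core in this form.
-/

set_option autoImplicit false

namespace Fermat.Agent.S16.H76

open Polynomial

section ValLemma

variable {k K : Type*} [CommRing k] [Field K] {Γ₀ : Type*} [LinearOrderedCommGroupWithZero Γ₀]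
  (φ : k →+* K) (v : Valuation K Γ₀)

theorem val_eval₂_inv_le (hk : ∀ c : k, v (φ c) ≤ 1) (j : K) (hj0 : j ≠ 0) (hj : v j ≤ 1)
    (P : Polynomial k) : v (P.eval₂ φ j⁻¹) ≤ (v j)⁻¹ ^ P.natDegree := by
  have hvj0 : v j ≠ 0 := (Valuation.ne_zero_iff v).mpr hj0
  have hinv : 1 ≤ (v j)⁻¹ := (one_le_inv₀ (zero_lt_iff.mpr hvj0)).mpr hj
  rw [Polynomial.eval₂_eq_sum_range]
  refine Valuation.map_sum_le v fun i hi => ?_
  rw [Finset.mem_range] at hi
  rw [map_mul, map_pow, map_inv₀]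
  calc v (φ (P.coeff i)) * (v j)⁻¹ ^ i ≤ 1 * (v j)⁻¹ ^ i := by
        gcongr
        exact hk _
    _ = (v j)⁻¹ ^ i := one_mul _
    _ ≤ (v j)⁻¹ ^ P.natDegree := pow_le_pow_right₀ hinv (by omega)

/-- If `d` satisfies a monic relation over `k[1/j]` with weight-two growth and `v j ≤ 1`,
`v ≤ 1` on constants, then `v (d⁶ j) ≤ 1`. -/
theorem val_pow_six_mul_le_one (hk : ∀ c : k, v (φ c) ≤ 1) (j d : K) (hj0 : j ≠ 0) (hj : v j ≤ 1)
    (n : ℕ) (_hn : 0 < n) (P : ℕ → Polynomial k) (hP : ∀ m, m < n → 6 * (P m).natDegree ≤ n - m)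
    (hrel : d ^ n + ∑ m ∈ Finset.range n, (P m).eval₂ φ j⁻¹ * d ^ m = 0) :
    v (d ^ 6 * j) ≤ 1 := by
  by_contra hcon
  rw [not_le, map_mul, map_pow] at hcon
  set a : Γ₀ := v d with ha
  set b : Γ₀ := v j with hb
  have hb0 : b ≠ 0 := (Valuation.ne_zero_iff v).mpr hj0
  have hbpos : 0 < b := zero_lt_iff.mpr hb0
  -- `1 < a`
  have ha1 : 1 < a := by
    by_contra h
    rw [not_lt] at h
    have h6 : a ^ 6 ≤ 1 := pow_le_one₀ zero_le h
    have : a ^ 6 * b ≤ 1 := by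
      calc a ^ 6 * b ≤ 1 * 1 := mul_le_mul' h6 hj
        _ = 1 := one_mul 1
    exact absurd hcon (not_lt.mpr this)
  have hapos : 0 < a := lt_trans zero_lt_one ha1
  have ha0 : a ≠ 0 := hapos.ne'
  -- every lower term is strictly smaller than `a ^ n`
  have hterm : ∀ m ∈ Finset.range n, v ((P m).eval₂ φ j⁻¹ * d ^ m) < a ^ n := by
    intro m hm
    rw [Finset.mem_range] at hm
    set e := (P m).natDegree with he
    have h6e : 6 * e ≤ n - m := hP m hm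
    have h1 : v ((P m).eval₂ φ j⁻¹) ≤ b⁻¹ ^ e := val_eval₂_inv_le φ v hk j hj0 hj (P m)
    rw [map_mul, map_pow]
    -- `b⁻¹ ^ e < a ^ (n - m)`
    have h2 : b⁻¹ ^ e < a ^ (n - m) := by
      rw [inv_pow, inv_lt_iff_one_lt_mul₀ (pow_pos hbpos e)]
      -- `1 < b ^ e * a ^ (n - m)`
      obtain ⟨r, hr⟩ : ∃ r, n - m = 6 * e + r := ⟨n - m - 6 * e, by omega⟩
      rw [hr, pow_add, pow_mul]
      rcases Nat.eq_zero_or_pos e with he0 | hepos
      · have hr0 : r ≠ 0 := by omega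
        have h5 : (a ^ 6) ^ e * a ^ r * b ^ e = a ^ r := by
          rw [he0, pow_zero, pow_zero, one_mul, mul_one]
        rw [h5]
        exact one_lt_pow₀ ha1 hr0
      · have h3 : 1 < (a ^ 6 * b) ^ e := one_lt_pow₀ hcon (by omega)
        have h4 : 1 ≤ a ^ r := one_le_pow₀ ha1.le
        calc 1 < (a ^ 6 * b) ^ e := h3
          _ = (a ^ 6 * b) ^ e * 1 := (mul_one _).symm
          _ ≤ (a ^ 6 * b) ^ e * a ^ r := by gcongr
          _ = (a ^ 6) ^ e * a ^ r * b ^ e := by rw [mul_pow, mul_right_comm]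
    calc v ((P m).eval₂ φ j⁻¹) * a ^ m ≤ b⁻¹ ^ e * a ^ m := by gcongr
      _ < a ^ (n - m) * a ^ m := by
          exact mul_lt_mul_of_pos_right h2 (pow_pos hapos m)
      _ = a ^ n := by rw [← pow_add]; congr 1; omega
  have hsum : v (∑ m ∈ Finset.range n, (P m).eval₂ φ j⁻¹ * d ^ m) < a ^ n :=
    Valuation.map_sum_lt v (pow_ne_zero n ha0) hterm
  have hval : v (d ^ n + ∑ m ∈ Finset.range n, (P m).eval₂ φ j⁻¹ * d ^ m) = a ^ n := by
    rw [Valuation.map_add_eq_of_lt_left v (by rw [map_pow]; exact hsum), map_pow]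
  rw [hrel, map_zero] at hval
  exact pow_ne_zero n ha0 hval.symm

end ValLemma

section Delta0

variable {F Q : Type*} [Field F] [Field Q] [CharP Q 2]

/-- `δ = θ z / z` lies in the image of `F`. -/
theorem exists_delta0 (ιQ : F →+* Q) (J Jp : F) (hJ0 : J ≠ 0) (hJp0 : Jp ≠ 0)
    (hdec : ∀ y : F, ∃ A B : F, y = A ^ 2 + J * B ^ 2)
    (DQ : Derivation ℤ Q Q) (hDQJ : DQ (ιQ J) = ιQ J) (p : ℕ)
    (z δ : Q) (hz8 : z ^ 8 * ιQ Jp = ιQ J ^ p) (hδ : DQ z = δ * z) : ∃ δ₀ : F, ιQ δ₀ = δ := by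
  have hz8' : z ^ 8 = ιQ (J ^ p / Jp) := by
    rw [map_div₀, map_pow, ← hz8, mul_div_assoc, div_self ((map_ne_zero ιQ).mpr hJp0), mul_one]
  obtain ⟨z₀, hz₀⟩ := mem_range_of_pow_eight ιQ DQ J hJ0 hDQJ hdec z ⟨_, hz8'.symm⟩
  have hz₀8 : z₀ ^ 8 * Jp = J ^ p := by
    apply ιQ.injective
    rw [map_mul, map_pow, map_pow, hz₀, hz8]
  have hz₀0 : z₀ ≠ 0 := by
    rintro rfl
    rw [zero_pow (by norm_num), zero_mul] at hz₀8
    exact pow_ne_zero _ hJ0 hz₀8.symm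
  obtain ⟨A, B, hAB⟩ := hdec z₀
  have hDz : DQ z = ιQ (J * B ^ 2) := by
    rw [← hz₀, hAB]; exact deriv_sq_add_mul_sq DQ ιQ J hDQJ A B
  have hz0 : z ≠ 0 := by rw [← hz₀]; exact (map_ne_zero ιQ).mpr hz₀0
  refine ⟨J * B ^ 2 / z₀, ?_⟩
  rw [map_div₀, hz₀, ← hDz, hδ, mul_div_assoc, div_self hz0, mul_one]

end Delta0

section CoreRel

/-- **Core of S16 (U,2), `p ≡ 3 mod 4`, relation form.**  Dictionary as in `H76.u2_core`; the
integrality input is the monic relation `hrel` for the `q`-series `δ` over `k[1/J]`. -/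
theorem u2_core_rel
    {k F Q F' : Type*} [Field k] [Field F] [Algebra k F] [Field Q] [Algebra k Q] [CharP Q 2]
    [Field F'] [CharP F' 2]
    (ιQ : F →ₐ[k] Q) (ι' : F →+* F') (J Jp : F) (hJ0 : J ≠ 0) (hJp0 : Jp ≠ 0)
    (hdec : ∀ y : F, ∃ A B : F, y = A ^ 2 + J * B ^ 2)
    (DQ : Derivation ℤ Q Q) (hDQJ : DQ (ιQ J) = ιQ J)
    (p : ℕ) (hp : p % 4 = 3)
    (z δ : Q) (hz8 : z ^ 8 * ιQ Jp = ιQ J ^ p) (hδ : DQ z = δ * z)
    (n : ℕ) (hn : 0 < n) (P : ℕ → Polynomial k) (hP : ∀ m, m < n → 6 * (P m).natDegree ≤ n - m)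
    (hrel : δ ^ n + ∑ m ∈ Finset.range n, Polynomial.aeval (ιQ J)⁻¹ (P m) * δ ^ m = 0)
    {Γ₀ : Type*} [LinearOrderedCommGroupWithZero Γ₀] (v : Valuation F' Γ₀)
    (μ : F') (hμ0 : μ ≠ 0) (hμ : v μ < 1)
    (hnsq : ∀ g : Γ₀, g ^ 2 ≠ v μ)
    (hJμ : ι' J * (μ ^ 3 + 1) ^ 3 = μ ^ 12)
    (hunit : v (ι' J) = v (ι' Jp))
    (hk : ∀ c : k, v (ι' (algebraMap k F c)) ≤ 1) : False := by
  obtain ⟨δ₀, hδ₀⟩ := exists_delta0 (ιQ : F →+* Q) J Jp hJ0 hJp0 hdec DQ hDQJ p z δ hz8 hδ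
  -- the relation in `F`
  have hrelF : δ₀ ^ n + ∑ m ∈ Finset.range n, Polynomial.aeval J⁻¹ (P m) * δ₀ ^ m = 0 := by
    apply (ιQ : F →+* Q).injective
    rw [map_zero, ← hrel, map_add, map_pow, map_sum]
    congr 1
    · rw [← hδ₀]
    · refine Finset.sum_congr rfl fun m _ => ?_
      rw [map_mul, map_pow]
      congr 1
      · show ιQ (Polynomial.aeval J⁻¹ (P m)) = _
        rw [← Polynomial.aeval_algHom_apply, map_inv₀]
      · rw [← hδ₀]
  -- the relation in `F'`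
  set φ : k →+* F' := ι'.comp (algebraMap k F) with hφ
  have hrelF' : (ι' δ₀) ^ n + ∑ m ∈ Finset.range n, (P m).eval₂ φ (ι' J)⁻¹ * (ι' δ₀) ^ m = 0 := by
    have := congrArg ι' hrelF
    rw [map_zero, map_add, map_pow, map_sum] at this
    rw [← this]
    congr 1
    refine Finset.sum_congr rfl fun m _ => ?_
    rw [map_mul, map_pow, Polynomial.aeval_def, Polynomial.hom_eval₂, map_inv₀]
  -- `v (ι' J) ≤ 1`
  have hvw : v (μ ^ 3 + 1) = 1 := by
    have h1 : v (μ ^ 3) < v (1 : F') := by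
      rw [map_one, map_pow]
      exact pow_lt_one₀ zero_le hμ (by norm_num)
    rw [Valuation.map_add_eq_of_lt_right v h1, map_one]
  have hvJ : v (ι' J) = v μ ^ 12 := by
    have := congrArg v hJμ
    rw [map_mul, map_pow, hvw, one_pow, mul_one, map_pow] at this
    exact this
  have hvJle : v (ι' J) ≤ 1 := by
    rw [hvJ]; exact (pow_lt_one₀ zero_le hμ (by norm_num)).le
  have hint : v (ι' (δ₀ ^ 6 * J)) ≤ 1 := by
    rw [map_mul, map_pow]
    exact val_pow_six_mul_le_one φ v hk (ι' J) (ι' δ₀) ((map_ne_zero ι').mpr hJ0) hvJle n hn P hP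
      hrelF'
  refine H41.u2_core_nsq (ιQ : F →+* Q) ι' J Jp hJ0 hJp0 hdec DQ hDQJ p hp z δ hz8 hδ
    (δ₀ ^ 6 * J) ?_ v μ hμ0 hμ hnsq hJμ hunit hint
  rw [map_mul, map_pow]
  congr 2

end CoreRel

end Fermat.Agent.S16.H76
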