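import Fermat.Agent.S16.H76_U2QSeries
import Fermat.Agent.S16.H76_U2CoreRel

/-!
# S16, case (U,2), `p ≡ 3 mod 4`: `u2_core_rel` specialised to `k((q))`  (helper76)

All `q`-series hypotheses are discharged by `H76_U2QSeries`; the integrality input is a monic
relation in `k⟦X⟧` between the power series `deltaPS k p = ∑ σ'(n) q^n` and
`DeltaPS k = q ∏ (1 - q^n)^24`.
-/

set_option autoImplicit false

namespace Fermat.Agent.S16.H76

open PowerSeries ModularCurve Fermat.Agent.S28 Fermat.Agent.S28.H39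

section

variable (k : Type*) [CommRing k]

/-- `δ = ∑ σ'(n) q^n` as a power series over `k`. -/
noncomputable def deltaPS (p : ℕ) : k⟦X⟧ := (eisPS p).map (Int.castRingHom k)

/-- `Δ = q ∏ (1 - q^n)^24` as a power series over `k`. -/
noncomputable def DeltaPS : k⟦X⟧ := X * dedekindEtaUnit.map (Int.castRingHom k)

theorem ofPowerSeries_deltaPS (p : ℕ) :
    HahnSeries.ofPowerSeries ℤ k (deltaPS k p) = deltaL k p := rfl

theorem ofPowerSeries_DeltaPS : HahnSeries.ofPowerSeries ℤ k (DeltaPS k) = DeltaS k := by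
  rw [DeltaPS, map_mul, HahnSeries.ofPowerSeries_X, DeltaS]

theorem coeff_deltaPS (p n : ℕ) : coeff n (deltaPS k p) = (sigmaPrime p n : k) := by
  rw [deltaPS, PowerSeries.coeff_map, eisPS, PowerSeries.coeff_mk]
  simp

end

/-- **(U,2; `p ≡ 3 mod 4`), relation form over `k((q))`.**  Inputs: the function field `F` with its
`q`-expansion embedding (`J ↦ j`, `Jp ↦ j(q^p)`), the two-basis decomposition `hdec`, the monic
relation `hrel` for `δ` over `k[Δ]`, and a place `v` of a cover `F'` with `J = μ¹²/(μ³+1)³`,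
`v μ < 1` not a square in the value group, `v J = v Jp`, `v ≤ 1` on constants. -/
theorem u2_rel_qseries (k : Type*) [Field k] [CharP k 2] (p : ℕ) [NeZero p] (hp : p % 4 = 3)
    {F F' : Type*} [Field F] [Algebra k F] [Field F'] [CharP F' 2]
    (ιQ : F →ₐ[k] LaurentSeries k) (ι' : F →+* F') (J Jp : F)
    (hJ : ιQ J = jqModC k) (hJp : ιQ Jp = jqNModC k p)
    (hdec : ∀ y : F, ∃ A B : F, y = A ^ 2 + J * B ^ 2)
    (n : ℕ) (hn : 0 < n) (P : ℕ → Polynomial k) (hP : ∀ m, m < n → 6 * (P m).natDegree ≤ n - m)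
    (hrel : deltaPS k p ^ n +
      ∑ m ∈ Finset.range n, Polynomial.aeval (DeltaPS k) (P m) * deltaPS k p ^ m = 0)
    {Γ₀ : Type*} [LinearOrderedCommGroupWithZero Γ₀] (v : Valuation F' Γ₀)
    (μ : F') (hμ0 : μ ≠ 0) (hμ : v μ < 1)
    (hnsq : ∀ g : Γ₀, g ^ 2 ≠ v μ)
    (hJμ : ι' J * (μ ^ 3 + 1) ^ 3 = μ ^ 12)
    (hunit : v (ι' J) = v (ι' Jp))
    (hk : ∀ c : k, v (ι' (algebraMap k F c)) ≤ 1) : False := by
  have := charP_laurent k
  have hodd : Odd p := by
    rw [Nat.odd_iff]; omega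
  have hj0 : jqModC k ≠ 0 := by
    rw [jqModC_eq_DeltaS_inv]; exact inv_ne_zero DeltaS_ne_zero
  have hJ0 : J ≠ 0 := by
    intro h; rw [h, map_zero] at hJ; exact hj0 hJ.symm
  have hJp0 : Jp ≠ 0 := by
    intro h
    rw [h, map_zero, jqNModC] at hJp
    exact hj0 ((map_eq_zero_iff _ (qExpand_injective p)).mp hJp.symm)
  -- the relation in `k((q))`
  have hrelL : deltaL k p ^ n +
      ∑ m ∈ Finset.range n, Polynomial.aeval (ιQ J)⁻¹ (P m) * deltaL k p ^ m = 0 := by
    have hterm : ∀ m : ℕ, HahnSeries.ofPowerSeries ℤ k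
        (Polynomial.aeval (DeltaPS k) (P m) * deltaPS k p ^ m) =
        Polynomial.aeval (ιQ J)⁻¹ (P m) * deltaL k p ^ m := by
      intro m
      rw [map_mul, map_pow, ofPowerSeries_deltaPS, Polynomial.aeval_def, Polynomial.hom_eval₂,
        ofPowerSeries_DeltaPS, hJ, jqModC_eq_DeltaS_inv, inv_inv, Polynomial.aeval_def]
      rfl
    have h := congrArg (HahnSeries.ofPowerSeries ℤ k) hrel
    rw [map_zero, map_add, map_pow, map_sum, ofPowerSeries_deltaPS,
      Finset.sum_congr rfl (fun m _ => hterm m)] at h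
    exact h
  refine u2_core_rel ιQ ι' J Jp hJ0 hJp0 hdec (thetaZ k) ?_ p hp (zq k p) (deltaL k p) ?_ ?_
    n hn P hP hrelL v μ hμ0 hμ hnsq hJμ hunit hk
  · rw [hJ, theta_jbar]
  · rw [hJ, hJp, jqNModC, zq_pow_eight]
  · exact theta_zq k p hodd

end Fermat.Agent.S16.H76
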