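/-
helper76 — S16 leaf (U2b), package (G3'): the monic relation of an integral weight-two form of
level `Γ₀(p)` over the level-one forms, and its reduction.

* Part 1: for `F ∈ M₂(Γ₀(p))` whose `q`-expansion has coefficients in a subring `𝒪 ⊆ ℂ` containing
  `ζ_p` and `1/p`, all coset translates have width-`p` expansions with coefficients in `𝒪`; hence
  (helper77's `esymmForm_coeff_mem`) the elementary symmetric forms `s_i ∈ M_{2i}(SL₂(ℤ))` have
  `𝒪`-integral `q`-expansions.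
* Part 2: the relation `∑ (-1)^j s_j F^(p+1-j) = 0` on `q`-expansions, reduced along
  `φ : 𝒪 →+* κ` (char `2`): `F̄^(p+1) + ∑_{m ≤ p} P_m(Δ̄) F̄^m = 0` with `6 deg P_m ≤ p+1-m`.
* Part 3: descent of such a relation from `κ` to the prime field `ZMod 2` and base change to any
  field of characteristic two.
-/
import Mathlib
import Fermat.Agent.S16.H77_EsymmQExpGen
import Fermat.Agent.S16.H46_AtkinLehner
import Fermat.Agent.S16.H14_Trace
import Fermat.Agent.S16.H8_TranslateQExp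
import Fermat.Agent.S16.H76_LevelOneMod2
import Fermat.Agent.S16.H76_U2RelQ

set_option autoImplicit false

noncomputable section

namespace Fermat.Agent.S16.H76

open UpperHalfPlane ModularForm MatrixGroups ModularFormClass SlashInvariantForm
  Matrix.SpecialLinearGroup CongruenceSubgroup ModularGroup ModularCurve
open scoped ModularForm

/-! ### Part 1: the translates -/

section translates

variable {p : ℕ} [hp : Fact p.Prime]

local notation "Γp" => (Gamma0 p : Subgroup (GL (Fin 2) ℝ))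

/-- The translate attached to the trivial coset is `F` itself. -/
theorem quotientFunc_cosetEquiv_none (F : ModularForm Γp 2) :
    quotientFunc (ℋ := 𝒮ℒ) F (H46.cosetEquiv p none) = (F : ℍ → ℂ) := by
  rw [H46.quotientFunc_cosetEquiv]
  change (F : ℍ → ℂ) ∣[(2 : ℤ)] mapGL ℝ (1 : SL(2, ℤ)) = _
  rw [map_one, SlashAction.slash_one]

/-- The translate attached to the coset of `S T^x` is `(F ∣ W_p) ∣ [[1,x],[0,p]]`. -/
theorem quotientFunc_cosetEquiv_some (F : ModularForm Γp 2) (x : Fin p) :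
    quotientFunc (ℋ := 𝒮ℒ) F (H46.cosetEquiv p (some x)) =
      (H14.fricke p F : ℍ → ℂ) ∣[(2 : ℤ)] heckeMatrix p (x : ℕ) := by
  rw [H46.quotientFunc_cosetEquiv]
  change (F : ℍ → ℂ) ∣[(2 : ℤ)] mapGL ℝ (S * T ^ ((x : ℕ) : ℤ)) = _
  rw [H46.slash_S_mul_T_zpow_eq F x, H14.fricke_eq_neg_heckeU F, SlashAction.neg_slash]

omit hp in
/-- `p` is a strict period of `Γ₀(p)`. -/
theorem natCast_mem_strictPeriods_Gamma0 :
    ((p : ℕ) : ℝ) ∈ (Γp).strictPeriods := by
  have h1 := CongruenceSubgroup.one_mem_strictPeriods_Gamma0 p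
  have h2 := AddSubgroup.nsmul_mem _ h1 p
  simpa using h2

variable (𝒪 : Subring ℂ)

/-- All translates are good at width `p`. -/
theorem good_translate (F : ModularForm Γp 2) (o : Option (Fin p)) :
    H77.Good ((p : ℕ) : ℝ) (quotientFunc (ℋ := 𝒮ℒ) F (H46.cosetEquiv p o)) := by
  have hp0 : 0 < p := hp.out.pos
  have hpR : (0 : ℝ) < ((p : ℕ) : ℝ) := by exact_mod_cast hp0
  have hΓ := CongruenceSubgroup.one_mem_strictPeriods_Gamma0 p
  cases o with
  | none =>
    rw [quotientFunc_cosetEquiv_none]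
    exact ModularFormClass.analyticAt_cuspFunction_zero F hpR natCast_mem_strictPeriods_Gamma0
  | some x =>
    rw [quotientFunc_cosetEquiv_some]
    have : Fact (IsCusp OnePoint.infty Γp) := ⟨Subgroup.isCusp_of_mem_strictPeriods one_pos hΓ⟩
    exact (H8.qExpansion_slash_heckeMatrix_form hΓ (H14.fricke p F) 2 hp0 (x : ℕ)).2.2.2.1

/-- All translates have width-`p` expansions with coefficients in `𝒪`. -/
theorem coeff_translate_mem (F : ModularForm Γp 2)
    (hF : ∀ n, (qExpansion 1 F).coeff n ∈ 𝒪) (hζ : H8.zetaW p ∈ 𝒪) (hpinv : ((p : ℕ) : ℂ)⁻¹ ∈ 𝒪)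
    (o : Option (Fin p)) (m : ℕ) :
    (qExpansion ((p : ℕ) : ℝ) (quotientFunc (ℋ := 𝒮ℒ) F (H46.cosetEquiv p o))).coeff m ∈ 𝒪 := by
  have hp0 : 0 < p := hp.out.pos
  have hΓ := CongruenceSubgroup.one_mem_strictPeriods_Gamma0 p
  cases o with
  | none =>
    rw [quotientFunc_cosetEquiv_none, H77.qExpansion_width_coeff_form F hΓ hp0 m]
    split_ifs
    · exact hF _
    · exact 𝒪.zero_mem
  | some x =>
    rw [quotientFunc_cosetEquiv_some]
    have : Fact (IsCusp OnePoint.infty Γp) := ⟨Subgroup.isCusp_of_mem_strictPeriods one_pos hΓ⟩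
    rw [(H8.qExpansion_slash_heckeMatrix_form hΓ (H14.fricke p F) 2 hp0 (x : ℕ)).2.2.2.2 m]
    have h1 : (qExpansion 1 (H14.fricke p F)).coeff m = -(qExpansion 1 F).coeff (m * p) :=
      H14.qCoeff_fricke F m
    rw [h1]
    exact 𝒪.mul_mem (𝒪.mul_mem hpinv (𝒪.neg_mem (hF _))) (𝒪.pow_mem hζ _)

/-- **Integrality of the elementary symmetric forms.** -/
theorem exists_series_esymmForm_of_mem (F : ModularForm Γp 2)
    (hF : ∀ n, (qExpansion 1 F).coeff n ∈ 𝒪) (hζ : H8.zetaW p ∈ 𝒪) (hpinv : ((p : ℕ) : ℂ)⁻¹ ∈ 𝒪)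
    (i : ℕ) :
    ∃ S' : PowerSeries 𝒪, S'.map 𝒪.subtype = qExpansion 1 (H77.esymmForm 𝒮ℒ F i) := by
  have hmem := H77.esymmForm_coeff_mem 𝒮ℒ F one_mem_strictPeriods_SL (H46.cosetEquiv p)
    hp.out.pos (good_translate F) 𝒪 (coeff_translate_mem 𝒪 F hF hζ hpinv) i
  refine ⟨PowerSeries.mk fun m => ⟨_, hmem m⟩, ?_⟩
  ext m
  simp [PowerSeries.coeff_map, PowerSeries.coeff_mk]

end translates

/-! ### Part 2: the relation -/

section relation

variable {p : ℕ} [hp : Fact p.Prime]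

local notation "Γp" => (Gamma0 p : Subgroup (GL (Fin 2) ℝ))

/-- The pointwise relation `∑ (-1)^j s_j(τ) F(τ)^(p+1-j) = 0`. -/
theorem sum_esymmForm_mul_pow_apply (F : ModularForm Γp 2) (τ : ℍ) :
    ∑ j ∈ Finset.range (p + 2),
      (-1 : ℂ) ^ j * (H77.esymmForm 𝒮ℒ F j τ * F τ ^ (p + 1 - j)) = 0 := by
  have h := H77.prod_X_sub_quotientFunc (ℋ := 𝒮ℒ) F (H46.cosetEquiv p) τ
  have hcard : Fintype.card (Option (Fin p)) = p + 1 := by simp
  rw [hcard] at h
  have h2 := congrArg (Polynomial.eval (F τ)) h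
  rw [Polynomial.eval_prod, Polynomial.eval_finsetSum] at h2
  have h0 : ∏ j : Option (Fin p), Polynomial.eval (F τ)
      (Polynomial.X - Polynomial.C (quotientFunc (ℋ := 𝒮ℒ) F (H46.cosetEquiv p j) τ)) = 0 := by
    apply Finset.prod_eq_zero (Finset.mem_univ none)
    rw [quotientFunc_cosetEquiv_none]
    simp
  rw [h0] at h2
  rw [h2]
  refine Finset.sum_congr rfl fun j _ => ?_
  simp

/-- The relation as an identity of functions on `ℍ`. -/
theorem sum_esymmForm_mul_pow (F : ModularForm Γp 2) :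
    ∑ j ∈ Finset.range (p + 2),
      ((-1 : ℂ) ^ j) • ((H77.esymmForm 𝒮ℒ F j : ℍ → ℂ) * (F : ℍ → ℂ) ^ (p + 1 - j)) = 0 := by
  funext τ
  rw [Finset.sum_apply]
  simpa using sum_esymmForm_mul_pow_apply F τ

theorem good_pow {g : ℍ → ℂ} (hg : H77.Good 1 g) (n : ℕ) :
    H77.Good 1 (g ^ n) ∧ qExpansion 1 (g ^ n) = qExpansion 1 g ^ n := by
  induction n with
  | zero => rw [pow_zero, pow_zero]; exact ⟨H77.good_one 1, qExpansion_one 1⟩
  | succ n ih =>
    rw [pow_succ, pow_succ]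
    exact ⟨ih.1.mul hg, by rw [qExpansion_mul ih.1 hg, ih.2]⟩

theorem good_smul {g : ℍ → ℂ} (hg : H77.Good 1 g) (a : ℂ) : H77.Good 1 (a • g) := by
  unfold H77.Good at *
  rw [cuspFunction_smul hg.continuousAt]
  exact hg.const_smul

/-- The relation on `q`-expansions over `ℂ`. -/
theorem sum_qExpansion_esymmForm_mul_pow (F : ModularForm Γp 2) :
    ∑ j ∈ Finset.range (p + 2), (-1 : PowerSeries ℂ) ^ j *
      (qExpansion 1 (H77.esymmForm 𝒮ℒ F j) * qExpansion 1 F ^ (p + 1 - j)) = 0 := by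
  have hF : H77.Good 1 (F : ℍ → ℂ) :=
    ModularFormClass.analyticAt_cuspFunction_zero F one_pos
      (CongruenceSubgroup.one_mem_strictPeriods_Gamma0 p)
  have hs : ∀ j, H77.Good 1 (H77.esymmForm 𝒮ℒ F j : ℍ → ℂ) := fun j =>
    ModularFormClass.analyticAt_cuspFunction_zero (H77.esymmForm 𝒮ℒ F j) one_pos
      one_mem_strictPeriods_SL
  have hterm : ∀ j, H77.Good 1
      ((H77.esymmForm 𝒮ℒ F j : ℍ → ℂ) * (F : ℍ → ℂ) ^ (p + 1 - j)) := fun j =>
    (hs j).mul (good_pow hF _).1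
  have h := (H77.good_sum (h := 1) (Finset.range (p + 2))
    (fun j => ((-1 : ℂ) ^ j) • ((H77.esymmForm 𝒮ℒ F j : ℍ → ℂ) * (F : ℍ → ℂ) ^ (p + 1 - j)))
    (fun j _ => good_smul (hterm j) _)).2
  rw [sum_esymmForm_mul_pow F, qExpansion_zero] at h
  refine Eq.trans (Finset.sum_congr rfl fun j _ => ?_) h.symm
  rw [qExpansion_smul (hterm j), qExpansion_mul (hs j) (good_pow hF _).1, (good_pow hF _).2,
    PowerSeries.smul_eq_C_mul, map_pow, map_neg, map_one]

/-- `s_0 = 1`. -/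
theorem qExpansion_esymmForm_zero (F : ModularForm Γp 2) :
    qExpansion 1 (H77.esymmForm 𝒮ℒ F 0) = 1 := by
  have h : (H77.esymmForm 𝒮ℒ F 0 : ℍ → ℂ) = 1 := by
    funext τ
    rw [H77.esymmForm_apply_eq_multiset_equiv 𝒮ℒ F (H46.cosetEquiv p) 0 τ]
    simp [Multiset.esymm, Multiset.powersetCard_zero_left]
  rw [h, qExpansion_one]

variable (𝒪 : Subring ℂ) {κ : Type*} [Field κ] (φ : 𝒪 →+* κ)

/-- **The reduced relation.**  `F ∈ M₂(Γ₀(p))` with `q`-expansion `F'.map 𝒪.subtype`,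
`F' ∈ 𝒪⟦X⟧`, `ζ_p, 1/p ∈ 𝒪`, `φ : 𝒪 →+* κ` with `2 = 0` in `κ`.  Then `F̄ := F'.map φ` satisfies
a monic relation of degree `p + 1` over `κ[Δ̄]`, `Δ̄ = q ∏ (1 - q^n)^24`, with the weight-two degree
bounds. -/
theorem exists_rel_of_form (h2 : (2 : κ) = 0) (F : ModularForm Γp 2) (F' : PowerSeries 𝒪)
    (hF' : F'.map 𝒪.subtype = qExpansion 1 F) (hζ : H8.zetaW p ∈ 𝒪)
    (hpinv : ((p : ℕ) : ℂ)⁻¹ ∈ 𝒪) :
    ∃ P : ℕ → Polynomial κ, (∀ m, m < p + 1 → 6 * (P m).natDegree ≤ p + 1 - m) ∧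
      (F'.map φ) ^ (p + 1) + ∑ m ∈ Finset.range (p + 1),
        Polynomial.aeval (PowerSeries.X * dedekindEtaUnit.map (Int.castRingHom κ)) (P m) *
          (F'.map φ) ^ m = 0 := by
  have hinj : Function.Injective (PowerSeries.map 𝒪.subtype) :=
    PowerSeries.map_injective _ Subtype.val_injective
  have hF : ∀ n, (qExpansion 1 F).coeff n ∈ 𝒪 := by
    intro n
    rw [← hF', PowerSeries.coeff_map]
    exact (PowerSeries.coeff n F').2
  choose S' hS' using exists_series_esymmForm_of_mem 𝒪 F hF hζ hpinv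
  -- the relation over `𝒪`
  have hrel𝒪 : ∑ j ∈ Finset.range (p + 2), (-1 : PowerSeries 𝒪) ^ j *
      (S' j * F' ^ (p + 1 - j)) = 0 := by
    apply hinj
    rw [map_zero, map_sum, ← sum_qExpansion_esymmForm_mul_pow F]
    refine Finset.sum_congr rfl fun j _ => ?_
    rw [map_mul, map_mul, map_pow, map_pow, map_neg, map_one, hS' j, hF']
  have hS0 : S' 0 = 1 := by
    apply hinj
    rw [hS' 0, qExpansion_esymmForm_zero, map_one]
  -- reduce
  have hrelκ : ∑ j ∈ Finset.range (p + 2), ((S' j).map φ * (F'.map φ) ^ (p + 1 - j)) = 0 := by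
    have h := congrArg (PowerSeries.map φ) hrel𝒪
    rw [map_zero, map_sum] at h
    rw [← h]
    refine Finset.sum_congr rfl fun j _ => ?_
    have hneg : (-1 : PowerSeries κ) = 1 := by
      have h2' : (2 : PowerSeries κ) = 0 := by
        rw [← map_ofNat (PowerSeries.C (R := κ)) 2, h2, map_zero]
      have : (1 : PowerSeries κ) + 1 = 0 := by rw [one_add_one_eq_two, h2']
      exact (eq_neg_of_add_eq_zero_left this).symm
    rw [map_mul, map_mul, map_pow, map_pow, map_neg, map_one, hneg, one_pow, one_mul]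
  -- the level-one forms modulo two
  have hpoly : ∀ j : ℕ, ∃ P : Polynomial κ, 12 * P.natDegree ≤ 2 * j ∧ (S' j).map φ =
      Polynomial.aeval (PowerSeries.X * dedekindEtaUnit.map (Int.castRingHom κ)) P := by
    intro j
    have hw : (2 : ℤ) * (j : ℤ) = ((2 * j : ℕ) : ℤ) := by push_cast; ring
    obtain ⟨P, hP1, hP2⟩ := exists_poly_Delta_of_coeff_mem 𝒪 φ h2 (2 * j)
      (ModularForm.mcast hw (H77.esymmForm 𝒮ℒ F j)) (S' j) (by rw [hS' j]; rfl)
    exact ⟨P, hP1, hP2⟩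
  choose P hP1 hP2 using hpoly
  refine ⟨fun m => P (p + 1 - m), ?_, ?_⟩
  · intro m hm
    have := hP1 (p + 1 - m)
    show 6 * (P (p + 1 - m)).natDegree ≤ p + 1 - m
    omega
  · rw [Finset.sum_range_succ', hS0, map_one, one_mul, Nat.sub_zero, add_comm] at hrelκ
    rw [← hrelκ]
    congr 1
    rw [← Finset.sum_range_reflect _ (p + 1)]
    refine Finset.sum_congr rfl fun j hj => ?_
    have hj' := Finset.mem_range.mp hj
    have e1 : p + 1 - (p + 1 - 1 - j) = j + 1 := by omega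
    have e2 : p + 1 - (j + 1) = p + 1 - 1 - j := by omega
    show Polynomial.aeval _ (P (p + 1 - (p + 1 - 1 - j))) * _ = _
    rw [e1, ← hP2 (j + 1), e2]

end relation

end Fermat.Agent.S16.H76
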