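/-
helper76 — S16 leaf (U2b), package (G3'), Part 3: descent of the monic relation to the prime field.

`exists_rel_descent` (Mathlib only): if power series `a, b` over a field `K₀` satisfy, over an
extension `κ ⊇ K₀`, a relation `a^n + ∑_{m<n} P_m(b) a^m = 0` with `P_m ∈ κ[X]`, then they satisfy
such a relation with `P⁰_m ∈ K₀[X]`, `natDegree P⁰_m ≤ natDegree P_m` (apply a `K₀`-linear
retraction `κ → K₀` coefficientwise).

`exists_rel_of_form_field`: the relation of `H76_U2Rel.exists_rel_of_form` over an ARBITRARY field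
`k` of characteristic two (descent to `ZMod 2`, then base change).
-/
import Mathlib
import Fermat.Agent.S16.H76_U2Rel
import Fermat.Agent.S16.H77_ChooseO
import Fermat.Agent.S16.H52_Assembly

set_option autoImplicit false

noncomputable section

namespace Fermat.Agent.S16.H76

open PowerSeries

section descent

variable {K₀ κ : Type*} [Field K₀] [Field κ] [Algebra K₀ κ]

/-- Coefficientwise application of a `K₀`-linear form `κ → K₀`. -/
def coeffwise (l : κ →ₗ[K₀] K₀) : PowerSeries κ →+ PowerSeries K₀ where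
  toFun s := PowerSeries.mk fun t => l (PowerSeries.coeff t s)
  map_zero' := by ext t; simp
  map_add' s s' := by ext t; simp

theorem coeff_coeffwise (l : κ →ₗ[K₀] K₀) (s : PowerSeries κ) (t : ℕ) :
    PowerSeries.coeff t (coeffwise l s) = l (PowerSeries.coeff t s) := by
  simp [coeffwise]

theorem coeffwise_C_mul_map (l : κ →ₗ[K₀] K₀) (c : κ) (s : PowerSeries K₀) :
    coeffwise l (PowerSeries.C c * s.map (algebraMap K₀ κ)) = PowerSeries.C (l c) * s := by
  ext t
  rw [coeff_coeffwise, PowerSeries.coeff_C_mul, PowerSeries.coeff_C_mul, PowerSeries.coeff_map,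
    ← Algebra.commutes, ← Algebra.smul_def, map_smul, smul_eq_mul, mul_comm]

theorem coeffwise_map (l : κ →ₗ[K₀] K₀) (hl : l 1 = 1) (s : PowerSeries K₀) :
    coeffwise l (s.map (algebraMap K₀ κ)) = s := by
  have := coeffwise_C_mul_map l 1 s
  rwa [map_one, one_mul, hl, map_one, one_mul] at this

/-- **Descent of a monic relation to a subfield.** -/
theorem exists_rel_descent (a b : PowerSeries K₀) (n : ℕ) (P : ℕ → Polynomial κ)
    (hrel : (a.map (algebraMap K₀ κ)) ^ n + ∑ m ∈ Finset.range n,
      Polynomial.aeval (b.map (algebraMap K₀ κ)) (P m) * (a.map (algebraMap K₀ κ)) ^ m = 0) :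
    ∃ P₀ : ℕ → Polynomial K₀, (∀ m, (P₀ m).natDegree ≤ (P m).natDegree) ∧
      a ^ n + ∑ m ∈ Finset.range n, Polynomial.aeval b (P₀ m) * a ^ m = 0 := by
  obtain ⟨l, hl⟩ := LinearMap.exists_leftInverse_of_injective (Algebra.linearMap K₀ κ)
    (LinearMap.ker_eq_bot.mpr (algebraMap K₀ κ).injective)
  have hl1 : l 1 = 1 := by
    have := LinearMap.congr_fun hl 1
    simpa using this
  refine ⟨fun m => ∑ t ∈ Finset.range ((P m).natDegree + 1),
    Polynomial.monomial t (l ((P m).coeff t)), ?_, ?_⟩
  · intro m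
    refine Polynomial.natDegree_sum_le_of_forall_le _ _ fun t ht => ?_
    exact (Polynomial.natDegree_monomial_le _).trans (by have := Finset.mem_range.mp ht; omega)
  · have h := congrArg (coeffwise l) hrel
    rw [map_zero, map_add, map_sum, ← map_pow, coeffwise_map l hl1] at h
    rw [← h]
    congr 1
    refine Finset.sum_congr rfl fun m _ => ?_
    have hL : Polynomial.aeval b (∑ t ∈ Finset.range ((P m).natDegree + 1),
        Polynomial.monomial t (l ((P m).coeff t))) =
        ∑ t ∈ Finset.range ((P m).natDegree + 1), PowerSeries.C (l ((P m).coeff t)) * b ^ t := by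
      rw [map_sum]
      refine Finset.sum_congr rfl fun t _ => ?_
      rw [Polynomial.aeval_monomial]
      rfl
    have hR : Polynomial.aeval (b.map (algebraMap K₀ κ)) (P m) =
        ∑ t ∈ Finset.range ((P m).natDegree + 1),
          PowerSeries.C ((P m).coeff t) * (b.map (algebraMap K₀ κ)) ^ t := by
      rw [Polynomial.aeval_eq_sum_range]
      refine Finset.sum_congr rfl fun t _ => ?_
      rw [PowerSeries.smul_eq_C_mul]
    show Polynomial.aeval b (∑ t ∈ Finset.range ((P m).natDegree + 1),
        Polynomial.monomial t (l ((P m).coeff t))) * a ^ m = _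
    rw [hL, hR, Finset.sum_mul, Finset.sum_mul, map_sum]
    refine Finset.sum_congr rfl fun t _ => ?_
    rw [← map_pow, ← map_pow, mul_assoc (PowerSeries.C ((P m).coeff t)), ← map_mul,
      coeffwise_C_mul_map, mul_assoc]

end descent

section transfer

/-- `PowerSeries.map` commutes with polynomial evaluation. -/
theorem map_aeval_powerSeries {A B : Type*} [CommRing A] [CommRing B] (g : A →+* B)
    (x : PowerSeries A) (P : Polynomial A) :
    PowerSeries.map g (Polynomial.aeval x P) = Polynomial.aeval (x.map g) (P.map g) := by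
  rw [Polynomial.aeval_def, Polynomial.aeval_def, Polynomial.hom_eval₂, Polynomial.eval₂_map]
  congr 1
  ext a : 1
  simp

theorem map_intCast_eq_map_map {K : Type*} [Field K] [Algebra (ZMod 2) K] (S : PowerSeries ℤ) :
    S.map (Int.castRingHom K) =
      (S.map (Int.castRingHom (ZMod 2))).map (algebraMap (ZMod 2) K) := by
  ext t
  simp

/-- **Transfer of a monic relation between two fields of characteristic two**, for series
defined over `ℤ`. -/
theorem exists_rel_transfer (A B : PowerSeries ℤ) (n : ℕ) {κ k : Type*} [Field κ] [Field k]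
    [CharP κ 2] [CharP k 2] (P : ℕ → Polynomial κ)
    (hrel : (A.map (Int.castRingHom κ)) ^ n + ∑ m ∈ Finset.range n,
      Polynomial.aeval (B.map (Int.castRingHom κ)) (P m) * (A.map (Int.castRingHom κ)) ^ m = 0) :
    ∃ P' : ℕ → Polynomial k, (∀ m, (P' m).natDegree ≤ (P m).natDegree) ∧
      (A.map (Int.castRingHom k)) ^ n + ∑ m ∈ Finset.range n,
        Polynomial.aeval (B.map (Int.castRingHom k)) (P' m) * (A.map (Int.castRingHom k)) ^ m
          = 0 := by
  letI : Algebra (ZMod 2) κ := ZMod.algebra κ 2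
  letI : Algebra (ZMod 2) k := ZMod.algebra k 2
  rw [map_intCast_eq_map_map (K := κ) A, map_intCast_eq_map_map (K := κ) B] at hrel
  obtain ⟨P₀, hP₀, hrel₀⟩ := exists_rel_descent (K₀ := ZMod 2) (κ := κ)
    (A.map (Int.castRingHom (ZMod 2))) (B.map (Int.castRingHom (ZMod 2))) n P hrel
  refine ⟨fun m => (P₀ m).map (algebraMap (ZMod 2) k), fun m =>
    (Polynomial.natDegree_map_le).trans (hP₀ m), ?_⟩
  have h := congrArg (PowerSeries.map (algebraMap (ZMod 2) k)) hrel₀
  rw [map_zero, map_add, map_sum, map_pow] at h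
  rw [map_intCast_eq_map_map (K := k) A, map_intCast_eq_map_map (K := k) B, ← h]
  congr 1
  refine Finset.sum_congr rfl fun m _ => ?_
  rw [map_mul, map_pow, map_aeval_powerSeries]

end transfer

section cong

open CongruenceSubgroup ModularFormClass UpperHalfPlane ModularCurve

/-- **(G3') for a cusp form congruent to the Eisenstein series modulo two.**  For every field `k`
of characteristic two, `δ = ∑ σ'(n) qⁿ` satisfies over `k[Δ̄]` a monic relation of degree `p + 1`
with the weight-two degree bounds: the hypothesis `hrel` of `u2_rel_qseries` (`n = p + 1`). -/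
theorem exists_rel_of_cong (p : ℕ) [hp : Fact p.Prime] (hp2 : p ≠ 2)
    (f : CuspForm (Gamma0 p) 2) (hf : H52.Cong p f 2) (k : Type*) [Field k] [CharP k 2] :
    ∃ P : ℕ → Polynomial k, (∀ m, m < p + 1 → 6 * (P m).natDegree ≤ p + 1 - m) ∧
      deltaPS k p ^ (p + 1) + ∑ m ∈ Finset.range (p + 1),
        Polynomial.aeval (DeltaPS k) (P m) * deltaPS k p ^ m = 0 := by
  have : Fact (Nat.Prime 2) := ⟨Nat.prime_two⟩
  obtain ⟨𝒪, _, κ, _, φ, hchar, -, -, -, -, hint, hunit, -⟩ := H77.exists_subring_hom 2
  have h2 : (2 : κ) = 0 := by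
    have := CharP.cast_eq_zero κ 2
    simpa using this
  have hp0 : p ≠ 0 := hp.out.ne_zero
  -- the form and its integral expansion
  choose z hz hzd using hf
  set F : ModularForm (Gamma0 p) 2 := CuspForm.toModularFormₗ f with hFdef
  have hcoe : (F : ℍ → ℂ) = (f : ℍ → ℂ) := rfl
  set F' : PowerSeries 𝒪 := PowerSeries.mk fun n => ((z n : ℤ) : 𝒪) with hF'def
  have hF' : F'.map 𝒪.subtype = qExpansion 1 F := by
    ext n
    rw [PowerSeries.coeff_map, hF'def, PowerSeries.coeff_mk, hcoe]
    have := hz n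
    unfold qCoeff at this
    rw [this]
    simp
  have hζ : H8.zetaW p ∈ 𝒪 := hint _ (H77.isIntegral_exp_two_pi_div p hp0)
  have hpinv : ((p : ℕ) : ℂ)⁻¹ ∈ 𝒪 := by
    have hodd : ¬ (2 : ℤ) ∣ (p : ℤ) := by
      intro h
      have h' : 2 ∣ p := by exact_mod_cast h
      exact hp2 ((Nat.prime_dvd_prime_iff_eq Nat.prime_two hp.out).mp h').symm
    obtain ⟨u, hu⟩ := isUnit_iff_exists_inv.mp (hunit (p : ℤ) (by exact_mod_cast hodd))
    have h1 : ((p : ℕ) : ℂ) * (u : ℂ) = 1 := by
      have := congrArg (Subtype.val) hu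
      simpa using this
    have : ((p : ℕ) : ℂ)⁻¹ = (u : ℂ) := by
      rw [inv_eq_iff_eq_inv]
      exact eq_inv_of_mul_eq_one_left h1
    rw [this]
    exact u.2
  obtain ⟨P, hP1, hP2⟩ := exists_rel_of_form 𝒪 φ h2 F F' hF' hζ hpinv
  -- the reduction of `F'` is `δ`
  have hz0 : z 0 = 0 := by
    have h1 : (1 : ℝ) ∈ ((Gamma0 p : Subgroup (GL (Fin 2) ℝ))).strictPeriods :=
      CongruenceSubgroup.one_mem_strictPeriods_Gamma0 p
    have h0 : qCoeff f 0 = 0 := CuspFormClass.qExpansion_coeff_zero f one_pos h1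
    rw [hz 0] at h0
    exact_mod_cast h0
  have hred : F'.map φ = (eisPS p).map (Int.castRingHom κ) := by
    ext n
    rw [PowerSeries.coeff_map, PowerSeries.coeff_map, hF'def, PowerSeries.coeff_mk, eisPS,
      PowerSeries.coeff_mk, map_intCast, eq_intCast]
    rcases Nat.eq_zero_or_pos n with rfl | hn
    · rw [hz0]
      simp [sigmaPrime]
    · obtain ⟨c, hc⟩ := hzd n hn
      have hs : ((H52.sigmaP p n : ℕ) : ℤ) = ((sigmaPrime p n : ℕ) : ℤ) := rfl
      have : z n = ((sigmaPrime p n : ℕ) : ℤ) + 2 * c := by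
        rw [← hs]
        have : ((2 : ℕ) : ℤ) = 2 := by norm_num
        rw [this] at hc
        linarith
      rw [this]
      push_cast
      rw [h2, zero_mul, add_zero]
  rw [hred] at hP2
  have hΔ : PowerSeries.X * dedekindEtaUnit.map (Int.castRingHom κ) =
      (PowerSeries.X * dedekindEtaUnit).map (Int.castRingHom κ) := by
    rw [map_mul, PowerSeries.map_X]
  rw [hΔ] at hP2
  obtain ⟨P', hP'1, hP'2⟩ := exists_rel_transfer (eisPS p) (PowerSeries.X * dedekindEtaUnit)
    (p + 1) (κ := κ) (k := k) P hP2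
  refine ⟨P', fun m hm => ?_, ?_⟩
  · have := hP1 m hm
    have := hP'1 m
    omega
  · have hΔk : DeltaPS k = (PowerSeries.X * dedekindEtaUnit).map (Int.castRingHom k) := by
      rw [DeltaPS, map_mul, PowerSeries.map_X]
    rw [hΔk]
    exact hP'2

end cong

end Fermat.Agent.S16.H76
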