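/-
S16 (helper39, coordinator): **everything after the GEO-e instance, checked.**

`HesseCover k p` is the cover data that the GEO-e instance (S18 Hesse chart at `ℓ = 2`, `N = p`)
has to deliver for ONE algebraically closed field `k` of characteristic `2`:
a field `F'` with an embedding `ι'` of `k(j, j_p) ⊆ k((q))`, a valuation subring `O` of `F'` and a
Hesse parameter `μ` (`j (μ³+1)³ = μ¹²`) which is a nonzero non-unit whose value is not a square,
with the constants integral.

* `not_cong_two_of_hesseCover` : the `(U2b)` leaf from it (`H36.u2_rel_fullC` +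
  `H76.exists_rel_of_cong`);
* `result_of_hesseCover` : the frozen statement S16 from it (`H39.result_of_last_cong`).
-/
import Fermat.Agent.S16.H36_U2Inst
import Fermat.Agent.S16.H76_U2RelDescent
import Fermat.Agent.S16.H39_AlmostFinalCong

set_option autoImplicit false

open ModularCurve CuspForm CongruenceSubgroup

namespace Fermat.Agent.S16.H39

universe u

/-- The cover data of the `(U2b)` leaf over the field `k`. -/
def HesseCover (k : Type) [Field k] (p : ℕ) [NeZero p] : Prop :=
  ∃ (F' : Type u) (_ : Field F') (ι' : ↥(modularFunctionFieldFullC k p) →+* F')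
    (O : ValuationSubring F') (μ : F'),
    μ ≠ 0 ∧ O.valuation μ < 1 ∧ (∀ g : O.ValueGroup, g ^ 2 ≠ O.valuation μ) ∧
    ι' (Fermat.Agent.S18.H16.jK k p) * (μ ^ 3 + 1) ^ 3 = μ ^ 12 ∧
    ∀ c : k, O.valuation (ι' (algebraMap k ↥(modularFunctionFieldFullC k p) c)) ≤ 1

/-- **The `(U2b)` leaf from the cover data.** -/
theorem not_cong_two_of_hesseCover (p : ℕ) [hp : Fact p.Prime] (hp4 : p % 4 = 3)
    (k : Type) [Field k] [CharP k 2] [IsAlgClosed k]
    (hc : haveI : NeZero p := ⟨hp.out.ne_zero⟩; HesseCover.{u} k p)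
    (f : CuspForm (Gamma0 p) 2) : ¬ H52.Cong p f 2 := by
  intro hf
  haveI : NeZero p := ⟨hp.out.ne_zero⟩
  have hp2 : p ≠ 2 := by rintro rfl; omega
  obtain ⟨F', _, ι', O, μ, hμ0, hμ, hnsq, hJμ, hk⟩ := hc
  obtain ⟨P, hP, hrel⟩ := H76.exists_rel_of_cong p hp2 f hf k
  exact H36.u2_rel_fullC k (fun c => IsAlgClosed.exists_pow_nat_eq c two_pos) p hp.out hp4 ι'
    (p + 1) (Nat.succ_pos p) P hP hrel O.valuation μ hμ0 hμ hnsq hJμ hk

/-- **S16 from the cover data** (needed only for `p ≡ 7 mod 8`, `p ∉ {2,3,5,7,13}`). -/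
theorem result_of_hesseCover (p : ℕ) [hp : Fact p.Prime]
    (hc : p ∉ ({2, 3, 5, 7, 13} : Finset ℕ) → p % 8 = 7 →
      ∃ (k : Type) (_ : Field k) (_ : CharP k 2) (_ : IsAlgClosed k),
        haveI : NeZero p := ⟨hp.out.ne_zero⟩; HesseCover.{u} k p) :
    Nat.card (↥(heckeLatticeAlgebra p ∅) ⧸
        Ideal.map ((latticeRestrictHom p ∅).toRingHom.comp (heckeEvalForms p 2))
          (eisensteinIdeal p)) =
      eisensteinNumerator p := by
  refine result_of_last_cong p (fun hp' h8 f => ?_)
  obtain ⟨k, _, _, _, hk⟩ := hc hp' h8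
  exact not_cong_two_of_hesseCover p (by omega) k hk f

end Fermat.Agent.S16.H39
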