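/-
S16 project, package GEO-e (helper41), embedding step: a function field `Fk = k(x̄)(θ̄)` cut out by an
irreducible bivariate polynomial `Ψ ∈ k[X][Y]` embeds into every field `κ` carrying a pair `(t, u)`
with `t` transcendental over `k` and `Ψ(t, u) = 0`.  (Instance: `Fk = modularFunctionFieldFullC k p`,
`Ψ = Φ_p mod 2`, `κ` the function field of a component of the special fibre of the Hesse cover.)
Mathlib + `H41.exists_ringHom_comp_eq` only.
-/
import Fermat.Agent.S16.H41_GeoE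

set_option autoImplicit false
set_option linter.unusedSectionVars false
set_option linter.style.haveILetI false

namespace Fermat.Agent.S16.H41

open Polynomial

section Embed

variable {k : Type*} [Field k]

/-- **The vanishing ideal of a generic point of an irreducible plane curve.**  `ev : k[X] → E`
injective (`X ↦ x` transcendental), `Ψ ∈ k[X][Y]` irreducible over `k(X)`, `Ψ(x, y) = 0`.  Then
`g(x, y) = 0` iff `Ψ ∣ g` over `k(X)`. -/
theorem eval₂_eq_zero_iff_map_dvd_map {E : Type*} [Field E] (ev : k[X] →+* E)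
    (hev : Function.Injective ev) (y : E) (Ψ : k[X][X])
    (hΨ : Irreducible (Ψ.map (algebraMap k[X] (RatFunc k)))) (hroot : Ψ.eval₂ ev y = 0)
    (g : k[X][X]) :
    g.eval₂ ev y = 0 ↔
      Ψ.map (algebraMap k[X] (RatFunc k)) ∣ g.map (algebraMap k[X] (RatFunc k)) := by
  let e : RatFunc k →+* E := IsFractionRing.lift hev
  have he : e.comp (algebraMap k[X] (RatFunc k)) = ev := by
    refine RingHom.ext fun s => ?_
    rw [RingHom.comp_apply]
    exact IsFractionRing.lift_algebraMap hev s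
  letI : Algebra (RatFunc k) E := e.toAlgebra
  have key : ∀ g : k[X][X],
      g.eval₂ ev y = aeval y (g.map (algebraMap k[X] (RatFunc k))) := by
    intro g
    rw [aeval_def, eval₂_map]
    change _ = g.eval₂ (e.comp (algebraMap k[X] (RatFunc k))) y
    rw [he]
  rw [key] at hroot ⊢
  have halg : IsAlgebraic (RatFunc k) y := ⟨_, hΨ.ne_zero, hroot⟩
  have hint : IsIntegral (RatFunc k) y := halg.isIntegral
  have h1 : minpoly (RatFunc k) y ∣ Ψ.map (algebraMap k[X] (RatFunc k)) := minpoly.dvd _ _ hroot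
  have h2 : Ψ.map (algebraMap k[X] (RatFunc k)) ∣ minpoly (RatFunc k) y :=
    (minpoly.irreducible hint).dvd_symm hΨ h1
  rw [← minpoly.dvd_iff]
  exact ⟨fun h => h2.trans h, fun h => h1.trans h⟩

/-- **Embedding of the function field of an irreducible plane curve.**  `Fk = k(x̄)(θ̄)` (in the
cleared-denominator form `hgenk`), `Ψ(x̄, θ̄) = 0` with `Ψ` irreducible over `k(X)`, `x̄` transcendental;
`κ` any field with an injective `ev : k[X] → κ` and `u ∈ κ`, `Ψ^{ev}(u) = 0`.  Then there is a field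
embedding `ι : Fk → κ` with `ι (s(x̄)) = ev s` and `ι θ̄ = u`. -/
theorem exists_ringHom_of_irreducible {Fk κ : Type*} [Field Fk] [Algebra k Fk] [Field κ]
    (xb θb : Fk) (hxb : Transcendental k xb)
    (ev : k[X] →+* κ) (hev : Function.Injective ev) (u : κ)
    (Ψ : k[X][X]) (hΨ : Irreducible (Ψ.map (algebraMap k[X] (RatFunc k))))
    (hrootb : Ψ.eval₂ ((aeval xb : k[X] →ₐ[k] Fk) : k[X] →+* Fk) θb = 0)
    (hroot : Ψ.eval₂ ev u = 0)
    (hgenk : ∀ γ : Fk, ∃ s : k[X], aeval xb s ≠ 0 ∧ ∃ g : k[X][X],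
      aeval xb s * γ = g.eval₂ ((aeval xb : k[X] →ₐ[k] Fk) : k[X] →+* Fk) θb) :
    ∃ ι : Fk →+* κ, (∀ s : k[X], ι (aeval xb s) = ev s) ∧ ι θb = u ∧
      ∀ g : k[X][X],
        ι (g.eval₂ ((aeval xb : k[X] →ₐ[k] Fk) : k[X] →+* Fk) θb) = g.eval₂ ev u := by
  have hevb : Function.Injective ((aeval xb : k[X] →ₐ[k] Fk) : k[X] →+* Fk) :=
    transcendental_iff_injective.mp hxb
  have hfrac : ∀ γ : Fk, ∃ a b : k[X][X],
      eval₂RingHom ((aeval xb : k[X] →ₐ[k] Fk) : k[X] →+* Fk) θb b ≠ 0 ∧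
        γ * eval₂RingHom ((aeval xb : k[X] →ₐ[k] Fk) : k[X] →+* Fk) θb b =
          eval₂RingHom ((aeval xb : k[X] →ₐ[k] Fk) : k[X] →+* Fk) θb a := by
    intro γ
    obtain ⟨s, hs, g, hg⟩ := hgenk γ
    refine ⟨g, C s, ?_, ?_⟩
    · rw [coe_eval₂RingHom, eval₂_C]; exact hs
    · rw [coe_eval₂RingHom, eval₂_C, mul_comm]; exact hg
  have hker : ∀ g : k[X][X], eval₂RingHom ev u g = 0 ↔
      eval₂RingHom ((aeval xb : k[X] →ₐ[k] Fk) : k[X] →+* Fk) θb g = 0 := by
    intro g
    rw [coe_eval₂RingHom, coe_eval₂RingHom,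
      eval₂_eq_zero_iff_map_dvd_map ev hev u Ψ hΨ hroot,
      eval₂_eq_zero_iff_map_dvd_map _ hevb θb Ψ hΨ hrootb]
  obtain ⟨ι, hι⟩ := exists_ringHom_comp_eq
    (eval₂RingHom ((aeval xb : k[X] →ₐ[k] Fk) : k[X] →+* Fk) θb) hfrac
    (eval₂RingHom ev u) hker
  have hg : ∀ g : k[X][X],
      ι (g.eval₂ ((aeval xb : k[X] →ₐ[k] Fk) : k[X] →+* Fk) θb) = g.eval₂ ev u := hι
  refine ⟨ι, fun s => ?_, ?_, hg⟩
  · have := hg (C s)
    rwa [eval₂_C, eval₂_C] at this
  · have := hg X
    rwa [eval₂_X, eval₂_X] at this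

/-- Ring homomorphisms out of `ℤ[X]` are determined by the image of `X`. -/
theorem int_polynomial_ringHom_ext {T : Type*} [Semiring T] {f g : ℤ[X] →+* T} (h : f X = g X) :
    f = g :=
  Polynomial.ringHom_ext' (RingHom.ext_int _ _) h

/-- **Embedding the reduced function field into the field of a place of the special fibre.**
`res : A₁ → k` surjective; `S` a ring of integral functions with constants `cS : A₁ → S` and
`φ : S → κ` killing `ker res`; `jS, θS ∈ S` with `Φ₀(jS, θS) = 0` (`Φ₀ ∈ ℤ[X][Y]`, irreducible over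
`k(X)`), `φ jS` transcendental over `k` (in the form `htr`); `Fk = k(x̄)(θ̄)` with `Φ₀(x̄, θ̄) = 0`.
Then `Fk` embeds into `κ` compatibly: `x̄ ↦ φ jS`, `θ̄ ↦ φ θS`, `res a ↦ φ (cS a)`. -/
theorem exists_ringHom_of_reduction {A₁ S Fk κ : Type*} [CommRing A₁] [CommRing S] [Field Fk]
    [Algebra k Fk] [Field κ]
    (res : A₁ →+* k) (hres : Function.Surjective res)
    (cS : A₁ →+* S) (φ : S →+* κ) (hφ : ∀ a : A₁, res a = 0 → φ (cS a) = 0)
    (jS θS : S)
    (htr : ∀ s : A₁[X], φ (s.eval₂ cS jS) = 0 → s.map res = 0)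
    (xb θb : Fk) (hxb : Transcendental k xb)
    (Φ₀ : ℤ[X][X])
    (hirr : Irreducible (Φ₀.map ((algebraMap k[X] (RatFunc k)).comp
      (mapRingHom (Int.castRingHom k)))))
    (hrootb : Φ₀.eval₂ (eval₂RingHom (Int.castRingHom Fk) xb) θb = 0)
    (hrootS : Φ₀.eval₂ (eval₂RingHom (Int.castRingHom S) jS) θS = 0)
    (hgenk : ∀ γ : Fk, ∃ s : k[X], aeval xb s ≠ 0 ∧ ∃ g : k[X][X],
      aeval xb s * γ = g.eval₂ ((aeval xb : k[X] →ₐ[k] Fk) : k[X] →+* Fk) θb) :
    ∃ ι : Fk →+* κ, (∀ a : A₁, ι (algebraMap k Fk (res a)) = φ (cS a)) ∧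
      ι xb = φ jS ∧ ι θb = φ θS := by
  -- the constants
  have hle : RingHom.ker res ≤ RingHom.ker (φ.comp cS) := by
    intro a ha
    rw [RingHom.mem_ker] at ha ⊢
    exact hφ a ha
  let c : k →+* κ := RingHom.liftOfSurjective res hres ⟨φ.comp cS, hle⟩
  have hc : ∀ a : A₁, c (res a) = φ (cS a) := fun a =>
    RingHom.liftOfRightInverse_comp_apply _ _ _ ⟨φ.comp cS, hle⟩ a
  have hcres : c.comp res = φ.comp cS := RingHom.ext hc
  -- the coordinate
  have hev : Function.Injective (eval₂RingHom c (φ jS)) := by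
    rw [injective_iff_map_eq_zero]
    intro sb hsb
    obtain ⟨s, rfl⟩ := Polynomial.map_surjective res hres sb
    apply htr
    rw [Polynomial.hom_eval₂, ← hcres, ← eval₂_map]
    exact hsb
  -- the polynomial
  have hΨ : Irreducible ((Φ₀.map (mapRingHom (Int.castRingHom k))).map
      (algebraMap k[X] (RatFunc k))) := by
    rw [Polynomial.map_map]; exact hirr
  have hrootb' : (Φ₀.map (mapRingHom (Int.castRingHom k))).eval₂
      ((aeval xb : k[X] →ₐ[k] Fk) : k[X] →+* Fk) θb = 0 := by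
    rw [eval₂_map]
    have : (((aeval xb : k[X] →ₐ[k] Fk) : k[X] →+* Fk).comp (mapRingHom (Int.castRingHom k))) =
        eval₂RingHom (Int.castRingHom Fk) xb := by
      apply int_polynomial_ringHom_ext
      simp
    rw [this]; exact hrootb
  have hroot' : (Φ₀.map (mapRingHom (Int.castRingHom k))).eval₂ (eval₂RingHom c (φ jS)) (φ θS)
      = 0 := by
    rw [eval₂_map]
    have h1 := congrArg φ hrootS
    rw [Polynomial.hom_eval₂, map_zero] at h1
    have : ((eval₂RingHom c (φ jS)).comp (mapRingHom (Int.castRingHom k))) =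
        φ.comp (eval₂RingHom (Int.castRingHom S) jS) := by
      apply int_polynomial_ringHom_ext
      simp
    rw [this]; exact h1
  obtain ⟨ι, hι, hιθ, -⟩ := exists_ringHom_of_irreducible xb θb hxb (eval₂RingHom c (φ jS)) hev
    (φ θS) _ hΨ hrootb' hroot' hgenk
  refine ⟨ι, fun a => ?_, ?_, hιθ⟩
  · have := hι (C (res a))
    rwa [aeval_C, coe_eval₂RingHom, eval₂_C, hc] at this
  · have := hι X
    rwa [aeval_X, coe_eval₂RingHom, eval₂_X] at this

end Embed

end Fermat.Agent.S16.H41
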