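/-
S16 project, package GEO-e (helper41), instance step (G4): the geometric input of the
`(U,2b; p = 3 mod 4)` leaf at the Hesse chart, `ℓ = 2`.

* `exists_place_hesse` : `H41.exists_place_of_auxLine` at the Hesse cover
  (`F' = H70.HesField j1`, `μ = H70.hesMu j1`, line `f = X³ - 1`, closed point `μ = 0`), generic in
  the DVR `A₁` (with `3` a unit) and its fraction field `L1`; the kernel statement is turned into
  "`φ j1` is transcendental over the residue field".
* `exists_embedding_hesse` : with `2 = 0` in the residue field `k`: a field `κ` of characteristic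
  `2`, an embedding `ι' : modularFunctionFieldFullC k N → κ`, a valuation subring `O ≠ ⊤` of `κ` and
  `μ ∈ κ` with `ι' J (μ³+1)³ = μ¹²`, `v μ < 1` the largest value `< 1` (not a square, generating
  the value group), `v ≤ 1` on the constants and on `ι' J_N`.
* `exists_embedding_hesse_A0`, `exists_embedding_hesse_two` : the concrete instances at
  `A₁ = H45.A0 A 2` (all hypotheses discharged), resp. with the residue field existentially
  quantified.
-/
import Fermat.Agent.S16.H41_GeoEChart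
import Fermat.Agent.S16.H41_GeoEEmbed
import Fermat.Agent.S18.H26_BaseLineHes
import Fermat.Agent.S18.H16_VertSep
import Fermat.Agent.S18.H3_ChartRingInst
import Fermat.Agent.S18.H67_GaussLift
import Fermat.Agent.S18.H69_HorInstL1
import Fermat.Agent.S18.H45_A0Units
import Fermat.Agent.S14.H54_Places

set_option autoImplicit false
set_option linter.unusedSectionVars false
set_option linter.style.haveILetI false

namespace Fermat.Agent.S16.H41

open Polynomial IntermediateField AlgebraicCurve ModularCurve Fermat.Agent.S18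

noncomputable section

section Generic

variable {A₁ L1 : Type} [CommRing A₁] [IsDomain A₁] [IsDiscreteValuationRing A₁]
  [Field L1] [Algebra A₁ L1] [IsFractionRing A₁ L1] [CharZero L1] (N : ℕ) [NeZero N]
  [Algebra A₁ ↥(modularFunctionFieldFullC L1 N)]
  [IsScalarTower A₁ L1 ↥(modularFunctionFieldFullC L1 N)]

set_option maxHeartbeats 1600000 in
set_option synthInstance.maxHeartbeats 400000 in
/-- **GEO-e at the Hesse chart** (`3` invertible), generic in `(A₁, L1)`: a place of the special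
fibre of the normalisation of the Hesse line in `F' = F1(μ)` over the closed point `μ = 0`. -/
theorem exists_place_hesse {ϖ : A₁} (hϖ : Irreducible ϖ)
    {k : Type} [Field k] [IsAlgClosed k] (res : A₁ →+* k) (hres : Function.Surjective res)
    (hker : RingHom.ker res = Ideal.span {ϖ})
    (h3 : IsUnit (3 : A₁)) (hNk : ((N : ℕ) : k) ≠ 0)
    (hunr : ∀ (v : Place L1 (H70.HesField (H16.jK L1 N)))
      (g₀ : L1[X]), Irreducible g₀ → ¬ g₀ ∣ (X ^ 3 - 1 : L1[X]) →
      0 < v.ord (aeval (H70.hesMu (H16.jK L1 N)) g₀) →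
      v.ord (aeval (H70.hesMu (H16.jK L1 N)) g₀) = 1) :
    ∃ (κ : Type) (_ : Field κ)
      (φ : ↥(integralClosure ↥(Algebra.adjoin A₁ {H16.jK L1 N})
        (H70.HesField (H16.jK L1 N))) →+* κ) (O : ValuationSubring κ),
      (∀ (a : A₁) (h : IsIntegral ↥(Algebra.adjoin A₁ {H16.jK L1 N})
          (algebraMap A₁ (H70.HesField (H16.jK L1 N)) a)), res a = 0 → φ ⟨_, h⟩ = 0) ∧
      (∀ (s : A₁[X]) (h : IsIntegral ↥(Algebra.adjoin A₁ {H16.jK L1 N})
          (aeval (algebraMap ↥(modularFunctionFieldFullC L1 N) (H70.HesField (H16.jK L1 N))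
            (H16.jK L1 N)) s)), φ ⟨_, h⟩ = 0 → s.map res = 0) ∧
      (∀ z : κ, ∃ x y, φ y ≠ 0 ∧ z * φ y = φ x) ∧
      (∀ x, φ x ∈ O) ∧ O ≠ ⊤ ∧
      ∀ h : IsIntegral ↥(Algebra.adjoin A₁ {H16.jK L1 N}) (H70.hesMu (H16.jK L1 N)),
        φ ⟨_, h⟩ ≠ 0 ∧ O.valuation (φ ⟨_, h⟩) < 1 ∧
        (∀ y : κ, O.valuation y < 1 → O.valuation y ≤ O.valuation (φ ⟨_, h⟩)) ∧
        ∀ y : κ, y ≠ 0 → ∃ m : ℤ, O.valuation y = O.valuation (φ ⟨_, h⟩) ^ m := by
  classical
  have hNL : ((N : ℕ) : L1) ≠ 0 := Nat.cast_ne_zero.mpr (NeZero.ne N)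
  haveI hfin1 : FiniteDimensional L1⟮H16.jK L1 N⟯ (modularFunctionFieldFullC L1 N) :=
    H16.finiteDimensional_fullC_gen N L1 hNL
  have hj1 : Transcendental L1 (H16.jK L1 N) := H16.transcendental_jK L1 N
  have hgen : L1⟮H16.jK L1 N⟯⟮H16.jNK L1 N⟯ = ⊤ := H16.adjoin_jNK_eq_top_gen N L1 hNL
  have hθalg : IsAlgebraic L1⟮H16.jK L1 N⟯ (H16.jNK L1 N) := Algebra.IsAlgebraic.isAlgebraic _
  haveI hczF1 : CharZero ↥(modularFunctionFieldFullC L1 N) :=
    charZero_of_injective_algebraMap (algebraMap L1 _).injective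
  have hμ : Transcendental L1 (H70.hesMu (H16.jK L1 N)) := H70.transcendental_hesMu (L := L1) hj1
  have hμtop : (↥(modularFunctionFieldFullC L1 N))⟮H70.hesMu (H16.jK L1 N)⟯ = ⊤ :=
    H70.adjoin_hesMu (H16.jK L1 N)
  haveI hfinμ : FiniteDimensional L1⟮H70.hesMu (H16.jK L1 N)⟯ (H70.HesField (H16.jK L1 N)) :=
    H70.finiteDimensional_hesField_over (L := L1) (KY := L1⟮H70.hesMu (H16.jK L1 N)⟯) hgen hθalg
      (AdjoinSimple.gen L1 (H70.hesMu (H16.jK L1 N)))
      (AdjoinSimple.algebraMap_gen L1 (H70.hesMu (H16.jK L1 N)))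
  -- the Hesse line
  have hfμ : IsUnit (aeval (H70.hesMu (H16.jK L1 N)) (H26.hesLineF A₁)) := by
    rw [H26.aeval_hesLineF]
    refine IsUnit.mk0 _ fun h0 => H70.hesB_hesMu_ne_zero (H16.jK L1 N) ?_
    unfold H26.hesB
    rw [h0]; ring
  have hJ : H26.hesJ (H70.hesMu (H16.jK L1 N)) =
      algebraMap ↥(modularFunctionFieldFullC L1 N) (H70.HesField (H16.jK L1 N)) (H16.jK L1 N) :=
    H70.hesJ_hesMu (H16.jK L1 N)
  have hjY : H26.LineRing.liftAlg (H26.hesLineF A₁) (H70.hesMu (H16.jK L1 N)) hfμ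
      (H26.HesLine.jY A₁) =
      algebraMap ↥(modularFunctionFieldFullC L1 N) (H70.HesField (H16.jK L1 N)) (H16.jK L1 N) := by
    rw [H26.HesLine.liftAlg_jY, hJ]
  have hint : ∀ r : H26.HesLine A₁, IsIntegral (Algebra.adjoin A₁
      {algebraMap ↥(modularFunctionFieldFullC L1 N) (H70.HesField (H16.jK L1 N)) (H16.jK L1 N)})
      (H26.LineRing.liftAlg (H26.hesLineF A₁) (H70.hesMu (H16.jK L1 N)) hfμ r) := by
    intro r
    rw [← hJ]
    exact H26.HesLine.isIntegral_liftAlg_adjoin_hesJ h3 _ hfμ r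
  have hintμ := hint (H26.LineRing.coord (H26.hesLineF A₁))
  rw [H26.LineRing.liftAlg_coord] at hintμ
  -- (VERT)
  obtain ⟨D, hD, -⟩ := H16.exists_modPoly_gen N
  have h3k : (3 : k) ≠ 0 := by
    have := h3.map res
    rw [map_ofNat] at this
    exact this.ne_zero
  have hJtr : Transcendental k (H26.hesJ (RatFunc.X : RatFunc k)) :=
    H26.transcendental_hesJ RatFunc.transcendental_X h3k
  have hsep : ((H16.modPolyAt D (H26.HesLine.jY A₁)).map
      (H26.LineRing.toRatFunc (H26.hesLineF A₁) res (H26.HesLine.map_ne_zero res))).Separable := by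
    refine H16.separable_map_modPolyAt (K := k) hNk D hD _ _ ?_
    rw [H26.HesLine.toRatFunc_jY]
    exact hJtr
  have hroot : (H16.modPolyAt D (H26.HesLine.jY A₁)).eval₂
      (H26.LineRing.liftAlg (H26.hesLineF A₁) (H70.hesMu (H16.jK L1 N)) hfμ).toRingHom
      (algebraMap ↥(modularFunctionFieldFullC L1 N) (H70.HesField (H16.jK L1 N))
        (H16.jNK L1 N)) = 0 := by
    rw [← Polynomial.eval_map, H16.modPolyAt_map]
    have : (H26.LineRing.liftAlg (H26.hesLineF A₁) (H70.hesMu (H16.jK L1 N)) hfμ).toRingHom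
        (H26.HesLine.jY A₁) = algebraMap ↥(modularFunctionFieldFullC L1 N)
          (H70.HesField (H16.jK L1 N)) (H16.jK L1 N) := hjY
    rw [this]
    exact H16.eval_modPolyAt_of_hom N D L1
      (algebraMap ↥(modularFunctionFieldFullC L1 N) (H70.HesField (H16.jK L1 N)))
  -- the closed point `μ = 0`
  have hfa : res ((H26.hesLineF A₁).eval 0) ≠ 0 := by
    rw [H26.eval_hesLineF, zero_pow (by norm_num), zero_sub, map_neg, map_one]
    exact neg_ne_zero.mpr one_ne_zero
  obtain ⟨κ, hκ, φ, O, hkerφ, hfrac, hO, hOtop, hunif⟩ :=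
    exists_place_of_auxLine (L1 := L1) hϖ res hres hker
      (H16.jK L1 N) (H16.jNK L1 N) hj1 hgen (H70.hesMu (H16.jK L1 N)) hμ hμtop
      (H26.hesLineF A₁) (H26.HesLine.map_ne_zero res) hfμ (H26.HesLine.jY A₁) hjY hintμ
      (hint (H26.LineRing.inv (H26.hesLineF A₁)))
      (H16.modPolyAt D (H26.HesLine.jY A₁)) (H16.modPolyAt_monic D _) hroot hsep
      (fun v g₀ hirr hnd => by
        rw [H26.hesLineF_map] at hnd
        exact hunr v g₀ hirr hnd) 0 hfa
  refine ⟨κ, hκ, φ, O, ?_, ?_, hfrac, hO, hOtop, ?_⟩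
  · -- `φ` kills `ϖ`
    intro a h ha
    have h1 : H26.LineRing.liftAlg (H26.hesLineF A₁) (H70.hesMu (H16.jK L1 N)) hfμ
        (algebraMap A₁ (H26.HesLine A₁) a) =
        algebraMap A₁ (H70.HesField (H16.jK L1 N)) a := AlgHom.commutes _ a
    have h' : IsIntegral ↥(Algebra.adjoin A₁ {H16.jK L1 N})
        (H26.LineRing.liftAlg (H26.hesLineF A₁) (H70.hesMu (H16.jK L1 N)) hfμ
          (algebraMap A₁ (H26.HesLine A₁) a)) := by rw [h1]; exact h
    have heq : (⟨algebraMap A₁ (H70.HesField (H16.jK L1 N)) a, h⟩ :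
        ↥(integralClosure ↥(Algebra.adjoin A₁ {H16.jK L1 N}) (H70.HesField (H16.jK L1 N)))) =
        ⟨_, h'⟩ := Subtype.ext h1.symm
    rw [heq, hkerφ _ h']
    have : a ∈ Ideal.span {ϖ} := by rw [← hker, RingHom.mem_ker]; exact ha
    obtain ⟨b, rfl⟩ := Ideal.mem_span_singleton.mp this
    rw [map_mul]
    exact Ideal.mul_mem_right _ _ (Ideal.mem_span_singleton_self _)
  · -- `φ j1` is transcendental over `k`
    intro s h hs
    have h1 : H26.LineRing.liftAlg (H26.hesLineF A₁) (H70.hesMu (H16.jK L1 N)) hfμ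
        (aeval (H26.HesLine.jY A₁) s) =
        aeval (algebraMap ↥(modularFunctionFieldFullC L1 N) (H70.HesField (H16.jK L1 N))
          (H16.jK L1 N)) s := by
      rw [← Polynomial.aeval_algHom_apply, hjY]
    have h' : IsIntegral ↥(Algebra.adjoin A₁ {H16.jK L1 N})
        (H26.LineRing.liftAlg (H26.hesLineF A₁) (H70.hesMu (H16.jK L1 N)) hfμ
          (aeval (H26.HesLine.jY A₁) s)) := by rw [h1]; exact h
    have heq : (⟨aeval (algebraMap ↥(modularFunctionFieldFullC L1 N)
        (H70.HesField (H16.jK L1 N)) (H16.jK L1 N)) s, h⟩ :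
        ↥(integralClosure ↥(Algebra.adjoin A₁ {H16.jK L1 N}) (H70.HesField (H16.jK L1 N)))) =
        ⟨_, h'⟩ := Subtype.ext h1.symm
    rw [heq, hkerφ _ h', ← H26.LineRing.ker_toRatFunc (H26.hesLineF A₁) res hker
      (H26.HesLine.map_ne_zero res), RingHom.mem_ker] at hs
    have h2 : H26.LineRing.toRatFunc (H26.hesLineF A₁) res (H26.HesLine.map_ne_zero res)
        (aeval (H26.HesLine.jY A₁) s) =
        aeval (H26.hesJ (RatFunc.X : RatFunc k)) (s.map res) := by
      rw [aeval_def, Polynomial.hom_eval₂, H26.HesLine.toRatFunc_jY, aeval_def, eval₂_map]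
      congr 1
      refine RingHom.ext fun a => ?_
      rw [RingHom.comp_apply, RingHom.comp_apply, H26.LineRing.toRatFunc_algebraMap]
    rw [h2] at hs
    by_contra hne
    exact hJtr ⟨_, hne, hs⟩
  · -- the uniformiser
    intro h
    have h0 : H70.hesMu (H16.jK L1 N) - algebraMap A₁ (H70.HesField (H16.jK L1 N)) 0 =
        H70.hesMu (H16.jK L1 N) := by rw [map_zero, sub_zero]
    have h' : IsIntegral ↥(Algebra.adjoin A₁ {H16.jK L1 N})
        (H70.hesMu (H16.jK L1 N) - algebraMap A₁ (H70.HesField (H16.jK L1 N)) 0) := by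
      rw [h0]; exact h
    have heq : (⟨H70.hesMu (H16.jK L1 N), h⟩ :
        ↥(integralClosure ↥(Algebra.adjoin A₁ {H16.jK L1 N}) (H70.HesField (H16.jK L1 N)))) =
        ⟨_, h'⟩ := Subtype.ext h0.symm
    rw [heq]
    exact hunif h'

set_option maxHeartbeats 1600000 in
set_option synthInstance.maxHeartbeats 400000 in
/-- `μ` is integral over `A₁[j1]` (`3` invertible). -/
theorem isIntegral_hesMu (h3 : IsUnit (3 : A₁)) :
    IsIntegral ↥(Algebra.adjoin A₁ {H16.jK L1 N}) (H70.hesMu (H16.jK L1 N)) := by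
  haveI hczF1 : CharZero ↥(modularFunctionFieldFullC L1 N) :=
    charZero_of_injective_algebraMap (algebraMap L1 _).injective
  have hfμ : IsUnit (aeval (H70.hesMu (H16.jK L1 N)) (H26.hesLineF A₁)) := by
    rw [H26.aeval_hesLineF]
    refine IsUnit.mk0 _ fun h0 => H70.hesB_hesMu_ne_zero (H16.jK L1 N) ?_
    unfold H26.hesB
    rw [h0]; ring
  have hJ : H26.hesJ (H70.hesMu (H16.jK L1 N)) =
      algebraMap ↥(modularFunctionFieldFullC L1 N) (H70.HesField (H16.jK L1 N)) (H16.jK L1 N) :=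
    H70.hesJ_hesMu (H16.jK L1 N)
  have hintμ : IsIntegral (Algebra.adjoin A₁
      {algebraMap ↥(modularFunctionFieldFullC L1 N) (H70.HesField (H16.jK L1 N)) (H16.jK L1 N)})
      (H26.LineRing.liftAlg (H26.hesLineF A₁) (H70.hesMu (H16.jK L1 N)) hfμ
        (H26.LineRing.coord (H26.hesLineF A₁))) := by
    rw [← hJ]
    exact H26.HesLine.isIntegral_liftAlg_adjoin_hesJ h3 _ hfμ _
  rw [H26.LineRing.liftAlg_coord] at hintμ
  have htAF : IsScalarTower A₁ ↥(modularFunctionFieldFullC L1 N) (H70.HesField (H16.jK L1 N)) :=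
    IsScalarTower.of_algebraMap_eq (fun a => by
      rw [IsScalarTower.algebraMap_apply A₁ L1 (H70.HesField (H16.jK L1 N)),
        IsScalarTower.algebraMap_apply L1 ↥(modularFunctionFieldFullC L1 N)
          (H70.HesField (H16.jK L1 N)),
        ← IsScalarTower.algebraMap_apply A₁ L1 ↥(modularFunctionFieldFullC L1 N)])
  exact H96.isIntegral_adjoin_of_isIntegral_adjoin_image (H16.jK L1 N) (fun _ => rfl) hintμ

set_option maxHeartbeats 3200000 in
set_option synthInstance.maxHeartbeats 400000 in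
/-- **GEO-e, the Hesse chart in residue characteristic `2`** (generic in `(A₁, L1)`): the reduced
function field `modularFunctionFieldFullC k N` embeds into the function field `κ` of a component
of the special fibre of the Hesse cover, and `κ` carries a valuation at which the Hesse parameter
`μ` is a uniformiser, with `J = μ¹² / (μ³ + 1)³`. -/
theorem exists_embedding_hesse {ϖ : A₁} (hϖ : Irreducible ϖ)
    {k : Type} [Field k] [IsAlgClosed k] (res : A₁ →+* k) (hres : Function.Surjective res)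
    (hker : RingHom.ker res = Ideal.span {ϖ})
    (h3 : IsUnit (3 : A₁)) (h2 : (2 : k) = 0) (hNk : ((N : ℕ) : k) ≠ 0)
    (hunr : ∀ (v : Place L1 (H70.HesField (H16.jK L1 N)))
      (g₀ : L1[X]), Irreducible g₀ → ¬ g₀ ∣ (X ^ 3 - 1 : L1[X]) →
      0 < v.ord (aeval (H70.hesMu (H16.jK L1 N)) g₀) →
      v.ord (aeval (H70.hesMu (H16.jK L1 N)) g₀) = 1) :
    ∃ (κ : Type) (_ : Field κ) (ι' : ↥(modularFunctionFieldFullC k N) →+* κ)
      (O : ValuationSubring κ) (μ : κ),
      CharP κ 2 ∧ O ≠ ⊤ ∧ μ ≠ 0 ∧ O.valuation μ < 1 ∧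
      (∀ y : κ, O.valuation y < 1 → O.valuation y ≤ O.valuation μ) ∧
      (∀ y : κ, y ≠ 0 → ∃ m : ℤ, O.valuation y = O.valuation μ ^ m) ∧
      (∀ γ : O.ValueGroup, γ ^ 2 ≠ O.valuation μ) ∧
      ι' (H16.jK k N) * (μ ^ 3 + 1) ^ 3 = μ ^ 12 ∧
      (∀ c : k, O.valuation (ι' (algebraMap k ↥(modularFunctionFieldFullC k N) c)) ≤ 1) ∧
      O.valuation (ι' (H16.jK k N)) ≤ 1 ∧ O.valuation (ι' (H16.jNK k N)) ≤ 1 := by
  classical
  obtain ⟨κ, hκ, φ, O, hφres, htr, -, hO, hOtop, hunif⟩ :=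
    exists_place_hesse N hϖ res hres hker h3 hNk hunr
  have hNL : ((N : ℕ) : L1) ≠ 0 := Nat.cast_ne_zero.mpr (NeZero.ne N)
  haveI hczF1 : CharZero ↥(modularFunctionFieldFullC L1 N) :=
    charZero_of_injective_algebraMap (algebraMap L1 _).injective
  have htAF : IsScalarTower A₁ ↥(modularFunctionFieldFullC L1 N) (H70.HesField (H16.jK L1 N)) :=
    IsScalarTower.of_algebraMap_eq (fun a => by
      rw [IsScalarTower.algebraMap_apply A₁ L1 (H70.HesField (H16.jK L1 N)),
        IsScalarTower.algebraMap_apply L1 ↥(modularFunctionFieldFullC L1 N)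
          (H70.HesField (H16.jK L1 N)),
        ← IsScalarTower.algebraMap_apply A₁ L1 ↥(modularFunctionFieldFullC L1 N)])
  obtain ⟨D, -, hirrD⟩ := H16.exists_modPoly_gen N
  -- integrality of the constants, `j1`, `θ`, `μ`
  have hcint : ∀ a : A₁, IsIntegral ↥(Algebra.adjoin A₁ {H16.jK L1 N})
      (algebraMap A₁ (H70.HesField (H16.jK L1 N)) a) := by
    intro a
    have : algebraMap A₁ (H70.HesField (H16.jK L1 N)) a =
        algebraMap ↥(Algebra.adjoin A₁ {H16.jK L1 N}) (H70.HesField (H16.jK L1 N))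
          (algebraMap A₁ ↥(Algebra.adjoin A₁ {H16.jK L1 N}) a) := by
      rw [IsScalarTower.algebraMap_apply A₁ ↥(modularFunctionFieldFullC L1 N)
        (H70.HesField (H16.jK L1 N))]
      rfl
    rw [this]
    exact isIntegral_algebraMap
  have hjint : IsIntegral ↥(Algebra.adjoin A₁ {H16.jK L1 N})
      (algebraMap ↥(modularFunctionFieldFullC L1 N) (H70.HesField (H16.jK L1 N))
        (H16.jK L1 N)) := by
    have : algebraMap ↥(modularFunctionFieldFullC L1 N) (H70.HesField (H16.jK L1 N))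
        (H16.jK L1 N) =
        algebraMap ↥(Algebra.adjoin A₁ {H16.jK L1 N}) (H70.HesField (H16.jK L1 N))
          ⟨H16.jK L1 N, Algebra.self_mem_adjoin_singleton A₁ _⟩ := rfl
    rw [this]
    exact isIntegral_algebraMap
  have hθint1 : IsIntegral ↥(Algebra.adjoin A₁ {H16.jK L1 N}) (H16.jNK L1 N) := by
    refine ⟨D.Φ.map (eval₂RingHom (Int.castRingHom ↥(Algebra.adjoin A₁ {H16.jK L1 N}))
      ⟨H16.jK L1 N, Algebra.self_mem_adjoin_singleton A₁ _⟩), D.monic.map _, ?_⟩
    rw [eval₂_map]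
    apply H3.eval₂_jNK_eq_zero N L1 D
    rw [RingHom.comp_apply, coe_eval₂RingHom, eval₂_X]
    rfl
  have hθint : IsIntegral ↥(Algebra.adjoin A₁ {H16.jK L1 N})
      (algebraMap ↥(modularFunctionFieldFullC L1 N) (H70.HesField (H16.jK L1 N))
        (H16.jNK L1 N)) := hθint1.algebraMap
  have hμint := isIntegral_hesMu (A₁ := A₁) (L1 := L1) N h3
  -- the ring `S` and its elements
  let cS : A₁ →+* ↥(integralClosure ↥(Algebra.adjoin A₁ {H16.jK L1 N})
      (H70.HesField (H16.jK L1 N))) :=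
    (algebraMap A₁ (H70.HesField (H16.jK L1 N))).codRestrict
      (integralClosure ↥(Algebra.adjoin A₁ {H16.jK L1 N}) (H70.HesField (H16.jK L1 N))) hcint
  let jS : ↥(integralClosure ↥(Algebra.adjoin A₁ {H16.jK L1 N}) (H70.HesField (H16.jK L1 N))) :=
    ⟨_, hjint⟩
  let θS : ↥(integralClosure ↥(Algebra.adjoin A₁ {H16.jK L1 N}) (H70.HesField (H16.jK L1 N))) :=
    ⟨_, hθint⟩
  let μS : ↥(integralClosure ↥(Algebra.adjoin A₁ {H16.jK L1 N}) (H70.HesField (H16.jK L1 N))) :=
    ⟨_, hμint⟩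
  let valS : ↥(integralClosure ↥(Algebra.adjoin A₁ {H16.jK L1 N})
      (H70.HesField (H16.jK L1 N))) →+* H70.HesField (H16.jK L1 N) :=
    algebraMap _ _
  have hvalS_inj : Function.Injective valS := Subtype.val_injective
  have hvalcS : valS.comp cS = algebraMap A₁ (H70.HesField (H16.jK L1 N)) :=
    RingHom.ext fun a => rfl
  have hφ : ∀ a : A₁, res a = 0 → φ (cS a) = 0 := fun a ha => hφres a (hcint a) ha
  have htr' : ∀ s : A₁[X], φ (s.eval₂ cS jS) = 0 → s.map res = 0 := by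
    intro s hs
    have hcoe : valS (s.eval₂ cS jS) =
        aeval (algebraMap ↥(modularFunctionFieldFullC L1 N) (H70.HesField (H16.jK L1 N))
          (H16.jK L1 N)) s := by
      rw [Polynomial.hom_eval₂, hvalcS, aeval_def]
      rfl
    have hint : IsIntegral ↥(Algebra.adjoin A₁ {H16.jK L1 N})
        (aeval (algebraMap ↥(modularFunctionFieldFullC L1 N) (H70.HesField (H16.jK L1 N))
          (H16.jK L1 N)) s) := by
      rw [← hcoe]; exact (s.eval₂ cS jS).2
    have heq : s.eval₂ cS jS = ⟨_, hint⟩ := Subtype.ext hcoe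
    rw [heq] at hs
    exact htr s hint hs
  have hrootS : D.Φ.eval₂ (eval₂RingHom (Int.castRingHom _) jS) θS = 0 := by
    apply hvalS_inj
    rw [map_zero, Polynomial.hom_eval₂]
    have h1 : valS.comp (eval₂RingHom (Int.castRingHom _) jS) =
        (algebraMap ↥(modularFunctionFieldFullC L1 N) (H70.HesField (H16.jK L1 N))).comp
          (eval₂RingHom (Int.castRingHom ↥(modularFunctionFieldFullC L1 N)) (H16.jK L1 N)) := by
      apply int_polynomial_ringHom_ext
      rw [RingHom.comp_apply, RingHom.comp_apply, coe_eval₂RingHom, coe_eval₂RingHom, eval₂_X,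
        eval₂_X]
      rfl
    have h2 : valS θS = algebraMap ↥(modularFunctionFieldFullC L1 N)
        (H70.HesField (H16.jK L1 N)) (H16.jNK L1 N) := rfl
    rw [h1, h2, ← Polynomial.hom_eval₂,
      H3.eval₂_jNK_eq_zero N L1 D _ (by rw [coe_eval₂RingHom, eval₂_X]), map_zero]
  have hirr : Irreducible (D.Φ.map ((algebraMap k[X] (RatFunc k)).comp
      (mapRingHom (Int.castRingHom k)))) := hirrD k hNk
  have hrootb : D.Φ.eval₂ (eval₂RingHom (Int.castRingHom ↥(modularFunctionFieldFullC k N))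
      (H16.jK k N)) (H16.jNK k N) = 0 :=
    H3.eval₂_jNK_eq_zero N k D _ (by rw [coe_eval₂RingHom, eval₂_X])
  obtain ⟨ι, hιc, hιj, hιθ⟩ := exists_ringHom_of_reduction res hres cS φ hφ jS θS htr'
    (H16.jK k N) (H16.jNK k N) (H16.transcendental_jK k N) D.Φ hirr hrootb hrootS
    (H67.exists_repr_of_adjoin_eq_top _ _ (H16.isIntegral_jNK_gen N k hNk)
      (H16.adjoin_jNK_eq_top_gen N k hNk))
  obtain ⟨hμ0, hμlt, hμmax, hμpow⟩ := hunif hμint
  have h2κ : (2 : κ) = 0 := by
    have := hφ 2 (by rw [map_ofNat]; exact h2)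
    rwa [map_ofNat, map_ofNat] at this
  -- the Hesse relation
  have hrelS : 27 * (μS ^ 3 * (μS ^ 3 + 8) ^ 3) - jS * (μS ^ 3 - 1) ^ 3 = 0 := by
    apply hvalS_inj
    have h := H70.eval_hesMu (H16.jK L1 N)
    unfold H26.hesA H26.hesB at h
    simp only [map_sub, map_mul, map_pow, map_add, map_ofNat, map_one, map_zero]
    exact h
  have hrelκ : 27 * (φ μS ^ 3 * (φ μS ^ 3 + 8) ^ 3) - φ jS * (φ μS ^ 3 - 1) ^ 3 = 0 := by
    have h := congrArg φ hrelS
    simp only [map_sub, map_mul, map_pow, map_add, map_ofNat, map_one, map_zero] at h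
    exact h
  refine ⟨κ, hκ, ι, O, φ μS, CharTwo.of_one_ne_zero_of_two_eq_zero one_ne_zero h2κ, hOtop, hμ0,
    hμlt, hμmax, hμpow, sq_ne_of_max_lt_one O hμ0 hμlt hμmax, ?_, ?_, ?_, ?_⟩
  · rw [hιj]
    linear_combination (-1 : κ) * hrelκ +
      (φ jS * (3 * φ μS ^ 6 + 1) + 13 * φ μS ^ 12 +
        27 * φ μS ^ 3 * (12 * φ μS ^ 6 + 96 * φ μS ^ 3 + 256)) * h2κ
  · intro c
    obtain ⟨a, rfl⟩ := hres c
    rw [hιc]
    exact (ValuationSubring.valuation_le_one_iff O _).2 (hO _)
  · rw [hιj]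
    exact (ValuationSubring.valuation_le_one_iff O _).2 (hO _)
  · rw [hιθ]
    exact (ValuationSubring.valuation_le_one_iff O _).2 (hO _)

end Generic

/-! ### The concrete instance `A₁ = H45.A0 A 2` -/

section Concrete

variable (p : ℕ) [NeZero p]

set_option maxHeartbeats 4000000 in
set_option synthInstance.maxHeartbeats 400000 in
/-- **GEO-e, instance at `ℓ = 2`** for a valuation subring `A` of `Qbar` over `2`, residue field
`k = ResidueField A`, level `p` odd. -/
theorem exists_embedding_hesse_A0 (hp : ¬ 2 ∣ p) (A : ValuationSubring (AlgebraicClosure ℚ))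
    (hA : A.LiesOverPrime 2) :
    ∃ (κ : Type) (_ : Field κ)
      (ι' : ↥(modularFunctionFieldFullC (IsLocalRing.ResidueField A) p) →+* κ)
      (O : ValuationSubring κ) (μ : κ),
      CharP κ 2 ∧ O ≠ ⊤ ∧ μ ≠ 0 ∧ O.valuation μ < 1 ∧
      (∀ y : κ, O.valuation y < 1 → O.valuation y ≤ O.valuation μ) ∧
      (∀ y : κ, y ≠ 0 → ∃ m : ℤ, O.valuation y = O.valuation μ ^ m) ∧
      (∀ γ : O.ValueGroup, γ ^ 2 ≠ O.valuation μ) ∧
      ι' (H16.jK (IsLocalRing.ResidueField A) p) * (μ ^ 3 + 1) ^ 3 = μ ^ 12 ∧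
      (∀ c : IsLocalRing.ResidueField A, O.valuation (ι' (algebraMap (IsLocalRing.ResidueField A)
        ↥(modularFunctionFieldFullC (IsLocalRing.ResidueField A) p) c)) ≤ 1) ∧
      O.valuation (ι' (H16.jK (IsLocalRing.ResidueField A) p)) ≤ 1 ∧
      O.valuation (ι' (H16.jNK (IsLocalRing.ResidueField A) p)) ≤ 1 := by
  haveI : Fact (Nat.Prime 2) := ⟨Nat.prime_two⟩
  haveI hdvr : IsDiscreteValuationRing ↥(H45.A0 A 2) :=
    H45.isDiscreteValuationRing_A0 Nat.prime_two hA
  have hϖ : Irreducible (((2 : ℕ) : ↥(H45.A0 A 2))) := H45.irreducible_natCast_A0 Nat.prime_two hA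
  have h2 : (2 : IsLocalRing.ResidueField A) = 0 := by
    have := (H45.natCast_eq_zero_residueField_iff Nat.prime_two hA (n := 2)).mpr dvd_rfl
    exact_mod_cast this
  exact exists_embedding_hesse (A₁ := ↥(H45.A0 A 2)) (L1 := ↥(H45.unrCyclo 2)) p hϖ
    (H45.resA0 A 2) (H45.resA0_surjective Nat.prime_two hA)
    (H45.ker_resA0_eq_span Nat.prime_two hA)
    (H45.isUnit_three_A0 Nat.prime_two hA (by norm_num)) h2
    (H45.natCast_ne_zero_residueField Nat.prime_two hA hp) (H69.hunr_hesse p 2)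

set_option maxHeartbeats 4000000 in
set_option synthInstance.maxHeartbeats 400000 in
/-- **GEO-e, packaged**: for every odd level `p` there are an algebraically closed field `k` of
characteristic `2`, a field `κ ⊇ modularFunctionFieldFullC k p` of characteristic `2` and a
valuation subring `O ≠ ⊤` of `κ`, trivial on `k`, with `v J ≤ 1`, `v J_p ≤ 1`, and `μ ∈ κ` with
`J (μ³+1)³ = μ¹²` whose value is the largest value `< 1` (so it is not a square and generates the
value group).  This is the whole cover-side input of `H41.u2_core_nsq` / `H76.u2_core`. -/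
theorem exists_embedding_hesse_two (hp : ¬ 2 ∣ p) :
    ∃ (k : Type) (_ : Field k) (_ : CharP k 2) (_ : IsAlgClosed k) (κ : Type) (_ : Field κ)
      (ι' : ↥(modularFunctionFieldFullC k p) →+* κ) (O : ValuationSubring κ) (μ : κ),
      CharP κ 2 ∧ O ≠ ⊤ ∧ μ ≠ 0 ∧ O.valuation μ < 1 ∧
      (∀ y : κ, O.valuation y < 1 → O.valuation y ≤ O.valuation μ) ∧
      (∀ y : κ, y ≠ 0 → ∃ m : ℤ, O.valuation y = O.valuation μ ^ m) ∧
      (∀ γ : O.ValueGroup, γ ^ 2 ≠ O.valuation μ) ∧
      ι' (H16.jK k p) * (μ ^ 3 + 1) ^ 3 = μ ^ 12 ∧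
      (∀ c : k, O.valuation (ι' (algebraMap k ↥(modularFunctionFieldFullC k p) c)) ≤ 1) ∧
      O.valuation (ι' (H16.jK k p)) ≤ 1 ∧ O.valuation (ι' (H16.jNK k p)) ≤ 1 := by
  obtain ⟨A, hA⟩ := Fermat.Agent.S14.H54.exists_liesOverPrime_place Nat.prime_two
  haveI : Fact (Nat.Prime 2) := ⟨Nat.prime_two⟩
  obtain ⟨κ, hκ, ι', O, μ, h⟩ := exists_embedding_hesse_A0 p hp A hA
  exact ⟨IsLocalRing.ResidueField A, inferInstance, H45.charP_residueField Nat.prime_two hA,
    inferInstance, κ, hκ, ι', O, μ, h⟩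

end Concrete

end

end Fermat.Agent.S16.H41
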