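import Fermat.Agent.S16.H12_DeltaMod3

/-!
# The discriminant modulo 2 and modulo 4: `Δ = S + S²` in `𝔽₂⟦q⟧`

Twin of `H12_DeltaMod3`.  With `S = ∑ σ(k) q^k` and `D = q d/dq`, the integral series
`deltaPoly S` (`= Δ` by `cube_sub_sq_eq`) is congruent to `D²S` modulo `36`, hence modulo `4`,
and `D²S = S - S² = S + S²` modulo `2`.  Also: integrality facts on `deltaPoly S`
(constant coefficient `0`, coefficient of `q` equal to `1`).
-/

set_option autoImplicit false

namespace Fermat.Agent.S16.H12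

open PowerSeries

section Sigma

open ArithmeticFunction

/-- `σ(2j) ≡ σ(j) mod 2`. -/
theorem sigma_two_mul_mod_two (j : ℕ) : ((sigma 1 (2 * j) : ℕ) : ZMod 2) = (sigma 1 j : ℕ) := by
  rcases Nat.eq_zero_or_pos j with rfl | hj
  · simp
  have hsub : Nat.divisors j ⊆ Nat.divisors (2 * j) :=
    Nat.divisors_subset_of_dvd (by omega) (Dvd.intro_left 2 rfl)
  rw [sigma_one_apply, sigma_one_apply, ← Finset.sum_sdiff hsub, Nat.cast_add]
  have hzero : ((∑ d ∈ Nat.divisors (2 * j) \ Nat.divisors j, d : ℕ) : ZMod 2) = 0 := by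
    rw [Nat.cast_sum]
    refine Finset.sum_eq_zero fun d hd => ?_
    rw [Finset.mem_sdiff, Nat.mem_divisors, Nat.mem_divisors] at hd
    obtain ⟨⟨hd1, -⟩, hd2⟩ := hd
    have h2 : 2 ∣ d := by
      by_contra h2
      have hcop : Nat.Coprime d 2 := ((Nat.Prime.coprime_iff_not_dvd Nat.prime_two).mpr h2).symm
      exact hd2 ⟨hcop.dvd_of_dvd_mul_left hd1, hj.ne'⟩
    exact (ZMod.natCast_eq_zero_iff d 2).mpr h2
  rw [hzero, zero_add]

/-- `k² σ(k) ≡ σ(k) - [2 ∣ k] σ(k/2) mod 2`. -/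
theorem sq_mul_sigma_mod_two (k : ℕ) :
    ((k : ZMod 2) ^ 2 * ((sigma 1 k : ℕ) : ZMod 2)) =
      ((sigma 1 k : ℕ) : ZMod 2) - if 2 ∣ k then ((sigma 1 (k / 2) : ℕ) : ZMod 2) else 0 := by
  split_ifs with h
  · obtain ⟨j, rfl⟩ := h
    rw [Nat.mul_div_cancel_left j (by norm_num : 0 < 2), sigma_two_mul_mod_two, sub_self]
    have : ((2 * j : ℕ) : ZMod 2) = 0 := by
      rw [ZMod.natCast_eq_zero_iff]; exact Dvd.intro j rfl
    rw [this]; ring
  · rw [sub_zero]
    have hk : (k : ZMod 2) ≠ 0 := by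
      rw [Ne, ZMod.natCast_eq_zero_iff]; exact h
    have hone : (k : ZMod 2) = 1 := by
      have : Fact (Nat.Prime 2) := ⟨Nat.prime_two⟩
      have := ZMod.pow_card_sub_one_eq_one hk
      simpa using this
    rw [hone, one_pow, one_mul]

end Sigma

section Frobenius

/-- The square of a power series over `𝔽₂` is its `2`-expansion. -/
theorem pow_two_eq_expand (f : (ZMod 2)⟦X⟧) :
    f ^ 2 = PowerSeries.expand 2 (by norm_num) f := by
  ext n
  have h1 : coeff n (f ^ 2) = coeff n (((trunc (n + 1) f : Polynomial (ZMod 2)) : (ZMod 2)⟦X⟧) ^ 2) := by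
    rw [← coeff_coe_trunc_of_lt (Nat.lt_succ_self n) (f := f ^ 2), ← trunc_trunc_pow,
      coeff_coe_trunc_of_lt (Nat.lt_succ_self n)]
  have : Fact (Nat.Prime 2) := ⟨Nat.prime_two⟩
  rw [h1, ← Polynomial.coe_pow, ← ZMod.expand_card, Polynomial.coeff_coe, Polynomial.coeff_expand
    (by norm_num : 0 < 2), PowerSeries.coeff_expand]
  split_ifs with h
  · rw [coeff_trunc, if_pos]
    exact lt_of_le_of_lt (Nat.div_le_self n 2) (Nat.lt_succ_self n)
  · rfl

end Frobenius

section Main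

open ArithmeticFunction

/-- `D²S ≡ S - S² mod 2` for `S = ∑ σ(k) q^k`. -/
theorem map_qD_qD_sigmaSeries_two :
    (qD (qD (sigmaSeries 1))).map (Int.castRingHom (ZMod 2)) =
      (sigmaSeries 1).map (Int.castRingHom (ZMod 2)) -
        ((sigmaSeries 1).map (Int.castRingHom (ZMod 2))) ^ 2 := by
  ext k
  rw [pow_two_eq_expand, map_sub, coeff_map, coeff_qD, coeff_qD, PowerSeries.coeff_expand,
    coeff_map, coeff_sigmaSeries]
  have h := sq_mul_sigma_mod_two k
  simp only [map_mul, map_natCast]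
  rw [← mul_assoc, ← pow_two, h]
  congr 1
  split_ifs with h2
  · rw [coeff_map, coeff_sigmaSeries]; simp
  · rfl

/-- The integral `q`-series `deltaPoly S` (`= Δ`) reduces modulo `2` to `S - S²`. -/
theorem map_deltaPoly_sigmaSeries_two :
    (deltaPoly (sigmaSeries 1)).map (Int.castRingHom (ZMod 2)) =
      (sigmaSeries 1).map (Int.castRingHom (ZMod 2)) -
        ((sigmaSeries 1).map (Int.castRingHom (ZMod 2))) ^ 2 := by
  rw [deltaPoly_eq, map_add, map_mul, map_qD_qD_sigmaSeries_two]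
  have h36 : (36 : ℤ⟦X⟧).map (Int.castRingHom (ZMod 2)) = 0 := by
    have : (36 : ℤ⟦X⟧) = C (36 : ℤ) := by simp
    rw [this, map_C]
    have : (Int.castRingHom (ZMod 2)) 36 = 0 := by decide
    rw [this, _root_.map_zero]
  rw [h36, zero_mul, add_zero]

/-- The same in any commutative ring of characteristic `2`. -/
theorem map_deltaPoly_sigmaSeries_of_charP_two (k : Type*) [CommRing k] [CharP k 2] :
    (deltaPoly (sigmaSeries 1)).map (Int.castRingHom k) =
      (sigmaSeries 1).map (Int.castRingHom k) - ((sigmaSeries 1).map (Int.castRingHom k)) ^ 2 := by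
  have hφ : Int.castRingHom k = (ZMod.castHom (dvd_refl 2) k).comp (Int.castRingHom (ZMod 2)) :=
    RingHom.ext_int _ _
  have hmap : ∀ f : ℤ⟦X⟧, f.map (Int.castRingHom k) =
      (f.map (Int.castRingHom (ZMod 2))).map (ZMod.castHom (dvd_refl 2) k) := by
    intro f
    ext n
    rw [coeff_map, coeff_map, coeff_map, hφ, RingHom.comp_apply]
  rw [hmap (deltaPoly (sigmaSeries 1)), hmap (sigmaSeries 1), map_deltaPoly_sigmaSeries_two, map_sub,
    map_pow]

/-- In characteristic `2`, in the additive form `Δ = S + S²`. -/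
theorem map_deltaPoly_sigmaSeries_of_charP_two' (k : Type*) [CommRing k] [CharP k 2] :
    (deltaPoly (sigmaSeries 1)).map (Int.castRingHom k) =
      (sigmaSeries 1).map (Int.castRingHom k) + ((sigmaSeries 1).map (Int.castRingHom k)) ^ 2 := by
  rw [map_deltaPoly_sigmaSeries_of_charP_two, sub_eq_add_neg]
  congr 1
  ext n
  rw [map_neg]
  exact CharTwo.neg_eq _

/-- Uniqueness: any integral series `Δ` with `1728 Δ = E₄³ - E₆²` reduces to `S + S²`
modulo `2`. -/
theorem map_eq_of_mul_eq_two (h1 : 12 * qD eisP = eisP ^ 2 - eisQ)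
    (h2 : 3 * qD eisQ = eisP * eisQ - eisR) (Δ : ℤ⟦X⟧) (hΔ : 1728 * Δ = eisQ ^ 3 - eisR ^ 2)
    (k : Type*) [CommRing k] [CharP k 2] :
    Δ.map (Int.castRingHom k) =
      (sigmaSeries 1).map (Int.castRingHom k) + ((sigmaSeries 1).map (Int.castRingHom k)) ^ 2 := by
  have h : (1728 : ℤ⟦X⟧) * Δ = 1728 * deltaPoly (sigmaSeries 1) := by
    rw [hΔ, eisQ_cube_sub_eisR_sq h1 h2]
  have hΔ' : Δ = deltaPoly (sigmaSeries 1) := by
    ext n
    have hn := congrArg (coeff n) h
    have h1728 : (1728 : ℤ⟦X⟧) = C (1728 : ℤ) := by simp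
    rw [h1728, coeff_C_mul, coeff_C_mul] at hn
    exact mul_left_cancel₀ (by norm_num) hn
  rw [hΔ', map_deltaPoly_sigmaSeries_of_charP_two']

/-- Any integral `Δ` with `1728 Δ = E₄³ - E₆²` equals `deltaPoly S`. -/
theorem eq_deltaPoly_of_mul_eq (h1 : 12 * qD eisP = eisP ^ 2 - eisQ)
    (h2 : 3 * qD eisQ = eisP * eisQ - eisR) (Δ : ℤ⟦X⟧) (hΔ : 1728 * Δ = eisQ ^ 3 - eisR ^ 2) :
    Δ = deltaPoly (sigmaSeries 1) := by
  have h : (1728 : ℤ⟦X⟧) * Δ = 1728 * deltaPoly (sigmaSeries 1) := by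
    rw [hΔ, eisQ_cube_sub_eisR_sq h1 h2]
  ext n
  have hn := congrArg (coeff n) h
  have h1728 : (1728 : ℤ⟦X⟧) = C (1728 : ℤ) := by simp
  rw [h1728, coeff_C_mul, coeff_C_mul] at hn
  exact mul_left_cancel₀ (by norm_num) hn

end Main

section Integrality

variable {R : Type*} [CommRing R]

theorem constantCoeff_qD (f : R⟦X⟧) : constantCoeff (qD f) = 0 := by
  rw [← coeff_zero_eq_constantCoeff_apply, coeff_qD]; simp

/-- If `S` has constant coefficient `0` then so has `deltaPoly S`. -/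
theorem constantCoeff_deltaPoly (S : R⟦X⟧) : constantCoeff (deltaPoly S) = 0 := by
  unfold deltaPoly
  simp only [map_add, map_sub, map_mul, map_pow, constantCoeff_qD]
  ring

/-- The coefficient of `q` in `deltaPoly S` is the coefficient of `q` in `S`
(when `S` has constant coefficient `0`). -/
theorem coeff_one_deltaPoly (S : R⟦X⟧) (hS : constantCoeff S = 0) :
    coeff 1 (deltaPoly S) = coeff 1 S := by
  have hX : ∀ f : R⟦X⟧, constantCoeff f = 0 → ∀ g : R⟦X⟧, constantCoeff g = 0 →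
      coeff 1 (f * g) = 0 := by
    intro f hf g hg
    rw [coeff_mul]
    refine Finset.sum_eq_zero fun x hx => ?_
    have hx := Finset.HasAntidiagonal.mem_antidiagonal.mp hx
    rcases Nat.eq_zero_or_pos x.1 with h0 | h0
    · rw [h0, coeff_zero_eq_constantCoeff_apply, hf, zero_mul]
    · have : x.2 = 0 := by omega
      rw [this, coeff_zero_eq_constantCoeff_apply, hg, mul_zero]
  have hD := constantCoeff_qD S
  have hDD := constantCoeff_qD (qD S)
  have c1 : coeff 1 (qD (qD S)) = coeff 1 S := by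
    rw [coeff_qD, coeff_qD]; simp
  have hcm : ∀ f g : R⟦X⟧, constantCoeff f = 0 → constantCoeff (f * g) = 0 := by
    intro f g hf; rw [map_mul, hf, zero_mul]
  have hcm' : ∀ f g : R⟦X⟧, constantCoeff g = 0 → constantCoeff (f * g) = 0 := by
    intro f g hg; rw [map_mul, hg, mul_zero]
  unfold deltaPoly
  simp only [map_add, map_sub]
  rw [c1]
  have e1 : coeff 1 (36 * qD S ^ 2) = 0 := by
    rw [pow_two, ← mul_assoc]; exact hX _ (hcm' _ _ hD) _ hD
  have e2 : coeff 1 (72 * S * qD (qD S)) = 0 := hX _ (hcm' _ _ hS) _ hDD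
  have e3 : coeff 1 (432 * qD (qD S) ^ 2) = 0 := by
    rw [pow_two, ← mul_assoc]; exact hX _ (hcm' _ _ hDD) _ hDD
  have e4 : coeff 1 (432 * qD S * qD (qD S)) = 0 := hX _ (hcm' _ _ hD) _ hDD
  have e5 : coeff 1 (13824 * qD S ^ 3) = 0 := by
    rw [pow_succ, ← mul_assoc]; exact hX _ (hcm' _ _ (by rw [map_pow, hD]; simp)) _ hD
  have e6 : coeff 1 (10368 * S * qD S * qD (qD S)) = 0 :=
    hX _ (hcm' _ _ hD) _ hDD
  have e7 : coeff 1 (1728 * S * qD S ^ 2) = 0 :=
    hX _ (hcm' _ _ hS) _ (by rw [map_pow, hD]; simp)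
  have e8 : coeff 1 (1728 * S ^ 2 * qD (qD S)) = 0 :=
    hX _ (hcm' _ _ (by rw [map_pow, hS]; simp)) _ hDD
  have e9 : coeff 1 (20736 * S ^ 2 * qD S ^ 2) = 0 :=
    hX _ (hcm' _ _ (by rw [map_pow, hS]; simp)) _ (by rw [map_pow, hD]; simp)
  have e10 : coeff 1 (13824 * S ^ 3 * qD (qD S)) = 0 :=
    hX _ (hcm' _ _ (by rw [map_pow, hS]; simp)) _ hDD
  rw [e1, e2, e3, e4, e5, e6, e7, e8, e9, e10]
  ring

theorem constantCoeff_sigmaSeries (j : ℕ) : constantCoeff (sigmaSeries j) = 0 := by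
  rw [← coeff_zero_eq_constantCoeff_apply, coeff_sigmaSeries]; simp

/-- The integral discriminant series starts `q + …`. -/
theorem coeff_one_deltaPoly_sigmaSeries : coeff 1 (deltaPoly (sigmaSeries 1)) = 1 := by
  rw [coeff_one_deltaPoly _ (constantCoeff_sigmaSeries 1), coeff_sigmaSeries]; simp

/-- `deltaPoly S = q * u` with `u` a unit of `ℤ⟦q⟧` (constant coefficient `1`). -/
theorem exists_deltaPoly_eq_X_mul :
    ∃ u : ℤ⟦X⟧, constantCoeff u = 1 ∧ deltaPoly (sigmaSeries 1) = X * u := by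
  have h0 : constantCoeff (deltaPoly (sigmaSeries 1)) = 0 := constantCoeff_deltaPoly _
  obtain ⟨u, hu⟩ := (X_dvd_iff).mpr h0
  refine ⟨u, ?_, hu⟩
  have := coeff_one_deltaPoly_sigmaSeries
  rw [hu, show (1 : ℕ) = 0 + 1 from rfl, coeff_succ_X_mul,
    coeff_zero_eq_constantCoeff_apply] at this
  exact this

end Integrality

end Fermat.Agent.S16.H12
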