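import Fermat.Agent.S16.H83_QSeries
import Fermat.Agent.S16.H95_LevelOneStructure
import Fermat.Agent.S16.H12_DeltaMod2

/-!
# The discriminant `q`-expansion, unconditionally

Bridge between the three landed vocabularies for the level-one `q`-series
(`H12.eisP/eisQ/eisR`, `H83.Pser/Qser/Rser`, `H95.e4Z/e6Z`), the formal Ramanujan identities in
the `H12` shapes, and the consequences:
`E₄³ - E₆² = 1728 * deltaPoly S` in `ℤ⟦q⟧`,
`qExpansion 1 Δ = (deltaPoly S).map (Int.castRingHom ℂ)`,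
hence `Δ = S - S³` modulo `3`, `Δ = S + S²` modulo `2`, `Δ = q * unit` over `ℤ`.
-/

set_option autoImplicit false

namespace Fermat.Agent.S16.H12

open PowerSeries

section Bridge

theorem theta_eq_qD {A : Type*} [CommRing A] (f : A⟦X⟧) : H83.theta f = qD f := by
  ext n
  rw [H83.coeff_theta, coeff_qD]

theorem eisP_eq_Pser : eisP = H83.Pser ℤ := by
  ext n
  rw [H83.coeff_eisSer]
  unfold eisP
  rw [map_sub, coeff_one]
  have h24 : (24 : ℤ⟦X⟧) = C (24 : ℤ) := by simp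
  rw [h24, coeff_C_mul, coeff_sigmaSeries]
  split_ifs with h
  · subst h; simp
  · simp

theorem eisQ_eq_Qser : eisQ = H83.Qser ℤ := by
  ext n
  rw [H83.coeff_eisSer]
  unfold eisQ
  rw [map_add, coeff_one]
  have h240 : (240 : ℤ⟦X⟧) = C (240 : ℤ) := by simp
  rw [h240, coeff_C_mul, coeff_sigmaSeries]
  split_ifs with h
  · subst h; simp
  · simp

theorem eisR_eq_Rser : eisR = H83.Rser ℤ := by
  ext n
  rw [H83.coeff_eisSer]
  unfold eisR
  rw [map_sub, coeff_one]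
  have h504 : (504 : ℤ⟦X⟧) = C (504 : ℤ) := by simp
  rw [h504, coeff_C_mul, coeff_sigmaSeries]
  split_ifs with h
  · subst h; simp
  · simp

theorem eisQ_eq_e4Z : eisQ = H95.e4Z := by
  ext n
  unfold eisQ H95.e4Z
  rw [map_add, coeff_one, coeff_mk]
  have h240 : (240 : ℤ⟦X⟧) = C (240 : ℤ) := by simp
  rw [h240, coeff_C_mul, coeff_sigmaSeries]
  split_ifs with h
  · subst h; simp
  · simp

theorem eisR_eq_e6Z : eisR = H95.e6Z := by
  ext n
  unfold eisR H95.e6Z
  rw [map_sub, coeff_one, coeff_mk]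
  have h504 : (504 : ℤ⟦X⟧) = C (504 : ℤ) := by simp
  rw [h504, coeff_C_mul, coeff_sigmaSeries]
  split_ifs with h
  · subst h; simp
  · simp

end Bridge

section Ramanujan

/-- Ramanujan: `12 θP = P² - Q` in `ℤ⟦q⟧`. -/
theorem ramanujan_h1 : 12 * qD eisP = eisP ^ 2 - eisQ := by
  have h := H83.ramanujan_P_int
  rw [theta_eq_qD, ← eisP_eq_Pser, ← eisQ_eq_Qser] at h
  have h12 : (12 : ℤ⟦X⟧) = C (12 : ℤ) := by simp
  rw [h12, h, pow_two]

/-- Ramanujan: `3 θQ = PQ - R` in `ℤ⟦q⟧`. -/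
theorem ramanujan_h2 : 3 * qD eisQ = eisP * eisQ - eisR := by
  have h := H83.ramanujan_Q_int
  rw [theta_eq_qD, ← eisP_eq_Pser, ← eisQ_eq_Qser, ← eisR_eq_Rser] at h
  have h3 : (3 : ℤ⟦X⟧) = C (3 : ℤ) := by simp
  rw [h3, h]

/-- Ramanujan: `2 θR = PR - Q²` in `ℤ⟦q⟧`. -/
theorem ramanujan_h3 : 2 * qD eisR = eisP * eisR - eisQ ^ 2 := by
  have h := H83.ramanujan_R_int
  rw [theta_eq_qD, ← eisP_eq_Pser, ← eisQ_eq_Qser, ← eisR_eq_Rser] at h
  have h2 : (2 : ℤ⟦X⟧) = C (2 : ℤ) := by simp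
  rw [h2, h, pow_two]

/-- **`E₄³ - E₆² = 1728 Δ` with `Δ = deltaPoly S ∈ ℤ⟦q⟧`, unconditionally.** -/
theorem eisQ_cube_sub_eisR_sq_eq : eisQ ^ 3 - eisR ^ 2 = 1728 * deltaPoly (sigmaSeries 1) :=
  eisQ_cube_sub_eisR_sq ramanujan_h1 ramanujan_h2

theorem e4Z_cube_sub_e6Z_sq_eq :
    H95.e4Z ^ 3 - H95.e6Z ^ 2 = 1728 * deltaPoly (sigmaSeries 1) := by
  rw [← eisQ_eq_e4Z, ← eisR_eq_e6Z]; exact eisQ_cube_sub_eisR_sq_eq

/-- Any integral series `Δ` with `1728 Δ = E₄³ - E₆²` is `deltaPoly S`. -/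
theorem eq_deltaPoly_of_mul_eq' (Δ : ℤ⟦X⟧) (hΔ : 1728 * Δ = eisQ ^ 3 - eisR ^ 2) :
    Δ = deltaPoly (sigmaSeries 1) :=
  eq_deltaPoly_of_mul_eq ramanujan_h1 ramanujan_h2 Δ hΔ

end Ramanujan

section Discriminant

open ModularForm ModularFormClass UpperHalfPlane

/-- **The `q`-expansion of the discriminant is the integral series `deltaPoly S`.** -/
theorem qExpansion_discriminant_eq :
    qExpansion 1 ModularForm.discriminant =
      (deltaPoly (sigmaSeries 1)).map (Int.castRingHom ℂ) := by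
  rw [H95.qExpansion_discriminant, H95.ev_disc]
  have h : H95.e4 ℂ ^ 3 - H95.e6 ℂ ^ 2 =
      (H95.e4Z ^ 3 - H95.e6Z ^ 2).map (Int.castRingHom ℂ) := by
    unfold H95.e4 H95.e6
    rw [map_sub, map_pow, map_pow]
  rw [h, e4Z_cube_sub_e6Z_sq_eq, map_mul]
  have h1728 : (1728 : ℤ⟦X⟧).map (Int.castRingHom ℂ) = C (1728 : ℂ) := by
    have : (1728 : ℤ⟦X⟧) = C (1728 : ℤ) := by simp
    rw [this, map_C]; simp
  rw [h1728]
  ext n
  rw [coeff_smul, coeff_C_mul, smul_eq_mul]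
  ring

/-- Coefficientwise: the `q`-coefficients of `Δ` are the integers `coeff n (deltaPoly S)`. -/
theorem coeff_qExpansion_discriminant (n : ℕ) :
    coeff n (qExpansion 1 ModularForm.discriminant) =
      ((coeff n (deltaPoly (sigmaSeries 1)) : ℤ) : ℂ) := by
  rw [qExpansion_discriminant_eq, coeff_map]; rfl

/-- Reduction of the discriminant `q`-expansion along any ring hom `φ : 𝒪 → κ` from a subring of
`ℂ` to a ring of characteristic `3`: `Δ̄ = S̄ - S̄³`. -/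
theorem reduction_discriminant_three (𝒪 : Subring ℂ) {κ : Type*} [CommRing κ] [CharP κ 3]
    (φ : 𝒪 →+* κ) (D : 𝒪⟦X⟧)
    (hD : D.map 𝒪.subtype = qExpansion 1 ModularForm.discriminant) :
    D.map φ = (sigmaSeries 1).map (Int.castRingHom κ) -
      ((sigmaSeries 1).map (Int.castRingHom κ)) ^ 3 := by
  have hD' : D = (deltaPoly (sigmaSeries 1)).map (Int.castRingHom 𝒪) := by
    ext n
    have := congrArg (coeff n) hD
    rw [coeff_map, coeff_qExpansion_discriminant] at this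
    rw [coeff_map]
    simpa using this
  rw [hD', ← map_deltaPoly_sigmaSeries_of_charP κ]
  ext n
  rw [coeff_map, coeff_map, coeff_map]
  simp

/-- The same in characteristic `2`: `Δ̄ = S̄ + S̄²`. -/
theorem reduction_discriminant_two (𝒪 : Subring ℂ) {κ : Type*} [CommRing κ] [CharP κ 2]
    (φ : 𝒪 →+* κ) (D : 𝒪⟦X⟧)
    (hD : D.map 𝒪.subtype = qExpansion 1 ModularForm.discriminant) :
    D.map φ = (sigmaSeries 1).map (Int.castRingHom κ) +
      ((sigmaSeries 1).map (Int.castRingHom κ)) ^ 2 := by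
  have hD' : D = (deltaPoly (sigmaSeries 1)).map (Int.castRingHom 𝒪) := by
    ext n
    have := congrArg (coeff n) hD
    rw [coeff_map, coeff_qExpansion_discriminant] at this
    rw [coeff_map]
    simpa using this
  rw [hD', ← map_deltaPoly_sigmaSeries_of_charP_two' κ]
  ext n
  rw [coeff_map, coeff_map, coeff_map]
  simp

end Discriminant

end Fermat.Agent.S16.H12
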