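/-
S16, package (E-Q): the `q`-expansion of the weight-2 Eisenstein series of level `Γ₀(N)`
(`eisRaw N` of `H14_EisensteinForm`), and its normalisation
`eis p = (p-1)/24 + ∑_{k ≥ 1} σ'(k) q^k` for `p` prime, `σ'(k)` the sum of the divisors of `k`
prime to `p`.
-/
import Mathlib
import Fermat.Agent.S16.H14_EisensteinForm

set_option autoImplicit false

open UpperHalfPlane CongruenceSubgroup ModularForm Matrix Filter EisensteinSeries
open scoped MatrixGroups ModularForm Manifold Pointwise Real ArithmeticFunction.sigma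

namespace Fermat.Agent.S16.H14

noncomputable section

open Fermat.Agent.S23.H85
open P2MW.S_UpperHalfPlane_qCoeff_heckeT.M4cP1W2

/-- The `q`-coefficients of `E2`: `1, -24 σ₁(1), -24 σ₁(2), …`. -/
def coeffE2 (m : ℕ) : ℂ := if m = 0 then 1 else -24 * (σ 1 m : ℂ)

/-- The `q`-coefficients of `E2(z) - N E2(N z)`. -/
def eisRawCoeff (N m : ℕ) : ℂ :=
  coeffE2 m - if N ∣ m then (N : ℂ) * coeffE2 (m / N) else 0

theorem hasSum_E2_qParam (z : ℍ) :
    HasSum (fun m : ℕ => coeffE2 m • Function.Periodic.qParam 1 z ^ m) (E2 z) := by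
  simpa only [Function.Periodic.qParam, Complex.ofReal_one, div_one, coeffE2] using
    hasSum_qExpansion_E2 (z := z)

section

variable (N : ℕ) [NeZero N]

theorem hasSum_E2_diag (z : ℍ) :
    HasSum (fun m : ℕ => (if N ∣ m then (N : ℂ) * coeffE2 (m / N) else 0) •
      Function.Periodic.qParam 1 z ^ m) ((N : ℂ) * E2 (heckeDiagMatrix N • z)) := by
  have hN : N ≠ 0 := NeZero.ne N
  have hD := (hasSum_E2_qParam (heckeDiagMatrix N • z)).mul_left (N : ℂ)
  rw [qParam_heckeDiagMatrix_smul hN z] at hD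
  have hinj : Function.Injective (fun l : ℕ ↦ l * N) := mul_left_injective₀ hN
  refine (hinj.hasSum_iff (fun m hm => ?_)).mp ?_
  · have : ¬ N ∣ m := fun ⟨l, hl⟩ => hm ⟨l, by simp [hl, mul_comm]⟩
    simp [this]
  · have e : ((fun m : ℕ => (if N ∣ m then (N : ℂ) * coeffE2 (m / N) else 0) •
        Function.Periodic.qParam 1 z ^ m) ∘ fun l : ℕ ↦ l * N) =
        fun i => (N : ℂ) * coeffE2 i • (Function.Periodic.qParam 1 (z : ℂ) ^ N) ^ i := by
      funext l
      simp only [Function.comp_apply, if_pos (dvd_mul_left N l),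
        Nat.mul_div_cancel _ (Nat.pos_of_ne_zero hN), smul_eq_mul]
      rw [← pow_mul, mul_comm l N, mul_assoc]
    rw [e]
    exact hD

/-- **`q`-expansion of `E2(z) - N E2(N z)`**, `HasSum` form. -/
theorem hasSum_eisRaw (z : ℍ) :
    HasSum (fun m : ℕ => eisRawCoeff N m • Function.Periodic.qParam 1 z ^ m) (eisRaw N z) := by
  rw [eisRaw_apply]
  have e : (fun m : ℕ => eisRawCoeff N m • Function.Periodic.qParam 1 z ^ m) =
      fun m : ℕ => coeffE2 m • Function.Periodic.qParam 1 z ^ m -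
        (if N ∣ m then (N : ℂ) * coeffE2 (m / N) else 0) • Function.Periodic.qParam 1 z ^ m := by
    funext m
    simp only [eisRawCoeff, sub_smul]
  rw [e]
  exact (hasSum_E2_qParam z).sub (hasSum_E2_diag N z)

/-- **`q`-expansion of `E2(z) - N E2(N z)`**, coefficient form. -/
theorem qCoeff_eisRaw (m : ℕ) :
    ModularFormClass.qCoeff (eisRaw N) m = eisRawCoeff N m :=
  (qExpansion_coeff_unique' (ModularFormClass.holo (eisRaw N)).continuous
    (ModularFormClass.analyticAt_cuspFunction_zero (eisRaw N) one_pos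
      (CongruenceSubgroup.one_mem_strictPeriods_Gamma0 N)) (hasSum_eisRaw N) m).symm

theorem qCoeff_eisRaw_zero : ModularFormClass.qCoeff (eisRaw N) 0 = 1 - (N : ℂ) := by
  rw [qCoeff_eisRaw]
  simp [eisRawCoeff, coeffE2]

theorem qCoeff_eisRaw_of_pos {m : ℕ} (hm : 0 < m) :
    ModularFormClass.qCoeff (eisRaw N) m =
      -24 * ((σ 1 m : ℂ) - if N ∣ m then (N : ℂ) * (σ 1 (m / N) : ℂ) else 0) := by
  rw [qCoeff_eisRaw, eisRawCoeff, coeffE2, if_neg hm.ne']
  split_ifs with h
  · have : m / N ≠ 0 := by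
      obtain ⟨l, rfl⟩ := h
      rw [Nat.mul_div_cancel_left _ (Nat.pos_of_ne_zero (NeZero.ne N))]
      rintro rfl
      simp at hm
    rw [coeffE2, if_neg this]
    ring
  · ring

end

/-! ### Arithmetic of the coefficients -/

/-- The divisors of `m` divisible by `N` are `N * e`, `e ∣ m / N`. No primality needed. -/
theorem sum_divisors_filter_dvd (N m : ℕ) (hN : 0 < N) (hm : 0 < m) :
    ∑ d ∈ m.divisors.filter (fun d => N ∣ d), d = if N ∣ m then N * σ 1 (m / N) else 0 := by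
  split_ifs with h
  · obtain ⟨m', rfl⟩ := h
    have hm' : 0 < m' := Nat.pos_of_mul_pos_left hm
    rw [Nat.mul_div_cancel_left _ hN, ArithmeticFunction.sigma_one_apply, Finset.mul_sum]
    have : (N * m').divisors.filter (fun d => N ∣ d) = m'.divisors.image (fun e => N * e) := by
      ext d
      simp only [Finset.mem_filter, Nat.mem_divisors, Finset.mem_image]
      constructor
      · rintro ⟨⟨hd, _⟩, e, rfl⟩
        exact ⟨e, ⟨(Nat.mul_dvd_mul_iff_left hN).mp hd, hm'.ne'⟩, rfl⟩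
      · rintro ⟨e, ⟨he, _⟩, rfl⟩
        exact ⟨⟨Nat.mul_dvd_mul_left N he, (Nat.mul_pos hN hm').ne'⟩, dvd_mul_right N e⟩
    rw [this, Finset.sum_image (fun a _ b _ hab => Nat.eq_of_mul_eq_mul_left hN hab)]
  · apply Finset.sum_eq_zero
    intro d hd
    simp only [Finset.mem_filter, Nat.mem_divisors] at hd
    exact absurd (hd.2.trans hd.1.1) h

/-- `σ₁(m) = σ'(m) + N σ₁(m/N)[N ∣ m]`, where `σ'(m)` is the sum of the divisors of `m` not
divisible by `N`. -/
theorem sigma_one_eq_add (N m : ℕ) (hN : 0 < N) (hm : 0 < m) :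
    σ 1 m = (∑ d ∈ m.divisors.filter (fun d => ¬ N ∣ d), d) +
      if N ∣ m then N * σ 1 (m / N) else 0 := by
  rw [← sum_divisors_filter_dvd N m hN hm, ArithmeticFunction.sigma_one_apply, add_comm]
  exact (Finset.sum_filter_add_sum_filter_not _ _ _).symm

section

variable (N : ℕ) [NeZero N]

/-- For `m ≥ 1` the `m`-th `q`-coefficient of `E2(z) - N E2(N z)` is `-24 σ'(m)`, `σ'(m)` the sum
of the divisors of `m` not divisible by `N` (for `N = p` prime: prime to `p`). -/
theorem qCoeff_eisRaw_of_pos' {m : ℕ} (hm : 0 < m) :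
    ModularFormClass.qCoeff (eisRaw N) m =
      -24 * ((∑ d ∈ m.divisors.filter (fun d => ¬ N ∣ d), d : ℕ) : ℂ) := by
  rw [qCoeff_eisRaw_of_pos N hm, sigma_one_eq_add N m (Nat.pos_of_ne_zero (NeZero.ne N)) hm]
  split_ifs <;> push_cast <;> ring

/-- **The Eisenstein series** `E_N = (N-1)/24 + ∑_{m ≥ 1} σ'(m) q^m` of weight `2` and level
`Γ₀(N)`: `(-1/24) • (E2(z) - N E2(N z))`. -/
def eis : ModularForm ((Gamma0 N).map (SpecialLinearGroup.mapGL ℝ)) 2 :=
  (-1 / 24 : ℂ) • eisRaw N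

theorem eis_apply (z : ℍ) : eis N z = (-1 / 24 : ℂ) * eisRaw N z := rfl

theorem eis_apply' (z : ℍ) :
    eis N z = ((N : ℂ) * E2 (heckeDiagMatrix N • z) - E2 z) / 24 := by
  rw [eis_apply, eisRaw_apply]; ring

theorem hasSum_eis (z : ℍ) :
    HasSum (fun m : ℕ => ((-1 / 24 : ℂ) * eisRawCoeff N m) • Function.Periodic.qParam 1 z ^ m)
      (eis N z) := by
  rw [eis_apply]
  have := (hasSum_eisRaw N z).mul_left (-1 / 24 : ℂ)
  simpa only [smul_eq_mul, mul_assoc] using this

theorem qCoeff_eis (m : ℕ) :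
    ModularFormClass.qCoeff (eis N) m = (-1 / 24 : ℂ) * ModularFormClass.qCoeff (eisRaw N) m := by
  rw [qCoeff_eisRaw]
  exact (qExpansion_coeff_unique' (ModularFormClass.holo (eis N)).continuous
    (ModularFormClass.analyticAt_cuspFunction_zero (eis N) one_pos
      (CongruenceSubgroup.one_mem_strictPeriods_Gamma0 N)) (hasSum_eis N) m).symm

/-- Constant term: `a₀(E_N) = (N-1)/24`. -/
theorem qCoeff_eis_zero : ModularFormClass.qCoeff (eis N) 0 = ((N : ℂ) - 1) / 24 := by
  rw [qCoeff_eis, qCoeff_eisRaw_zero]; ring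

/-- Higher terms: `a_m(E_N) = σ'(m)` for `m ≥ 1`. -/
theorem qCoeff_eis_of_pos {m : ℕ} (hm : 0 < m) :
    ModularFormClass.qCoeff (eis N) m =
      ((∑ d ∈ m.divisors.filter (fun d => ¬ N ∣ d), d : ℕ) : ℂ) := by
  rw [qCoeff_eis, qCoeff_eisRaw_of_pos' N hm]; ring

/-- Fricke involution for `eis`. -/
theorem eis_fricke (z w : ℍ) (hw : (w : ℂ) = -1 / ((N : ℂ) * (z : ℂ))) :
    eis N w = -(N : ℂ) * (z : ℂ) ^ 2 * eis N z := by
  rw [eis_apply, eis_apply, eisRaw_fricke N z w hw]; ring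

/-- The `q`-coefficients of `E_N - f` for a cusp form `f` (the `F` of the (U)-arguments). -/
theorem qCoeff_eis_sub (f : CuspForm ((Gamma0 N).map (SpecialLinearGroup.mapGL ℝ)) 2) (m : ℕ) :
    ModularFormClass.qCoeff ((eis N : ℍ → ℂ) - (f : ℍ → ℂ)) m =
      ModularFormClass.qCoeff (eis N) m - ModularFormClass.qCoeff f m := by
  unfold ModularFormClass.qCoeff
  rw [ModularForm.qExpansion_sub one_pos (CongruenceSubgroup.one_mem_strictPeriods_Gamma0 N)
    (eis N) f]
  simp

end

end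

end Fermat.Agent.S16.H14
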