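/-
S16, package (E): bridges between the two landed versions of the level-`N` Eisenstein series
(`H14.eisRaw`/`H14.eis` and `H49.eisTwo`) and helper52's `sigmaP`.
-/
import Mathlib
import Fermat.Agent.S16.H14_EisensteinQ
import Fermat.Agent.S16.H49_EisensteinForm
import Fermat.Agent.S16.H52_SigmaP

set_option autoImplicit false

open UpperHalfPlane CongruenceSubgroup ModularForm Matrix EisensteinSeries
open scoped MatrixGroups ModularForm

namespace Fermat.Agent.S16.H14

noncomputable section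

variable (N : ℕ) [NeZero N]

/-- The two ways of writing `N z` agree. -/
theorem diag_smul_eq_scaleH (z : ℍ) : heckeDiagMatrix N • z = H49.scaleH N z :=
  UpperHalfPlane.ext (by rw [coe_diag_smul]; rfl)

/-- `H49.eisTwo N` and `H14.eisRaw N` are the same function. -/
theorem coe_eisTwo_eq_coe_eisRaw : (H49.eisTwo N : ℍ → ℂ) = (eisRaw N : ℍ → ℂ) := by
  funext z
  rw [H49.eisTwo_apply, eisRaw_apply, diag_smul_eq_scaleH]

/-- `H49.eisTwo N` and `H14.eisRaw N` are the same modular form. -/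
theorem eisTwo_eq_eisRaw : H49.eisTwo N = eisRaw N :=
  DFunLike.coe_injective (coe_eisTwo_eq_coe_eisRaw N)

/-- `a_m(E_N) = σ'_N(m)` with helper52's `sigmaP`. -/
theorem qCoeff_eis_eq_sigmaP {m : ℕ} (hm : 0 < m) :
    ModularFormClass.qCoeff (eis N) m = ((H52.sigmaP N m : ℕ) : ℂ) :=
  qCoeff_eis_of_pos N hm

/-- `σ₁(m) = σ'_N(m) + N σ₁(m/N)[N ∣ m]` with helper52's `sigmaP`. -/
theorem sigma_one_eq_sigmaP_add (m : ℕ) (hm : 0 < m) :
    ArithmeticFunction.sigma 1 m = H52.sigmaP N m +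
      if N ∣ m then N * ArithmeticFunction.sigma 1 (m / N) else 0 :=
  sigma_one_eq_add N m (Nat.pos_of_ne_zero (NeZero.ne N)) hm

/-- Fricke involution for `H49.eisTwo`. -/
theorem eisTwo_fricke (z w : ℍ) (hw : (w : ℂ) = -1 / ((N : ℂ) * (z : ℂ))) :
    H49.eisTwo N w = -(N : ℂ) * (z : ℂ) ^ 2 * H49.eisTwo N z := by
  rw [eisTwo_eq_eisRaw]
  exact eisRaw_fricke N z w hw

end

end Fermat.Agent.S16.H14
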