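import Mathlib
import Fermat.Statements.S16

/-!
# S16 / P1 (ALG): `T / I = ℤ / ε(ker ev)`

`TT := HeckeAlg = ℤ[X_ℓ]`, `evT p : TT →+* heckeLatticeAlgebra p ∅` (surjective), `epsE p : TT →+* ℤ`
the Eisenstein character (`ker = eisensteinIdeal p`).  Then
`Nat.card (T ⧸ I.map ev) = n` as soon as
* `(L)` every `P ∈ ker ev` has `n ∣ ε P`,
* `(U')` some `P ∈ ker ev` has `ε P = n`.
-/

set_option autoImplicit false

noncomputable section

namespace Fermat.Agent.S16.H16

open ModularCurve CuspForm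

/-! ### Abstract lemma -/

theorem natCard_quotient_map_ker {R T : Type*} [CommRing R] [CommRing T] (ev : R →+* T)
    (hev : Function.Surjective ev) (ε : R →+* ℤ) (hε : Function.Surjective ε) (n : ℕ)
    (hL : ∀ P, ev P = 0 → (n : ℤ) ∣ ε P) (hU : ∃ P, ev P = 0 ∧ ε P = n) :
    Nat.card (T ⧸ Ideal.map ev (RingHom.ker ε)) = n := by
  classical
  obtain ⟨P₀, hP₀, hεP₀⟩ := hU
  set ψ : R →+* ZMod n := (Int.castRingHom (ZMod n)).comp ε with hψ
  have hker : RingHom.ker ev ≤ RingHom.ker ψ := by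
    intro P hP
    rw [RingHom.mem_ker] at hP ⊢
    rw [hψ, RingHom.comp_apply, eq_intCast]
    exact (ZMod.intCast_zmod_eq_zero_iff_dvd _ _).2 (hL P hP)
  set φ : T →+* ZMod n := RingHom.liftOfSurjective ev hev ⟨ψ, hker⟩ with hφ
  have hφev : ∀ P, φ (ev P) = ψ P := fun P =>
    RingHom.liftOfRightInverse_comp_apply _ _ _ ⟨ψ, hker⟩ P
  have hφsurj : Function.Surjective φ := by
    intro z
    obtain ⟨a, rfl⟩ := ZMod.intCast_surjective z
    obtain ⟨P, rfl⟩ := hε a
    exact ⟨ev P, by rw [hφev, hψ, RingHom.comp_apply, eq_intCast]⟩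
  have hkerφ : RingHom.ker φ = Ideal.map ev (RingHom.ker ε) := by
    apply le_antisymm
    · intro t ht
      obtain ⟨P, rfl⟩ := hev t
      rw [RingHom.mem_ker, hφev, hψ, RingHom.comp_apply, eq_intCast,
        ZMod.intCast_zmod_eq_zero_iff_dvd] at ht
      obtain ⟨c, hc⟩ := ht
      have h1 : P - (algebraMap ℤ R c) * P₀ ∈ RingHom.ker ε := by
        rw [RingHom.mem_ker, map_sub, map_mul, hεP₀, hc]
        have : ε (algebraMap ℤ R c) = c := by
          rw [eq_intCast, map_intCast]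
          rfl
        rw [this]
        ring
      have h2 : ev P = ev (P - (algebraMap ℤ R c) * P₀) := by
        rw [map_sub, map_mul, hP₀, mul_zero, sub_zero]
      rw [h2]
      exact Ideal.mem_map_of_mem ev h1
    · rw [Ideal.map_le_iff_le_comap]
      intro P hP
      rw [Ideal.mem_comap, RingHom.mem_ker, hφev, hψ, RingHom.comp_apply,
        RingHom.mem_ker.1 hP, map_zero]
  rw [← hkerφ]
  rw [Nat.card_congr (RingHom.quotientKerEquivOfSurjective hφsurj).toEquiv, Nat.card_zmod]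

/-- variant: `(U')` in gcd form. -/
theorem natCard_quotient_map_ker' {R T : Type*} [CommRing R] [CommRing T] (ev : R →+* T)
    (hev : Function.Surjective ev) (ε : R →+* ℤ) (hε : Function.Surjective ε) (n : ℕ)
    (hn : 0 < n)
    (hL : ∀ P, ev P = 0 → (n : ℤ) ∣ ε P)
    (hU : ∀ m : ℕ, 0 < m → (∀ P, ev P = 0 → (m : ℤ) ∣ ε P) → m ∣ n) :
    Nat.card (T ⧸ Ideal.map ev (RingHom.ker ε)) = n := by
  apply natCard_quotient_map_ker ev hev ε hε n hL
  -- the ideal `ε (ker ev)` of `ℤ`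
  set J : Ideal ℤ := Ideal.map ε (RingHom.ker ev) with hJ
  have hJmem : ∀ a : ℤ, a ∈ J ↔ ∃ P, ev P = 0 ∧ ε P = a := by
    intro a
    rw [hJ, Ideal.mem_map_iff_of_surjective ε hε]
    constructor
    · rintro ⟨P, hP, rfl⟩
      exact ⟨P, RingHom.mem_ker.1 hP, rfl⟩
    · rintro ⟨P, hP, rfl⟩
      exact ⟨P, RingHom.mem_ker.2 hP, rfl⟩
  obtain ⟨g, hg⟩ : ∃ g : ℤ, J = Ideal.span {g} := ⟨_, (Ideal.span_singleton_generator J).symm⟩
  have hdvd : ∀ P, ev P = 0 → g ∣ ε P := by
    intro P hP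
    have : ε P ∈ J := (hJmem _).2 ⟨P, hP, rfl⟩
    rw [hg, Ideal.mem_span_singleton] at this
    exact this
  have hgmem : g ∈ J := by
    rw [hg]
    exact Ideal.mem_span_singleton_self g
  obtain ⟨Pg, hPg, hεPg⟩ := (hJmem g).1 hgmem
  have hng : (n : ℤ) ∣ g := hεPg ▸ hL Pg hPg
  -- `g.natAbs ∣ n`
  have hgn : g.natAbs ∣ n := by
    by_cases hg0 : g = 0
    · -- then every `ε P = 0`; use `m = n + 1`
      exfalso
      have h := hU (n + 1) (Nat.succ_pos n) (fun P hP => by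
        have := hdvd P hP
        rw [hg0, zero_dvd_iff] at this
        rw [this]
        exact dvd_zero _)
      have := Nat.le_of_dvd hn h
      omega
    · apply hU g.natAbs (Int.natAbs_pos.2 hg0)
      intro P hP
      exact Int.natAbs_dvd.2 (hdvd P hP)
  have hgeq : g.natAbs = n := Nat.dvd_antisymm hgn (by
    have := Int.natAbs_dvd_natAbs.2 hng
    simpa using this)
  -- so `n ∈ J`
  have hnJ : (n : ℤ) ∈ J := by
    rw [hg, Ideal.mem_span_singleton, ← hgeq]
    exact Int.dvd_natAbs.2 (dvd_refl g)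
  exact (hJmem _).1 hnJ

end Fermat.Agent.S16.H16
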