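import Mathlib
import Fermat.Statements.S16
import Fermat.Agent.S16.H16_Alg

/-!
# S16 / P1 (ALG-INST): the frozen quotient is `ℤ / ε(ker ev)`
-/

set_option autoImplicit false

noncomputable section

namespace Fermat.Agent.S16.H16

open ModularCurve CuspForm

/-- the Eisenstein character `X_ℓ ↦ 1 + ℓ` (`ℓ ≠ p`), `X_p ↦ 1`. -/
def epsE (p : ℕ) : HeckeAlg →+* ℤ :=
  (MvPolynomial.aeval (R := ℤ) (eisensteinSystem p)).toRingHom

theorem ker_epsE (p : ℕ) : RingHom.ker (epsE p) = eisensteinIdeal p := rfl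

@[simp] theorem epsE_heckeGen (p : ℕ) (ℓ : Nat.Primes) :
    epsE p (heckeGen ℓ) = eisensteinSystem p ℓ := by
  simp [epsE, heckeGen]

@[simp] theorem epsE_C (p : ℕ) (a : ℤ) : epsE p (MvPolynomial.C a) = a := by
  simp [epsE]

theorem epsE_surjective (p : ℕ) : Function.Surjective (epsE p) := fun a => ⟨MvPolynomial.C a, by simp⟩

variable (p : ℕ) [NeZero p]

/-- the evaluation of the abstract Hecke ring on the lattice Hecke algebra. -/
def evT : HeckeAlg →+* ↥(heckeLatticeAlgebra p ∅) :=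
  (latticeRestrictHom p ∅).toRingHom.comp (heckeEvalForms p 2)

theorem heckeGenerators_subset_range :
    heckeGenerators p 2 ∅ ⊆
      (((heckeAlgebra p 2 ∅).val.comp
        (MvPolynomial.aeval (R := ℤ) (heckeFormsGen p 2))).range : Set _) := by
  rintro T (⟨ℓ, hℓ, hℓN, -, rfl⟩ | ⟨q, hqN, hq, -, rfl⟩)
  · refine ⟨MvPolynomial.X (⟨ℓ, hℓ⟩ : Nat.Primes), ?_⟩
    show (MvPolynomial.aeval (R := ℤ) (heckeFormsGen p 2)
      (MvPolynomial.X (⟨ℓ, hℓ⟩ : Nat.Primes))).1 = _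
    rw [MvPolynomial.aeval_X, heckeFormsGen_of_not_dvd (ℓ := ⟨ℓ, hℓ⟩) hℓN]
    rfl
  · refine ⟨MvPolynomial.X (⟨q, hq⟩ : Nat.Primes), ?_⟩
    show (MvPolynomial.aeval (R := ℤ) (heckeFormsGen p 2)
      (MvPolynomial.X (⟨q, hq⟩ : Nat.Primes))).1 = _
    rw [MvPolynomial.aeval_X, heckeFormsGen_of_dvd (q := ⟨q, hq⟩) hqN]
    rfl

theorem heckeEvalForms_surjective : Function.Surjective (heckeEvalForms p 2) := by
  intro t
  have h1 : (t : Module.End ℂ (CuspForm (CongruenceSubgroup.Gamma0 p) 2)) ∈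
      Algebra.adjoin ℤ (heckeGenerators p 2 ∅) := t.2
  have h2 := Algebra.adjoin_le (heckeGenerators_subset_range p) h1
  obtain ⟨P, hP⟩ := h2
  exact ⟨P, Subtype.ext hP⟩

theorem evT_surjective : Function.Surjective (evT p) :=
  (latticeRestrictHom_surjective p ∅).comp (heckeEvalForms_surjective p)

end Fermat.Agent.S16.H16
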