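import Mathlib
import Fermat.Statements.S16
import Fermat.Agent.S16.H16_AlgInst

/-!
# S16 / P1 (INTERFACE + ASSEMBLY)

The named statements of the S16 project and the proof of the frozen statement from them.

* `EisData p`       : the weight-2 Eisenstein series `E` on `Γ₀(p)` (package P3).
* `LowerBound p`    : (L)  every `P ∈ ker ev` has `n ∣ ε P`                    (package P4).
* `EisCong D m`     : some `f ∈ intLattice p 2` has `a_k(f) ≡ a_k(E) mod m` for all `k ≥ 1`.
* `UpperBound D`    : (U)  `EisCong D m → m ∣ n` for `m ≥ 1`                    (packages P5–P10).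
* `Duality p`       : (D)  every additive `φ : T → ℤ/m` is `t ↦ a₁(t f)` for some `f ∈ intLattice`
                                                                                (package P2).
* `CoeffOps D`      : (PK) `∃ P_k ∈ HeckeAlg`, `a_k(g) = a₁(ev(P_k) g)` on `intLattice`,
                      `a_k(E) = ε(P_k)`                                          (package P2).
* `result_of_packages` : the frozen S16 from these.
-/

set_option autoImplicit false

noncomputable section

namespace Fermat.Agent.S16.H16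

open ModularCurve CuspForm ModularFormClass CongruenceSubgroup

variable (p : ℕ) [NeZero p]

/-- The weight-2 Eisenstein series of level `Γ₀(p)`, as data. -/
structure EisData where
  E : ModularForm (Gamma0 p) 2
  a0 : qCoeff E 0 = ((p : ℂ) - 1) / 24
  a1 : qCoeff E 1 = 1
  eigT : ∀ (ℓ : ℕ) (hℓ : ℓ.Prime) (hℓp : ¬ ℓ ∣ p),
    ModularForm.heckeTLin 2 hℓ hℓp E = ((1 + ℓ : ℕ) : ℂ) • E
  eigU : ModularForm.heckeULin 2 (dvd_refl p) E = E

/-- the lattice of integral cusp forms, as a type. -/
abbrev Lat : Type := ↥(intLattice p 2)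

/-- the action of the lattice Hecke algebra on the lattice. -/
def tAct (t : ↥(heckeLatticeAlgebra p ∅)) (f : Lat p) : Lat p :=
  (t : Module.End ℤ ↥(intLattice p 2)) f

/-- the `k`-th `q`-coefficient of a lattice element (a complex number, in fact an integer). -/
def aL (k : ℕ) (f : Lat p) : ℂ :=
  qCoeff ((f : CuspForm (Gamma0 p) 2) : UpperHalfPlane → ℂ) k

/-- (L): the lower bound. -/
def LowerBound : Prop :=
  ∀ P : HeckeAlg, evT p P = 0 → (eisensteinNumerator p : ℤ) ∣ epsE p P

variable {p}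

/-- `f ≡ E` modulo `m` away from the constant term, `f` an integral cusp form. -/
def EisCong (D : EisData p) (m : ℕ) : Prop :=
  ∃ f : Lat p, ∀ k : ℕ, 1 ≤ k → ∃ z : ℤ, qCoeff D.E k - aL p k f = (m : ℂ) * z

/-- (U): the upper bound. -/
def UpperBound (D : EisData p) : Prop :=
  ∀ m : ℕ, 1 ≤ m → EisCong D m → m ∣ eisensteinNumerator p

variable (p)

/-- (D): duality. -/
def Duality : Prop :=
  ∀ (m : ℕ), 1 ≤ m → ∀ φ : ↥(heckeLatticeAlgebra p ∅) →+ ZMod m,
    ∃ f : Lat p, ∀ t : ↥(heckeLatticeAlgebra p ∅),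
      ∃ z : ℤ, aL p 1 (tAct p t f) = z ∧ φ t = (z : ZMod m)

variable {p}

/-- (PK): the coefficient functionals are Hecke translates of `a₁`. -/
def CoeffOps (D : EisData p) : Prop :=
  ∀ k : ℕ, 1 ≤ k → ∃ P : HeckeAlg,
    (∀ g : Lat p, aL p k g = aL p 1 (tAct p (evT p P) g)) ∧ qCoeff D.E k = (epsE p P : ℂ)

/-- the upper bound in `ker ev`-form, from (D), (PK), (U). -/
theorem upper_of_packages (D : EisData p) (hD : Duality p) (hPK : CoeffOps D)
    (hU : UpperBound D) (m : ℕ) (hm : 0 < m)
    (h : ∀ P : HeckeAlg, evT p P = 0 → (m : ℤ) ∣ epsE p P) : m ∣ eisensteinNumerator p := by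
  classical
  apply hU m hm
  -- the ring hom `T → ℤ/m`
  set ψ : HeckeAlg →+* ZMod m := (Int.castRingHom (ZMod m)).comp (epsE p) with hψ
  have hker : RingHom.ker (evT p) ≤ RingHom.ker ψ := by
    intro P hP
    rw [RingHom.mem_ker] at hP ⊢
    rw [hψ, RingHom.comp_apply, eq_intCast]
    exact (ZMod.intCast_zmod_eq_zero_iff_dvd _ _).2 (h P hP)
  set φ : ↥(heckeLatticeAlgebra p ∅) →+* ZMod m :=
    RingHom.liftOfSurjective (evT p) (evT_surjective p) ⟨ψ, hker⟩ with hφ
  have hφev : ∀ P, φ (evT p P) = ((epsE p P : ℤ) : ZMod m) := fun P => by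
    have := RingHom.liftOfRightInverse_comp_apply (evT p) _
      (Function.rightInverse_surjInv (evT_surjective p)) ⟨ψ, hker⟩ P
    rw [hφ]
    exact this
  obtain ⟨f, hf⟩ := hD m hm φ.toAddMonoidHom
  refine ⟨f, fun k hk => ?_⟩
  obtain ⟨P, hP1, hP2⟩ := hPK k hk
  obtain ⟨z, hz1, hz2⟩ := hf (evT p P)
  have hz3 : ((epsE p P : ℤ) : ZMod m) = (z : ZMod m) := by
    rw [← hφev]
    exact hz2
  rw [ZMod.intCast_eq_intCast_iff_dvd_sub] at hz3
  obtain ⟨c, hc⟩ := hz3
  refine ⟨-c, ?_⟩
  rw [hP2, hP1 f, hz1]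
  have : ((epsE p P : ℤ) : ℂ) - (z : ℂ) = -(((z - epsE p P : ℤ)) : ℂ) := by push_cast; ring
  rw [this, hc]
  push_cast
  ring

end Fermat.Agent.S16.H16
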