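import Mathlib
import Fermat.Statements.S16
import Fermat.Agent.S16.H16_Interface

/-!
# S16 / P1 (ASSEMBLY): the frozen statement from the named packages
-/

set_option autoImplicit false

noncomputable section

namespace Fermat.Agent.S16.H16

open ModularCurve CuspForm ModularFormClass CongruenceSubgroup

theorem eisensteinNumerator_pos (p : ℕ) (hp : 2 ≤ p) : 0 < eisensteinNumerator p := by
  unfold eisensteinNumerator
  have h1 : 0 < p - 1 := by omega
  exact Nat.div_pos (Nat.le_of_dvd h1 (Nat.gcd_dvd_left _ _)) (Nat.gcd_pos_of_pos_left _ h1)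

/-- **S16 from the packages.** -/
theorem result_of_packages (p : ℕ) [Fact p.Prime] (D : EisData p) (hL : LowerBound p)
    (hD : Duality p) (hPK : CoeffOps D) (hU : UpperBound D) :
    Nat.card (↥(heckeLatticeAlgebra p ∅) ⧸
        Ideal.map ((latticeRestrictHom p ∅).toRingHom.comp (heckeEvalForms p 2))
          (eisensteinIdeal p)) =
      eisensteinNumerator p := by
  have hp : 2 ≤ p := (Fact.out : p.Prime).two_le
  have h := natCard_quotient_map_ker' (evT p) (evT_surjective p) (epsE p) (epsE_surjective p)
    (eisensteinNumerator p) (eisensteinNumerator_pos p hp) hL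
    (fun m hm h => upper_of_packages D hD hPK hU m hm h)
  rw [ker_epsE] at h
  exact h

end Fermat.Agent.S16.H16
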