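import Fermat.Statements.S16
import Fermat.Agent.S16.H52_Assembly
import Fermat.Agent.S16.H98_ShimuraClass
import Fermat.Agent.S16.H48_SmallLevel

/-!
# S16: final assembly, dry run (helper16)

The frozen statement S16 from the five arithmetic leaves in the shape of `H52.Cong`.  The lower
bound (`H98.lower_bound`), the duality/algebra backbone (`H52.natCard_eq_of_L_leaves`) and the
genus-zero levels (`H48.result_of_small_or`) are unconditional; the leaves are only needed for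
`p ∉ {2, 3, 5, 7, 13}`.
-/

set_option autoImplicit false

open ModularCurve CuspForm CongruenceSubgroup ModularFormClass

namespace Fermat.Agent.S16.H16

/-- **S16 from the five leaves.**  Each leaf is only needed for `p ∉ {2, 3, 5, 7, 13}`. -/
theorem result_of_leaves (p : ℕ) [Fact p.Prime]
    (h5 : p ∉ ({2, 3, 5, 7, 13} : Finset ℕ) → ∀ l a : ℕ, l.Prime → 5 ≤ l → 0 < a →
      ∀ f : CuspForm (Gamma0 p) 2, H52.Cong p f (l ^ a) → l ^ a ∣ p - 1)
    (h3a : p ∉ ({2, 3, 5, 7, 13} : Finset ℕ) → p % 3 = 1 → ∀ a : ℕ, 0 < a →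
      ∀ f : CuspForm (Gamma0 p) 2, H52.Cong p f (3 ^ a) → 3 ^ (a + 1) ∣ p - 1)
    (h3b : p ∉ ({2, 3, 5, 7, 13} : Finset ℕ) → p % 3 = 2 →
      ∀ f : CuspForm (Gamma0 p) 2, ¬ H52.Cong p f 3)
    (h2a : p ∉ ({2, 3, 5, 7, 13} : Finset ℕ) → p % 4 = 1 → ∀ a : ℕ, 0 < a →
      ∀ f : CuspForm (Gamma0 p) 2, H52.Cong p f (2 ^ a) → 2 ^ (a + 2) ∣ p - 1)
    (h2b : p ∉ ({2, 3, 5, 7, 13} : Finset ℕ) → p % 4 = 3 →
      ∀ f : CuspForm (Gamma0 p) 2, ¬ H52.Cong p f 2) :
    Nat.card (↥(heckeLatticeAlgebra p ∅) ⧸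
        Ideal.map ((latticeRestrictHom p ∅).toRingHom.comp (heckeEvalForms p 2))
          (eisensteinIdeal p)) =
      eisensteinNumerator p :=
  H48.result_of_small_or fun hp =>
    H52.natCard_eq_of_L_leaves p
      (fun h => hp (by simp [h])) (fun h => hp (by simp [h]))
      (H98.lower_bound p) (h5 hp) (h3a hp) (h3b hp) (h2a hp) (h2b hp)

end Fermat.Agent.S16.H16
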