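import Fermat.Statements.S16
import Fermat.Agent.S16.H39_Leaves
import Fermat.Agent.S16.H52_Assembly

/-!
# S16: bridges between the two leaf shapes (helper16)

`H39.ULeaf p l e` (integers only, any form of weight two) implies the corresponding leaf of
`H52.natCard_eq_of_L_leaves` (in terms of `H52.Cong`).  With these bridges the final assembly can
mix leaves that were proved in either shape.
-/

set_option autoImplicit false

open ModularCurve CuspForm CongruenceSubgroup ModularFormClass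

namespace Fermat.Agent.S16.H16

/-- Core bridge: a `ULeaf p l e` turns a congruence `f ≡ E mod l ^ a` into
`l ^ (a + w) ∣ l ^ e * (p - 1)` where `24 = l ^ w * c`. -/
theorem pow_dvd_of_uLeaf_of_cong {p l e : ℕ} [Fact p.Prime] (hleaf : H39.ULeaf p l e)
    (f : CuspForm (Gamma0 p) 2) (a w : ℕ) (c : ℤ) (h24 : (24 : ℤ) = (l : ℤ) ^ w * c)
    (hf : H52.Cong p f (l ^ a)) :
    l ^ (a + w) ∣ l ^ e * (p - 1) := by
  have hp : p.Prime := Fact.out
  choose z hz hzd using hf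
  have h := H39.leaf_apply hleaf f z hz a w c h24 hzd
  have hcast : ((p : ℤ) - 1) = ((p - 1 : ℕ) : ℤ) := by
    rw [Nat.cast_sub hp.one_lt.le]; simp
  rw [hcast] at h
  exact_mod_cast h

/-- `(U5)` in the `Cong` shape from `ULeaf p l 0`. -/
theorem cong_leaf_five_of_uLeaf {p l : ℕ} [Fact p.Prime] (hleaf : H39.ULeaf p l 0)
    (a : ℕ) (f : CuspForm (Gamma0 p) 2) (hf : H52.Cong p f (l ^ a)) : l ^ a ∣ p - 1 := by
  have h := pow_dvd_of_uLeaf_of_cong hleaf f a 0 24 (by norm_num) hf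
  simpa using h

/-- `(U3a)` in the `Cong` shape from `ULeaf p 3 0`. -/
theorem cong_leaf_three_a_of_uLeaf {p : ℕ} [Fact p.Prime] (hleaf : H39.ULeaf p 3 0)
    (a : ℕ) (f : CuspForm (Gamma0 p) 2) (hf : H52.Cong p f (3 ^ a)) : 3 ^ (a + 1) ∣ p - 1 := by
  have h := pow_dvd_of_uLeaf_of_cong hleaf f a 1 8 (by norm_num) hf
  simpa using h

/-- `(U3b)` in the `Cong` shape from `ULeaf p 3 1`. -/
theorem cong_leaf_three_b_of_uLeaf {p : ℕ} [Fact p.Prime] (hleaf : H39.ULeaf p 3 1)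
    (hp3 : p % 3 = 2) (f : CuspForm (Gamma0 p) 2) : ¬ H52.Cong p f 3 := by
  intro hf
  have hf' : H52.Cong p f (3 ^ 1) := by simpa using hf
  have h := pow_dvd_of_uLeaf_of_cong hleaf f 1 1 8 (by norm_num) hf'
  have h' : 3 ^ 1 * 3 ^ 1 ∣ 3 ^ 1 * (p - 1) := by simpa [pow_add] using h
  have h'' : 3 ^ 1 ∣ p - 1 := Nat.dvd_of_mul_dvd_mul_left (by norm_num) h'
  have hp : p.Prime := Fact.out
  have := hp.one_lt
  omega

/-- `(U2a)` in the `Cong` shape from `ULeaf p 2 1`. -/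
theorem cong_leaf_two_a_of_uLeaf {p : ℕ} [Fact p.Prime] (hleaf : H39.ULeaf p 2 1)
    (a : ℕ) (f : CuspForm (Gamma0 p) 2) (hf : H52.Cong p f (2 ^ a)) : 2 ^ (a + 2) ∣ p - 1 := by
  have h := pow_dvd_of_uLeaf_of_cong hleaf f a 3 3 (by norm_num) hf
  have h' : 2 ^ 1 * 2 ^ (a + 2) ∣ 2 ^ 1 * (p - 1) := by
    rw [← pow_add, show 1 + (a + 2) = a + 3 by ring]; exact h
  exact Nat.dvd_of_mul_dvd_mul_left (by norm_num) h'

/-- `(U2b)` in the `Cong` shape from `ULeaf p 2 2`. -/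
theorem cong_leaf_two_b_of_uLeaf {p : ℕ} [Fact p.Prime] (hleaf : H39.ULeaf p 2 2)
    (hp4 : p % 4 = 3) (f : CuspForm (Gamma0 p) 2) : ¬ H52.Cong p f 2 := by
  intro hf
  have hf' : H52.Cong p f (2 ^ 1) := by simpa using hf
  have h := pow_dvd_of_uLeaf_of_cong hleaf f 1 3 3 (by norm_num) hf'
  have h' : 2 ^ 2 * 2 ^ 2 ∣ 2 ^ 2 * (p - 1) := by
    rw [← pow_add]; exact h
  have h'' : 2 ^ 2 ∣ p - 1 := Nat.dvd_of_mul_dvd_mul_left (by norm_num) h'
  have hp : p.Prime := Fact.out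
  have := hp.one_lt
  omega

end Fermat.Agent.S16.H16
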