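import Mathlib

/-!
# S16 (U,3; p = 2 mod 3): the Artin–Schreier obstruction (helper17)

Abstract, Mathlib only (valid in every characteristic).

* `not_mem_adjoin_of_cube_sub`: for `J` transcendental over `k`, the equation
  `S ^ 3 - S = - J⁻¹` has no solution in `k(J)`.
* `false_of_cube_sub`: if `E / k(J)` has no proper intermediate field and degree `> 3`, the equation
  has no solution in `E` either.

Application: `k` of characteristic `3`, `E = k(J, J_p)`, `S = ∑ σ(n) qⁿ mod 3` (`S - S³ = Δ = 1/J`);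
`S ∈ E` would follow from a weight-2 form `F ≡ 1 mod 9` on `Γ₀(p)`, `p ≡ 2 mod 3`.
-/

set_option autoImplicit false

open Polynomial IntermediateField

namespace Fermat.Agent.S16.H17

variable {k E : Type*} [Field k] [Field E] [Algebra k E]

/-- Polynomial core: `X A³ - X A B² + B³ = 0` with `A, B` coprime is impossible. -/
theorem not_isCoprime_of_cubic_rel {A B : k[X]} (hrel : X * A ^ 3 - X * A * B ^ 2 + B ^ 3 = 0) :
    ¬ IsCoprime A B := by
  intro hcop
  have hXprime : Prime (X : k[X]) := Polynomial.prime_X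
  -- `X ∣ B`
  have h1 : (X : k[X]) ∣ B ^ 3 := ⟨A * B ^ 2 - A ^ 3, by linear_combination hrel⟩
  have hXB : (X : k[X]) ∣ B := hXprime.dvd_of_dvd_pow h1
  obtain ⟨B1, rfl⟩ := hXB
  -- `X ∣ A`
  have h2 : (X : k[X]) * (X * (X * (A * B1 ^ 2 - B1 ^ 3))) = X * A ^ 3 := by
    linear_combination (-1 : k[X]) * hrel
  have h3 : X * (X * (A * B1 ^ 2 - B1 ^ 3)) = A ^ 3 := mul_left_cancel₀ Polynomial.X_ne_zero h2
  have hXA : (X : k[X]) ∣ A := hXprime.dvd_of_dvd_pow ⟨_, h3.symm⟩
  have hunit : IsUnit (X : k[X]) := hcop.isUnit_of_dvd' hXA (dvd_mul_right X B1)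
  exact Polynomial.not_isUnit_X hunit

/-- For `J` transcendental over `k`, `S³ - S = -1/J` has no solution in `k(J)`. -/
theorem not_mem_adjoin_of_cube_sub (J : E) (hJ : Transcendental k J) {S : E}
    (hS : S ^ 3 - S = -J⁻¹) : S ∉ k⟮J⟯ := by
  intro hmem
  have hJ0 : J ≠ 0 := fun h => hJ (h ▸ ⟨X, X_ne_zero, by simp⟩)
  obtain ⟨r, s, hrs⟩ := (IntermediateField.mem_adjoin_simple_iff k S).mp hmem
  have hinj : Function.Injective (Polynomial.aeval (R := k) J) :=
    transcendental_iff_injective.mp hJ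
  by_cases hs0 : s = 0
  · rw [hs0, map_zero, div_zero] at hrs
    rw [hrs] at hS
    have : J⁻¹ = 0 := by
      have h0 : (0 : E) ^ 3 - 0 = 0 := by ring
      rw [h0] at hS
      exact neg_eq_zero.mp hS.symm
    exact hJ0 (inv_eq_zero.mp this)
  -- reduce to coprime numerator / denominator
  obtain ⟨g, A, B, hg, hcop, hA, hB⟩ :
      ∃ g A B : k[X], g ≠ 0 ∧ IsCoprime A B ∧ r = g * A ∧ s = g * B := by
    classical
    have hg : EuclideanDomain.gcd r s ≠ 0 := fun h => hs0 (EuclideanDomain.gcd_eq_zero_iff.mp h).2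
    obtain ⟨A, hA⟩ := EuclideanDomain.gcd_dvd_left r s
    obtain ⟨B, hB⟩ := EuclideanDomain.gcd_dvd_right r s
    have hbez : EuclideanDomain.gcd r s =
        r * EuclideanDomain.gcdA r s + s * EuclideanDomain.gcdB r s :=
      EuclideanDomain.gcd_eq_gcd_ab r s
    generalize EuclideanDomain.gcdA r s = a at hbez
    generalize EuclideanDomain.gcdB r s = b at hbez
    generalize EuclideanDomain.gcd r s = g at hg hA hB hbez
    refine ⟨g, A, B, hg, ⟨a, b, ?_⟩, hA, hB⟩
    apply mul_left_cancel₀ hg
    calc g * (a * A + b * B) = (g * A) * a + (g * B) * b := by ring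
      _ = r * a + s * b := by rw [← hA, ← hB]
      _ = g * 1 := by rw [← hbez, mul_one]
  have hg0 : aeval J g ≠ 0 := by
    intro h
    exact hg (hinj (by rw [h, map_zero]))
  have hB0 : aeval J B ≠ 0 := by
    intro h
    apply hs0
    apply hinj
    rw [hB, map_mul, h, mul_zero, map_zero]
  have hSAB : S = aeval J A / aeval J B := by
    rw [hrs, hA, hB, map_mul, map_mul, mul_div_mul_left _ _ hg0]
  -- the polynomial relation
  have hrel : X * A ^ 3 - X * A * B ^ 2 + B ^ 3 = 0 := by
    apply hinj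
    rw [map_zero, map_add, map_sub, map_mul, map_mul, map_mul, map_pow, map_pow, map_pow, aeval_X]
    have h1 : (aeval J A / aeval J B) ^ 3 - aeval J A / aeval J B = -J⁻¹ := hSAB ▸ hS
    field_simp at h1
    linear_combination h1
  exact not_isCoprime_of_cubic_rel hrel hcop

/-- If `E/k(J)` has no proper intermediate field and degree `> 3`, then `S³ - S = -1/J` has no
solution in `E`. -/
theorem false_of_cube_sub (J : E) (hJ : Transcendental k J)
    (hprim : ∀ M : IntermediateField k⟮J⟯ E, M = ⊥ ∨ M = ⊤)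
    (hdeg : 3 < Module.finrank k⟮J⟯ E) (S : E) (hS : S ^ 3 - S = -J⁻¹) : False := by
  set K := k⟮J⟯ with hK
  have hJK : J ∈ K := mem_adjoin_simple_self k J
  -- the cubic over `K`
  let Jk : K := ⟨J, hJK⟩
  let P : K[X] := X ^ 3 - X + C (Jk⁻¹)
  have hPmonic : P.Monic := by
    have : P = X ^ 3 + (-X + C (Jk⁻¹)) := by simp only [P]; ring
    rw [this]
    apply Polynomial.monic_X_pow_add
    refine lt_of_le_of_lt (Polynomial.degree_add_le _ _) ?_
    rw [max_lt_iff]
    constructor
    · rw [Polynomial.degree_neg, Polynomial.degree_X]; norm_num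
    · exact lt_of_le_of_lt Polynomial.degree_C_le (by norm_num)
  have hPdeg : P.natDegree = 3 := by
    have : P = X ^ 3 + (-X + C (Jk⁻¹)) := by simp only [P]; ring
    rw [this]
    have hlt : (-X + C (Jk⁻¹) : K[X]).degree < ((3 : ℕ) : WithBot ℕ) := by
      refine lt_of_le_of_lt (Polynomial.degree_add_le _ _) ?_
      rw [max_lt_iff]
      constructor
      · rw [Polynomial.degree_neg, Polynomial.degree_X]; norm_num
      · exact lt_of_le_of_lt Polynomial.degree_C_le (by norm_num)
    apply Polynomial.natDegree_eq_of_degree_eq_some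
    rw [Polynomial.degree_add_eq_left_of_degree_lt (by rw [Polynomial.degree_X_pow]; exact hlt),
      Polynomial.degree_X_pow]
  have hroot : aeval S P = 0 := by
    simp only [P, map_add, map_sub, map_pow, aeval_X, aeval_C]
    have : algebraMap K E (Jk⁻¹) = J⁻¹ := by
      rw [map_inv₀]; rfl
    rw [this, hS]; ring
  have hint : IsIntegral K S := ⟨P, hPmonic, hroot⟩
  rcases hprim K⟮S⟯ with h | h
  · -- `S ∈ K`
    have hSbot : S ∈ (⊥ : IntermediateField K E) := h ▸ mem_adjoin_simple_self K S
    obtain ⟨x, hx⟩ := IntermediateField.mem_bot.mp hSbot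
    have : S ∈ k⟮J⟯ := by rw [← hx]; exact x.2
    exact not_mem_adjoin_of_cube_sub J hJ hS this
  · -- `E = K(S)` has degree ≤ 3
    have h1 : Module.finrank K K⟮S⟯ = (minpoly K S).natDegree :=
      IntermediateField.adjoin.finrank hint
    have h2 : (minpoly K S).natDegree ≤ 3 := by
      rw [← hPdeg]
      exact Polynomial.natDegree_le_of_dvd (minpoly.dvd K S hroot) hPmonic.ne_zero
    have h3 : Module.finrank K K⟮S⟯ = Module.finrank K E := by
      rw [h, IntermediateField.finrank_top']
    omega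

end Fermat.Agent.S16.H17
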