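/-
S16 project, GEO-e instance, part (a) (helper17): the embedding of the residue function field
`Fk` of the modular chart into the field `κ` of a place of the Hesse cover's special fibre.
Abstract part (on top of `H41_GeoE` and helper3's `H3.GaussModel`).

* `isMaximal_of_lt_of_integral` : `B₁` integral over `A₁[X]` (via `ev`), `A₁ / ϖ = k` a field:
  every prime of `B₁` strictly above a prime containing `ϖ` is maximal
  (`hdim` of `H41.ker_comp_eq_of_forall_isMaximal`).
* `GaussModel.exists_embedding` : for a Gauss model `M` with saturation `hsat`, a ring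
  homomorphism `ψ` from the chart ring `integralClosure R0[x1] F1` to a field `κ` with kernel `(ϖ)`
  factors through the reduction `M.res1`, giving `ι' : Fk →+* κ`.
-/
import Fermat.Agent.S16.H41_GeoE
import Fermat.Agent.S18.H3_ChartRing

set_option autoImplicit false
set_option linter.unusedSectionVars false
set_option linter.style.haveILetI false

namespace Fermat.Agent.S16.H17

open Polynomial Fermat.Agent.S18

section Dim

/-- **Dimension one above `ϖ`.**  `res : A₁ → k` onto a field with kernel `(ϖ)`, `B₁` a ring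
integral over `A₁[X]` through `ev`.  If `P < Q` are primes of `B₁` and `ev (C ϖ) ∈ P`, then `Q` is
maximal. -/
theorem isMaximal_of_lt_of_integral {A₁ k B₁ : Type*} [CommRing A₁] [Field k] [CommRing B₁]
    (res : A₁ →+* k) (hres : Function.Surjective res) {ϖ : A₁}
    (hker : RingHom.ker res = Ideal.span {ϖ})
    (ev : A₁[X] →+* B₁) (hint : ev.IsIntegral)
    (P Q : Ideal B₁) (hP : P.IsPrime) (hQ : Q.IsPrime) (hϖP : ev (C ϖ) ∈ P) (hlt : P < Q) :
    Q.IsMaximal := by
  classical
  letI : Algebra A₁[X] B₁ := ev.toAlgebra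
  have hint' : Algebra.IsIntegral A₁[X] B₁ := ⟨hint⟩
  -- the contraction grows strictly
  obtain ⟨x, hxQ, hxP⟩ := Set.exists_of_ssubset hlt
  have hlt' : P.comap (algebraMap A₁[X] B₁) < Q.comap (algebraMap A₁[X] B₁) :=
    Ideal.comap_lt_comap_of_integral_mem_sdiff hlt.le ⟨hxQ, hxP⟩ (hint'.isIntegral x)
  set q : Ideal A₁[X] := Q.comap (algebraMap A₁[X] B₁) with hq
  have hqprime : q.IsPrime := Ideal.comap_isPrime _ _
  -- the reduction `A₁[X] → k[X]`
  set red : A₁[X] →+* k[X] := mapRingHom res with hred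
  have hredsurj : Function.Surjective red := Polynomial.map_surjective res hres
  have hkerred : RingHom.ker red = Ideal.span {C ϖ} := by
    rw [hred, Polynomial.ker_mapRingHom, hker, Ideal.map_span, Set.image_singleton]
  have hkerP : RingHom.ker red ≤ P.comap (algebraMap A₁[X] B₁) := by
    rw [hkerred, Ideal.span_singleton_le_iff_mem, Ideal.mem_comap]
    exact hϖP
  have hkerq : RingHom.ker red ≤ q := hkerP.trans hlt'.le
  have hq' : (q.map red).IsPrime := Ideal.map_isPrime_of_surjective hredsurj hkerq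
  have hcomap : (q.map red).comap red = q := by
    rw [Ideal.comap_map_of_surjective _ hredsurj, ← RingHom.ker_eq_comap_bot]
    exact sup_eq_left.2 hkerq
  have hne : q.map red ≠ ⊥ := by
    intro h0
    rw [h0, ← RingHom.ker_eq_comap_bot] at hcomap
    have : q ≤ P.comap (algebraMap A₁[X] B₁) := by rw [← hcomap]; exact hkerP
    exact absurd hlt' (not_lt_of_ge this)
  have hmax : (q.map red).IsMaximal := hq'.isMaximal hne
  have hqmax : q.IsMaximal := by
    rw [← hcomap]
    exact Ideal.comap_isMaximal_of_surjective _ hredsurj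
  exact Ideal.isMaximal_of_isIntegral_of_isMaximal_comap Q hqmax

end Dim

section Gauss

variable {R0 k F1 Fk : Type*} [CommRing R0] [Field k] [Field F1] [Algebra R0 F1]
  [Field Fk] [Algebra k Fk] {ϖ : R0} {π0 : R0 →+* k} {x1 θ : F1} {xb θb : Fk}
  (M : H3.GaussModel ϖ π0 x1 θ xb θb)

/-- The reduction map of a Gauss model on the chart ring `integralClosure R0[x1] F1`. -/
noncomputable def chartRed : integralClosure (Algebra.adjoin R0 {x1}) F1 →+* Fk :=
  M.res1.comp ((integralClosure (Algebra.adjoin R0 {x1}) F1).val.toRingHom.codRestrict M.O1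
    (fun b => M.hBO _ b.2))

theorem chartRed_apply (b : integralClosure (Algebra.adjoin R0 {x1}) F1) :
    chartRed M b = M.res1 ⟨(b : F1), M.hBO _ b.2⟩ := rfl

theorem chartRed_mk (b : F1) (hb : IsIntegral (Algebra.adjoin R0 {x1}) b) :
    chartRed M ⟨b, hb⟩ = M.res1 ⟨b, M.hBO b hb⟩ := rfl

/-- the uniformiser in the chart ring. -/
noncomputable def chartPi (ϖ : R0) (x1 : F1) : integralClosure (Algebra.adjoin R0 {x1}) F1 :=
  algebraMap (Algebra.adjoin R0 {x1}) (integralClosure (Algebra.adjoin R0 {x1}) F1)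
    (algebraMap R0 (Algebra.adjoin R0 {x1}) ϖ)

theorem coe_chartPi : ((chartPi ϖ x1 : integralClosure (Algebra.adjoin R0 {x1}) F1) : F1) =
    algebraMap R0 F1 ϖ := rfl

/-- The kernel of the reduction on the chart ring is `(ϖ)` (saturation). -/
theorem chartRed_eq_zero_iff
    (hsat : ∀ y ∈ M.O1, IsIntegral (Algebra.adjoin R0 {x1}) (algebraMap R0 F1 ϖ * y) →
      IsIntegral (Algebra.adjoin R0 {x1}) y)
    (b : integralClosure (Algebra.adjoin R0 {x1}) F1) :
    chartRed M b = 0 ↔ b ∈ Ideal.span {chartPi ϖ x1} := by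
  rw [chartRed_apply, M.res1_eq_zero_iff, Ideal.mem_span_singleton']
  constructor
  · rintro ⟨z, hz, hbz⟩
    have hint : IsIntegral (Algebra.adjoin R0 {x1}) (algebraMap R0 F1 ϖ * z) := by
      rw [← hbz]; exact b.2
    refine ⟨⟨z, hsat z hz hint⟩, Subtype.ext ?_⟩
    change z * algebraMap R0 F1 ϖ = (b : F1)
    rw [hbz, mul_comm]
  · rintro ⟨a, rfl⟩
    refine ⟨(a : F1), M.hBO _ a.2, ?_⟩
    change (a : F1) * algebraMap R0 F1 ϖ = _
    rw [mul_comm]

/-- elements of `R0[x1]` in the chart ring. -/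
theorem isIntegral_aeval (s : R0[X]) : IsIntegral (Algebra.adjoin R0 {x1}) (aeval x1 s) :=
  isIntegral_algebraMap (x := (⟨aeval x1 s, aeval_mem_adjoin_singleton R0 x1⟩ :
    Algebra.adjoin R0 {x1}))

theorem chartRed_aeval (s : R0[X]) :
    chartRed M ⟨aeval x1 s, isIntegral_aeval s⟩ = aeval xb (s.map π0) := by
  rw [chartRed_mk]
  exact M.res1_aeval s

/-- bivariate expressions in `x1`, `θ` in the chart ring. -/
theorem isIntegral_eval2 (hθ : IsIntegral (Algebra.adjoin R0 {x1}) θ) (g : R0[X][X]) :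
    IsIntegral (Algebra.adjoin R0 {x1}) (H3.eval2 x1 θ g) := by
  unfold H3.eval2
  rw [Polynomial.eval₂_eq_sum_range]
  refine IsIntegral.sum _ fun i _ => ?_
  exact (isIntegral_aeval (g.coeff i)).mul (hθ.pow i)

theorem chartRed_eval2 (hθ : IsIntegral (Algebra.adjoin R0 {x1}) θ) (g : R0[X][X]) :
    chartRed M ⟨H3.eval2 x1 θ g, isIntegral_eval2 hθ g⟩ = H3.eval2b π0 xb θb g := by
  rw [chartRed_mk]
  obtain ⟨h, hh⟩ := M.eval2_mem g
  exact hh

/-- `Fk` is the fraction field of the image of the chart ring. -/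
theorem chartRed_frac (hπ0 : Function.Surjective π0)
    (hθ : IsIntegral (Algebra.adjoin R0 {x1}) θ)
    (hgenk : ∀ γ : Fk, ∃ s : k[X], aeval xb s ≠ 0 ∧ ∃ g : k[X][X],
      aeval xb s * γ = g.eval₂ ((aeval xb : k[X] →ₐ[k] Fk) : k[X] →+* Fk) θb) (γ : Fk) :
    ∃ a b : integralClosure (Algebra.adjoin R0 {x1}) F1,
      chartRed M b ≠ 0 ∧ γ * chartRed M b = chartRed M a := by
  obtain ⟨s, hs, g, hg⟩ := hgenk γ
  obtain ⟨s', rfl⟩ := Polynomial.map_surjective π0 hπ0 s
  obtain ⟨g', rfl⟩ := Polynomial.map_surjective (mapRingHom π0)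
    (Polynomial.map_surjective π0 hπ0) g
  refine ⟨⟨H3.eval2 x1 θ g', isIntegral_eval2 hθ g'⟩, ⟨aeval x1 s', isIntegral_aeval s'⟩, ?_, ?_⟩
  · rw [chartRed_aeval]; exact hs
  · rw [chartRed_aeval, chartRed_eval2 M hθ, mul_comm, hg]
    unfold H3.eval2b
    rw [Polynomial.eval₂_map]

/-- **The embedding `Fk → κ`.**  A ring homomorphism `ψ` from the chart ring to a field `κ` with
kernel `(ϖ)` factors through the reduction of the Gauss model. -/
theorem exists_embedding (hπ0 : Function.Surjective π0)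
    (hsat : ∀ y ∈ M.O1, IsIntegral (Algebra.adjoin R0 {x1}) (algebraMap R0 F1 ϖ * y) →
      IsIntegral (Algebra.adjoin R0 {x1}) y)
    (hθ : IsIntegral (Algebra.adjoin R0 {x1}) θ)
    (hgenk : ∀ γ : Fk, ∃ s : k[X], aeval xb s ≠ 0 ∧ ∃ g : k[X][X],
      aeval xb s * γ = g.eval₂ ((aeval xb : k[X] →ₐ[k] Fk) : k[X] →+* Fk) θb)
    {κ : Type*} [Field κ] (ψ : integralClosure (Algebra.adjoin R0 {x1}) F1 →+* κ)
    (hψ : RingHom.ker ψ = Ideal.span {chartPi ϖ x1}) :
    ∃ ι : Fk →+* κ, ∀ b : integralClosure (Algebra.adjoin R0 {x1}) F1,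
      ι (chartRed M b) = ψ b := by
  refine H41.exists_ringHom_comp_eq (chartRed M) (chartRed_frac M hπ0 hθ hgenk) ψ ?_
  intro b
  rw [chartRed_eq_zero_iff M hsat, ← hψ, RingHom.mem_ker]

end Gauss

/-! ### The chart ring inside the integral closure of the auxiliary line -/

section Chart

variable {A₁ F1 F' R : Type*} [CommRing A₁] [Field F1] [Algebra A₁ F1] [Field F'] [Algebra F1 F']
  [Algebra A₁ F'] [IsScalarTower A₁ F1 F'] [CommRing R] [Algebra A₁ R] [Algebra R F']
  [IsScalarTower A₁ R F']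

/-- `A₁[X] → integralClosure A₁[j1] F1`, `X ↦ j1`. -/
noncomputable def chartEv (A₁ : Type*) {F1 : Type*} [CommRing A₁] [Field F1] [Algebra A₁ F1]
    (j1 : F1) : A₁[X] →+* integralClosure (Algebra.adjoin A₁ {j1}) F1 :=
  ((aeval j1 : A₁[X] →ₐ[A₁] F1) : A₁[X] →+* F1).codRestrict
    (integralClosure (Algebra.adjoin A₁ {j1}) F1).toSubring fun s => isIntegral_aeval s

theorem coe_chartEv (j1 : F1) (s : A₁[X]) : ((chartEv A₁ j1 s : _) : F1) = aeval j1 s := rfl

theorem chartEv_C (j1 : F1) (ϖ : A₁) : chartEv A₁ j1 (C ϖ) = chartPi ϖ j1 := by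
  apply Subtype.ext
  rw [coe_chartEv, aeval_C, coe_chartPi]

theorem chartRed_chartEv {k Fk : Type*} [Field k] [Field Fk] [Algebra k Fk] {ϖ : A₁}
    {π0 : A₁ →+* k} {x1 θ : F1} {xb θb : Fk} (M : H3.GaussModel ϖ π0 x1 θ xb θb) (s : A₁[X]) :
    chartRed M (chartEv A₁ x1 s) = aeval xb (s.map π0) :=
  chartRed_aeval M s

/-- the chart ring is integral over `A₁[X]`. -/
theorem chartEv_isIntegral (j1 : F1) : (chartEv A₁ j1).IsIntegral := by
  intro b
  obtain ⟨q, hqm, hq⟩ := (H3.isIntegral_adjoin_iff j1 (b : F1)).mp b.2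
  refine ⟨q, hqm, ?_⟩
  apply Subtype.ext
  have h := Polynomial.hom_eval₂ q (chartEv A₁ j1)
    (integralClosure (Algebra.adjoin A₁ {j1}) F1).val.toRingHom b
  change (integralClosure (Algebra.adjoin A₁ {j1}) F1).val.toRingHom (q.eval₂ (chartEv A₁ j1) b) = _
  rw [h]
  exact hq

/-- the two evaluation maps `A₁[X] → F'` agree. -/
theorem algebraMap_comp_aeval_eq (j1 : F1) (jY : R)
    (hjY : algebraMap R F' jY = algebraMap F1 F' j1) :
    (algebraMap R F').comp ((aeval jY : A₁[X] →ₐ[A₁] R) : A₁[X] →+* R) =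
      (algebraMap F1 F').comp ((aeval j1 : A₁[X] →ₐ[A₁] F1) : A₁[X] →+* F1) := by
  apply Polynomial.ringHom_ext
  · intro a
    simp only [RingHom.comp_apply, RingHom.coe_coe, aeval_C]
    rw [← IsScalarTower.algebraMap_apply A₁ R F', ← IsScalarTower.algebraMap_apply A₁ F1 F']
  · simp only [RingHom.comp_apply, RingHom.coe_coe, aeval_X]
    exact hjY

/-- elements integral over `A₁[j1]` become integral over `R` in `F'`. -/
theorem isIntegral_algebraMap_of_chart (j1 : F1) (jY : R)
    (hjY : algebraMap R F' jY = algebraMap F1 F' j1) {b : F1}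
    (hb : IsIntegral (Algebra.adjoin A₁ {j1}) b) : IsIntegral R (algebraMap F1 F' b) := by
  obtain ⟨q, hqm, hq⟩ := (H3.isIntegral_adjoin_iff j1 b).mp hb
  refine ⟨q.map ((aeval jY : A₁[X] →ₐ[A₁] R) : A₁[X] →+* R), hqm.map _, ?_⟩
  rw [Polynomial.eval₂_map, algebraMap_comp_aeval_eq j1 jY hjY, ← Polynomial.hom_eval₂, hq,
    map_zero]

/-- The map from the chart ring `integralClosure A₁[j1] F1` to the integral closure of the
auxiliary line `R` in `F'`. -/
noncomputable def toB (A₁ : Type*) {F1 F' R : Type*} [CommRing A₁] [Field F1] [Algebra A₁ F1]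
    [Field F'] [Algebra F1 F'] [Algebra A₁ F'] [IsScalarTower A₁ F1 F'] [CommRing R] [Algebra A₁ R]
    [Algebra R F'] [IsScalarTower A₁ R F'] (j1 : F1) (jY : R) (hjY : algebraMap R F' jY = algebraMap F1 F' j1) :
    integralClosure (Algebra.adjoin A₁ {j1}) F1 →+* integralClosure R F' :=
  ((algebraMap F1 F').comp (integralClosure (Algebra.adjoin A₁ {j1}) F1).val.toRingHom).codRestrict
    (integralClosure R F').toSubring fun b => isIntegral_algebraMap_of_chart j1 jY hjY b.2

theorem coe_toB (j1 : F1) (jY : R) (hjY : algebraMap R F' jY = algebraMap F1 F' j1)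
    (b : integralClosure (Algebra.adjoin A₁ {j1}) F1) :
    ((toB A₁ j1 jY hjY b : integralClosure R F') : F') = algebraMap F1 F' (b : F1) := rfl

theorem toB_chartEv (j1 : F1) (jY : R) (hjY : algebraMap R F' jY = algebraMap F1 F' j1)
    (s : A₁[X]) :
    toB A₁ j1 jY hjY (chartEv A₁ j1 s) = algebraMap R (integralClosure R F') (aeval jY s) := by
  apply Subtype.ext
  rw [coe_toB, coe_chartEv]
  have h := congrArg (fun φ : A₁[X] →+* F' => φ s) (algebraMap_comp_aeval_eq j1 jY hjY)
  exact h.symm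

theorem toB_chartPi (j1 : F1) (jY : R) (hjY : algebraMap R F' jY = algebraMap F1 F' j1)
    (ϖ : A₁) :
    toB A₁ j1 jY hjY (chartPi ϖ j1) =
      algebraMap R (integralClosure R F') (algebraMap A₁ R ϖ) := by
  rw [← chartEv_C, toB_chartEv, aeval_C]

/-- The integral closure of the line is integral over the chart ring, as soon as the line itself
is integral over `A₁[j1]` inside `F'`. -/
theorem toB_isIntegral (j1 : F1) (jY : R) (hjY : algebraMap R F' jY = algebraMap F1 F' j1)
    (hR : ∀ r : R, IsIntegral (Algebra.adjoin A₁ {algebraMap F1 F' j1}) (algebraMap R F' r)) :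
    (toB A₁ j1 jY hjY).IsIntegral := by
  intro y
  -- `y` is integral over `T = A₁[j1] ⊆ F'`
  set T : Subalgebra A₁ F' := Algebra.adjoin A₁ {algebraMap F1 F' j1} with hT
  have hyT : IsIntegral T (y : F') := by
    obtain ⟨P, hPm, hP⟩ := y.2
    -- coefficients in the integral closure `S` of `T`
    let c : R →+* integralClosure T F' :=
      (algebraMap R F').codRestrict (integralClosure T F').toSubring hR
    have hyS : IsIntegral (integralClosure T F') (y : F') := by
      refine ⟨P.map c, hPm.map c, ?_⟩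
      rw [Polynomial.eval₂_map]
      exact hP
    exact isIntegral_trans (A := integralClosure T F') (y : F') hyS
  obtain ⟨q, hqm, hq⟩ := (H3.isIntegral_adjoin_iff (algebraMap F1 F' j1) (y : F')).mp hyT
  refine ⟨q.map (chartEv A₁ j1), hqm.map _, ?_⟩
  rw [Polynomial.eval₂_map]
  apply Subtype.ext
  have h := Polynomial.hom_eval₂ q ((toB A₁ j1 jY hjY).comp (chartEv A₁ j1))
    (integralClosure R F').val.toRingHom y
  change (integralClosure R F').val.toRingHom
    (q.eval₂ ((toB A₁ j1 jY hjY).comp (chartEv A₁ j1)) y) = _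
  rw [h]
  have hcomp : (integralClosure R F').val.toRingHom.comp ((toB A₁ j1 jY hjY).comp (chartEv A₁ j1)) =
      ((aeval (algebraMap F1 F' j1) : A₁[X] →ₐ[A₁] F') : A₁[X] →+* F') := by
    apply Polynomial.ringHom_ext
    · intro a
      change algebraMap F1 F' (aeval j1 (C a)) = aeval (algebraMap F1 F' j1) (C a)
      rw [aeval_C, aeval_C, ← IsScalarTower.algebraMap_apply A₁ F1 F']
    · change algebraMap F1 F' (aeval j1 X) = aeval (algebraMap F1 F' j1) X
      rw [aeval_X, aeval_X]
  rw [hcomp]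
  exact hq

/-- **The kernel on the chart ring.**  For `(κ, φ, O)` as produced by
`H41.exists_valuationSubring_over` on `B = integralClosure R F'`, the composite
`integralClosure A₁[j1] F1 → B → κ` has kernel `(ϖ)`, provided `(ϖ)` is prime in the chart ring
(INST-2), `A₁ / ϖ` is a field and the line `R` is integral over `A₁[j1]`. -/
theorem ker_comp_toB {k : Type*} [Field k] (res : A₁ →+* k) (hres : Function.Surjective res)
    {ϖ : A₁} (hker : RingHom.ker res = Ideal.span {ϖ})
    (j1 : F1) (jY : R) (hjY : algebraMap R F' jY = algebraMap F1 F' j1)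
    (hR : ∀ r : R, IsIntegral (Algebra.adjoin A₁ {algebraMap F1 F' j1}) (algebraMap R F' r))
    (hprime : (Ideal.span {chartPi ϖ j1}).IsPrime)
    {κ : Type*} [Field κ] (φ : integralClosure R F' →+* κ)
    (hφπ : φ (algebraMap R (integralClosure R F') (algebraMap A₁ R ϖ)) = 0)
    (hfrac : ∀ z : κ, ∃ a b : integralClosure R F', φ b ≠ 0 ∧ z * φ b = φ a)
    (O : ValuationSubring κ) (hO : ∀ b : integralClosure R F', φ b ∈ O) (hOtop : O ≠ ⊤) :
    RingHom.ker (φ.comp (toB A₁ j1 jY hjY)) = Ideal.span {chartPi ϖ j1} := by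
  letI : Algebra (integralClosure (Algebra.adjoin A₁ {j1}) F1) (integralClosure R F') :=
    (toB A₁ j1 jY hjY).toAlgebra
  have hint : Algebra.IsIntegral (integralClosure (Algebra.adjoin A₁ {j1}) F1)
      (integralClosure R F') := ⟨toB_isIntegral j1 jY hjY hR⟩
  refine H41.ker_comp_eq_of_forall_isMaximal φ hfrac O hO hOtop (Ideal.span {chartPi ϖ j1}) ?_ ?_
  · rw [Ideal.span_singleton_le_iff_mem, RingHom.mem_ker, RingHom.comp_apply]
    change φ (toB A₁ j1 jY hjY (chartPi ϖ j1)) = 0
    rw [toB_chartPi, hφπ]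
  · intro Q hQ hlt
    refine isMaximal_of_lt_of_integral res hres hker (chartEv A₁ j1) (chartEv_isIntegral j1)
      (Ideal.span {chartPi ϖ j1}) Q hprime hQ ?_ hlt
    rw [chartEv_C]
    exact Ideal.mem_span_singleton_self _

end Chart

end Fermat.Agent.S16.H17
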