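/-
S16 project, GEO-e instance, part (b) (helper70): **(VERT) and (HOR) of the auxiliary line of
route Q, exported.**

In helper96's `S18.H96.isIntegrallyClosed_specialFibre_of_auxLine` the two PURITY hypotheses
`H41.VertCond` and `H41.HorCond` for the line ring `R' = A₁[μ, 1/f(μ)]`, `K' = Frac R'`,
`F' = F1(μ)` are proved INSIDE the proof.  The (U2b) leaf of S16 needs them as statements (input of
helper41's `S16.H41.exists_valuationSubring_over` / `exists_valuation_eq_zpow` ...).  This file
lifts them out, with the same binders, in the algebra structures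
`R' → F'` : `H26.LineRing.algebraOfCoord f μ hfμ`, `K' → F'` : `FractionRing.liftAlgebra`.
-/
import Fermat.Agent.S18.H96_AuxChartDed

set_option autoImplicit false
set_option linter.unusedSectionVars false
set_option linter.style.haveILetI false

namespace Fermat.Agent.S16.H70

open Polynomial IntermediateField AlgebraicCurve Fermat.Agent.S18

section Main

universe u v

variable {A₁ : Type*} {L1 : Type u} {F1 : Type*} {F' : Type v}
  [CommRing A₁] [IsDomain A₁] [IsDiscreteValuationRing A₁]
  [Field L1] [Algebra A₁ L1] [IsFractionRing A₁ L1] [CharZero L1]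
  [Field F1] [Algebra L1 F1] [Algebra A₁ F1] [IsScalarTower A₁ L1 F1]
  [Field F'] [Algebra F1 F'] [Algebra L1 F'] [IsScalarTower L1 F1 F'] [Algebra A₁ F']
  [IsScalarTower A₁ L1 F']

/-- The bundle of PURITY inputs for the auxiliary line, as a structure-free conjunction.
`R' := H26.LineRing f` acts on `F'` through `μ`, `K' := FractionRing R'` through the lift. -/
def AuxLineConds (f : A₁[X]) [IsDomain (H26.LineRing f)] (μ : F') (hfμ : IsUnit (aeval μ f))
    (hμA : Transcendental A₁ μ) (ϖ : A₁) : Prop :=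
  letI : Algebra (H26.LineRing f) F' := H26.LineRing.algebraOfCoord f μ hfμ
  haveI : FaithfulSMul (H26.LineRing f) F' := H26.LineRing.faithfulSMul_algebraOfCoord f μ hfμ hμA
  letI : Algebra (FractionRing (H26.LineRing f)) F' := FractionRing.liftAlgebra _ _
  FiniteDimensional (FractionRing (H26.LineRing f)) F' ∧
    H41.VertCond (H26.LineRing f) (FractionRing (H26.LineRing f)) F'
      (algebraMap A₁ (H26.LineRing f) ϖ) ∧
    H41.HorCond (H26.LineRing f) (FractionRing (H26.LineRing f)) F'
      (algebraMap A₁ (H26.LineRing f) ϖ)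

set_option maxHeartbeats 1600000 in
set_option synthInstance.maxHeartbeats 400000 in
/-- **(VERT) + (HOR) for one auxiliary-line chart (chart-parametric)**: the internal `hV`, `hH` of
`H96.isIntegrallyClosed_specialFibre_of_auxLine`, exported. -/
theorem auxLineConds
    {ϖ : A₁} (hϖ : Irreducible ϖ)
    {k : Type} [Field k] (res : A₁ →+* k)
    (hker : RingHom.ker res = Ideal.span {ϖ})
    (j1 θ : F1) (hgen : L1⟮j1⟯⟮θ⟯ = ⊤)
    [FiniteDimensional L1⟮j1⟯ F1]
    (μ : F') (hμ : Transcendental L1 μ) (hμtop : F1⟮μ⟯ = ⊤) [FiniteDimensional L1⟮μ⟯ F']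
    (f : A₁[X]) (hf : f.map res ≠ 0) (hfμ : IsUnit (aeval μ f))
    [IsDomain (H26.LineRing f)] (hμA : Transcendental A₁ μ)
    (jY : H26.LineRing f) (hjY : H26.LineRing.liftAlg f μ hfμ jY = algebraMap F1 F' j1)
    (Φ : (H26.LineRing f)[X]) (hΦ : Φ.Monic)
    (hroot : Φ.eval₂ (H26.LineRing.liftAlg f μ hfμ).toRingHom (algebraMap F1 F' θ) = 0)
    (hsep : (Φ.map (H26.LineRing.toRatFunc f res hf)).Separable)
    (hunr : ∀ (v : Place L1 F') (g₀ : L1[X]), Irreducible g₀ →
      ¬ g₀ ∣ f.map (algebraMap A₁ L1) → 0 < v.ord (aeval μ g₀) → v.ord (aeval μ g₀) = 1) :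
    AuxLineConds f μ hfμ hμA ϖ := by
  classical
  unfold AuxLineConds
  have hcz : CharZero A₁ := by
    refine ⟨fun a b hab => ?_⟩
    have : ((a : ℕ) : L1) = ((b : ℕ) : L1) := by
      rw [← map_natCast (algebraMap A₁ L1), ← map_natCast (algebraMap A₁ L1), hab]
    exact Nat.cast_injective this
  have hϖ0 : ϖ ≠ 0 := hϖ.ne_zero
  have hf0 : f ≠ 0 := H26.LineRing.ne_zero_of_map_ne_zero f res hf
  letI algR'F' : Algebra (H26.LineRing f) F' := H26.LineRing.algebraOfCoord f μ hfμ
  have htR' : IsScalarTower A₁ (H26.LineRing f) F' :=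
    H26.LineRing.isScalarTower_algebraOfCoord f μ hfμ
  haveI hfaith : FaithfulSMul (H26.LineRing f) F' :=
    H26.LineRing.faithfulSMul_algebraOfCoord f μ hfμ hμA
  letI algK'F' : Algebra (FractionRing (H26.LineRing f)) F' := FractionRing.liftAlgebra _ _
  have htK' : IsScalarTower (H26.LineRing f) (FractionRing (H26.LineRing f)) F' :=
    FractionRing.isScalarTower_liftAlgebra _ _
  -- ## `F' = K'(θ)`, finite separable
  have hθalg : IsAlgebraic L1⟮j1⟯ θ := Algebra.IsAlgebraic.isAlgebraic θ
  have hinjAK' : Function.Injective ((algebraMap (H26.LineRing f)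
      (FractionRing (H26.LineRing f))).comp (algebraMap A₁ (H26.LineRing f))) :=
    (IsFractionRing.injective (H26.LineRing f) (FractionRing (H26.LineRing f))).comp
      (H26.LineRing.algebraMap_injective f hf0)
  obtain ⟨hgen', hfin'⟩ := H96.adjoin_eq_top_and_finiteDimensional_of_line (A₁ := A₁) (L1 := L1)
    (R' := H26.LineRing f) (K' := FractionRing (H26.LineRing f)) hinjAK' hgen hθalg hμtop
    (H26.LineRing.coord f) jY (H26.LineRing.liftAlg_coord f μ hfμ) hjY
  have hczR' : CharZero (H26.LineRing f) :=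
    charZero_of_injective_algebraMap (H26.LineRing.algebraMap_injective f hf0)
  have hczK' : CharZero (FractionRing (H26.LineRing f)) :=
    charZero_of_injective_algebraMap
      (IsFractionRing.injective (H26.LineRing f) (FractionRing (H26.LineRing f)))
  have hsep' : Algebra.IsSeparable (FractionRing (H26.LineRing f)) F' := inferInstance
  -- ## (VERT)
  have hresϖ : res ϖ = 0 := by
    rw [← RingHom.mem_ker, hker]; exact Ideal.mem_span_singleton_self ϖ
  have hV : H41.VertCond (H26.LineRing f) (FractionRing (H26.LineRing f)) F'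
      (algebraMap A₁ (H26.LineRing f) ϖ) := by
    refine H1.vertCond_of_separable (algebraMap F1 F' θ) hgen' hΦ ?_
      (H26.LineRing.toRatFunc f res hf) hsep ?_
    · rw [Polynomial.aeval_def]; exact hroot
    · rw [H26.LineRing.toRatFunc_algebraMap, hresϖ, map_zero]
  -- ## (HOR)
  have hϖR' : Prime (algebraMap A₁ (H26.LineRing f) ϖ) :=
    H26.LineRing.prime_algebraMap f res hker hϖ0 hf
  have hH : H41.HorCond (H26.LineRing f) (FractionRing (H26.LineRing f)) F'
      (algebraMap A₁ (H26.LineRing f) ϖ) := by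
    haveI := H96.isDedekindDomain_away_lineRing L1 hϖ f hf0
    refine H9.horCond_of_hHOR (algebraMap A₁ (H26.LineRing f) ϖ) hϖR'.ne_zero
      (Localization.Away (algebraMap A₁ (H26.LineRing f) ϖ))
      (fun n hn => H96.isUnit_natCast_away (R := H26.LineRing f) hϖ _ n hn) ?_
    intro V hV hRV hϖV
    refine H96.exists_uniformizer_of_places (K0 := L1) hϖ μ hμ (f.map (algebraMap A₁ L1)) hunr
      (H26.LineRing.coord f) (H26.LineRing.liftAlg_coord f μ hfμ) ?_ V hV hRV hϖV
    refine ⟨H26.LineRing.inv f, ?_⟩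
    rw [Polynomial.aeval_map_algebraMap]
    exact H26.LineRing.liftAlg_inv_mul f μ hfμ
  exact ⟨hfin', hV, hH⟩

end Main

end Fermat.Agent.S16.H70
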