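/-
S16 project, GEO-e instance, part (b) (helper70): **a place of the special fibre of the auxiliary
cover over a given closed point of the auxiliary line, with the line coordinate as uniformiser.**

Chart-parametric (same binders as `S18.H96.isIntegrallyClosed_specialFibre_of_auxLine`).  Inputs:
`H70.auxLineConds` ((VERT) + (HOR) of the line, exported from helper96's proof) and helper41's
abstract GEO-e (`S16.H41.exists_valuationSubring_over`, `valuation_le_of_span_pair`,
`valuation_eq_zpow_of_span_pair`, `sq_ne_of_max_lt_one`).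
-/
import Fermat.Agent.S16.H70_AuxLineConds
import Fermat.Agent.S16.H41_GeoE
import Fermat.Agent.S18.H79_BaseLineRing

set_option autoImplicit false
set_option linter.unusedSectionVars false
set_option linter.style.haveILetI false

namespace Fermat.Agent.S16.H70

open Polynomial IntermediateField AlgebraicCurve Fermat.Agent.S18

section Main

universe u v

variable {A₁ : Type*} {L1 : Type u} {F1 : Type*} {F' : Type v}
  [CommRing A₁] [IsDomain A₁] [IsDiscreteValuationRing A₁]
  [Field L1] [Algebra A₁ L1] [IsFractionRing A₁ L1] [CharZero L1]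
  [Field F1] [Algebra L1 F1] [Algebra A₁ F1] [IsScalarTower A₁ L1 F1]
  [Field F'] [Algebra F1 F'] [Algebra L1 F'] [IsScalarTower L1 F1 F'] [Algebra A₁ F']
  [IsScalarTower A₁ L1 F']

/-- The special fibre of the line is not a point: `R' ⧸ (ϖ)` is not a field. -/
theorem not_isField_lineRing_quotient {ϖ : A₁} {k : Type*} [Field k] (res : A₁ →+* k)
    (hres : Function.Surjective res) (hker : RingHom.ker res = Ideal.span {ϖ})
    (f : A₁[X]) (hf : f.map res ≠ 0) {a : A₁} (hfa : res (f.eval a) ≠ 0) :
    ¬ IsField (H26.LineRing f ⧸ Ideal.span {algebraMap A₁ (H26.LineRing f) ϖ}) := by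
  intro hfield
  have hmax : (Ideal.span {algebraMap A₁ (H26.LineRing f) ϖ}).IsMaximal :=
    Ideal.Quotient.maximal_of_isField _ hfield
  have hmax2 := H26.LineRing.isMaximal_span f res hres hker hfa
  have hle : Ideal.span {algebraMap A₁ (H26.LineRing f) ϖ} ≤
      Ideal.span {algebraMap A₁ (H26.LineRing f) ϖ,
        H26.LineRing.coord f - algebraMap A₁ (H26.LineRing f) a} :=
    Ideal.span_mono (by intro x hx; rw [Set.mem_singleton_iff] at hx; rw [hx]; exact Set.mem_insert _ _)
  have heq := hmax.eq_of_le hmax2.ne_top hle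
  -- `μ - a ∈ (ϖ)` is impossible: it maps to `X - ā ≠ 0` in `k(X)`
  have hmem : H26.LineRing.coord f - algebraMap A₁ (H26.LineRing f) a ∈
      Ideal.span {algebraMap A₁ (H26.LineRing f) ϖ} := by
    rw [heq]; exact Ideal.subset_span (Set.mem_insert_of_mem _ rfl)
  rw [← H26.LineRing.ker_toRatFunc f res hker hf, RingHom.mem_ker, map_sub,
    H26.LineRing.toRatFunc_coord, H26.LineRing.toRatFunc_algebraMap] at hmem
  have hX : (RatFunc.X : RatFunc k) = algebraMap k (RatFunc k) (res a) := sub_eq_zero.mp hmem
  have htr := RatFunc.transcendental_X (K := k)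
  exact htr (hX ▸ isAlgebraic_algebraMap (res a))

set_option maxHeartbeats 1600000 in
set_option synthInstance.maxHeartbeats 400000 in
/-- **A place of the special fibre of the cover over the closed point `μ = a` of the line, with
`μ - a` as uniformiser** (chart-parametric).  `B' := integralClosure R' F'`, `R' := A₁[μ, 1/f(μ)]`
acting on `F'` through `μ`.  Output: a field `κ`, `φ : B' → κ` killing `ϖ` with `κ = Frac (φ B')`,
a valuation subring `O ≠ ⊤` of `κ` containing `φ B'`, such that `t := φ (μ - a)` satisfies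
`t ≠ 0`, `v t < 1`, `v t` is not a square in the value group and every nonzero value is an
integral power of `v t`. -/
theorem exists_place_over_point
    {ϖ : A₁} (hϖ : Irreducible ϖ)
    {k : Type} [Field k] (res : A₁ →+* k) (hres : Function.Surjective res)
    (hker : RingHom.ker res = Ideal.span {ϖ})
    (j1 θ : F1) (hgen : L1⟮j1⟯⟮θ⟯ = ⊤)
    [FiniteDimensional L1⟮j1⟯ F1]
    (μ : F') (hμ : Transcendental L1 μ) (hμtop : F1⟮μ⟯ = ⊤) [FiniteDimensional L1⟮μ⟯ F']
    (f : A₁[X]) (hf : f.map res ≠ 0) (hfμ : IsUnit (aeval μ f))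
    [IsDomain (H26.LineRing f)] (hμA : Transcendental A₁ μ)
    (jY : H26.LineRing f) (hjY : H26.LineRing.liftAlg f μ hfμ jY = algebraMap F1 F' j1)
    (Φ : (H26.LineRing f)[X]) (hΦ : Φ.Monic)
    (hroot : Φ.eval₂ (H26.LineRing.liftAlg f μ hfμ).toRingHom (algebraMap F1 F' θ) = 0)
    (hsep : (Φ.map (H26.LineRing.toRatFunc f res hf)).Separable)
    (hunr : ∀ (v : Place L1 F') (g₀ : L1[X]), Irreducible g₀ →
      ¬ g₀ ∣ f.map (algebraMap A₁ L1) → 0 < v.ord (aeval μ g₀) → v.ord (aeval μ g₀) = 1)
    (a : A₁) (hfa : res (f.eval a) ≠ 0) :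
    letI : Algebra (H26.LineRing f) F' := H26.LineRing.algebraOfCoord f μ hfμ
    ∃ (κ : Type v) (_ : Field κ) (φ : integralClosure (H26.LineRing f) F' →+* κ)
      (O : ValuationSubring κ),
      φ (algebraMap (H26.LineRing f) (integralClosure (H26.LineRing f) F')
        (algebraMap A₁ (H26.LineRing f) ϖ)) = 0 ∧
      (∀ z : κ, ∃ x y : integralClosure (H26.LineRing f) F', φ y ≠ 0 ∧ z * φ y = φ x) ∧
      (∀ b, φ b ∈ O) ∧ O ≠ ⊤ ∧
      φ (algebraMap (H26.LineRing f) (integralClosure (H26.LineRing f) F')
        (H26.LineRing.coord f - algebraMap A₁ (H26.LineRing f) a)) ≠ 0 ∧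
      O.valuation (φ (algebraMap (H26.LineRing f) (integralClosure (H26.LineRing f) F')
        (H26.LineRing.coord f - algebraMap A₁ (H26.LineRing f) a))) < 1 ∧
      (∀ γ : O.ValueGroup, γ ^ 2 ≠
        O.valuation (φ (algebraMap (H26.LineRing f) (integralClosure (H26.LineRing f) F')
          (H26.LineRing.coord f - algebraMap A₁ (H26.LineRing f) a)))) ∧
      (∀ y : κ, y ≠ 0 → ∃ m : ℤ, O.valuation y =
        O.valuation (φ (algebraMap (H26.LineRing f) (integralClosure (H26.LineRing f) F')
          (H26.LineRing.coord f - algebraMap A₁ (H26.LineRing f) a))) ^ m) := by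
  classical
  have hconds := auxLineConds hϖ res hker j1 θ hgen μ hμ hμtop f hf hfμ hμA jY hjY Φ hΦ hroot
    hsep hunr
  unfold AuxLineConds at hconds
  have hϖ0 : ϖ ≠ 0 := hϖ.ne_zero
  have hf0 : f ≠ 0 := H26.LineRing.ne_zero_of_map_ne_zero f res hf
  letI algR'F' : Algebra (H26.LineRing f) F' := H26.LineRing.algebraOfCoord f μ hfμ
  have htR' : IsScalarTower A₁ (H26.LineRing f) F' :=
    H26.LineRing.isScalarTower_algebraOfCoord f μ hfμ
  haveI hfaith : FaithfulSMul (H26.LineRing f) F' :=
    H26.LineRing.faithfulSMul_algebraOfCoord f μ hfμ hμA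
  letI algK'F' : Algebra (FractionRing (H26.LineRing f)) F' := FractionRing.liftAlgebra _ _
  haveI htK' : IsScalarTower (H26.LineRing f) (FractionRing (H26.LineRing f)) F' :=
    FractionRing.isScalarTower_liftAlgebra _ _
  obtain ⟨hfin, hV, hH⟩ := hconds
  haveI := hfin
  haveI : IsNoetherianRing (H26.LineRing f) := H79.Away.isNoetherianRing f
  haveI : IsIntegrallyClosed (H26.LineRing f) := H79.Away.isIntegrallyClosed res f hf
  have hcz : CharZero A₁ := by
    refine ⟨fun a b hab => ?_⟩
    have : ((a : ℕ) : L1) = ((b : ℕ) : L1) := by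
      rw [← map_natCast (algebraMap A₁ L1), ← map_natCast (algebraMap A₁ L1), hab]
    exact Nat.cast_injective this
  haveI hczR' : CharZero (H26.LineRing f) :=
    charZero_of_injective_algebraMap (H26.LineRing.algebraMap_injective f hf0)
  haveI hczK' : CharZero (FractionRing (H26.LineRing f)) :=
    charZero_of_injective_algebraMap
      (IsFractionRing.injective (H26.LineRing f) (FractionRing (H26.LineRing f)))
  haveI hsep' : Algebra.IsSeparable (FractionRing (H26.LineRing f)) F' := inferInstance
  have hπ : Prime (algebraMap A₁ (H26.LineRing f) ϖ) :=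
    H26.LineRing.prime_algebraMap f res hker hϖ0 hf
  haveI hPID : IsPrincipalIdealRing
      (H26.LineRing f ⧸ Ideal.span {algebraMap A₁ (H26.LineRing f) ϖ}) :=
    H26.LineRing.isPrincipalIdealRing_quotient f res hres hker hf
  have hnf := not_isField_lineRing_quotient res hres hker f hf hfa
  have hpmax := H26.LineRing.isMaximal_span f res hres hker hfa
  set t : H26.LineRing f := H26.LineRing.coord f - algebraMap A₁ (H26.LineRing f) a with ht
  set p : Ideal (H26.LineRing f) := Ideal.span {algebraMap A₁ (H26.LineRing f) ϖ, t} with hp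
  have hπp : algebraMap A₁ (H26.LineRing f) ϖ ∈ p := Ideal.subset_span (Set.mem_insert _ _)
  have htp : t ∈ p := Ideal.subset_span (Set.mem_insert_of_mem _ rfl)
  obtain ⟨κ, instκ, φ, O, hφπ, hfrac, hO, hOtop, hlt⟩ :=
    S16.H41.exists_valuationSubring_over (K := FractionRing (H26.LineRing f)) (L := F')
      (B := integralClosure (H26.LineRing f) F') hπ hnf hV hH p hpmax hπp
  -- the centre of `O` on `R'` is `p`
  have hcentre : ∀ r : H26.LineRing f,
      O.valuation (φ (algebraMap (H26.LineRing f) (integralClosure (H26.LineRing f) F') r)) < 1 →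
        r ∈ Ideal.span {algebraMap A₁ (H26.LineRing f) ϖ, t} := by
    intro r hr
    by_contra hrp
    obtain ⟨s, hs⟩ := hpmax.exists_inv hrp
    obtain ⟨q, hq, hsum⟩ := hs
    have h1 : O.valuation (φ (algebraMap (H26.LineRing f) (integralClosure (H26.LineRing f) F')
        (s * r))) < 1 := by
      rw [map_mul, map_mul, map_mul]
      calc O.valuation (φ (algebraMap _ _ s)) * O.valuation (φ (algebraMap _ _ r))
          ≤ 1 * O.valuation (φ (algebraMap _ _ r)) :=
            mul_le_mul_left ((ValuationSubring.valuation_le_one_iff O _).2 (hO _)) _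
        _ = O.valuation (φ (algebraMap _ _ r)) := one_mul _
        _ < 1 := hr
    have h2 : O.valuation (φ (algebraMap (H26.LineRing f) (integralClosure (H26.LineRing f) F')
        q)) < 1 := hlt q hq
    have h3 : O.valuation (φ (algebraMap (H26.LineRing f) (integralClosure (H26.LineRing f) F')
        (s * r + q))) < 1 := by
      rw [map_add, map_add]
      exact lt_of_le_of_lt (Valuation.map_add _ _ _) (max_lt h1 h2)
    rw [hsum, map_one, map_one, map_one] at h3
    exact lt_irrefl _ h3
  have ht_lt := hlt t htp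
  obtain ⟨ht0, htmax⟩ := S16.H41.valuation_le_of_span_pair
    (K := FractionRing (H26.LineRing f)) (L := F') hπ hnf hV hH φ hφπ hfrac O hO hOtop t hcentre
  refine ⟨κ, instκ, φ, O, hφπ, hfrac, hO, hOtop, ht0, ht_lt,
    S16.H41.sq_ne_of_max_lt_one O ht0 ht_lt htmax, ?_⟩
  exact S16.H41.valuation_eq_zpow_of_span_pair (K := FractionRing (H26.LineRing f)) (L := F')
    hπ hnf hV hH φ hφπ hfrac O hO hOtop t ht_lt hcentre

end Main

end Fermat.Agent.S16.H70
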