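/-
S16 project, GEO-e instance (helper17): **the cover data of (U2b) from an auxiliary-line chart**.

Chart-parametric (binder block of helper70's `H70.exists_place_over_point`): the place of the
special fibre of the auxiliary cover over the point `μ = a` of the line (helper70), together with
the embedding of the residue function field `Fk` of the modular chart (helper3's Gauss model) into
its field `κ` (`H17_GeoEmbed`).  Then the Hesse specialisation (`j (μ³+1)³ = μ¹²` in
characteristic two).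
-/
import Fermat.Agent.S16.H17_GeoEmbed
import Fermat.Agent.S16.H70_AuxLinePlace

set_option autoImplicit false
set_option linter.unusedSectionVars false
set_option linter.style.haveILetI false

namespace Fermat.Agent.S16.H17

open Polynomial IntermediateField AlgebraicCurve Fermat.Agent.S18

section Main

universe u v

variable {A₁ : Type*} {L1 : Type u} {F1 : Type*} {F' : Type v}
  [CommRing A₁] [IsDomain A₁] [IsDiscreteValuationRing A₁]
  [Field L1] [Algebra A₁ L1] [IsFractionRing A₁ L1] [CharZero L1]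
  [Field F1] [Algebra L1 F1] [Algebra A₁ F1] [IsScalarTower A₁ L1 F1]
  [Field F'] [Algebra F1 F'] [Algebra L1 F'] [IsScalarTower L1 F1 F'] [Algebra A₁ F']
  [IsScalarTower A₁ L1 F']

set_option maxHeartbeats 1600000 in
set_option synthInstance.maxHeartbeats 400000 in
/-- **Cover data from an auxiliary-line chart** (chart-parametric).  Output: a field `κ`, an
embedding `ι : Fk → κ` of the residue function field of the modular chart, a ring homomorphism
`ρ : R' → κ` from the auxiliary line killing `ϖ`, and a valuation subring `O` of `κ` containing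
`ρ R'`, with `ι x̄ = ρ jY`, `ι` and `ρ` compatible on constants, and `t = ρ (μ - a)` a nonzero
element with `v t < 1` not a square in the value group. -/
theorem exists_cover_of_auxLine
    {ϖ : A₁} (hϖ : Irreducible ϖ)
    {k : Type} [Field k] (res : A₁ →+* k) (hres : Function.Surjective res)
    (hker : RingHom.ker res = Ideal.span {ϖ})
    (j1 θ : F1) (hgen : L1⟮j1⟯⟮θ⟯ = ⊤)
    [FiniteDimensional L1⟮j1⟯ F1]
    (μ : F') (hμ : Transcendental L1 μ) (hμtop : F1⟮μ⟯ = ⊤) [FiniteDimensional L1⟮μ⟯ F']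
    (f : A₁[X]) (hf : f.map res ≠ 0) (hfμ : IsUnit (aeval μ f))
    [IsDomain (H26.LineRing f)] (hμA : Transcendental A₁ μ)
    (jY : H26.LineRing f) (hjY : H26.LineRing.liftAlg f μ hfμ jY = algebraMap F1 F' j1)
    (Φ : (H26.LineRing f)[X]) (hΦ : Φ.Monic)
    (hroot : Φ.eval₂ (H26.LineRing.liftAlg f μ hfμ).toRingHom (algebraMap F1 F' θ) = 0)
    (hsep : (Φ.map (H26.LineRing.toRatFunc f res hf)).Separable)
    (hunr : ∀ (v : Place L1 F') (g₀ : L1[X]), Irreducible g₀ →
      ¬ g₀ ∣ f.map (algebraMap A₁ L1) → 0 < v.ord (aeval μ g₀) → v.ord (aeval μ g₀) = 1)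
    (a : A₁) (hfa : res (f.eval a) ≠ 0)
    (hintμ : IsIntegral (Algebra.adjoin A₁ {algebraMap F1 F' j1}) μ)
    (hintw : IsIntegral (Algebra.adjoin A₁ {algebraMap F1 F' j1})
      (H26.LineRing.liftAlg f μ hfμ (H26.LineRing.inv f)))
    {Fk : Type*} [Field Fk] [Algebra k Fk] {xb θb : Fk}
    (M : H3.GaussModel (R0 := A₁) (F1 := F1) ϖ res j1 θ xb θb)
    (hsat : ∀ y ∈ M.O1, IsIntegral (Algebra.adjoin A₁ {j1}) (algebraMap A₁ F1 ϖ * y) →
      IsIntegral (Algebra.adjoin A₁ {j1}) y)
    (hθ : IsIntegral (Algebra.adjoin A₁ {j1}) θ)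
    (hgenk : ∀ γ : Fk, ∃ s : k[X], aeval xb s ≠ 0 ∧ ∃ g : k[X][X],
      aeval xb s * γ = g.eval₂ ((aeval xb : k[X] →ₐ[k] Fk) : k[X] →+* Fk) θb) :
    ∃ (κ : Type v) (_ : Field κ) (ι : Fk →+* κ) (ρ : H26.LineRing f →+* κ)
      (O : ValuationSubring κ),
      ρ (algebraMap A₁ (H26.LineRing f) ϖ) = 0 ∧ ι xb = ρ jY ∧
      (∀ c : A₁, ι (algebraMap k Fk (res c)) = ρ (algebraMap A₁ (H26.LineRing f) c)) ∧
      (∀ r, ρ r ∈ O) ∧
      ρ (H26.LineRing.coord f - algebraMap A₁ (H26.LineRing f) a) ≠ 0 ∧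
      O.valuation (ρ (H26.LineRing.coord f - algebraMap A₁ (H26.LineRing f) a)) < 1 ∧
      ∀ γ : O.ValueGroup, γ ^ 2 ≠
        O.valuation (ρ (H26.LineRing.coord f - algebraMap A₁ (H26.LineRing f) a)) := by
  classical
  haveI htAF : IsScalarTower A₁ F1 F' := IsScalarTower.of_algebraMap_eq (fun a => by
    rw [IsScalarTower.algebraMap_apply A₁ L1 F', IsScalarTower.algebraMap_apply L1 F1 F',
      ← IsScalarTower.algebraMap_apply A₁ L1 F1])
  letI algR'F' : Algebra (H26.LineRing f) F' := H26.LineRing.algebraOfCoord f μ hfμ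
  haveI htR' : IsScalarTower A₁ (H26.LineRing f) F' :=
    H26.LineRing.isScalarTower_algebraOfCoord f μ hfμ
  obtain ⟨κ, instκ, φ, O, hφπ, hfrac, hO, hOtop, ht0, htlt, hnsq, -⟩ :=
    H70.exists_place_over_point hϖ res hres hker j1 θ hgen μ hμ hμtop f hf hfμ hμA jY hjY Φ hΦ
      hroot hsep hunr a hfa
  have hjY' : algebraMap (H26.LineRing f) F' jY = algebraMap F1 F' j1 := hjY
  have hR : ∀ r : H26.LineRing f, IsIntegral (Algebra.adjoin A₁ {algebraMap F1 F' j1})
      (algebraMap (H26.LineRing f) F' r) :=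
    fun r => H26.LineRing.isIntegral_liftAlg f μ hfμ hintμ hintw r
  -- `(ϖ)` is prime in the chart ring
  have hprime : (Ideal.span {chartPi ϖ j1}).IsPrime := by
    have : Ideal.span {chartPi ϖ j1} = RingHom.ker (chartRed M) := by
      ext b
      rw [RingHom.mem_ker, chartRed_eq_zero_iff M hsat]
    rw [this]
    exact RingHom.ker_isPrime _
  have hkerψ := ker_comp_toB res hres hker j1 jY hjY' hR hprime φ hφπ hfrac O hO hOtop
  obtain ⟨ι, hι⟩ := exists_embedding M hres hsat hθ hgenk (φ.comp (toB A₁ j1 jY hjY')) hkerψ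
  refine ⟨κ, instκ, ι,
    φ.comp (algebraMap (H26.LineRing f) (integralClosure (H26.LineRing f) F')), O, hφπ, ?_, ?_,
    fun r => hO _, ht0, htlt, hnsq⟩
  · -- `ι x̄ = ρ jY`
    have h1 := hι (chartEv A₁ j1 X)
    have h2 : chartRed M (chartEv A₁ j1 X) = xb := by
      rw [chartRed_chartEv, Polynomial.map_X, aeval_X]
    rw [h2, RingHom.comp_apply, toB_chartEv, aeval_X] at h1
    exact h1
  · intro c
    have h1 := hι (chartEv A₁ j1 (C c))
    have h2 : chartRed M (chartEv A₁ j1 (C c)) = algebraMap k Fk (res c) := by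
      rw [chartRed_chartEv, Polynomial.map_C, aeval_C]
    rw [h2, RingHom.comp_apply, toB_chartEv, aeval_C] at h1
    exact h1

end Main

end Fermat.Agent.S16.H17
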