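import Fermat.Agent.S16.H17_SqrtDescent
import Fermat.Agent.S18.H16_FbarBasics

/-!
# S16 (U2b): the `2`-basis `{1, J}` of the function field `k(J, J_N)` in characteristic `2`
(helper17)

`hdec` of `H76.u2_core` / `H76.u2_rel_qseries` / `H41.u2_core_nsq` / `H60_U2Local` at
`F = modularFunctionFieldFullC k N`, `k` perfect of characteristic `2`, `N` odd:
every `y ∈ F` is `A² + J B²`.
-/

set_option autoImplicit false
set_option synthInstance.maxHeartbeats 400000

noncomputable section

namespace Fermat.Agent.S16.H17

open ModularCurve IntermediateField Fermat.Agent.S18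

variable (N : ℕ) [NeZero N] (hN : ¬ 2 ∣ N) (k : Type) [Field k] [CharP k 2]

omit [NeZero N] in
theorem charP_fullC_two : CharP ↥(modularFunctionFieldFullC k N) 2 :=
  (RingHom.charP_iff (algebraMap k ↥(modularFunctionFieldFullC k N))
    (algebraMap k ↥(modularFunctionFieldFullC k N)).injective 2).mp inferInstance

include hN in
/-- **`hdec` for the function field in characteristic `2`.** -/
theorem hdec_fullC (hperf : ∀ c : k, ∃ d : k, d ^ 2 = c)
    (y : ↥(modularFunctionFieldFullC k N)) :
    ∃ A B : ↥(modularFunctionFieldFullC k N), y = A ^ 2 + H16.jK k N * B ^ 2 := by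
  have hf2 : Fact (Nat.Prime 2) := ⟨Nat.prime_two⟩
  have hchar : CharP ↥(modularFunctionFieldFullC k N) 2 := charP_fullC_two N k
  have hsep : Algebra.IsSeparable k⟮H16.jK k N⟯ ↥(modularFunctionFieldFullC k N) :=
    H16.isSeparable_fullC N 2 hN k
  obtain ⟨α, -, β, -, h⟩ := exists_sq_add_mul_sq (k := k) hperf
    (⊤ : IntermediateField k ↥(modularFunctionFieldFullC k N)) (H16.jK k N) trivial
    (fun x _ => Algebra.IsSeparable.isSeparable _ x) (x := y) trivial
  exact ⟨α, β, h⟩

include hN in
/-- The same for an algebraically closed `k`. -/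
theorem hdec_fullC_of_isAlgClosed [IsAlgClosed k] (y : ↥(modularFunctionFieldFullC k N)) :
    ∃ A B : ↥(modularFunctionFieldFullC k N), y = A ^ 2 + H16.jK k N * B ^ 2 :=
  hdec_fullC N hN k (fun c => IsAlgClosed.exists_pow_nat_eq c (by norm_num)) y

end Fermat.Agent.S16.H17
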