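/-
helper76 — S16 leaf (U2b), final packaging.

`HesseCover p` : the geometric input (GEO-e instance, from the S18 Hesse chart at `ℓ = 2`) in one
`Prop`: a perfect field `k` of characteristic two, a field `F'` containing
`F = modularFunctionFieldFullC k p = k(j, j_p)`, with a valuation `v` and a Hesse parameter `μ`,
`j (μ³+1)³ = μ¹²`, whose value is `< 1` and is NOT a square in the value group, `v ≤ 1` on `k`.

`not_cong_two_of_hesseCover` : `HesseCover p`, `p ≡ 3 mod 4` ⟹ `∀ f, ¬ H52.Cong p f 2`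
(= the field `u2b` of `H52.Leaves`, = the last open leaf of S16 for `p ≡ 7 mod 8`).
-/
import Mathlib
import Fermat.Agent.S16.H76_U2RelDescent
import Fermat.Agent.S16.H36_U2Inst

set_option autoImplicit false

namespace Fermat.Agent.S16.H76

open ModularCurve CongruenceSubgroup Fermat.Agent.S28 Fermat.Agent.S18.H16

/-- **The geometric input of (U2b)** (GEO-e instance). -/
def HesseCover (p : ℕ) [NeZero p] : Prop :=
  ∃ (k : Type) (_ : Field k) (_ : CharP k 2) (_ : ∀ c : k, ∃ d : k, d ^ 2 = c)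
    (F' : Type) (_ : Field F') (ι' : modularFunctionFieldFullC k p →+* F')
    (Γ₀ : Type) (_ : LinearOrderedCommGroupWithZero Γ₀) (v : Valuation F' Γ₀) (μ : F'),
    μ ≠ 0 ∧ v μ < 1 ∧ (∀ g : Γ₀, g ^ 2 ≠ v μ) ∧
      ι' (jK k p) * (μ ^ 3 + 1) ^ 3 = μ ^ 12 ∧
      ∀ c : k, v (ι' (algebraMap k (modularFunctionFieldFullC k p) c)) ≤ 1

/-- **The (U2b) leaf from the Hesse cover.** -/
theorem not_cong_two_of_hesseCover (p : ℕ) [hp : Fact p.Prime] (hp4 : p % 4 = 3)
    (hc : haveI : NeZero p := ⟨hp.out.ne_zero⟩; HesseCover p)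
    (f : CuspForm (Gamma0 p) 2) : ¬ H52.Cong p f 2 := by
  intro hf
  have : NeZero p := ⟨hp.out.ne_zero⟩
  have hp2 : p ≠ 2 := by rintro rfl; omega
  obtain ⟨k, _, _, hperf, F', _, ι', Γ₀, _, v, μ, hμ0, hμ, hnsq, hJμ, hk⟩ := hc
  obtain ⟨P, hP, hrel⟩ := exists_rel_of_cong p hp2 f hf k
  exact H36.u2_rel_fullC k hperf p hp.out hp4 ι' (p + 1) (Nat.succ_pos p) P hP hrel v μ hμ0 hμ
    hnsq hJμ hk

end Fermat.Agent.S16.H76
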