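/-
S16 project, GEO-e instance (helper17): **the Hesse cover data of (U2b)**, `H76.HesseCover p`.

* `exists_cover_hesse` : the Hesse chart (`3` invertible, residue characteristic `2`), generic in the
  DVR `A₁` and its fraction field `L1` (binder block of `H96.hGRfin_hesse`): a field `κ`, an
  embedding `ι : Fk → κ`, a valuation subring `O` and `m ∈ κ` with `m ≠ 0`, `v m < 1` not a square
  in the value group, `ι x̄ (m³+1)³ = m¹²`, `v ≤ 1` on the constants.
* `hesseCover` : the concrete call at `A₁ = H45.A0 A 2`, `L₁ = H45.unrCyclo 2`, `N = p`.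
-/
import Fermat.Agent.S16.H17_GeoEInst
import Fermat.Agent.S16.H76_U2Final
import Fermat.Agent.S18.H96_GRFinHesseInst
import Fermat.Agent.S14.H54_Places

set_option autoImplicit false
set_option linter.unusedSectionVars false
set_option linter.style.haveILetI false

namespace Fermat.Agent.S16.H17

open Polynomial IntermediateField AlgebraicCurve ModularCurve Fermat.Agent.S18

noncomputable section

/-- The Hesse equation in characteristic two: `J (m³ - 1)³ = 27 m³ (m³ + 8)³` and `2 = 0` give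
`J (m³ + 1)³ = m¹²`. -/
theorem hesse_char_two {κ : Type*} [CommRing κ] (h2 : (2 : κ) = 0) (J m : κ)
    (h : J * (m ^ 3 - 1) ^ 3 = 27 * (m ^ 3 * (m ^ 3 + 8) ^ 3)) :
    J * (m ^ 3 + 1) ^ 3 = m ^ 12 := by
  linear_combination h + (J * (3 * m ^ 6 + 1) + 13 * m ^ 12 + 324 * m ^ 9 + 2592 * m ^ 6 +
    6912 * m ^ 3) * h2

section Generic

variable {A₁ L1 : Type} [CommRing A₁] [IsDomain A₁] [IsDiscreteValuationRing A₁]
  [Field L1] [Algebra A₁ L1] [IsFractionRing A₁ L1] [CharZero L1] (N : ℕ) [NeZero N]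
  [Algebra A₁ ↥(modularFunctionFieldFullC L1 N)]
  [IsScalarTower A₁ L1 ↥(modularFunctionFieldFullC L1 N)]

set_option maxHeartbeats 1600000 in
set_option synthInstance.maxHeartbeats 400000 in
/-- **The Hesse cover data** (`3` invertible, residue characteristic `2`), generic in `(A₁, L1)`. -/
theorem exists_cover_hesse {ϖ : A₁} (hϖ : Irreducible ϖ)
    {k : Type} [Field k] [CharP k 2] (res : A₁ →+* k) (hres : Function.Surjective res)
    (hker : RingHom.ker res = Ideal.span {ϖ})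
    (h3 : IsUnit (3 : A₁)) (hNk : ((N : ℕ) : k) ≠ 0)
    (hunr : ∀ (v : Place L1 (H70.HesField (H16.jK L1 N)))
      (g₀ : L1[X]), Irreducible g₀ → ¬ g₀ ∣ (X ^ 3 - 1 : L1[X]) →
      0 < v.ord (aeval (H70.hesMu (H16.jK L1 N)) g₀) →
      v.ord (aeval (H70.hesMu (H16.jK L1 N)) g₀) = 1)
    {Fk : Type} [Field Fk] [Algebra k Fk] {xb θb : Fk}
    (M : H3.GaussModel (R0 := A₁) (F1 := ↥(modularFunctionFieldFullC L1 N)) ϖ res
      (H16.jK L1 N) (H16.jNK L1 N) xb θb)
    (Φ : A₁[X][X]) (hΦ : Φ.Monic) (hrootΦ : H3.eval2 (H16.jK L1 N) (H16.jNK L1 N) Φ = 0)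
    (hgenA : ∀ y : ↥(modularFunctionFieldFullC L1 N), ∃ s : A₁[X], s ≠ 0 ∧ ∃ g : A₁[X][X],
      aeval (H16.jK L1 N) s * y = H3.eval2 (H16.jK L1 N) (H16.jNK L1 N) g)
    (hgenk : ∀ γ : Fk, ∃ s : k[X], aeval xb s ≠ 0 ∧ ∃ g : k[X][X],
      aeval xb s * γ = g.eval₂ ((aeval xb : k[X] →ₐ[k] Fk) : k[X] →+* Fk) θb) :
    ∃ (κ : Type) (_ : Field κ) (ι : Fk →+* κ) (O : ValuationSubring κ) (m : κ),
      m ≠ 0 ∧ O.valuation m < 1 ∧ (∀ γ : O.ValueGroup, γ ^ 2 ≠ O.valuation m) ∧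
      ι xb * (m ^ 3 + 1) ^ 3 = m ^ 12 ∧ ∀ c : k, O.valuation (ι (algebraMap k Fk c)) ≤ 1 := by
  classical
  have hNL : ((N : ℕ) : L1) ≠ 0 := Nat.cast_ne_zero.mpr (NeZero.ne N)
  haveI hfin1 : FiniteDimensional L1⟮H16.jK L1 N⟯ (modularFunctionFieldFullC L1 N) :=
    H16.finiteDimensional_fullC_gen N L1 hNL
  have hj1 : Transcendental L1 (H16.jK L1 N) := H16.transcendental_jK L1 N
  have hgen : L1⟮H16.jK L1 N⟯⟮H16.jNK L1 N⟯ = ⊤ := H16.adjoin_jNK_eq_top_gen N L1 hNL
  have hθalg : IsAlgebraic L1⟮H16.jK L1 N⟯ (H16.jNK L1 N) := Algebra.IsAlgebraic.isAlgebraic _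
  have hμ : Transcendental L1 (H70.hesMu (H16.jK L1 N)) := H70.transcendental_hesMu (L := L1) hj1
  have hμtop : (↥(modularFunctionFieldFullC L1 N))⟮H70.hesMu (H16.jK L1 N)⟯ = ⊤ :=
    H70.adjoin_hesMu (H16.jK L1 N)
  haveI hfinμ : FiniteDimensional L1⟮H70.hesMu (H16.jK L1 N)⟯ (H70.HesField (H16.jK L1 N)) :=
    H70.finiteDimensional_hesField_over (L := L1) (KY := L1⟮H70.hesMu (H16.jK L1 N)⟯) hgen hθalg
      (AdjoinSimple.gen L1 (H70.hesMu (H16.jK L1 N)))
      (AdjoinSimple.algebraMap_gen L1 (H70.hesMu (H16.jK L1 N)))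
  -- the Hesse line
  have hfμ : IsUnit (aeval (H70.hesMu (H16.jK L1 N)) (H26.hesLineF A₁)) := by
    rw [H26.aeval_hesLineF]
    refine IsUnit.mk0 _ fun h0 => H70.hesB_hesMu_ne_zero (H16.jK L1 N) ?_
    unfold H26.hesB
    rw [h0]; ring
  have hJ : H26.hesJ (H70.hesMu (H16.jK L1 N)) =
      algebraMap ↥(modularFunctionFieldFullC L1 N) (H70.HesField (H16.jK L1 N)) (H16.jK L1 N) :=
    H70.hesJ_hesMu (H16.jK L1 N)
  have hjY : H26.LineRing.liftAlg (H26.hesLineF A₁) (H70.hesMu (H16.jK L1 N)) hfμ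
      (H26.HesLine.jY A₁) =
      algebraMap ↥(modularFunctionFieldFullC L1 N) (H70.HesField (H16.jK L1 N)) (H16.jK L1 N) := by
    rw [H26.HesLine.liftAlg_jY, hJ]
  have hint : ∀ r : H26.HesLine A₁, IsIntegral (Algebra.adjoin A₁
      {algebraMap ↥(modularFunctionFieldFullC L1 N) (H70.HesField (H16.jK L1 N)) (H16.jK L1 N)})
      (H26.LineRing.liftAlg (H26.hesLineF A₁) (H70.hesMu (H16.jK L1 N)) hfμ r) := by
    intro r
    rw [← hJ]
    exact H26.HesLine.isIntegral_liftAlg_adjoin_hesJ h3 _ hfμ r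
  have hintμ := hint (H26.LineRing.coord (H26.hesLineF A₁))
  rw [H26.LineRing.liftAlg_coord] at hintμ
  -- (VERT)
  obtain ⟨D, hD, -⟩ := H16.exists_modPoly_gen N
  have h3k : (3 : k) ≠ 0 := by
    have := h3.map res
    rw [map_ofNat] at this
    exact this.ne_zero
  have hsep : ((H16.modPolyAt D (H26.HesLine.jY A₁)).map
      (H26.LineRing.toRatFunc (H26.hesLineF A₁) res (H26.HesLine.map_ne_zero res))).Separable := by
    refine H16.separable_map_modPolyAt (K := k) hNk D hD _ _ ?_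
    rw [H26.HesLine.toRatFunc_jY]
    exact H26.transcendental_hesJ RatFunc.transcendental_X h3k
  have hroot : (H16.modPolyAt D (H26.HesLine.jY A₁)).eval₂
      (H26.LineRing.liftAlg (H26.hesLineF A₁) (H70.hesMu (H16.jK L1 N)) hfμ).toRingHom
      (algebraMap ↥(modularFunctionFieldFullC L1 N) (H70.HesField (H16.jK L1 N))
        (H16.jNK L1 N)) = 0 := by
    rw [← Polynomial.eval_map, H16.modPolyAt_map]
    have : (H26.LineRing.liftAlg (H26.hesLineF A₁) (H70.hesMu (H16.jK L1 N)) hfμ).toRingHom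
        (H26.HesLine.jY A₁) = algebraMap ↥(modularFunctionFieldFullC L1 N)
          (H70.HesField (H16.jK L1 N)) (H16.jK L1 N) := hjY
    rw [this]
    exact H16.eval_modPolyAt_of_hom N D L1
      (algebraMap ↥(modularFunctionFieldFullC L1 N) (H70.HesField (H16.jK L1 N)))
  -- Gauss model side
  have hϖp : Prime ϖ := hϖ.prime
  have hπϖ : res ϖ = 0 := by
    rw [← RingHom.mem_ker, hker]; exact Ideal.mem_span_singleton_self ϖ
  have hx1 : Transcendental A₁ (H16.jK L1 N) :=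
    H40.transcendental_of_tower (K := L1) _ (H16.transcendental_jK L1 N)
  have hμA : Transcendental A₁ (H70.hesMu (H16.jK L1 N)) :=
    H40.transcendental_of_tower (K := L1) _ hμ
  have hsat := M.hsat hϖp hπϖ hx1 Φ hΦ hrootΦ hgenA
  have hθ : IsIntegral (Algebra.adjoin A₁ {H16.jK L1 N}) (H16.jNK L1 N) :=
    (H3.isIntegral_adjoin_iff _ _).mpr ⟨Φ, hΦ, hrootΦ⟩
  have hf0 : H26.hesLineF A₁ ≠ 0 :=
    H26.LineRing.ne_zero_of_map_ne_zero _ res (H26.HesLine.map_ne_zero res)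
  haveI hdom : IsDomain (H26.LineRing (H26.hesLineF A₁)) := H26.LineRing.isDomain _ hf0
  have hfa : res ((H26.hesLineF A₁).eval 0) ≠ 0 := by
    rw [H26.eval_hesLineF]
    simp
  obtain ⟨κ, instκ, ι, ρ, O, hρπ, hιx, hιc, hρO, ht0, htlt, hnsq⟩ :=
    exists_cover_of_auxLine (L1 := L1) hϖ res hres hker (H16.jK L1 N) (H16.jNK L1 N) hgen
      (H70.hesMu (H16.jK L1 N)) hμ hμtop (H26.hesLineF A₁) (H26.HesLine.map_ne_zero res) hfμ hμA
      (H26.HesLine.jY A₁) hjY (H16.modPolyAt D (H26.HesLine.jY A₁)) (H16.modPolyAt_monic D _)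
      hroot hsep
      (by
        intro v g₀ hirr hnd
        rw [H26.hesLineF_map] at hnd
        exact hunr v g₀ hirr hnd)
      0 hfa hintμ (hint (H26.LineRing.inv (H26.hesLineF A₁))) M hsat hθ hgenk
  -- `2 = 0` in `κ`
  have h2k : res 2 = 0 := by
    rw [map_ofNat]
    exact CharTwo.two_eq_zero
  have h2κ : (2 : κ) = 0 := by
    have hmem : (2 : A₁) ∈ Ideal.span {ϖ} := by rw [← hker, RingHom.mem_ker]; exact h2k
    obtain ⟨c, hc⟩ := Ideal.mem_span_singleton'.1 hmem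
    have : ρ (algebraMap A₁ _ (2 : A₁)) = 0 := by
      rw [← hc, map_mul, map_mul, hρπ, mul_zero]
    rwa [map_ofNat, map_ofNat] at this
  rw [map_zero, sub_zero] at ht0 htlt hnsq
  refine ⟨κ, instκ, ι, O, ρ (H26.LineRing.coord (H26.hesLineF A₁)), ht0, htlt, hnsq, ?_, ?_⟩
  · rw [hιx]
    apply hesse_char_two h2κ
    have h := congrArg ρ (H26.HesLine.hesA_mu A₁)
    have hjYdef : H26.HesLine.jY A₁ = 27 * H26.HesLine.cY A₁ := rfl
    rw [hjYdef, map_mul, map_ofNat]
    unfold H26.hesA H26.hesB at h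
    simp only [map_mul, map_pow, map_add, map_sub, map_one, map_ofNat] at h
    have hmu : H26.HesLine.mu A₁ = H26.LineRing.coord (H26.hesLineF A₁) := rfl
    rw [hmu] at h
    linear_combination (-27 : κ) * h
  · intro c
    obtain ⟨c', rfl⟩ := hres c
    rw [hιc]
    exact (ValuationSubring.valuation_le_one_iff O _).2 (hρO _)

end Generic

section Inst

variable (N : ℕ) [NeZero N] (hN2 : ¬ 2 ∣ N)
variable (A : ValuationSubring (AlgebraicClosure ℚ)) (hA : A.LiesOverPrime 2)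

local notation "kA" => IsLocalRing.ResidueField A
local notation "FkA" => modularFunctionFieldFullC (IsLocalRing.ResidueField A) N

include hN2 hA in
set_option maxHeartbeats 4000000 in
set_option synthInstance.maxHeartbeats 400000 in
/-- **The Hesse cover data at the concrete model** `A₁ = H45.A0 A 2`, `L₁ = H45.unrCyclo 2`. -/
theorem exists_cover_hesse_inst :
    ∃ (κ : Type) (_ : Field κ) (ι : FkA →+* κ) (O : ValuationSubring κ) (m : κ),
      m ≠ 0 ∧ O.valuation m < 1 ∧ (∀ γ : O.ValueGroup, γ ^ 2 ≠ O.valuation m) ∧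
      ι (H16.jK kA N) * (m ^ 3 + 1) ^ 3 = m ^ 12 ∧
      ∀ c : kA, O.valuation (ι (algebraMap kA FkA c)) ≤ 1 := by
  haveI hdvr : IsDiscreteValuationRing (H45.A0 A 2) :=
    H45.isDiscreteValuationRing_A0 Nat.prime_two hA
  haveI hchar : CharP kA 2 := H45.charP_residueField Nat.prime_two hA
  obtain ⟨M⟩ := H3.nonempty_gaussModel_inst N hN2 A hA
  obtain ⟨-, -, -, Φ, hΦ, hroot, hgen⟩ := H3.inst_facts N A hA
  have hNk : ((N : ℕ) : kA) ≠ 0 := H45.natCast_ne_zero_residueField Nat.prime_two hA hN2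
  have hgenk : ∀ γ : FkA, ∃ s : kA[X], aeval (H16.jK kA N) s ≠ 0 ∧ ∃ g : kA[X][X],
      aeval (H16.jK kA N) s * γ =
        g.eval₂ ((aeval (H16.jK kA N) : kA[X] →ₐ[kA] FkA) : kA[X] →+* FkA) (H16.jNK kA N) :=
    fun γ => H67.exists_repr_of_adjoin_eq_top (H16.jK kA N) (H16.jNK kA N)
      (H16.isIntegral_jNK_gen N kA hNk) (H16.adjoin_jNK_eq_top_gen N kA hNk) γ
  exact exists_cover_hesse N (H45.irreducible_natCast_A0 Nat.prime_two hA) (H45.resA0 A 2)
    (H45.resA0_surjective Nat.prime_two hA) (H45.ker_resA0_eq_span Nat.prime_two hA)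
    (H45.isUnit_three_A0 Nat.prime_two hA (by norm_num)) hNk (H55.hunr_hesse 2 N) M Φ hΦ hroot
    hgen hgenk

end Inst

/-- **`H76.HesseCover p` for every odd prime `p`**: the geometric input of the (U2b) leaf. -/
theorem hesseCover (p : ℕ) [hp : Fact p.Prime] (hp2 : p ≠ 2) :
    haveI : NeZero p := ⟨hp.out.ne_zero⟩
    H76.HesseCover p := by
  haveI : NeZero p := ⟨hp.out.ne_zero⟩
  obtain ⟨A, hA⟩ := Fermat.Agent.S14.H54.exists_liesOverPrime_place Nat.prime_two
  have hN2 : ¬ 2 ∣ p := fun h =>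
    hp2 ((Nat.prime_dvd_prime_iff_eq Nat.prime_two hp.out).1 h).symm
  obtain ⟨κ, instκ, ι, O, m, hm0, hm, hnsq, hJ, hk⟩ := exists_cover_hesse_inst p hN2 A hA
  haveI hchar : CharP (IsLocalRing.ResidueField A) 2 :=
    H45.charP_residueField Nat.prime_two hA
  haveI halg : IsAlgClosed (IsLocalRing.ResidueField A) := H45.isAlgClosed_residueField A
  exact ⟨IsLocalRing.ResidueField A, inferInstance, hchar,
    fun c => IsAlgClosed.exists_pow_nat_eq c (by norm_num), κ, instκ, ι, O.ValueGroup,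
    inferInstance, O.valuation, m, hm0, hm, hnsq, hJ, hk⟩

end

end Fermat.Agent.S16.H17

namespace Fermat.Agent.S16.H17

open ModularCurve CongruenceSubgroup in
/-- **The last leaf of S16** (`(U2b)`, all primes `p ≡ 3 mod 4`): no cusp form of weight two and
level `Γ₀(p)` satisfies `H52.Cong p f 2`. -/
theorem not_cong_two_final (p : ℕ) [hp : Fact p.Prime] (hp4 : p % 4 = 3)
    (f : CuspForm (Gamma0 p) 2) : ¬ H52.Cong p f 2 :=
  H76.not_cong_two_of_hesseCover p hp4 (hesseCover p (by rintro rfl; omega)) f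

end Fermat.Agent.S16.H17
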