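import Mathlib

/-!
# S16, package (U,2; p = 3 mod 4): the parity count at a Hesse-uniformised place (helper17)

Characteristic `2`, abstract, Mathlib only.  `K` a field with a valuation `v` (think: the
fraction field of the DVR `B'_{M'}/(2)` of route Q at the Hesse point `μ = 0`, `v μ` a generator of
the value group), `J = μ¹²/(μ³+1)³` (the Hesse `j`-function mod `2`).

If `H = a² + J b²` (the `2`-basis decomposition of `H` in the subfield `F_k ∋ a, b, J`) and `v H`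
is an ODD power of `v μ`, then `v (J b² / H) = (v μ)⁻³`.

In the application `H⁴ = u_p / J^n` (`n` odd), so `v H = (v μ)^(-3n)`, and `J b² / H = θ H / H = e`
is the reduction of a weight-`2` cusp form congruent to the Eisenstein series mod `2`; the
regularity bound `v (e⁶ J) ≤ 1` gives `v e ≤ (v μ)⁻²`: contradiction.
-/

set_option autoImplicit false

namespace Fermat.Agent.S16.H17

variable {K Γ₀ : Type*} [Field K] [CharP K 2] [LinearOrderedCommGroupWithZero Γ₀]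

/-- The Hesse `j`-function in characteristic `2`. -/
noncomputable def hesJ2 (μ : K) : K := μ ^ 12 / (μ ^ 3 + 1) ^ 3

omit [CharP K 2] in
/-- `hesJ2 μ = s² + μ (s μ)²` with `s = μ⁶/(μ³+1)²` (valid in every characteristic). -/
theorem hesJ2_eq (μ : K) (h1 : μ ^ 3 + 1 ≠ 0) :
    hesJ2 μ = (μ ^ 6 / (μ ^ 3 + 1) ^ 2) ^ 2 + μ * (μ ^ 6 / (μ ^ 3 + 1) ^ 2 * μ) ^ 2 := by
  unfold hesJ2
  field_simp
  ring

/-- `a² + J b² = (a + s b)² + μ (s μ b)²` in characteristic `2`. -/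
theorem sq_add_hesJ2_mul_sq (μ a b : K) (h1 : μ ^ 3 + 1 ≠ 0) :
    a ^ 2 + hesJ2 μ * b ^ 2 =
      (a + μ ^ 6 / (μ ^ 3 + 1) ^ 2 * b) ^ 2 + μ * (μ ^ 6 / (μ ^ 3 + 1) ^ 2 * μ * b) ^ 2 := by
  have h2 : (2 : K) = 0 := CharP.ofNat_eq_zero K 2
  rw [hesJ2_eq μ h1]
  linear_combination (-(a * (μ ^ 6 / (μ ^ 3 + 1) ^ 2 * b))) * h2

/-- An odd power of a non-square is not a square. -/
theorem zpow_odd_ne_sq {g : Γ₀} (hg0 : g ≠ 0) (hnsq : ∀ x : Γ₀, x ^ 2 ≠ g) {m : ℤ} (hm : Odd m)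
    (y : Γ₀) : y ^ 2 ≠ g ^ m := by
  obtain ⟨t, rfl⟩ := hm
  intro h
  apply hnsq (y / g ^ t)
  have hgt : g ^ t ≠ 0 := zpow_ne_zero t hg0
  have hpow : g ^ (2 * t + 1) = (g ^ t) ^ 2 * g := by
    rw [zpow_add₀ hg0, zpow_one, mul_comm 2 t, zpow_mul, zpow_ofNat]
  rw [div_pow, h, hpow]
  field_simp

/-- **Parity count.** `v μ` not a square in the value group, `μ³ + 1` a unit, `H = a² + J b²`
with `v H` an odd power of `v μ`.  Then `v (J b² / H) = (v μ)⁻³`. -/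
theorem val_hesJ2_mul_sq_div (v : Valuation K Γ₀) (μ a b H : K) (hμ0 : μ ≠ 0)
    (hunit : v (μ ^ 3 + 1) = 1) (hnsq : ∀ g : Γ₀, g ^ 2 ≠ v μ)
    (hH : H = a ^ 2 + hesJ2 μ * b ^ 2) {m : ℤ} (hm : Odd m) (hvH : v H = v μ ^ m) :
    v (hesJ2 μ * b ^ 2 / H) = (v μ)⁻¹ ^ 3 := by
  have h1 : μ ^ 3 + 1 ≠ 0 := fun h => by simp [h] at hunit
  have hvμ : v μ ≠ 0 := (Valuation.ne_zero_iff v).mpr hμ0
  set s : K := μ ^ 6 / (μ ^ 3 + 1) ^ 2 with hs
  set A : K := a + s * b with hA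
  set B : K := s * μ * b with hB
  have hHAB : H = A ^ 2 + μ * B ^ 2 := by rw [hH, sq_add_hesJ2_mul_sq μ a b h1]
  -- `B ≠ 0`
  have hB0 : B ≠ 0 := by
    intro h0
    rw [h0] at hHAB
    have : v H = v A ^ 2 := by rw [hHAB]; simp
    exact zpow_odd_ne_sq hvμ hnsq hm (v A) (this ▸ hvH)
  have hvB : v B ≠ 0 := (Valuation.ne_zero_iff v).mpr hB0
  -- the two summands have distinct valuations
  have hne : v (A ^ 2) ≠ v (μ * B ^ 2) := by
    intro h
    rw [map_pow, map_mul, map_pow] at h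
    apply hnsq (v A / v B)
    rw [div_pow, h]
    field_simp
  have hmax : v H = max (v (A ^ 2)) (v (μ * B ^ 2)) := by
    rw [hHAB]; exact Valuation.map_add_of_distinct_val v hne
  have hvH' : v H = v μ * v B ^ 2 := by
    rcases max_choice (v (A ^ 2)) (v (μ * B ^ 2)) with h | h
    · rw [h, map_pow] at hmax
      exact absurd (hmax ▸ hvH) (Ne.symm (zpow_odd_ne_sq hvμ hnsq hm (v A)).symm)
    · rw [h, map_mul, map_pow] at hmax
      exact hmax
  -- `J b² = (μ³+1) B² / μ²`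
  have hJb : hesJ2 μ * b ^ 2 = (μ ^ 3 + 1) * B ^ 2 / μ ^ 2 := by
    rw [hB, hs]
    unfold hesJ2
    field_simp
  have hH0 : H ≠ 0 := by
    intro h0
    rw [h0, map_zero] at hvH'
    exact mul_ne_zero hvμ (pow_ne_zero 2 hvB) hvH'.symm
  rw [hJb, map_div₀, map_div₀, map_mul, map_pow, map_pow, hunit, one_mul, hvH']
  field_simp

end Fermat.Agent.S16.H17
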