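import Fermat.Agent.S24.H28_JBridge
import Fermat.Agent.S16.H95_LevelOneStructure
import Fermat.Agent.S16.H12_DeltaMod3

/-!
# S16: the formal Jacobi identity `1728 · q ∏ (1 - qⁿ)²⁴ = E₄³ - E₆²` in `ℤ⟦q⟧` (helper17)

Bridges the three integral `E₄`/`E₆` series on main (Prelude `ModularCurve.eisenstein4`,
`H95.e4Z`/`H95.e6Z`, `H12.eisQ`/`H12.eisR`) and the product form of the discriminant used by the
Prelude `j`-expansion (`ModularCurve.dedekindEtaUnit = etaProd ^ 24`).
-/

set_option autoImplicit false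

noncomputable section

namespace Fermat.Agent.S16.H17

open PowerSeries UpperHalfPlane ModularForm Metric Topology Filter

/-- The formal discriminant `q ∏ (1 - qⁿ)^24` over `ℤ`. -/
def deltaZ : ℤ⟦X⟧ := X * ModularCurve.dedekindEtaUnit

theorem taylorPS_id : Fermat.Agent.S24.H28.taylorPS (fun q : ℂ => q) = (X : ℂ⟦X⟧) := by
  have h := Fermat.Agent.S24.H28.taylorPS_polynomial (Polynomial.X : Polynomial ℂ)
  simpa using h

/-- The `q`-expansion of Mathlib's discriminant is the product form. -/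
theorem qExpansion_discriminant_eq :
    qExpansion 1 ModularForm.discriminant = deltaZ.map (Int.castRingHom ℂ) := by
  rw [Fermat.Agent.S24.H28.taylorPS_eq_qExpansion]
  have h1 : cuspFunction 1 ModularForm.discriminant =ᶠ[𝓝 0]
      ((fun q : ℂ => q) * (Fermat.Agent.S24.H28.eulerPhi ^ 24)) := by
    filter_upwards [ball_mem_nhds (0 : ℂ) one_pos] with q hq
    rw [ModularForm.discriminant_cuspFunction_eqOn hq]
    simp only [Pi.mul_apply, Pi.pow_apply, Fermat.Agent.S24.H28.eulerPhi]
    congr 1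
    have hm : Multipliable (fun n : ℕ => 1 - q ^ (n + 1)) :=
      ModularForm.multipliableLocallyUniformlyOn_one_sub_pow.multipliable hq
    exact hm.tprod_pow 24
  rw [Fermat.Agent.S24.H28.taylorPS_congr h1]
  have hφ := Fermat.Agent.S24.H28.analyticAt_zero_of_differentiableOn_ball
    Fermat.Agent.S24.H28.differentiableOn_eulerPhi
  have hid : AnalyticAt ℂ (fun q : ℂ => q) 0 := analyticAt_id
  rw [Fermat.Agent.S24.H28.taylorPS_mul hid (hφ.pow 24), Fermat.Agent.S24.H28.taylorPS_pow hφ,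
    Fermat.Agent.S24.H28.taylorPS_eulerPhi, taylorPS_id, deltaZ, ModularCurve.dedekindEtaUnit,
    map_mul, map_pow, map_X]

theorem e4Z_eq_eisQ : H95.e4Z = H12.eisQ := by
  ext n
  simp only [H95.e4Z, H12.eisQ, coeff_mk, map_add, coeff_one]
  have h240 : (240 : ℤ⟦X⟧) = C (240 : ℤ) := by simp
  rw [h240, coeff_C_mul, H12.coeff_sigmaSeries]
  split_ifs with h
  · subst h; simp
  · simp

theorem e6Z_eq_eisR : H95.e6Z = H12.eisR := by
  ext n
  simp only [H95.e6Z, H12.eisR, coeff_mk, map_sub, coeff_one]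
  have h504 : (504 : ℤ⟦X⟧) = C (504 : ℤ) := by simp
  rw [h504, coeff_C_mul, H12.coeff_sigmaSeries]
  split_ifs with h
  · subst h; simp
  · simp

theorem eisenstein4_eq_eisQ : ModularCurve.eisenstein4 = H12.eisQ := by
  rw [← e4Z_eq_eisQ]
  ext n
  simp only [ModularCurve.eisenstein4, H95.e4Z, coeff_mk]
  split_ifs with h
  · rfl
  · rw [ArithmeticFunction.sigma_apply]; push_cast; rfl

/-- **The formal Jacobi identity** `1728 · q ∏ (1 - qⁿ)^24 = E₄³ - E₆²` in `ℤ⟦q⟧`. -/
theorem jacobi_formal : 1728 * deltaZ = H12.eisQ ^ 3 - H12.eisR ^ 2 := by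
  have hinj : Function.Injective (PowerSeries.map (Int.castRingHom ℂ)) := by
    intro a b hab
    ext n
    have := congrArg (coeff n) hab
    rw [coeff_map, coeff_map] at this
    exact Int.cast_injective this
  apply hinj
  rw [map_mul, ← qExpansion_discriminant_eq, H95.qExpansion_discriminant, H95.ev_disc,
    map_sub, map_pow, map_pow, ← e4Z_eq_eisQ, ← e6Z_eq_eisR]
  have h1728 : (1728 : ℤ⟦X⟧).map (Int.castRingHom ℂ) = C (1728 : ℂ) := by
    have : (1728 : ℤ⟦X⟧) = C (1728 : ℤ) := by simp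
    rw [this, map_C]; simp
  rw [h1728]
  ext n
  rw [coeff_C_mul, coeff_smul]
  show (1728 : ℂ) * ((1 / 1728 : ℂ) * _) = _
  rw [← mul_assoc]
  norm_num
  rfl

end Fermat.Agent.S16.H17
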