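import Mathlib

/-!
# S16 (U,3; p = 2 mod 3): no proper intermediate field (helper17)

Abstract, Mathlib only.  `E = K(θ)`, `Φ = minpoly K θ` of degree `p + 1` splits in an overfield `W`
(via `ι : E →+* W`) as `(X - ι θ) * ∏_{i : ZMod p} (X - ρ i)` with `p + 1` DISTINCT roots, and a ring
endomorphism `σ` of `W` fixes `ι E` pointwise and shifts `ρ i ↦ ρ (i + 1)` (`p` prime).
Then `E/K` has no proper intermediate field.

Application: `K = k(J)`, `E = k(J, J_p) ⊆ k((q))`, `W = k((t))`, `ι = (q ↦ t^p)`,
`ρ i = J(ζ^i t)`, `σ = (t ↦ ζ t)`; the splitting is `RootsAt` of the S28 modular polynomial.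
-/

set_option autoImplicit false

open Polynomial IntermediateField

namespace Fermat.Agent.S16.H17

variable {K E W : Type*} [Field K] [Field E] [Algebra K E] [Field W]

/-- If `σ` fixes the coefficients of `g` and `g r = 0` then `g (σ r) = 0`. -/
theorem eval_map_eq_zero_of_fixed (σ : W →+* W) (g : W[X]) (hg : g.map σ = g) {r : W}
    (hr : g.eval r = 0) : g.eval (σ r) = 0 := by
  have := congrArg σ hr
  rw [map_zero, ← Polynomial.eval_map_apply, hg] at this
  exact this

theorem intermediate_eq_bot_or_top (p : ℕ) [Fact p.Prime] (θ : E)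
    (hgen : IntermediateField.adjoin K {θ} = ⊤) (hint : IsIntegral K θ)
    (ι : E →+* W) (σ : W →+* W) (hσ : ∀ x : E, σ (ι x) = ι x)
    (ρ : ZMod p → W) (hρinj : Function.Injective ρ) (hρθ : ∀ i, ρ i ≠ ι θ)
    (hσρ : ∀ i, σ (ρ i) = ρ (i + 1))
    (hsplit : ((minpoly K θ).map (algebraMap K E)).map ι =
      (X - C (ι θ)) * ∏ i : ZMod p, (X - C (ρ i)))
    (M : IntermediateField K E) : M = ⊥ ∨ M = ⊤ := by
  classical
  have hintM : IsIntegral M θ := hint.tower_top
  set g : (↥M)[X] := minpoly M θ with hg
  set ιM : ↥M →+* W := ι.comp (algebraMap M E) with hιM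
  set gW : W[X] := g.map ιM with hgW
  have hgmonic : g.Monic := minpoly.monic hintM
  have hgWmonic : gW.Monic := hgmonic.map ιM
  have hdeg : gW.natDegree = g.natDegree := hgmonic.natDegree_map ιM
  -- `g ∣ Φ` over `M`, hence over `W`
  have hdvdM : g ∣ (minpoly K θ).map (algebraMap K M) :=
    minpoly.dvd_map_of_isScalarTower K M θ
  have hdvd : gW ∣ (X - C (ι θ)) * ∏ i : ZMod p, (X - C (ρ i)) := by
    rw [← hsplit]
    have h1 := Polynomial.map_dvd ιM hdvdM
    rw [Polynomial.map_map] at h1
    rw [Polynomial.map_map]
    have hcomp : ιM.comp (algebraMap K M) = ι.comp (algebraMap K E) := by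
      ext x; rfl
    rwa [hcomp] at h1
  -- `σ` fixes `gW`
  have hfix : gW.map σ = gW := by
    rw [hgW, Polynomial.map_map]
    congr 1
    ext x
    exact hσ _
  -- `ι θ` is a root
  have hrootθ : gW.eval (ι θ) = 0 := by
    have h0 : Polynomial.aeval θ g = 0 := minpoly.aeval M θ
    have h1 : gW.eval (ι θ) = ι (Polynomial.aeval θ g) := by
      rw [hgW, hιM, ← Polynomial.map_map, Polynomial.eval_map_apply, Polynomial.aeval_def,
        Polynomial.eval₂_eq_eval_map]
    rw [h1, h0, map_zero]
  by_cases hex : ∃ i, gW.eval (ρ i) = 0
  · -- all `ρ i` are roots: `deg g = p + 1`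
    left
    obtain ⟨i0, hi0⟩ := hex
    have hall : ∀ j : ℕ, gW.eval (ρ (i0 + j)) = 0 := by
      intro j
      induction j with
      | zero => simpa using hi0
      | succ j ih =>
        have := eval_map_eq_zero_of_fixed σ gW hfix ih
        rw [hσρ] at this
        convert this using 3
        push_cast
        ring
    have hall' : ∀ i, gW.eval (ρ i) = 0 := by
      intro i
      have := hall (i - i0).val
      rwa [ZMod.natCast_zmod_val, add_sub_cancel] at this
    -- `p + 1` distinct roots
    let S : Finset W := insert (ι θ) (Finset.univ.image ρ)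
    have hScard : S.card = p + 1 := by
      rw [Finset.card_insert_of_notMem, Finset.card_image_of_injective _ hρinj, Finset.card_univ,
        ZMod.card]
      simp only [Finset.mem_image, Finset.mem_univ, true_and, not_exists]
      exact fun i => hρθ i
    have hSroots : S.val ⊆ gW.roots := by
      intro r hr
      rw [Finset.mem_val, Finset.mem_insert, Finset.mem_image] at hr
      rw [Polynomial.mem_roots hgWmonic.ne_zero, Polynomial.IsRoot.def]
      rcases hr with rfl | ⟨i, -, rfl⟩
      · exact hrootθ
      · exact hall' i
    have hle : p + 1 ≤ g.natDegree := by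
      rw [← hdeg, ← hScard]
      exact Polynomial.card_le_degree_of_subset_roots hSroots
    -- degrees
    have hΦdeg : (minpoly K θ).natDegree = p + 1 := by
      have h1 : (((minpoly K θ).map (algebraMap K E)).map ι).natDegree = p + 1 := by
        rw [hsplit, Polynomial.natDegree_mul (X_sub_C_ne_zero _)
          (Finset.prod_ne_zero_iff.mpr fun i _ => X_sub_C_ne_zero _),
          Polynomial.natDegree_X_sub_C, Polynomial.natDegree_prod _ _
            (fun i _ => X_sub_C_ne_zero _)]
        simp [ZMod.card, add_comm]
      rwa [Polynomial.natDegree_map, Polynomial.natDegree_map] at h1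
    have : FiniteDimensional K E := by
      have : FiniteDimensional K K⟮θ⟯ := IntermediateField.adjoin.finiteDimensional hint
      rw [hgen] at this
      exact (IntermediateField.topEquiv (F := K) (E := E)).toLinearEquiv.finiteDimensional
    have hEK : Module.finrank K E = p + 1 := by
      rw [← hΦdeg, ← IntermediateField.adjoin.finrank hint, hgen, IntermediateField.finrank_top']
    have hMθ : IntermediateField.adjoin M {θ} = ⊤ := by
      rw [eq_top_iff]
      intro x _
      have hx : x ∈ IntermediateField.adjoin K {θ} := by rw [hgen]; trivial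
      have hle' : IntermediateField.adjoin K {θ} ≤
          (IntermediateField.adjoin M {θ}).restrictScalars K := by
        rw [IntermediateField.adjoin_le_iff]
        intro y hy
        rw [Set.mem_singleton_iff] at hy
        subst hy
        exact IntermediateField.mem_adjoin_simple_self M y
      exact hle' hx
    have hEM : Module.finrank M E = g.natDegree := by
      rw [hg, ← IntermediateField.adjoin.finrank hintM, hMθ, IntermediateField.finrank_top']
    have hmul : Module.finrank K M * Module.finrank M E = Module.finrank K E :=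
      Module.finrank_mul_finrank K M E
    have hgle : g.natDegree ≤ p + 1 := by
      rw [← hΦdeg]
      have := Polynomial.natDegree_le_of_dvd hdvdM
        (Polynomial.map_ne_zero (minpoly.ne_zero hint))
      rwa [Polynomial.natDegree_map] at this
    have hgeq : g.natDegree = p + 1 := le_antisymm hgle hle
    rw [hEM, hgeq, hEK] at hmul
    have h1 : Module.finrank K M = 1 := by
      have hp : 0 < p + 1 := Nat.succ_pos p
      exact Nat.eq_of_mul_eq_mul_right hp (by rw [hmul, one_mul])
    exact IntermediateField.finrank_eq_one_iff.mp h1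
  · -- no `ρ i` is a root: `g = X - θ`
    right
    simp only [not_exists] at hex
    have hcop : IsCoprime gW (∏ i : ZMod p, (X - C (ρ i))) := by
      apply IsCoprime.prod_right
      intro i _
      have hirr : Irreducible (X - C (ρ i)) := Polynomial.irreducible_X_sub_C _
      rw [isCoprime_comm]
      refine (hirr.coprime_iff_not_dvd).mpr ?_
      rw [Polynomial.dvd_iff_isRoot]
      exact hex i
    have hdvd1 : gW ∣ X - C (ι θ) := hcop.dvd_of_dvd_mul_right hdvd
    have hdeg1 : g.natDegree ≤ 1 := by
      rw [← hdeg]
      have := Polynomial.natDegree_le_of_dvd hdvd1 (X_sub_C_ne_zero _)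
      rwa [Polynomial.natDegree_X_sub_C] at this
    have hpos : 0 < g.natDegree := minpoly.natDegree_pos hintM
    have hdeg1' : g.natDegree = 1 := le_antisymm hdeg1 hpos
    have hθM : θ ∈ M := by
      have h2 := (minpoly.natDegree_eq_one_iff (A := ↥M) (B := E) (x := θ)).mp hdeg1'
      obtain ⟨m, hm⟩ := h2
      rw [← hm]
      exact m.2
    rw [eq_top_iff, ← hgen, IntermediateField.adjoin_le_iff]
    intro y hy
    rw [Set.mem_singleton_iff] at hy
    subst hy
    exact hθM

end Fermat.Agent.S16.H17
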