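import Fermat.Agent.S16.H17_NoIntermediate
import Fermat.Agent.S16.H17_ArtinSchreier
import Fermat.Agent.S18.H16_FbarBasics
import Fermat.Agent.S28.H39_Laurent
import Fermat.Agent.S28.H59_PrimeStep
import Fermat.Agent.S20.H78_Index

/-!
# S16: `k(J, J_p) / k(J)` has no proper intermediate field (helper17)

Prime level `p`, `k` a field of characteristic `ℓ ≠ p` containing a primitive `p`-th root of unity.
Instance of `H17_NoIntermediate.intermediate_eq_bot_or_top` with `W = k((t))`, `ι = (q ↦ t^p)`,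
`σ = (t ↦ ζ t)`, `ρ i = J(ζ^i t)`; the splitting is `RootsAt` of the S28 modular polynomial
(via `S18.H16_FbarBasics`).
-/

set_option autoImplicit false
set_option synthInstance.maxHeartbeats 400000

noncomputable section

namespace Fermat.Agent.S16.H17

open ModularCurve Polynomial IntermediateField Fermat.Agent.S28 Fermat.Agent.S18

variable (p ℓ : ℕ) [hp : Fact p.Prime] [Fact ℓ.Prime] (hℓp : ¬ ℓ ∣ p)
  (k : Type) [Field k] [CharP k ℓ]

/-- `q ↦ t^p` on the function field. -/
def iotaP : ↥(modularFunctionFieldFullC k p) →+* LaurentSeries k :=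
  (qExpand k p).comp ((modularFunctionFieldFullC k p).val :
    ↥(modularFunctionFieldFullC k p) →+* LaurentSeries k)

theorem iotaP_apply (x : ↥(modularFunctionFieldFullC k p)) :
    iotaP p k x = qExpand k p (x : LaurentSeries k) := rfl

/-- The conjugates `J(ζ^i t)`. -/
def rhoP (ζ : kˣ) (i : ZMod p) : LaurentSeries k := twist (ζ ^ i.val) (jqModC k)

omit hp in
theorem rhoP_coeff_neg_one (ζ : kˣ) (i : ZMod p) :
    (rhoP p k ζ i).coeff (-1) = (((ζ ^ i.val)⁻¹ : kˣ) : k) := by
  rw [rhoP, twist_coeff, coeff_jqModC_neg_one, mul_one, zpow_neg_one]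

theorem rhoP_injective {ζ : kˣ} (hζ : IsPrimitiveRoot ζ p) : Function.Injective (rhoP p k ζ) := by
  intro i j hij
  have h := congrArg (fun x : LaurentSeries k => x.coeff (-1)) hij
  simp only [rhoP_coeff_neg_one] at h
  have h2 : ζ ^ i.val = ζ ^ j.val := inv_injective (Units.ext h)
  have h3 : i.val = j.val :=
    hζ.pow_inj (ZMod.val_lt i) (ZMod.val_lt j) h2
  exact ZMod.val_injective p h3

theorem twist_rhoP {ζ : kˣ} (hζ : IsPrimitiveRoot ζ p) (i : ZMod p) :
    twist ζ (rhoP p k ζ i) = rhoP p k ζ (i + 1) := by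
  rw [rhoP, rhoP, ← H39.twist_mul_apply]
  congr 1
  have h1 : ζ ^ p = 1 := hζ.pow_eq_one
  rw [← pow_succ', ZMod.val_add, pow_eq_pow_mod _ h1]
  congr 2
  have : Fact (1 < p) := ⟨hp.out.one_lt⟩
  rw [ZMod.val_one]

theorem iotaP_jNK_coeff_neg_one :
    (iotaP p k (H16.jNK k p)).coeff (-1) = 0 := by
  rw [iotaP_apply]
  apply qExpand_coeff_of_not_dvd
  intro h
  have h1 : (p : ℤ) ∣ 1 := (Int.dvd_neg).mp h
  have h2 : p ∣ 1 := by exact_mod_cast h1
  exact hp.out.one_lt.ne' (Nat.dvd_one.mp h2)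

theorem rhoP_ne_iotaP_jNK (ζ : kˣ) (i : ZMod p) : rhoP p k ζ i ≠ iotaP p k (H16.jNK k p) := by
  intro h
  have h1 := congrArg (fun x : LaurentSeries k => x.coeff (-1)) h
  simp only [rhoP_coeff_neg_one, iotaP_jNK_coeff_neg_one] at h1
  exact Units.ne_zero _ h1

/-- The composite `ℤ[Y] → k(Y) → k(jK) → F_k → k((t))` is evaluation at `J(t^p)`. -/
theorem comp_eq_evalJ :
    (iotaP p k).comp ((algebraMap k⟮H16.jK k p⟯ ↥(modularFunctionFieldFullC k p)).comp
      (((H16.ratEquiv k p : RatFunc k ≃+* k⟮H16.jK k p⟯) : RatFunc k →+* k⟮H16.jK k p⟯).comp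
        ((algebraMap k[X] (RatFunc k)).comp (Polynomial.mapRingHom (Int.castRingHom k))))) =
      evalJ (qExpand k p (jqModC k)) := by
  apply S28.H50.ringHom_X_ext
  simp only [RingHom.comp_apply, Polynomial.coe_mapRingHom, Polynomial.map_X, evalJ_X]
  rw [iotaP_apply]
  congr 1
  have := H16.coe_coe_ratEquiv_algebraMap k p (X : k[X])
  rw [Polynomial.aeval_X] at this
  exact this

theorem map_minpoly_eq (D : ModularPolynomialData p)
    (hirr : Irreducible (redModPoly k D.Φ)) :
    ((minpoly k⟮H16.jK k p⟯ (H16.jNK k p)).map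
        (algebraMap k⟮H16.jK k p⟯ ↥(modularFunctionFieldFullC k p))).map (iotaP p k) =
      D.Φ.map (evalJ (qExpand k p (jqModC k))) := by
  rw [H16.minpoly_jNK k p D hirr, H16.modPolyK, redModPoly, Polynomial.map_map,
    Polynomial.map_map, Polynomial.map_map, ← comp_eq_evalJ p k]
  rfl

include hℓp in
/-- **`k(J, J_p)/k(J)` has no proper intermediate field** (`p` prime, `char k = ℓ ≠ p`,
`ζ ∈ k` a primitive `p`-th root of unity). -/
theorem fullC_intermediate_eq_bot_or_top (ζ : kˣ) (hζ : IsPrimitiveRoot ζ p)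
    (M : IntermediateField k⟮H16.jK k p⟯ ↥(modularFunctionFieldFullC k p)) : M = ⊥ ∨ M = ⊤ := by
  classical
  obtain ⟨D, hD, hirr⟩ := H16.exists_modPoly p ℓ hℓp
  have hroots := hD k ζ hζ
  have hpos : 0 < p := hp.out.pos
  have h1 : ζ ^ p = 1 := hζ.pow_eq_one
  set Ψ : (LaurentSeries k)[X] := D.Φ.map (evalJ (qExpand k p (jqModC k))) with hΨ
  have hΨmonic : Ψ.Monic := D.monic.map _
  have hΨdeg : Ψ.natDegree = p + 1 := by
    rw [hΨ, D.monic.natDegree_map, D.natDegree_eq]
    have := Fermat.Agent.S20.H78.dedekindPsi_prime_pow hp.out (k := 1) one_pos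
    simpa using this
  -- the roots
  have hroot_inf : Ψ.eval (iotaP p k (H16.jNK k p)) = 0 := by
    rw [hΨ, Polynomial.eval_map]
    have : NeZero (p * p) := ⟨mul_ne_zero hpos.ne' hpos.ne'⟩
    have h := hroots p 0 1 ⟨by ring, by omega, by simp⟩ inferInstance
    rw [mul_zero, pow_zero, Jconj_one] at h
    have h2 : iotaP p k (H16.jNK k p) = qExpand k (p * p) (jqModC k) := by
      rw [iotaP_apply]
      exact qExpand_qExpand p p (jqModC k)
    rw [h2]
    exact h
  have hroot_i : ∀ i : ZMod p, Ψ.eval (rhoP p k ζ i) = 0 := by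
    intro i
    rw [hΨ, Polynomial.eval_map]
    have : NeZero (1 * 1) := ⟨by norm_num⟩
    have h := hroots 1 i.val p ⟨by ring, ZMod.val_lt i, by simp⟩ inferInstance
    have h2 : Jconj k (ζ ^ (1 * i.val)) (1 * 1) = rhoP p k ζ i := by
      rw [rhoP, one_mul]
      have : Jconj k (ζ ^ i.val) (1 * 1) = Jconj k (ζ ^ i.val) 1 :=
        H39.Jconj_congr rfl (by norm_num)
      rw [this, Jconj, H39.subst_eq_twist]
    rw [h2] at h
    exact h
  -- splitting
  have hsplit : Ψ = (X - C (iotaP p k (H16.jNK k p))) * ∏ i : ZMod p, (X - C (rhoP p k ζ i)) := by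
    set Q : (LaurentSeries k)[X] :=
      (X - C (iotaP p k (H16.jNK k p))) * ∏ i : ZMod p, (X - C (rhoP p k ζ i)) with hQ
    have hQmonic : Q.Monic :=
      (Polynomial.monic_X_sub_C _).mul (Polynomial.monic_prod_of_monic _ _
        fun i _ => Polynomial.monic_X_sub_C _)
    have hQdeg : Q.natDegree = p + 1 := by
      rw [hQ, (Polynomial.monic_X_sub_C _).natDegree_mul (Polynomial.monic_prod_of_monic _ _
        fun i _ => Polynomial.monic_X_sub_C _), Polynomial.natDegree_X_sub_C,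
        Polynomial.natDegree_prod_of_monic _ _ (fun i _ => Polynomial.monic_X_sub_C _)]
      simp [ZMod.card, add_comm]
    have hdvd : Q ∣ Ψ := by
      rw [hQ]
      apply IsCoprime.mul_dvd
      · apply IsCoprime.prod_right
        intro i _
        apply Polynomial.isCoprime_X_sub_C_of_isUnit_sub
        exact (sub_ne_zero.mpr (rhoP_ne_iotaP_jNK p k ζ i).symm).isUnit
      · exact (Polynomial.dvd_iff_isRoot).mpr hroot_inf
      · apply Finset.prod_dvd_of_coprime
        · intro i _ j _ hij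
          apply Polynomial.isCoprime_X_sub_C_of_isUnit_sub
          exact (sub_ne_zero.mpr fun h => hij (rhoP_injective p k hζ h)).isUnit
        · intro i _
          exact (Polynomial.dvd_iff_isRoot).mpr (hroot_i i)
    exact (Polynomial.eq_of_monic_of_dvd_of_natDegree_le hQmonic hΨmonic hdvd
      (by rw [hΨdeg, hQdeg]))
  refine intermediate_eq_bot_or_top p (H16.jNK k p) (H16.adjoin_jNK_eq_top' p ℓ hℓp k)
    (H16.isIntegral_jNK' p ℓ hℓp k) (iotaP p k) (twist ζ) ?_ (rhoP p k ζ)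
    (rhoP_injective p k hζ) (rhoP_ne_iotaP_jNK p k ζ) (twist_rhoP p k hζ) ?_ M
  · intro x
    rw [iotaP_apply]
    exact H39.twist_qExpand_of_pow_eq_one h1 _
  · rw [map_minpoly_eq p k D (hirr k)]
    exact hsplit

include hℓp in
/-- Consumer form for (U,3; `p ≡ 2 mod 3`): no `S ∈ k(J, J_p)` with `S³ - S = -1/J`
(in characteristic `3`: `S = ∑ σ(n) qⁿ`, `S - S³ = Δ = 1/J`). -/
theorem false_of_cube_sub_fullC (hp3 : 3 ≤ p) (ζ : kˣ) (hζ : IsPrimitiveRoot ζ p)
    (S : ↥(modularFunctionFieldFullC k p)) (hS : S ^ 3 - S = -(H16.jK k p)⁻¹) : False := by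
  refine false_of_cube_sub (H16.jK k p) (H16.transcendental_jK k p)
    (fullC_intermediate_eq_bot_or_top p ℓ hℓp k ζ hζ) ?_ S hS
  rw [H16.finrank_fullC p ℓ hℓp k]
  have := Fermat.Agent.S20.H78.dedekindPsi_prime_pow hp.out (k := 1) one_pos
  simp only [pow_one, Nat.sub_self, pow_zero] at this
  omega

end Fermat.Agent.S16.H17
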