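import Mathlib
import Fermat.Agent.S29.H72_DictImage
import Fermat.Agent.S22.H39_CuspPeriodic
import Fermat.Agent.S29.H20_LaurentGalois

/-!
# S16 / QP-DICT : the ratio of two modular forms is a modular function (helper72)

For `F G : ℍ → ℂ` holomorphic, slash-invariant of the same weight `k` under `Γ₀(N)` and bounded at
all cusps (`IsFormOn N k`), `G ≠ 0`, there is `f ∈ FC N = ℂ(j(q^d) : d ∣ N) ⊆ ℂ((q))` (the prelude
function field `laurentBaseChange ℂ (modularFunctionFieldFull N)`) with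

* `toMer N f = F / G` in `Mer = Frac Hol`, and
* `f * qExp(G) = qExp(F)` in `ℂ((q))`.

The proof is the IMAGE theorem `S29.H72.exists_toMer_eq`.
-/

set_option autoImplicit false

open Complex Filter Function
open UpperHalfPlane hiding I
open ModularForm CongruenceSubgroup Matrix.SpecialLinearGroup
open scoped Real Topology Manifold MatrixGroups ModularForm

noncomputable section

namespace Fermat.Agent.S16.H72

open Fermat.Agent.S24 Fermat.Agent.S24.H81 Fermat.Agent.S24.H4 Fermat.Agent.S24.H17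
open Fermat.Agent.S29.H72

local notation "𝕢" => Function.Periodic.qParam

/-! ## forms at the function level -/

/-- `F` is a holomorphic function on `ℍ`, slash-invariant of weight `k` under `Γ₀(N)` and bounded
at all cusps. -/
structure IsFormOn (N : ℕ) (k : ℤ) (F : ℍ → ℂ) : Prop where
  mdiff : MDiff F
  inv : ∀ g : SL(2, ℤ), g ∈ Gamma0 N → F ∣[k] g = F
  bdd : ∀ σ : SL(2, ℤ), IsBoundedAtImInfty (F ∣[k] σ)

/-- A modular form on `Γ₀(N)` is a form at the function level. -/
theorem isFormOn_modularForm {N : ℕ} [NeZero N] {k : ℤ}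
    (F : ModularForm ((Gamma0 N).map (mapGL ℝ)) k) : IsFormOn N k F where
  mdiff := ModularFormClass.holo F
  inv g hg := SlashInvariantFormClass.slash_action_eq F _ ⟨g, hg, rfl⟩
  bdd σ := ModularFormClass.bdd_at_infty_slash F σ

/-- A cusp form on `Γ₀(N)` is a form at the function level. -/
theorem isFormOn_cuspForm {N : ℕ} [NeZero N] {k : ℤ}
    (F : CuspForm ((Gamma0 N).map (mapGL ℝ)) k) : IsFormOn N k F where
  mdiff := CuspFormClass.holo F
  inv g hg := SlashInvariantFormClass.slash_action_eq F _ ⟨g, hg, rfl⟩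
  bdd σ := (CuspFormClass.zero_at_infty_slash F σ).isBoundedAtImInfty

/-- A modular form of level one is a form on every `Γ₀(N)`. -/
theorem isFormOn_levelOne (N : ℕ) {k : ℤ} (F : ModularForm 𝒮ℒ k) : IsFormOn N k F where
  mdiff := ModularFormClass.holo F
  inv g _ := SlashInvariantFormClass.slash_action_eq F _ ⟨g, rfl⟩
  bdd σ := ModularFormClass.bdd_at_infty_slash F σ

/-- A cusp form of level one is a form on every `Γ₀(N)`. -/
theorem isFormOn_levelOne_cuspForm (N : ℕ) {k : ℤ} (F : CuspForm 𝒮ℒ k) : IsFormOn N k F where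
  mdiff := CuspFormClass.holo F
  inv g _ := SlashInvariantFormClass.slash_action_eq F _ ⟨g, rfl⟩
  bdd σ := (CuspFormClass.zero_at_infty_slash F σ).isBoundedAtImInfty

namespace IsFormOn

variable {N : ℕ} {k : ℤ} {F G : ℍ → ℂ}

theorem mul {k' : ℤ} (hF : IsFormOn N k F) (hG : IsFormOn N k' G) : IsFormOn N (k + k') (F * G) where
  mdiff := hF.mdiff.mul hG.mdiff
  inv g hg := by rw [ModularForm.mul_slash_SL2, hF.inv g hg, hG.inv g hg]
  bdd σ := by
    rw [ModularForm.mul_slash_SL2]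
    exact (hF.bdd σ).mul (hG.bdd σ)

theorem add (hF : IsFormOn N k F) (hG : IsFormOn N k G) : IsFormOn N k (F + G) where
  mdiff := hF.mdiff.add hG.mdiff
  inv g hg := by rw [SlashAction.add_slash, hF.inv g hg, hG.inv g hg]
  bdd σ := by
    rw [SlashAction.add_slash]
    exact (hF.bdd σ).add (hG.bdd σ)

theorem const_smul (c : ℂ) (hF : IsFormOn N k F) : IsFormOn N k (c • F) where
  mdiff := hF.mdiff.const_smul c
  inv g hg := by rw [ModularForm.SL_smul_slash, hF.inv g hg]
  bdd σ := by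
    rw [ModularForm.SL_smul_slash]
    exact (hF.bdd σ).const_smul_left c

theorem neg (hF : IsFormOn N k F) : IsFormOn N k (-F) := by
  have := hF.const_smul (-1)
  simpa using this

theorem sub (hF : IsFormOn N k F) (hG : IsFormOn N k G) : IsFormOn N k (F - G) := by
  rw [sub_eq_add_neg]
  exact hF.add hG.neg

theorem one (N : ℕ) : IsFormOn N 0 (1 : ℍ → ℂ) where
  mdiff := mdifferentiable_const
  inv g _ := ModularForm.is_invariant_one g
  bdd σ := by
    rw [ModularForm.is_invariant_one]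
    exact Filter.const_boundedAtFilter _ (1 : ℂ)

theorem pow (hF : IsFormOn N k F) (n : ℕ) : IsFormOn N (n * k) (F ^ n) := by
  induction n with
  | zero => simpa using one N
  | succ n ih =>
      have := ih.mul hF
      rw [pow_succ]
      convert this using 1
      push_cast
      ring

/-- The underlying element of `Hol`. -/
def toHol (hF : IsFormOn N k F) : Hol := ⟨F, mem_Hol.mpr hF.mdiff⟩

@[simp] theorem coe_toHol (hF : IsFormOn N k F) : ((hF.toHol : Hol) : ℍ → ℂ) = F := rfl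

theorem toHol_ne_zero (hF : IsFormOn N k F) (h0 : F ≠ 0) : hF.toHol ≠ 0 := fun h =>
  h0 (congrArg Subtype.val h)

/-- `F (σ τ) = (F ∣[k] σ) τ * (c τ + d) ^ k`. -/
theorem comp_smul (F : ℍ → ℂ) (k : ℤ) (σ : SL(2, ℤ)) (τ : ℍ) :
    F (σ • τ) = (F ∣[k] σ) τ * denom σ τ ^ k := by
  rw [ModularForm.SL_slash_apply, mul_assoc, ← zpow_add₀ (denom_ne_zero _ τ), neg_add_cancel,
    zpow_zero, mul_one]

theorem comp_smul_of_mem (hF : IsFormOn N k F) {g : SL(2, ℤ)} (hg : g ∈ Gamma0 N) (τ : ℍ) :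
    F (g • τ) = F τ * denom g τ ^ k := by
  rw [comp_smul F k g τ, hF.inv g hg]

/-- every `SL(2,ℤ)`-translate is `N`-periodic, holomorphic and bounded. -/
theorem isHoloPeriodic_slash [NeZero N] (hF : IsFormOn N k F) (σ : SL(2, ℤ)) :
    IsHoloPeriodic (N : ℝ) (F ∣[k] σ) where
  mdiff := hF.mdiff.slash k _
  periodic := S22.H39.periodic_slash_of_invariant' hF.inv σ
  bdd := hF.bdd σ

theorem slash_ne_zero (h0 : F ≠ 0) (σ : SL(2, ℤ)) : F ∣[k] σ ≠ 0 := by
  intro h
  apply h0
  have h1 : (F ∣[k] σ) ∣[k] σ⁻¹ = F := by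
    rw [← SlashAction.slash_mul, mul_inv_cancel, SlashAction.slash_one]
  rw [← h1, h, SlashAction.zero_slash]

/-- the growth of the quotient of two translates. -/
theorem growthAt_comp [NeZero N] (hF : IsFormOn N k F) (hG : IsFormOn N k G) (h0 : G ≠ 0)
    (σ : SL(2, ℤ)) : GrowthAt (fun τ => F (σ • τ)) (fun τ => G (σ • τ)) := by
  have hN : (0 : ℝ) < N := H95.natCast_pos_of_neZero N
  obtain ⟨c, C, m, h⟩ := growthAt_of_isMeroPeriodic hN (hF.isHoloPeriodic_slash σ).isMeroPeriodic
    (hG.isHoloPeriodic_slash σ).isMeroPeriodic (slash_ne_zero h0 σ)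
  refine ⟨c, C, m, fun τ hτ => ?_⟩
  simp only [comp_smul F k σ τ, comp_smul G k σ τ, norm_mul]
  have := h τ hτ
  calc ‖(F ∣[k] σ) τ‖ * ‖denom σ τ ^ k‖
      ≤ C * Real.exp (2 * π * m * τ.im) * ‖(G ∣[k] σ) τ‖ * ‖denom σ τ ^ k‖ :=
        mul_le_mul_of_nonneg_right this (norm_nonneg _)
    _ = C * Real.exp (2 * π * m * τ.im) * (‖(G ∣[k] σ) τ‖ * ‖denom σ τ ^ k‖) := by ring

end IsFormOn

/-! ## the quotient in `Mer` -/

section quotient

variable {N : ℕ} [NeZero N] {k : ℤ} {F G : ℍ → ℂ}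

/-- The quotient `F / G` as an element of `Mer`. -/
def ratioMer (hF : IsFormOn N k F) (hG : IsFormOn N k G) : Mer :=
  algebraMap Hol Mer hF.toHol / algebraMap Hol Mer hG.toHol

theorem ratioMer_mem_cuspRing (hF : IsFormOn N k F) (hG : IsFormOn N k G) (h0 : G ≠ 0) :
    ratioMer hF hG ∈ cuspRing :=
  div_mem_cuspRing (hG.toHol_ne_zero h0) fun γ => hF.growthAt_comp hG h0 γ⁻¹

omit [NeZero N] in
theorem smul_ratioMer (hF : IsFormOn N k F) (hG : IsFormOn N k G) (h0 : G ≠ 0)
    {γ : SL(2, ℤ)} (hγ : γ ∈ Gamma0 N) : γ • ratioMer hF hG = ratioMer hF hG := by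
  unfold ratioMer
  rw [mer_smul_div, div_eq_div_iff_hol (hol_smul_ne_zero γ (hG.toHol_ne_zero h0))
    (hG.toHol_ne_zero h0)]
  apply Subtype.ext
  funext τ
  have hγ' : γ⁻¹ ∈ Gamma0 N := inv_mem hγ
  show ((γ • hF.toHol : Hol) : ℍ → ℂ) τ * G τ = F τ * ((γ • hG.toHol : Hol) : ℍ → ℂ) τ
  rw [hol_smul_apply, hol_smul_apply, IsFormOn.coe_toHol, IsFormOn.coe_toHol,
    hF.comp_smul_of_mem hγ', hG.comp_smul_of_mem hγ']
  ring

end quotient

/-! ## `q`-expansions -/

/-- A holomorphic `1`-periodic function bounded at `i∞` is the sum of its `q`-expansion. -/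
theorem isQSum_qExpansion {F : ℍ → ℂ} (hmd : MDiff F)
    (hper : Periodic (F ∘ ofComplex) ((1 : ℝ) : ℂ)) (hbdd : IsBoundedAtImInfty F) :
    IsQSum (HahnSeries.ofPowerSeries ℤ ℂ (qExpansion 1 F)) F := by
  intro τ
  have hq : 𝕢 1 (τ : ℂ) ≠ 0 := Function.Periodic.qParam_ne_zero _
  have hZ : ∀ n : ℤ, n < -((0 : ℕ) : ℤ) →
      (HahnSeries.ofPowerSeries ℤ ℂ (qExpansion 1 F)).coeff n = 0 := by
    intro n hn
    rw [HahnSeries.ofPowerSeries_apply]
    refine HahnSeries.embDomain_of_notMem_range ?_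
    rintro ⟨m, hm⟩
    have h1 : (m : ℤ) = n := hm
    have h2 : (0 : ℤ) ≤ (m : ℤ) := Int.natCast_nonneg m
    simp only [Nat.cast_zero, neg_zero] at hn
    omega
  refine (hasSum_bridge _ 0 hZ hq _).mpr ?_
  have h := UpperHalfPlane.hasSum_qExpansion (h := 1) one_pos (by simpa using hper) hmd hbdd τ
  simp only [Nat.cast_zero, sub_zero, pow_zero, one_mul, HahnSeries.ofPowerSeries_apply_coeff]
  simpa [smul_eq_mul] using h

namespace IsFormOn

variable {N : ℕ} {k : ℤ} {F : ℍ → ℂ}

theorem periodic_one (hF : IsFormOn N k F) : Periodic (F ∘ ofComplex) ((1 : ℝ) : ℂ) := by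
  have hT : ModularGroup.T ^ ((1 : ℕ) : ℤ) ∈ Gamma0 N := by
    rw [Gamma0_mem]
    simp
  have := S22.H39.periodic_of_slash_T_pow (N := 1) (w := k) (F := F) (hF.inv _ hT)
  simpa using this

theorem isBoundedAtImInfty (hF : IsFormOn N k F) : IsBoundedAtImInfty F := by
  have := hF.bdd 1
  rwa [SlashAction.slash_one] at this

/-- The `q`-expansion of a form, as a Laurent series. -/
def qLaurent (F : ℍ → ℂ) : LaurentSeries ℂ := HahnSeries.ofPowerSeries ℤ ℂ (qExpansion 1 F)

theorem isQSum (hF : IsFormOn N k F) : IsQSum (qLaurent F) F :=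
  isQSum_qExpansion hF.mdiff hF.periodic_one hF.isBoundedAtImInfty

theorem qLaurent_ne_zero (hF : IsFormOn N k F) (h0 : F ≠ 0) : qLaurent F ≠ 0 := by
  intro h
  apply h0
  have h1 := hF.isQSum
  rw [h] at h1
  exact h1.unique IsQSum.zero

/-- a form is determined by its `q`-expansion. -/
theorem eq_of_qLaurent_eq {k' : ℤ} {G : ℍ → ℂ} (hF : IsFormOn N k F) (hG : IsFormOn N k' G)
    (h : qLaurent F = qLaurent G) : F = G := by
  have h1 := hF.isQSum
  rw [h] at h1
  exact h1.unique hG.isQSum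

theorem qLaurent_mul {k' : ℤ} {G : ℍ → ℂ} (hF : IsFormOn N k F) (hG : IsFormOn N k' G) :
    qLaurent (F * G) = qLaurent F * qLaurent G :=
  (hF.mul hG).isQSum.series_unique (hF.isQSum.mul hG.isQSum)

theorem qLaurent_add {G : ℍ → ℂ} (hF : IsFormOn N k F) (hG : IsFormOn N k G) :
    qLaurent (F + G) = qLaurent F + qLaurent G :=
  (hF.add hG).isQSum.series_unique (hF.isQSum.add hG.isQSum)

theorem qLaurent_const_smul (c : ℂ) (hF : IsFormOn N k F) :
    qLaurent (c • F) = HahnSeries.single 0 c * qLaurent F := by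
  refine (hF.const_smul c).isQSum.series_unique ?_
  have := (IsQSum.single_zero c).mul hF.isQSum
  exact this

end IsFormOn

/-! ## FORM → FUNCTION -/

section main

variable (N : ℕ) [NeZero N] {k : ℤ} {F G : ℍ → ℂ}

/-- **FORM → FUNCTION.** The quotient of two forms of the same weight on `Γ₀(N)` is an element of
the complex modular function field `FC N`, whose Laurent series is the quotient of the
`q`-expansions. -/
theorem exists_FC_eq_ratio (hF : IsFormOn N k F) (hG : IsFormOn N k G) (h0 : G ≠ 0) :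
    ∃ f : FC N, toMer N f = ratioMer hF hG ∧
      (f : LaurentSeries ℂ) * IsFormOn.qLaurent G = IsFormOn.qLaurent F := by
  obtain ⟨f, hf⟩ := exists_toMer_eq N (ratioMer_mem_cuspRing hF hG h0)
    (fun γ hγ => smul_ratioMer hF hG h0 hγ)
  refine ⟨f, hf, ?_⟩
  obtain ⟨a, b, hb, rfl⟩ := exists_div_AC' N f
  rw [toMer_div, ratioMer, div_eq_div_iff_hol (ThetaHol_ne_zero N hb) (hG.toHol_ne_zero h0)] at hf
  -- function identity `Θa * G = F * Θb`
  have hfun : ThetaC N a.1 * G = F * ThetaC N b.1 := by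
    have := congrArg (fun x : Hol => (x : ℍ → ℂ)) hf
    simpa using this
  have h1 : IsQSum ((a.1 : LaurentSeries ℂ) * IsFormOn.qLaurent G) (ThetaC N a.1 * G) :=
    (isQSum_ThetaC N a.2).mul hG.isQSum
  have h2 : IsQSum (IsFormOn.qLaurent F * (b.1 : LaurentSeries ℂ)) (F * ThetaC N b.1) :=
    hF.isQSum.mul (isQSum_ThetaC N b.2)
  rw [hfun] at h1
  have h3 := h1.series_unique h2
  have hb' : ((b : FC N) : LaurentSeries ℂ) ≠ 0 := fun h => hb (Subtype.ext (Subtype.ext h))
  have hcoe : (((a : FC N) / (b : FC N) : FC N) : LaurentSeries ℂ) =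
      ((a : FC N) : LaurentSeries ℂ) / ((b : FC N) : LaurentSeries ℂ) := rfl
  rw [hcoe, div_mul_eq_mul_div, div_eq_iff hb']
  exact h3

/-- Uniqueness: the element is determined by its Laurent series. -/
theorem FC_ratio_unique (hG : IsFormOn N k G) (h0 : G ≠ 0) {f f' : FC N}
    (hf : (f : LaurentSeries ℂ) * IsFormOn.qLaurent G = IsFormOn.qLaurent F)
    (hf' : (f' : LaurentSeries ℂ) * IsFormOn.qLaurent G = IsFormOn.qLaurent F) : f = f' := by
  have hq : IsFormOn.qLaurent G ≠ 0 := by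
    intro h
    apply h0
    have h1 := hG.isQSum
    rw [h] at h1
    exact h1.unique IsQSum.zero
  apply Subtype.ext
  exact mul_right_cancel₀ hq (hf.trans hf'.symm)

/-- **FORM → FUNCTION** for modular forms on `Γ₀(N)`. -/
theorem exists_FC_eq_div (F G : ModularForm ((Gamma0 N).map (mapGL ℝ)) k) (h0 : G ≠ 0) :
    ∃ f : FC N,
      toMer N f = ratioMer (isFormOn_modularForm F) (isFormOn_modularForm G) ∧
      (f : LaurentSeries ℂ) * HahnSeries.ofPowerSeries ℤ ℂ (qExpansion 1 G) =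
        HahnSeries.ofPowerSeries ℤ ℂ (qExpansion 1 F) :=
  exists_FC_eq_ratio N (isFormOn_modularForm F) (isFormOn_modularForm G)
    (fun h => h0 (DFunLike.coe_injective h))

end main

/-! ## descent of the coefficients -/

section descent

open Fermat.Agent.S29.H20 ModularCurve

theorem ofPowerSeries_coeff_of_neg {T : Type*} [CommRing T] (b : PowerSeries T) {n : ℤ}
    (hn : n < 0) : (HahnSeries.ofPowerSeries ℤ T b).coeff n = 0 := by
  rw [HahnSeries.ofPowerSeries_apply]
  refine HahnSeries.embDomain_of_notMem_range ?_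
  rintro ⟨m, hm⟩
  have h1 : (m : ℤ) = n := hm
  have h2 : (0 : ℤ) ≤ (m : ℤ) := Int.natCast_nonneg m
  omega

/-- `ofPowerSeries` commutes with coefficientwise maps. -/
theorem ofPowerSeries_map {R S : Type*} [CommRing R] [CommRing S] (φ : R →+* S)
    (a : PowerSeries R) :
    HahnSeries.ofPowerSeries ℤ S (a.map φ) = coeffMap φ (HahnSeries.ofPowerSeries ℤ R a) := by
  ext n
  rw [coeffMap_coeff]
  by_cases hn : 0 ≤ n
  · obtain ⟨m, rfl⟩ := Int.eq_ofNat_of_zero_le hn
    rw [HahnSeries.ofPowerSeries_apply_coeff, HahnSeries.ofPowerSeries_apply_coeff,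
      PowerSeries.coeff_map]
  · rw [ofPowerSeries_coeff_of_neg _ (not_le.mp hn), ofPowerSeries_coeff_of_neg _ (not_le.mp hn),
      map_zero]

variable (N : ℕ) [NeZero N] {k : ℤ} {F G : ℍ → ℂ}
variable {K : Type*} [Field K] [Algebra ℚ K] [Algebra K ℂ]

/-- **FORM → FUNCTION with coefficients in a subfield.** If the `q`-expansions of `F` and `G` have
coefficients in `K ⊆ ℂ`, the quotient `F / G` is an element of `K · F_N` whose Laurent series is
the quotient of the two `q`-expansions over `K`. -/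
theorem exists_baseChange_eq_ratio (hF : IsFormOn N k F) (hG : IsFormOn N k G) (h0 : G ≠ 0)
    (a b : PowerSeries K) (ha : qExpansion 1 F = a.map (algebraMap K ℂ))
    (hb : qExpansion 1 G = b.map (algebraMap K ℂ)) :
    ∃ f₀ : laurentBaseChange K (modularFunctionFieldFull N),
      (f₀ : LaurentSeries K) * HahnSeries.ofPowerSeries ℤ K b = HahnSeries.ofPowerSeries ℤ K a ∧
      toMer N (laurentι (k := K) (K := ℂ) (modularFunctionFieldFull N) f₀) = ratioMer hF hG := by
  obtain ⟨f, hf1, hf2⟩ := exists_FC_eq_ratio N hF hG h0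
  have hqF : IsFormOn.qLaurent F = coeffIncl K ℂ (HahnSeries.ofPowerSeries ℤ K a) := by
    rw [IsFormOn.qLaurent, ha, ofPowerSeries_map]; rfl
  have hqG : IsFormOn.qLaurent G = coeffIncl K ℂ (HahnSeries.ofPowerSeries ℤ K b) := by
    rw [IsFormOn.qLaurent, hb, ofPowerSeries_map]; rfl
  have hG0 : IsFormOn.qLaurent G ≠ 0 := by
    intro h
    apply h0
    have h1 := hG.isQSum
    rw [h] at h1
    exact h1.unique IsQSum.zero
  -- the coefficients of `f` lie in `K`
  have hfeq : (f : LaurentSeries ℂ) = coeffIncl K ℂ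
      (HahnSeries.ofPowerSeries ℤ K a / HahnSeries.ofPowerSeries ℤ K b) := by
    rw [map_div₀, ← hqF, ← hqG, eq_div_iff hG0]
    exact hf2
  obtain ⟨f₀, hf₀⟩ := mem_range_laurentι_of_coeff (k := K) (K := ℂ) (modularFunctionFieldFull N) f
    (fun n => by rw [hfeq, coeffIncl_coeff]; exact ⟨_, rfl⟩)
  refine ⟨f₀, ?_, by rw [hf₀]; exact hf1⟩
  apply coeffIncl_injective (k := K) (K := ℂ)
  rw [map_mul, ← hqF, ← hqG, ← hf2]
  congr 1
  have := congrArg (fun x : FC N => (x : LaurentSeries ℂ)) hf₀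
  simpa using this

end descent

end Fermat.Agent.S16.H72
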