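import Fermat.Agent.S16.H17_U3bSeries
import Fermat.Agent.S16.H72_FormFunction
import Fermat.Agent.S16.H39_Leaves
import Fermat.Agent.S18.H92_IndepK
import Fermat.Agent.S18.H45_StrictDVRRoots
import Fermat.Agent.S14.H54_Places
import Fermat.Prelude.Def_GaloisRep_ComplexConjugation

/-!
# S16 (U,3): no weight-2 form on `Γ₀(p)` is `≡ 1 mod 9` — function-field route (helper17)

`G ∈ M₂(Γ₀(p))`, `G ≡ 1 mod 9` (`3`-integral rational `q`-expansion).  Then
`x = (1 - E₄/G²)/3` is an element of `ℚ̄ F_p` (QP-DICT, `H72.exists_baseChange_eq_ratio`) whose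
`q`-expansion is `3`-integral and reduces to `S = ∑ σ(n) qⁿ`; by the Gauss model
(`H92.red_mem_of_up_mem`) `S ∈ k(J, J_p)`, contradicting `H17.sBar_not_mem`
(`S³ - S = -1/J` is an Artin–Schreier extension of degree `3`, and `k(J, J_p)/k(J)` of degree
`p + 1` has no proper intermediate field).

* `sBar_mem_of_ratio` : the series-level core;
* `noUnitForm_three`  : `H39.NoUnitForm p 3 2` for every prime `p ≥ 5`;
* `uLeaf_three_one`   : `H39.ULeaf p 3 1`.

The two formal Ramanujan identities in `ℤ⟦q⟧` are named hypotheses (`H12.map_eq_of_mul_eq`).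
-/

set_option autoImplicit false
set_option synthInstance.maxHeartbeats 400000

noncomputable section

namespace Fermat.Agent.S16.H17

open ModularCurve PowerSeries UpperHalfPlane ModularForm CongruenceSubgroup

local notation "Qbar" => AlgebraicClosure ℚ

/-! ### pure algebra -/

section Alg

variable {R : Type*} [CommRing R]

/-- `(1 + 9h)² - (1 + 240 s) = 3 (6h + 27h² - 80 s)`. -/
theorem sq_sub_eq_three_mul (h s : R⟦X⟧) :
    (1 + 9 * h) ^ 2 - (1 + 240 * s) = 3 * (6 * h + 27 * h ^ 2 - 80 * s) := by ring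

theorem map_map_apply {R S T : Type*} [CommRing R] [CommRing S] [CommRing T] (f : R →+* S)
    (g : S →+* T) (a : R⟦X⟧) : (a.map f).map g = a.map (g.comp f) := by
  ext n
  simp only [coeff_map, RingHom.comp_apply]

theorem map_intCast_map {R S : Type*} [CommRing R] [CommRing S] (g : R →+* S) (a : ℤ⟦X⟧) :
    (a.map (Int.castRingHom R)).map g = a.map (Int.castRingHom S) := by
  rw [map_map_apply, RingHom.ext_int (g.comp (Int.castRingHom R)) (Int.castRingHom S)]

end Alg

section Char3

variable (k : Type*) [Field k] [CharP k 3]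

theorem natCast_pow_three (d : ℕ) : ((d : k)) ^ 3 = d := by
  have : Fact (Nat.Prime 3) := ⟨Nat.prime_three⟩
  have h := map_natCast (frobenius k 3) d
  rwa [frobenius_def] at h

/-- `σ₃ ≡ σ₁ mod 3`. -/
theorem sigmaSeries_three_map :
    (H12.sigmaSeries 3).map (Int.castRingHom k) = sBarPS k := by
  ext n
  rw [sBarPS, coeff_map, coeff_map, H12.coeff_sigmaSeries, H12.coeff_sigmaSeries,
    ArithmeticFunction.sigma_apply, ArithmeticFunction.sigma_apply]
  simp only [eq_intCast, pow_one]
  push_cast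
  exact Finset.sum_congr rfl fun d _ => natCast_pow_three k d

theorem ofNat_three_eq_zero : (3 : k⟦X⟧) = 0 := by
  have h3 : ((3 : ℕ) : k) = 0 := CharP.cast_eq_zero k 3
  have : (3 : k⟦X⟧) = C ((3 : ℕ) : k) := by
    rw [Nat.cast_ofNat]; exact (map_ofNat (C (R := k)) 3).symm
  rw [this, h3, map_zero]

/-- The reduction of `6h + 27h² - 80 s₃` is `S`. -/
theorem red_numerator (h : k⟦X⟧) :
    6 * h + 27 * h ^ 2 - 80 * (H12.sigmaSeries 3).map (Int.castRingHom k) = sBarPS k := by
  rw [sigmaSeries_three_map]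
  have h3 := ofNat_three_eq_zero k
  have e1 : (6 : k⟦X⟧) = 3 * 2 := by norm_num
  have e2 : (27 : k⟦X⟧) = 3 * 9 := by norm_num
  have e3 : (80 : k⟦X⟧) = 3 * 27 - 1 := by norm_num
  rw [e1, e2, e3, h3]
  ring

theorem red_denominator (h : k⟦X⟧) : (1 + 9 * h) ^ 2 = 1 := by
  have h3 := ofNat_three_eq_zero k
  have e1 : (9 : k⟦X⟧) = 3 * 3 := by norm_num
  rw [e1, h3]
  ring

end Char3

/-! ### the series-level core -/

section Core

open Fermat.Agent.S18 IsLocalRing

variable (p : ℕ) [hp : Fact p.Prime] (A : ValuationSubring Qbar) (hA : A.LiesOverPrime 3)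

include hA in
/-- **Series-level core.** If `r ∈ ℚ̄ F_p` has Laurent series `E₄ / (1 + 9h)²` with `h ∈ A⟦q⟧`
(`A` a valuation ring of `ℚ̄` over `3`), then `S = ∑ σ(n) qⁿ` lies in the function field
`k(J, J_p)` over the residue field `k` of `A`. -/
theorem sBar_mem_of_ratio (h3p : ¬ 3 ∣ p) (hh : A⟦X⟧) (hh0 : constantCoeff hh = 0)
    (r : LaurentSeries Qbar)
    (hr : r ∈ modularFunctionFieldBar p)
    (hrel : r * HahnSeries.ofPowerSeries ℤ Qbar (((1 + 9 * hh) ^ 2).map A.subtype) =
      HahnSeries.ofPowerSeries ℤ Qbar (H12.eisQ.map (Int.castRingHom Qbar))) :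
    sBar (ResidueField A) ∈ modularFunctionFieldFullC (ResidueField A) p := by
  classical
  have hf3 : Fact (Nat.Prime 3) := ⟨Nat.prime_three⟩
  have : CharP (ResidueField A) 3 := H92.charP_residueField A hA
  set φ : A⟦X⟧ := 1 + 9 * hh with hφ
  set s3A : A⟦X⟧ := (H12.sigmaSeries 3).map (Int.castRingHom A) with hs3A
  set nA : A⟦X⟧ := 6 * hh + 27 * hh ^ 2 - 80 * s3A with hnA
  have he4 : H12.eisQ.map (Int.castRingHom A) = 1 + 240 * s3A := by
    rw [H12.eisQ, map_add, map_one, map_mul, hs3A]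
    congr 2
    exact map_ofNat (PowerSeries.map (Int.castRingHom A)) 240
  have hid : φ ^ 2 - H12.eisQ.map (Int.castRingHom A) = 3 * nA := by
    rw [he4]; exact sq_sub_eq_three_mul hh s3A
  -- the inverse of `φ²`
  have hc : constantCoeff (φ ^ 2) = ((1 : Aˣ) : A) := by
    rw [hφ, map_pow, map_add, map_mul, hh0, mul_zero, add_zero, map_one, one_pow, Units.val_one]
  set ψ : A⟦X⟧ := invOfUnit (φ ^ 2) 1 with hψdef
  have hψ : φ ^ 2 * ψ = 1 := mul_invOfUnit _ _ hc
  set z : LaurentSeries A := HahnSeries.ofPowerSeries ℤ A (nA * ψ) with hz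
  set B : LaurentSeries Qbar := HahnSeries.ofPowerSeries ℤ Qbar ((φ ^ 2).map A.subtype) with hB
  have hB0 : B ≠ 0 := by
    intro h0
    have h1 : (φ ^ 2).map A.subtype = 0 :=
      HahnSeries.ofPowerSeries_injective (by rw [← hB, h0, map_zero])
    have h2 := congrArg constantCoeff h1
    rw [← coeff_zero_eq_constantCoeff_apply, coeff_map, coeff_zero_eq_constantCoeff_apply, hc] at h2
    simp at h2
  have h3ne : (3 : LaurentSeries Qbar) ≠ 0 := by
    rw [← map_ofNat (HahnSeries.C (Γ := ℤ) (R := Qbar)) 3]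
    exact (map_ne_zero_iff _ HahnSeries.C_injective).mpr (by norm_num)
  have hx : (1 - r) * (3 : LaurentSeries Qbar)⁻¹ ∈ modularFunctionFieldBar p :=
    mul_mem (sub_mem (one_mem _) hr) (inv_mem (ofNat_mem _ 3))
  have hzx : coeffMap A.subtype z = (1 - r) * (3 : LaurentSeries Qbar)⁻¹ := by
    apply mul_right_cancel₀ hB0
    have hL : coeffMap A.subtype z * B =
        HahnSeries.ofPowerSeries ℤ Qbar (nA.map A.subtype) := by
      rw [hz, hB, ← H72.ofPowerSeries_map, ← map_mul, ← map_mul]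
      congr 2
      rw [mul_assoc, mul_comm ψ, hψ, mul_one]
    have hR : (1 - r) * (3 : LaurentSeries Qbar)⁻¹ * B =
        HahnSeries.ofPowerSeries ℤ Qbar (nA.map A.subtype) := by
      have h1 : (1 - r) * B = HahnSeries.ofPowerSeries ℤ Qbar ((3 * nA).map A.subtype) := by
        rw [sub_mul, one_mul, hrel, ← hid, map_sub, map_sub, map_intCast_map A.subtype H12.eisQ]
      have h2 : HahnSeries.ofPowerSeries ℤ Qbar ((3 * nA).map A.subtype) =
          3 * HahnSeries.ofPowerSeries ℤ Qbar (nA.map A.subtype) := by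
        rw [map_mul, map_mul]
        congr 1
        rw [map_ofNat (PowerSeries.map A.subtype) 3]
        exact map_ofNat (HahnSeries.ofPowerSeries ℤ Qbar) 3
      calc (1 - r) * (3 : LaurentSeries Qbar)⁻¹ * B
          = (3 : LaurentSeries Qbar)⁻¹ * ((1 - r) * B) := by ring
        _ = _ := by rw [h1, h2, ← mul_assoc, inv_mul_cancel₀ h3ne, one_mul]
    rw [hL, hR]
  have hzmem : coeffMap A.subtype z ∈ modularFunctionFieldBar p := by rw [hzx]; exact hx
  have hmem := H92.red_mem_of_up_mem A p (H92.modData p)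
    (H92.indepK_residueField p h3p A hA) hzmem
  have hred : coeffMap (residue A) z = sBar (ResidueField A) := by
    rw [hz, ← H72.ofPowerSeries_map, sBar]
    congr 1
    have hφres : (φ ^ 2).map (residue A) = 1 := by
      rw [hφ, map_pow, map_add, map_one, map_mul, map_ofNat (PowerSeries.map (residue A)) 9]
      exact red_denominator _ _
    have hψres : ψ.map (residue A) = 1 := by
      have := congrArg (PowerSeries.map (residue A)) hψ
      rwa [map_mul, hφres, one_mul, map_one] at this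
    rw [map_mul, hψres, mul_one, hnA, map_sub, map_add, map_mul, map_mul, map_mul, map_pow,
      map_ofNat (PowerSeries.map (residue A)) 6, map_ofNat (PowerSeries.map (residue A)) 27,
      map_ofNat (PowerSeries.map (residue A)) 80, hs3A, map_intCast_map]
    exact red_numerator _ _
  rwa [hred] at hmem

end Core

/-! ### forms -/

section Forms

open Fermat.Agent.S18 IsLocalRing

/-- the `ℚ̄`-algebra structure of `ℂ` given by the prelude's `complexEmbedding` -/
@[reducible] def algQbarC : Algebra Qbar ℂ := complexEmbedding.toRingHom.toAlgebra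

attribute [local instance] algQbarC

theorem ratCast_mem_of_not_dvd_den (A : ValuationSubring Qbar) (hA : A.LiesOverPrime 3) (x : ℚ)
    (hx : ¬ 3 ∣ x.den) : (x : Qbar) ∈ A := by
  rw [Rat.cast_def, div_eq_mul_inv]
  refine A.mul_mem _ _ (intCast_mem A _) ?_
  have h1 : (x.den : Qbar) ∉ A.nonunits := H45.natCast_notMem_nonunits Nat.prime_three hA hx
  have h2 : A.valuation (x.den : Qbar) ≤ 1 := (A.valuation_le_one_iff _).mpr (natCast_mem A _)
  rw [A.mem_nonunits_iff, not_lt] at h1
  have h3 : A.valuation (x.den : Qbar) = 1 := le_antisymm h2 h1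
  rw [← A.valuation_le_one_iff, map_inv₀, h3, inv_one]

/-- **(U,3) core, function-field route.** For a prime `p ≥ 5` there is no `G ∈ M₂(Γ₀(p))` with
`3`-integral rational `q`-expansion `≡ 1 mod 9`.  (The two formal Ramanujan identities are the
named hypotheses of `H12.map_eq_of_mul_eq`.) -/
theorem noUnitForm_three (p : ℕ) [hp : Fact p.Prime] (hp5 : 5 ≤ p)
    (h1 : 12 * H12.qD H12.eisP = H12.eisP ^ 2 - H12.eisQ)
    (h2 : 3 * H12.qD H12.eisQ = H12.eisP * H12.eisQ - H12.eisR) :
    H39.NoUnitForm p 3 2 := by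
  intro G c hG hc0 hc
  classical
  obtain ⟨A, hA⟩ := Fermat.Agent.S14.H54.exists_liesOverPrime_place Nat.prime_three
  have h3p : ¬ 3 ∣ p := by
    intro h
    have := (Nat.prime_dvd_prime_iff_eq Nat.prime_three hp.out).mp h
    omega
  have hf3 : Fact (Nat.Prime 3) := ⟨Nat.prime_three⟩
  have : CharP (ResidueField A) 3 := H92.charP_residueField A hA
  choose! x hx using hc
  let hh : A⟦X⟧ := PowerSeries.mk fun n =>
    if hn : 1 ≤ n then ⟨(x n : Qbar), ratCast_mem_of_not_dvd_den A hA (x n) (hx n hn).2⟩ else 0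
  have hh0 : constantCoeff hh = 0 := by
    rw [← coeff_zero_eq_constantCoeff_apply, coeff_mk, dif_neg (by norm_num)]
  -- coefficients of `φ = 1 + 9h`
  have hφc : ∀ n, coeff n ((1 + 9 * hh).map A.subtype) = ((c n : ℚ) : Qbar) := by
    intro n
    have h9 : (9 : A⟦X⟧) = C (9 : A) := (map_ofNat (C (R := A)) 9).symm
    rw [coeff_map, map_add, h9, coeff_C_mul, coeff_mk, coeff_one]
    by_cases hn : 1 ≤ n
    · rw [dif_pos hn, if_neg (by omega), zero_add]
      have hcn := (hx n hn).1
      rw [map_mul, map_ofNat A.subtype 9]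
      show (9 : Qbar) * ((x n : ℚ) : Qbar) = ((c n : ℚ) : Qbar)
      rw [hcn]
      push_cast
      norm_num
    · have hn0 : n = 0 := by omega
      subst hn0
      rw [dif_neg hn, if_pos rfl, mul_zero, add_zero, hc0]
      simp
  have h1per : (1 : ℝ) ∈ ((Gamma0 p : Subgroup (GL (Fin 2) ℝ))).strictPeriods :=
    CongruenceSubgroup.one_mem_strictPeriods_Gamma0 p
  have hGan : AnalyticAt ℂ (cuspFunction 1 G) 0 :=
    ModularFormClass.analyticAt_cuspFunction_zero G one_pos h1per
  have hqG : qExpansion 1 G = ((1 + 9 * hh).map A.subtype).map (algebraMap Qbar ℂ) := by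
    ext n
    rw [hG n, coeff_map, hφc, map_ratCast]
  have hb : qExpansion 1 ((G : ℍ → ℂ) * (G : ℍ → ℂ)) =
      (((1 + 9 * hh) ^ 2).map A.subtype).map (algebraMap Qbar ℂ) := by
    rw [UpperHalfPlane.qExpansion_mul hGan hGan, hqG, map_pow, map_pow, pow_two]
  have ha : qExpansion 1 E₄ = (H12.eisQ.map (Int.castRingHom Qbar)).map (algebraMap Qbar ℂ) := by
    rw [H95.qExpansion_E4, H95.e4, e4Z_eq_eisQ, map_intCast_map]
  have hGf : H72.IsFormOn p 2 (G : ℍ → ℂ) := H72.isFormOn_modularForm G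
  have hGG : H72.IsFormOn p 4 ((G : ℍ → ℂ) * (G : ℍ → ℂ)) := hGf.mul hGf
  have hE : H72.IsFormOn p 4 (E₄ : ℍ → ℂ) := H72.isFormOn_levelOne p E₄
  have hGG0 : (G : ℍ → ℂ) * (G : ℍ → ℂ) ≠ 0 := by
    intro h0
    rw [h0, UpperHalfPlane.qExpansion_zero] at hb
    have hc1 : coeff 0 ((1 + 9 * hh) ^ 2) = (1 : A) := by
      rw [coeff_zero_eq_constantCoeff_apply, map_pow, map_add, map_mul, hh0, mul_zero, add_zero,
        map_one, one_pow]
    have := congrArg (coeff 0) hb
    rw [coeff_map, coeff_map, hc1, map_one, map_one, map_zero] at this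
    exact zero_ne_one this
  obtain ⟨f₀, hf₀, -⟩ := H72.exists_baseChange_eq_ratio p (K := Qbar) hE hGG hGG0
    (H12.eisQ.map (Int.castRingHom Qbar)) (((1 + 9 * hh) ^ 2).map A.subtype) ha hb
  have hmem := sBar_mem_of_ratio p A hA h3p hh hh0 (f₀ : LaurentSeries Qbar) f₀.2 hf₀
  have : IsAlgClosed (ResidueField A) := H45.isAlgClosed_residueField A
  obtain ⟨ζ, hζ⟩ := H16.exists_primitiveRoot_unit' (ResidueField A) p
    (H92.natCast_residueField_ne_zero p h3p A hA)
  exact sBar_not_mem p (ResidueField A) hp5 ζ hζ h1 h2 hmem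

/-- **(U3b) leaf, function-field route** (for every prime `p ≥ 5`): `ULeaf p 3 1`. -/
theorem uLeaf_three_one (p : ℕ) [Fact p.Prime] (hp5 : 5 ≤ p)
    (h1 : 12 * H12.qD H12.eisP = H12.eisP ^ 2 - H12.eisQ)
    (h2 : 3 * H12.qD H12.eisQ = H12.eisP * H12.eisQ - H12.eisR) :
    H39.ULeaf p 3 1 :=
  H39.uLeaf_of_noUnitForm Nat.prime_three (noUnitForm_three p hp5 h1 h2)

end Forms

end Fermat.Agent.S16.H17
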