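import Fermat.Agent.S16.H17_JacobiFormal
import Fermat.Agent.S16.H17_NoIntermediateFk

/-!
# S16 (U,3; `p ≡ 2 mod 3`), function-field route: the series side (helper17)

In characteristic `3`: `1/J = q ∏ (1 - qⁿ)^24 = S - S³` with `S = ∑ σ(n) qⁿ`, hence
`S ∉ k(J, J_p)` for every prime `p ≥ 5` (`H17.false_of_cube_sub_fullC`).
The two formal Ramanujan identities enter as the named hypotheses `h1`, `h2` of
`H12.map_eq_of_mul_eq`.
-/

set_option autoImplicit false

noncomputable section

namespace Fermat.Agent.S16.H17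

open ModularCurve PowerSeries

section Char3

variable (k : Type*) [Field k] [CharP k 3]

/-- `S = ∑ σ(n) qⁿ` as a power series over `k`. -/
def sBarPS : k⟦X⟧ := (H12.sigmaSeries 1).map (Int.castRingHom k)

/-- `S = ∑ σ(n) qⁿ` as a Laurent series over `k`. -/
def sBar : LaurentSeries k := HahnSeries.ofPowerSeries ℤ k (sBarPS k)

theorem intCast_three_mul (a : ℤ) : (((3 * a : ℤ)) : k) = 0 := by
  have h3 : ((3 : ℕ) : k) = 0 := CharP.cast_eq_zero k 3
  push_cast
  have : (3 : k) = 0 := by exact_mod_cast h3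
  rw [this, zero_mul]

theorem eisenstein4_map_eq_one :
    ModularCurve.eisenstein4.map (Int.castRingHom k) = 1 := by
  ext n
  rw [coeff_map, ModularCurve.eisenstein4, coeff_mk, coeff_one]
  split_ifs with h
  · simp
  · have : (240 * ∑ d ∈ n.divisors, (d : ℤ) ^ 3 : ℤ) = 3 * (80 * ∑ d ∈ n.divisors, (d : ℤ) ^ 3) := by
      ring
    rw [this]
    exact intCast_three_mul k _

theorem jNum_map_mul_etaUnit :
    ModularCurve.jNum.map (Int.castRingHom k) *
      ModularCurve.dedekindEtaUnit.map (Int.castRingHom k) = 1 := by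
  rw [ModularCurve.jNum, map_mul, map_pow, eisenstein4_map_eq_one, one_pow, one_mul, ← map_mul,
    mul_comm, ModularCurve.dedekindEtaUnit_mul_inv, map_one]

/-- In characteristic `3`: `J · q ∏ (1 - qⁿ)^24 = 1`. -/
theorem jqModC_mul_deltaZ :
    jqModC k * HahnSeries.ofPowerSeries ℤ k (deltaZ.map (Int.castRingHom k)) = 1 := by
  rw [jqModC, deltaZ, map_mul, map_X, map_mul, HahnSeries.ofPowerSeries_X]
  calc HahnSeries.single (-1 : ℤ) (1 : k) *
        HahnSeries.ofPowerSeries ℤ k (ModularCurve.jNum.map (Int.castRingHom k)) *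
        (HahnSeries.single 1 1 *
          HahnSeries.ofPowerSeries ℤ k (ModularCurve.dedekindEtaUnit.map (Int.castRingHom k)))
      = (HahnSeries.single (-1 : ℤ) (1 : k) * HahnSeries.single 1 1) *
        HahnSeries.ofPowerSeries ℤ k (ModularCurve.jNum.map (Int.castRingHom k) *
          ModularCurve.dedekindEtaUnit.map (Int.castRingHom k)) := by
        rw [map_mul]; ring
    _ = 1 := by
        rw [jNum_map_mul_etaUnit, map_one (HahnSeries.ofPowerSeries ℤ k), mul_one,
          HahnSeries.single_mul_single]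
        simp

theorem jqModC_inv_eq :
    (jqModC k)⁻¹ = HahnSeries.ofPowerSeries ℤ k (deltaZ.map (Int.castRingHom k)) :=
  inv_eq_of_mul_eq_one_right (jqModC_mul_deltaZ k)

/-- **Artin–Schreier relation in characteristic `3`:** `S³ - S = -1/J`. -/
theorem sBar_cube_sub (h1 : 12 * H12.qD H12.eisP = H12.eisP ^ 2 - H12.eisQ)
    (h2 : 3 * H12.qD H12.eisQ = H12.eisP * H12.eisQ - H12.eisR) :
    sBar k ^ 3 - sBar k = -(jqModC k)⁻¹ := by
  rw [jqModC_inv_eq, H12.map_eq_of_mul_eq h1 h2 deltaZ jacobi_formal k, sBar, sBarPS,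
    map_sub, map_pow]
  ring

end Char3

section Level

variable (p : ℕ) [hp : Fact p.Prime] (k : Type) [Field k] [CharP k 3]

/-- **(U,3) series side.** For a prime `p ≥ 5`, `S = ∑ σ(n) qⁿ` is not an element of the function
field `k(J, J_p)` in characteristic `3`. -/
theorem sBar_not_mem (hp5 : 5 ≤ p) (ζ : kˣ) (hζ : IsPrimitiveRoot ζ p)
    (h1 : 12 * H12.qD H12.eisP = H12.eisP ^ 2 - H12.eisQ)
    (h2 : 3 * H12.qD H12.eisQ = H12.eisP * H12.eisQ - H12.eisR) :
    sBar k ∉ modularFunctionFieldFullC k p := by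
  intro hmem
  have h3p : ¬ 3 ∣ p := by
    intro h
    have := (Nat.prime_dvd_prime_iff_eq Nat.prime_three hp.out).mp h
    omega
  have : Fact (Nat.Prime 3) := ⟨Nat.prime_three⟩
  refine false_of_cube_sub_fullC p 3 h3p k (by omega) ζ hζ ⟨sBar k, hmem⟩ ?_
  apply Subtype.ext
  have := sBar_cube_sub k h1 h2
  simpa using this

end Level

end Fermat.Agent.S16.H17
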