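import Fermat.Agent.S18.H92_GaussModel

/-!
# S16 / (QP-VAL) (helper19): the Gauss ball of a two-generator field of `q`-expansions is stable
under a "swap" automorphism (Atkin-Lehner/Fricke involution), and the constant test

Setting = helper92's `H92.TwoGen A π` (valuation subring `A ⊆ L`, `π : A →+* k`, generators
`x y : A((q))`).  If `w` is a ring endomorphism of `L(x,y) ⊆ L((q))` fixing the constants and
exchanging `x` and `y`, and `wk` is the analogous endomorphism of `k(x̄,ȳ)`, then `w` preserves the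
Gauss ball `{a / b : a, b ∈ A[x,y], b̄ ≠ 0}` and commutes with the reduction.  No uniqueness of
extensions of valuations is needed: the ball is described symmetrically in `x, y`.

`const_test` is the valuation-theoretic core of the "constant test" of S16: if
`g = 1 + c·(A-integral series)` and `w g = d + c·(A-integral series)` then `c ∣ d - 1` in `A`.
-/

set_option autoImplicit false

noncomputable section

namespace Fermat.Agent.S16.H19

open ModularCurve Polynomial Fermat.Agent.S18.H92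

section Generic

variable {K : Type*} [Field K]

theorem ev2_mem_adjoin (x y : LaurentSeries K) (P : K[X][X]) :
    ev2 x y P ∈ IntermediateField.adjoin K {x, y} := by
  have h1 : ev2 x y P ∈ Algebra.adjoin K {x, y} := by
    rw [adjoin_pair_eq_range]
    exact ⟨P, rfl⟩
  exact IntermediateField.algebra_adjoin_le_adjoin K _ h1

theorem ev2_swap_mem_adjoin (x y : LaurentSeries K) (P : K[X][X]) :
    ev2 y x P ∈ IntermediateField.adjoin K {x, y} := by
  rw [Set.pair_comm]
  exact ev2_mem_adjoin y x P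

/-- A ring endomorphism of `K(x,y)` fixing the constants and exchanging `x` and `y` sends
`P(x,y)` to `P(y,x)`. -/
theorem swap_ev2 (x y : LaurentSeries K)
    (w : ↥(IntermediateField.adjoin K {x, y}) →+* ↥(IntermediateField.adjoin K {x, y}))
    (hC : ∀ c : K, w (algebraMap K _ c) = algebraMap K _ c)
    (hx : ((w ⟨x, IntermediateField.subset_adjoin K _ (by simp)⟩ :
      ↥(IntermediateField.adjoin K {x, y})) : LaurentSeries K) = y)
    (hy : ((w ⟨y, IntermediateField.subset_adjoin K _ (by simp)⟩ :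
      ↥(IntermediateField.adjoin K {x, y})) : LaurentSeries K) = x)
    (P : K[X][X]) :
    ((w ⟨ev2 x y P, ev2_mem_adjoin x y P⟩ : ↥(IntermediateField.adjoin K {x, y})) :
      LaurentSeries K) = ev2 y x P := by
  let F := IntermediateField.adjoin K {x, y}
  let ι : K[X][X] →+* ↥F := RingHom.codRestrict (ev2 x y) F (ev2_mem_adjoin x y)
  let φ₁ : K[X][X] →+* LaurentSeries K := (F.val : ↥F →+* LaurentSeries K).comp (w.comp ι)
  have key : φ₁ = ev2 y x := by
    apply Polynomial.ringHom_ext'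
    · apply Polynomial.ringHom_ext'
      · refine RingHom.ext fun c => ?_
        show ((w ⟨ev2 x y (C (C c)), _⟩ : ↥F) : LaurentSeries K) = ev2 y x (C (C c))
        have h1 : (⟨ev2 x y (C (C c)), ev2_mem_adjoin x y _⟩ : ↥F) = algebraMap K ↥F c := by
          apply Subtype.ext
          show ev2 x y (C (C c)) = algebraMap K (LaurentSeries K) c
          rw [ev2_C_C, algebraMap_eq_single]; rfl
        rw [h1, hC, ev2_C_C]
        show algebraMap K (LaurentSeries K) c = _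
        rw [algebraMap_eq_single]; rfl
      · show ((w ⟨ev2 x y (C X), _⟩ : ↥F) : LaurentSeries K) = ev2 y x (C X)
        have h1 : (⟨ev2 x y (C X), ev2_mem_adjoin x y _⟩ : ↥F) =
            ⟨x, IntermediateField.subset_adjoin K _ (by simp)⟩ := by
          apply Subtype.ext
          exact ev2_C_X x y
        rw [h1, hx, ev2_C_X]
    · show ((w ⟨ev2 x y X, _⟩ : ↥F) : LaurentSeries K) = ev2 y x X
      have h1 : (⟨ev2 x y X, ev2_mem_adjoin x y _⟩ : ↥F) =
          ⟨y, IntermediateField.subset_adjoin K _ (by simp)⟩ := by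
        apply Subtype.ext
        exact ev2_X x y
      rw [h1, hy, ev2_X]
  have := congrArg (fun f : K[X][X] →+* LaurentSeries K => f P) key
  exact this

end Generic

section TwoGenSwap

variable {L : Type*} [Field L] {k : Type*} [Field k] {A : ValuationSubring L} {π : A →+* k}
  (T : TwoGen A π)

/-- `A[x,y] = A[y,x]`. -/
theorem ev2_swap_mem_RA (Q : A[X][X]) : ev2 T.y T.x Q ∈ T.RA := by
  have h : ev2 T.y T.x Q ∈ (ev2Alg T.x T.y).range := by
    rw [← adjoin_pair_eq_range, Set.pair_comm, adjoin_pair_eq_range]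
    exact ⟨Q, rfl⟩
  obtain ⟨Q', hQ'⟩ := h
  exact ⟨Q', hQ'⟩

theorem xL_mem_FL : T.xL ∈ T.FL := IntermediateField.subset_adjoin L _ (by simp)
theorem yL_mem_FL : T.yL ∈ T.FL := IntermediateField.subset_adjoin L _ (by simp)
theorem xk_mem_Fk : T.xk ∈ T.Fk := IntermediateField.subset_adjoin k _ (by simp)
theorem yk_mem_Fk : T.yk ∈ T.Fk := IntermediateField.subset_adjoin k _ (by simp)

/-- The data of a "swap" (Atkin-Lehner / Fricke) endomorphism on both fibres. -/
structure SwapData where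
  w : ↥T.FL →+* ↥T.FL
  w_const : ∀ c : L, w (algebraMap L ↥T.FL c) = algebraMap L ↥T.FL c
  w_x : ((w ⟨T.xL, xL_mem_FL T⟩ : ↥T.FL) : LaurentSeries L) = T.yL
  w_y : ((w ⟨T.yL, yL_mem_FL T⟩ : ↥T.FL) : LaurentSeries L) = T.xL
  wk : ↥T.Fk →+* ↥T.Fk
  wk_const : ∀ c : k, wk (algebraMap k ↥T.Fk c) = algebraMap k ↥T.Fk c
  wk_x : ((wk ⟨T.xk, xk_mem_Fk T⟩ : ↥T.Fk) : LaurentSeries k) = T.yk
  wk_y : ((wk ⟨T.yk, yk_mem_Fk T⟩ : ↥T.Fk) : LaurentSeries k) = T.xk

variable {T}

namespace SwapData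

variable (W : SwapData T)

/-- `w` sends `up (Q(x,y))` to `up (Q(y,x))`. -/
theorem w_up (Q : A[X][X]) :
    ((W.w ⟨up A (ev2 T.x T.y Q), T.up_mem_FL ⟨Q, rfl⟩⟩ : ↥T.FL) : LaurentSeries L) =
      up A (ev2 T.y T.x Q) := by
  have h1 : (⟨up A (ev2 T.x T.y Q), T.up_mem_FL ⟨Q, rfl⟩⟩ : ↥T.FL) =
      ⟨ev2 T.xL T.yL (Q.map (Polynomial.mapRingHom A.subtype)), ev2_mem_adjoin _ _ _⟩ :=
    Subtype.ext (T.up_ev2 Q)
  rw [h1, swap_ev2 T.xL T.yL W.w W.w_const W.w_x W.w_y]
  exact (coeffMap_ev2 A.subtype T.y T.x Q).symm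

/-- `wk` sends `red (Q(x,y))` to `red (Q(y,x))`. -/
theorem wk_red (Q : A[X][X]) :
    ((W.wk ⟨T.red (ev2 T.x T.y Q), T.red_mem_Fk ⟨Q, rfl⟩⟩ : ↥T.Fk) : LaurentSeries k) =
      T.red (ev2 T.y T.x Q) := by
  have h1 : (⟨T.red (ev2 T.x T.y Q), T.red_mem_Fk ⟨Q, rfl⟩⟩ : ↥T.Fk) =
      ⟨ev2 T.xk T.yk (Q.map (Polynomial.mapRingHom π)), ev2_mem_adjoin _ _ _⟩ :=
    Subtype.ext (T.red_ev2 Q)
  rw [h1, swap_ev2 T.xk T.yk W.wk W.wk_const W.wk_x W.wk_y]
  exact (coeffMap_ev2 π T.y T.x Q).symm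

/-- **(QP-VAL)** the swap endomorphism preserves the Gauss ball and commutes with reduction. -/
theorem mem_ball_and_resFun (f : ↥T.FL) (hf : (f : LaurentSeries L) ∈ T.ball) :
    ((W.w f : ↥T.FL) : LaurentSeries L) ∈ T.ball ∧
      T.resFun ((W.w f : ↥T.FL) : LaurentSeries L) =
        ((W.wk ⟨T.resFun (f : LaurentSeries L), T.resFun_mem_Fk _⟩ : ↥T.Fk) : LaurentSeries k) := by
  obtain ⟨a, ⟨Qa, rfl⟩, b, ⟨Qb, rfl⟩, hb0, hfab⟩ := hf
  -- the relation inside `FL`, transported by `w`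
  have hrel : f * ⟨up A (ev2 T.x T.y Qb), T.up_mem_FL ⟨Qb, rfl⟩⟩ =
      ⟨up A (ev2 T.x T.y Qa), T.up_mem_FL ⟨Qa, rfl⟩⟩ := Subtype.ext hfab
  have hrel' : ((W.w f : ↥T.FL) : LaurentSeries L) * up A (ev2 T.y T.x Qb) =
      up A (ev2 T.y T.x Qa) := by
    have := congrArg (fun z : ↥T.FL => (z : LaurentSeries L)) (congrArg W.w hrel)
    simp only [map_mul, MulMemClass.coe_mul] at this
    rw [W.w_up Qb, W.w_up Qa] at this
    exact this
  -- nonvanishing of the reduced denominator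
  have hb0' : T.red (ev2 T.y T.x Qb) ≠ 0 := by
    rw [← W.wk_red Qb]
    intro h
    have h2 : W.wk ⟨T.red (ev2 T.x T.y Qb), T.red_mem_Fk ⟨Qb, rfl⟩⟩ = 0 := Subtype.ext h
    rw [map_eq_zero] at h2
    exact hb0 (congrArg Subtype.val h2)
  have hmem : ((W.w f : ↥T.FL) : LaurentSeries L) ∈ T.ball :=
    ⟨_, ev2_swap_mem_RA T Qa, _, ev2_swap_mem_RA T Qb, hb0', hrel'⟩
  refine ⟨hmem, ?_⟩
  rw [T.resFun_eq hb0' hrel' hmem, ← W.wk_red Qa, ← W.wk_red Qb]
  have hres : (⟨T.resFun (f : LaurentSeries L), T.resFun_mem_Fk _⟩ : ↥T.Fk) =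
      ⟨T.red (ev2 T.x T.y Qa), T.red_mem_Fk ⟨Qa, rfl⟩⟩ /
        ⟨T.red (ev2 T.x T.y Qb), T.red_mem_Fk ⟨Qb, rfl⟩⟩ := by
    apply Subtype.ext
    show T.resFun (f : LaurentSeries L) = T.red (ev2 T.x T.y Qa) / T.red (ev2 T.x T.y Qb)
    exact T.resFun_eq hb0 hfab ⟨_, ⟨Qa, rfl⟩, _, ⟨Qb, rfl⟩, hb0, hfab⟩
  rw [hres, map_div₀]
  rfl

/-- **constant test, valuation core.**  If `g = 1 + c·z` and `w g = d + c·z'` with `z, z'`
`A`-integral `q`-expansions (and `c ≠ 0` in `A`, `d` a constant), then `c ∣ d - 1` in `A`. -/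
theorem const_test (g : ↥T.FL) (c : A) (hc : (c : L) ≠ 0) (z z' : LaurentSeries A) (d : L)
    (hg : (g : LaurentSeries L) = 1 + HahnSeries.C (c : L) * up A z)
    (hwg : ((W.w g : ↥T.FL) : LaurentSeries L) = HahnSeries.C d + HahnSeries.C (c : L) * up A z') :
    ∃ e : A, d - 1 = (c : L) * (e : L) := by
  have hCc : (HahnSeries.C (c : L) : LaurentSeries L) ≠ 0 := by
    rw [Ne, map_eq_zero]; exact hc
  have hconst : ∀ a : L, (HahnSeries.C a : LaurentSeries L) ∈ T.FL := by
    intro a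
    have := (algebraMap L ↥T.FL a).2
    have h2 : ((algebraMap L ↥T.FL a : ↥T.FL) : LaurentSeries L) = HahnSeries.C a := by
      show algebraMap L (LaurentSeries L) a = _
      rw [algebraMap_eq_single]; rfl
    rwa [h2] at this
  -- `up z ∈ FL`
  have hz : up A z ∈ T.FL := by
    have h1 : up A z = ((g : LaurentSeries L) - 1) / HahnSeries.C (c : L) := by
      rw [hg]; field_simp; ring
    rw [h1]
    exact T.FL.div_mem (T.FL.sub_mem g.2 T.FL.one_mem) (hconst _)
  obtain ⟨hzball, -⟩ := T.up_mem_ball hz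
  set u : ↥T.FL := ⟨up A z, hz⟩ with hu
  have hg' : g = 1 + algebraMap L ↥T.FL (c : L) * u := by
    apply Subtype.ext
    show (g : LaurentSeries L) = 1 + algebraMap L (LaurentSeries L) (c : L) * up A z
    rw [hg, algebraMap_eq_single]; rfl
  have hwu : ((W.w u : ↥T.FL) : LaurentSeries L) =
      HahnSeries.C ((d - 1) / (c : L)) + up A z' := by
    have h1 : W.w g = 1 + algebraMap L ↥T.FL (c : L) * W.w u := by
      rw [hg', map_add, map_one, map_mul, W.w_const]
    have h2 : ((W.w g : ↥T.FL) : LaurentSeries L) =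
        1 + HahnSeries.C (c : L) * ((W.w u : ↥T.FL) : LaurentSeries L) := by
      rw [h1]
      show (1 : LaurentSeries L) + algebraMap L (LaurentSeries L) (c : L) * _ = _
      rw [algebraMap_eq_single]; rfl
    rw [hwg] at h2
    have h3 : ((W.w u : ↥T.FL) : LaurentSeries L) =
        (HahnSeries.C d + HahnSeries.C (c : L) * up A z' - 1) / HahnSeries.C (c : L) := by
      rw [h2]; field_simp; ring
    rw [h3, map_div₀, map_sub, map_one]
    field_simp
    ring
  obtain ⟨hwball, -⟩ := W.mem_ball_and_resFun u hzball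
  have hz' : up A z' ∈ T.FL := by
    have h1 : up A z' = ((W.w u : ↥T.FL) : LaurentSeries L) - HahnSeries.C ((d - 1) / (c : L)) := by
      rw [hwu]; ring
    rw [h1]
    exact T.FL.sub_mem (W.w u).2 (hconst _)
  obtain ⟨hz'ball, -⟩ := T.up_mem_ball hz'
  have hCball : (HahnSeries.C ((d - 1) / (c : L)) : LaurentSeries L) ∈ T.ball := by
    have h1 : (HahnSeries.C ((d - 1) / (c : L)) : LaurentSeries L) =
        ((W.w u : ↥T.FL) : LaurentSeries L) - up A z' := by
      rw [hwu]; ring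
    rw [h1]
    exact T.ball.sub_mem hwball hz'ball
  rw [T.C_mem_ball_iff] at hCball
  refine ⟨⟨_, hCball⟩, ?_⟩
  show d - 1 = (c : L) * ((d - 1) / (c : L))
  field_simp

end SwapData

/-! ### Versions for a field `F` given with a proof `F = T.FL` (e.g. `modularFunctionFieldBar`) -/

section Package

variable (T)
variable {F : IntermediateField L (LaurentSeries L)} (hF : F = T.FL)
  {Fb : IntermediateField k (LaurentSeries k)} (hFb : Fb = T.Fk)
  (w : ↥F →+* ↥F) (hwC : ∀ c : L, w (algebraMap L ↥F c) = algebraMap L ↥F c)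
  (hwx : ∀ h : T.xL ∈ F, ((w ⟨T.xL, h⟩ : ↥F) : LaurentSeries L) = T.yL)
  (hwy : ∀ h : T.yL ∈ F, ((w ⟨T.yL, h⟩ : ↥F) : LaurentSeries L) = T.xL)
  (wk : ↥Fb →+* ↥Fb) (hwkC : ∀ c : k, wk (algebraMap k ↥Fb c) = algebraMap k ↥Fb c)
  (hwkx : ∀ h : T.xk ∈ Fb, ((wk ⟨T.xk, h⟩ : ↥Fb) : LaurentSeries k) = T.yk)
  (hwky : ∀ h : T.yk ∈ Fb, ((wk ⟨T.yk, h⟩ : ↥Fb) : LaurentSeries k) = T.xk)

include hF hFb hwC hwx hwy hwkC hwkx hwky

/-- **(QP-VAL)**, packaged: the unit ball of `F` is stable under the swap endomorphism `w`, and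
`resHom ∘ w = wk ∘ resHom`. -/
theorem unitBall_swap (f : T.unitBall F hF) :
    ∃ h : w (f : ↥F) ∈ T.unitBall F hF,
      T.resHom F hF Fb hFb ⟨w (f : ↥F), h⟩ = wk (T.resHom F hF Fb hFb f) := by
  subst hF
  subst hFb
  let W : SwapData T :=
    { w := w, w_const := hwC, w_x := hwx _, w_y := hwy _
      wk := wk, wk_const := hwkC, wk_x := hwkx _, wk_y := hwky _ }
  obtain ⟨h1, h2⟩ := W.mem_ball_and_resFun (f : ↥T.FL) f.2
  exact ⟨h1, Subtype.ext h2⟩

/-- **constant test**, packaged. -/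
theorem const_test_of_eq (g : ↥F) (c : A) (hc : (c : L) ≠ 0) (z z' : LaurentSeries A) (d : L)
    (hg : (g : LaurentSeries L) = 1 + HahnSeries.C (c : L) * up A z)
    (hwg : ((w g : ↥F) : LaurentSeries L) = HahnSeries.C d + HahnSeries.C (c : L) * up A z') :
    ∃ e : A, d - 1 = (c : L) * (e : L) := by
  subst hF
  subst hFb
  let W : SwapData T :=
    { w := w, w_const := hwC, w_x := hwx _, w_y := hwy _
      wk := wk, wk_const := hwkC, wk_x := hwkx _, wk_y := hwky _ }
  exact W.const_test g c hc z z' d hg hwg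

end Package

end TwoGenSwap

end Fermat.Agent.S16.H19
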