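import Fermat.Agent.S16.H19_QPVal
import Fermat.Agent.S18.H92_IndepK

/-!
# S16 / (QP-VAL) (helper19): the standard Gauss ring `H92.stdO` of `X₀(N)` at `ℓ ∤ N` is stable
under any Atkin-Lehner/Fricke type endomorphism exchanging `j(q)` and `j(q^N)`

Instance of `H19_QPVal` at helper92's `H92.stdTwoGen N hℓN A hA`
(`x = j(q)`, `y = j(q^N)`, `F = modularFunctionFieldBar N`,
`F̄ = modularFunctionFieldFullC (ResidueField A) N`).
The endomorphisms `w`, `wk` are data (`StdSwap`): any ring endomorphisms fixing the constants and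
exchanging the two generators; e.g. the Fricke involution for `N = p` prime.
-/

set_option autoImplicit false
set_option synthInstance.maxHeartbeats 400000

noncomputable section

namespace Fermat.Agent.S16.H19

open ModularCurve Polynomial AlgebraicCurve Fermat.Agent.S18.H92

/-- A pair of "swap" endomorphisms (characteristic `0` over `Qbar`, and over the residue field of
`A`) of the function field of `X₀(N)`: they fix the constants and exchange `j(q)` and `j(q^N)`. -/
structure StdSwap (N : ℕ) [NeZero N] (A : ValuationSubring (AlgebraicClosure ℚ)) where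
  w : ↥(modularFunctionFieldBar N) →+* ↥(modularFunctionFieldBar N)
  w_const : ∀ c : AlgebraicClosure ℚ, w (algebraMap (AlgebraicClosure ℚ) _ c) =
    algebraMap (AlgebraicClosure ℚ) _ c
  w_j : ∀ h : jqModC (AlgebraicClosure ℚ) ∈ modularFunctionFieldBar N,
    ((w ⟨jqModC (AlgebraicClosure ℚ), h⟩ : ↥(modularFunctionFieldBar N)) :
      LaurentSeries (AlgebraicClosure ℚ)) = jqNModC (AlgebraicClosure ℚ) N
  w_jN : ∀ h : jqNModC (AlgebraicClosure ℚ) N ∈ modularFunctionFieldBar N,
    ((w ⟨jqNModC (AlgebraicClosure ℚ) N, h⟩ : ↥(modularFunctionFieldBar N)) :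
      LaurentSeries (AlgebraicClosure ℚ)) = jqModC (AlgebraicClosure ℚ)
  wk : ↥(modularFunctionFieldFullC (IsLocalRing.ResidueField A) N) →+*
    ↥(modularFunctionFieldFullC (IsLocalRing.ResidueField A) N)
  wk_const : ∀ c : IsLocalRing.ResidueField A, wk (algebraMap (IsLocalRing.ResidueField A) _ c) =
    algebraMap (IsLocalRing.ResidueField A) _ c
  wk_j : ∀ h : jqModC (IsLocalRing.ResidueField A) ∈
      modularFunctionFieldFullC (IsLocalRing.ResidueField A) N,
    ((wk ⟨jqModC (IsLocalRing.ResidueField A), h⟩ :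
      ↥(modularFunctionFieldFullC (IsLocalRing.ResidueField A) N)) :
      LaurentSeries (IsLocalRing.ResidueField A)) = jqNModC (IsLocalRing.ResidueField A) N
  wk_jN : ∀ h : jqNModC (IsLocalRing.ResidueField A) N ∈
      modularFunctionFieldFullC (IsLocalRing.ResidueField A) N,
    ((wk ⟨jqNModC (IsLocalRing.ResidueField A) N, h⟩ :
      ↥(modularFunctionFieldFullC (IsLocalRing.ResidueField A) N)) :
      LaurentSeries (IsLocalRing.ResidueField A)) = jqModC (IsLocalRing.ResidueField A)

section Std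

variable (N : ℕ) [NeZero N] {ℓ : ℕ} [Fact ℓ.Prime] (hℓN : ¬ ℓ ∣ N)
  (A : ValuationSubring (AlgebraicClosure ℚ)) (hA : A.LiesOverPrime ℓ) (W : StdSwap N A)

/-- **(QP-VAL) for `X₀(N)`**: `w (stdO) ⊆ stdO` and `stdRes ∘ w = wk ∘ stdRes`. -/
theorem stdO_swap (f : stdO N hℓN A hA) :
    ∃ h : W.w (f : ↥(modularFunctionFieldBar N)) ∈ stdO N hℓN A hA,
      stdRes N hℓN A hA ⟨W.w (f : ↥(modularFunctionFieldBar N)), h⟩ =
        W.wk (stdRes N hℓN A hA f) := by
  have hind := indepK_residueField N hℓN A hA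
  have exL := twoGen_xL A N (modData N) hind
  have eyL := twoGen_yL A N (modData N) hind
  have exk := twoGen_xk A N (modData N) hind
  have eyk := twoGen_yk A N (modData N) hind
  refine unitBall_swap (stdTwoGen N hℓN A hA) (stdTwoGen_FL N hℓN A hA) (stdTwoGen_Fk N hℓN A hA)
    W.w W.w_const ?_ ?_ W.wk W.wk_const ?_ ?_ f
  · intro h
    have h' : jqModC (AlgebraicClosure ℚ) ∈ modularFunctionFieldBar N := exL ▸ h
    have e : (⟨_, h⟩ : ↥(modularFunctionFieldBar N)) = ⟨jqModC (AlgebraicClosure ℚ), h'⟩ :=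
      Subtype.ext exL
    rw [e, W.w_j h']; exact eyL.symm
  · intro h
    have h' : jqNModC (AlgebraicClosure ℚ) N ∈ modularFunctionFieldBar N := eyL ▸ h
    have e : (⟨_, h⟩ : ↥(modularFunctionFieldBar N)) = ⟨jqNModC (AlgebraicClosure ℚ) N, h'⟩ :=
      Subtype.ext eyL
    rw [e, W.w_jN h']; exact exL.symm
  · intro h
    have h' : jqModC (IsLocalRing.ResidueField A) ∈
        modularFunctionFieldFullC (IsLocalRing.ResidueField A) N := exk ▸ h
    have e : (⟨_, h⟩ : ↥(modularFunctionFieldFullC (IsLocalRing.ResidueField A) N)) =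
        ⟨jqModC (IsLocalRing.ResidueField A), h'⟩ := Subtype.ext exk
    rw [e, W.wk_j h']; exact eyk.symm
  · intro h
    have h' : jqNModC (IsLocalRing.ResidueField A) N ∈
        modularFunctionFieldFullC (IsLocalRing.ResidueField A) N := eyk ▸ h
    have e : (⟨_, h⟩ : ↥(modularFunctionFieldFullC (IsLocalRing.ResidueField A) N)) =
        ⟨jqNModC (IsLocalRing.ResidueField A) N, h'⟩ := Subtype.ext eyk
    rw [e, W.wk_jN h']; exact exk.symm

include hℓN hA in
/-- **constant test for `X₀(N)`, valuation core**: if `g = 1 + c·z` and `w g = d + c·z'` with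
`z, z'` `A`-integral `q`-expansions, `0 ≠ c ∈ A` and `d` a constant, then `c ∣ d - 1` in `A`. -/
theorem std_const_test (g : ↥(modularFunctionFieldBar N)) (c : A)
    (hc : (c : AlgebraicClosure ℚ) ≠ 0)
    (z z' : LaurentSeries A) (d : AlgebraicClosure ℚ)
    (hg : (g : LaurentSeries (AlgebraicClosure ℚ)) =
      1 + HahnSeries.C (c : AlgebraicClosure ℚ) * coeffMap A.subtype z)
    (hwg : ((W.w g : ↥(modularFunctionFieldBar N)) : LaurentSeries (AlgebraicClosure ℚ)) =
      HahnSeries.C d + HahnSeries.C (c : AlgebraicClosure ℚ) * coeffMap A.subtype z') :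
    ∃ e : A, d - 1 = (c : AlgebraicClosure ℚ) * (e : AlgebraicClosure ℚ) := by
  have hind := indepK_residueField N hℓN A hA
  have exL := twoGen_xL A N (modData N) hind
  have eyL := twoGen_yL A N (modData N) hind
  have exk := twoGen_xk A N (modData N) hind
  have eyk := twoGen_yk A N (modData N) hind
  refine const_test_of_eq (stdTwoGen N hℓN A hA) (stdTwoGen_FL N hℓN A hA)
    (stdTwoGen_Fk N hℓN A hA) W.w W.w_const ?_ ?_ W.wk W.wk_const ?_ ?_ g c hc z z' d hg hwg
  · intro h
    have h' : jqModC (AlgebraicClosure ℚ) ∈ modularFunctionFieldBar N := exL ▸ h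
    have e : (⟨_, h⟩ : ↥(modularFunctionFieldBar N)) = ⟨jqModC (AlgebraicClosure ℚ), h'⟩ :=
      Subtype.ext exL
    rw [e, W.w_j h']; exact eyL.symm
  · intro h
    have h' : jqNModC (AlgebraicClosure ℚ) N ∈ modularFunctionFieldBar N := eyL ▸ h
    have e : (⟨_, h⟩ : ↥(modularFunctionFieldBar N)) = ⟨jqNModC (AlgebraicClosure ℚ) N, h'⟩ :=
      Subtype.ext eyL
    rw [e, W.w_jN h']; exact exL.symm
  · intro h
    have h' : jqModC (IsLocalRing.ResidueField A) ∈
        modularFunctionFieldFullC (IsLocalRing.ResidueField A) N := exk ▸ h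
    have e : (⟨_, h⟩ : ↥(modularFunctionFieldFullC (IsLocalRing.ResidueField A) N)) =
        ⟨jqModC (IsLocalRing.ResidueField A), h'⟩ := Subtype.ext exk
    rw [e, W.wk_j h']; exact eyk.symm
  · intro h
    have h' : jqNModC (IsLocalRing.ResidueField A) N ∈
        modularFunctionFieldFullC (IsLocalRing.ResidueField A) N := eyk ▸ h
    have e : (⟨_, h⟩ : ↥(modularFunctionFieldFullC (IsLocalRing.ResidueField A) N)) =
        ⟨jqNModC (IsLocalRing.ResidueField A) N, h'⟩ := Subtype.ext eyk
    rw [e, W.wk_jN h']; exact exk.symm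

end Std

end Fermat.Agent.S16.H19
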