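/-
S16 / (U2b) hedge, step (G) (helper1): the abstract "orthonormal reduction" lemma, Mathlib only.

Setting: `L` a field with a valuation subring `A` and a ring hom `π : A →+* k` into a field;
`F / L`, `Fk / k` field extensions; `O` a subring of `F` containing the constants `A`, with a
reduction `res : O →+* Fk` compatible with `π`.  If `m : κ → F` is a family in `O` whose
reductions are `k`-linearly independent, then every finite-dimensional `L`-subspace `V` of the
`L`-span of `m` has `finrank L V` elements lying in `V ∩ O` with `k`-linearly independent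
reductions ("the unit ball of `V` reduces onto a space of the same dimension").
-/
import Mathlib

set_option autoImplicit false

noncomputable section

namespace Fermat.Agent.S16.H1

open Classical in
/-- a retraction `L → A` of the inclusion (sending everything outside `A` to `0`) -/
def toVal {L : Type*} [Field L] (A : ValuationSubring L) (x : L) : A :=
  if h : x ∈ A then ⟨x, h⟩ else 0

theorem toVal_zero {L : Type*} [Field L] (A : ValuationSubring L) : toVal A 0 = 0 := by
  unfold toVal
  split_ifs <;> rfl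

theorem coe_toVal {L : Type*} [Field L] (A : ValuationSubring L) {x : L} (h : x ∈ A) :
    ((toVal A x : A) : L) = x := by
  unfold toVal
  rw [dif_pos h]

theorem finrank_ker_add_one {L V : Type*} [Field L] [AddCommGroup V] [Module L V]
    [FiniteDimensional L V] (f : V →ₗ[L] L) (hf : Function.Surjective f) :
    Module.finrank L (LinearMap.ker f) + 1 = Module.finrank L V := by
  have h1 := LinearMap.finrank_range_add_finrank_ker f
  rw [LinearMap.range_eq_top.2 hf, finrank_top, Module.finrank_self] at h1
  omega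

/-- the hyperplane section `{x ∈ W | x s₀ = 0}` has codimension one if `W` contains a vector
with `s₀`-coordinate `1`. -/
theorem exists_hyperplane_section {L κ : Type*} [Field L] (W : Submodule L (κ →₀ L))
    [FiniteDimensional L W] (s₀ : κ) (w' : κ →₀ L) (hw'W : w' ∈ W) (hw's₀ : w' s₀ = 1) :
    ∃ W' : Submodule L (κ →₀ L), FiniteDimensional L W' ∧
      Module.finrank L W' + 1 = Module.finrank L W ∧ ∀ x ∈ W', x ∈ W ∧ x s₀ = 0 := by
  set f : W →ₗ[L] L := (Finsupp.lapply s₀ : (κ →₀ L) →ₗ[L] L) ∘ₗ W.subtype with hf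
  have hfsurj : Function.Surjective f := by
    intro x
    refine ⟨x • ⟨w', hw'W⟩, ?_⟩
    show (x • w') s₀ = x
    rw [Finsupp.smul_apply, hw's₀, smul_eq_mul, mul_one]
  have hker := @finrank_ker_add_one L W _ _ _ _ f hfsurj
  have hle : (LinearMap.ker f).map W.subtype ≤ W := by
    rintro x ⟨y, -, rfl⟩
    exact y.2
  refine ⟨(LinearMap.ker f).map W.subtype, Submodule.finiteDimensional_of_le hle, ?_, ?_⟩
  · rw [← hker]
    congr 1
    exact (Submodule.equivMapOfInjective W.subtype W.injective_subtype
        (LinearMap.ker f)).finrank_eq.symm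
  · rintro x ⟨y, hy, rfl⟩
    exact ⟨y.2, LinearMap.mem_ker.1 hy⟩

section Core

variable {L k : Type*} [Field L] [Field k]

/-- the inclusion `(κ →₀ A) → (κ →₀ L)` -/
def incl (A : ValuationSubring L) {κ : Type*} (u : κ →₀ A) : κ →₀ L :=
  Finsupp.mapRange A.subtype (map_zero _) u

/-- the reduction `(κ →₀ A) → (κ →₀ k)` -/
def redu {A : ValuationSubring L} (π : A →+* k) {κ : Type*} (u : κ →₀ A) : κ →₀ k :=
  Finsupp.mapRange π (map_zero _) u

@[simp] theorem incl_apply (A : ValuationSubring L) {κ : Type*} (u : κ →₀ A) (s : κ) :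
    incl A u s = (u s : L) := rfl

@[simp] theorem redu_apply {A : ValuationSubring L} (π : A →+* k) {κ : Type*} (u : κ →₀ A)
    (s : κ) : redu π u s = π (u s) := rfl

/-- **Gaussian elimination with pivoting by the maximal valuation**, in coefficient space. -/
theorem exists_integral_indep (A : ValuationSubring L) (π : A →+* k) {κ : Type*} :
    ∀ (r : ℕ) (W : Submodule L (κ →₀ L)) [FiniteDimensional L W], Module.finrank L W = r →
      ∃ u : Fin r → (κ →₀ A), (∀ i, incl A (u i) ∈ W) ∧
        LinearIndependent k (fun i => redu π (u i)) := by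
  classical
  intro r
  induction r with
  | zero =>
    intro W _ _
    exact ⟨Fin.elim0, fun i => i.elim0, linearIndependent_empty_type⟩
  | succ r ih =>
    intro W hfin hW
    -- a nonzero vector
    have hWbot : W ≠ ⊥ := by
      intro h
      subst h
      rw [finrank_bot] at hW
      omega
    obtain ⟨w, hwW, hw⟩ := Submodule.exists_mem_ne_zero_of_ne_bot hWbot
    have hne : w.support.Nonempty := Finsupp.support_nonempty_iff.2 hw
    obtain ⟨s₀, hs₀, hmax⟩ := Finset.exists_max_image w.support
      (fun s => A.valuation (w s)) hne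
    have hc : w s₀ ≠ 0 := Finsupp.mem_support_iff.1 hs₀
    set c := w s₀ with hcdef
    -- the normalised vector
    set w' : κ →₀ L := c⁻¹ • w with hw'
    have hw'W : w' ∈ W := W.smul_mem _ hwW
    have hmem : ∀ s, w' s ∈ A := by
      intro s
      rw [hw', Finsupp.smul_apply, smul_eq_mul, ← A.valuation_le_one_iff, map_mul, map_inv₀]
      by_cases hs : s ∈ w.support
      · have h1 := hmax s hs
        have hv : A.valuation c ≠ 0 := (_root_.map_ne_zero _).2 hc
        rw [inv_mul_le_iff₀ (zero_lt_iff.2 hv), mul_one]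
        exact h1
      · rw [Finsupp.notMem_support_iff.1 hs, map_zero, mul_zero]
        exact zero_le_one
    have hw's₀ : w' s₀ = 1 := by
      rw [hw', Finsupp.smul_apply, smul_eq_mul, ← hcdef, inv_mul_cancel₀ hc]
    set u₀ : κ →₀ A := Finsupp.mapRange (toVal A) (toVal_zero A) w' with hu₀
    have hu₀incl : incl A u₀ = w' := by
      ext s
      rw [incl_apply, hu₀, Finsupp.mapRange_apply, coe_toVal A (hmem s)]
    have hu₀s₀ : u₀ s₀ = 1 := by
      apply Subtype.ext
      rw [← incl_apply, hu₀incl, hw's₀]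
      rfl
    -- the hyperplane section
    obtain ⟨W', hW'fd, hW'fin1, hW'mem⟩ := exists_hyperplane_section W s₀ w' hw'W hw's₀
    have hW'fin : Module.finrank L W' = r := by omega
    obtain ⟨u', hu'W, hu'ind⟩ := ih W' hW'fin
    refine ⟨Fin.cons u₀ u', ?_, ?_⟩
    · intro i
      refine Fin.cases ?_ (fun j => ?_) i
      · rw [Fin.cons_zero, hu₀incl]
        exact hw'W
      · rw [Fin.cons_succ]
        exact (hW'mem _ (hu'W j)).1
    · have hfun : (fun i : Fin (r + 1) => redu π ((Fin.cons u₀ u' : Fin (r + 1) → (κ →₀ A)) i))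
          = Fin.cons (redu π u₀) (fun j => redu π (u' j)) := by
        funext i
        refine Fin.cases ?_ (fun j => ?_) i
        · rw [Fin.cons_zero, Fin.cons_zero]
        · rw [Fin.cons_succ, Fin.cons_succ]
      rw [hfun, linearIndependent_finCons]
      refine ⟨hu'ind, fun hmemspan => ?_⟩
      have hle : Submodule.span k (Set.range fun j => redu π (u' j)) ≤
          LinearMap.ker (Finsupp.lapply s₀ : (κ →₀ k) →ₗ[k] k) := by
        rw [Submodule.span_le]
        rintro _ ⟨j, rfl⟩
        rw [SetLike.mem_coe, LinearMap.mem_ker, Finsupp.lapply_apply, redu_apply]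
        have h0 : ((u' j s₀ : A) : L) = 0 := (hW'mem _ (hu'W j)).2
        have h1 : u' j s₀ = 0 := Subtype.ext h0
        rw [h1, map_zero]
      have h2 := hle hmemspan
      rw [LinearMap.mem_ker, Finsupp.lapply_apply, redu_apply, hu₀s₀, map_one] at h2
      exact one_ne_zero h2

end Core

variable {L k F Fk : Type*} [Field L] [Field k] [Field F] [Field Fk] [Algebra L F] [Algebra k Fk]

/-- **ORTHO-P**, flexible form. -/
theorem exists_indep_residues_aux
    (A : ValuationSubring L) (π : A →+* k) (O : Subring F) (res : O →+* Fk)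
    (hAO : ∀ a : A, algebraMap L F (a : L) ∈ O)
    (hcompat : ∀ a : A, res ⟨algebraMap L F (a : L), hAO a⟩ = algebraMap k Fk (π a))
    {κ : Type*} (m : κ → F) (hm : ∀ s, m s ∈ O)
    (hmk : LinearIndependent k (fun s => res ⟨m s, hm s⟩))
    (V : Submodule L F) [FiniteDimensional L V]
    (hV : V ≤ Submodule.span L (Set.range m)) (r : ℕ) (hr : Module.finrank L V = r) :
    ∃ (b : Fin r → F) (hb : ∀ i, b i ∈ O), (∀ i, b i ∈ V) ∧
      LinearIndependent k (fun i => res ⟨b i, hb i⟩) := by
  classical
  subst hr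
  set T : (κ →₀ L) →ₗ[L] F := Finsupp.linearCombination L m with hT
  set Tk : (κ →₀ k) →ₗ[k] Fk := Finsupp.linearCombination k (fun s => res ⟨m s, hm s⟩) with hTk
  -- lift a basis of `V`
  let bV := Module.finBasis L V
  have hlift : ∀ i, ∃ c : κ →₀ L, T c = (bV i : F) := by
    intro i
    have h1 : (bV i : F) ∈ Submodule.span L (Set.range m) := hV (bV i).2
    rw [← Finsupp.range_linearCombination] at h1
    exact h1
  choose c hc using hlift
  have hcind : LinearIndependent L c := by
    have h1 : LinearIndependent L (fun i => (bV i : F)) :=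
      bV.linearIndependent.map' V.subtype (Submodule.ker_subtype V)
    have h2 : (fun i => (bV i : F)) = T ∘ c := by
      funext i
      exact (hc i).symm
    rw [h2] at h1
    exact LinearIndependent.of_comp T h1
  set W : Submodule L (κ →₀ L) := Submodule.span L (Set.range c) with hW
  have hWfin : Module.finrank L W = Module.finrank L V := by
    rw [hW, finrank_span_eq_card hcind, Fintype.card_fin]
  have hWV : ∀ x ∈ W, T x ∈ V := by
    intro x hx
    have h1 : W ≤ V.comap T := by
      rw [hW, Submodule.span_le]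
      rintro _ ⟨i, rfl⟩
      show T (c i) ∈ V
      rw [hc i]
      exact (bV i).2
    exact h1 hx
  have : FiniteDimensional L W := by
    rw [hW]
    exact FiniteDimensional.span_of_finite L (Set.finite_range c)
  obtain ⟨u, huW, huind⟩ := exists_integral_indep A π (Module.finrank L V) W hWfin
  -- the elements of `O`
  let bO : Fin (Module.finrank L V) → O := fun i =>
    (u i).sum fun s a => (⟨algebraMap L F (a : L), hAO a⟩ : O) * ⟨m s, hm s⟩
  have hbO : ∀ i, ((bO i : O) : F) = T (incl A (u i)) := by
    intro i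
    have h1 : ((bO i : O) : F) = O.subtype (bO i) := rfl
    rw [h1, map_finsuppSum, hT, Finsupp.linearCombination_apply, incl,
      Finsupp.sum_mapRange_index (fun s => zero_smul L (m s))]
    refine Finset.sum_congr rfl fun s _ => ?_
    show algebraMap L F ((u i s : A) : L) * m s = ((u i s : A) : L) • m s
    rw [Algebra.smul_def]
  have hres : ∀ i, res (bO i) = Tk (redu π (u i)) := by
    intro i
    rw [map_finsuppSum, hTk, Finsupp.linearCombination_apply, redu,
      Finsupp.sum_mapRange_index (fun s => zero_smul k (res ⟨m s, hm s⟩))]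
    refine Finset.sum_congr rfl fun s _ => ?_
    show res (⟨algebraMap L F ((u i s : A) : L), hAO (u i s)⟩ * ⟨m s, hm s⟩) =
      π (u i s) • res ⟨m s, hm s⟩
    rw [map_mul, hcompat, Algebra.smul_def]
  refine ⟨fun i => ((bO i : O) : F), fun i => (bO i).2, fun i => ?_, ?_⟩
  · show ((bO i : O) : F) ∈ V
    rw [hbO]
    exact hWV _ (huW i)
  · have hker : LinearMap.ker Tk = ⊥ := linearIndependent_iff_ker.1 hmk
    have h1 := huind.map' Tk hker
    have h2 : (fun i => res ⟨((bO i : O) : F), (bO i).2⟩) = Tk ∘ fun i => redu π (u i) := by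
      funext i
      exact hres i
    rw [h2]
    exact h1

/-- **ORTHO-P.** -/
theorem exists_indep_residues
    (A : ValuationSubring L) (π : A →+* k) (O : Subring F) (res : O →+* Fk)
    (hAO : ∀ a : A, algebraMap L F (a : L) ∈ O)
    (hcompat : ∀ a : A, res ⟨algebraMap L F (a : L), hAO a⟩ = algebraMap k Fk (π a))
    {κ : Type*} (m : κ → F) (hm : ∀ s, m s ∈ O)
    (hmk : LinearIndependent k (fun s => res ⟨m s, hm s⟩))
    (V : Submodule L F) [FiniteDimensional L V]
    (hV : V ≤ Submodule.span L (Set.range m)) :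
    ∃ (b : Fin (Module.finrank L V) → F) (hb : ∀ i, b i ∈ O), (∀ i, b i ∈ V) ∧
      LinearIndependent k (fun i => res ⟨b i, hb i⟩) :=
  exists_indep_residues_aux A π O res hAO hcompat m hm hmk V hV _ rfl

/-- **ORTHO-F**: the same with a common denominator `d` which is a unit of `O`. -/
theorem exists_indep_residues_of_mul
    (A : ValuationSubring L) (π : A →+* k) (O : Subring F) (res : O →+* Fk)
    (hAO : ∀ a : A, algebraMap L F (a : L) ∈ O)
    (hcompat : ∀ a : A, res ⟨algebraMap L F (a : L), hAO a⟩ = algebraMap k Fk (π a))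
    {κ : Type*} (m : κ → F) (hm : ∀ s, m s ∈ O)
    (hmk : LinearIndependent k (fun s => res ⟨m s, hm s⟩))
    (V : Submodule L F) [FiniteDimensional L V]
    (d : F) (hd0 : d ≠ 0) (hd : d ∈ O) (hdinv : d⁻¹ ∈ O)
    (hV : ∀ v ∈ V, d * v ∈ Submodule.span L (Set.range m)) :
    ∃ (b : Fin (Module.finrank L V) → F) (hb : ∀ i, b i ∈ O), (∀ i, b i ∈ V) ∧
      LinearIndependent k (fun i => res ⟨b i, hb i⟩) := by
  classical
  set μ : F →ₗ[L] F := LinearMap.mulLeft L d with hμ
  have hμinj : Function.Injective μ := fun x y h => mul_left_cancel₀ hd0 h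
  set V' : Submodule L F := V.map μ with hV'
  have hfin : Module.finrank L V' = Module.finrank L V :=
    (Submodule.equivMapOfInjective μ hμinj V).finrank_eq.symm
  have hV'le : V' ≤ Submodule.span L (Set.range m) := by
    rintro _ ⟨v, hv, rfl⟩
    exact hV v hv
  obtain ⟨b', hb', hb'V, hind⟩ := exists_indep_residues_aux A π O res hAO hcompat m hm hmk V'
    hV'le _ hfin
  have hres1 : res ⟨d⁻¹, hdinv⟩ * res ⟨d, hd⟩ = 1 := by
    rw [← map_mul]
    have : (⟨d⁻¹, hdinv⟩ : O) * ⟨d, hd⟩ = 1 := Subtype.ext (inv_mul_cancel₀ hd0)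
    rw [this, map_one]
  have hresne : res ⟨d⁻¹, hdinv⟩ ≠ 0 := left_ne_zero_of_mul_eq_one hres1
  refine ⟨fun i => d⁻¹ * b' i, fun i => O.mul_mem hdinv (hb' i), fun i => ?_, ?_⟩
  · show d⁻¹ * b' i ∈ V
    obtain ⟨v, hv, hvb⟩ := hb'V i
    have : d⁻¹ * b' i = v := by
      rw [← hvb]
      show d⁻¹ * (d * v) = v
      rw [← mul_assoc, inv_mul_cancel₀ hd0, one_mul]
    rw [this]
    exact hv
  · set ν : Fk →ₗ[k] Fk := LinearMap.mulLeft k (res ⟨d⁻¹, hdinv⟩) with hν
    have hνker : LinearMap.ker ν = ⊥ := by
      rw [LinearMap.ker_eq_bot]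
      exact fun x y h => mul_left_cancel₀ hresne h
    have h1 := hind.map' ν hνker
    have h2 : (fun i => res ⟨d⁻¹ * b' i, O.mul_mem hdinv (hb' i)⟩) =
        ν ∘ fun i => res ⟨b' i, hb' i⟩ := by
      funext i
      show _ = res ⟨d⁻¹, hdinv⟩ * res ⟨b' i, hb' i⟩
      rw [← map_mul]
      rfl
    rw [h2]
    exact h1

/-- Consequence: a dimension inequality. -/
theorem finrank_le_of_residues
    (A : ValuationSubring L) (π : A →+* k) (O : Subring F) (res : O →+* Fk)
    (hAO : ∀ a : A, algebraMap L F (a : L) ∈ O)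
    (hcompat : ∀ a : A, res ⟨algebraMap L F (a : L), hAO a⟩ = algebraMap k Fk (π a))
    {κ : Type*} (m : κ → F) (hm : ∀ s, m s ∈ O)
    (hmk : LinearIndependent k (fun s => res ⟨m s, hm s⟩))
    (V : Submodule L F) [FiniteDimensional L V]
    (d : F) (hd0 : d ≠ 0) (hd : d ∈ O) (hdinv : d⁻¹ ∈ O)
    (hV : ∀ v ∈ V, d * v ∈ Submodule.span L (Set.range m))
    (W : Submodule k Fk) [FiniteDimensional k W]
    (hW : ∀ v ∈ V, ∀ h : v ∈ O, res ⟨v, h⟩ ∈ W) :
    Module.finrank L V ≤ Module.finrank k W := by
  obtain ⟨b, hb, hbV, hind⟩ := exists_indep_residues_of_mul A π O res hAO hcompat m hm hmk V d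
    hd0 hd hdinv hV
  let g : Fin (Module.finrank L V) → W := fun i => ⟨res ⟨b i, hb i⟩, hW _ (hbV i) (hb i)⟩
  have hg : LinearIndependent k g := by
    apply LinearIndependent.of_comp W.subtype
    exact hind
  have := hg.fintype_card_le_finrank
  rwa [Fintype.card_fin] at this

end Fermat.Agent.S16.H1
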