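/-
S16 / (U2b) hedge, step (G) (helper1): the orthonormal reduction lemma `H1_Ortho` instantiated
(1) abstractly at helper27's `GaussData` + orthonormal basis `e` (monomial family `t^a * e i`,
common denominators in `L[t]` normalised to units of the Gauss ball), and
(2) concretely at helper92's Gauss valuation ring `H92.stdO` of `X₀(N)` (`hortho_std`).
-/
import Mathlib
import Fermat.Agent.S16.H1_Ortho
import Fermat.Agent.S18.H27_OrthoInt
import Fermat.Agent.S18.H27_CenterInstMod
import Fermat.Agent.S18.H92_IndepK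

set_option autoImplicit false
set_option synthInstance.maxHeartbeats 400000

noncomputable section

namespace Fermat.Agent.S16.H1

open Polynomial IntermediateField
open Fermat.Agent.S18

section Abstract

variable {L k F Fk : Type*} [Field L] [Field k] [Field F] [Field Fk] [Algebra L F] [Algebra k Fk]

/-- powers of a transcendental element are linearly independent -/
theorem linearIndependent_pow_of_transcendental {x : Fk} (hx : Transcendental k x) :
    LinearIndependent k (fun a : ℕ => x ^ a) := by
  have h1 := (Polynomial.basisMonomials k).linearIndependent.map' (aeval (R := k) x).toLinearMap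
    (LinearMap.ker_eq_bot.2 (transcendental_iff_injective.1 hx))
  have h2 : (⇑(aeval (R := k) x).toLinearMap ∘ ⇑(Polynomial.basisMonomials k)) =
      fun a : ℕ => x ^ a := by
    funext a
    rw [Function.comp_apply, Polynomial.coe_basisMonomials]
    show aeval x (monomial a (1 : k)) = x ^ a
    rw [aeval_monomial, map_one, one_mul]
  rw [h2] at h1
  exact h1

/-- the monomial family `t^a * e i` is `k`-independent if `t` is transcendental over `k` and `e`
is `k(t)`-independent. -/
theorem linearIndependent_pow_mul {t : Fk} (ht : Transcendental k t) {ι : Type*} (e : ι → Fk)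
    (he : LinearIndependent k⟮t⟯ e) :
    LinearIndependent k (fun s : ℕ × ι => t ^ s.1 * e s.2) := by
  have hgen : Transcendental k (AdjoinSimple.gen k t) := by
    intro halg
    apply ht
    have := halg.algebraMap (A := Fk)
    rwa [AdjoinSimple.algebraMap_gen] at this
  have h1 := linearIndependent_smul (linearIndependent_pow_of_transcendental hgen) he
  have h2 : (fun p : ℕ × ι => (AdjoinSimple.gen k t) ^ p.1 • e p.2) =
      fun s : ℕ × ι => t ^ s.1 * e s.2 := by
    funext p
    rw [Algebra.smul_def, map_pow, AdjoinSimple.algebraMap_gen]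
  rw [h2] at h1
  exact h1

variable {A : ValuationSubring L} {π : A →+* k} {O : ValuationSubring F} {res : O →+* Fk} {t : F}

section Span

variable {ι : Type*} (t) (e : ι → F)

/-- the `L`-span of the monomial family -/
def monoSpan : Submodule L F := Submodule.span L (Set.range fun s : ℕ × ι => t ^ s.1 * e s.2)

theorem aeval_mul_mem_monoSpan (q : L[X]) (i : ι) : aeval t q * e i ∈ monoSpan (L := L) t e := by
  rw [Polynomial.aeval_eq_sum_range, Finset.sum_mul]
  refine Submodule.sum_mem _ fun a _ => ?_
  rw [smul_mul_assoc]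
  exact Submodule.smul_mem _ _ (Submodule.subset_span ⟨(a, i), rfl⟩)

theorem aeval_mul_mem_monoSpan_of_mem (g : L[X]) {y : F} (hy : y ∈ monoSpan (L := L) t e) :
    aeval t g * y ∈ monoSpan (L := L) t e := by
  unfold monoSpan at hy
  induction hy using Submodule.span_induction with
  | mem y hy =>
    obtain ⟨⟨a, i⟩, rfl⟩ := hy
    have : aeval t g * (t ^ a * e i) = aeval t (g * X ^ a) * e i := by
      rw [map_mul, map_pow, aeval_X, mul_assoc]
    rw [this]
    exact aeval_mul_mem_monoSpan t e _ i
  | zero => rw [mul_zero]; exact Submodule.zero_mem _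
  | add y z _ _ hy hz => rw [mul_add]; exact Submodule.add_mem _ hy hz
  | smul c y _ hy => rw [mul_smul_comm]; exact Submodule.smul_mem _ _ hy

end Span

/-- **ORTHO at a Gauss datum**: every finite-dimensional `L`-subspace `V` of `F` has
`finrank L V` elements in `V ∩ O` with `k`-linearly independent reductions. -/
theorem exists_indep_residues_gauss (G : H27.GaussData A π O res t)
    {ι : Type*} [Fintype ι] (e : ι → F) (he : ∀ i, e i ∈ O)
    (hek : LinearIndependent k⟮G.tk⟯ (fun i => res ⟨e i, he i⟩))
    (hspan : ∀ x : F, ∃ c : ι → F, (∀ i, c i ∈ L⟮t⟯) ∧ x = ∑ i, c i * e i)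
    (V : Submodule L F) [FiniteDimensional L V] :
    ∃ (b : Fin (Module.finrank L V) → F) (hb : ∀ i, b i ∈ O), (∀ i, b i ∈ V) ∧
      LinearIndependent k (fun i => res ⟨b i, hb i⟩) := by
  classical
  have htr : Transcendental L t := G.transcendental_t
  have hinj : Function.Injective (aeval (R := L) t) := transcendental_iff_injective.1 htr
  -- (D1) pointwise denominators
  have hD1 : ∀ x : F, ∃ p : L[X], p ≠ 0 ∧ aeval t p * x ∈ monoSpan (L := L) t e := by
    intro x
    obtain ⟨c, hc, hx⟩ := hspan x
    have hfrac : ∀ i, ∃ r s : L[X], s ≠ 0 ∧ aeval t s * c i = aeval t r := by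
      intro i
      obtain ⟨r, s, hrs⟩ := (IntermediateField.mem_adjoin_simple_iff L (c i)).1 (hc i)
      by_cases hs : s = 0
      · refine ⟨0, 1, one_ne_zero, ?_⟩
        rw [hrs, hs, map_zero, div_zero, mul_zero]
      · refine ⟨r, s, hs, ?_⟩
        have hs' : aeval t s ≠ 0 := fun h => hs (hinj (by rw [h, map_zero]))
        rw [hrs, mul_div_cancel₀ _ hs']
    choose r s hs0 hrs using hfrac
    refine ⟨∏ i, s i, Finset.prod_ne_zero_iff.2 fun i _ => hs0 i, ?_⟩
    rw [hx, Finset.mul_sum]
    refine Submodule.sum_mem _ fun i _ => ?_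
    have h1 : aeval t (∏ j, s j) * (c i * e i) =
        aeval t ((∏ j ∈ Finset.univ.erase i, s j) * r i) * e i := by
      rw [← Finset.mul_prod_erase Finset.univ s (Finset.mem_univ i), map_mul, map_mul, ← hrs i]
      ring
    rw [h1]
    exact aeval_mul_mem_monoSpan t e _ i
  choose p hp0 hpx using hD1
  -- (D3) a uniform denominator on `V`
  obtain ⟨S, hS⟩ : (V : Submodule L F).FG := (Module.Finite.iff_fg).1 inferInstance
  set P : L[X] := ∏ x ∈ S, p x with hP
  have hP0 : P ≠ 0 := Finset.prod_ne_zero_iff.2 fun x _ => hp0 x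
  have hPV : ∀ v ∈ V, aeval t P * v ∈ monoSpan (L := L) t e := by
    have hle : V ≤ (monoSpan (L := L) t e).comap (LinearMap.mulLeft L (aeval t P)) := by
      rw [← hS, Submodule.span_le]
      intro x hx
      rw [SetLike.mem_coe, Submodule.mem_comap, LinearMap.mulLeft_apply, hP,
        ← Finset.mul_prod_erase S p (Finset.mem_coe.1 hx), mul_comm (p x), map_mul, mul_assoc]
      exact aeval_mul_mem_monoSpan_of_mem t e _ (hpx x)
    intro v hv
    exact hle hv
  -- (D4) normalise
  obtain ⟨c₀, q, hc₀, hPq, hq⟩ := H27.GaussData.exists_normalised π P hP0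
  set d : F := ((G.evO q : O) : F) with hd
  have hdO : d ∈ O := (G.evO q).2
  have hdunit : IsUnit (G.evO q) := G.evO_isUnit hq
  have hd0 : d ≠ 0 := by
    intro h
    have : G.evO q = 0 := Subtype.ext h
    rw [this] at hdunit
    exact not_isUnit_zero hdunit
  have hdinv : d⁻¹ ∈ O := by
    obtain ⟨u, hu⟩ := hdunit
    have h1 : (((u⁻¹ : Oˣ) : O) : F) * d = 1 := by
      rw [hd, ← hu, ← MulMemClass.coe_mul, Units.inv_mul]
      rfl
    have h2 : d⁻¹ = (((u⁻¹ : Oˣ) : O) : F) := by
      rw [inv_eq_iff_eq_inv]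
      exact (eq_inv_of_mul_eq_one_right h1)
    rw [h2]
    exact ((u⁻¹ : Oˣ) : O).2
  have hdP : aeval t P = algebraMap L F c₀ * d := by
    rw [hPq, map_mul, aeval_C, hd, G.coe_evO]
  have hV : ∀ v ∈ V, d * v ∈ Submodule.span L (Set.range fun s : ℕ × ι => t ^ s.1 * e s.2) := by
    intro v hv
    have h1 := hPV v hv
    have h2 : d * v = c₀⁻¹ • (aeval t P * v) := by
      rw [hdP, Algebra.smul_def, ← mul_assoc, ← mul_assoc, ← map_mul, inv_mul_cancel₀ hc₀, map_one,
        one_mul]
    rw [h2]
    exact Submodule.smul_mem _ _ h1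
  -- the monomial family in `O`
  have hmO : ∀ s : ℕ × ι, t ^ s.1 * e s.2 ∈ O.toSubring := fun s =>
    O.toSubring.mul_mem (O.toSubring.pow_mem G.t_mem _) (he s.2)
  have hmk : LinearIndependent k
      (fun s : ℕ × ι => (res : O.toSubring →+* Fk) ⟨t ^ s.1 * e s.2, hmO s⟩) := by
    have h1 := linearIndependent_pow_mul G.transc (fun i => res ⟨e i, he i⟩) hek
    have h2 : (fun s : ℕ × ι => (res : O.toSubring →+* Fk) ⟨t ^ s.1 * e s.2, hmO s⟩) =
        fun s : ℕ × ι => res ⟨t, G.t_mem⟩ ^ s.1 * res ⟨e s.2, he s.2⟩ := by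
      funext s
      rw [← map_pow, ← map_mul]
      rfl
    rw [h2]
    exact h1
  exact exists_indep_residues_of_mul A π O.toSubring (res : O.toSubring →+* Fk)
    (fun a => (G.const_mem_iff _).2 a.2) (fun a => G.res_const a _)
    (fun s : ℕ × ι => t ^ s.1 * e s.2) hmO hmk V d hd0 hdO hdinv hV

end Abstract

section Concrete

open AlgebraicCurve ModularCurve Fermat.Agent.S18.H92
open Fermat.Agent.S24 (Qbar FN jBar jd)

variable (N : ℕ) [NeZero N] {ℓ : ℕ} [Fact ℓ.Prime] (hℓN : ¬ ℓ ∣ N)
  (A : ValuationSubring (AlgebraicClosure ℚ)) (hA : A.LiesOverPrime ℓ)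

/-- **ORTHO at the Gauss valuation ring of `X₀(N)`** (the hypothesis `hortho` of helper7's
`H7.gR_Fk_le_gR_FN_of_ortho`). -/
theorem hortho_std :
    ∀ V : Submodule Qbar (FN N), FiniteDimensional Qbar V →
      ∃ e : Fin (Module.finrank Qbar V) → FN N, (∀ i, e i ∈ V) ∧
        ∃ he : ∀ i, e i ∈ H92.stdO N hℓN A hA,
          LinearIndependent (IsLocalRing.ResidueField A)
            (fun i => H92.stdRes N hℓN A hA ⟨e i, he i⟩) := by
  intro V hVfin
  have hind := H92.indepK_residueField N hℓN A hA
  obtain ⟨b, hb, hbV, hli⟩ := exists_indep_residues_gauss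
    (H27.gaussData_j A N (H92.modData N) hind) (H27.jFam N)
    (H27.jFam_mem A N (H92.modData N) hind)
    (H27.linearIndependent_res_jFam A N (H92.modData N) hind)
    (H27.exists_sum_jFam A N (H92.modData N) hind) V
  exact ⟨b, hbV, hb, hli⟩

end Concrete

end Fermat.Agent.S16.H1
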