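/-
S16 / (G0) hedge, package P6 (helper1): the TAME DEDEKIND bound for the different, Mathlib only.

* (T0) `not_dvd_differentIdeal_of_coprime` : if `pB = P' * Q` with `P'`, `Q` coprime, `P' ≠ ⊤` and
  the residue field `A ⧸ p` has characteristic zero, then `P'` does not divide the different
  (trace of the idempotent `(1, 0)` of `B/pB = B/P' × B/Q` is `dim (B/P') ≠ 0`).
* (T1) `val_le_of_mem_traceDual` : DVR-local form with abstract valuations: `A` a DVR with
  uniformiser `π`, `K / Frac A` finite separable, valuations `w i` (`i` in a finite type) on `K`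
  cutting out the integral closure of `A`, satisfying weak approximation, `w i π = exp (-e i)`;
  then every `y` in the trace dual of the integral closure has `w i y ≤ exp (e i - 1)`
  (i.e. `ord_i y ≥ -(e_i - 1)`).
-/
import Mathlib

set_option autoImplicit false

noncomputable section

namespace Fermat.Agent.S16.H1

open Module WithZero

attribute [local instance] FractionRing.liftAlgebra FractionRing.isScalarTower_liftAlgebra
  Ideal.Quotient.field

section T0

variable (A : Type*) {B : Type*} [CommRing A] [CommRing B] [Algebra A B]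
  [IsDedekindDomain A] [IsDedekindDomain B] [IsTorsionFree A B] [Module.Finite A B]

/-- **(T0)** -/
theorem not_dvd_differentIdeal_of_coprime
    [Algebra.IsSeparable (FractionRing A) (FractionRing B)]
    {p : Ideal A} [p.IsMaximal] (P' Q : Ideal B)
    (hPQ : IsCoprime P' Q) (hP : P' * Q = Ideal.map (algebraMap A B) p) (hP'top : P' ≠ ⊤)
    (hchar : ∀ n : ℕ, n ≠ 0 → ((n : ℕ) : A ⧸ p) ≠ 0) :
    ¬ P' ∣ differentIdeal A B := by
  let _ : Algebra (A ⧸ p) (B ⧸ P') := Ideal.Quotient.algebraQuotientOfLEComap (by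
      rw [← Ideal.map_le_iff_le_comap, ← hP]
      exact Ideal.mul_le_left)
  let _ : Algebra (A ⧸ p) (B ⧸ Q) := Ideal.Quotient.algebraQuotientOfLEComap (by
      rw [← Ideal.map_le_iff_le_comap, ← hP]
      exact Ideal.mul_le_right)
  have : IsScalarTower A (A ⧸ p) (B ⧸ Q) := .of_algebraMap_eq' rfl
  have : IsScalarTower A (A ⧸ p) (B ⧸ P') := .of_algebraMap_eq' rfl
  have : Module.Finite (A ⧸ p) (B ⧸ Q) :=
    Module.Finite.of_restrictScalars_finite A (A ⧸ p) (B ⧸ Q)
  have : Module.Finite (A ⧸ p) (B ⧸ P') :=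
    Module.Finite.of_restrictScalars_finite A (A ⧸ p) (B ⧸ P')
  have : Nontrivial (B ⧸ P') := Ideal.Quotient.nontrivial_iff.2 hP'top
  let e : (B ⧸ p.map (algebraMap A B)) ≃ₐ[A ⧸ p] ((B ⧸ P') × B ⧸ Q) :=
    { __ := (Ideal.quotEquivOfEq hP.symm).trans (Ideal.quotientMulEquivQuotientProd P' Q hPQ),
      commutes' := Quotient.ind fun _ ↦ rfl }
  obtain ⟨y, hy⟩ := Ideal.Quotient.mk_surjective (e.symm (1, 0))
  refine not_dvd_differentIdeal_of_intTrace_not_mem A P' Q hP y ?_ ?_
  · have := congr((e $hy).2)
    simp at this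
    simpa [e, Ideal.Quotient.eq_zero_iff_mem] using this
  · rw [← Ideal.Quotient.eq_zero_iff_mem, ← Algebra.trace_quotient_eq_of_isDedekindDomain,
      hy, Algebra.trace_eq_of_algEquiv, Algebra.trace_prod_apply]
    have h1 : Algebra.trace (A ⧸ p) (B ⧸ P') (1 : B ⧸ P') =
        ((Module.finrank (A ⧸ p) (B ⧸ P') : ℕ) : A ⧸ p) := by
      have := Algebra.trace_algebraMap (R := A ⧸ p) (S := B ⧸ P') (1 : A ⧸ p)
      rw [map_one] at this
      rw [this, nsmul_eq_mul, mul_one]
    have h2 : Module.finrank (A ⧸ p) (B ⧸ P') ≠ 0 := (Module.finrank_pos).ne'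
    simpa [h1] using hchar _ h2

end T0

section T1

variable (A K₀ : Type*) {K : Type*} [CommRing A] [IsDomain A] [IsDiscreteValuationRing A]
  [Field K₀] [Algebra A K₀] [IsFractionRing A K₀]
  [Field K] [Algebra K₀ K] [Algebra A K] [IsScalarTower A K₀ K]
  [FiniteDimensional K₀ K] [Algebra.IsSeparable K₀ K]

omit [IsDomain A] [IsDiscreteValuationRing A] [IsFractionRing A K₀] [FiniteDimensional K₀ K]
  [Algebra.IsSeparable K₀ K] [Algebra K₀ K] [IsScalarTower A K₀ K] [Algebra A K₀] in
/-- strict inequalities in `ℤᵐ⁰` gain one step -/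
theorem exp_succ_le_of_exp_lt {x : ℤᵐ⁰} {a : ℤ} (h : exp a < x) : exp (a + 1) ≤ x := by
  have hx0 : x ≠ 0 := fun h0 => by
    rw [h0] at h
    exact not_lt_zero h
  rw [← exp_log hx0] at h ⊢
  rw [exp_lt_exp] at h
  rw [exp_le_exp]
  omega

/-- **(T1)** -/
theorem val_le_of_mem_traceDual
    (hchar : ∀ n : ℕ, n ≠ 0 → ((n : ℕ) : A ⧸ IsLocalRing.maximalIdeal A) ≠ 0)
    {ι : Type*} [Fintype ι] (w : ι → Valuation K ℤᵐ⁰) (e : ι → ℕ)
    (π : A) (hπ : IsLocalRing.maximalIdeal A = Ideal.span {π})
    (h1 : ∀ f : K, IsIntegral A f ↔ ∀ i, w i f ≤ 1)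
    (h2 : ∀ i, ∀ N : ℤ, ∃ z : K, w i (z - 1) ≤ exp (-N) ∧ ∀ j, j ≠ i → w j z ≤ exp (-N))
    (h3 : ∀ i, w i (algebraMap A K π) = exp (-(e i : ℤ)))
    (he : ∀ i, 1 ≤ e i)
    (y : K)
    (hy : ∀ r : K, IsIntegral A r → Algebra.trace K₀ K (y * r) ∈ (algebraMap A K₀).range)
    (i : ι) : w i y ≤ exp ((e i : ℤ) - 1) := by
  classical
  -- the integral closure and its instances
  have hinjK : Function.Injective (algebraMap A K) := by
    rw [IsScalarTower.algebraMap_eq A K₀ K]
    exact (algebraMap K₀ K).injective.comp (IsFractionRing.injective A K₀)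
  have : IsTorsionFree A K := isTorsionFree_iff_algebraMap_injective.2 hinjK
  have : IsFractionRing (integralClosure A K) K :=
    integralClosure.isFractionRing_of_finite_extension K₀ K
  have : IsDedekindDomain (integralClosure A K) := integralClosure.isDedekindDomain A K₀ K
  have : Module.Finite A (integralClosure A K) := IsIntegralClosure.finite A K₀ K _
  have hmem : ∀ r : integralClosure A K, ∀ j, w j (r : K) ≤ 1 := fun r j => (h1 _).1 r.2 j
  have hπK : algebraMap A K π ≠ 0 := by
    intro h0
    have := h3 i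
    rw [h0, map_zero] at this
    exact exp_ne_zero this.symm
  -- the two ideals
  let P' : Ideal (integralClosure A K) :=
    { carrier := {r | w i (r : K) ≤ exp (-(e i : ℤ))}
      zero_mem' := by
        show w i ((0 : integralClosure A K) : K) ≤ _
        rw [ZeroMemClass.coe_zero, map_zero]
        exact zero_le
      add_mem' := fun {a b} ha hb => by
        show w i ((a + b : integralClosure A K) : K) ≤ _
        rw [AddMemClass.coe_add]
        exact (w i).map_add_le ha hb
      smul_mem' := fun c x hx => by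
        show w i ((c * x : integralClosure A K) : K) ≤ _
        rw [MulMemClass.coe_mul, map_mul]
        calc w i (c : K) * w i (x : K) ≤ 1 * exp (-(e i : ℤ)) := mul_le_mul' (hmem c i) hx
          _ = exp (-(e i : ℤ)) := one_mul _ }
  let Q' : Ideal (integralClosure A K) :=
    { carrier := {r | ∀ j, j ≠ i → w j (r : K) ≤ exp (-(e j : ℤ))}
      zero_mem' := fun j _ => by
        show w j ((0 : integralClosure A K) : K) ≤ _
        rw [ZeroMemClass.coe_zero, map_zero]
        exact zero_le
      add_mem' := fun {a b} ha hb j hj => by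
        show w j ((a + b : integralClosure A K) : K) ≤ _
        rw [AddMemClass.coe_add]
        exact (w j).map_add_le (ha j hj) (hb j hj)
      smul_mem' := fun c x hx j hj => by
        show w j ((c * x : integralClosure A K) : K) ≤ _
        rw [MulMemClass.coe_mul, map_mul]
        calc w j (c : K) * w j (x : K) ≤ 1 * exp (-(e j : ℤ)) := mul_le_mul' (hmem c j) (hx j hj)
          _ = exp (-(e j : ℤ)) := one_mul _ }
  have hP'mem : ∀ r : integralClosure A K, r ∈ P' ↔ w i (r : K) ≤ exp (-(e i : ℤ)) :=
    fun r => Iff.rfl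
  have hQ'mem : ∀ r : integralClosure A K,
      r ∈ Q' ↔ ∀ j, j ≠ i → w j (r : K) ≤ exp (-(e j : ℤ)) := fun r => Iff.rfl
  -- coprimality from weak approximation
  set N : ℤ := ∑ j, (e j : ℤ) with hN
  have hNe : ∀ j, (e j : ℤ) ≤ N := fun j =>
    Finset.single_le_sum (f := fun j => (e j : ℤ)) (fun j _ => Int.natCast_nonneg _)
      (Finset.mem_univ j)
  have hN0 : 0 ≤ N := le_trans (Int.natCast_nonneg _) (hNe i)
  have hexpN : ∀ j, exp (-N) ≤ exp (-(e j : ℤ)) := fun j => exp_le_exp.2 (by have := hNe j; omega)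
  have hexpN1 : exp (-N) ≤ (1 : ℤᵐ⁰) := by
    rw [← exp_zero, exp_le_exp]
    omega
  obtain ⟨z, hzi, hzj⟩ := h2 i N
  have hzint : IsIntegral A z := by
    rw [h1]
    intro j
    by_cases hj : j = i
    · subst hj
      have : z = (z - 1) + 1 := by ring
      rw [this]
      exact (w j).map_add_le (hzi.trans hexpN1) (by rw [map_one])
    · exact (hzj j hj).trans hexpN1
  let zR : integralClosure A K := ⟨z, hzint⟩
  have hzQ : zR ∈ Q' := fun j hj => (hzj j hj).trans (hexpN j)
  have hzP : 1 - zR ∈ P' := by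
    rw [hP'mem]
    have : ((1 - zR : integralClosure A K) : K) = 1 - z := rfl
    rw [this, Valuation.map_sub_swap]
    exact hzi.trans (hexpN i)
  have hcop : IsCoprime P' Q' := by
    rw [Ideal.isCoprime_iff_exists]
    exact ⟨1 - zR, hzP, zR, hzQ, by ring⟩
  -- the product is `π R`
  have hprod : P' * Q' = Ideal.map (algebraMap A (integralClosure A K))
      (IsLocalRing.maximalIdeal A) := by
    rw [Ideal.mul_eq_inf_of_isCoprime hcop, hπ, Ideal.map_span, Set.image_singleton]
    ext r
    rw [Ideal.mem_inf, Ideal.mem_span_singleton']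
    constructor
    · rintro ⟨hrP, hrQ⟩
      have hall : ∀ j, w j (r : K) ≤ exp (-(e j : ℤ)) := by
        intro j
        by_cases hj : j = i
        · subst hj; exact hrP
        · exact hrQ j hj
      have hsint : IsIntegral A ((r : K) / algebraMap A K π) := by
        rw [h1]
        intro j
        rw [map_div₀, h3 j, div_le_iff₀ (zero_lt_iff.2 exp_ne_zero), one_mul]
        exact hall j
      refine ⟨⟨_, hsint⟩, ?_⟩
      apply Subtype.ext
      show (r : K) / algebraMap A K π * algebraMap A K π = r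
      rw [div_mul_cancel₀ _ hπK]
    · rintro ⟨s, rfl⟩
      have hval : ∀ j, w j ((s * algebraMap A (integralClosure A K) π : integralClosure A K) : K)
          ≤ exp (-(e j : ℤ)) := by
        intro j
        have : ((s * algebraMap A (integralClosure A K) π : integralClosure A K) : K) =
            (s : K) * algebraMap A K π := rfl
        rw [this, map_mul, h3 j]
        calc w j (s : K) * exp (-(e j : ℤ)) ≤ 1 * exp (-(e j : ℤ)) :=
              mul_le_mul' (hmem s j) le_rfl
          _ = exp (-(e j : ℤ)) := one_mul _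
      exact ⟨hval i, fun j _ => hval j⟩
  have hP'top : P' ≠ ⊤ := by
    intro htop
    have h1P : (1 : integralClosure A K) ∈ P' := by rw [htop]; trivial
    rw [hP'mem, OneMemClass.coe_one, map_one, ← exp_zero, exp_le_exp] at h1P
    have := he i
    omega
  have hsep : Algebra.IsSeparable (FractionRing A) (FractionRing (integralClosure A K)) := by
    have H : RingHom.comp (algebraMap (FractionRing A) (FractionRing (integralClosure A K)))
        ↑(FractionRing.algEquiv A K₀).symm.toRingEquiv =
          RingHom.comp ↑(FractionRing.algEquiv (integralClosure A K) K).symm.toRingEquiv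
            (algebraMap K₀ K) := by
      apply IsLocalization.ringHom_ext (nonZeroDivisors A)
      ext
      simp only [RingHom.coe_comp, RingHom.coe_coe,
        AlgEquiv.coe_ringEquiv, Function.comp_apply, AlgEquiv.commutes,
        ← IsScalarTower.algebraMap_apply]
      rw [IsScalarTower.algebraMap_apply A (integralClosure A K) K, AlgEquiv.commutes,
        ← IsScalarTower.algebraMap_apply]
    exact Algebra.IsSeparable.of_equiv_equiv _ _ H
  have hnd := not_dvd_differentIdeal_of_coprime A P' Q' hcop hprod hP'top hchar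
  rw [Ideal.dvd_iff_le, SetLike.not_le_iff_exists] at hnd
  obtain ⟨d, hdD, hdP⟩ := hnd
  -- `d * y` is integral
  have hyd : IsIntegral A ((d : K) * y) := by
    have hdK : (d : K) ∈ IsLocalization.coeSubmodule K (differentIdeal A (integralClosure A K)) :=
      (IsLocalization.mem_coeSubmodule _ _).2 ⟨d, hdD, rfl⟩
    rw [coeSubmodule_differentIdeal A K₀, Submodule.mem_div_iff_forall_mul_mem] at hdK
    have hyT : y ∈ Submodule.traceDual A K₀ (1 : Submodule (integralClosure A K) K) := by
      rw [Submodule.mem_traceDual]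
      intro a ha
      obtain ⟨r, rfl⟩ := Submodule.mem_one.1 ha
      rw [Algebra.traceForm_apply]
      exact hy _ r.2
    obtain ⟨r, hr⟩ := Submodule.mem_one.1 (hdK y hyT)
    rw [← hr]
    exact r.2
  have h4 : w i ((d : K) * y) ≤ 1 := (h1 _).1 hyd i
  rw [map_mul] at h4
  have h5 : exp (-(e i : ℤ) + 1) ≤ w i (d : K) :=
    exp_succ_le_of_exp_lt (not_le.1 fun h => hdP ((hP'mem d).2 h))
  have hd0 : w i (d : K) ≠ 0 := fun h0 => by
    rw [h0] at h5
    exact exp_ne_zero (le_zero_iff.1 h5)
  calc w i y = (w i (d : K))⁻¹ * (w i (d : K) * w i y) := by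
        rw [← mul_assoc, inv_mul_cancel₀ hd0, one_mul]
    _ ≤ (w i (d : K))⁻¹ * 1 := mul_le_mul' le_rfl h4
    _ = (w i (d : K))⁻¹ := mul_one _
    _ ≤ (exp (-(e i : ℤ) + 1))⁻¹ := by
        rw [inv_le_inv₀ (zero_lt_iff.2 hd0) (zero_lt_iff.2 exp_ne_zero)]
        exact h5
    _ = exp ((e i : ℤ) - 1) := by
        rw [← exp_neg]
        congr 1
        ring

end T1

end Fermat.Agent.S16.H1
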