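/-
S16 / (G0) hedge, package P6 (helper1): the TAME bound on the trace dual, global Dedekind form.

`A ⊆ B` Dedekind domains, `B` the integral closure of `A` in a finite separable extension `F` of
`L₀ = Frac A`; `w` a nonzero prime of `B` lying over the principal maximal ideal `(π)` of `A` whose
residue field has characteristic zero.  Then for every `y` in the trace dual of `B`,
`w (π * y) < 1`, i.e. `ord_w y ≥ -(e_w - 1)` with `e_w = ord_w π`.
-/
import Mathlib
import Fermat.Agent.S16.H1_TameDifferent

set_option autoImplicit false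

noncomputable section

namespace Fermat.Agent.S16.H1

open Module WithZero IsDedekindDomain

attribute [local instance] FractionRing.liftAlgebra FractionRing.isScalarTower_liftAlgebra

variable (A L₀ : Type*) {F : Type*} {B : Type*} [CommRing A] [Field L₀] [CommRing B] [Field F]
  [Algebra A L₀] [Algebra B F] [Algebra A B] [Algebra L₀ F] [Algebra A F]
  [IsScalarTower A L₀ F] [IsScalarTower A B F]
  [IsDedekindDomain A] [IsFractionRing A L₀] [IsDedekindDomain B] [IsFractionRing B F]
  [FiniteDimensional L₀ F] [Algebra.IsSeparable L₀ F] [IsIntegralClosure B A F]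

/-- **(T2)** -/
theorem valuation_mul_lt_one_of_mem_traceDual (w : HeightOneSpectrum B) (π : A)
    [hmax : (Ideal.span {π}).IsMaximal] (hwπ : algebraMap A B π ∈ w.asIdeal)
    (hchar : ∀ n : ℕ, n ≠ 0 → ((n : ℕ) : A ⧸ Ideal.span {π}) ≠ 0)
    (y : F) (hy : y ∈ Submodule.traceDual A L₀ (1 : Submodule B F)) :
    w.valuation F (algebraMap A F π * y) < 1 := by
  classical
  by_cases hπ0 : π = 0
  · rw [hπ0, map_zero, zero_mul, map_zero]
    exact zero_lt_one
  have hinjF : Function.Injective (algebraMap A F) := by
    rw [IsScalarTower.algebraMap_eq A L₀ F]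
    exact (algebraMap L₀ F).injective.comp (IsFractionRing.injective A L₀)
  have hinjB : Function.Injective (algebraMap A B) := by
    intro a b hab
    apply hinjF
    rw [IsScalarTower.algebraMap_apply A B F, hab, ← IsScalarTower.algebraMap_apply A B F]
  have : IsTorsionFree A B := isTorsionFree_iff_algebraMap_injective.2 hinjB
  have : Module.Finite A B := IsIntegralClosure.finite A L₀ F B
  have hπB : algebraMap A B π ≠ 0 := fun h0 => hπ0 (hinjB (by rw [h0, map_zero]))
  have hsep : Algebra.IsSeparable (FractionRing A) (FractionRing B) := by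
    have H : RingHom.comp (algebraMap (FractionRing A) (FractionRing B))
        ↑(FractionRing.algEquiv A L₀).symm.toRingEquiv =
          RingHom.comp ↑(FractionRing.algEquiv B F).symm.toRingEquiv (algebraMap L₀ F) := by
      apply IsLocalization.ringHom_ext (nonZeroDivisors A)
      ext
      simp only [RingHom.coe_comp, RingHom.coe_coe,
        AlgEquiv.coe_ringEquiv, Function.comp_apply, AlgEquiv.commutes,
        ← IsScalarTower.algebraMap_apply]
      rw [IsScalarTower.algebraMap_apply A B F, AlgEquiv.commutes,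
        ← IsScalarTower.algebraMap_apply]
    exact Algebra.IsSeparable.of_equiv_equiv _ _ H
  -- factor `πB = w^e * Q`
  set I : Ideal B := Ideal.map (algebraMap A B) (Ideal.span {π}) with hI
  have hIspan : I = Ideal.span {algebraMap A B π} := by
    rw [hI, Ideal.map_span, Set.image_singleton]
  have hI0 : I ≠ 0 := by
    rw [hIspan, Ne, Ideal.zero_eq_bot, Ideal.span_singleton_eq_bot]
    exact hπB
  obtain ⟨e, Q, hQ, hIQ⟩ := WfDvdMonoid.max_power_factor hI0 w.irreducible
  have hwmax : w.asIdeal.IsMaximal := w.isMaximal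
  have hcopwQ : IsCoprime w.asIdeal Q := by
    rw [Ideal.isCoprime_iff_sup_eq]
    by_contra hne
    have hle : w.asIdeal ≤ w.asIdeal ⊔ Q := le_sup_left
    have heq : w.asIdeal = w.asIdeal ⊔ Q := hwmax.eq_of_le hne hle
    apply hQ
    rw [Ideal.dvd_iff_le, heq]
    exact le_sup_right
  have hcop : IsCoprime (w.asIdeal ^ e) Q := hcopwQ.pow_left
  have he0 : e ≠ 0 := by
    intro h0
    rw [h0, pow_zero, one_mul] at hIQ
    apply hQ
    rw [Ideal.dvd_iff_le, ← hIQ, hIspan, Ideal.span_singleton_le_iff_mem]
    exact hwπ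
  have htop : w.asIdeal ^ e ≠ ⊤ := by
    intro htop
    have : w.asIdeal = ⊤ := by
      rw [eq_top_iff, ← htop]
      exact Ideal.pow_le_self he0
    exact hwmax.ne_top this
  have hnd := not_dvd_differentIdeal_of_coprime A (w.asIdeal ^ e) Q hcop hIQ.symm htop hchar
  rw [Ideal.dvd_iff_le, SetLike.not_le_iff_exists] at hnd
  obtain ⟨d, hdD, hdP⟩ := hnd
  -- valuations
  have hvd : exp (-(e : ℤ) + 1) ≤ w.valuation F (algebraMap B F d) := by
    rw [HeightOneSpectrum.valuation_of_algebraMap]
    apply exp_succ_le_of_exp_lt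
    rw [← not_le, HeightOneSpectrum.intValuation_le_pow_iff_mem]
    exact hdP
  have hvπ : w.valuation F (algebraMap A F π) ≤ exp (-(e : ℤ)) := by
    rw [IsScalarTower.algebraMap_apply A B F, HeightOneSpectrum.valuation_of_algebraMap,
      HeightOneSpectrum.intValuation_le_pow_iff_mem]
    have h1 : algebraMap A B π ∈ I := by
      rw [hIspan]
      exact Ideal.mem_span_singleton_self _
    rw [hIQ] at h1
    exact Ideal.mul_le_left h1
  have hyd : w.valuation F (algebraMap B F d * y) ≤ 1 := by
    have hdK : algebraMap B F d ∈ IsLocalization.coeSubmodule F (differentIdeal A B) :=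
      (IsLocalization.mem_coeSubmodule _ _).2 ⟨d, hdD, rfl⟩
    rw [coeSubmodule_differentIdeal A L₀, Submodule.mem_div_iff_forall_mul_mem] at hdK
    obtain ⟨r, hr⟩ := Submodule.mem_one.1 (hdK y hy)
    rw [← hr]
    exact w.valuation_le_one r
  rw [map_mul] at hyd
  have hd0 : w.valuation F (algebraMap B F d) ≠ 0 := fun h0 => by
    rw [h0] at hvd
    exact exp_ne_zero (le_zero_iff.1 hvd)
  have hvy : w.valuation F y ≤ exp ((e : ℤ) - 1) := by
    calc w.valuation F y
        = (w.valuation F (algebraMap B F d))⁻¹ *
            (w.valuation F (algebraMap B F d) * w.valuation F y) := by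
          rw [← mul_assoc, inv_mul_cancel₀ hd0, one_mul]
      _ ≤ (w.valuation F (algebraMap B F d))⁻¹ * 1 := mul_le_mul' le_rfl hyd
      _ = (w.valuation F (algebraMap B F d))⁻¹ := mul_one _
      _ ≤ (exp (-(e : ℤ) + 1))⁻¹ := by
          rw [inv_le_inv₀ (zero_lt_iff.2 hd0) (zero_lt_iff.2 exp_ne_zero)]
          exact hvd
      _ = exp ((e : ℤ) - 1) := by
          rw [← exp_neg]
          congr 1
          ring
  rw [map_mul]
  calc w.valuation F (algebraMap A F π) * w.valuation F y
      ≤ exp (-(e : ℤ)) * exp ((e : ℤ) - 1) := mul_le_mul' hvπ hvy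
    _ = exp (-1 : ℤ) := by
        rw [← exp_add]
        congr 1
        ring
    _ < 1 := by
        rw [← exp_zero, exp_lt_exp]
        omega

end Fermat.Agent.S16.H1
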