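import Mathlib
import Fermat.Prelude.Def_AlgebraicCurve_DivisorClassGroup

/-!
# (G0) `gR ≤ genus formula` by lattice Euler characteristics: the INTERFACE (helper6)

Pure definitions, so that the packages P2–P6 of (G0) can be written in parallel.

* abstract (`k`-linear): `colen`, `FinCol`, `DualSys`
* concrete: `dualK A S` (trace dual of a `k`-subspace of `F` w.r.t. a `k`-subalgebra `A` of `E`),
  `LatK A` (the `k`-subspaces underlying f.g. full `A`-submodules of `F`)
* places: `Rfin x`, `Rinf x` (functions regular away from / at the poles of `x`)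
-/

set_option autoImplicit false

noncomputable section

namespace Fermat.Agent.S16.H6

open AlgebraicCurve

section Abstract

variable {k V : Type*} [Field k] [AddCommGroup V] [Module k V]

/-- The colength of `U` in `U'` (meaningful for `U ≤ U'`); same expression as `H85.colength`. -/
def colen (U U' : Submodule k V) : ℕ := Module.finrank k (↥U' ⧸ U.submoduleOf U')

/-- `U ≤ U'` with finite colength. -/
def FinCol (U U' : Submodule k V) : Prop :=
  U ≤ U' ∧ FiniteDimensional k (↥U' ⧸ U.submoduleOf U')

/-- A class `Lat` of `k`-subspaces ("lattices") with a duality `d`: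
any two lattices contain a common lattice of finite colength, and `d` reverses inclusions of
finite colength, preserving the colength. -/
structure DualSys (Lat : Set (Submodule k V)) (d : Submodule k V → Submodule k V) : Prop where
  comm : ∀ U ∈ Lat, ∀ U' ∈ Lat, ∃ U'' ∈ Lat, FinCol U'' U ∧ FinCol U'' U'
  anti : ∀ U ∈ Lat, ∀ U' ∈ Lat, FinCol U U' → FinCol (d U') (d U) ∧ colen (d U') (d U) = colen U U'

end Abstract

section Concrete

variable {k E F : Type*} [Field k] [Field E] [Field F] [Algebra k E] [Algebra E F] [Algebra k F]
  [IsScalarTower k E F]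

/-- The trace dual of a `k`-subspace `S ⊆ F` with respect to the `k`-subalgebra `A ⊆ E`:
all `y` with `Tr_{F/E}(y u) ∈ A` for every `u ∈ S`. -/
def dualK (A : Subalgebra k E) (S : Submodule k F) : Submodule k F where
  carrier := {y | ∀ u ∈ S, Algebra.trace E F (y * u) ∈ A}
  add_mem' := by
    intro a b ha hb u hu
    rw [add_mul, map_add]
    exact A.add_mem (ha u hu) (hb u hu)
  zero_mem' := by
    intro u _
    rw [zero_mul, map_zero]
    exact A.zero_mem
  smul_mem' := by
    intro c y hy u hu
    have h1 : c • y * u = (algebraMap k E c) • (y * u) := by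
      rw [Algebra.smul_mul_assoc, algebraMap_smul]
    rw [h1, map_smul, smul_eq_mul]
    exact A.mul_mem (A.algebraMap_mem c) (hy u hu)

theorem mem_dualK {A : Subalgebra k E} {S : Submodule k F} {y : F} :
    y ∈ dualK A S ↔ ∀ u ∈ S, Algebra.trace E F (y * u) ∈ A := Iff.rfl

/-- The `k`-subspaces of `F` underlying the finitely generated `A`-submodules that span `F`
over `E`. -/
def LatK (A : Subalgebra k E) : Set (Submodule k F) :=
  {S | ∃ U : Submodule ↥A F, U.FG ∧ Submodule.span E (U : Set F) = ⊤ ∧ U.restrictScalars k = S}

end Concrete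

section Places

variable (k : Type*) {F : Type*} [Field k] [Field F] [Algebra k F]

/-- Functions regular at every place where `x` is regular (`= ` integral closure of `k[x]`). -/
def Rfin (x : F) : Submodule k F where
  carrier := {f | ∀ v : Place k F, 0 ≤ v.ord x → f ∈ v.toValuationSubring}
  add_mem' := fun ha hb v hv => (v.toValuationSubring).add_mem _ _ (ha v hv) (hb v hv)
  zero_mem' := fun v _ => (v.toValuationSubring).zero_mem
  smul_mem' := by
    intro c f hf v hv
    rw [Algebra.smul_def]
    exact (v.toValuationSubring).mul_mem _ _ (v.algebraMap_mem' c) (hf v hv)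

/-- Functions regular at every pole of `x` (`=` integral closure of the local ring of `k(x)` at
infinity). -/
def Rinf (x : F) : Submodule k F where
  carrier := {f | ∀ v : Place k F, v.ord x < 0 → f ∈ v.toValuationSubring}
  add_mem' := fun ha hb v hv => (v.toValuationSubring).add_mem _ _ (ha v hv) (hb v hv)
  zero_mem' := fun v _ => (v.toValuationSubring).zero_mem
  smul_mem' := by
    intro c f hf v hv
    rw [Algebra.smul_def]
    exact (v.toValuationSubring).mul_mem _ _ (v.algebraMap_mem' c) (hf v hv)

variable {k}

theorem mem_Rfin {x f : F} :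
    f ∈ Rfin k x ↔ ∀ v : Place k F, 0 ≤ v.ord x → f ∈ v.toValuationSubring := Iff.rfl

theorem mem_Rinf {x f : F} :
    f ∈ Rinf k x ↔ ∀ v : Place k F, v.ord x < 0 → f ∈ v.toValuationSubring := Iff.rfl

end Places


section Instance

open IntermediateField

variable (k : Type*) {F : Type*} [Field k] [Field F] [Algebra k F]

/-- `k[x]` inside `E = k⟮x⟯`. -/
def Afin (x : F) : Subalgebra k k⟮x⟯ := Algebra.adjoin k {AdjoinSimple.gen k x}

/-- The local ring of `E = k⟮x⟯` at infinity: elements of `E` regular at every pole of `x`
(poles taken in `F`). -/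
def Binf (x : F) : Subalgebra k k⟮x⟯ where
  carrier := {e | ((e : k⟮x⟯) : F) ∈ Rinf k x}
  mul_mem' := by
    intro a b ha hb v hv
    have := (v.toValuationSubring).mul_mem _ _ (ha v hv) (hb v hv)
    simpa using this
  one_mem' := fun v _ => by simpa using (v.toValuationSubring).one_mem
  add_mem' := by
    intro a b ha hb v hv
    have := (v.toValuationSubring).add_mem _ _ (ha v hv) (hb v hv)
    simpa using this
  zero_mem' := fun v _ => by simpa using (v.toValuationSubring).zero_mem
  algebraMap_mem' := fun c v _ => v.algebraMap_mem' c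

variable {k}

theorem mem_Binf {x : F} {e : k⟮x⟯} : e ∈ Binf k x ↔ ((e : k⟮x⟯) : F) ∈ Rinf k x := Iff.rfl

end Instance

end Fermat.Agent.S16.H6
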