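import Mathlib
import Fermat.Agent.RR.H76_Riemann

set_option autoImplicit false

/-!
# (G0) P6c: from a pointwise pole bound to a dimension bound

For a set `S` of places of `F/K` and a divisor `D`, `partialL S D` is the `K`-space of functions
whose pole orders at the places of `S` are bounded by `D` (no condition outside `S`).  For
`D ≥ 0` the colength of `partialL S 0` in `partialL S D` is finite and at most `deg D`.
Hence any `K`-subspace `M` with `partialL S 0 ≤ M ≤ partialL S D` has colength `≤ deg D`
over `partialL S 0`.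

With `S` = the places where `x` is regular (resp. the poles of `x`), `partialL S 0` is the
integral closure of `K[x]` (resp. of the local ring at infinity) and the hypothesis
`M ≤ partialL S D` for the trace dual `M` and `D = ∑ (e_v - 1) v` is the tame different bound.
-/

noncomputable section

open AlgebraicCurve WithZero

namespace Fermat.Agent.S16.H95

open Fermat.Agent.RR.H76

/-! ### Codimension bounds via a finite-dimensional supplement -/

section Colen

variable {K V : Type*} [Field K] [AddCommGroup V] [Module K V]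

/-- `U'` is contained in `U + W` for some subspace `W` of dimension `≤ n`. -/
def ColenLE (U U' : Submodule K V) (n : ℕ) : Prop :=
  ∃ W : Submodule K V, FiniteDimensional K W ∧ Module.finrank K W ≤ n ∧ U' ≤ U ⊔ W

theorem ColenLE.refl (U : Submodule K V) : ColenLE U U 0 :=
  ⟨⊥, inferInstance, by simp, by simp⟩

theorem ColenLE.of_le {U U' : Submodule K V} (h : U' ≤ U) (n : ℕ) : ColenLE U U' n :=
  ⟨⊥, inferInstance, by simp, by simpa using h⟩

theorem ColenLE.mono {U U' : Submodule K V} {n m : ℕ} (h : ColenLE U U' n) (hnm : n ≤ m) :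
    ColenLE U U' m := by
  obtain ⟨W, hW, hn, hle⟩ := h
  exact ⟨W, hW, hn.trans hnm, hle⟩

theorem ColenLE.mono_right {U U' U'' : Submodule K V} {n : ℕ} (h : ColenLE U U' n)
    (hle : U'' ≤ U') : ColenLE U U'' n := by
  obtain ⟨W, hW, hn, hle'⟩ := h
  exact ⟨W, hW, hn, hle.trans hle'⟩

theorem ColenLE.mono_left {U₀ U U' : Submodule K V} {n : ℕ} (h : ColenLE U₀ U' n)
    (hle : U₀ ≤ U) : ColenLE U U' n := by
  obtain ⟨W, hW, hn, hle'⟩ := h
  exact ⟨W, hW, hn, hle'.trans (sup_le_sup_right hle W)⟩

theorem ColenLE.trans {U U' U'' : Submodule K V} {n m : ℕ} (h1 : ColenLE U U' n)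
    (h2 : ColenLE U' U'' m) : ColenLE U U'' (n + m) := by
  obtain ⟨W1, hW1, hn, hle1⟩ := h1
  obtain ⟨W2, hW2, hm, hle2⟩ := h2
  refine ⟨W1 ⊔ W2, inferInstance, ?_, ?_⟩
  · exact (Submodule.finrank_add_le_finrank_add_finrank W1 W2).trans (Nat.add_le_add hn hm)
  · calc U'' ≤ U' ⊔ W2 := hle2
      _ ≤ (U ⊔ W1) ⊔ W2 := sup_le_sup_right hle1 W2
      _ = U ⊔ (W1 ⊔ W2) := sup_assoc _ _ _

/-- The quotient `U' / (U ∩ U')` is finite-dimensional of dimension `≤ n`. -/
theorem ColenLE.finrank_le {U U' : Submodule K V} {n : ℕ} (h : ColenLE U U' n) :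
    FiniteDimensional K (↥U' ⧸ U.submoduleOf U') ∧
      Module.finrank K (↥U' ⧸ U.submoduleOf U') ≤ n := by
  obtain ⟨W, hW, hn, hle⟩ := h
  -- the map `U' → V / U`
  set g : ↥U' →ₗ[K] V ⧸ U := U.mkQ ∘ₗ U'.subtype with hg
  have hker : LinearMap.ker g = U.submoduleOf U' := by
    ext y
    simp [hg, Submodule.submoduleOf]
  have hrange : LinearMap.range g ≤ W.map U.mkQ := by
    rintro _ ⟨y, rfl⟩
    have hy : (y : V) ∈ U ⊔ W := hle y.2
    obtain ⟨u, hu, w, hw, huw⟩ := Submodule.mem_sup.mp hy
    refine ⟨w, hw, ?_⟩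
    show U.mkQ w = U.mkQ (y : V)
    have hu0 : U.mkQ u = 0 := by
      rw [Submodule.mkQ_apply]
      exact (Submodule.Quotient.mk_eq_zero U).mpr hu
    rw [← huw, map_add, hu0, zero_add]
  haveI : FiniteDimensional K ↥(W.map U.mkQ) := inferInstance
  haveI : FiniteDimensional K ↥(LinearMap.range g) :=
    Submodule.finiteDimensional_of_le hrange
  have e : (↥U' ⧸ U.submoduleOf U') ≃ₗ[K] ↥(LinearMap.range g) :=
    (Submodule.quotEquivOfEq _ _ hker.symm).trans g.quotKerEquivRange
  refine ⟨Module.Finite.equiv e.symm, ?_⟩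
  rw [e.finrank_eq]
  calc Module.finrank K ↥(LinearMap.range g) ≤ Module.finrank K ↥(W.map U.mkQ) :=
        Submodule.finrank_mono hrange
    _ ≤ Module.finrank K ↥W := Submodule.finrank_map_le _ _
    _ ≤ n := hn

/-- A linear map on `U'` with finite-dimensional target whose kernel lies in `U` bounds the
colength. -/
theorem colenLE_of_linearMap {M : Type*} [AddCommGroup M] [Module K M] [FiniteDimensional K M]
    {U U' : Submodule K V} (φ : ↥U' →ₗ[K] M)
    (hφ : ∀ y : ↥U', φ y = 0 → (y : V) ∈ U) : ColenLE U U' (Module.finrank K M) := by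
  obtain ⟨W₀, hW₀⟩ := Submodule.exists_isCompl (LinearMap.ker φ)
  -- `W₀ ≃ U' / ker φ ≃ range φ`
  have e1 : (↥U' ⧸ LinearMap.ker φ) ≃ₗ[K] ↥W₀ := Submodule.quotientEquivOfIsCompl _ _ hW₀
  have e2 : ↥W₀ ≃ₗ[K] ↥(LinearMap.range φ) := e1.symm.trans φ.quotKerEquivRange
  haveI : FiniteDimensional K ↥W₀ := Module.Finite.equiv e2.symm
  refine ⟨W₀.map U'.subtype, inferInstance, ?_, ?_⟩
  · calc Module.finrank K ↥(W₀.map U'.subtype) ≤ Module.finrank K ↥W₀ :=
          Submodule.finrank_map_le _ _
      _ = Module.finrank K ↥(LinearMap.range φ) := e2.finrank_eq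
      _ ≤ Module.finrank K M := Submodule.finrank_le _
  · intro y hy
    have hy' : (⟨y, hy⟩ : ↥U') ∈ LinearMap.ker φ ⊔ W₀ := by
      rw [hW₀.sup_eq_top]; trivial
    obtain ⟨a, ha, b, hb, hab⟩ := Submodule.mem_sup.mp hy'
    have hyab : y = (a : V) + (b : V) := by
      have := congrArg Subtype.val hab
      simpa using this.symm
    rw [hyab]
    exact Submodule.add_mem_sup (hφ a (LinearMap.mem_ker.mp ha))
      (Submodule.mem_map_of_mem hb)

end Colen

variable {K F : Type*} [Field K] [Field F] [Algebra K F]

/-! ### The spaces `partialL S D` -/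

/-- Functions whose poles at the places of `S` are bounded by `D`. -/
def partialL (S : Set (Place K F)) (D : Divisor K F) : Submodule K F where
  carrier := {f | ∀ v ∈ S, v.adicValuation f ≤ exp (D v)}
  zero_mem' := by
    intro v _
    simp
  add_mem' := by
    intro f g hf hg v hv
    exact (Valuation.map_add _ _ _).trans (max_le (hf v hv) (hg v hv))
  smul_mem' := by
    intro c f hf v hv
    show v.adicValuation (c • f) ≤ exp (D v)
    rw [Algebra.smul_def, map_mul]
    exact (mul_le_of_le_one_left' (v.adicValuation_algebraMap_le_one c)).trans (hf v hv)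

theorem mem_partialL_iff {S : Set (Place K F)} {D : Divisor K F} {f : F} :
    f ∈ partialL S D ↔ ∀ v ∈ S, f = 0 ∨ -D v ≤ v.ord f := by
  show (∀ v ∈ S, v.adicValuation f ≤ exp (D v)) ↔ _
  exact forall_congr' fun v => forall_congr' fun _ => v.adicValuation_le_exp_iff

theorem mem_partialL_zero_iff {S : Set (Place K F)} {f : F} :
    f ∈ partialL S (0 : Divisor K F) ↔ ∀ v ∈ S, f ∈ v.toValuationSubring := by
  rw [mem_partialL_iff]
  refine forall_congr' fun v => forall_congr' fun _ => ?_
  rw [mem_valSubring_iff]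
  simp

theorem partialL_mono (S : Set (Place K F)) {D D' : Divisor K F} (h : D ≤ D') :
    partialL S D ≤ partialL S D' := fun _ hf v hv =>
  (hf v hv).trans (exp_le_exp.mpr (Finsupp.le_def.mp h v))

theorem partialL_anti {S S' : Set (Place K F)} (h : S ⊆ S') (D : Divisor K F) :
    partialL S' D ≤ partialL S D := fun _ hf v hv => hf v (h hv)

theorem partialL_univ (D : Divisor K F) : partialL Set.univ D = riemannRochSpace D := by
  ext f
  rw [mem_partialL_iff, mem_riemannRochSpace_iff]
  simp

theorem partialL_congr {S : Set (Place K F)} {D D' : Divisor K F} (h : ∀ v ∈ S, D v = D' v) :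
    partialL S D = partialL S D' := by
  ext f
  rw [mem_partialL_iff, mem_partialL_iff]
  refine forall_congr' fun v => forall_congr' fun hv => ?_
  rw [h v hv]

/-! ### One-place step -/

section OneStep

variable (S : Set (Place K F)) (D : Divisor K F) (P : Place K F) {t : F} (ht : t ≠ 0)
  (ht1 : P.ord t = 1)

include ht ht1 in
theorem zpow_mul_mem_of_mem_partialL (hP : P ∈ S) {f : F} (hf : f ∈ partialL S (addP D P)) :
    t ^ (D P + 1) * f ∈ P.toValuationSubring := by
  apply zpow_mul_mem_valSubring D P ht ht1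
  have := (mem_partialL_iff.mp hf) P hP
  rwa [add_single_apply_self] at this

/-- The leading-coefficient map `partialL S (D + P) → κ(P)` for `P ∈ S`. -/
def plcMap (hP : P ∈ S) : ↥(partialL S (addP D P)) →ₗ[K] P.ResidueField where
  toFun f := resTot P (t ^ (D P + 1) * f.1)
  map_add' f g := by
    have h := resTot_add P (zpow_mul_mem_of_mem_partialL S D P ht ht1 hP f.2)
      (zpow_mul_mem_of_mem_partialL S D P ht ht1 hP g.2)
    rw [← mul_add] at h
    exact h
  map_smul' c f := by
    have h := resTot_smul P c (zpow_mul_mem_of_mem_partialL S D P ht ht1 hP f.2)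
    rw [RingHom.id_apply, ← h]
    congr 1
    show t ^ (D P + 1) * (c • (f : F)) = c • (t ^ (D P + 1) * (f : F))
    rw [mul_smul_comm]

theorem plcMap_eq_zero_imp (hP : P ∈ S) (f : ↥(partialL S (addP D P)))
    (h : plcMap S D P ht ht1 hP f = 0) : (f : F) ∈ partialL S D := by
  have h' : resTot P (t ^ (D P + 1) * f.1) = 0 := h
  rw [resTot_eq_zero_iff P (zpow_mul_mem_of_mem_partialL S D P ht ht1 hP f.2)] at h'
  rw [mem_partialL_iff]
  have hf := mem_partialL_iff.mp f.2
  intro v hv
  by_cases hvP : v = P
  · subst hvP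
    rcases eq_or_ne (f : F) 0 with h0 | h0
    · exact Or.inl h0
    · right
      rcases h' with h' | h'
      · exact absurd ((mul_eq_zero.mp h').resolve_left (zpow_ne_zero _ ht)) h0
      · rw [ord_zpow_mul v ht h0, ht1] at h'
        omega
  · have := hf v hv
    rwa [add_single_apply_of_ne D hvP] at this

include ht ht1 in
/-- One-place step: the colength grows by at most `deg P`. -/
theorem colenLE_addP [Module.Finite K P.ResidueField] :
    ColenLE (partialL S D) (partialL S (addP D P)) P.deg := by
  by_cases hP : P ∈ S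
  · exact colenLE_of_linearMap (plcMap S D P ht ht1 hP)
      (fun y hy => plcMap_eq_zero_imp S D P ht ht1 hP y hy)
  · refine ColenLE.of_le ?_ _
    refine le_of_eq (partialL_congr fun v hv => ?_)
    have : v ≠ P := fun h => hP (h ▸ hv)
    exact add_single_apply_of_ne D this

end OneStep

/-! ### The count -/

/-- **Count.** For `D ≥ 0`, `partialL S D ⊆ partialL S 0 + W` with `dim W ≤ deg D`. -/
theorem colenLE_partialL (hres : ∀ v : Place K F, Module.Finite K v.ResidueField)
    (S : Set (Place K F)) (D : Divisor K F) (hD : 0 ≤ D) :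
    ColenLE (partialL S 0) (partialL S D) (Divisor.degree D).toNat := by
  refine effective_induction (p := fun E => 0 ≤ Divisor.degree E ∧
    ColenLE (partialL S 0) (partialL S E) (Divisor.degree E).toNat) ?_ ?_ D hD |>.2
  · refine ⟨by simp, ?_⟩
    simpa using ColenLE.refl (partialL S (0 : Divisor K F))
  · intro E P _ hE
    obtain ⟨t, ht, ht1⟩ := exists_uniformizer P
    haveI := hres P
    have hdeg : Divisor.degree (addP E P) = Divisor.degree E + P.deg := by
      simp [addP, map_add]
    refine ⟨by rw [hdeg]; have := hE.1; positivity, ?_⟩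
    have h1 := hE.2.trans (colenLE_addP S E P ht ht1)
    refine h1.mono (le_of_eq ?_)
    rw [hdeg]
    have := hE.1
    omega

/-- **Count, quotient form** (colength in the literal shape `↥U' ⧸ U.submoduleOf U'`). -/
theorem finrank_partialL_quotient_le (hres : ∀ v : Place K F, Module.Finite K v.ResidueField)
    (S : Set (Place K F)) (D : Divisor K F) (hD : 0 ≤ D) :
    FiniteDimensional K (↥(partialL S D) ⧸ (partialL S 0).submoduleOf (partialL S D)) ∧
      (Module.finrank K (↥(partialL S D) ⧸ (partialL S 0).submoduleOf (partialL S D)) : ℤ)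
        ≤ Divisor.degree D := by
  have h := (colenLE_partialL hres S D hD).finrank_le
  refine ⟨h.1, ?_⟩
  have h0 : 0 ≤ Divisor.degree D := by
    have := (effective_induction (p := fun E : Divisor K F => 0 ≤ Divisor.degree E) (by simp)
      (fun E P _ hE => by
        have hdeg : Divisor.degree (addP E P) = Divisor.degree E + P.deg := by
          simp [addP, map_add]
        rw [hdeg]; positivity) D hD)
    exact this
  calc (Module.finrank K (↥(partialL S D) ⧸ (partialL S 0).submoduleOf (partialL S D)) : ℤ)
      ≤ ((Divisor.degree D).toNat : ℤ) := by exact_mod_cast h.2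
    _ = Divisor.degree D := Int.toNat_of_nonneg h0

/-- **Consumer form.** Any `K`-subspace `M` squeezed between `partialL S 0` and `partialL S D`
(`D ≥ 0`) has finite colength `≤ deg D` over `partialL S 0`. -/
theorem finrank_quotient_le_of_le_partialL
    (hres : ∀ v : Place K F, Module.Finite K v.ResidueField)
    (S : Set (Place K F)) (D : Divisor K F) (hD : 0 ≤ D) (M : Submodule K F)
    (hM : M ≤ partialL S D) :
    FiniteDimensional K (↥M ⧸ (partialL S 0).submoduleOf M) ∧
      (Module.finrank K (↥M ⧸ (partialL S 0).submoduleOf M) : ℤ) ≤ Divisor.degree D := by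
  have h := ((colenLE_partialL hres S D hD).mono_right hM).finrank_le
  refine ⟨h.1, ?_⟩
  have h0 : 0 ≤ Divisor.degree D := by
    have := (finrank_partialL_quotient_le hres S D hD).2
    exact le_trans (by positivity) this
  calc (Module.finrank K (↥M ⧸ (partialL S 0).submoduleOf M) : ℤ)
      ≤ ((Divisor.degree D).toNat : ℤ) := by exact_mod_cast h.2
    _ = Divisor.degree D := Int.toNat_of_nonneg h0

end Fermat.Agent.S16.H95
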