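import Mathlib
import Fermat.Agent.S16.H1_TameDifferent
import Fermat.Agent.S16.H6_G0Iface
import Fermat.Agent.S16.H95_PartialL
import Fermat.Agent.RR.H52_WeakApprox

/-!
# (G0) P6, infinity side: the tame bound at the poles of `x` in place language (helper1)

For `y` in the trace dual `dualK (Binf K x) (Rinf K x)` of the integral closure at infinity and a
pole `v` of `x`:  `v.ord y ≥ -(-v.ord x - 1)`, i.e. `y ∈ partialL {poles of x} Ram` for every
divisor `Ram` with `Ram v = -v.ord x - 1` at the poles.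

Proof: `H1.val_le_of_mem_traceDual` (T1) with the abstract valuations `w i :=` the adic valuations
of the poles of `x`, weak approximation from `RR.H52.exists_approx_one`.
The ring-theoretic facts about `Binf K x` (DVR, fraction field `K⟮x⟯`, uniformiser `1/x`,
integral closure `= Rinf K x`) are hypotheses (helper35's P3i / helper94's P5).
-/

set_option autoImplicit false

noncomputable section

namespace Fermat.Agent.S16.H1

open AlgebraicCurve WithZero IntermediateField

variable {K F : Type*} [Field K] [Field F] [Algebra K F]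

/-- **(P6-inf)** the tame different bound at infinity, in the vocabulary of `H6_G0Iface` and
`H95_PartialL`. -/
theorem dualK_Binf_le_partialL [CharZero K] (x : F) [FiniteDimensional K⟮x⟯ F]
    [IsDiscreteValuationRing ↥(H6.Binf K x)] [IsFractionRing ↥(H6.Binf K x) K⟮x⟯]
    (hfinpoles : {v : Place K F | v.ord x < 0}.Finite)
    (hint : ∀ f : F, f ∈ H6.Rinf K x ↔ IsIntegral ↥(H6.Binf K x) f)
    (π : ↥(H6.Binf K x)) (hπ : IsLocalRing.maximalIdeal ↥(H6.Binf K x) = Ideal.span {π})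
    (hπx : (((π : ↥(H6.Binf K x)) : K⟮x⟯) : F) = x⁻¹)
    (Ram : Divisor K F) (hRam : ∀ v : Place K F, v.ord x < 0 → Ram v = - v.ord x - 1) :
    H6.dualK (H6.Binf K x) (H6.Rinf K x) ≤ H95.partialL {v | v.ord x < 0} Ram := by
  classical
  intro y hy v hv
  have hv' : v.ord x < 0 := hv
  -- instances
  haveI : CharZero ↥K⟮x⟯ := charZero_of_injective_algebraMap (algebraMap K ↥K⟮x⟯).injective
  haveI : Algebra.IsSeparable ↥K⟮x⟯ F := Algebra.IsAlgebraic.isSeparable_of_perfectField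
  haveI : Fintype {v : Place K F // v.ord x < 0} := hfinpoles.fintype
  -- the data of (T1)
  let w : {v : Place K F // v.ord x < 0} → Valuation F ℤᵐ⁰ := fun i => i.1.adicValuation
  let e : {v : Place K F // v.ord x < 0} → ℕ := fun i => (-(i.1.ord x)).toNat
  have hx0 : x ≠ 0 := by
    rintro rfl
    rw [Place.ord_zero] at hv'
    exact lt_irrefl _ hv'
  have hchar : ∀ n : ℕ, n ≠ 0 →
      ((n : ℕ) : ↥(H6.Binf K x) ⧸ IsLocalRing.maximalIdeal ↥(H6.Binf K x)) ≠ 0 := by
    intro n hn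
    have h1 : ((n : ℕ) : ↥(H6.Binf K x) ⧸ IsLocalRing.maximalIdeal ↥(H6.Binf K x)) =
        algebraMap K (↥(H6.Binf K x) ⧸ IsLocalRing.maximalIdeal ↥(H6.Binf K x)) (n : K) := by
      rw [map_natCast]
    rw [h1]
    intro h0
    have := (algebraMap K
      (↥(H6.Binf K x) ⧸ IsLocalRing.maximalIdeal ↥(H6.Binf K x))).injective
      (h0.trans (map_zero _).symm)
    exact hn (by exact_mod_cast this)
  have h1 : ∀ f : F, IsIntegral ↥(H6.Binf K x) f ↔ ∀ i, w i f ≤ 1 := by
    intro f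
    rw [← hint f, H6.mem_Rinf]
    constructor
    · intro h i
      exact (RR.H52.mem_iff_val_le_one i.1 f).1 (h i.1 i.2)
    · intro h v hv
      exact (RR.H52.mem_iff_val_le_one v f).2 (h ⟨v, hv⟩)
  have h2 : ∀ i, ∀ N : ℤ, ∃ z : F, w i (z - 1) ≤ exp (-N) ∧ ∀ j, j ≠ i → w j z ≤ exp (-N) := by
    intro i N
    obtain ⟨z, hz1, hz2⟩ := RR.H52.exists_approx_one i.1 (hfinpoles.toFinset.erase i.1)
      (by simp) N
    refine ⟨z, hz1, fun j hj => hz2 j.1 ?_⟩
    rw [Finset.mem_erase]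
    refine ⟨fun h => hj (Subtype.ext h), ?_⟩
    rw [Set.Finite.mem_toFinset]
    exact j.2
  have h3 : ∀ i, w i (algebraMap ↥(H6.Binf K x) F π) = exp (-(e i : ℤ)) := by
    intro i
    have hx0' : x ≠ 0 := hx0
    have h4 : algebraMap ↥(H6.Binf K x) F π = x⁻¹ := hπx
    rw [h4]
    show i.1.adicValuation x⁻¹ = _
    rw [map_inv₀, RR.H52.val_eq_exp_neg_ord i.1 hx0', ← exp_neg]
    congr 1
    have := i.2
    show - -i.1.ord x = -((-(i.1.ord x)).toNat : ℤ)
    rw [Int.toNat_of_nonneg (by omega)]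
  have he : ∀ i, 1 ≤ e i := by
    intro i
    have := i.2
    show 1 ≤ (-(i.1.ord x)).toNat
    omega
  have hy' : ∀ r : F, IsIntegral ↥(H6.Binf K x) r →
      Algebra.trace ↥K⟮x⟯ F (y * r) ∈ (algebraMap ↥(H6.Binf K x) ↥K⟮x⟯).range := by
    intro r hr
    have hr' : r ∈ H6.Rinf K x := (hint r).2 hr
    have := H6.mem_dualK.1 hy r hr'
    exact ⟨⟨_, this⟩, rfl⟩
  have key := val_le_of_mem_traceDual ↥(H6.Binf K x) ↥K⟮x⟯ hchar w e π hπ h1 h2 h3 he y hy'
    ⟨v, hv'⟩
  have h5 : ((e ⟨v, hv'⟩ : ℕ) : ℤ) - 1 = Ram v := by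
    rw [hRam v hv']
    show (((-(v.ord x)).toNat : ℕ) : ℤ) - 1 = _
    rw [Int.toNat_of_nonneg (by omega)]
  rw [h5] at key
  exact key

end Fermat.Agent.S16.H1
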