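import Mathlib

/-!
# S16 / (G0), package P3: the base pair and the twist (Mathlib only)

`L` a field (think `k(x)`), `A`, `O` two `k`-algebras mapping to `L` (think `k[x]` and the local
ring at infinity) with `A ∩ O = k` and `A + O = L`; `V` a finite dimensional `L`-vector space
with basis `b`.

* `inf_span_eq`, `sup_span_eq_top`, `finrank_inf_span`, `finrank_quotient_sup_span` :
  `span_A b ⊓ span_O b = span_k b`, `span_A b ⊔ span_O b = ⊤`, so `χ(span_A b, span_O b) = n`.
* `finrank_quotient_span_pow` : `dim_k O / (t ^ m) = m` if `dim_k O / (t) = 1` (`O` a domain).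
* `finrank_quotient_pow_smul` : for a free `O`-module `M` of rank `n`:
  `dim_k M / t ^ m M = m * n`; `finrank_quotient_pow_smul_submodule` : the same for a free
  `O`-submodule `W` of `V`, in the literal shape `↥W' ⧸ (t ^ m • W)'.submoduleOf W'`.
-/

set_option autoImplicit false
set_option linter.unusedSectionVars false

noncomputable section

namespace Fermat.Agent.S16.H24

open Module Submodule
open scoped Pointwise

section BasePair

variable {k L V : Type*} [Field k] [Field L] [Algebra k L] [AddCommGroup V] [Module L V]
  [Module k V] [IsScalarTower k L V]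

section OneRing

variable {A : Type*} [CommRing A] [Algebra A L] [Module A V] [IsScalarTower A L V]
variable {ι : Type*} [Fintype ι] (b : Basis ι L V)

/-- coordinates criterion, no domain / torsion-freeness hypotheses. -/
theorem mem_span_range_iff (v : V) :
    v ∈ span A (Set.range b) ↔ ∀ i, b.repr v i ∈ Set.range (algebraMap A L) := by
  constructor
  · intro hv
    induction hv using Submodule.span_induction with
    | mem x hx =>
      obtain ⟨j, rfl⟩ := hx
      intro i
      classical
      rw [b.repr_self, Finsupp.single_apply]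
      split_ifs
      · exact ⟨1, map_one _⟩
      · exact ⟨0, map_zero _⟩
    | zero => intro i; exact ⟨0, by simp⟩
    | add x y _ _ hx hy =>
      intro i
      obtain ⟨a, ha⟩ := hx i
      obtain ⟨c, hc⟩ := hy i
      exact ⟨a + c, by rw [map_add, ha, hc, map_add, Finsupp.add_apply]⟩
    | smul a x _ hx =>
      intro i
      obtain ⟨c, hc⟩ := hx i
      refine ⟨a * c, ?_⟩
      rw [← algebraMap_smul L a x, map_smul, Finsupp.smul_apply, smul_eq_mul, map_mul, hc]
  · intro h
    rw [← b.sum_repr v]
    refine Submodule.sum_mem _ fun i _ => ?_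
    obtain ⟨a, ha⟩ := h i
    rw [← ha, algebraMap_smul]
    exact Submodule.smul_mem _ _ (Submodule.subset_span ⟨i, rfl⟩)

end OneRing

variable {A O : Type*} [CommRing A] [Algebra k A] [Algebra A L] [IsScalarTower k A L]
  [Module A V] [IsScalarTower A L V] [IsScalarTower k A V]
  [CommRing O] [Algebra k O] [Algebra O L] [IsScalarTower k O L]
  [Module O V] [IsScalarTower O L V] [IsScalarTower k O V]
variable {ι : Type*} [Fintype ι] (b : Basis ι L V)

/-- **Base pair, intersection.** -/
theorem inf_span_eq
    (hint : ∀ (a : A) (o : O), algebraMap A L a = algebraMap O L o →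
      ∃ c : k, algebraMap A L a = algebraMap k L c) :
    (span A (Set.range b)).restrictScalars k ⊓ (span O (Set.range b)).restrictScalars k
      = span k (Set.range b) := by
  ext v
  simp only [Submodule.mem_inf, Submodule.restrictScalars_mem]
  rw [mem_span_range_iff (A := A) b, mem_span_range_iff (A := O) b, mem_span_range_iff (A := k) b]
  constructor
  · rintro ⟨hA, hO⟩ i
    obtain ⟨a, ha⟩ := hA i
    obtain ⟨o, ho⟩ := hO i
    obtain ⟨c, hc⟩ := hint a o (by rw [ha, ho])
    exact ⟨c, by rw [← hc, ha]⟩
  · intro h
    refine ⟨fun i => ?_, fun i => ?_⟩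
    · obtain ⟨c, hc⟩ := h i
      exact ⟨algebraMap k A c, by rw [← IsScalarTower.algebraMap_apply, hc]⟩
    · obtain ⟨c, hc⟩ := h i
      exact ⟨algebraMap k O c, by rw [← IsScalarTower.algebraMap_apply, hc]⟩

/-- **Base pair, sum.** -/
theorem sup_span_eq_top
    (hsum : ∀ f : L, ∃ (a : A) (o : O), f = algebraMap A L a + algebraMap O L o) :
    (span A (Set.range b)).restrictScalars k ⊔ (span O (Set.range b)).restrictScalars k = ⊤ := by
  rw [eq_top_iff]
  intro v _
  choose a o hao using fun i => hsum (b.repr v i)
  rw [Submodule.mem_sup]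
  refine ⟨∑ i, a i • b i, ?_, ∑ i, o i • b i, ?_, ?_⟩
  · rw [Submodule.restrictScalars_mem]
    exact Submodule.sum_mem _ fun i _ =>
      Submodule.smul_mem _ _ (Submodule.subset_span ⟨i, rfl⟩)
  · rw [Submodule.restrictScalars_mem]
    exact Submodule.sum_mem _ fun i _ =>
      Submodule.smul_mem _ _ (Submodule.subset_span ⟨i, rfl⟩)
  · conv_rhs => rw [← b.sum_repr v]
    rw [← Finset.sum_add_distrib]
    refine Finset.sum_congr rfl fun i _ => ?_
    rw [hao i, add_smul, algebraMap_smul, algebraMap_smul]

/-- **Base pair, `dim (U₀ ∩ W₀) = n`.** -/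
theorem finrank_inf_span
    (hint : ∀ (a : A) (o : O), algebraMap A L a = algebraMap O L o →
      ∃ c : k, algebraMap A L a = algebraMap k L c) :
    finrank k ↥((span A (Set.range b)).restrictScalars k ⊓
      (span O (Set.range b)).restrictScalars k) = Fintype.card ι := by
  rw [inf_span_eq b hint]
  have hli : LinearIndependent k b :=
    b.linearIndependent.restrict_scalars (by
      intro x y hxy
      simp only [Algebra.smul_def, mul_one] at hxy
      exact (algebraMap k L).injective hxy)
  exact finrank_span_eq_card hli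

/-- **Base pair, `dim V / (U₀ + W₀) = 0`.** -/
theorem finrank_quotient_sup_span
    (hsum : ∀ f : L, ∃ (a : A) (o : O), f = algebraMap A L a + algebraMap O L o) :
    finrank k (V ⧸ ((span A (Set.range b)).restrictScalars k ⊔
      (span O (Set.range b)).restrictScalars k)) = 0 := by
  rw [sup_span_eq_top b hsum]
  exact finrank_zero_of_subsingleton

end BasePair

/-! ### The twist: `dim_k W / t ^ m W = m n` -/

section Exact

variable {k X Y Z : Type*} [Field k] [AddCommGroup X] [Module k X] [AddCommGroup Y] [Module k Y]
  [AddCommGroup Z] [Module k Z]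

/-- dimension count in a short exact sequence, including finiteness of the middle term. -/
theorem finrank_of_exact (φ : X →ₗ[k] Y) (π : Y →ₗ[k] Z) (hφ : Function.Injective φ)
    (hπ : Function.Surjective π) (hex : LinearMap.ker π = LinearMap.range φ)
    [FiniteDimensional k X] [FiniteDimensional k Z] :
    FiniteDimensional k Y ∧ finrank k Y = finrank k X + finrank k Z := by
  have e1 : X ≃ₗ[k] LinearMap.range φ := LinearEquiv.ofInjective φ hφ
  have e2 : (Y ⧸ LinearMap.ker π) ≃ₗ[k] Z := π.quotKerEquivOfSurjective hπ
  have hfinN : Module.Finite k (LinearMap.ker π) := by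
    rw [hex]; exact Module.Finite.equiv e1
  have hfinQ : Module.Finite k (Y ⧸ LinearMap.ker π) := Module.Finite.equiv e2.symm
  have hfinY : Module.Finite k Y := Module.Finite.of_submodule_quotient (LinearMap.ker π)
  refine ⟨hfinY, ?_⟩
  have h1 := π.finrank_range_add_finrank_ker
  rw [LinearMap.range_eq_top.mpr hπ, finrank_top, hex, ← e1.finrank_eq] at h1
  omega

end Exact

section Twist

variable {k O : Type*} [Field k] [CommRing O] [IsDomain O] [Algebra k O]

/-- `dim_k O / (t ^ m) = m` when `dim_k O / (t) = 1`. -/
theorem finrank_quotient_span_pow (t : O) (ht : t ≠ 0)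
    (h1 : finrank k (O ⧸ Ideal.span {t}) = 1) (m : ℕ) :
    FiniteDimensional k (O ⧸ Ideal.span {t ^ m}) ∧ finrank k (O ⧸ Ideal.span {t ^ m}) = m := by
  induction m with
  | zero =>
    have htop : Ideal.span {t ^ 0} = (⊤ : Ideal O) := by
      rw [pow_zero, Ideal.span_singleton_one]
    rw [htop]
    have : Subsingleton (O ⧸ (⊤ : Ideal O)) := Ideal.Quotient.subsingleton_iff.mpr rfl
    exact ⟨inferInstance, finrank_zero_of_subsingleton⟩
  | succ m ih =>
    obtain ⟨hfin, hrk⟩ := ih
    have hfin1 : FiniteDimensional k (O ⧸ Ideal.span {t}) :=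
      Module.finite_of_finrank_pos (by rw [h1]; exact one_pos)
    -- the two `O`-linear maps
    have hle1 : (Ideal.span {t} : Submodule O O) ≤
        Submodule.comap (LinearMap.mulLeft O (t ^ m)) (Ideal.span {t ^ (m + 1)}) := by
      intro a ha
      rw [Submodule.mem_comap, LinearMap.mulLeft_apply]
      obtain ⟨c, rfl⟩ := Ideal.mem_span_singleton'.mp ha
      exact Ideal.mem_span_singleton'.mpr ⟨c, by ring⟩
    have hle2 : (Ideal.span {t ^ (m + 1)} : Submodule O O) ≤
        Submodule.comap (LinearMap.id : O →ₗ[O] O) (Ideal.span {t ^ m}) := by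
      intro a ha
      rw [Submodule.mem_comap, LinearMap.id_apply]
      obtain ⟨c, rfl⟩ := Ideal.mem_span_singleton'.mp ha
      exact Ideal.mem_span_singleton'.mpr ⟨c * t, by ring⟩
    set φ : (O ⧸ Ideal.span {t}) →ₗ[O] (O ⧸ Ideal.span {t ^ (m + 1)}) :=
      Submodule.mapQ _ _ (LinearMap.mulLeft O (t ^ m)) hle1 with hφ
    set π : (O ⧸ Ideal.span {t ^ (m + 1)}) →ₗ[O] (O ⧸ Ideal.span {t ^ m}) :=
      Submodule.mapQ _ _ LinearMap.id hle2 with hπ
    have htm : t ^ m ≠ 0 := pow_ne_zero m ht
    have hφinj : Function.Injective φ := by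
      rw [← LinearMap.ker_eq_bot, LinearMap.ker_eq_bot']
      intro x hx
      induction x using Submodule.Quotient.induction_on with | _ a
      rw [hφ, Submodule.mapQ_apply, LinearMap.mulLeft_apply, Submodule.Quotient.mk_eq_zero] at hx
      rw [Submodule.Quotient.mk_eq_zero]
      obtain ⟨c, hc⟩ := Ideal.mem_span_singleton'.mp hx
      refine Ideal.mem_span_singleton'.mpr ⟨c, ?_⟩
      have : t ^ m * (c * t) = t ^ m * a := by rw [← hc]; ring
      exact mul_left_cancel₀ htm this
    have hπsurj : Function.Surjective π := by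
      intro y
      induction y using Submodule.Quotient.induction_on with | _ a
      exact ⟨Submodule.Quotient.mk a, by rw [hπ, Submodule.mapQ_apply, LinearMap.id_apply]⟩
    have hex : LinearMap.ker π = LinearMap.range φ := by
      ext y
      induction y using Submodule.Quotient.induction_on with | _ a
      rw [LinearMap.mem_ker, hπ, Submodule.mapQ_apply, LinearMap.id_apply,
        Submodule.Quotient.mk_eq_zero, LinearMap.mem_range]
      constructor
      · intro ha
        obtain ⟨c, hc⟩ := Ideal.mem_span_singleton'.mp ha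
        refine ⟨Submodule.Quotient.mk c, ?_⟩
        rw [hφ, Submodule.mapQ_apply, LinearMap.mulLeft_apply, ← hc, mul_comm]
      · rintro ⟨x, hx⟩
        induction x using Submodule.Quotient.induction_on with | _ c
        rw [hφ, Submodule.mapQ_apply, LinearMap.mulLeft_apply, Submodule.Quotient.eq] at hx
        obtain ⟨d, hd⟩ := Ideal.mem_span_singleton'.mp hx
        refine Ideal.mem_span_singleton'.mpr ⟨c - d * t, ?_⟩
        have : a = t ^ m * c - d * t ^ (m + 1) := by rw [hd]; ring
        rw [this]; ring
    have hexk : LinearMap.ker (π.restrictScalars k) = LinearMap.range (φ.restrictScalars k) := by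
      ext y
      rw [LinearMap.mem_ker, LinearMap.mem_range]
      have := SetLike.ext_iff.mp hex y
      rw [LinearMap.mem_ker, LinearMap.mem_range] at this
      exact this
    obtain ⟨h2, h3⟩ := finrank_of_exact (φ.restrictScalars k) (π.restrictScalars k) hφinj hπsurj hexk
    exact ⟨h2, by rw [h3, h1, hrk, add_comm]⟩

/-- `I • ⊤ = ∏ I` in `ι → O`. -/
theorem smul_top_pi_eq {ι : Type*} [Fintype ι] [DecidableEq ι] (I : Ideal O) :
    (I • (⊤ : Submodule O (ι → O))) = Submodule.pi Set.univ (fun _ : ι => (I : Submodule O O)) := by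
  apply le_antisymm
  · rw [Submodule.smul_le]
    intro r hr f _
    rw [Submodule.mem_pi]
    intro i _
    rw [Pi.smul_apply, smul_eq_mul]
    exact I.mul_mem_right _ hr
  · intro f hf
    rw [Submodule.mem_pi] at hf
    have hfsum : f = ∑ i, f i • (Pi.single i (1 : O) : ι → O) := by
      ext j
      rw [Finset.sum_apply]
      simp [Pi.single_apply]
    rw [hfsum]
    exact Submodule.sum_mem _ fun i _ =>
      Submodule.smul_mem_smul (hf i (Set.mem_univ i)) Submodule.mem_top

variable {M : Type*} [AddCommGroup M] [Module O M] [Module k M] [IsScalarTower k O M]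

/-- `M / I M ≃ (O / I)^ι` for a free module with basis `b`. -/
def quotientSmulTopEquivPi {ι : Type*} [Fintype ι] [DecidableEq ι] (b : Basis ι O M)
    (I : Ideal O) : (M ⧸ (I • (⊤ : Submodule O M))) ≃ₗ[O] (ι → O ⧸ I) :=
  (Submodule.Quotient.equiv (I • (⊤ : Submodule O M))
      (Submodule.pi Set.univ (fun _ : ι => (I : Submodule O O))) b.equivFun (by
        rw [Submodule.map_smul'', Submodule.map_top, LinearEquiv.range,
          smul_top_pi_eq])).trans
    (Submodule.quotientPi (fun _ : ι => (I : Submodule O O)))

/-- **Twist, module form**: `dim_k M / t ^ m M = m * n` for `M` free of rank `n` over `O`. -/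
theorem finrank_quotient_pow_smul {ι : Type*} [Fintype ι] (b : Basis ι O M) (t : O)
    (ht : t ≠ 0) (h1 : finrank k (O ⧸ Ideal.span {t}) = 1) (m : ℕ) :
    FiniteDimensional k (M ⧸ (t ^ m • (⊤ : Submodule O M))) ∧
      finrank k (M ⧸ (t ^ m • (⊤ : Submodule O M))) = m * Fintype.card ι := by
  classical
  obtain ⟨hfin, hrk⟩ := finrank_quotient_span_pow (k := k) t ht h1 m
  rw [← Submodule.ideal_span_singleton_smul]
  have e := (quotientSmulTopEquivPi b (Ideal.span {t ^ m})).restrictScalars k
  have hfinpi : FiniteDimensional k (ι → O ⧸ Ideal.span {t ^ m}) := inferInstance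
  refine ⟨Module.Finite.equiv e.symm, ?_⟩
  rw [e.finrank_eq, Module.finrank_pi_fintype]
  simp [hrk, mul_comm]

variable {V : Type*} [AddCommGroup V] [Module O V] [Module k V] [IsScalarTower k O V]

/-- the comparison of the two quotient shapes. -/
def quotientSubmoduleOfEquiv (W : Submodule O V) (a : O) :
    (↥(W.restrictScalars k) ⧸ ((a • W).restrictScalars k).submoduleOf (W.restrictScalars k))
      ≃ₗ[k] (↥W ⧸ (a • (⊤ : Submodule O ↥W))) :=
  (Submodule.Quotient.equiv
      (((a • W).restrictScalars k).submoduleOf (W.restrictScalars k))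
      ((a • (⊤ : Submodule O ↥W)).restrictScalars k)
      ((Submodule.restrictScalarsEquiv k O V W).restrictScalars k) (by
        ext x
        rw [Submodule.mem_map]
        constructor
        · rintro ⟨y, hy, rfl⟩
          rw [Submodule.submoduleOf, Submodule.mem_comap, Submodule.subtype_apply, Submodule.restrictScalars_mem,
            Submodule.mem_smul_pointwise_iff_exists] at hy
          obtain ⟨w, hw, hwy⟩ := hy
          rw [Submodule.restrictScalars_mem, Submodule.mem_smul_pointwise_iff_exists]
          exact ⟨⟨w, hw⟩, Submodule.mem_top, Subtype.ext hwy⟩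
        · intro hx
          rw [Submodule.restrictScalars_mem, Submodule.mem_smul_pointwise_iff_exists] at hx
          obtain ⟨w, -, hwx⟩ := hx
          refine ⟨⟨x.1, x.2⟩, ?_, Subtype.ext rfl⟩
          rw [Submodule.submoduleOf, Submodule.mem_comap, Submodule.subtype_apply, Submodule.restrictScalars_mem,
            Submodule.mem_smul_pointwise_iff_exists]
          exact ⟨w.1, w.2, by rw [← hwx]; rfl⟩)).trans
    (Submodule.Quotient.restrictScalarsEquiv k (a • (⊤ : Submodule O ↥W)))

/-- **Twist, lattice form** (`H85.colength (t ^ m • W) W = m * n`): for `W ⊆ V` free of rank `n`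
over `O`, `dim_k W / t ^ m W = m * n`. -/
theorem finrank_quotient_pow_smul_submodule {ι : Type*} [Fintype ι] (W : Submodule O V)
    (b : Basis ι O W) (t : O) (ht : t ≠ 0) (h1 : finrank k (O ⧸ Ideal.span {t}) = 1) (m : ℕ) :
    FiniteDimensional k
        (↥(W.restrictScalars k) ⧸
          ((t ^ m • W).restrictScalars k).submoduleOf (W.restrictScalars k)) ∧
      finrank k (↥(W.restrictScalars k) ⧸
          ((t ^ m • W).restrictScalars k).submoduleOf (W.restrictScalars k))
        = m * Fintype.card ι := by
  obtain ⟨hfin, hrk⟩ := finrank_quotient_pow_smul (k := k) b t ht h1 m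
  have e := quotientSubmoduleOfEquiv (k := k) W (t ^ m)
  exact ⟨Module.Finite.equiv e.symm, by rw [e.finrank_eq, hrk]⟩

/-- `t ^ m • W ≤ W`. -/
theorem pow_smul_le (W : Submodule O V) (t : O) (m : ℕ) : t ^ m • W ≤ W := by
  intro x hx
  rw [Submodule.mem_smul_pointwise_iff_exists] at hx
  obtain ⟨w, hw, rfl⟩ := hx
  exact W.smul_mem _ hw

/-- **Twist, `IsLattice` form**: for an `O`-lattice `W` of the `L`-space `V` (`O` a PID with
fraction field `L`), `dim_k W / t ^ m W = m * dim_L V`. -/
theorem finrank_quotient_pow_smul_of_isLattice {L : Type*} [Field L] [Algebra O L]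
    [IsFractionRing O L] [IsPrincipalIdealRing O] [Module L V] [IsScalarTower O L V]
    [FiniteDimensional L V] (W : Submodule O V) [Submodule.IsLattice L W]
    (t : O) (ht : t ≠ 0) (h1 : finrank k (O ⧸ Ideal.span {t}) = 1) (m : ℕ) :
    FiniteDimensional k
        (↥(W.restrictScalars k) ⧸
          ((t ^ m • W).restrictScalars k).submoduleOf (W.restrictScalars k)) ∧
      finrank k (↥(W.restrictScalars k) ⧸
          ((t ^ m • W).restrictScalars k).submoduleOf (W.restrictScalars k))
        = m * finrank L V := by
  have htf : Module.IsTorsionFree O L := inferInstance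
  have hfree : Module.Free O W := Submodule.IsLattice.free L W
  have hfinW : Module.Finite O W := Submodule.IsLattice.finite L W
  have b := Module.Free.chooseBasis O W
  have hcard : Fintype.card (Module.Free.ChooseBasisIndex O W) = finrank L V := by
    rw [← Module.finrank_eq_card_chooseBasisIndex]
    exact Module.finrank_eq_of_rank_eq (by
      rw [Submodule.IsLattice.rank' L W]
      exact (Module.finrank_eq_rank L V).symm)
  have := finrank_quotient_pow_smul_submodule (k := k) W b t ht h1 m
  rwa [hcard] at this

end Twist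

end Fermat.Agent.S16.H24
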