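/-
S16 / (G0) package P1 (helper85): the Euler characteristic of a pair of subspaces.

`k` a field, `V` a `k`-vector space, `U W : Submodule k V`.

* `chi U W := dim (U ⊓ W) - dim V ⧸ (U ⊔ W)` (as an integer), `IsFred U W` : both dimensions finite;
* additivity: for `U ≤ U'` of finite colength, `IsFred U W ↔ IsFred U' W` and
  `chi U' W = chi U W + colength U U'` (and the same in the second variable).

Pure linear algebra (the five-term exact sequence
`0 → U ⊓ W → U' ⊓ W → U'/U → V/(U ⊔ W) → V/(U' ⊔ W) → 0`).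
-/
import Mathlib

set_option autoImplicit false
set_option linter.unusedSectionVars false
set_option linter.style.haveILetI false

open Module

noncomputable section

namespace Fermat.Agent.S16.H85

variable {k V : Type*} [Field k] [AddCommGroup V] [Module k V]

/-- The Euler characteristic of a pair of subspaces. -/
def chi (U W : Submodule k V) : ℤ :=
  (finrank k ↥(U ⊓ W) : ℤ) - finrank k (V ⧸ (U ⊔ W))

/-- Both `U ⊓ W` and `V ⧸ (U ⊔ W)` are finite-dimensional. -/
def IsFred (U W : Submodule k V) : Prop :=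
  FiniteDimensional k ↥(U ⊓ W) ∧ FiniteDimensional k (V ⧸ (U ⊔ W))

/-- The colength of `U` in `U'` (meaningful for `U ≤ U'`). -/
def colength (U U' : Submodule k V) : ℕ := finrank k (↥U' ⧸ U.submoduleOf U')

theorem chi_comm (U W : Submodule k V) : chi U W = chi W U := by
  unfold chi
  rw [inf_comm, sup_comm]

theorem IsFred.symm {U W : Submodule k V} (h : IsFred U W) : IsFred W U := by
  unfold IsFred at h ⊢
  rwa [inf_comm, sup_comm]

theorem isFred_comm {U W : Submodule k V} : IsFred U W ↔ IsFred W U :=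
  ⟨IsFred.symm, IsFred.symm⟩

theorem chi_le_finrank (U W : Submodule k V) : chi U W ≤ finrank k ↥(U ⊓ W) := by
  unfold chi
  have : (0 : ℤ) ≤ finrank k (V ⧸ (U ⊔ W)) := Int.natCast_nonneg _
  linarith

theorem mem_submoduleOf_iff {U U' : Submodule k V} {x : ↥U'} :
    x ∈ U.submoduleOf U' ↔ (x : V) ∈ U := Iff.rfl

/-! ### The exact sequence -/

section Seq

variable {U U' : Submodule k V} (W : Submodule k V) (hUU' : U ≤ U')

/-- `U ⊓ W → U' ⊓ W`. -/
def seqι : ↥(U ⊓ W) →ₗ[k] ↥(U' ⊓ W) := Submodule.inclusion (inf_le_inf_right W hUU')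

/-- `U' ⊓ W → U' / U`. -/
def seqα (U U' : Submodule k V) : ↥(U' ⊓ W) →ₗ[k] (↥U' ⧸ U.submoduleOf U') :=
  (U.submoduleOf U').mkQ ∘ₗ Submodule.inclusion (inf_le_left : U' ⊓ W ≤ U')

/-- `U' / U → V / (U ⊔ W)`. -/
def seqβ : (↥U' ⧸ U.submoduleOf U') →ₗ[k] (V ⧸ (U ⊔ W)) :=
  (U.submoduleOf U').liftQ ((U ⊔ W).mkQ ∘ₗ U'.subtype) (by
    intro x hx
    rw [LinearMap.mem_ker, LinearMap.comp_apply, Submodule.mkQ_apply,
      Submodule.Quotient.mk_eq_zero]
    exact Submodule.mem_sup_left (mem_submoduleOf_iff.mp hx))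

/-- `V / (U ⊔ W) → V / (U' ⊔ W)`. -/
def seqγ : (V ⧸ (U ⊔ W)) →ₗ[k] (V ⧸ (U' ⊔ W)) :=
  (U ⊔ W).mapQ (U' ⊔ W) LinearMap.id (by
    rw [Submodule.comap_id]
    exact sup_le_sup_right hUU' W)

theorem seqι_injective : Function.Injective (seqι W hUU') :=
  Submodule.inclusion_injective _

theorem seqα_apply (x : ↥(U' ⊓ W)) :
    seqα W U U' x = Submodule.Quotient.mk ⟨(x : V), x.2.1⟩ := rfl

theorem seqβ_mk (x : ↥U') :
    seqβ (U := U) (U' := U') W (Submodule.Quotient.mk x) = Submodule.Quotient.mk (x : V) := rfl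

theorem seqγ_mk (x : V) :
    seqγ W hUU' (Submodule.Quotient.mk x) = Submodule.Quotient.mk x := rfl

theorem range_seqι : LinearMap.range (seqι W hUU') = LinearMap.ker (seqα W U U') := by
  ext x
  rw [LinearMap.mem_ker, seqα_apply, Submodule.Quotient.mk_eq_zero, mem_submoduleOf_iff]
  constructor
  · rintro ⟨y, rfl⟩
    exact y.2.1
  · intro hx
    exact ⟨⟨(x : V), hx, x.2.2⟩, rfl⟩

include hUU' in
theorem range_seqα : LinearMap.range (seqα W U U') = LinearMap.ker (seqβ (U := U) W) := by
  ext y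
  obtain ⟨x, rfl⟩ := Submodule.Quotient.mk_surjective _ y
  rw [LinearMap.mem_ker, seqβ_mk, Submodule.Quotient.mk_eq_zero]
  constructor
  · rintro ⟨z, hz⟩
    rw [seqα_apply] at hz
    -- `x - z ∈ U`
    have h1 : (⟨(z : V), z.2.1⟩ : ↥U') - x ∈ U.submoduleOf U' := by
      rw [← Submodule.Quotient.eq]
      exact hz
    have h2 : (z : V) - (x : V) ∈ U := mem_submoduleOf_iff.mp h1
    have h3 : (x : V) = (z : V) - ((z : V) - (x : V)) := by abel
    rw [h3]
    exact Submodule.sub_mem _ (Submodule.mem_sup_right z.2.2) (Submodule.mem_sup_left h2)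
  · intro hx
    obtain ⟨u, hu, w, hw, huw⟩ := Submodule.mem_sup.mp hx
    have hwU' : w ∈ U' := by
      have : w = (x : V) - u := by rw [← huw]; abel
      rw [this]
      exact U'.sub_mem x.2 (hUU' hu)
    refine ⟨⟨w, hwU', hw⟩, ?_⟩
    rw [seqα_apply, Submodule.Quotient.eq, mem_submoduleOf_iff]
    show w - (x : V) ∈ U
    have : w - (x : V) = -u := by rw [← huw]; abel
    rw [this]
    exact U.neg_mem hu

theorem range_seqβ : LinearMap.range (seqβ (U := U) (U' := U') W)
    = LinearMap.ker (seqγ W hUU') := by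
  ext y
  obtain ⟨x, rfl⟩ := Submodule.Quotient.mk_surjective _ y
  rw [LinearMap.mem_ker, seqγ_mk, Submodule.Quotient.mk_eq_zero]
  constructor
  · rintro ⟨z, hz⟩
    obtain ⟨z, rfl⟩ := Submodule.Quotient.mk_surjective _ z
    rw [seqβ_mk, Submodule.Quotient.eq] at hz
    have h3 : x = (z : V) - ((z : V) - x) := by abel
    rw [h3]
    exact Submodule.sub_mem _ (Submodule.mem_sup_left z.2)
      ((sup_le_sup_right hUU' W) hz)
  · intro hx
    obtain ⟨u, hu, w, hw, huw⟩ := Submodule.mem_sup.mp hx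
    refine ⟨Submodule.Quotient.mk ⟨u, hu⟩, ?_⟩
    rw [seqβ_mk, Submodule.Quotient.eq]
    have : u - x = -w := by rw [← huw]; abel
    rw [this]
    exact Submodule.neg_mem _ (Submodule.mem_sup_right hw)

theorem seqγ_surjective : Function.Surjective (seqγ W hUU') := by
  intro y
  obtain ⟨x, rfl⟩ := Submodule.Quotient.mk_surjective _ y
  exact ⟨Submodule.Quotient.mk x, rfl⟩

end Seq

/-! ### Additivity -/

section Add

variable {U U' : Submodule k V} (W : Submodule k V)

/-- Finiteness passes up. -/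
theorem IsFred.of_le (hUU' : U ≤ U') [FiniteDimensional k (↥U' ⧸ U.submoduleOf U')]
    (h : IsFred U W) : IsFred U' W := by
  obtain ⟨h1, h2⟩ := h
  haveI := h1
  haveI := h2
  constructor
  · haveI : Module.Finite k ↥(LinearMap.ker (seqα W U U')) := by
      rw [← range_seqι W hUU']
      infer_instance
    haveI : Module.Finite k (↥(U' ⊓ W) ⧸ LinearMap.ker (seqα W U U')) :=
      Module.Finite.equiv (seqα W U U').quotKerEquivRange.symm
    exact Module.Finite.of_submodule_quotient (LinearMap.ker (seqα W U U'))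
  · exact Module.Finite.of_surjective (seqγ W hUU') (seqγ_surjective W hUU')

/-- Finiteness passes down. -/
theorem IsFred.of_ge (hUU' : U ≤ U') [FiniteDimensional k (↥U' ⧸ U.submoduleOf U')]
    (h : IsFred U' W) : IsFred U W := by
  obtain ⟨h1, h2⟩ := h
  haveI := h1
  haveI := h2
  constructor
  · exact FiniteDimensional.of_injective (seqι W hUU') (seqι_injective W hUU')
  · haveI : Module.Finite k ↥(LinearMap.ker (seqγ W hUU')) := by
      rw [← range_seqβ W hUU']
      infer_instance
    haveI : Module.Finite k ((V ⧸ (U ⊔ W)) ⧸ LinearMap.ker (seqγ W hUU')) :=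
      Module.Finite.equiv (seqγ W hUU').quotKerEquivRange.symm
    exact Module.Finite.of_submodule_quotient (LinearMap.ker (seqγ W hUU'))

theorem isFred_iff_of_le (hUU' : U ≤ U') [FiniteDimensional k (↥U' ⧸ U.submoduleOf U')] :
    IsFred U W ↔ IsFred U' W :=
  ⟨IsFred.of_le W hUU', IsFred.of_ge W hUU'⟩

/-- **Additivity of `chi` in the first variable.** -/
theorem chi_of_le (hUU' : U ≤ U') [FiniteDimensional k (↥U' ⧸ U.submoduleOf U')]
    (h : IsFred U W) : chi U' W = chi U W + colength U U' := by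
  obtain ⟨h1', h2'⟩ := IsFred.of_le W hUU' h
  obtain ⟨h1, h2⟩ := h
  haveI := h1
  haveI := h2
  haveI := h1'
  haveI := h2'
  have eα := LinearMap.finrank_range_add_finrank_ker (seqα W U U')
  have eβ := LinearMap.finrank_range_add_finrank_ker (seqβ (U := U) (U' := U') W)
  have eγ := LinearMap.finrank_range_add_finrank_ker (seqγ W hUU')
  rw [← range_seqι W hUU', LinearMap.finrank_range_of_inj (seqι_injective W hUU')] at eα
  rw [← range_seqα W hUU'] at eβ
  rw [← range_seqβ W hUU', LinearMap.range_eq_top.mpr (seqγ_surjective W hUU'),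
    finrank_top] at eγ
  unfold chi colength
  zify at eα eβ eγ ⊢
  linarith

/-- **Additivity of `chi` in the second variable.** -/
theorem chi_of_le_right (U : Submodule k V) {W W' : Submodule k V} (hWW' : W ≤ W')
    [FiniteDimensional k (↥W' ⧸ W.submoduleOf W')] (h : IsFred U W) :
    chi U W' = chi U W + colength W W' := by
  rw [chi_comm U W', chi_comm U W]
  exact chi_of_le U hWW' h.symm

theorem isFred_iff_of_le_right (U : Submodule k V) {W W' : Submodule k V} (hWW' : W ≤ W')
    [FiniteDimensional k (↥W' ⧸ W.submoduleOf W')] : IsFred U W ↔ IsFred U W' := by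
  rw [isFred_comm (U := U) (W := W), isFred_comm (U := U) (W := W')]
  exact isFred_iff_of_le U hWW'

/-- decreasing form of additivity. -/
theorem chi_of_ge (hUU' : U ≤ U') [FiniteDimensional k (↥U' ⧸ U.submoduleOf U')]
    (h : IsFred U' W) : chi U W = chi U' W - colength U U' := by
  rw [chi_of_le W hUU' (IsFred.of_ge W hUU' h)]
  ring

end Add

/-! ### Transitivity of the colength -/

section Trans

variable {U U' U'' : Submodule k V} (h1 : U ≤ U') (h2 : U' ≤ U'')

/-- `U'/U → U''/U`. -/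
def colι : (↥U' ⧸ U.submoduleOf U') →ₗ[k] (↥U'' ⧸ U.submoduleOf U'') :=
  (U.submoduleOf U').mapQ (U.submoduleOf U'') (Submodule.inclusion h2) (by
    intro x hx
    exact hx)

/-- `U''/U → U''/U'`. -/
def colπ : (↥U'' ⧸ U.submoduleOf U'') →ₗ[k] (↥U'' ⧸ U'.submoduleOf U'') :=
  (U.submoduleOf U'').mapQ (U'.submoduleOf U'') LinearMap.id (by
    intro x hx
    exact h1 hx)

theorem colι_mk (x : ↥U') :
    colι (U := U) h2 (Submodule.Quotient.mk x) = Submodule.Quotient.mk ⟨(x : V), h2 x.2⟩ := rfl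

theorem colπ_mk (x : ↥U'') :
    colπ (U'' := U'') h1 (Submodule.Quotient.mk x) = Submodule.Quotient.mk x := rfl

theorem colι_injective : Function.Injective (colι (U := U) h2) := by
  rw [injective_iff_map_eq_zero]
  intro y hy
  obtain ⟨x, rfl⟩ := Submodule.Quotient.mk_surjective _ y
  rw [colι_mk, Submodule.Quotient.mk_eq_zero, mem_submoduleOf_iff] at hy
  rw [Submodule.Quotient.mk_eq_zero, mem_submoduleOf_iff]
  exact hy

theorem colπ_surjective : Function.Surjective (colπ (U'' := U'') h1) := by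
  intro y
  obtain ⟨x, rfl⟩ := Submodule.Quotient.mk_surjective _ y
  exact ⟨Submodule.Quotient.mk x, rfl⟩

theorem range_colι : LinearMap.range (colι (U := U) h2) = LinearMap.ker (colπ (U'' := U'') h1) := by
  ext y
  obtain ⟨x, rfl⟩ := Submodule.Quotient.mk_surjective _ y
  rw [LinearMap.mem_ker, colπ_mk, Submodule.Quotient.mk_eq_zero, mem_submoduleOf_iff]
  constructor
  · rintro ⟨z, hz⟩
    obtain ⟨z, rfl⟩ := Submodule.Quotient.mk_surjective _ z
    rw [colι_mk, Submodule.Quotient.eq, mem_submoduleOf_iff] at hz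
    have hz' : (z : V) - (x : V) ∈ U := hz
    have : (x : V) = (z : V) - ((z : V) - (x : V)) := by abel
    rw [this]
    exact U'.sub_mem z.2 (h1 hz')
  · intro hx
    exact ⟨Submodule.Quotient.mk ⟨(x : V), hx⟩, rfl⟩

include h1 h2 in
/-- finiteness of the big colength from the two small ones. -/
theorem finiteDimensional_colength_trans [FiniteDimensional k (↥U' ⧸ U.submoduleOf U')]
    [FiniteDimensional k (↥U'' ⧸ U'.submoduleOf U'')] :
    FiniteDimensional k (↥U'' ⧸ U.submoduleOf U'') := by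
  haveI : Module.Finite k ↥(LinearMap.ker (colπ (U'' := U'') h1)) := by
    rw [← range_colι h1 h2]
    infer_instance
  haveI : Module.Finite k ((↥U'' ⧸ U.submoduleOf U'') ⧸ LinearMap.ker (colπ (U'' := U'') h1)) :=
    Module.Finite.equiv (colπ (U'' := U'') h1).quotKerEquivRange.symm
  exact Module.Finite.of_submodule_quotient (LinearMap.ker (colπ (U'' := U'') h1))

include h2 in
theorem finiteDimensional_colength_left [FiniteDimensional k (↥U'' ⧸ U.submoduleOf U'')] :
    FiniteDimensional k (↥U' ⧸ U.submoduleOf U') :=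
  FiniteDimensional.of_injective (colι (U := U) h2) (colι_injective h2)

include h1 in
theorem finiteDimensional_colength_right [FiniteDimensional k (↥U'' ⧸ U.submoduleOf U'')] :
    FiniteDimensional k (↥U'' ⧸ U'.submoduleOf U'') :=
  Module.Finite.of_surjective (colπ (U'' := U'') h1) (colπ_surjective h1)

include h1 h2 in
/-- **Transitivity of the colength.** -/
theorem colength_trans [FiniteDimensional k (↥U'' ⧸ U.submoduleOf U'')] :
    colength U U'' = colength U U' + colength U' U'' := by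
  have e := LinearMap.finrank_range_add_finrank_ker (colπ (U'' := U'') h1)
  rw [← range_colι h1 h2, LinearMap.finrank_range_of_inj (colι_injective h2),
    LinearMap.range_eq_top.mpr (colπ_surjective h1), finrank_top] at e
  unfold colength
  omega

end Trans

/-! ### Invariance under a linear automorphism -/

section MapEquiv

variable (φ : V ≃ₗ[k] V) (U U' W : Submodule k V)

theorem chi_map_equiv : chi (U.map (φ : V →ₗ[k] V)) (W.map (φ : V →ₗ[k] V)) = chi U W := by
  unfold chi
  have e1 : (U.map (φ : V →ₗ[k] V) ⊓ W.map (φ : V →ₗ[k] V)) = (U ⊓ W).map (φ : V →ₗ[k] V) :=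
    (Submodule.map_inf (φ : V →ₗ[k] V) φ.injective).symm
  have e2 : (U.map (φ : V →ₗ[k] V) ⊔ W.map (φ : V →ₗ[k] V)) = (U ⊔ W).map (φ : V →ₗ[k] V) :=
    (Submodule.map_sup U W (φ : V →ₗ[k] V)).symm
  rw [e1, e2]
  have h1 : finrank k ↥((U ⊓ W).map (φ : V →ₗ[k] V)) = finrank k ↥(U ⊓ W) :=
    (φ.submoduleMap (U ⊓ W)).symm.finrank_eq
  have h2 : finrank k (V ⧸ (U ⊔ W).map (φ : V →ₗ[k] V)) = finrank k (V ⧸ (U ⊔ W)) :=
    (Submodule.Quotient.equiv (U ⊔ W) ((U ⊔ W).map (φ : V →ₗ[k] V)) φ rfl).symm.finrank_eq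
  rw [h1, h2]

theorem isFred_map_equiv :
    IsFred (U.map (φ : V →ₗ[k] V)) (W.map (φ : V →ₗ[k] V)) ↔ IsFred U W := by
  unfold IsFred
  have e1 : (U.map (φ : V →ₗ[k] V) ⊓ W.map (φ : V →ₗ[k] V)) = (U ⊓ W).map (φ : V →ₗ[k] V) :=
    (Submodule.map_inf (φ : V →ₗ[k] V) φ.injective).symm
  have e2 : (U.map (φ : V →ₗ[k] V) ⊔ W.map (φ : V →ₗ[k] V)) = (U ⊔ W).map (φ : V →ₗ[k] V) :=
    (Submodule.map_sup U W (φ : V →ₗ[k] V)).symm
  rw [e1, e2]
  constructor
  · rintro ⟨h1, h2⟩
    exact ⟨Module.Finite.equiv (φ.submoduleMap (U ⊓ W)).symm,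
      Module.Finite.equiv
        (Submodule.Quotient.equiv (U ⊔ W) ((U ⊔ W).map (φ : V →ₗ[k] V)) φ rfl).symm⟩
  · rintro ⟨h1, h2⟩
    exact ⟨Module.Finite.equiv (φ.submoduleMap (U ⊓ W)),
      Module.Finite.equiv
        (Submodule.Quotient.equiv (U ⊔ W) ((U ⊔ W).map (φ : V →ₗ[k] V)) φ rfl)⟩

end MapEquiv

/-! ### Both sides at once, and the trivial cases -/

section Both

variable {U U' W W' : Submodule k V}

/-- Additivity in both arguments at once. -/
theorem chi_of_le_of_le (hU : U ≤ U') (hW : W ≤ W')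
    [FiniteDimensional k (↥U' ⧸ U.submoduleOf U')]
    [FiniteDimensional k (↥W' ⧸ W.submoduleOf W')] (h : IsFred U W) :
    chi U' W' = chi U W + colength U U' + colength W W' := by
  have h' : IsFred U' W := (isFred_iff_of_le W hU).mp h
  rw [chi_of_le_right U' hW h', chi_of_le W hU h]

theorem isFred_iff_of_le_of_le (hU : U ≤ U') (hW : W ≤ W')
    [FiniteDimensional k (↥U' ⧸ U.submoduleOf U')]
    [FiniteDimensional k (↥W' ⧸ W.submoduleOf W')] : IsFred U W ↔ IsFred U' W' :=
  (isFred_iff_of_le W hU).trans (isFred_iff_of_le_right U' hW)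

end Both

theorem colength_self (U : Submodule k V) : colength U U = 0 := by
  unfold colength
  have : U.submoduleOf U = ⊤ := by
    ext x
    simp [mem_submoduleOf_iff]
  rw [this]
  exact finrank_zero_of_subsingleton

/-- A complementary-sum pair with finite intersection: `chi` is the dimension of the
intersection. -/
theorem chi_of_sup_eq_top {U W : Submodule k V} (h : U ⊔ W = ⊤) :
    chi U W = (finrank k ↥(U ⊓ W) : ℤ) := by
  unfold chi
  rw [h]
  have : finrank k (V ⧸ (⊤ : Submodule k V)) = 0 := finrank_zero_of_subsingleton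
  rw [this]
  simp

theorem isFred_of_sup_eq_top {U W : Submodule k V} (h : U ⊔ W = ⊤)
    [FiniteDimensional k ↥(U ⊓ W)] : IsFred U W := by
  refine ⟨inferInstance, ?_⟩
  rw [h]
  infer_instance

end Fermat.Agent.S16.H85
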