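import Mathlib
import Fermat.Agent.S16.H6_G0Iface
import Fermat.Agent.S16.H85_LatticeChi
import Fermat.Agent.S16.H24_BasePair

/-!
# S16 / (G0), package P3 in the interface vocabulary (`H6_G0Iface`, `H85_LatticeChi`)

`A B : Subalgebra k E` with `A + B = E`, `A ∩ B = k`; `b` an `E`-basis of `F`;
`U₀ = span_A b`, `W₀ = span_B b` as `k`-subspaces of `F`:

* `baseLat_mem_LatK` : `U₀ ∈ LatK A`;
* `isFred_baseLat`, `chi_baseLat` : `IsFred U₀ W₀`, `chi U₀ W₀ = n`;
* `dualK_restrictScalars` : `dualK A U' = (traceForm.dualSubmodule U)'` for every `A`-submodule `U`;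
* `dualK_baseLat` : `dualK A U₀ = span_A (trace dual basis)`;
* `isFred_dualK_baseLat`, `chi_dualK_baseLat` : the dual pair is again a base pair, `chi = n`.
-/

set_option autoImplicit false
set_option linter.unusedSectionVars false

noncomputable section

namespace Fermat.Agent.S16.H24

open Module Submodule
open Fermat.Agent.S16

variable {k E F : Type*} [Field k] [Field E] [Field F] [Algebra k E] [Algebra E F] [Algebra k F]
  [IsScalarTower k E F]

/-- the base lattice `span_A b` as a `k`-subspace. -/
def baseLat (A : Subalgebra k E) {ι : Type*} (b : Basis ι E F) : Submodule k F :=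
  (span ↥A (Set.range b)).restrictScalars k

theorem baseLat_mem_LatK (A : Subalgebra k E) {ι : Type*} [Finite ι] (b : Basis ι E F) :
    baseLat A b ∈ H6.LatK (F := F) A := by
  refine ⟨span ↥A (Set.range b), Submodule.fg_span (Set.finite_range b), ?_, rfl⟩
  rw [Submodule.span_span_of_tower, b.span_eq]

section Pair

variable (A B : Subalgebra k E)
  (hsum : ∀ e : E, ∃ a ∈ A, ∃ c ∈ B, e = a + c)
  (hint : ∀ e : E, e ∈ A → e ∈ B → e ∈ (algebraMap k E).range)
  {ι : Type*} [Fintype ι] (b : Basis ι E F)

include hsum in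
theorem baseLat_sup_eq_top : baseLat A b ⊔ baseLat B b = ⊤ := by
  refine sup_span_eq_top (k := k) (A := ↥A) (O := ↥B) b ?_
  intro f
  obtain ⟨a, ha, c, hc, rfl⟩ := hsum f
  exact ⟨⟨a, ha⟩, ⟨c, hc⟩, rfl⟩

include hint in
theorem baseLat_inf_eq : baseLat A b ⊓ baseLat B b = span k (Set.range b) := by
  refine inf_span_eq (k := k) (A := ↥A) (O := ↥B) b ?_
  intro a o hao
  obtain ⟨c, hc⟩ := hint (a : E) a.2 (by
    have : (a : E) = (o : E) := hao
    rw [this]; exact o.2)
  exact ⟨c, hc.symm⟩

include hsum hint in
theorem isFred_baseLat : H85.IsFred (baseLat A b) (baseLat B b) := by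
  refine ⟨?_, ?_⟩
  · rw [baseLat_inf_eq A B hint b]
    exact FiniteDimensional.span_of_finite k (Set.finite_range b)
  · rw [baseLat_sup_eq_top A B hsum b]
    infer_instance

include hsum hint in
/-- **Base pair**: `chi (span_A b) (span_B b) = n`. -/
theorem chi_baseLat : H85.chi (baseLat A b) (baseLat B b) = Fintype.card ι := by
  unfold H85.chi
  have h1 : finrank k ↥(baseLat A b ⊓ baseLat B b) = Fintype.card ι :=
    finrank_inf_span (k := k) (A := ↥A) (O := ↥B) b (by
      intro a o hao
      obtain ⟨c, hc⟩ := hint (a : E) a.2 (by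
        have : (a : E) = (o : E) := hao
        rw [this]; exact o.2)
      exact ⟨c, hc.symm⟩)
  have h2 : finrank k (F ⧸ (baseLat A b ⊔ baseLat B b)) = 0 := by
    rw [baseLat_sup_eq_top A B hsum b]
    exact finrank_zero_of_subsingleton
  rw [h1, h2]
  simp

end Pair

/-! ### The trace dual -/

/-- `dualK` is the `k`-subspace underlying Mathlib's `dualSubmodule` for the trace form. -/
theorem dualK_restrictScalars (A : Subalgebra k E) (U : Submodule ↥A F) :
    H6.dualK A (U.restrictScalars k) =
      ((Algebra.traceForm E F).dualSubmodule U).restrictScalars k := by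
  ext y
  rw [H6.mem_dualK, Submodule.restrictScalars_mem, LinearMap.BilinForm.mem_dualSubmodule]
  refine forall₂_congr fun u _ => ?_
  rw [Algebra.traceForm_apply, Submodule.mem_one]
  constructor
  · intro h
    exact ⟨⟨_, h⟩, rfl⟩
  · rintro ⟨a, ha⟩
    rw [← ha]
    exact a.2

variable [FiniteDimensional E F] [Algebra.IsSeparable E F]

/-- the trace dual basis. -/
def traceDualBasis {ι : Type*} [Finite ι] [DecidableEq ι] (b : Basis ι E F) : Basis ι E F :=
  (Algebra.traceForm E F).dualBasis (traceForm_nondegenerate E F) b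

/-- **The dual of a base lattice is the base lattice of the dual basis.** -/
theorem dualK_baseLat (A : Subalgebra k E) {ι : Type*} [Finite ι] [DecidableEq ι]
    (b : Basis ι E F) : H6.dualK A (baseLat A b) = baseLat A (traceDualBasis b) := by
  unfold baseLat
  rw [dualK_restrictScalars,
    LinearMap.BilinForm.dualSubmodule_span_of_basis _ (traceForm_nondegenerate E F) b]
  rfl

section DualPair

variable (A B : Subalgebra k E)
  (hsum : ∀ e : E, ∃ a ∈ A, ∃ c ∈ B, e = a + c)
  (hint : ∀ e : E, e ∈ A → e ∈ B → e ∈ (algebraMap k E).range)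
  {ι : Type*} [Fintype ι] [DecidableEq ι] (b : Basis ι E F)

include hsum hint in
theorem isFred_dualK_baseLat :
    H85.IsFred (H6.dualK A (baseLat A b)) (H6.dualK B (baseLat B b)) := by
  rw [dualK_baseLat, dualK_baseLat]
  exact isFred_baseLat A B hsum hint _

include hsum hint in
/-- **Dual base pair**: `chi (U₀^) (W₀^) = n`. -/
theorem chi_dualK_baseLat :
    H85.chi (H6.dualK A (baseLat A b)) (H6.dualK B (baseLat B b)) = Fintype.card ι := by
  rw [dualK_baseLat, dualK_baseLat]
  exact chi_baseLat A B hsum hint _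

include hsum hint in
/-- the constant `c = 2 n` of P4's duality formula at the base pair. -/
theorem chi_add_chi_dualK_baseLat :
    H85.chi (baseLat A b) (baseLat B b) +
      H85.chi (H6.dualK A (baseLat A b)) (H6.dualK B (baseLat B b)) = 2 * Fintype.card ι := by
  rw [chi_baseLat A B hsum hint b, chi_dualK_baseLat A B hsum hint b]
  ring

end DualPair

end Fermat.Agent.S16.H24
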