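import Mathlib
import Fermat.Agent.S16.H6_G0Iface
import Fermat.Agent.S16.H95_PartialL
import Fermat.Agent.S24.H24_RH

/-!
# S16 / (G0): adding the finite and the infinite tame bounds

`Rfin x = partialL {x regular} 0`, `Rinf x = partialL {poles of x} 0`, and for `Ram ≥ 0`,
`Mf ≤ partialL {x regular} Ram`, `Mi ≤ partialL {poles of x} Ram`:

`colen (Rfin x) Mf + colen (Rinf x) Mi ≤ deg Ram`

(split `Ram` into its parts supported on the regular places and on the poles and apply
`H95.finrank_quotient_le_of_le_partialL` twice).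
-/

set_option autoImplicit false

noncomputable section

namespace Fermat.Agent.S16.H24

open AlgebraicCurve
open Fermat.Agent.S16

variable {K F : Type*} [Field K] [Field F] [Algebra K F]

theorem Rfin_eq_partialL (x : F) :
    H6.Rfin K x = H95.partialL {v : Place K F | 0 ≤ v.ord x} 0 := by
  ext f
  rw [H6.mem_Rfin, H95.mem_partialL_zero_iff]
  rfl

theorem Rinf_eq_partialL (x : F) :
    H6.Rinf K x = H95.partialL {v : Place K F | v.ord x < 0} 0 := by
  ext f
  rw [H6.mem_Rinf, H95.mem_partialL_zero_iff]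
  rfl

/-- **Sum of the two tame bounds.** -/
theorem colen_add_colen_le_degree
    (hres : ∀ v : Place K F, Module.Finite K v.ResidueField) (x : F)
    (Ram : Divisor K F) (hRam : ∀ v, 0 ≤ Ram v) (Mf Mi : Submodule K F)
    (hMf : Mf ≤ H95.partialL {v : Place K F | 0 ≤ v.ord x} Ram)
    (hMi : Mi ≤ H95.partialL {v : Place K F | v.ord x < 0} Ram) :
    FiniteDimensional K (↥Mf ⧸ (H6.Rfin K x).submoduleOf Mf) ∧
    FiniteDimensional K (↥Mi ⧸ (H6.Rinf K x).submoduleOf Mi) ∧
    (H6.colen (H6.Rfin K x) Mf : ℤ) + (H6.colen (H6.Rinf K x) Mi : ℤ) ≤ Divisor.degree Ram := by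
  classical
  set Df : Divisor K F := Finsupp.filter (fun v : Place K F => 0 ≤ v.ord x) Ram with hDf
  set Di : Divisor K F := Finsupp.filter (fun v : Place K F => ¬ 0 ≤ v.ord x) Ram with hDi
  have hsum : Df + Di = Ram := Finsupp.filter_add_filter_not Ram _
  have hDf0 : 0 ≤ Df := by
    intro v
    rw [hDf, Finsupp.filter_apply, Finsupp.zero_apply]
    split_ifs
    · exact hRam v
    · exact le_refl _
  have hDi0 : 0 ≤ Di := by
    intro v
    rw [hDi, Finsupp.filter_apply, Finsupp.zero_apply]
    by_cases hv : 0 ≤ v.ord x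
    · rw [if_neg (not_not.mpr hv)]
    · rw [if_pos hv]; exact hRam v
  have hcf : H95.partialL {v : Place K F | 0 ≤ v.ord x} Ram =
      H95.partialL {v : Place K F | 0 ≤ v.ord x} Df := by
    refine H95.partialL_congr fun v hv => ?_
    rw [hDf, Finsupp.filter_apply, if_pos (show 0 ≤ v.ord x from hv)]
  have hci : H95.partialL {v : Place K F | v.ord x < 0} Ram =
      H95.partialL {v : Place K F | v.ord x < 0} Di := by
    refine H95.partialL_congr fun v hv => ?_
    rw [hDi, Finsupp.filter_apply, if_pos (show ¬ 0 ≤ v.ord x from not_le.mpr hv)]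
  have h1 := H95.finrank_quotient_le_of_le_partialL hres _ Df hDf0 Mf (hcf ▸ hMf)
  have h2 := H95.finrank_quotient_le_of_le_partialL hres _ Di hDi0 Mi (hci ▸ hMi)
  rw [← Rfin_eq_partialL] at h1
  rw [← Rinf_eq_partialL] at h2
  refine ⟨h1.1, h2.1, ?_⟩
  have hdeg : Divisor.degree Ram = Divisor.degree Df + Divisor.degree Di := by
    rw [← hsum, map_add]
  rw [hdeg]
  unfold H6.colen
  exact add_le_add h1.2 h2.2

/-- a divisor with the values `e_v - 1` of the ramification divisor is effective. -/
theorem ram_nonneg {x : F} {n : ℕ} (h : Fermat.Agent.S24.H24.RH.Data (K := K) x n)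
    (Ram : Divisor K F)
    (hfin : ∀ (v : Place K F) (a : K), 0 < v.ord (x - algebraMap K F a) →
      Ram v = v.ord (x - algebraMap K F a) - 1)
    (hpole : ∀ v : Place K F, v.ord x < 0 → Ram v = - v.ord x - 1) (v : Place K F) :
    0 ≤ Ram v := by
  rcases h.value v with hv | ⟨a, ha⟩
  · rw [hpole v hv]; omega
  · rw [hfin v a ha]; omega

end Fermat.Agent.S16.H24
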