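import Mathlib
import Fermat.Agent.S24.H24_Main
import Fermat.Agent.S24.H40_M123
import Fermat.Agent.S24.H76_Closed
import Fermat.Agent.RR.H76_InstFN

/-!
# S16 / (G0), package P7: the `S24` instance of the Riemann–Hurwitz inequality

* `RH.Data.exists_ramDivisor` (abstract, `S24` vocabulary `H24.RH.Data x n`): the ramification
  divisor `Ram` of `x` (`Ram v = e_v - 1`, `e_v = ord_v (x - a)` at a zero of `x - a`,
  `e_v = - ord_v x` at a pole) exists and
  `deg Ram = ∑_{a ∈ S} (n - #fib a) + (n - #poles)` if `x` is unramified outside `S ∪ {∞}`.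
* `two_mul_genusFormula_sub_two` : for `F = modularFunctionFieldBar N`, `x = jBar N`
  this number is `2 * genusFormula N - 2 + 2 ψ(N)` (the `S24` fibre counts + Ree parity).
* `gR_FN_le_genusFormula_of_RH` : hence the Riemann–Hurwitz *inequality*
  `2 gR - 2 + 2 n ≤ deg Ram` for the Riemann genus `gR` of the RR bank gives
  `gR (F_N / ℚ̄) ≤ genusFormula N`.
-/

set_option autoImplicit false

noncomputable section

namespace Fermat.Agent.S16.H24

open AlgebraicCurve ModularCurve IntermediateField UpperHalfPlane
open Fermat.Agent.S24 Fermat.Agent.S24.H24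
open scoped MatrixGroups

section Abstract

variable {K F : Type*} [Field K] [Field F] [Algebra K F]

open Classical in
/-- the ramification index minus one of `x` at the place `v`. -/
def ramFun (x : F) (v : Place K F) : ℤ :=
  if v.ord x < 0 then - v.ord x - 1
  else if h : ∃ a : K, 0 < v.ord (x - algebraMap K F a) then
    v.ord (x - algebraMap K F h.choose) - 1
  else 0

theorem ramFun_of_pole (x : F) (v : Place K F) (hv : v.ord x < 0) :
    ramFun (K := K) x v = - v.ord x - 1 := by
  unfold ramFun
  rw [if_pos hv]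

theorem ramFun_of_fib (x : F) (v : Place K F) (a : K)
    (hv : 0 < v.ord (x - algebraMap K F a)) :
    ramFun (K := K) x v = v.ord (x - algebraMap K F a) - 1 := by
  unfold ramFun
  rw [if_neg (RH.not_pole_of_fib x v hv)]
  have hex : ∃ a : K, 0 < v.ord (x - algebraMap K F a) := ⟨a, hv⟩
  rw [dif_pos hex]
  rw [RH.value_unique x v hex.choose_spec hv]

variable {x : F} {n : ℕ}

/-- **The ramification divisor** of `x` and its degree. -/
theorem exists_ramDivisor (h : RH.Data (K := K) x n) (S : Finset K)
    (hunr : ∀ (v : Place K F) (a : K), a ∉ S → 0 < v.ord (x - algebraMap K F a) →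
      v.ord (x - algebraMap K F a) = 1) :
    ∃ Ram : Divisor K F,
      (∀ (v : Place K F) (a : K), 0 < v.ord (x - algebraMap K F a) →
        Ram v = v.ord (x - algebraMap K F a) - 1) ∧
      (∀ v : Place K F, v.ord x < 0 → Ram v = - v.ord x - 1) ∧
      Divisor.degree Ram = ∑ a ∈ S, ((n : ℤ) - ((h.fib_finite a).toFinset.card : ℤ))
        + ((n : ℤ) - (h.poles_finite.toFinset.card : ℤ)) := by
  classical
  set P := h.poles_finite.toFinset with hP
  set Fb : K → Finset (Place K F) := fun a => (h.fib_finite a).toFinset with hFb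
  set T := P ∪ S.biUnion Fb with hTdef
  have hmemT : ∀ v : Place K F, ramFun (K := K) x v ≠ 0 → v ∈ T := by
    intro v hv
    rcases h.value v with hpole | ⟨a, ha⟩
    · exact Finset.mem_union_left _ (by simpa [hP, RH.poles] using hpole)
    · by_cases haS : a ∈ S
      · refine Finset.mem_union_right _ (Finset.mem_biUnion.mpr ⟨a, haS, ?_⟩)
        simpa [hFb, RH.fib] using ha
      · exfalso
        apply hv
        rw [ramFun_of_fib x v a ha, hunr v a haS ha]; rfl
  set Ram : Divisor K F := Finsupp.onFinset T (ramFun (K := K) x) (fun v hv => hmemT v hv)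
    with hRam
  have hRamv : ∀ v, Ram v = ramFun (K := K) x v := fun v => Finsupp.onFinset_apply
  refine ⟨Ram, fun v a ha => by rw [hRamv, ramFun_of_fib x v a ha],
    fun v hv => by rw [hRamv, ramFun_of_pole x v hv], ?_⟩
  have hsupp : Ram.support ⊆ T := Finsupp.support_onFinset_subset
  rw [h.degree_eq_sum Ram T hsupp]
  have hdisj1 : Disjoint P (S.biUnion Fb) := by
    rw [Finset.disjoint_left]
    intro v hvP hvF
    obtain ⟨a, _, hva⟩ := Finset.mem_biUnion.mp hvF
    have h1 : v.ord x < 0 := by simpa [hP, RH.poles] using hvP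
    have h2 : 0 < v.ord (x - algebraMap K F a) := by simpa [hFb, RH.fib] using hva
    exact RH.not_pole_of_fib x v h2 h1
  have hdisj2 : (S : Set K).PairwiseDisjoint Fb := by
    intro a _ b _ hab
    rw [Function.onFun, Finset.disjoint_left]
    intro v hva hvb
    have h1 : 0 < v.ord (x - algebraMap K F a) := by simpa [hFb, RH.fib] using hva
    have h2 : 0 < v.ord (x - algebraMap K F b) := by simpa [hFb, RH.fib] using hvb
    exact hab (RH.value_unique x v h1 h2)
  rw [Finset.sum_union hdisj1, Finset.sum_biUnion hdisj2]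
  have hpoles : ∑ v ∈ P, Ram v = (n : ℤ) - (P.card : ℤ) := by
    have : ∀ v ∈ P, Ram v = - v.ord x - 1 := by
      intro v hv
      have h1 : v.ord x < 0 := by simpa [hP, RH.poles] using hv
      rw [hRamv, ramFun_of_pole x v h1]
    rw [Finset.sum_congr rfl this, Finset.sum_sub_distrib, Finset.sum_neg_distrib, h.poles_sum]
    simp
  have hfibs : ∀ a ∈ S, ∑ v ∈ Fb a, Ram v = (n : ℤ) - ((Fb a).card : ℤ) := by
    intro a _
    have : ∀ v ∈ Fb a, Ram v = v.ord (x - algebraMap K F a) - 1 := by
      intro v hv
      have h1 : 0 < v.ord (x - algebraMap K F a) := by simpa [hFb, RH.fib] using hv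
      rw [hRamv, ramFun_of_fib x v a h1]
    rw [Finset.sum_congr rfl this, Finset.sum_sub_distrib, h.fib_sum a]
    simp
  rw [hpoles, Finset.sum_congr rfl hfibs]
  ring

/-- Any divisor with the pointwise values of the ramification divisor has that degree. -/
theorem degree_eq_of_ram (h : RH.Data (K := K) x n) (S : Finset K)
    (hunr : ∀ (v : Place K F) (a : K), a ∉ S → 0 < v.ord (x - algebraMap K F a) →
      v.ord (x - algebraMap K F a) = 1)
    (Ram : Divisor K F)
    (hfin : ∀ (v : Place K F) (a : K), 0 < v.ord (x - algebraMap K F a) →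
        Ram v = v.ord (x - algebraMap K F a) - 1)
    (hpole : ∀ v : Place K F, v.ord x < 0 → Ram v = - v.ord x - 1) :
    Divisor.degree Ram = ∑ a ∈ S, ((n : ℤ) - ((h.fib_finite a).toFinset.card : ℤ))
        + ((n : ℤ) - (h.poles_finite.toFinset.card : ℤ)) := by
  obtain ⟨Ram', hfin', hpole', hdeg'⟩ := exists_ramDivisor h S hunr
  have : Ram = Ram' := by
    ext v
    rcases h.value v with hv | ⟨a, ha⟩
    · rw [hpole v hv, hpole' v hv]
    · rw [hfin v a ha, hfin' v a ha]
  rw [this, hdeg']

end Abstract

/-! ### The instance `F = modularFunctionFieldBar N`, `x = jBar N` -/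

section Instance

variable (N : ℕ) [NeZero N]

/-- the `S24` Riemann–Hurwitz data of `jBar N`, unconditionally. -/
theorem rhData_FN : RH.Data (K := Qbar) (jBar N) (Fintype.card (XN N)) := by
  have := H40.finiteDimensional_FN N
  exact rhData_jBar N (H40.finrank_FN_eq_natCard N)

/-- `j` is unramified outside `0, 1728, ∞` (`S24`, M4). -/
theorem hunr_FN (v : Place Qbar (FN N)) (a : Qbar) (ha0 : a ≠ 0) (ha1 : a ≠ 1728)
    (hv : 0 < v.ord (jBar N - algebraMap Qbar (FN N) a)) :
    v.ord (jBar N - algebraMap Qbar (FN N) a) = 1 :=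
  (H76.modInputs_final N).hunr v a ha0 ha1 hv

/-- **The `S24` count without differentials**: the total ramification of `j` on `X₀(N)` is
`2 * genusFormula N - 2 + 2 ψ(N)`. -/
theorem ram_count_FN :
    ((((Fintype.card (XN N) : ℤ) - (((rhData_FN N).fib_finite 0).toFinset.card : ℤ))
      + ((Fintype.card (XN N) : ℤ) - (((rhData_FN N).fib_finite 1728).toFinset.card : ℤ))
      + ((Fintype.card (XN N) : ℤ) - ((rhData_FN N).poles_finite.toFinset.card : ℤ)) : ℤ) : ℚ)
      = 2 * genusFormula N - 2 + 2 * (dedekindPsi N : ℚ) := by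
  classical
  have hData := rhData_FN N
  have hM := H76.modInputs_final N
  have h0 := hM.card_fib_zero hData
  have h1728 := hM.card_fib_1728 hData
  have hinf := hM.card_poles hData
  have hpsi := card_XN_eq_dedekindPsi N
  have hfixS := numFixed_S_eq_nuTwo N
  have hfixST := numFixed_ST_eq_nuThree N
  have hcusp := orb_T_eq_cuspCount' N
  have h2 := H37.two_mul_natCard_orbits (perm N ModularGroup.S) (perm_S_sq N)
  have h3 := H37.three_mul_natCard_orbits (perm N (ModularGroup.S * ModularGroup.T))
    (perm_ST_cube N)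
  rw [hfixS] at h2
  rw [hfixST] at h3
  -- the three cardinalities
  have e2 : (2 : ℚ) * ((hData.fib_finite 1728).toFinset.card : ℚ)
      = Fintype.card (XN N) + nuTwo N := by
    have : 2 * (hData.fib_finite 1728).toFinset.card = Fintype.card (XN N) + nuTwo N := by
      rw [h1728]; exact h2
    exact_mod_cast this
  have e3 : (3 : ℚ) * ((hData.fib_finite 0).toFinset.card : ℚ)
      = Fintype.card (XN N) + 2 * nuThree N := by
    have : 3 * (hData.fib_finite 0).toFinset.card = Fintype.card (XN N) + 2 * nuThree N := by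
      rw [h0]; exact h3
    exact_mod_cast this
  have e4 : ((hData.poles_finite.toFinset.card : ℕ) : ℚ) = cuspCount N := by
    have : hData.poles_finite.toFinset.card = cuspCount N := by rw [hinf]; exact hcusp
    exact_mod_cast this
  have e5 : ((Fintype.card (XN N) : ℕ) : ℚ) = dedekindPsi N := by exact_mod_cast hpsi
  rw [genusFormula]
  push_cast
  rw [← e5, ← e4]
  linarith

/-- **(G0), package P7.** The Riemann–Hurwitz inequality for the Riemann genus `gR` of the
RR bank, at `F = modularFunctionFieldBar N`, `x = jBar N`, gives `gR ≤ genusFormula N`. -/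
theorem gR_FN_le_genusFormula_of_RH
    (hRH : ∀ Ram : Divisor Qbar (FN N),
      (∀ (v : Place Qbar (FN N)) (a : Qbar), 0 < v.ord (jBar N - algebraMap Qbar (FN N) a) →
        Ram v = v.ord (jBar N - algebraMap Qbar (FN N) a) - 1) →
      (∀ v : Place Qbar (FN N), v.ord (jBar N) < 0 → Ram v = - v.ord (jBar N) - 1) →
      2 * (RR.H76.ffBase_FN N).gR - 2 + 2 * (dedekindPsi N : ℤ) ≤ Divisor.degree Ram) :
    (((RR.H76.ffBase_FN N).gR : ℤ) : ℚ) ≤ genusFormula N := by
  classical
  have hne : (0 : Qbar) ≠ 1728 := by norm_num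
  obtain ⟨Ram, hfin, hpole, hdeg⟩ :=
    exists_ramDivisor (rhData_FN N) ({0, 1728} : Finset Qbar)
      (fun v a ha => hunr_FN N v a (fun h => ha (by simp [h])) (fun h => ha (by simp [h])))
  have h1 := hRH Ram hfin hpole
  rw [hdeg, Finset.sum_pair hne] at h1
  have h2 := ram_count_FN N
  have h3 : ((2 * (RR.H76.ffBase_FN N).gR - 2 + 2 * (dedekindPsi N : ℤ) : ℤ) : ℚ) ≤
      2 * genusFormula N - 2 + 2 * (dedekindPsi N : ℚ) := by
    rw [← h2]
    exact_mod_cast h1
  push_cast at h3
  linarith

end Instance

end Fermat.Agent.S16.H24
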