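import Mathlib
import Fermat.Agent.S16.H24_GenusBridge
import Fermat.Agent.S16.H24_G0RamSum

/-!
# S16 / (G0): the last step for `F = modularFunctionFieldBar N`, `x = jBar N`

From
* `hasm` : the assembled duality inequality
  `2 gR - 2 + 2 n ≤ colen Rfin (dualK Afin Rfin) + colen Rinf (dualK Binf Rinf)`,
* `hfinside`, `hinfside` : the two pointwise tame bounds
  (`dualK Afin Rfin ≤ partialL {x regular} Ram`, `dualK Binf Rinf ≤ partialL {poles} Ram`),

deduce `gR (F_N / ℚ̄) ≤ genusFormula N`.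
-/

set_option autoImplicit false

noncomputable section

namespace Fermat.Agent.S16.H24

open AlgebraicCurve ModularCurve IntermediateField
open Fermat.Agent.S16 Fermat.Agent.S24 Fermat.Agent.S24.H24

/-- abstract form: `hasm` + the two tame bounds give the Riemann–Hurwitz inequality for `gR`. -/
theorem rh_inequality_of_parts {K F : Type*} [Field K] [Field F] [Algebra K F]
    (hres : ∀ v : Place K F, Module.Finite K v.ResidueField)
    (x : F) (n : ℕ) (g : ℤ) (hData : RH.Data (K := K) x n)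
    (hasm : 2 * g - 2 + 2 * (n : ℤ) ≤
      (H6.colen (H6.Rfin K x) (H6.dualK (H6.Afin K x) (H6.Rfin K x)) : ℤ) +
        (H6.colen (H6.Rinf K x) (H6.dualK (H6.Binf K x) (H6.Rinf K x)) : ℤ))
    (Ram : Divisor K F)
    (hfin : ∀ (v : Place K F) (a : K), 0 < v.ord (x - algebraMap K F a) →
      Ram v = v.ord (x - algebraMap K F a) - 1)
    (hpole : ∀ v : Place K F, v.ord x < 0 → Ram v = - v.ord x - 1)
    (hfinside : H6.dualK (H6.Afin K x) (H6.Rfin K x) ≤
      H95.partialL {v : Place K F | 0 ≤ v.ord x} Ram)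
    (hinfside : H6.dualK (H6.Binf K x) (H6.Rinf K x) ≤
      H95.partialL {v : Place K F | v.ord x < 0} Ram) :
    2 * g - 2 + 2 * (n : ℤ) ≤ Divisor.degree Ram := by
  have h := colen_add_colen_le_degree hres x Ram (ram_nonneg hData Ram hfin hpole) _ _
    hfinside hinfside
  exact le_trans hasm h.2.2

/-- **(G0) for `F_N`** from the assembled inequality and the two tame bounds. -/
theorem gR_FN_le_genusFormula_of_parts (N : ℕ) [NeZero N]
    (hasm : 2 * (RR.H76.ffBase_FN N).gR - 2 + 2 * (dedekindPsi N : ℤ) ≤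
      (H6.colen (H6.Rfin Qbar (jBar N))
          (H6.dualK (H6.Afin Qbar (jBar N)) (H6.Rfin Qbar (jBar N))) : ℤ) +
        (H6.colen (H6.Rinf Qbar (jBar N))
          (H6.dualK (H6.Binf Qbar (jBar N)) (H6.Rinf Qbar (jBar N))) : ℤ))
    (hfinside : ∀ Ram : Divisor Qbar (FN N),
      (∀ (v : Place Qbar (FN N)) (a : Qbar), 0 < v.ord (jBar N - algebraMap Qbar (FN N) a) →
        Ram v = v.ord (jBar N - algebraMap Qbar (FN N) a) - 1) →
      H6.dualK (H6.Afin Qbar (jBar N)) (H6.Rfin Qbar (jBar N)) ≤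
        H95.partialL {v : Place Qbar (FN N) | 0 ≤ v.ord (jBar N)} Ram)
    (hinfside : ∀ Ram : Divisor Qbar (FN N),
      (∀ v : Place Qbar (FN N), v.ord (jBar N) < 0 → Ram v = - v.ord (jBar N) - 1) →
      H6.dualK (H6.Binf Qbar (jBar N)) (H6.Rinf Qbar (jBar N)) ≤
        H95.partialL {v : Place Qbar (FN N) | v.ord (jBar N) < 0} Ram) :
    (((RR.H76.ffBase_FN N).gR : ℤ) : ℚ) ≤ genusFormula N := by
  refine gR_FN_le_genusFormula_of_RH N fun Ram hfin hpole => ?_
  have hData := rhData_FN N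
  have hn : Fintype.card (XN N) = dedekindPsi N := card_XN_eq_dedekindPsi N
  have := rh_inequality_of_parts (RR.H76.ffBase_FN N).finRes (jBar N) (Fintype.card (XN N))
    (RR.H76.ffBase_FN N).gR hData (by rw [hn]; exact hasm) Ram hfin hpole
    (hfinside Ram hfin) (hinfside Ram hpole)
  rwa [hn] at this

end Fermat.Agent.S16.H24
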