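import Mathlib
import Fermat.Agent.RR.H76_Riemann

/-!
# S16 / (U2b)-alt, step (F): the global count `∑ eps_x ≤ 2 g` in characteristic 2

Abstract form over the RR bank.  `F / k` a function field (`H76.FFBase k F`), `char F = 2`,
`k` perfect, all places of degree one; `θ : F → F` additive with the Leibniz rule, `θ J = J`,
`F = F² + J F²`.  For zeros `x` of `J` of even order with uniformisers `t x` such that
`θ` maps the local ring `O_x` into `θ (t x) • O_x`:

`∑_x (ord_x J - ord_x (θ (t x))) ≤ ∑_{c pole of J} (1 - ord_c J) - 2 + 2 g`.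

(For two poles of orders `1`, `p` and `∑_x ord_x J = p + 1` this is `∑_x eps_x ≤ 2 g`,
`eps_x := - ord_x (θ (t x)) = ord_x (dJ / J)`.)
-/

set_option autoImplicit false

noncomputable section

open AlgebraicCurve WithZero

namespace Fermat.Agent.S16.H24

open Fermat.Agent.RR Fermat.Agent.RR.H76

variable {k F : Type*} [Field k] [Field F] [Algebra k F]

/-! ### `ord` calculus -/

section OrdLemmas

variable (v : Place k F)

theorem ord_eq_of_val_eq {f g : F} (h : v.adicValuation f = v.adicValuation g) :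
    v.ord f = v.ord g := by
  unfold Place.ord
  rw [h]

/-- strict ultrametric equality. -/
theorem ord_add_eq_of_lt {f g : F} (hf : f ≠ 0) (hg : g = 0 ∨ v.ord f < v.ord g) :
    f + g ≠ 0 ∧ v.ord (f + g) = v.ord f := by
  rcases eq_or_ne g 0 with rfl | hg0
  · simp [hf]
  have hlt := hg.resolve_left hg0
  have hval : v.adicValuation g < v.adicValuation f := by
    rw [v.adicValuation_eq_exp_neg_ord hf, v.adicValuation_eq_exp_neg_ord hg0, exp_lt_exp]
    omega
  have h := Valuation.map_add_eq_of_lt_left v.adicValuation hval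
  refine ⟨fun h0 => ?_, ord_eq_of_val_eq v h⟩
  rw [h0, map_zero] at h
  exact v.adicValuation_ne_zero hf h.symm

theorem ord_algebraMap {c : k} (hc : c ≠ 0) : v.ord (algebraMap k F c) = 0 := by
  have h1 := v.adicValuation_algebraMap_le_one c
  have h2 := v.adicValuation_algebraMap_le_one c⁻¹
  have hc' : algebraMap k F c ≠ 0 := by simpa using hc
  rw [map_inv₀, map_inv₀] at h2
  rw [v.adicValuation_eq_exp_neg_ord hc'] at h1 h2
  rw [← exp_zero, exp_le_exp] at h1
  rw [← exp_neg, ← exp_zero, exp_le_exp] at h2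
  omega

theorem ord_pow (f : F) (n : ℕ) : v.ord (f ^ n) = n * v.ord f := by
  have := v.ord_zpow f (n : ℤ)
  rwa [zpow_natCast] at this

theorem ord_smul {c : k} (hc : c ≠ 0) {f : F} (hf : f ≠ 0) : v.ord (c • f) = v.ord f := by
  rw [Algebra.smul_def, v.ord_mul (by simpa using hc) hf, ord_algebraMap v hc, zero_add]

theorem x_ord_mul_aux {f g : F} (hf : f ≠ 0) (hg : g ≠ 0) :
    v.ord (f * g) = v.ord f + v.ord g := v.ord_mul hf hg

theorem ord_div {f g : F} (hf : f ≠ 0) (hg : g ≠ 0) : v.ord (f / g) = v.ord f - v.ord g := by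
  rw [div_eq_mul_inv, v.ord_mul hf (inv_ne_zero hg), v.ord_inv]
  ring

end OrdLemmas


/-! ### Additive Leibniz maps in characteristic 2 -/

section Deriv

variable [CharP F 2] (θ : F → F) (hadd : ∀ a b, θ (a + b) = θ a + θ b)
  (hmul : ∀ a b, θ (a * b) = a * θ b + θ a * b)

include hadd in
theorem theta_zero : θ 0 = 0 := by
  have := hadd 0 0
  rw [add_zero] at this
  exact left_eq_add.mp this

include hmul in
theorem theta_sq (a : F) : θ (a ^ 2) = 0 := by
  rw [pow_two, hmul, mul_comm (θ a) a]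
  exact CharTwo.add_self_eq_zero _

include hmul in
theorem theta_mul_sq (a s : F) : θ (a * s ^ 2) = θ a * s ^ 2 := by
  rw [hmul, theta_sq θ hmul, mul_zero, zero_add]

include hadd hmul in
theorem theta_sum {ι : Type*} (s : Finset ι) (f : ι → F) :
    θ (∑ i ∈ s, f i) = ∑ i ∈ s, θ (f i) := by
  classical
  induction s using Finset.induction_on with
  | empty => simpa using theta_zero θ hadd
  | insert a s ha ih => rw [Finset.sum_insert ha, Finset.sum_insert ha, hadd, ih]

variable {J : F} (hJ0 : J ≠ 0) (hθJ : θ J = J)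

include hadd hmul hθJ in
theorem theta_dec (a b : F) : θ (a ^ 2 + J * b ^ 2) = J * b ^ 2 := by
  rw [hadd, theta_sq θ hmul, zero_add, theta_mul_sq θ hmul, hθJ]

include hadd hmul hJ0 hθJ in
theorem dec_eq_zero {a b : F} (h : a ^ 2 + J * b ^ 2 = 0) : a = 0 ∧ b = 0 := by
  have h1 := theta_dec θ hadd hmul hθJ a b
  rw [h, theta_zero θ hadd] at h1
  have hb : b = 0 := by
    rcases mul_eq_zero.mp h1.symm with h2 | h2
    · exact absurd h2 hJ0
    · exact pow_eq_zero_iff (two_ne_zero) |>.mp h2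
  refine ⟨?_, hb⟩
  rw [hb] at h
  simpa using h

variable (hdec : ∀ y : F, ∃ a b : F, y = a ^ 2 + J * b ^ 2)

include hadd hmul hθJ hdec in
theorem theta_theta (y : F) : θ (θ y) = θ y := by
  obtain ⟨a, b, rfl⟩ := hdec y
  rw [theta_dec θ hadd hmul hθJ, theta_mul_sq θ hmul, hθJ]

include hadd hmul hJ0 hθJ hdec in
theorem exists_sq_of_theta_eq_zero {y : F} (h : θ y = 0) : ∃ a : F, y = a ^ 2 := by
  obtain ⟨a, b, rfl⟩ := hdec y
  rw [theta_dec θ hadd hmul hθJ] at h
  have hb : b = 0 := by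
    rcases mul_eq_zero.mp h with h2 | h2
    · exact absurd h2 hJ0
    · exact pow_eq_zero_iff (two_ne_zero) |>.mp h2
  exact ⟨a, by rw [hb]; ring⟩

include hadd hmul hθJ hdec in
/-- `θ y / J` is always a square. -/
theorem exists_theta_eq_mul_sq (y : F) : ∃ b : F, θ y = J * b ^ 2 := by
  obtain ⟨a, b, rfl⟩ := hdec y
  exact ⟨b, theta_dec θ hadd hmul hθJ a b⟩

variable (hk : ∀ c : k, ∃ d : k, d ^ 2 = c)

include hmul hk in
theorem theta_algebraMap (c : k) : θ (algebraMap k F c) = 0 := by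
  obtain ⟨d, rfl⟩ := hk c
  rw [map_pow]
  exact theta_sq θ hmul _

include hmul hk in
theorem theta_smul (c : k) (y : F) : θ (c • y) = c • θ y := by
  rw [Algebra.smul_def, hmul, theta_algebraMap θ hmul hk, zero_mul, add_zero, Algebra.smul_def]

end Deriv


/-! ### Local analysis at a place with a uniformiser `t` such that `θ O_x ⊆ θ t • O_x` -/

section Local

variable [CharP F 2] (θ : F → F) (hadd : ∀ a b, θ (a + b) = θ a + θ b)
  (hmul : ∀ a b, θ (a * b) = a * θ b + θ a * b)
  {J : F} (hJ0 : J ≠ 0) (hθJ : θ J = J)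
  (hdec : ∀ y : F, ∃ a b : F, y = a ^ 2 + J * b ^ 2)
  (x : Place k F) {t : F} (ht : x.ord t = 1)

include ht in
theorem unif_ne_zero : t ≠ 0 := by
  rintro rfl
  simp at ht

include hadd hmul hJ0 hθJ hdec ht in
theorem theta_unif_ne_zero : θ t ≠ 0 := by
  intro h
  obtain ⟨a, ha⟩ := exists_sq_of_theta_eq_zero θ hadd hmul hJ0 hθJ hdec h
  have h1 := ord_pow x a 2
  rw [← ha, ht] at h1
  omega

include hadd hmul hJ0 hθJ hdec ht in
/-- `ord_x (θ t) ≡ ord_x J (mod 2)`. -/
theorem even_ord_J_sub_ord_theta_unif : Even (x.ord J - x.ord (θ t)) := by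
  have hφ := theta_unif_ne_zero θ hadd hmul hJ0 hθJ hdec x ht
  have h1 : θ (J / θ t) = 0 := by
    have e : J / θ t = (J * θ t) * ((θ t)⁻¹) ^ 2 := by
      field_simp
    rw [e, theta_mul_sq θ hmul, hmul, theta_theta θ hadd hmul hθJ hdec, hθJ,
      CharTwo.add_self_eq_zero, zero_mul]
  obtain ⟨a, ha⟩ := exists_sq_of_theta_eq_zero θ hadd hmul hJ0 hθJ hdec h1
  have h2 := ord_pow x a 2
  rw [← ha, ord_div x hJ0 hφ] at h2
  exact ⟨x.ord a, by rw [h2]; push_cast; ring⟩

variable (hθO : ∀ f : F, (f = 0 ∨ 0 ≤ x.ord f) → (θ f = 0 ∨ x.ord (θ t) ≤ x.ord (θ f)))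

include hadd hmul hJ0 hθJ hdec ht hθO in
/-- `θ (t g)` for `g` regular at `x`. -/
theorem theta_unif_mul {g : F} (hg0 : g ≠ 0) (hg : 0 ≤ x.ord g) :
    θ (t * g) = 0 ∨ x.ord (θ t) ≤ x.ord (θ (t * g)) := by
  have ht0 := unif_ne_zero x ht
  have hφ := theta_unif_ne_zero θ hadd hmul hJ0 hθJ hdec x ht
  rw [hmul]
  apply le_ord_add
  · rcases hθO g (Or.inr hg) with h | h
    · left; rw [h, mul_zero]
    · rcases eq_or_ne (θ g) 0 with h0 | h0
      · left; rw [h0, mul_zero]
      · right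
        rw [x.ord_mul ht0 h0, ht]
        omega
  · right
    rw [x.ord_mul hφ hg0]
    omega

include hadd hmul hJ0 hθJ hdec ht hθO in
theorem theta_unif_mul_unit {g : F} (hg0 : g ≠ 0) (hg : x.ord g = 0) :
    θ (t * g) ≠ 0 ∧ x.ord (θ (t * g)) = x.ord (θ t) := by
  have ht0 := unif_ne_zero x ht
  have hφ := theta_unif_ne_zero θ hadd hmul hJ0 hθJ hdec x ht
  rw [hmul, add_comm]
  have h1 : θ t * g ≠ 0 := mul_ne_zero hφ hg0
  have h2 : x.ord (θ t * g) = x.ord (θ t) := by rw [x.ord_mul hφ hg0, hg, add_zero]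
  have := ord_add_eq_of_lt x (f := θ t * g) (g := t * θ g) h1 (by
    rcases hθO g (Or.inr hg.ge) with h | h
    · left; rw [h, mul_zero]
    · rcases eq_or_ne (θ g) 0 with h0 | h0
      · left; rw [h0, mul_zero]
      · right
        rw [h2, x.ord_mul ht0 h0, ht]
        omega)
  rw [h2] at this
  exact this

include hadd hmul hJ0 hθJ hdec ht hθO in
/-- (A): exact order of `θ y` when `ord_x y` is odd. -/
theorem ord_theta_of_ord_odd {y : F} (hy0 : y ≠ 0) (m : ℤ) (hy : x.ord y = 2 * m + 1) :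
    θ y ≠ 0 ∧ x.ord (θ y) = 2 * m + x.ord (θ t) := by
  have ht0 := unif_ne_zero x ht
  set s : F := t ^ m with hs
  have hs0 : s ≠ 0 := zpow_ne_zero _ ht0
  have hsord : x.ord s = m := by rw [hs, x.ord_zpow, ht, mul_one]
  set g : F := y / (t * s ^ 2) with hg
  have hts : t * s ^ 2 ≠ 0 := mul_ne_zero ht0 (pow_ne_zero _ hs0)
  have hg0 : g ≠ 0 := div_ne_zero hy0 hts
  have hgord : x.ord g = 0 := by
    rw [hg, ord_div x hy0 hts, x.ord_mul ht0 (pow_ne_zero _ hs0), ord_pow, hsord, ht, hy]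
    push_cast; ring
  have hy' : y = (t * g) * s ^ 2 := by
    rw [hg]; field_simp
  obtain ⟨h1, h2⟩ := theta_unif_mul_unit θ hadd hmul hJ0 hθJ hdec x ht hθO hg0 hgord
  rw [hy', theta_mul_sq θ hmul]
  refine ⟨mul_ne_zero h1 (pow_ne_zero _ hs0), ?_⟩
  rw [x.ord_mul h1 (pow_ne_zero _ hs0), h2, ord_pow, hsord]
  push_cast; ring

include hadd hmul hJ0 hθJ hdec ht hθO in
/-- (B): continuity of `θ` at `x`. -/
theorem le_ord_theta_of_le_ord {y : F} (m : ℤ) (hy : y = 0 ∨ 2 * m + 1 ≤ x.ord y) :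
    θ y = 0 ∨ 2 * m + x.ord (θ t) ≤ x.ord (θ y) := by
  rcases eq_or_ne y 0 with rfl | hy0
  · left; exact theta_zero θ hadd
  have hy1 := hy.resolve_left hy0
  have ht0 := unif_ne_zero x ht
  set s : F := t ^ m with hs
  have hs0 : s ≠ 0 := zpow_ne_zero _ ht0
  have hsord : x.ord s = m := by rw [hs, x.ord_zpow, ht, mul_one]
  set g : F := y / (t * s ^ 2) with hg
  have hts : t * s ^ 2 ≠ 0 := mul_ne_zero ht0 (pow_ne_zero _ hs0)
  have hg0 : g ≠ 0 := div_ne_zero hy0 hts
  have hgord : 0 ≤ x.ord g := by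
    rw [hg, ord_div x hy0 hts, x.ord_mul ht0 (pow_ne_zero _ hs0), ord_pow, hsord, ht]
    push_cast; linarith
  have hy' : y = (t * g) * s ^ 2 := by
    rw [hg]; field_simp
  rw [hy', theta_mul_sq θ hmul]
  rcases theta_unif_mul θ hadd hmul hJ0 hθJ hdec x ht hθO hg0 hgord with h | h
  · left; rw [h, zero_mul]
  · rcases eq_or_ne (θ (t * g)) 0 with h0 | h0
    · left; rw [h0, zero_mul]
    · right
      rw [x.ord_mul h0 (pow_ne_zero _ hs0), ord_pow, hsord]
      push_cast; linarith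

end Local


/-! ### Two linear-independence lemmas -/

section Indep

theorem ord_sum_ge (v : Place k F) {ι : Type*} (s : Finset ι) (f : ι → F) (n : ℤ)
    (hf : ∀ i ∈ s, f i = 0 ∨ n ≤ v.ord (f i)) :
    ∑ i ∈ s, f i = 0 ∨ n ≤ v.ord (∑ i ∈ s, f i) := by
  classical
  induction s using Finset.induction_on with
  | empty => left; simp
  | insert a s ha ih =>
    rw [Finset.sum_insert ha]
    exact le_ord_add v (hf a (Finset.mem_insert_self a s))
      (ih fun i hi => hf i (Finset.mem_insert_of_mem hi))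

/-- **Pole independence.**  A family with negative, pairwise distinct orders at its own places and
regular at the other places is linearly independent modulo functions regular at all these places. -/
theorem coeff_eq_zero_of_poles {ι : Type*} [Fintype ι] (px : ι → Place k F) (u : ι → F)
    (h1 : ∀ i, u i ≠ 0 ∧ (px i).ord (u i) < 0)
    (h1' : ∀ i i', px i = px i' → (px i).ord (u i) = (px i).ord (u i') → i = i')
    (h2 : ∀ i i', px i' ≠ px i → u i = 0 ∨ 0 ≤ (px i').ord (u i))
    (g : ι → k) (r : F) (hr : ∀ i, r = 0 ∨ 0 ≤ (px i).ord r)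
    (hsum : ∑ i, g i • u i + r = 0) : ∀ i, g i = 0 := by
  classical
  by_contra hne
  obtain ⟨i₁, hi₁⟩ := not_forall.mp hne
  set x₀ := px i₁ with hx₀
  have hS : (Finset.univ.filter fun i => g i ≠ 0 ∧ px i = x₀).Nonempty :=
    ⟨i₁, by simp [hi₁, hx₀]⟩
  obtain ⟨i₀, hi₀S, hmin⟩ := Finset.exists_min_image _ (fun i => x₀.ord (u i)) hS
  simp only [Finset.mem_filter, Finset.mem_univ, true_and] at hi₀S hmin
  obtain ⟨hg₀, hp₀⟩ := hi₀S
  have hu₀ := h1 i₀
  rw [hp₀] at hu₀
  -- split off the main term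
  have hsplit : ∑ i, g i • u i = g i₀ • u i₀ + ∑ i ∈ Finset.univ.erase i₀, g i • u i :=
    (Finset.add_sum_erase Finset.univ (fun i => g i • u i) (Finset.mem_univ i₀)).symm
  have hmain0 : g i₀ • u i₀ ≠ 0 := smul_ne_zero hg₀ hu₀.1
  have hmainord : x₀.ord (g i₀ • u i₀) = x₀.ord (u i₀) := ord_smul x₀ hg₀ hu₀.1
  have hrest : (∑ i ∈ Finset.univ.erase i₀, g i • u i) + r = 0 ∨
      x₀.ord (u i₀) + 1 ≤ x₀.ord ((∑ i ∈ Finset.univ.erase i₀, g i • u i) + r) := by
    apply le_ord_add
    · apply ord_sum_ge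
      intro i hi
      have hii : i ≠ i₀ := Finset.ne_of_mem_erase hi
      rcases eq_or_ne (g i) 0 with hgi | hgi
      · left; rw [hgi, zero_smul]
      by_cases hpi : px i = x₀
      · right
        have hui := h1 i
        rw [ord_smul x₀ hgi hui.1]
        have hle := hmin i ⟨hgi, hpi⟩
        have hne' : x₀.ord (u i₀) ≠ x₀.ord (u i) := by
          intro heq
          apply hii
          apply h1' i i₀ (hpi.trans hp₀.symm)
          rw [hpi]
          exact heq.symm
        omega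
      · rcases h2 i i₀ (by rw [hp₀]; exact fun h => hpi h.symm) with h0 | h0
        · left; rw [h0, smul_zero]
        · right
          rw [hp₀] at h0
          rw [ord_smul x₀ hgi (by rintro h; exact absurd h (by
            intro hh; exact (h1 i).1 hh))]
          omega
    · rcases hr i₀ with h0 | h0
      · left; exact h0
      · right
        rw [hp₀] at h0
        omega
  have hkey := ord_add_eq_of_lt x₀ (f := g i₀ • u i₀)
    (g := (∑ i ∈ Finset.univ.erase i₀, g i • u i) + r) hmain0 (by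
      rcases hrest with h0 | h0
      · left; exact h0
      · right; rw [hmainord]; omega)
  apply hkey.1
  rw [← add_assoc, ← hsplit]
  exact hsum

variable [CharP F 2] {J : F}

theorem sum_sq_char_two {ι : Type*} (s : Finset ι) (f : ι → F) :
    (∑ i ∈ s, f i) ^ 2 = ∑ i ∈ s, (f i) ^ 2 := by
  classical
  induction s using Finset.induction_on with
  | empty => simp
  | insert c s hc ih =>
    rw [Finset.sum_insert hc, Finset.sum_insert hc, CharTwo.add_sq, ih]

/-- **Squares independence.** -/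
theorem coeff_eq_zero_of_squares (hk : ∀ c : k, ∃ d : k, d ^ 2 = c)
    (hdec0 : ∀ a b : F, a ^ 2 + J * b ^ 2 = 0 → a = 0 ∧ b = 0)
    {ι₁ ι₂ : Type*} [Fintype ι₁] [Fintype ι₂] (a : ι₁ → F) (b : ι₂ → F)
    (ha : LinearIndependent k a) (hb : LinearIndependent k b)
    (g₁ : ι₁ → k) (g₂ : ι₂ → k)
    (hsum : ∑ i, g₁ i • (a i) ^ 2 + ∑ j, g₂ j • (J * (b j) ^ 2) = 0) :
    (∀ i, g₁ i = 0) ∧ ∀ j, g₂ j = 0 := by
  choose d₁ hd₁ using fun i => hk (g₁ i)
  choose d₂ hd₂ using fun j => hk (g₂ j)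
  have e1 : ∑ i, g₁ i • (a i) ^ 2 = (∑ i, d₁ i • a i) ^ 2 := by
    rw [sum_sq_char_two]
    refine Finset.sum_congr rfl fun i _ => ?_
    rw [← hd₁ i, Algebra.smul_def, Algebra.smul_def, mul_pow, map_pow]
  have e2 : ∑ j, g₂ j • (J * (b j) ^ 2) = J * (∑ j, d₂ j • b j) ^ 2 := by
    rw [sum_sq_char_two, Finset.mul_sum]
    refine Finset.sum_congr rfl fun j _ => ?_
    rw [← hd₂ j, Algebra.smul_def, Algebra.smul_def, mul_pow, map_pow]
    ring
  rw [e1, e2] at hsum
  obtain ⟨h1, h2⟩ := hdec0 _ _ hsum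
  have h1' := Fintype.linearIndependent_iff.mp ha d₁ h1
  have h2' := Fintype.linearIndependent_iff.mp hb d₂ h2
  exact ⟨fun i => by rw [← hd₁ i, h1' i]; ring, fun j => by rw [← hd₂ j, h2' j]; ring⟩

end Indep


/-! ### Divisors supported on a finite set; existence with exact order -/

section Divisors

/-- the divisor `∑_{v ∈ S} f v · v`. -/
def sdiv (S : Finset (Place k F)) (f : Place k F → ℤ) : Divisor k F :=
  ∑ v ∈ S, Finsupp.single v (f v)

open Classical in
theorem sdiv_apply (S : Finset (Place k F)) (f : Place k F → ℤ) (v : Place k F) :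
    sdiv S f v = if v ∈ S then f v else 0 := by
  unfold sdiv
  rw [Finsupp.finsetSum_apply]
  simp only [Finsupp.single_apply]
  rw [Finset.sum_ite_eq' S v]

theorem degree_sdiv (hdeg : ∀ v : Place k F, v.deg = 1) (S : Finset (Place k F))
    (f : Place k F → ℤ) : Divisor.degree (sdiv S f) = ∑ v ∈ S, f v := by
  unfold sdiv
  rw [map_sum]
  refine Finset.sum_congr rfl fun v _ => ?_
  rw [Divisor.degree_single, hdeg v]
  simp

variable (h : FFBase k F)

include h in
/-- In the Riemann range there is a function in `L(D)` with exact order `-D x₀` at `x₀`. -/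
theorem exists_mem_ord_eq (hdeg : ∀ v : Place k F, v.deg = 1) {c₀ : ℤ}
    (hc₀ : ∀ D : Divisor k F, c₀ ≤ Divisor.degree D →
      (ell D : ℤ) = Divisor.degree D + 1 - h.gR)
    (D : Divisor k F) (x₀ : Place k F) (hD : c₀ ≤ Divisor.degree D - 1) :
    ∃ y : F, y ∈ riemannRochSpace D ∧ y ≠ 0 ∧ x₀.ord y = -D x₀ := by
  classical
  set D' : Divisor k F := D - Finsupp.single x₀ 1 with hD'
  have hle : D' ≤ D := by
    rw [hD', sub_le_self_iff]
    intro v
    rw [Finsupp.single_apply]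
    split_ifs <;> simp
  have hdegD' : Divisor.degree D' = Divisor.degree D - 1 := by
    rw [hD', map_sub, Divisor.degree_single, hdeg x₀]; simp
  have e1 := hc₀ D (by omega)
  have e2 := hc₀ D' (by omega)
  have hlt : ell D' < ell D := by
    have : (ell D' : ℤ) < ell D := by rw [e1, e2, hdegD']; omega
    exact_mod_cast this
  have hfd := h.finiteDimensional_riemannRochSpace D
  have hne : ¬ riemannRochSpace D ≤ riemannRochSpace D' := by
    intro hcontra
    have h2 : ell D ≤ ell D' := by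
      unfold ell
      have heq : riemannRochSpace D = riemannRochSpace D' :=
        le_antisymm hcontra (riemannRochSpace_mono hle)
      rw [heq]
    omega
  obtain ⟨y, hyD, hyD'⟩ := SetLike.not_le_iff_exists.mp hne
  have hy0 : y ≠ 0 := by
    rintro rfl
    exact hyD' (zero_mem _)
  refine ⟨y, hyD, hy0, ?_⟩
  have h1 := (mem_riemannRochSpace_iff.mp hyD x₀).resolve_left hy0
  by_contra hne'
  apply hyD'
  rw [mem_riemannRochSpace_iff]
  intro v
  right
  have hv := (mem_riemannRochSpace_iff.mp hyD v).resolve_left hy0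
  rw [hD', Finsupp.sub_apply, Finsupp.single_apply]
  split_ifs with hxv
  · subst hxv
    omega
  · omega

end Divisors


/-! ### The global count -/

section Main

variable [CharP F 2] (h : FFBase k F) (hk : ∀ c : k, ∃ d : k, d ^ 2 = c)
  (hdeg : ∀ v : Place k F, v.deg = 1)
  (θ : F → F) (hadd : ∀ a b, θ (a + b) = θ a + θ b)
  (hmul : ∀ a b, θ (a * b) = a * θ b + θ a * b)
  {J : F} (hJ0 : J ≠ 0) (hθJ : θ J = J)
  (hdec : ∀ y : F, ∃ a b : F, y = a ^ 2 + J * b ^ 2)

include hadd hmul hJ0 hθJ hdec in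
/-- `eps ≥ 0`. -/
theorem ord_theta_unif_nonpos (x : Place k F) {t : F} (ht : x.ord t = 1)
    (hθO : ∀ f : F, (f = 0 ∨ 0 ≤ x.ord f) → (θ f = 0 ∨ x.ord (θ t) ≤ x.ord (θ f)))
    (he : Even (x.ord J)) : x.ord (θ t) ≤ 0 := by
  obtain ⟨r, hr⟩ := he
  have ht0 := unif_ne_zero x ht
  set s : F := t ^ (-r) with hs
  have hs0 : s ≠ 0 := zpow_ne_zero _ ht0
  have hsord : x.ord s = -r := by rw [hs, x.ord_zpow, ht, mul_one]
  set u : F := J * s ^ 2 with hu
  have hu0 : u ≠ 0 := mul_ne_zero hJ0 (pow_ne_zero _ hs0)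
  have huord : x.ord u = 0 := by
    rw [hu, x.ord_mul hJ0 (pow_ne_zero _ hs0), ord_pow, hsord, hr]; push_cast; ring
  have hθu : θ u = u := by rw [hu, theta_mul_sq θ hmul, hθJ]
  rcases hθO u (Or.inr huord.ge) with h0 | h0
  · rw [hθu] at h0; exact absurd h0 hu0
  · rw [hθu, huord] at h0; exact h0

include hk hdeg hadd hmul hJ0 hθJ hdec in
/-- The main count, with all the data as explicit hypotheses. -/
theorem sum_ord_sub_le
    (C : Finset (Place k F)) (hCne : C.Nonempty) (hC : ∀ v : Place k F, v.ord J < 0 ↔ v ∈ C)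
    (hodd : ∀ c ∈ C, Odd (c.ord J))
    (Z : Finset (Place k F)) (hZ : ∀ x ∈ Z, 0 < x.ord J ∧ Even (x.ord J))
    (t : Place k F → F) (ht : ∀ x ∈ Z, x.ord (t x) = 1)
    (hθO : ∀ x ∈ Z, ∀ f : F, (f = 0 ∨ 0 ≤ x.ord f) →
      (θ f = 0 ∨ x.ord (θ (t x)) ≤ x.ord (θ f))) :
    ∑ x ∈ Z, (x.ord J - x.ord (θ (t x))) ≤ ∑ c ∈ C, (1 - c.ord J) - 2 + 2 * h.gR := by
  classical
  -- notation
  set n : Place k F → ℤ := fun c => -(c.ord J) with hn
  set q : Place k F → ℤ := fun x => x.ord J - x.ord (θ (t x)) with hq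
  have hnpos : ∀ c ∈ C, 1 ≤ n c := fun c hc => by
    have := (hC c).mpr hc
    simp only [hn]; omega
  have hnodd : ∀ c ∈ C, Odd (n c) := fun c hc => by
    simpa [hn] using (hodd c hc).neg
  have hZC : ∀ x ∈ Z, x ∉ C := fun x hx hxC => by
    have h1 := (hZ x hx).1
    have h2 := (hC x).mpr hxC
    omega
  have hnotC : ∀ v : Place k F, v ∉ C → 0 ≤ v.ord J := fun v hv => by
    by_contra hcon
    exact hv ((hC v).mp (not_le.mp hcon))
  have hqeven : ∀ x ∈ Z, Even (q x) := fun x hx =>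
    even_ord_J_sub_ord_theta_unif θ hadd hmul hJ0 hθJ hdec x (ht x hx)
  have hφnonpos : ∀ x ∈ Z, x.ord (θ (t x)) ≤ 0 := fun x hx =>
    ord_theta_unif_nonpos θ hadd hmul hJ0 hθJ hdec x (ht x hx) (hθO x hx) (hZ x hx).2
  have hqpos : ∀ x ∈ Z, 0 < q x := fun x hx => by
    have h1 := (hZ x hx).1
    have h2 := hφnonpos x hx
    simp only [hq]; omega
  -- number of functions at `x`
  set m : Place k F → ℕ := fun x => (q x / 2).toNat with hm
  have hm2 : ∀ x ∈ Z, (2 * (m x : ℤ)) = q x := fun x hx => by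
    obtain ⟨r, hr⟩ := hqeven x hx
    have := hqpos x hx
    simp only [hm]
    rw [Int.toNat_of_nonneg (by omega)]
    omega
  -- the degree `d` of the pole divisor
  set d : ℤ := ∑ c ∈ C, n c with hd
  have hdpos : 1 ≤ d := by
    obtain ⟨c₁, hc₁⟩ := hCne
    have h1 : n c₁ ≤ d := Finset.single_le_sum (fun c hc => (by have := hnpos c hc; omega))
      hc₁
    have := hnpos c₁ hc₁
    omega
  obtain ⟨c₀, hc₀⟩ := h.exists_riemann_degree_bound
  set SN : ℤ := ∑ x ∈ Z, (q x + 1) with hSN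
  have hSNnonneg : 0 ≤ SN := Finset.sum_nonneg fun x hx => by
    have := hqpos x hx; omega
  -- the size parameter
  set M : ℕ := (|c₀| + SN + 1).toNat with hM
  have hMval : (M : ℤ) = |c₀| + SN + 1 := by
    rw [hM, Int.toNat_of_nonneg]
    have := abs_nonneg c₀
    omega
  have hMd : (M : ℤ) ≤ (2 * M + 1) * d := by nlinarith
  -- the three divisors
  set DV : Divisor k F := sdiv C (fun c => (2 * M + 1) * n c) with hDV
  set DA : Divisor k F := sdiv C (fun c => M * n c + (n c - 1) / 2) with hDA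
  set DR : Divisor k F := sdiv C (fun c => M * n c) with hDR
  have hdegV : Divisor.degree DV = (2 * M + 1) * d := by
    rw [hDV, degree_sdiv hdeg, hd, Finset.mul_sum]
  have hdegA : Divisor.degree DA = M * d + ∑ c ∈ C, (n c - 1) / 2 := by
    rw [hDA, degree_sdiv hdeg, hd, Finset.mul_sum, ← Finset.sum_add_distrib]
  have hdegR : Divisor.degree DR = M * d := by
    rw [hDR, degree_sdiv hdeg, hd, Finset.mul_sum]
  have hellV : (ell DV : ℤ) = (2 * M + 1) * d + 1 - h.gR := by
    rw [hc₀ DV (by rw [hdegV]; have := le_abs_self c₀; omega), hdegV]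
  have hellA := h.riemann_inequality DA
  have hellR := h.riemann_inequality DR
  rw [hdegA] at hellA
  rw [hdegR] at hellR
  have hfdV := h.finiteDimensional_riemannRochSpace DV
  have hfdA := h.finiteDimensional_riemannRochSpace DA
  have hfdR := h.finiteDimensional_riemannRochSpace DR
  -- bases of `L(DA)`, `L(DR)`
  set ba := Module.finBasis k ↥(riemannRochSpace DA) with hba
  set bb := Module.finBasis k ↥(riemannRochSpace DR) with hbb
  set a : Fin (ell DA) → F := fun i => ((ba i : ↥(riemannRochSpace DA)) : F) with ha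
  set b : Fin (ell DR) → F := fun j => ((bb j : ↥(riemannRochSpace DR)) : F) with hb
  have hali : LinearIndependent k a :=
    ba.linearIndependent.map' (Submodule.subtype _) (Submodule.ker_subtype _)
  have hbli : LinearIndependent k b :=
    bb.linearIndependent.map' (Submodule.subtype _) (Submodule.ker_subtype _)
  have haL : ∀ i, a i ∈ riemannRochSpace DA := fun i => (ba i).2
  have hbL : ∀ j, b j ∈ riemannRochSpace DR := fun j => (bb j).2
  -- the functions `y`
  let ι₃ : Type _ := Σ x : {x // x ∈ Z}, Fin (m x.1)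
  set Dy : ι₃ → Divisor k F := fun i =>
    DV - sdiv Z (fun x => q x + 1) + Finsupp.single i.1.1 (q i.1.1 + 1 - (2 * (i.2 : ℕ) + 1))
    with hDy
  have hDyapply : ∀ (i : ι₃) (v : Place k F), Dy i v =
      (if v ∈ C then (2 * M + 1) * n v else 0) - (if v ∈ Z then q v + 1 else 0)
        + (if i.1.1 = v then q i.1.1 + 1 - (2 * (i.2 : ℕ) + 1) else 0) := fun i v => by
    simp only [hDy, hDV, Finsupp.add_apply, Finsupp.sub_apply, sdiv_apply, Finsupp.single_apply]
  have hjlt : ∀ i : ι₃, 2 * ((i.2 : ℕ) : ℤ) + 2 ≤ q i.1.1 := fun i => by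
    have h1 := hm2 i.1.1 i.1.2
    have h2 : ((i.2 : ℕ) : ℤ) + 1 ≤ m i.1.1 := by exact_mod_cast i.2.2
    omega
  have hdegDy : ∀ i : ι₃, c₀ ≤ Divisor.degree (Dy i) - 1 := fun i => by
    have : Divisor.degree (Dy i) =
        (2 * M + 1) * d - SN + (q i.1.1 + 1 - (2 * (i.2 : ℕ) + 1)) := by
      simp only [hDy]
      rw [map_add, map_sub, hdegV, degree_sdiv hdeg, Divisor.degree_single, hdeg]
      simp [hSN]
    rw [this]
    have := hjlt i
    have := le_abs_self c₀
    omega
  have hex : ∀ i : ι₃, ∃ y : F, y ∈ riemannRochSpace (Dy i) ∧ y ≠ 0 ∧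
      i.1.1.ord y = -(Dy i) i.1.1 := fun i =>
    exists_mem_ord_eq h hdeg hc₀ (Dy i) i.1.1 (hdegDy i)
  choose y hyL hy0 hyord using hex
  have hyord' : ∀ i : ι₃, i.1.1.ord (y i) = 2 * ((i.2 : ℕ) : ℤ) + 1 := fun i => by
    rw [hyord i, hDyapply i, if_neg (hZC _ i.1.2), if_pos i.1.2, if_pos rfl]
    ring
  -- `θ (y i)` at its own place
  have hθy : ∀ i : ι₃, θ (y i) ≠ 0 ∧
      i.1.1.ord (θ (y i)) = 2 * ((i.2 : ℕ) : ℤ) + i.1.1.ord (θ (t i.1.1)) := fun i =>
    ord_theta_of_ord_odd θ hadd hmul hJ0 hθJ hdec i.1.1 (ht _ i.1.2) (hθO _ i.1.2) (hy0 i)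
      ((i.2 : ℕ) : ℤ) (hyord' i)
  -- `θ (y i)` at the other places of `Z`
  have hθy' : ∀ (i : ι₃) (x' : Place k F), x' ∈ Z → x' ≠ i.1.1 →
      θ (y i) = 0 ∨ x'.ord J ≤ x'.ord (θ (y i)) := fun i x' hx' hne => by
    obtain ⟨r, hr⟩ := hqeven x' hx'
    have h1 := (mem_riemannRochSpace_iff.mp (hyL i) x').resolve_left (hy0 i)
    rw [hDyapply i, if_neg (hZC _ hx'), if_pos hx', if_neg (fun hh => hne hh.symm)] at h1
    have h2 := le_ord_theta_of_le_ord θ hadd hmul hJ0 hθJ hdec x' (ht _ hx') (hθO _ hx')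
      (y := y i) r (Or.inr (by omega))
    rcases h2 with h2 | h2
    · exact Or.inl h2
    · right
      simp only [hq] at hr
      omega
  -- the family
  have hyV : ∀ i : ι₃, y i ∈ riemannRochSpace DV := fun i => by
    refine riemannRochSpace_mono ?_ (hyL i)
    intro v
    rw [hDyapply i, hDV, sdiv_apply]
    have hj := hjlt i
    by_cases hvZ : v ∈ Z
    · have := hqpos v hvZ
      rw [if_pos hvZ]
      by_cases hiv : i.1.1 = v
      · rw [if_pos hiv]
        have hqq : q i.1.1 = q v := congrArg q hiv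
        omega
      · rw [if_neg hiv]; omega
    · rw [if_neg hvZ]
      have hiv : i.1.1 ≠ v := fun hh => hvZ (hh ▸ i.1.2)
      rw [if_neg hiv]; omega
  have haV : ∀ i, (a i) ^ 2 ∈ riemannRochSpace DV := fun i => by
    rw [mem_riemannRochSpace_iff]
    intro v
    rcases eq_or_ne (a i) 0 with h0 | h0
    · left; rw [h0]; ring
    right
    have h1 := (mem_riemannRochSpace_iff.mp (haL i) v).resolve_left h0
    rw [ord_pow, hDV, sdiv_apply]
    rw [hDA, sdiv_apply] at h1
    by_cases hv : v ∈ C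
    · rw [if_pos hv] at h1 ⊢
      obtain ⟨r, hr⟩ := hnodd v hv
      have : (n v - 1) / 2 = r := by omega
      rw [this] at h1
      push_cast
      nlinarith
    · rw [if_neg hv] at h1 ⊢
      push_cast; omega
  have hbV : ∀ j, J * (b j) ^ 2 ∈ riemannRochSpace DV := fun j => by
    rw [mem_riemannRochSpace_iff]
    intro v
    rcases eq_or_ne (b j) 0 with h0 | h0
    · left; rw [h0]; ring
    right
    have h1 := (mem_riemannRochSpace_iff.mp (hbL j) v).resolve_left h0
    rw [x_ord_mul_aux v hJ0 (pow_ne_zero 2 h0), ord_pow, hDV, sdiv_apply]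
    rw [hDR, sdiv_apply] at h1
    by_cases hv : v ∈ C
    · rw [if_pos hv] at h1 ⊢
      simp only [hn] at h1 ⊢
      push_cast
      nlinarith
    · rw [if_neg hv] at h1 ⊢
      have := hnotC v hv
      push_cast; omega
  -- the `T`-images `u i = θ (y i) / J`
  set u : ι₃ → F := fun i => θ (y i) / J with hu
  have hordu : ∀ i : ι₃, i.1.1.ord (u i) = 2 * ((i.2 : ℕ) : ℤ) - q i.1.1 := fun i => by
    obtain ⟨h1, h2⟩ := hθy i
    simp only [hu, hq]
    rw [ord_div _ h1 hJ0, h2]; ring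
  have hu1 : ∀ i : ι₃, u i ≠ 0 ∧ i.1.1.ord (u i) < 0 := fun i => by
    refine ⟨div_ne_zero (hθy i).1 hJ0, ?_⟩
    rw [hordu i]
    have := hjlt i
    omega
  have hu1' : ∀ i i' : ι₃, i.1.1 = i'.1.1 → i.1.1.ord (u i) = i.1.1.ord (u i') → i = i' := by
    rintro ⟨⟨x, hx⟩, j⟩ ⟨⟨x', hx'⟩, j'⟩ hxx hord
    simp only at hxx
    subst hxx
    have h1 := hordu ⟨⟨x, hx⟩, j⟩
    have h2 := hordu ⟨⟨x, hx'⟩, j'⟩
    simp only at h1 h2 hord
    rw [h1, h2] at hord
    have h3 : (j : ℕ) = (j' : ℕ) := by omega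
    have h4 : j = j' := Fin.ext h3
    subst h4
    rfl
  have hu2 : ∀ i i' : ι₃, i'.1.1 ≠ i.1.1 → u i = 0 ∨ 0 ≤ i'.1.1.ord (u i) := fun i i' hne => by
    rcases hθy' i i'.1.1 i'.1.2 hne with h0 | h0
    · left; simp only [hu]; rw [h0, zero_div]
    · rcases eq_or_ne (θ (y i)) 0 with h1 | h1
      · left; simp only [hu]; rw [h1, zero_div]
      · right
        simp only [hu]
        rw [ord_div _ h1 hJ0]
        omega
  -- the family
  let fam : (Fin (ell DA) ⊕ Fin (ell DR)) ⊕ ι₃ → F :=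
    Sum.elim (Sum.elim (fun i => (a i) ^ 2) (fun j => J * (b j) ^ 2)) y
  have hfamV : ∀ i, fam i ∈ riemannRochSpace DV := by
    rintro ((i | j) | i)
    · exact haV i
    · exact hbV j
    · exact hyV i
  have hfamli : LinearIndependent k fam := by
    rw [Fintype.linearIndependent_iff]
    intro g hsum
    rw [Fintype.sum_sum_type, Fintype.sum_sum_type] at hsum
    simp only [fam, Sum.elim_inl, Sum.elim_inr] at hsum
    -- apply `θ`
    have hθsum := congrArg θ hsum
    rw [theta_zero θ hadd, hadd, hadd, theta_sum θ hadd hmul, theta_sum θ hadd hmul,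
      theta_sum θ hadd hmul] at hθsum
    simp only [theta_smul θ hmul hk, theta_sq θ hmul, smul_zero, Finset.sum_const_zero, zero_add,
      theta_mul_sq θ hmul, hθJ] at hθsum
    have hrel : ∑ i, g (Sum.inr i) • u i + ∑ j, g (Sum.inl (Sum.inr j)) • (b j) ^ 2 = 0 := by
      have h1 : J * (∑ i, g (Sum.inr i) • u i + ∑ j, g (Sum.inl (Sum.inr j)) • (b j) ^ 2) = 0 := by
        rw [mul_add, Finset.mul_sum, Finset.mul_sum, add_comm, ← hθsum]
        congr 1
        · refine Finset.sum_congr rfl fun j _ => ?_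
          rw [mul_smul_comm]
        · refine Finset.sum_congr rfl fun i _ => ?_
          rw [mul_smul_comm]
          simp only [hu]
          rw [mul_div_cancel₀ _ hJ0]
      exact (mul_eq_zero.mp h1).resolve_left hJ0
    have hr : ∀ i : ι₃, ∑ j, g (Sum.inl (Sum.inr j)) • (b j) ^ 2 = 0 ∨
        0 ≤ i.1.1.ord (∑ j, g (Sum.inl (Sum.inr j)) • (b j) ^ 2) := fun i => by
      apply ord_sum_ge
      intro j _
      rcases eq_or_ne (g (Sum.inl (Sum.inr j))) 0 with hg | hg
      · left; rw [hg, zero_smul]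
      rcases eq_or_ne (b j) 0 with hb0 | hb0
      · left; rw [hb0]; simp
      right
      rw [ord_smul _ hg (pow_ne_zero 2 hb0), ord_pow]
      have h1 := (mem_riemannRochSpace_iff.mp (hbL j) i.1.1).resolve_left hb0
      rw [hDR, sdiv_apply, if_neg (hZC _ i.1.2)] at h1
      push_cast; omega
    have hg3 := coeff_eq_zero_of_poles (fun i : ι₃ => i.1.1) u hu1 hu1' hu2
      (fun i => g (Sum.inr i)) _ hr hrel
    have hsum' : ∑ i, g (Sum.inl (Sum.inl i)) • (a i) ^ 2 +
        ∑ j, g (Sum.inl (Sum.inr j)) • (J * (b j) ^ 2) = 0 := by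
      have h0 : ∑ i : ι₃, g (Sum.inr i) • y i = 0 :=
        Finset.sum_eq_zero fun i _ => by rw [hg3 i, zero_smul]
      rw [h0, add_zero] at hsum
      exact hsum
    obtain ⟨hg1, hg2⟩ := coeff_eq_zero_of_squares hk
      (fun a' b' hab => dec_eq_zero θ hadd hmul hJ0 hθJ hab) a b hali hbli _ _ hsum'
    rintro ((i | j) | i)
    · exact hg1 i
    · exact hg2 j
    · exact hg3 i
  -- counting
  have hcard : Fintype.card ((Fin (ell DA) ⊕ Fin (ell DR)) ⊕ ι₃) ≤ ell DV := by
    have h1 := finrank_span_eq_card hfamli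
    have h2 : Submodule.span k (Set.range fam) ≤ riemannRochSpace DV :=
      Submodule.span_le.mpr (by rintro _ ⟨i, rfl⟩; exact hfamV i)
    have h3 := Submodule.finrank_mono h2
    rw [h1] at h3
    exact h3
  have hcard3 : Fintype.card ι₃ = ∑ x ∈ Z, m x := by
    rw [Fintype.card_sigma]
    simp only [Fintype.card_fin]
    exact Finset.sum_coe_sort Z m
  rw [Fintype.card_sum, Fintype.card_sum, Fintype.card_fin, Fintype.card_fin, hcard3] at hcard
  have hcardZ : ((ell DA : ℤ) + ell DR + ∑ x ∈ Z, (m x : ℤ)) ≤ ell DV := by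
    exact_mod_cast hcard
  have hqsum : ∑ x ∈ Z, q x = 2 * ∑ x ∈ Z, (m x : ℤ) := by
    rw [Finset.mul_sum]
    exact Finset.sum_congr rfl fun x hx => (hm2 x hx).symm
  have hS2 : 2 * ∑ c ∈ C, (n c - 1) / 2 = d - C.card := by
    rw [Finset.mul_sum, hd]
    have : ∀ c ∈ C, 2 * ((n c - 1) / 2) = n c - 1 := fun c hc => by
      obtain ⟨r, hr⟩ := hnodd c hc
      omega
    rw [Finset.sum_congr rfl this, Finset.sum_sub_distrib]
    simp
  have hRHS : ∑ c ∈ C, (1 - c.ord J) = C.card + d := by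
    rw [hd, Finset.sum_sub_distrib]
    simp only [hn, Finset.sum_neg_distrib, Finset.sum_const, nsmul_eq_mul, mul_one]
    ring
  show ∑ x ∈ Z, q x ≤ _
  rw [hqsum, hRHS]
  nlinarith

end Main

end Fermat.Agent.S16.H24
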