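import Mathlib

/-!
# S16 / (U5b) helper (helper2): the `p + 1` cosets of `Γ₀(p)` in `SL(2, ℤ)`

For a prime `p`, the matrices `1` and `(S T^j)⁻¹` (`j < p`) represent the left cosets
`SL(2, ℤ) ⧸ Γ₀(p)` (inside `GL(2, ℝ)`, in the form used by Mathlib's `SlashInvariantForm.quotientFunc`
and `ModularForm.trace` / `ModularForm.norm`).

* `cosetMap p : Option (Fin p) → 𝒮ℒ ⧸ 𝒢.subgroupOf 𝒮ℒ`, `𝒢 = Γ₀(p) ⊆ GL(2, ℝ)`;
* `cosetMap_bijective`;
* `quotientFunc_cosetMap_none : quotientFunc f (cosetMap p none) = ⇑f`;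
* `quotientFunc_cosetMap_some : quotientFunc f (cosetMap p (some j)) = ⇑f ∣[k] (S * T ^ (j : ℤ))`;
* `sum_quotientFunc_eq`, `prod_quotientFunc_eq` : sums / products over the quotient as sums /
  products over `Option (Fin p)`.
-/

set_option autoImplicit false

namespace Fermat.Agent.S16.H2

open UpperHalfPlane CongruenceSubgroup ModularGroup Matrix.SpecialLinearGroup
open scoped MatrixGroups ModularForm

noncomputable section

/-! ### Matrix calculus -/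

theorem mem_Gamma0_iff_dvd {M : ℕ} {g : SL(2, ℤ)} : g ∈ Gamma0 M ↔ (M : ℤ) ∣ g 1 0 := by
  rw [Gamma0_mem, ZMod.intCast_zmod_eq_zero_iff_dvd]

/-- The matrix `S T^n = [[0, -1], [1, n]]`. -/
theorem coe_S_mul_T_zpow (n : ℤ) : ((S * T ^ n : SL(2, ℤ)) : Matrix (Fin 2) (Fin 2) ℤ)
    = !![0, -1; 1, n] := by
  rw [Matrix.SpecialLinearGroup.coe_mul, coe_S, coe_T_zpow]
  ext i j
  fin_cases i <;> fin_cases j <;> simp [Matrix.mul_apply, Fin.sum_univ_two]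

theorem S_mul_T_zpow_mul_apply_one_zero (n : ℤ) (g : SL(2, ℤ)) :
    (S * T ^ n * g) 1 0 = g 0 0 + n * g 1 0 := by
  rw [Matrix.SpecialLinearGroup.coe_mul, coe_S_mul_T_zpow, Matrix.mul_apply, Fin.sum_univ_two]
  simp

theorem S_mul_T_zpow_apply_one_zero (n : ℤ) : (S * T ^ n : SL(2, ℤ)) 1 0 = 1 := by
  rw [coe_S_mul_T_zpow]
  rfl

theorem S_mul_T_zpow_mul_inv_apply_one_zero (n m : ℤ) :
    (S * T ^ n * (S * T ^ m)⁻¹ : SL(2, ℤ)) 1 0 = m - n := by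
  rw [S_mul_T_zpow_mul_apply_one_zero, Matrix.SpecialLinearGroup.coe_inv,
    Matrix.adjugate_fin_two, coe_S_mul_T_zpow]
  simp
  ring

theorem S_mul_T_zpow_notMem_Gamma0 {p : ℕ} (hp : p.Prime) (n : ℤ) :
    (S * T ^ n : SL(2, ℤ)) ∉ Gamma0 p := by
  rw [mem_Gamma0_iff_dvd, S_mul_T_zpow_apply_one_zero]
  intro h
  have h1 : (p : ℤ) = 1 := by
    have := Int.eq_one_of_dvd_one (by positivity) h
    exact this
  have : p = 1 := by exact_mod_cast h1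
  exact hp.one_lt.ne' this

theorem eq_of_S_mul_T_zpow_mul_inv_mem {p : ℕ} {j j' : ℕ} (hj : j < p) (hj' : j' < p)
    (h : (S * T ^ (j : ℤ) * (S * T ^ (j' : ℤ))⁻¹ : SL(2, ℤ)) ∈ Gamma0 p) : j = j' := by
  rw [mem_Gamma0_iff_dvd, S_mul_T_zpow_mul_inv_apply_one_zero] at h
  have h2 : (j : ℤ) ≡ j' [ZMOD p] := Int.modEq_of_dvd h
  have h3 : (j : ℤ) % p = j' % p := h2
  rw [Int.emod_eq_of_lt (by positivity) (by exact_mod_cast hj),
    Int.emod_eq_of_lt (by positivity) (by exact_mod_cast hj')] at h3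
  exact_mod_cast h3

/-- **Completeness**: every `g ∈ SL(2, ℤ)` lies in `Γ₀(p)` or in some `(S T^j)⁻¹ Γ₀(p)`. -/
theorem mem_or_exists_S_mul_T_zpow_mul_mem {p : ℕ} (hp : p.Prime) (g : SL(2, ℤ)) :
    g ∈ Gamma0 p ∨ ∃ j : ℕ, j < p ∧ (S * T ^ (j : ℤ) * g : SL(2, ℤ)) ∈ Gamma0 p := by
  have : Fact p.Prime := ⟨hp⟩
  by_cases hc : (p : ℤ) ∣ g 1 0
  · exact Or.inl (mem_Gamma0_iff_dvd.mpr hc)
  · right
    have hc0 : ((g 1 0 : ℤ) : ZMod p) ≠ 0 := by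
      rwa [Ne, ZMod.intCast_zmod_eq_zero_iff_dvd]
    set t : ZMod p := -((g 0 0 : ℤ) : ZMod p) * ((g 1 0 : ℤ) : ZMod p)⁻¹ with ht
    refine ⟨t.val, ZMod.val_lt t, ?_⟩
    rw [mem_Gamma0_iff_dvd, S_mul_T_zpow_mul_apply_one_zero,
      ← ZMod.intCast_zmod_eq_zero_iff_dvd]
    push_cast
    rw [ZMod.natCast_zmod_val, ht]
    field_simp
    ring

/-! ### The cosets inside `GL(2, ℝ)` -/

/-- `Γ₀(M)` inside `GL(2, ℝ)`. -/
abbrev G0 (M : ℕ) : Subgroup (GL (Fin 2) ℝ) := (Gamma0 M : Subgroup (GL (Fin 2) ℝ))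

theorem mem_G0_iff {M : ℕ} {g : SL(2, ℤ)} : (mapGL ℝ g : GL (Fin 2) ℝ) ∈ G0 M ↔ g ∈ Gamma0 M :=
  Subgroup.mem_map_iff_mem mapGL_injective

/-- The quotient `SL(2, ℤ) ⧸ Γ₀(p)`, inside `GL(2, ℝ)`. -/
abbrev Q0 (p : ℕ) : Type := ↥𝒮ℒ ⧸ (G0 p).subgroupOf 𝒮ℒ

/-- The representatives `1`, `(S T^j)⁻¹` of `SL(2, ℤ) ⧸ Γ₀(p)`. -/
def cosetRep (p : ℕ) : Option (Fin p) → ↥𝒮ℒ
  | none => 1
  | some j => ⟨mapGL ℝ ((S * T ^ ((j : ℕ) : ℤ) : SL(2, ℤ))⁻¹), ⟨_, rfl⟩⟩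

/-- The map `Option (Fin p) → SL(2, ℤ) ⧸ Γ₀(p)`, `none ↦ ⟦1⟧`, `some j ↦ ⟦(S T^j)⁻¹⟧`. -/
def cosetMap (p : ℕ) (i : Option (Fin p)) : Q0 p :=
  QuotientGroup.mk (cosetRep p i)

@[simp]
theorem cosetMap_none (p : ℕ) : cosetMap p none = (QuotientGroup.mk 1 : Q0 p) :=
  rfl

theorem cosetMap_some (p : ℕ) (j : Fin p) :
    cosetMap p (some j) = (QuotientGroup.mk
      (⟨mapGL ℝ ((S * T ^ ((j : ℕ) : ℤ) : SL(2, ℤ))⁻¹), ⟨_, rfl⟩⟩ : ↥𝒮ℒ) : Q0 p) :=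
  rfl

theorem cosetMap_bijective (p : ℕ) [hp : Fact p.Prime] : Function.Bijective (cosetMap p) := by
  constructor
  · intro i i' h
    simp only [cosetMap] at h
    rw [QuotientGroup.eq, Subgroup.mem_subgroupOf] at h
    rcases i with _ | j <;> rcases i' with _ | j'
    · rfl
    · exfalso
      simp only [cosetRep, inv_one, one_mul] at h
      have h2 := inv_mem h
      rw [← map_inv, inv_inv, mem_G0_iff] at h2
      exact S_mul_T_zpow_notMem_Gamma0 hp.out _ h2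
    · exfalso
      simp only [cosetRep, mul_one, Subgroup.coe_inv] at h
      rw [← map_inv, inv_inv, mem_G0_iff] at h
      exact S_mul_T_zpow_notMem_Gamma0 hp.out _ h
    · simp only [cosetRep, Subgroup.coe_mul, Subgroup.coe_inv] at h
      rw [← map_inv, ← map_mul, inv_inv, mem_G0_iff] at h
      exact congrArg some (Fin.ext (eq_of_S_mul_T_zpow_mul_inv_mem j.2 j'.2 h))
  · intro x
    induction x using QuotientGroup.induction_on with
    | H z =>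
      obtain ⟨γ, hγ⟩ := z
      obtain ⟨g, rfl⟩ := hγ
      rcases mem_or_exists_S_mul_T_zpow_mul_mem hp.out g with h1 | ⟨j, hj, h1⟩
      · refine ⟨none, ?_⟩
        simp only [cosetMap]
        rw [QuotientGroup.eq, Subgroup.mem_subgroupOf]
        simp only [cosetRep, inv_one, one_mul]
        exact mem_G0_iff.mpr h1
      · refine ⟨some ⟨j, hj⟩, ?_⟩
        simp only [cosetMap]
        rw [QuotientGroup.eq, Subgroup.mem_subgroupOf]
        simp only [cosetRep, Subgroup.coe_mul, Subgroup.coe_inv]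
        rw [← map_inv, inv_inv, ← map_mul, mem_G0_iff]
        exact h1

/-- `Option (Fin p) ≃ SL(2, ℤ) ⧸ Γ₀(p)`. -/
def cosetEquiv (p : ℕ) [Fact p.Prime] : Option (Fin p) ≃ Q0 p :=
  Equiv.ofBijective (cosetMap p) (cosetMap_bijective p)

@[simp]
theorem cosetEquiv_apply (p : ℕ) [Fact p.Prime] (i : Option (Fin p)) :
    cosetEquiv p i = cosetMap p i :=
  rfl

theorem card_Q0 (p : ℕ) [Fact p.Prime] : Nat.card (Q0 p) = p + 1 := by
  rw [← Nat.card_congr (cosetEquiv p)]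
  simp

/-! ### The translates of a `Γ₀(p)`-invariant form -/

section Forms

variable {p : ℕ} {F : Type*} [FunLike F ℍ ℂ] {k : ℤ} [SlashInvariantFormClass F (G0 p) k] (f : F)

theorem quotientFunc_cosetMap_none :
    SlashInvariantForm.quotientFunc (ℋ := 𝒮ℒ) f (cosetMap p none) = ⇑f := by
  show SlashInvariantForm.quotientFunc f ⟦(1 : ↥𝒮ℒ)⟧ = _
  rw [SlashInvariantForm.quotientFunc_mk]
  simp

theorem quotientFunc_cosetMap_some (j : Fin p) :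
    SlashInvariantForm.quotientFunc (ℋ := 𝒮ℒ) f (cosetMap p (some j))
      = ⇑f ∣[k] (S * T ^ ((j : ℕ) : ℤ) : SL(2, ℤ)) := by
  show SlashInvariantForm.quotientFunc f
    ⟦(⟨mapGL ℝ ((S * T ^ ((j : ℕ) : ℤ) : SL(2, ℤ))⁻¹), ⟨_, rfl⟩⟩ : ↥𝒮ℒ)⟧ = _
  rw [SlashInvariantForm.quotientFunc_mk, ModularForm.SL_slash]
  congr 1
  show (mapGL ℝ ((S * T ^ ((j : ℕ) : ℤ) : SL(2, ℤ))⁻¹))⁻¹ = _
  rw [← map_inv, inv_inv]
  rfl

variable [Fact p.Prime]

/-- A sum over `SL(2, ℤ) ⧸ Γ₀(p)` of the translates of `f`. -/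
theorem sum_quotientFunc_eq [Fintype (Q0 p)] :
    (∑ q : Q0 p, SlashInvariantForm.quotientFunc f q)
      = ⇑f + ∑ j : Fin p, ⇑f ∣[k] (S * T ^ ((j : ℕ) : ℤ) : SL(2, ℤ)) := by
  rw [← Equiv.sum_comp (cosetEquiv p), Fintype.sum_option]
  simp only [cosetEquiv_apply, quotientFunc_cosetMap_none, quotientFunc_cosetMap_some]

/-- A product over `SL(2, ℤ) ⧸ Γ₀(p)` of the translates of `f`. -/
theorem prod_quotientFunc_eq [Fintype (Q0 p)] :
    (∏ q : Q0 p, SlashInvariantForm.quotientFunc f q)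
      = ⇑f * ∏ j : Fin p, ⇑f ∣[k] (S * T ^ ((j : ℕ) : ℤ) : SL(2, ℤ)) := by
  rw [← Equiv.prod_comp (cosetEquiv p), Fintype.prod_option]
  simp only [cosetEquiv_apply, quotientFunc_cosetMap_none, quotientFunc_cosetMap_some]

/-- General form: any function of the translates, summed over the quotient. -/
theorem sum_comp_quotientFunc_eq {A : Type*} [AddCommMonoid A] [Fintype (Q0 p)]
    (Φ : (ℍ → ℂ) → A) :
    (∑ q : Q0 p, Φ (SlashInvariantForm.quotientFunc f q))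
      = Φ ⇑f + ∑ j : Fin p, Φ (⇑f ∣[k] (S * T ^ ((j : ℕ) : ℤ) : SL(2, ℤ))) := by
  rw [← Equiv.sum_comp (cosetEquiv p), Fintype.sum_option]
  simp only [cosetEquiv_apply, quotientFunc_cosetMap_none, quotientFunc_cosetMap_some]

end Forms

end

end Fermat.Agent.S16.H2
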