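import Mathlib
import Fermat.Agent.S16.H2_Gamma0Cosets

/-!
# S16 / (U5b) helper (helper2): the Fricke involution normalises `Γ₀(p)`

`frickeW p = [[0, -1], [p, 0]] ∈ GL(2, ℝ)` (any `p ≥ 1`).

* `conjAct_frickeW_G0 : toConjAct (frickeW p)⁻¹ • G0 p = G0 p`;
* `fricke G : ModularForm (G0 p) k` with `⇑(fricke G) = ⇑G ∣[k] frickeW p`;
* `fricke_apply : fricke G z = (p : ℂ)^(k-1) * ((p : ℂ) * z)^(-k) * G (frickeW p • z)`, and
  `coe_frickeW_smul : ((frickeW p • z : ℍ) : ℂ) = -1 / (p * z)`;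
* `slash_S_eq_general`, `slash_S_eq` : `(G ∣[k] S) z = p^(1-k) * fricke G w` for `w = z / p`
  (weight `2`: `= p⁻¹ * fricke G w`);
* `fricke_slash_S_eq_general`, `fricke_slash_S_eq` : `(fricke G ∣[k] S) z = (-1)^k p⁻¹ G w`;
* `fricke_fricke` : in weight `2`, `fricke (fricke G) = G`.
-/

set_option autoImplicit false

namespace Fermat.Agent.S16.H2

open UpperHalfPlane CongruenceSubgroup ModularGroup Matrix.SpecialLinearGroup
open scoped MatrixGroups ModularForm Pointwise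

noncomputable section

variable (p : ℕ) [NeZero p]

/-- The Fricke matrix `[[0, -1], [p, 0]]`. -/
def frickeW : GL (Fin 2) ℝ :=
  Matrix.GeneralLinearGroup.mkOfDetNeZero !![0, -1; (p : ℝ), 0] (by
    rw [Matrix.det_fin_two_of]
    have : (p : ℝ) ≠ 0 := Nat.cast_ne_zero.mpr (NeZero.ne p)
    simpa using this)

@[simp]
theorem val_frickeW : (frickeW p).val = !![0, -1; (p : ℝ), 0] := rfl

theorem det_frickeW : (frickeW p).det.val = (p : ℝ) := by
  simp [Matrix.GeneralLinearGroup.val_det_apply, Matrix.det_fin_two_of]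

theorem det_frickeW_pos : 0 < (frickeW p).det.val := by
  rw [det_frickeW]
  exact Nat.cast_pos.mpr (Nat.pos_of_ne_zero (NeZero.ne p))

theorem num_frickeW (z : ℂ) : num (frickeW p) z = -1 := by
  simp [num]

theorem denom_frickeW (z : ℂ) : denom (frickeW p) z = (p : ℂ) * z := by
  simp [denom]

theorem σ_frickeW (x : ℂ) : σ (frickeW p) x = x := by
  rw [σ, if_pos (det_frickeW_pos p)]
  rfl

theorem coe_frickeW_smul (z : ℍ) : ((frickeW p • z : ℍ) : ℂ) = -1 / ((p : ℂ) * z) := by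
  rw [coe_smul_of_det_pos (det_frickeW_pos p), num_frickeW, denom_frickeW]

/-! ### Conjugation by `W` preserves `Γ₀(p)` -/

/-- For `γ = [[a, b], [c, d]] ∈ Γ₀(p)`, the matrix `γ' = [[d, -c/p], [-b p, a]] ∈ Γ₀(p)` satisfies
`W γ' = γ W` and `γ' W = W γ`. -/
theorem exists_frickeConj {γ : SL(2, ℤ)} (hγ : γ ∈ Gamma0 p) :
    ∃ γ' : SL(2, ℤ), γ' ∈ Gamma0 p ∧
      frickeW p * mapGL ℝ γ' = mapGL ℝ γ * frickeW p ∧
      mapGL ℝ γ' * frickeW p = frickeW p * mapGL ℝ γ := by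
  obtain ⟨c', hc'⟩ := mem_Gamma0_iff_dvd.mp hγ
  have h1 := γ.det_coe
  rw [Matrix.det_fin_two, hc'] at h1
  refine ⟨⟨!![γ 1 1, -c'; -(γ 0 1 * p), γ 0 0], ?_⟩, ?_, ?_, ?_⟩
  · rw [Matrix.det_fin_two_of]
    linear_combination h1
  · rw [mem_Gamma0_iff_dvd]
    exact ⟨-(γ 0 1), by simp; ring⟩
  · apply Units.ext
    rw [Units.val_mul, Units.val_mul, mapGL_coe_matrix, mapGL_coe_matrix, val_frickeW]
    ext i j
    fin_cases i <;> fin_cases j <;>
      simp [Matrix.mul_apply, Fin.sum_univ_two, hc'] <;> ring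
  · apply Units.ext
    rw [Units.val_mul, Units.val_mul, mapGL_coe_matrix, mapGL_coe_matrix, val_frickeW]
    ext i j
    fin_cases i <;> fin_cases j <;>
      simp [Matrix.mul_apply, Fin.sum_univ_two, hc'] <;> ring

theorem frickeW_inv_mul_mul_mem {g : GL (Fin 2) ℝ} (hg : g ∈ G0 p) :
    (frickeW p)⁻¹ * g * frickeW p ∈ G0 p := by
  obtain ⟨γ, hγ, rfl⟩ := hg
  obtain ⟨γ', hγ', h1, -⟩ := exists_frickeConj p hγ
  have : (frickeW p)⁻¹ * mapGL ℝ γ * frickeW p = mapGL ℝ γ' := by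
    rw [mul_assoc, ← h1, inv_mul_cancel_left]
  exact this ▸ mem_G0_iff.mpr hγ'

theorem frickeW_mul_mul_inv_mem {g : GL (Fin 2) ℝ} (hg : g ∈ G0 p) :
    frickeW p * g * (frickeW p)⁻¹ ∈ G0 p := by
  obtain ⟨γ, hγ, rfl⟩ := hg
  obtain ⟨γ', hγ', -, h2⟩ := exists_frickeConj p hγ
  have : frickeW p * mapGL ℝ γ * (frickeW p)⁻¹ = mapGL ℝ γ' := by
    rw [← h2, mul_inv_cancel_right]
  exact this ▸ mem_G0_iff.mpr hγ'

/-- **The Fricke matrix normalises `Γ₀(p)`.** -/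
theorem conjAct_frickeW_G0 : ConjAct.toConjAct (frickeW p)⁻¹ • G0 p = G0 p := by
  ext x
  rw [map_inv, Subgroup.mem_inv_pointwise_smul_iff, ConjAct.toConjAct_smul]
  constructor
  · intro h
    have := frickeW_inv_mul_mul_mem p h
    simpa [mul_assoc] using this
  · intro h
    exact frickeW_mul_mul_inv_mem p h

/-! ### The Fricke involution on modular forms -/

variable {p} {k : ℤ}

/-- The Fricke involution `G ↦ G ∣[k] W` on `M_k(Γ₀(p))`. -/
def fricke (G : ModularForm (G0 p) k) : ModularForm (G0 p) k :=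
  ModularForm.mcast rfl (ModularForm.translate G (frickeW p)) (conjAct_frickeW_G0 p).symm

@[simp]
theorem coe_fricke (G : ModularForm (G0 p) k) : ⇑(fricke G) = ⇑G ∣[k] frickeW p :=
  rfl

theorem fricke_apply (G : ModularForm (G0 p) k) (z : ℍ) :
    fricke G z = (p : ℂ) ^ (k - 1) * ((p : ℂ) * z) ^ (-k) * G (frickeW p • z) := by
  rw [coe_fricke, ModularForm.slash_apply, σ_frickeW, det_frickeW, denom_frickeW,
    abs_of_nonneg (Nat.cast_nonneg p)]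
  push_cast
  ring

/-- `(G ∣[k] S)(z) = p^(1-k) (W G)(z/p)`. -/
theorem slash_S_eq_general (G : ModularForm (G0 p) k) (z w : ℍ) (hw : (w : ℂ) = z / p) :
    (⇑G ∣[k] (S : SL(2, ℤ))) z = (p : ℂ) ^ (1 - k) * fricke G w := by
  have hp : (p : ℂ) ≠ 0 := Nat.cast_ne_zero.mpr (NeZero.ne p)
  have hz : (z : ℂ) ≠ 0 := ne_zero z
  have hpt : frickeW p • w = S • z := by
    apply UpperHalfPlane.ext
    rw [coe_frickeW_smul, hw, modular_S_smul]
    show _ = (-(z : ℂ))⁻¹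
    field_simp
  rw [fricke_apply, hpt, ModularForm.SL_slash_apply, hw]
  have hden : denom (S : SL(2, ℤ)) z = z := by
    simp [denom, ModularGroup.S]
  rw [hden, mul_div_cancel₀ _ hp, ← mul_assoc, ← mul_assoc, ← zpow_add₀ hp]
  have : (1 - k + (k - 1) : ℤ) = 0 := by ring
  rw [this, zpow_zero, one_mul, mul_comm]

/-- Weight two: `(G ∣[2] S)(z) = p⁻¹ (W G)(z/p)`. -/
theorem slash_S_eq (G : ModularForm (G0 p) 2) (z w : ℍ) (hw : (w : ℂ) = z / p) :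
    (⇑G ∣[(2 : ℤ)] (S : SL(2, ℤ))) z = (p : ℂ)⁻¹ * fricke G w := by
  rw [slash_S_eq_general G z w hw]
  norm_num

/-- `((W G) ∣[k] S)(z) = (-1)^k p⁻¹ G(z/p)`. -/
theorem fricke_slash_S_eq_general (G : ModularForm (G0 p) k) (z w : ℍ) (hw : (w : ℂ) = z / p) :
    (⇑(fricke G) ∣[k] (S : SL(2, ℤ))) z = (-1 : ℂ) ^ k * (p : ℂ)⁻¹ * G w := by
  have hp : (p : ℂ) ≠ 0 := Nat.cast_ne_zero.mpr (NeZero.ne p)
  have hz : (z : ℂ) ≠ 0 := ne_zero z
  have hS : ((S • z : ℍ) : ℂ) = (-(z : ℂ))⁻¹ := by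
    rw [modular_S_smul]
  have hpt : frickeW p • (S • z) = w := by
    apply UpperHalfPlane.ext
    rw [coe_frickeW_smul, hS, hw]
    field_simp
  have hden : denom (S : SL(2, ℤ)) z = z := by
    simp [denom, ModularGroup.S]
  rw [ModularForm.SL_slash_apply, fricke_apply, hpt, hden, hS]
  have h1 : (p : ℂ) * (-(z : ℂ))⁻¹ = (-1 : ℂ) * (p : ℂ) * (z : ℂ)⁻¹ := by
    field_simp
  rw [h1, mul_zpow, mul_zpow, inv_zpow', neg_neg]
  have h2 : (z : ℂ) ^ k * (z : ℂ) ^ (-k) = 1 := by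
    rw [← zpow_add₀ hz, add_neg_cancel, zpow_zero]
  have h3 : (p : ℂ) ^ (k - 1) * (p : ℂ) ^ (-k) = (p : ℂ)⁻¹ := by
    rw [← zpow_add₀ hp]
    have : (k - 1 + -k : ℤ) = -1 := by ring
    rw [this, zpow_neg_one]
  have h4 : (-1 : ℂ) ^ (-k) = (-1 : ℂ) ^ k := by
    rw [zpow_neg, ← inv_zpow, inv_neg_one]
  calc (p : ℂ) ^ (k - 1) * ((-1 : ℂ) ^ (-k) * (p : ℂ) ^ (-k) * (z : ℂ) ^ k) * G w
        * (z : ℂ) ^ (-k)
      = (-1 : ℂ) ^ (-k) * ((p : ℂ) ^ (k - 1) * (p : ℂ) ^ (-k))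
          * ((z : ℂ) ^ k * (z : ℂ) ^ (-k)) * G w := by ring
    _ = (-1 : ℂ) ^ k * (p : ℂ)⁻¹ * G w := by rw [h2, h3, h4, mul_one]

/-- Weight two: `((W G) ∣[2] S)(z) = p⁻¹ G(z/p)`. -/
theorem fricke_slash_S_eq (G : ModularForm (G0 p) 2) (z w : ℍ) (hw : (w : ℂ) = z / p) :
    (⇑(fricke G) ∣[(2 : ℤ)] (S : SL(2, ℤ))) z = (p : ℂ)⁻¹ * G w := by
  rw [fricke_slash_S_eq_general G z w hw]
  norm_num

/-- The point `z / p` of the upper half plane. -/
def divPt (p : ℕ) [NeZero p] (z : ℍ) : ℍ :=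
  ⟨(z : ℂ) / p, by
    have hp : (0 : ℝ) < p := Nat.cast_pos.mpr (Nat.pos_of_ne_zero (NeZero.ne p))
    have : ((z : ℂ) / (p : ℂ)).im = z.im / p := by
      rw [← Complex.ofReal_natCast, Complex.div_ofReal_im]
      rfl
    rw [this]
    exact div_pos z.im_pos hp⟩

@[simp]
theorem coe_divPt (z : ℍ) : ((divPt p z : ℍ) : ℂ) = z / p := rfl

/-- In weight two the Fricke involution is an involution. -/
theorem fricke_fricke (G : ModularForm (G0 p) 2) : fricke (fricke G) = G := by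
  have hp : (p : ℂ) ≠ 0 := Nat.cast_ne_zero.mpr (NeZero.ne p)
  ext z
  have hz : (z : ℂ) ≠ 0 := ne_zero z
  have hpt : frickeW p • (frickeW p • z) = z := by
    apply UpperHalfPlane.ext
    rw [coe_frickeW_smul, coe_frickeW_smul]
    field_simp
  rw [fricke_apply, fricke_apply, hpt, coe_frickeW_smul]
  have : (p : ℂ) ^ ((2 : ℤ) - 1) * ((p : ℂ) * z) ^ (-(2 : ℤ))
      * ((p : ℂ) ^ ((2 : ℤ) - 1) * ((p : ℂ) * (-1 / ((p : ℂ) * z))) ^ (-(2 : ℤ)) * G z) = G z := by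
    have e1 : (p : ℂ) * (-1 / ((p : ℂ) * z)) = -(z : ℂ)⁻¹ := by
      field_simp
    rw [e1]
    norm_num
    field_simp
  exact this

end

end Fermat.Agent.S16.H2
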