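/-
S16 project, GEO-e instance (helper34): the reduction of the Hesse `jY` to the special fibre of the
Hesse line, `hesJ X = 27 X³ (X³+8)³ / (X³-1)³ ∈ k(X)`, is transcendental over `k` as soon as
`3 ≠ 0` in `k`.  This is the hypothesis `htr` of `S16.H34.exists_place_B0` at the Hesse chart.
-/
import Fermat.Agent.S18.H26_BaseLineHes

set_option autoImplicit false

namespace Fermat.Agent.S16.H34

open Polynomial Fermat.Agent.S18

/-- `hesJ X` is not constant. -/
theorem transcendental_hesJ_X (k : Type*) [Field k] (h3 : (3 : k) ≠ 0) :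
    Transcendental k (H26.hesJ (RatFunc.X : RatFunc k)) := by
  classical
  apply RatFunc.transcendental_of_ne_C
  rintro ⟨c, hc⟩
  have hinj := RatFunc.algebraMap_injective k
  have hX : (RatFunc.X : RatFunc k) = algebraMap k[X] (RatFunc k) X := RatFunc.algebraMap_X.symm
  have hB : H26.hesB (RatFunc.X : RatFunc k) = algebraMap k[X] (RatFunc k) ((X ^ 3 - 1) ^ 3) := by
    unfold H26.hesB; rw [hX]; simp only [map_pow, map_sub, map_one]
  have hA : H26.hesA (RatFunc.X : RatFunc k) =
      algebraMap k[X] (RatFunc k) (X ^ 3 * (X ^ 3 + C 8) ^ 3) := by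
    unfold H26.hesA; rw [hX]
    simp only [map_pow, map_mul, map_add, map_ofNat]
  have hmon : ((X : k[X]) ^ 3 - C 1).Monic := monic_X_pow_sub_C 1 (by norm_num)
  have hB0 : H26.hesB (RatFunc.X : RatFunc k) ≠ 0 := by
    rw [hB]
    intro h0
    rw [map_eq_zero_iff _ hinj] at h0
    have := pow_ne_zero 3 hmon.ne_zero
    rw [map_one] at this
    exact this h0
  have hrel := H26.hesJ_mul_hesB hB0
  rw [hc, hA, hB, ← RatFunc.algebraMap_C] at hrel
  have h27 : (27 : RatFunc k) = algebraMap k[X] (RatFunc k) (C 27) := by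
    rw [Polynomial.C_ofNat, map_ofNat]
  rw [h27, ← map_mul, ← map_mul] at hrel
  have hpoly := hinj hrel
  -- evaluate at `0`
  have h0 := congrArg (Polynomial.eval 0) hpoly
  simp only [eval_mul, eval_C, eval_pow, eval_sub, eval_X, eval_one, eval_add] at h0
  have hc0 : c = 0 := by
    have h' : c * (0 ^ 3 - 1) ^ 3 = 27 * (0 ^ 3 * (0 ^ 3 + 8) ^ 3) := h0
    linear_combination -h'
  rw [hc0, map_zero, zero_mul] at hpoly
  have h27' : (27 : k) ≠ 0 := by
    have : (27 : k) = 3 ^ 3 := by norm_num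
    rw [this]; exact pow_ne_zero 3 h3
  have hmon2 : ((X : k[X]) ^ 3 + C 8).Monic := monic_X_pow_add_C 8 (by norm_num)
  have hne : (C 27 : k[X]) * (X ^ 3 * (X ^ 3 + C 8) ^ 3) ≠ 0 :=
    mul_ne_zero (C_ne_zero.2 h27') (mul_ne_zero (pow_ne_zero 3 X_ne_zero)
      (pow_ne_zero 3 hmon2.ne_zero))
  exact hne hpoly.symm

/-- The `htr` input of `exists_place_B0` at the Hesse line. -/
theorem transcendental_toRatFunc_hes_jY {A₁ : Type*} [CommRing A₁] {k : Type*} [Field k]
    (res : A₁ →+* k) (h3 : (3 : k) ≠ 0) :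
    Transcendental k (H26.LineRing.toRatFunc (H26.hesLineF A₁) res (H26.HesLine.map_ne_zero res)
      (H26.HesLine.jY A₁)) := by
  rw [H26.HesLine.toRatFunc_jY]
  exact transcendental_hesJ_X k h3

end Fermat.Agent.S16.H34
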