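/-
S16 project, GEO-e instance, the (A)-seam (helper34): **the place of the special fibre of the
auxiliary cover over the point `μ = 0` of the auxiliary line, in instance-free form on
`B0 := integralClosure A₁[j1] F'`.**

Input: helper70's `S16.H70.exists_place_over_point` (a place `(κ, φ, O)` on
`B' := integralClosure (H26.LineRing f) F'` with uniformiser `φ μ`), `S16.H70.auxLineConds` and
helper41's `S16.H41.ker_comp_algebraMap_eq_span`.

Output (`exists_place_B0`), chart-parametric, same binder block: a field `κ`, a ring homomorphism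
`φ : B0 → κ` and a valuation subring `O ⊇ φ B0` of `κ` such that
* `φ ϖ = 0`;
* `φ μ ≠ 0`, `v (φ μ) < 1`, `v (φ μ)` is not a square and is the largest value `< 1`;
* `φ (s(j1)) ≠ 0` for every `s : A₁[X]` which is nonzero mod `ϖ` (the place lies over the generic
  point of the special fibre of the `j`-line), provided the reduction of `jY` is transcendental.
Every clause is stated as `∀ x : B0, (x : F') = <element> → …`, so no subtype proof term has to be
matched by the consumer.
-/
import Fermat.Agent.S16.H70_AuxLinePlace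

set_option autoImplicit false
set_option linter.unusedSectionVars false
set_option linter.style.haveILetI false

namespace Fermat.Agent.S16.H34

open Polynomial IntermediateField AlgebraicCurve Fermat.Agent.S18

/-- Integrality over a ring homomorphism only depends on the range. -/
theorem isIntegralElem_of_range_le {R R' S : Type*} [CommRing R] [CommRing R'] [CommRing S]
    (f : R →+* S) (g : R' →+* S) (h : f.range ≤ g.range) {x : S} (hx : f.IsIntegralElem x) :
    g.IsIntegralElem x := by
  classical
  rcases subsingleton_or_nontrivial S with hS | hS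
  · exact ⟨X, monic_X, Subsingleton.elim _ _⟩
  obtain ⟨p, hp, hpx⟩ := hx
  have hlift : p.map f ∈ Polynomial.lifts g := by
    rw [Polynomial.lifts_iff_coeff_lifts]
    intro n
    rw [Polynomial.coeff_map]
    exact h ⟨p.coeff n, rfl⟩
  obtain ⟨q, hq, -, hqm⟩ := Polynomial.lifts_and_degree_eq_and_monic hlift (hp.map f)
  refine ⟨q, hqm, ?_⟩
  rw [← Polynomial.eval_map, hq, Polynomial.eval_map]
  exact hpx

/-- In a linearly ordered group with zero: if every nonzero value is an integral power of
`g < 1`, then `g` is the largest value `< 1`. -/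
theorem le_of_zpow_of_lt_one {Γ : Type*} [LinearOrderedCommGroupWithZero Γ] {g y : Γ}
    (hg0 : g ≠ 0) (hg : g < 1) (hy : y < 1) (hpow : y ≠ 0 → ∃ m : ℤ, y = g ^ m) : y ≤ g := by
  by_cases hy0 : y = 0
  · rw [hy0]; exact zero_le
  obtain ⟨m, rfl⟩ := hpow hy0
  have hgpos : 0 < g := zero_lt_iff.2 hg0
  have hm : 1 ≤ m := by
    by_contra hlt
    push Not at hlt
    obtain ⟨n, rfl⟩ : ∃ n : ℕ, m = -(n : ℤ) := ⟨(-m).toNat, by omega⟩
    have : (1 : Γ) ≤ g ^ (-(n : ℤ)) := by
      rw [zpow_neg, zpow_natCast]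
      exact (one_le_inv₀ (pow_pos hgpos n)).2 (pow_le_one₀ zero_le hg.le)
    exact absurd hy (not_lt.2 this)
  obtain ⟨n, rfl⟩ : ∃ n : ℕ, m = (n : ℤ) + 1 := ⟨(m - 1).toNat, by omega⟩
  rw [zpow_add_one₀ hg0, zpow_natCast]
  calc g ^ n * g ≤ 1 * g := mul_le_mul_left (pow_le_one₀ zero_le hg.le) _
    _ = g := one_mul g

section Main

universe u v

variable {A₁ : Type*} {L1 : Type u} {F1 : Type*} {F' : Type v}
  [CommRing A₁] [IsDomain A₁] [IsDiscreteValuationRing A₁]
  [Field L1] [Algebra A₁ L1] [IsFractionRing A₁ L1] [CharZero L1]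
  [Field F1] [Algebra L1 F1] [Algebra A₁ F1] [IsScalarTower A₁ L1 F1]
  [Field F'] [Algebra F1 F'] [Algebra L1 F'] [IsScalarTower L1 F1 F'] [Algebra A₁ F']
  [IsScalarTower A₁ L1 F']

set_option maxHeartbeats 1600000 in
set_option synthInstance.maxHeartbeats 400000 in
/-- **The place over `μ = 0`, on `B0 = integralClosure A₁[j1] F'`** (chart-parametric). -/
theorem exists_place_B0
    {ϖ : A₁} (hϖ : Irreducible ϖ)
    {k : Type} [Field k] (res : A₁ →+* k) (hres : Function.Surjective res)
    (hker : RingHom.ker res = Ideal.span {ϖ})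
    (j1 θ : F1) (hgen : L1⟮j1⟯⟮θ⟯ = ⊤)
    [FiniteDimensional L1⟮j1⟯ F1]
    (μ : F') (hμ : Transcendental L1 μ) (hμtop : F1⟮μ⟯ = ⊤) [FiniteDimensional L1⟮μ⟯ F']
    (f : A₁[X]) (hf : f.map res ≠ 0) (hfμ : IsUnit (aeval μ f))
    [IsDomain (H26.LineRing f)] (hμA : Transcendental A₁ μ)
    (jY : H26.LineRing f) (hjY : H26.LineRing.liftAlg f μ hfμ jY = algebraMap F1 F' j1)
    (Φ : (H26.LineRing f)[X]) (hΦ : Φ.Monic)
    (hroot : Φ.eval₂ (H26.LineRing.liftAlg f μ hfμ).toRingHom (algebraMap F1 F' θ) = 0)
    (hsep : (Φ.map (H26.LineRing.toRatFunc f res hf)).Separable)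
    (hunr : ∀ (v : Place L1 F') (g₀ : L1[X]), Irreducible g₀ →
      ¬ g₀ ∣ f.map (algebraMap A₁ L1) → 0 < v.ord (aeval μ g₀) → v.ord (aeval μ g₀) = 1)
    (hf0 : res (f.eval 0) ≠ 0)
    (htr : Transcendental k (H26.LineRing.toRatFunc f res hf jY)) :
    ∃ (κ : Type v) (_ : Field κ)
      (φ : integralClosure ↥(Algebra.adjoin A₁ {j1}) F' →+* κ) (O : ValuationSubring κ),
      (∀ b, φ b ∈ O) ∧
      (∀ x : integralClosure ↥(Algebra.adjoin A₁ {j1}) F',
        (x : F') = algebraMap A₁ F' ϖ → φ x = 0) ∧
      (∀ x : integralClosure ↥(Algebra.adjoin A₁ {j1}) F', (x : F') = μ →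
        φ x ≠ 0 ∧ O.valuation (φ x) < 1 ∧ (∀ γ : O.ValueGroup, γ ^ 2 ≠ O.valuation (φ x)) ∧
          ∀ y : κ, O.valuation y < 1 → O.valuation y ≤ O.valuation (φ x)) ∧
      (∀ (s : A₁[X]) (x : integralClosure ↥(Algebra.adjoin A₁ {j1}) F'),
        (x : F') = algebraMap F1 F' (aeval j1 s) → s.map res ≠ 0 → φ x ≠ 0) := by
  classical
  have hconds := H70.auxLineConds hϖ res hker j1 θ hgen μ hμ hμtop f hf hfμ hμA jY hjY Φ hΦ hroot
    hsep hunr
  unfold H70.AuxLineConds at hconds
  have hplace := H70.exists_place_over_point hϖ res hres hker j1 θ hgen μ hμ hμtop f hf hfμ hμA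
    jY hjY Φ hΦ hroot hsep hunr (0 : A₁) hf0
  have hcz : CharZero A₁ := by
    refine ⟨fun a b hab => ?_⟩
    have : ((a : ℕ) : L1) = ((b : ℕ) : L1) := by
      rw [← map_natCast (algebraMap A₁ L1), ← map_natCast (algebraMap A₁ L1), hab]
    exact Nat.cast_injective this
  have hϖ0 : ϖ ≠ 0 := hϖ.ne_zero
  have hf0' : f ≠ 0 := H26.LineRing.ne_zero_of_map_ne_zero f res hf
  have htAF : IsScalarTower A₁ F1 F' := IsScalarTower.of_algebraMap_eq (fun a => by
    rw [IsScalarTower.algebraMap_apply A₁ L1 F', IsScalarTower.algebraMap_apply L1 F1 F',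
      ← IsScalarTower.algebraMap_apply A₁ L1 F1])
  letI algR'F' : Algebra (H26.LineRing f) F' := H26.LineRing.algebraOfCoord f μ hfμ
  have htR' : IsScalarTower A₁ (H26.LineRing f) F' :=
    H26.LineRing.isScalarTower_algebraOfCoord f μ hfμ
  haveI hfaith : FaithfulSMul (H26.LineRing f) F' :=
    H26.LineRing.faithfulSMul_algebraOfCoord f μ hfμ hμA
  letI algK'F' : Algebra (FractionRing (H26.LineRing f)) F' := FractionRing.liftAlgebra _ _
  haveI htK' : IsScalarTower (H26.LineRing f) (FractionRing (H26.LineRing f)) F' :=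
    FractionRing.isScalarTower_liftAlgebra _ _
  obtain ⟨hfin, hV, hH⟩ := hconds
  haveI := hfin
  haveI : IsNoetherianRing (H26.LineRing f) := H79.Away.isNoetherianRing f
  haveI : IsIntegrallyClosed (H26.LineRing f) := H79.Away.isIntegrallyClosed res f hf
  haveI hczR' : CharZero (H26.LineRing f) :=
    charZero_of_injective_algebraMap (H26.LineRing.algebraMap_injective f hf0')
  haveI hczK' : CharZero (FractionRing (H26.LineRing f)) :=
    charZero_of_injective_algebraMap
      (IsFractionRing.injective (H26.LineRing f) (FractionRing (H26.LineRing f)))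
  haveI hsep' : Algebra.IsSeparable (FractionRing (H26.LineRing f)) F' := inferInstance
  have hπ : Prime (algebraMap A₁ (H26.LineRing f) ϖ) :=
    H26.LineRing.prime_algebraMap f res hker hϖ0 hf
  haveI hPID : IsPrincipalIdealRing
      (H26.LineRing f ⧸ Ideal.span {algebraMap A₁ (H26.LineRing f) ϖ}) :=
    H26.LineRing.isPrincipalIdealRing_quotient f res hres hker hf
  have halgR'F' : ∀ r : H26.LineRing f,
      algebraMap (H26.LineRing f) F' r = H26.LineRing.liftAlg f μ hfμ r := fun _ => rfl
  have halgR0F' : ∀ x : Algebra.adjoin A₁ {j1},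
      algebraMap (Algebra.adjoin A₁ {j1}) F' x = algebraMap F1 F' (x : F1) := fun _ => rfl
  obtain ⟨κ, instκ, φ, O, hφπ, hfrac, hO, hOtop, ht0, ht_lt, hnsq, hzpow⟩ := hplace
  -- the kernel of `R' → B' → κ` is `(ϖ)`
  have hkerR' := S16.H41.ker_comp_algebraMap_eq_span (FractionRing (H26.LineRing f)) F'
    (B := integralClosure (H26.LineRing f) F') hπ φ hφπ hfrac O hO hOtop
  -- ## `B0 ⊆ B'`
  have hrange : (algebraMap (Algebra.adjoin A₁ {j1}) F').range ≤
      (algebraMap (H26.LineRing f) F').range := by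
    have key : ∀ y ∈ Algebra.adjoin A₁ {j1},
        algebraMap F1 F' y ∈ (algebraMap (H26.LineRing f) F').range := by
      intro y hy
      induction hy using Algebra.adjoin_induction with
      | mem y hy =>
        rw [Set.mem_singleton_iff] at hy
        exact ⟨jY, by rw [halgR'F', hjY, hy]⟩
      | algebraMap a =>
        refine ⟨algebraMap A₁ (H26.LineRing f) a, ?_⟩
        rw [halgR'F', AlgHom.commutes, ← IsScalarTower.algebraMap_apply A₁ F1 F']
      | add y z _ _ hy hz =>
        rw [map_add]; exact Subring.add_mem _ hy hz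
      | mul y z _ _ hy hz =>
        rw [map_mul]; exact Subring.mul_mem _ hy hz
    rintro _ ⟨x, rfl⟩
    rw [halgR0F']
    exact key _ x.2
  have hmemB' : ∀ x : integralClosure ↥(Algebra.adjoin A₁ {j1}) F',
      (x : F') ∈ integralClosure (H26.LineRing f) F' := fun x =>
    isIntegralElem_of_range_le _ _ hrange x.2
  let incl : integralClosure ↥(Algebra.adjoin A₁ {j1}) F' →+*
      integralClosure (H26.LineRing f) F' :=
    { toFun := fun x => ⟨(x : F'), hmemB' x⟩
      map_one' := rfl
      map_mul' := fun _ _ => rfl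
      map_zero' := rfl
      map_add' := fun _ _ => rfl }
  have hincl : ∀ x, ((incl x : integralClosure (H26.LineRing f) F') : F') = (x : F') := fun _ => rfl
  have hcoe : ∀ r : H26.LineRing f,
      ((algebraMap (H26.LineRing f) (integralClosure (H26.LineRing f) F') r :
        integralClosure (H26.LineRing f) F') : F') = H26.LineRing.liftAlg f μ hfμ r := fun _ => rfl
  refine ⟨κ, instκ, φ.comp incl, O, fun b => hO _, ?_, ?_, ?_⟩
  · -- `φ ϖ = 0`
    intro x hx
    have : incl x = algebraMap (H26.LineRing f) (integralClosure (H26.LineRing f) F')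
        (algebraMap A₁ (H26.LineRing f) ϖ) := by
      apply Subtype.ext
      rw [hincl, hx, hcoe, AlgHom.commutes]
    rw [RingHom.comp_apply, this, hφπ]
  · -- the uniformiser
    intro x hx
    have : incl x = algebraMap (H26.LineRing f) (integralClosure (H26.LineRing f) F')
        (H26.LineRing.coord f - algebraMap A₁ (H26.LineRing f) 0) := by
      apply Subtype.ext
      rw [hincl, hx, hcoe, map_zero, sub_zero, H26.LineRing.liftAlg_coord]
    rw [RingHom.comp_apply, this]
    refine ⟨ht0, ht_lt, hnsq, fun y hy => ?_⟩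
    exact le_of_zpow_of_lt_one ((_root_.map_ne_zero _).2 ht0) ht_lt hy
      (fun hy0 => hzpow y ((_root_.map_ne_zero _).1 hy0))
  · -- the `j`-line: generic point
    intro s x hx hs
    have : incl x = algebraMap (H26.LineRing f) (integralClosure (H26.LineRing f) F')
        (aeval jY s) := by
      apply Subtype.ext
      rw [hincl, hx, hcoe, ← Polynomial.aeval_algebraMap_apply, ← hjY,
        Polynomial.aeval_algHom_apply]
    rw [RingHom.comp_apply, this]
    intro h0
    have hmem : aeval jY s ∈ RingHom.ker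
        (φ.comp (algebraMap (H26.LineRing f) (integralClosure (H26.LineRing f) F'))) := by
      rw [RingHom.mem_ker, RingHom.comp_apply]; exact h0
    rw [hkerR', ← H26.LineRing.ker_toRatFunc f res hker hf, RingHom.mem_ker] at hmem
    have hcomp : (H26.LineRing.toRatFunc f res hf).comp (algebraMap A₁ (H26.LineRing f)) =
        (algebraMap k (RatFunc k)).comp res := by
      ext a
      rw [RingHom.comp_apply, RingHom.comp_apply, H26.LineRing.toRatFunc_algebraMap]
    rw [Polynomial.aeval_def, Polynomial.hom_eval₂, hcomp, ← Polynomial.eval₂_map,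
      ← Polynomial.aeval_def] at hmem
    exact hs ((transcendental_iff.1 htr) _ hmem)

end Main

end Fermat.Agent.S16.H34
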