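import Mathlib
import Fermat.Agent.S16.H6_G0Iface
import Fermat.Agent.RR.H52_PlaceBasic

/-!
# (G0) package P3i: instance facts for `H6.Afin k x` and `H6.Binf k x` (helper35)

`k ⊆ F` fields, `x : F` transcendental over `k` with at least one pole.  Inside `E = k⟮x⟯`:
`Afin k x = k[x]` and `Binf k x =` the elements of `E` regular at every pole of `x`.

* `ord_aeval_of_pole`, `val_aeval_of_pole` : the order of `p(x)` at a pole of `x`;
* `mem_Binf_iff` : `e ∈ Binf k x ↔ e = p(x)/q(x)` with `deg p ≤ deg q`;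
* `hsum_Afin_Binf`, `hint_Afin_Binf` : `E = Afin + Binf`, `Afin ∩ Binf = k`;
* `Afin` is a PID with fraction field `E`, quotients by nonzero elements are finite over `k`;
* `Binf` is a DVR with fraction field `E`, uniformiser `x⁻¹`, residue field `k`, quotients by
  nonzero elements finite over `k`.
-/

set_option autoImplicit false

noncomputable section

open Polynomial IntermediateField AlgebraicCurve WithZero

namespace Fermat.Agent.S16.H35

open Fermat.Agent.S16.H6 Fermat.Agent.RR

variable {k F : Type*} [Field k] [Field F] [Algebra k F]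

/-! ### Orders at a pole -/

theorem one_lt_val_of_pole {x : F} (v : Place k F) (hv : v.ord x < 0) :
    1 < v.adicValuation x := by
  have hx0 : x ≠ 0 := by
    rintro rfl
    simp at hv
  rw [H52.val_eq_exp_neg_ord v hx0, ← exp_zero, exp_lt_exp]
  omega

theorem pole_of_one_lt_val {x : F} (v : Place k F) (hv : 1 < v.adicValuation x) :
    v.ord x < 0 := by
  have hx0 : x ≠ 0 := by
    rintro rfl
    simp at hv
  rw [H52.val_eq_exp_neg_ord v hx0, ← exp_zero, exp_lt_exp] at hv
  omega

/-- Valuation of a polynomial in `x` at a pole of `x`: the leading term dominates. -/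
theorem val_aeval_of_pole {x : F} (v : Place k F) (hv : v.ord x < 0) {p : k[X]} (hp : p ≠ 0) :
    v.adicValuation (aeval x p) = v.adicValuation x ^ p.natDegree := by
  classical
  have h1 : 1 < v.adicValuation x := one_lt_val_of_pole v hv
  have hterm : ∀ e ∈ p.support,
      v.adicValuation (algebraMap k F (p.coeff e) * x ^ e) = v.adicValuation x ^ e := by
    intro e he
    rw [map_mul, H52.val_algebraMap v (mem_support_iff.mp he), one_mul, map_pow]
  rw [aeval_def, eval₂_eq_sum, Polynomial.sum_def]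
  have hj : p.natDegree ∈ p.support := natDegree_mem_support_of_nonzero hp
  rw [Valuation.map_sum_eq_of_lt _ hj, hterm _ hj]
  intro i hi
  rw [Finset.mem_sdiff, Finset.mem_singleton] at hi
  rw [hterm _ hi.1, hterm _ hj]
  have hlt : i < p.natDegree :=
    lt_of_le_of_ne (le_natDegree_of_mem_supp i hi.1) hi.2
  exact pow_lt_pow_right₀ h1 hlt

theorem ord_aeval_of_pole {x : F} (v : Place k F) (hv : v.ord x < 0) {p : k[X]} (hp : p ≠ 0) :
    v.ord (aeval x p) = p.natDegree * v.ord x := by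
  have h := val_aeval_of_pole v hv hp
  simp only [Place.ord, h, WithZero.log_pow]
  ring

/-! ### The generator of `k⟮x⟯` -/

theorem coe_aeval_gen (x : F) (p : k[X]) :
    ((aeval (AdjoinSimple.gen k x) p : k⟮x⟯) : F) = aeval x p := by
  simp

theorem aeval_gen_eq_zero_iff {x : F} (hx : Transcendental k x) (p : k[X]) :
    aeval (AdjoinSimple.gen k x) p = 0 ↔ p = 0 := by
  constructor
  · intro h
    have h1 : aeval x p = 0 := by
      rw [← coe_aeval_gen, h]; rfl
    exact (transcendental_iff.mp hx) p h1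
  · rintro rfl
    simp

theorem aeval_gen_injective {x : F} (hx : Transcendental k x) :
    Function.Injective (aeval (R := k) (AdjoinSimple.gen k x)) := by
  rw [injective_iff_map_eq_zero]
  intro p hp
  exact (aeval_gen_eq_zero_iff hx p).mp hp

theorem aeval_ne_zero_of_ne_zero {x : F} (hx : Transcendental k x) {p : k[X]} (hp : p ≠ 0) :
    aeval x p ≠ 0 := fun h => hp ((transcendental_iff.mp hx) p h)

/-- Every element of `k⟮x⟯` is a quotient `p(g)/q(g)` with `q ≠ 0`. -/
theorem exists_aeval_gen_div {x : F} (e : k⟮x⟯) :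
    ∃ p q : k[X], q ≠ 0 ∧ e * aeval (AdjoinSimple.gen k x) q = aeval (AdjoinSimple.gen k x) p := by
  obtain ⟨r, s, hrs⟩ := (mem_adjoin_simple_iff k (e : F)).mp e.2
  by_cases hs : aeval x s = 0
  · refine ⟨0, 1, one_ne_zero, ?_⟩
    have he : (e : F) = 0 := by rw [hrs, hs, div_zero]
    have he' : e = 0 := Subtype.ext he
    simp [he']
  · have hs0 : s ≠ 0 := by
      rintro rfl
      exact hs (map_zero _)
    refine ⟨r, s, hs0, Subtype.ext ?_⟩
    rw [MulMemClass.coe_mul, coe_aeval_gen, coe_aeval_gen, hrs, div_mul_cancel₀ _ hs]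

/-! ### The degree dictionary for `Binf` -/

/-- `p(x)/q(x)` with `deg p ≤ deg q` is regular at every pole of `x`. -/
theorem mem_Binf_of_natDegree_le {x : F} (hx : Transcendental k x) {e : k⟮x⟯} {p q : k[X]}
    (hq : q ≠ 0) (hdeg : p.natDegree ≤ q.natDegree)
    (heq : e * aeval (AdjoinSimple.gen k x) q = aeval (AdjoinSimple.gen k x) p) :
    e ∈ Binf k x := by
  intro v hv
  have heq' : (e : F) * aeval x q = aeval x p := by
    have := congrArg (fun z : k⟮x⟯ => (z : F)) heq
    simpa [coe_aeval_gen] using this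
  have hq0 : aeval x q ≠ 0 := aeval_ne_zero_of_ne_zero hx hq
  rcases eq_or_ne p 0 with rfl | hp
  · rw [map_zero] at heq'
    rcases mul_eq_zero.mp heq' with h | h
    · rw [h]; exact (v.toValuationSubring).zero_mem
    · exact absurd h hq0
  · rw [H52.mem_iff_val_le_one]
    have h1 : 1 < v.adicValuation x := one_lt_val_of_pole v hv
    have hval := congrArg v.adicValuation heq'
    rw [map_mul, val_aeval_of_pole v hv hq, val_aeval_of_pole v hv hp] at hval
    have hpos : 0 < v.adicValuation x ^ q.natDegree :=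
      pow_pos (lt_trans zero_lt_one h1) _
    have hle : v.adicValuation x ^ p.natDegree ≤ v.adicValuation x ^ q.natDegree :=
      pow_le_pow_right₀ h1.le hdeg
    rw [← hval] at hle
    have : v.adicValuation (e : F) * v.adicValuation x ^ q.natDegree
        ≤ 1 * v.adicValuation x ^ q.natDegree := by rwa [one_mul]
    exact le_of_mul_le_mul_right this hpos

/-- **Degree dictionary**: the elements of `k⟮x⟯` regular at all poles of `x` are the quotients
`p(x)/q(x)` with `deg p ≤ deg q`. -/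
theorem mem_Binf_iff {x : F} (hx : Transcendental k x) (hpole : ∃ v : Place k F, v.ord x < 0)
    (e : k⟮x⟯) :
    e ∈ Binf k x ↔ ∃ p q : k[X], q ≠ 0 ∧ p.natDegree ≤ q.natDegree ∧
      e * aeval (AdjoinSimple.gen k x) q = aeval (AdjoinSimple.gen k x) p := by
  constructor
  · intro he
    obtain ⟨p, q, hq, heq⟩ := exists_aeval_gen_div e
    rcases eq_or_ne p 0 with rfl | hp
    · exact ⟨0, q, hq, by simp, heq⟩
    · refine ⟨p, q, hq, ?_, heq⟩
      obtain ⟨v, hv⟩ := hpole
      have hmem := he v hv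
      rw [H52.mem_iff_val_le_one] at hmem
      have heq' : (e : F) * aeval x q = aeval x p := by
        have := congrArg (fun z : k⟮x⟯ => (z : F)) heq
        simpa [coe_aeval_gen] using this
      have h1 : 1 < v.adicValuation x := one_lt_val_of_pole v hv
      have hval := congrArg v.adicValuation heq'
      rw [map_mul, val_aeval_of_pole v hv hq, val_aeval_of_pole v hv hp] at hval
      by_contra hlt
      rw [not_le] at hlt
      have hpos : 0 < v.adicValuation x ^ q.natDegree :=
        pow_pos (lt_trans zero_lt_one h1) _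
      have h2 : v.adicValuation x ^ q.natDegree < v.adicValuation x ^ p.natDegree :=
        pow_lt_pow_right₀ h1 hlt
      have h3 : v.adicValuation (e : F) * v.adicValuation x ^ q.natDegree
          ≤ 1 * v.adicValuation x ^ q.natDegree :=
        mul_le_mul_of_nonneg_right hmem hpos.le
      rw [one_mul, hval] at h3
      exact absurd h2 (not_lt.mpr h3)
  · rintro ⟨p, q, hq, hdeg, heq⟩
    exact mem_Binf_of_natDegree_le hx hq hdeg heq

/-! ### `E = Afin + Binf` and `Afin ∩ Binf = k` -/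

theorem aeval_gen_mem_Afin (x : F) (p : k[X]) :
    aeval (AdjoinSimple.gen k x) p ∈ Afin k x := by
  unfold Afin
  exact Polynomial.aeval_mem_adjoin_singleton k _

theorem mem_Afin_iff (x : F) (e : k⟮x⟯) :
    e ∈ Afin k x ↔ ∃ p : k[X], aeval (AdjoinSimple.gen k x) p = e := by
  unfold Afin
  rw [Algebra.adjoin_singleton_eq_range_aeval]
  exact Iff.rfl

/-- `k(x) = k[x] + O_∞` (Euclidean division). -/
theorem hsum_Afin_Binf {x : F} (hx : Transcendental k x) :
    ∀ e : k⟮x⟯, ∃ a ∈ Afin k x, ∃ b ∈ Binf k x, e = a + b := by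
  intro e
  obtain ⟨p, q, hq, heq⟩ := exists_aeval_gen_div e
  refine ⟨aeval (AdjoinSimple.gen k x) (p / q), aeval_gen_mem_Afin x _,
    e - aeval (AdjoinSimple.gen k x) (p / q), ?_, by ring⟩
  refine mem_Binf_of_natDegree_le hx (p := p % q) hq ?_ ?_
  · exact natDegree_le_natDegree (le_of_lt (degree_mod_lt p hq))
  · have h1 : p % q = p - q * (p / q) := by
      rw [eq_sub_iff_add_eq, add_comm]
      exact EuclideanDomain.div_add_mod p q
    rw [h1, sub_mul, heq, map_sub, map_mul]
    ring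

/-- `k[x] ∩ O_∞ = k`. -/
theorem hint_Afin_Binf {x : F} (hx : Transcendental k x) (hpole : ∃ v : Place k F, v.ord x < 0) :
    ∀ e : k⟮x⟯, e ∈ Afin k x → e ∈ Binf k x → e ∈ (algebraMap k k⟮x⟯).range := by
  intro e heA heB
  obtain ⟨a, rfl⟩ := (mem_Afin_iff x e).mp heA
  obtain ⟨p, q, hq, hdeg, heq⟩ := (mem_Binf_iff hx hpole _).mp heB
  rw [← map_mul] at heq
  have hpq : a * q = p := aeval_gen_injective hx heq
  rcases eq_or_ne a 0 with rfl | ha
  · exact ⟨0, by simp⟩
  · have h1 : (a * q).natDegree = a.natDegree + q.natDegree := natDegree_mul ha hq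
    rw [hpq] at h1
    have h2 : a.natDegree = 0 := by omega
    rw [eq_C_of_natDegree_eq_zero h2, aeval_C]
    exact ⟨a.coeff 0, rfl⟩

/-! ### `Afin = k[x]` -/

/-- `k[X] ≃ Afin k x` for transcendental `x`. -/
def afinEquiv {x : F} (hx : Transcendental k x) : k[X] ≃ₐ[k] ↥(Afin k x) :=
  (AlgEquiv.ofInjective (aeval (AdjoinSimple.gen k x)) (aeval_gen_injective hx)).trans
    (Subalgebra.equivOfEq _ _ (by
      unfold Afin
      exact (Algebra.adjoin_singleton_eq_range_aeval k _).symm))

@[simp]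
theorem coe_afinEquiv {x : F} (hx : Transcendental k x) (p : k[X]) :
    ((afinEquiv hx p : ↥(Afin k x)) : k⟮x⟯) = aeval (AdjoinSimple.gen k x) p := by
  simp [afinEquiv]

theorem isPrincipalIdealRing_Afin {x : F} (hx : Transcendental k x) :
    IsPrincipalIdealRing ↥(Afin k x) :=
  IsPrincipalIdealRing.of_surjective (afinEquiv hx : k[X] →+* ↥(Afin k x))
    (afinEquiv hx).surjective

/-- Every element of `k⟮x⟯` is a quotient `p(g)/q(g)` (division form). -/
theorem exists_eq_aeval_gen_div (x : F) (e : k⟮x⟯) :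
    ∃ p q : k[X], e = aeval (AdjoinSimple.gen k x) p / aeval (AdjoinSimple.gen k x) q := by
  obtain ⟨r, s, hrs⟩ := (mem_adjoin_simple_iff k (e : F)).mp e.2
  refine ⟨r, s, Subtype.ext ?_⟩
  rw [IntermediateField.coe_div, coe_aeval_gen, coe_aeval_gen, hrs]

theorem isFractionRing_Afin (x : F) : IsFractionRing ↥(Afin k x) k⟮x⟯ := by
  refine IsFractionRing.of_field _ _ fun z => ?_
  obtain ⟨p, q, hpq⟩ := exists_eq_aeval_gen_div x z
  exact ⟨⟨_, aeval_gen_mem_Afin x p⟩, ⟨_, aeval_gen_mem_Afin x q⟩, hpq⟩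

theorem finiteDimensional_quotient_span_polynomial {f : k[X]} (hf : f ≠ 0) :
    FiniteDimensional k (k[X] ⧸ Ideal.span {f}) :=
  (AdjoinRoot.powerBasis hf).finite

/-- Quotients of `Afin = k[x]` by nonzero elements are finite-dimensional over `k`. -/
theorem hfin_Afin {x : F} (hx : Transcendental k x) :
    ∀ a : ↥(Afin k x), a ≠ 0 → FiniteDimensional k (↥(Afin k x) ⧸ Ideal.span {a}) := by
  intro a ha
  set f : k[X] := (afinEquiv hx).symm a with hf
  have hfa : afinEquiv hx f = a := (afinEquiv hx).apply_symm_apply a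
  have hf0 : f ≠ 0 := by
    intro h0
    apply ha
    rw [← hfa, h0, map_zero]
  have := finiteDimensional_quotient_span_polynomial hf0
  have hIJ : Ideal.span {a} = (Ideal.span {f}).map ((afinEquiv hx : k[X] ≃ₐ[k] ↥(Afin k x)) :
      k[X] →+* ↥(Afin k x)) := by
    rw [Ideal.map_span, Set.image_singleton]
    congr 2
    exact hfa.symm
  exact Module.Finite.equiv
    (Ideal.quotientEquivAlg (Ideal.span {f}) (Ideal.span {a}) (afinEquiv hx) hIJ).toLinearEquiv

/-! ### `Binf` is a discrete valuation ring with uniformiser `x⁻¹` and residue field `k` -/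

theorem gen_ne_zero {x : F} (hx : Transcendental k x) : AdjoinSimple.gen k x ≠ 0 := by
  intro h
  have h1 : aeval (AdjoinSimple.gen k x) (X : k[X]) = 0 := by rw [aeval_X, h]
  exact X_ne_zero ((aeval_gen_eq_zero_iff hx _).mp h1)

theorem ginv_mem_Binf {x : F} (hx : Transcendental k x) :
    (AdjoinSimple.gen k x)⁻¹ ∈ Binf k x := by
  refine mem_Binf_of_natDegree_le hx (p := 1) (q := X) X_ne_zero (by simp) ?_
  rw [aeval_X, map_one, inv_mul_cancel₀ (gen_ne_zero hx)]

theorem gen_not_mem_Binf {x : F} (hx : Transcendental k x)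
    (hpole : ∃ v : Place k F, v.ord x < 0) : AdjoinSimple.gen k x ∉ Binf k x := by
  intro h
  obtain ⟨p, q, hq, hdeg, heq⟩ := (mem_Binf_iff hx hpole _).mp h
  have h1 : aeval (AdjoinSimple.gen k x) (X * q) = aeval (AdjoinSimple.gen k x) p := by
    rw [map_mul, aeval_X, heq]
  have h2 : X * q = p := aeval_gen_injective hx h1
  have h3 : (X * q).natDegree = q.natDegree + 1 := by
    rw [natDegree_X_mul hq]
  rw [h2] at h3
  omega

/-- If `e = p(g)/q(g)` with `p ≠ 0` and `deg q ≤ deg p` then `e⁻¹ ∈ Binf`. -/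
theorem inv_mem_Binf_of_natDegree_le {x : F} (hx : Transcendental k x) {e : k⟮x⟯} {p q : k[X]}
    (hp : p ≠ 0) (hdeg : q.natDegree ≤ p.natDegree)
    (heq : e * aeval (AdjoinSimple.gen k x) q = aeval (AdjoinSimple.gen k x) p) :
    e⁻¹ ∈ Binf k x := by
  refine mem_Binf_of_natDegree_le hx hp hdeg ?_
  have hp0 : aeval (AdjoinSimple.gen k x) p ≠ 0 := fun h => hp ((aeval_gen_eq_zero_iff hx p).mp h)
  have he : e ≠ 0 := by
    rintro rfl
    rw [zero_mul] at heq
    exact hp0 heq.symm
  rw [← heq, ← mul_assoc, inv_mul_cancel₀ he, one_mul]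

/-- `Binf` is a valuation ring of `k⟮x⟯`. -/
theorem mem_Binf_or_inv_mem {x : F} (hx : Transcendental k x) (e : k⟮x⟯) :
    e ∈ Binf k x ∨ e⁻¹ ∈ Binf k x := by
  obtain ⟨p, q, hq, heq⟩ := exists_aeval_gen_div e
  rcases le_total p.natDegree q.natDegree with h | h
  · exact Or.inl (mem_Binf_of_natDegree_le hx hq h heq)
  · rcases eq_or_ne p 0 with rfl | hp
    · left
      exact mem_Binf_of_natDegree_le hx hq (by simp) heq
    · exact Or.inr (inv_mem_Binf_of_natDegree_le hx hp h heq)

/-- Every nonzero element of `Binf` is `(x⁻¹)^m` times a unit of `Binf`. -/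
theorem exists_pow_mul_unit {x : F} (hx : Transcendental k x)
    (hpole : ∃ v : Place k F, v.ord x < 0) {b : k⟮x⟯} (hb : b ∈ Binf k x) (hb0 : b ≠ 0) :
    ∃ (m : ℕ) (u : k⟮x⟯), u ∈ Binf k x ∧ u⁻¹ ∈ Binf k x ∧
      b = ((AdjoinSimple.gen k x)⁻¹) ^ m * u := by
  obtain ⟨p, q, hq, hdeg, heq⟩ := (mem_Binf_iff hx hpole _).mp hb
  have hg := gen_ne_zero hx
  have hp : p ≠ 0 := by
    rintro rfl
    rw [map_zero] at heq
    rcases mul_eq_zero.mp heq with h | h
    · exact hb0 h
    · exact hq ((aeval_gen_eq_zero_iff hx q).mp h)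
  set m := q.natDegree - p.natDegree with hm
  have hu : b * (AdjoinSimple.gen k x) ^ m * aeval (AdjoinSimple.gen k x) q
      = aeval (AdjoinSimple.gen k x) (p * X ^ m) := by
    rw [map_mul, map_pow, aeval_X, ← heq]
    ring
  have hdeg' : (p * X ^ m).natDegree = q.natDegree := by
    rw [natDegree_mul_X_pow m hp]
    omega
  refine ⟨m, b * (AdjoinSimple.gen k x) ^ m, ?_, ?_, ?_⟩
  · exact mem_Binf_of_natDegree_le hx hq hdeg'.le hu
  · exact inv_mem_Binf_of_natDegree_le hx (mul_ne_zero hp (pow_ne_zero _ X_ne_zero)) hdeg'.ge hu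
  · rw [inv_pow, mul_comm b, ← mul_assoc, inv_mul_cancel₀ (pow_ne_zero _ hg), one_mul]

/-- The residue field of `Binf` is `k`: every `b ∈ Binf` is `c + x⁻¹ b'`. -/
theorem exists_residue {x : F} (hx : Transcendental k x)
    (hpole : ∃ v : Place k F, v.ord x < 0) {b : k⟮x⟯} (hb : b ∈ Binf k x) :
    ∃ c : k, ∃ b' ∈ Binf k x, b = algebraMap k k⟮x⟯ c + (AdjoinSimple.gen k x)⁻¹ * b' := by
  obtain ⟨p, q, hq, hdeg, heq⟩ := (mem_Binf_iff hx hpole _).mp hb
  have hg := gen_ne_zero hx
  set d := q.natDegree with hd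
  set c : k := p.coeff d / q.leadingCoeff with hc
  set r : k[X] := p - C c * q with hr
  have hlc : q.leadingCoeff ≠ 0 := leadingCoeff_ne_zero.mpr hq
  have hrd : r.coeff d = 0 := by
    rw [hr, coeff_sub, coeff_C_mul, hd, coeff_natDegree, hc, div_mul_cancel₀ _ hlc, sub_self]
  have hrle : r.natDegree ≤ d := by
    rw [hr]
    refine (natDegree_sub_le _ _).trans (max_le hdeg ?_)
    exact (natDegree_C_mul_le _ _)
  have hrX : (r * X).natDegree ≤ d := by
    rcases eq_or_ne r 0 with h0 | h0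
    · rw [h0, zero_mul, natDegree_zero]; exact Nat.zero_le _
    · rw [natDegree_mul_X h0]
      have hne : r.natDegree ≠ d := by
        intro h
        rw [← h, coeff_natDegree] at hrd
        exact h0 (leadingCoeff_eq_zero.mp hrd)
      omega
  refine ⟨c, (b - algebraMap k k⟮x⟯ c) * AdjoinSimple.gen k x, ?_, ?_⟩
  · refine mem_Binf_of_natDegree_le hx (p := r * X) hq hrX ?_
    rw [map_mul, aeval_X, hr, map_sub, map_mul, aeval_C, ← heq]
    ring
  · rw [mul_comm _ (AdjoinSimple.gen k x), ← mul_assoc, inv_mul_cancel₀ hg, one_mul]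
    ring

section Ring

variable {x : F}

/-- The uniformiser `x⁻¹` of `Binf k x`. -/
def tinf (hx : Transcendental k x) : ↥(Binf k x) :=
  ⟨(AdjoinSimple.gen k x)⁻¹, ginv_mem_Binf hx⟩

@[simp]
theorem coe_tinf (hx : Transcendental k x) :
    ((tinf hx : ↥(Binf k x)) : k⟮x⟯) = (AdjoinSimple.gen k x)⁻¹ := rfl

theorem tinf_ne_zero (hx : Transcendental k x) : tinf hx ≠ 0 := by
  intro h
  have h1 := congrArg (Subtype.val) h
  rw [coe_tinf] at h1
  exact inv_ne_zero (gen_ne_zero hx) h1

theorem isUnit_of_inv_mem {u : ↥(Binf k x)} (hu0 : u ≠ 0) (h : ((u : k⟮x⟯))⁻¹ ∈ Binf k x) :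
    IsUnit u := by
  have hu0' : (u : k⟮x⟯) ≠ 0 := fun h0 => hu0 (Subtype.ext h0)
  refine ⟨⟨u, ⟨_, h⟩, Subtype.ext ?_, Subtype.ext ?_⟩, rfl⟩
  · change (u : k⟮x⟯) * (u : k⟮x⟯)⁻¹ = 1
    exact mul_inv_cancel₀ hu0'
  · change (u : k⟮x⟯)⁻¹ * (u : k⟮x⟯) = 1
    exact inv_mul_cancel₀ hu0'

theorem not_isUnit_tinf (hx : Transcendental k x) (hpole : ∃ v : Place k F, v.ord x < 0) :
    ¬ IsUnit (tinf hx) := by
  intro h
  obtain ⟨s, hs⟩ := h.exists_right_inv
  have h1 : (AdjoinSimple.gen k x)⁻¹ * (s : k⟮x⟯) = 1 := by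
    have := congrArg (Subtype.val) hs
    simpa using this
  have h2 : (s : k⟮x⟯) = AdjoinSimple.gen k x := by
    have hg := gen_ne_zero hx
    calc (s : k⟮x⟯) = AdjoinSimple.gen k x * ((AdjoinSimple.gen k x)⁻¹ * (s : k⟮x⟯)) := by
          rw [← mul_assoc, mul_inv_cancel₀ hg, one_mul]
      _ = AdjoinSimple.gen k x := by rw [h1, mul_one]
  exact gen_not_mem_Binf hx hpole (h2 ▸ s.2)

/-- Every nonzero element of `Binf` is a power of `tinf` times a unit. -/
theorem exists_pow_mul_unit' (hx : Transcendental k x) (hpole : ∃ v : Place k F, v.ord x < 0)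
    {b : ↥(Binf k x)} (hb : b ≠ 0) :
    ∃ (m : ℕ) (u : (↥(Binf k x))ˣ), b = tinf hx ^ m * u := by
  have hb0 : (b : k⟮x⟯) ≠ 0 := fun h0 => hb (Subtype.ext h0)
  obtain ⟨m, u, hu, hui, hbu⟩ := exists_pow_mul_unit hx hpole b.2 hb0
  have hu0 : (⟨u, hu⟩ : ↥(Binf k x)) ≠ 0 := by
    intro h0
    have h1 : u = 0 := congrArg (Subtype.val) h0
    rw [h1, mul_zero] at hbu
    exact hb0 hbu
  obtain ⟨U, hU⟩ := isUnit_of_inv_mem (u := ⟨u, hu⟩) hu0 hui
  refine ⟨m, U, Subtype.ext ?_⟩
  rw [hU]
  simpa using hbu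

theorem irreducible_tinf (hx : Transcendental k x) (hpole : ∃ v : Place k F, v.ord x < 0) :
    Irreducible (tinf hx) := by
  rw [irreducible_iff]
  refine ⟨not_isUnit_tinf hx hpole, ?_⟩
  intro a b hab
  have ht0 := tinf_ne_zero hx
  have ha0 : a ≠ 0 := by
    rintro rfl
    rw [zero_mul] at hab
    exact ht0 hab
  have hb0 : b ≠ 0 := by
    rintro rfl
    rw [mul_zero] at hab
    exact ht0 hab
  obtain ⟨i, ua, hua⟩ := exists_pow_mul_unit' hx hpole ha0
  obtain ⟨j, ub, hub⟩ := exists_pow_mul_unit' hx hpole hb0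
  rcases Nat.eq_zero_or_pos i with hi | hi
  · left
    rw [hua, hi, pow_zero, one_mul]
    exact ua.isUnit
  rcases Nat.eq_zero_or_pos j with hj | hj
  · right
    rw [hub, hj, pow_zero, one_mul]
    exact ub.isUnit
  exfalso
  apply not_isUnit_tinf hx hpole
  obtain ⟨i', rfl⟩ : ∃ i', i = i' + 1 := ⟨i - 1, by omega⟩
  obtain ⟨j', rfl⟩ : ∃ j', j = j' + 1 := ⟨j - 1, by omega⟩
  have h1 : tinf hx * 1 = tinf hx * (tinf hx * (tinf hx ^ (i' + j') * (ua * ub))) := by
    rw [mul_one]
    conv_lhs => rw [hab, hua, hub]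
    ring
  have h2 := mul_left_cancel₀ ht0 h1
  exact IsUnit.of_mul_eq_one _ h2.symm

theorem hasUnitMulPow_Binf (hx : Transcendental k x) (hpole : ∃ v : Place k F, v.ord x < 0) :
    IsDiscreteValuationRing.HasUnitMulPowIrreducibleFactorization ↥(Binf k x) := by
  refine ⟨tinf hx, irreducible_tinf hx hpole, ?_⟩
  intro b hb
  obtain ⟨m, u, hu⟩ := exists_pow_mul_unit' hx hpole hb
  exact ⟨m, u, hu.symm⟩

/-- `Binf k x` is a discrete valuation ring. -/
theorem isDiscreteValuationRing_Binf (hx : Transcendental k x)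
    (hpole : ∃ v : Place k F, v.ord x < 0) : IsDiscreteValuationRing ↥(Binf k x) :=
  IsDiscreteValuationRing.ofHasUnitMulPowIrreducibleFactorization (hasUnitMulPow_Binf hx hpole)

theorem isPrincipalIdealRing_Binf (hx : Transcendental k x)
    (hpole : ∃ v : Place k F, v.ord x < 0) : IsPrincipalIdealRing ↥(Binf k x) :=
  haveI := isDiscreteValuationRing_Binf hx hpole
  inferInstance

theorem isFractionRing_Binf (hx : Transcendental k x) : IsFractionRing ↥(Binf k x) k⟮x⟯ := by
  refine IsFractionRing.of_field _ _ fun z => ?_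
  rcases mem_Binf_or_inv_mem hx z with h | h
  · refine ⟨⟨z, h⟩, 1, ?_⟩
    rw [map_one, div_one]
    rfl
  · refine ⟨1, ⟨z⁻¹, h⟩, ?_⟩
    rw [map_one, one_div]
    change z = (z⁻¹)⁻¹
    rw [inv_inv]

end Ring

section Quotients

variable {x : F}

theorem exists_residue' (hx : Transcendental k x) (hpole : ∃ v : Place k F, v.ord x < 0)
    (b : ↥(Binf k x)) :
    ∃ c : k, ∃ b' : ↥(Binf k x), b = algebraMap k ↥(Binf k x) c + tinf hx * b' := by
  obtain ⟨c, b', hb', hbb⟩ := exists_residue hx hpole b.2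
  refine ⟨c, ⟨b', hb'⟩, Subtype.ext ?_⟩
  simpa using hbb

/-- `t`-adic expansion in `Binf` up to order `m`. -/
theorem exists_expansion (hx : Transcendental k x) (hpole : ∃ v : Place k F, v.ord x < 0)
    (m : ℕ) (b : ↥(Binf k x)) :
    ∃ (c : ℕ → k) (b' : ↥(Binf k x)),
      b = ∑ i ∈ Finset.range m, algebraMap k ↥(Binf k x) (c i) * tinf hx ^ i + tinf hx ^ m * b' := by
  induction m with
  | zero => exact ⟨fun _ => 0, b, by simp⟩
  | succ m ih =>
    obtain ⟨c, b', hb⟩ := ih
    obtain ⟨c', b'', hb'⟩ := exists_residue' hx hpole b'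
    refine ⟨Function.update c m c', b'', ?_⟩
    rw [Finset.sum_range_succ, Function.update_self]
    have hsum : ∑ i ∈ Finset.range m,
        algebraMap k ↥(Binf k x) (Function.update c m c' i) * tinf hx ^ i
        = ∑ i ∈ Finset.range m, algebraMap k ↥(Binf k x) (c i) * tinf hx ^ i := by
      refine Finset.sum_congr rfl fun i hi => ?_
      rw [Function.update_of_ne (Finset.mem_range.mp hi).ne]
    rw [hsum, hb, hb']
    ring

theorem finiteDimensional_quotient_tinf_pow (hx : Transcendental k x)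
    (hpole : ∃ v : Place k F, v.ord x < 0) (m : ℕ) :
    FiniteDimensional k (↥(Binf k x) ⧸ Ideal.span {tinf hx ^ m}) := by
  classical
  rw [FiniteDimensional, Module.finite_def]
  refine ⟨(Finset.range m).image
    (fun i => Ideal.Quotient.mk (Ideal.span {tinf hx ^ m}) (tinf hx ^ i)), ?_⟩
  rw [eq_top_iff]
  rintro y -
  obtain ⟨b, rfl⟩ := Ideal.Quotient.mk_surjective y
  obtain ⟨c, b', hb⟩ := exists_expansion hx hpole m b
  have h0 : Ideal.Quotient.mk (Ideal.span {tinf hx ^ m}) (tinf hx ^ m * b') = 0 := by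
    rw [Ideal.Quotient.eq_zero_iff_mem]
    exact Ideal.mul_mem_right _ _ (Ideal.mem_span_singleton_self _)
  rw [hb, map_add, h0, add_zero, map_sum]
  refine Submodule.sum_mem _ fun i hi => ?_
  rw [map_mul]
  have : Ideal.Quotient.mk (Ideal.span {tinf hx ^ m}) (algebraMap k ↥(Binf k x) (c i))
      = algebraMap k (↥(Binf k x) ⧸ Ideal.span {tinf hx ^ m}) (c i) := rfl
  rw [this, ← Algebra.smul_def]
  refine Submodule.smul_mem _ _ (Submodule.subset_span ?_)
  exact Finset.mem_coe.mpr (Finset.mem_image_of_mem _ hi)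

/-- Quotients of `Binf` by nonzero elements are finite-dimensional over `k`. -/
theorem hfin_Binf (hx : Transcendental k x) (hpole : ∃ v : Place k F, v.ord x < 0) :
    ∀ b : ↥(Binf k x), b ≠ 0 → FiniteDimensional k (↥(Binf k x) ⧸ Ideal.span {b}) := by
  intro b hb
  obtain ⟨m, u, hu⟩ := exists_pow_mul_unit' hx hpole hb
  have h1 : Ideal.span {b} = Ideal.span {tinf hx ^ m} := by
    rw [hu, Ideal.span_singleton_mul_right_unit u.isUnit]
  rw [h1]
  exact finiteDimensional_quotient_tinf_pow hx hpole m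

theorem span_tinf_ne_top (hx : Transcendental k x) (hpole : ∃ v : Place k F, v.ord x < 0) :
    Ideal.span {tinf hx} ≠ (⊤ : Ideal ↥(Binf k x)) := by
  rw [Ne, Ideal.span_singleton_eq_top]
  exact not_isUnit_tinf hx hpole

/-- The residue field of `Binf` at its uniformiser is `k`. -/
theorem finrank_quotient_tinf (hx : Transcendental k x)
    (hpole : ∃ v : Place k F, v.ord x < 0) :
    Module.finrank k (↥(Binf k x) ⧸ Ideal.span {tinf hx}) = 1 := by
  have : Nontrivial (↥(Binf k x) ⧸ Ideal.span {tinf hx}) :=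
    Ideal.Quotient.nontrivial_iff.mpr (span_tinf_ne_top hx hpole)
  have hinj : Function.Injective (Algebra.linearMap k (↥(Binf k x) ⧸ Ideal.span {tinf hx})) :=
    (algebraMap k (↥(Binf k x) ⧸ Ideal.span {tinf hx})).injective
  have hsurj : Function.Surjective
      (Algebra.linearMap k (↥(Binf k x) ⧸ Ideal.span {tinf hx})) := by
    intro y
    obtain ⟨b, rfl⟩ := Ideal.Quotient.mk_surjective y
    obtain ⟨c, b', hb⟩ := exists_residue' hx hpole b
    refine ⟨c, ?_⟩
    have h0 : Ideal.Quotient.mk (Ideal.span {tinf hx}) (tinf hx * b') = 0 := by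
      rw [Ideal.Quotient.eq_zero_iff_mem]
      exact Ideal.mul_mem_right _ _ (Ideal.mem_span_singleton_self _)
    rw [hb, map_add, h0, add_zero]
    rfl
  have e := LinearEquiv.ofBijective _ ⟨hinj, hsurj⟩
  rw [← e.finrank_eq, Module.finrank_self]

end Quotients

end Fermat.Agent.S16.H35
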