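/-
S16 / (G0) package P3, part (A) (helper85): coefficient subspaces.

`k ⊆ L` fields, `V` an `L`-vector space with a finite basis `b`.  For a `k`-subspace `S ⊆ L`
let `coeffSub b S ⊆ V` be the `k`-subspace of the vectors all of whose `b`-coordinates lie in `S`
(`= ⊕ S b_i`).  Then `chi`, `IsFred` and `colength` (of `H85_LatticeChi`) are multiplied by
`card ι`.  For a ring `O` mapping to `L` with image `S` one has
`span_O (range b) = coeffSub b S`.
-/
import Mathlib
import Fermat.Agent.S16.H85_LatticeChi

set_option autoImplicit false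
set_option linter.unusedSectionVars false
set_option linter.style.haveILetI false

open Module

noncomputable section

namespace Fermat.Agent.S16.H85

/-! ### A complement to the additivity: the colength is finite between two Fredholm pairs -/

section FinColength

variable {k V : Type*} [Field k] [AddCommGroup V] [Module k V]

theorem finiteDimensional_colength_of_isFred {U U' : Submodule k V} (W : Submodule k V)
    (hUU' : U ≤ U') (h : IsFred U W) (h' : IsFred U' W) :
    FiniteDimensional k (↥U' ⧸ U.submoduleOf U') := by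
  obtain ⟨h1, h2⟩ := h
  obtain ⟨h1', h2'⟩ := h'
  haveI := h1
  haveI := h2
  haveI := h1'
  haveI := h2'
  haveI : Module.Finite k ↥(LinearMap.ker (seqβ (U := U) (U' := U') W)) := by
    rw [← range_seqα W hUU']
    infer_instance
  haveI : Module.Finite k ((↥U' ⧸ U.submoduleOf U') ⧸ LinearMap.ker (seqβ (U := U) (U' := U') W)) :=
    Module.Finite.equiv (seqβ (U := U) (U' := U') W).quotKerEquivRange.symm
  exact Module.Finite.of_submodule_quotient (LinearMap.ker (seqβ (U := U) (U' := U') W))

theorem finiteDimensional_colength_of_isFred_right (U : Submodule k V) {W W' : Submodule k V}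
    (hWW' : W ≤ W') (h : IsFred U W) (h' : IsFred U W') :
    FiniteDimensional k (↥W' ⧸ W.submoduleOf W') :=
  finiteDimensional_colength_of_isFred U hWW' h.symm h'.symm

/-- The colength as a difference of Euler characteristics. -/
theorem colength_eq_chi_sub {U U' : Submodule k V} (W : Submodule k V)
    (hUU' : U ≤ U') (h : IsFred U W) (h' : IsFred U' W) :
    (colength U U' : ℤ) = chi U' W - chi U W := by
  haveI := finiteDimensional_colength_of_isFred W hUU' h h'
  rw [chi_of_le W hUU' h]
  ring

theorem colength_eq_chi_sub_right (U : Submodule k V) {W W' : Submodule k V}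
    (hWW' : W ≤ W') (h : IsFred U W) (h' : IsFred U W') :
    (colength W W' : ℤ) = chi U W' - chi U W := by
  haveI := finiteDimensional_colength_of_isFred_right U hWW' h h'
  rw [chi_of_le_right U hWW' h]
  ring

end FinColength

/-! ### Invariance under a linear equivalence between two spaces -/

section Equiv2

variable {k V V' : Type*} [Field k] [AddCommGroup V] [Module k V] [AddCommGroup V'] [Module k V']
variable (φ : V ≃ₗ[k] V') (U U' W : Submodule k V)

theorem chi_map_equiv' :
    chi (U.map (φ : V →ₗ[k] V')) (W.map (φ : V →ₗ[k] V')) = chi U W := by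
  unfold chi
  have e1 : (U.map (φ : V →ₗ[k] V') ⊓ W.map (φ : V →ₗ[k] V')) = (U ⊓ W).map (φ : V →ₗ[k] V') :=
    (Submodule.map_inf (φ : V →ₗ[k] V') φ.injective).symm
  have e2 : (U.map (φ : V →ₗ[k] V') ⊔ W.map (φ : V →ₗ[k] V')) = (U ⊔ W).map (φ : V →ₗ[k] V') :=
    (Submodule.map_sup U W (φ : V →ₗ[k] V')).symm
  rw [e1, e2]
  have h1 : finrank k ↥((U ⊓ W).map (φ : V →ₗ[k] V')) = finrank k ↥(U ⊓ W) :=
    (φ.submoduleMap (U ⊓ W)).symm.finrank_eq
  have h2 : finrank k (V' ⧸ (U ⊔ W).map (φ : V →ₗ[k] V')) = finrank k (V ⧸ (U ⊔ W)) :=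
    (Submodule.Quotient.equiv (U ⊔ W) ((U ⊔ W).map (φ : V →ₗ[k] V')) φ rfl).symm.finrank_eq
  rw [h1, h2]

theorem isFred_map_equiv' :
    IsFred (U.map (φ : V →ₗ[k] V')) (W.map (φ : V →ₗ[k] V')) ↔ IsFred U W := by
  unfold IsFred
  have e1 : (U.map (φ : V →ₗ[k] V') ⊓ W.map (φ : V →ₗ[k] V')) = (U ⊓ W).map (φ : V →ₗ[k] V') :=
    (Submodule.map_inf (φ : V →ₗ[k] V') φ.injective).symm
  have e2 : (U.map (φ : V →ₗ[k] V') ⊔ W.map (φ : V →ₗ[k] V')) = (U ⊔ W).map (φ : V →ₗ[k] V') :=
    (Submodule.map_sup U W (φ : V →ₗ[k] V')).symm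
  rw [e1, e2]
  constructor
  · rintro ⟨h1, h2⟩
    exact ⟨Module.Finite.equiv (φ.submoduleMap (U ⊓ W)).symm,
      Module.Finite.equiv
        (Submodule.Quotient.equiv (U ⊔ W) ((U ⊔ W).map (φ : V →ₗ[k] V')) φ rfl).symm⟩
  · rintro ⟨h1, h2⟩
    exact ⟨Module.Finite.equiv (φ.submoduleMap (U ⊓ W)),
      Module.Finite.equiv
        (Submodule.Quotient.equiv (U ⊔ W) ((U ⊔ W).map (φ : V →ₗ[k] V')) φ rfl)⟩

/-- The quotient `U'/U` is carried to the quotient of the images. -/
def colengthEquiv :
    (↥U' ⧸ U.submoduleOf U') ≃ₗ[k]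
      (↥(U'.map (φ : V →ₗ[k] V')) ⧸
        (U.map (φ : V →ₗ[k] V')).submoduleOf (U'.map (φ : V →ₗ[k] V'))) :=
  Submodule.Quotient.equiv _ _ (φ.submoduleMap U') (by
    ext ⟨y, hy⟩
    rw [Submodule.mem_map, mem_submoduleOf_iff]
    constructor
    · rintro ⟨x, hx, hxy⟩
      have : (φ (x : V) : V') = y := congrArg Subtype.val hxy
      show y ∈ Submodule.map (φ : V →ₗ[k] V') U
      rw [← this]
      exact Submodule.mem_map_of_mem (mem_submoduleOf_iff.mp hx)
    · intro hy'
      obtain ⟨x, hx, rfl⟩ := Submodule.mem_map.mp hy'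
      obtain ⟨x', hx', hxx'⟩ := Submodule.mem_map.mp hy
      have hxe : x' = x := φ.injective hxx'
      subst hxe
      exact ⟨⟨x', hx'⟩, hx, rfl⟩)

theorem colength_map_equiv' :
    colength (U.map (φ : V →ₗ[k] V')) (U'.map (φ : V →ₗ[k] V')) = colength U U' :=
  (colengthEquiv φ U U').symm.finrank_eq

theorem finiteDimensional_colength_map_equiv [FiniteDimensional k (↥U' ⧸ U.submoduleOf U')] :
    FiniteDimensional k (↥(U'.map (φ : V →ₗ[k] V')) ⧸
        (U.map (φ : V →ₗ[k] V')).submoduleOf (U'.map (φ : V →ₗ[k] V'))) :=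
  Module.Finite.equiv (colengthEquiv φ U U')

theorem finiteDimensional_colength_of_map_equiv
    [FiniteDimensional k (↥(U'.map (φ : V →ₗ[k] V')) ⧸
        (U.map (φ : V →ₗ[k] V')).submoduleOf (U'.map (φ : V →ₗ[k] V')))] :
    FiniteDimensional k (↥U' ⧸ U.submoduleOf U') :=
  Module.Finite.equiv (colengthEquiv φ U U').symm

end Equiv2

/-! ### Powers of a subspace -/

section Pi

variable {k M : Type*} [Field k] [AddCommGroup M] [Module k M] (ι : Type*) [Fintype ι]

/-- `S^ι ⊆ M^ι`. -/
def piSub (S : Submodule k M) : Submodule k (ι → M) :=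
  Submodule.pi Set.univ (fun _ => S)

variable {ι}

theorem mem_piSub {S : Submodule k M} {v : ι → M} : v ∈ piSub ι S ↔ ∀ i, v i ∈ S := by
  simp [piSub, Submodule.mem_pi]

theorem piSub_mono {S T : Submodule k M} (h : S ≤ T) : piSub ι S ≤ piSub ι T := by
  intro v hv
  rw [mem_piSub] at hv ⊢
  exact fun i => h (hv i)

theorem piSub_inf (S T : Submodule k M) : piSub ι (S ⊓ T) = piSub ι S ⊓ piSub ι T := by
  ext v
  simp only [mem_piSub, Submodule.mem_inf]
  exact forall_and

theorem piSub_sup (S T : Submodule k M) : piSub ι (S ⊔ T) = piSub ι S ⊔ piSub ι T := by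
  apply le_antisymm
  · intro v hv
    rw [mem_piSub] at hv
    have h : ∀ i, ∃ s ∈ S, ∃ t ∈ T, s + t = v i := fun i => Submodule.mem_sup.mp (hv i)
    choose s hs t ht hst using h
    refine Submodule.mem_sup.mpr ⟨s, mem_piSub.mpr hs, t, mem_piSub.mpr ht, ?_⟩
    funext i
    exact hst i
  · exact sup_le (piSub_mono le_sup_left) (piSub_mono le_sup_right)

/-- `S^ι` as a function space. -/
def piSubEquiv (S : Submodule k M) : ↥(piSub ι S) ≃ₗ[k] (ι → ↥S) where
  toFun v := fun i => ⟨(v : ι → M) i, mem_piSub.mp v.2 i⟩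
  invFun w := ⟨fun i => (w i : M), mem_piSub.mpr (fun i => (w i).2)⟩
  map_add' := by intros; rfl
  map_smul' := by intros; rfl
  left_inv := by intro v; rfl
  right_inv := by intro w; rfl

theorem piSubEquiv_symm_apply (S : Submodule k M) (w : ι → ↥S) (i : ι) :
    (((piSubEquiv S).symm w : ↥(piSub ι S)) : ι → M) i = (w i : M) := rfl

/-- `M^ι / S^ι = (M/S)^ι`. -/
def quotPiSubEquiv (S : Submodule k M) : ((ι → M) ⧸ piSub ι S) ≃ₗ[k] (ι → M ⧸ S) := by
  classical
  exact Submodule.quotientPi (fun _ => S)

theorem finrank_fun_eq (N : Type*) [AddCommGroup N] [Module k N] [FiniteDimensional k N] :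
    finrank k (ι → N) = Fintype.card ι * finrank k N := by
  rw [Module.finrank_pi_fintype]
  simp

theorem finrank_piSub (S : Submodule k M) [FiniteDimensional k ↥S] :
    finrank k ↥(piSub ι S) = Fintype.card ι * finrank k ↥S := by
  rw [(piSubEquiv (ι := ι) S).finrank_eq, finrank_fun_eq]

theorem finrank_quot_piSub (S : Submodule k M) [FiniteDimensional k (M ⧸ S)] :
    finrank k ((ι → M) ⧸ piSub ι S) = Fintype.card ι * finrank k (M ⧸ S) := by
  rw [(quotPiSubEquiv (ι := ι) S).finrank_eq, finrank_fun_eq]

theorem isFred_piSub {S T : Submodule k M} (h : IsFred S T) :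
    IsFred (piSub ι S) (piSub ι T) := by
  obtain ⟨h1, h2⟩ := h
  haveI := h1
  haveI := h2
  unfold IsFred
  rw [← piSub_inf, ← piSub_sup]
  exact ⟨Module.Finite.equiv (piSubEquiv (ι := ι) (S ⊓ T)).symm,
    Module.Finite.equiv (quotPiSubEquiv (ι := ι) (S ⊔ T)).symm⟩

theorem chi_piSub {S T : Submodule k M} (h : IsFred S T) :
    chi (piSub ι S) (piSub ι T) = Fintype.card ι * chi S T := by
  obtain ⟨h1, h2⟩ := h
  haveI := h1
  haveI := h2
  unfold chi
  rw [← piSub_inf, ← piSub_sup, finrank_piSub, finrank_quot_piSub]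
  push_cast
  ring

/-- `S'^ι / S^ι = (S'/S)^ι`. -/
def piColengthEquiv (S S' : Submodule k M) :
    (↥(piSub ι S') ⧸ (piSub ι S).submoduleOf (piSub ι S')) ≃ₗ[k]
      (ι → (↥S' ⧸ S.submoduleOf S')) :=
  (Submodule.Quotient.equiv _ (piSub ι (S.submoduleOf S')) (piSubEquiv S') (by
    ext w
    rw [Submodule.mem_map_equiv, mem_submoduleOf_iff, mem_piSub, mem_piSub]
    exact Iff.rfl)).trans (quotPiSubEquiv _)

theorem colength_piSub (S S' : Submodule k M) [FiniteDimensional k (↥S' ⧸ S.submoduleOf S')] :
    colength (piSub ι S) (piSub ι S') = Fintype.card ι * colength S S' := by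
  unfold colength
  rw [(piColengthEquiv (ι := ι) S S').finrank_eq, finrank_fun_eq]

theorem finiteDimensional_colength_piSub (S S' : Submodule k M)
    [FiniteDimensional k (↥S' ⧸ S.submoduleOf S')] :
    FiniteDimensional k (↥(piSub ι S') ⧸ (piSub ι S).submoduleOf (piSub ι S')) :=
  Module.Finite.equiv (piColengthEquiv (ι := ι) S S').symm

end Pi

/-! ### Coefficient subspaces with respect to a basis -/

section Coeff

variable {k L V ι : Type*} [Field k] [Field L] [Algebra k L] [AddCommGroup V] [Module k V]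
  [Module L V] [IsScalarTower k L V] [Fintype ι]

/-- The coordinate isomorphism, `k`-linearly. -/
def coordEquiv (b : Basis ι L V) : V ≃ₗ[k] (ι → L) := b.equivFun.restrictScalars k

theorem coordEquiv_apply (b : Basis ι L V) (v : V) (i : ι) :
    coordEquiv (k := k) b v i = b.repr v i := rfl

/-- The `k`-subspace `⊕ S b_i` of `V`: all `b`-coordinates lie in `S`. -/
def coeffSub (b : Basis ι L V) (S : Submodule k L) : Submodule k V :=
  (piSub ι S).map ((coordEquiv (k := k) b).symm : (ι → L) →ₗ[k] V)

theorem mem_coeffSub {b : Basis ι L V} {S : Submodule k L} {v : V} :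
    v ∈ coeffSub b S ↔ ∀ i, b.repr v i ∈ S := by
  unfold coeffSub
  rw [Submodule.mem_map_equiv, mem_piSub]
  exact Iff.rfl

theorem coeffSub_mono (b : Basis ι L V) {S T : Submodule k L} (h : S ≤ T) :
    coeffSub b S ≤ coeffSub b T :=
  Submodule.map_mono (piSub_mono h)

theorem coeffSub_le_iff [Nonempty ι] (b : Basis ι L V) {S T : Submodule k L} :
    coeffSub b S ≤ coeffSub b T ↔ S ≤ T := by
  refine ⟨fun h f hf => ?_, coeffSub_mono b⟩
  obtain ⟨i₀⟩ := ‹Nonempty ι›
  have h1 : f • b i₀ ∈ coeffSub b S := by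
    rw [mem_coeffSub]
    intro i
    rw [map_smul, Basis.repr_self, Finsupp.smul_apply, smul_eq_mul]
    by_cases hi : i = i₀
    · subst hi
      simpa using hf
    · rw [Finsupp.single_eq_of_ne hi, mul_zero]
      exact S.zero_mem
  have h2 := mem_coeffSub.mp (h h1) i₀
  rw [map_smul, Basis.repr_self, Finsupp.smul_apply, smul_eq_mul, Finsupp.single_eq_same,
    mul_one] at h2
  exact h2

theorem coeffSub_inf (b : Basis ι L V) (S T : Submodule k L) :
    coeffSub b (S ⊓ T) = coeffSub b S ⊓ coeffSub b T := by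
  unfold coeffSub
  rw [piSub_inf]
  exact Submodule.map_inf _ (coordEquiv (k := k) b).symm.injective

theorem coeffSub_sup (b : Basis ι L V) (S T : Submodule k L) :
    coeffSub b (S ⊔ T) = coeffSub b S ⊔ coeffSub b T := by
  unfold coeffSub
  rw [piSub_sup]
  exact Submodule.map_sup _ _ _

theorem coeffSub_top (b : Basis ι L V) : coeffSub b (⊤ : Submodule k L) = ⊤ := by
  ext v
  simp [mem_coeffSub]

theorem isFred_coeffSub (b : Basis ι L V) {S T : Submodule k L} (h : IsFred S T) :
    IsFred (coeffSub b S) (coeffSub b T) :=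
  (isFred_map_equiv' _ _ _).mpr (isFred_piSub h)

/-- **`chi` of coefficient subspaces.** -/
theorem chi_coeffSub (b : Basis ι L V) {S T : Submodule k L} (h : IsFred S T) :
    chi (coeffSub b S) (coeffSub b T) = Fintype.card ι * chi S T := by
  unfold coeffSub
  rw [chi_map_equiv', chi_piSub h]

theorem finiteDimensional_colength_coeffSub (b : Basis ι L V) (S S' : Submodule k L)
    [FiniteDimensional k (↥S' ⧸ S.submoduleOf S')] :
    FiniteDimensional k (↥(coeffSub b S') ⧸ (coeffSub b S).submoduleOf (coeffSub b S')) := by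
  haveI := finiteDimensional_colength_piSub (ι := ι) S S'
  exact finiteDimensional_colength_map_equiv _ _ _

/-- **colength of coefficient subspaces.** -/
theorem colength_coeffSub (b : Basis ι L V) (S S' : Submodule k L)
    [FiniteDimensional k (↥S' ⧸ S.submoduleOf S')] :
    colength (coeffSub b S) (coeffSub b S') = Fintype.card ι * colength S S' := by
  unfold coeffSub
  rw [colength_map_equiv', colength_piSub]

/-- Multiplication by a nonzero scalar of `L`, as a `k`-linear automorphism of `V`. -/
def smulEquiv (c : L) (hc : c ≠ 0) : V ≃ₗ[k] V where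
  toFun v := c • v
  invFun v := c⁻¹ • v
  map_add' := by intro v w; exact smul_add c v w
  map_smul' := by intro a v; exact smul_comm c a v
  left_inv := by intro v; simp [smul_smul, inv_mul_cancel₀ hc]
  right_inv := by intro v; simp [smul_smul, mul_inv_cancel₀ hc]

theorem smulEquiv_apply (c : L) (hc : c ≠ 0) (v : V) : smulEquiv (k := k) c hc v = c • v := rfl

/-- Scaling a coefficient subspace scales the coefficients. -/
theorem map_smulEquiv_coeffSub (b : Basis ι L V) (S : Submodule k L) (c : L) (hc : c ≠ 0) :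
    (coeffSub b S).map (smulEquiv (k := k) (V := V) c hc : V →ₗ[k] V) =
      coeffSub b (S.map (smulEquiv (k := k) (V := L) c hc : L →ₗ[k] L)) := by
  ext v
  rw [Submodule.mem_map_equiv, mem_coeffSub, mem_coeffSub]
  refine forall_congr' fun i => ?_
  rw [Submodule.mem_map_equiv]
  have h1 : (smulEquiv (k := k) (V := V) c hc).symm v = c⁻¹ • v := rfl
  have h2 : ∀ f : L, (smulEquiv (k := k) (V := L) c hc).symm f = c⁻¹ • f := fun _ => rfl
  rw [h1, h2, map_smul, Finsupp.smul_apply]

end Coeff

/-! ### Spans of a basis over a subring -/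

section Span

variable {k L V ι : Type*} [Field k] [Field L] [Algebra k L] [AddCommGroup V] [Module k V]
  [Module L V] [IsScalarTower k L V] [Fintype ι]
variable {O : Type*} [CommRing O] [Algebra O L] [Module O V] [IsScalarTower O L V]

/-- membership in the `O`-span of a basis: the coordinates come from `O`. -/
theorem mem_span_range_basis_iff (b : Basis ι L V) (v : V) :
    v ∈ Submodule.span O (Set.range b) ↔ ∀ i, ∃ a : O, algebraMap O L a = b.repr v i := by
  classical
  rw [Submodule.mem_span_range_iff_exists_fun]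
  constructor
  · rintro ⟨c, rfl⟩ i
    refine ⟨c i, ?_⟩
    have h1 : ∀ j, c j • b j = (algebraMap O L (c j)) • b j := fun j =>
      (algebraMap_smul L (c j) (b j)).symm
    simp_rw [h1]
    rw [map_sum, Finsupp.finsetSum_apply]
    simp_rw [map_smul, Basis.repr_self, Finsupp.smul_apply, smul_eq_mul]
    rw [Finset.sum_eq_single i]
    · rw [Finsupp.single_eq_same, mul_one]
    · intro j _ hji
      rw [Finsupp.single_eq_of_ne (Ne.symm hji), mul_zero]
    · intro hi
      exact absurd (Finset.mem_univ i) hi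
  · intro h
    choose c hc using h
    refine ⟨c, ?_⟩
    conv_rhs => rw [← b.sum_repr v]
    refine Finset.sum_congr rfl fun i _ => ?_
    rw [← hc i, algebraMap_smul]

variable [Module k O] [IsScalarTower k O V]

/-- **The `O`-span of a basis is a coefficient subspace**: for any commutative ring `O` mapping to
`L` whose image, as a `k`-subspace, is `S`. -/
theorem span_restrictScalars_eq_coeffSub (b : Basis ι L V) (S : Submodule k L)
    (hS : ∀ f : L, f ∈ S ↔ ∃ a : O, algebraMap O L a = f) :
    (Submodule.span O (Set.range b)).restrictScalars k = coeffSub b S := by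
  ext v
  rw [Submodule.restrictScalars_mem, mem_span_range_basis_iff, mem_coeffSub]
  exact forall_congr' fun i => (hS _).symm

end Span

/-! ### Lattices over a PID are spans of bases -/

section LatticeBasis

variable {L V : Type*} [Field L] [AddCommGroup V] [Module L V]
variable {O : Type*} [CommRing O] [IsDomain O] [IsPrincipalIdealRing O] [Algebra O L]
  [IsFractionRing O L] [Module O V] [IsScalarTower O L V]

/-- A lattice over a PID is the span of an `L`-basis of `V`. -/
theorem exists_basis_span_eq (W : Submodule O V) [Submodule.IsLattice L W] :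
    ∃ (n : ℕ) (w : Basis (Fin n) L V), W = Submodule.span O (Set.range w) := by
  classical
  haveI : Module.IsTorsionFree O L := by
    have : FaithfulSMul O L := inferInstance
    infer_instance
  haveI : Module.Free O W := Submodule.IsLattice.free (K := L) W
  let b0 := Module.Free.chooseBasis O W
  let e := Fintype.equivFin (Module.Free.ChooseBasisIndex O W)
  let b := b0.reindex e
  refine ⟨_, b.extendOfIsLattice L, ?_⟩
  have h1 : Set.range (b.extendOfIsLattice L) = W.subtype '' Set.range b := by
    ext v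
    simp only [Set.mem_range, Module.Basis.extendOfIsLattice_apply, Set.mem_image,
      Submodule.subtype_apply, exists_exists_eq_and]
  rw [h1, ← Submodule.map_span, b.span_eq, Submodule.map_subtype_top]

end LatticeBasis

end Fermat.Agent.S16.H85
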