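/-
S16 / (G0) package P3, TWIST in the END SHAPE of helper6's ruling (#2482 (2)) (helper85).

`O : Subalgebra k E` a PID with fraction field `E`, `t ∈ O`, `t ≠ 0`, `dim_k O/(t) = 1`;
`W ∈ LatK O`; `T := {f | t ^ m • f ∈ W}` (`= t^{-m} W`).  Then `W ⊆ T` has finite colength
`m * [F : E]`.

Proof: the automorphism `f ↦ t ^ m f` of `F` carries `W ⊆ T` to `t ^ m W ⊆ W`, whose colength is
helper24's `H24.finrank_quotient_pow_smul_of_isLattice`.
-/
import Mathlib
import Fermat.Agent.S16.H6_G0Iface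
import Fermat.Agent.S16.H24_BasePair
import Fermat.Agent.S16.H85_CoeffSub

set_option autoImplicit false
set_option linter.unusedSectionVars false
set_option linter.style.haveILetI false

open Module
open scoped Pointwise

noncomputable section

namespace Fermat.Agent.S16.H85

open Fermat.Agent.S16

variable {k E F : Type*} [Field k] [Field E] [Field F] [Algebra k E] [Algebra E F] [Algebra k F]
  [IsScalarTower k E F]

/-- **The twist, end shape.** -/
theorem twist_end (O : Subalgebra k E) [IsPrincipalIdealRing ↥O] [IsFractionRing ↥O E]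
    [FiniteDimensional E F] (t : ↥O) (ht : t ≠ 0)
    (h1 : finrank k (↥O ⧸ Ideal.span {t}) = 1)
    {W : Submodule k F} (hW : W ∈ H6.LatK O (F := F)) (m : ℕ) (T : Submodule k F)
    (hT : ∀ f : F, f ∈ T ↔ ((t : ↥O) : E) ^ m • f ∈ W) :
    H6.FinCol W T ∧ H6.colen W T = m * finrank E F := by
  obtain ⟨Wm, hfg, hspan, rfl⟩ := hW
  haveI : Submodule.IsLattice E Wm := ⟨hfg, hspan⟩
  have htE : ((t : ↥O) : E) ≠ 0 := fun h => ht (Subtype.ext h)
  have hc : ((t : ↥O) : E) ^ m ≠ 0 := pow_ne_zero m htE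
  set φ : F ≃ₗ[k] F := smulEquiv (k := k) (V := F) (((t : ↥O) : E) ^ m) hc with hφ
  have hsm : ∀ w : F, (t ^ m : ↥O) • w = ((t : ↥O) : E) ^ m • w := by
    intro w
    rw [Subalgebra.smul_def]
    simp
  -- the two images
  have e1 : T.map (φ : F →ₗ[k] F) = Wm.restrictScalars k := by
    ext x
    rw [Submodule.mem_map_equiv, hT]
    have : (((t : ↥O) : E) ^ m) • φ.symm x = x := by
      show (((t : ↥O) : E) ^ m) • ((((t : ↥O) : E) ^ m)⁻¹ • x) = x
      rw [smul_smul, mul_inv_cancel₀ hc, one_smul]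
    rw [this]
  have e2 : (Wm.restrictScalars k).map (φ : F →ₗ[k] F) = ((t ^ m) • Wm).restrictScalars k := by
    ext x
    rw [Submodule.mem_map, Submodule.restrictScalars_mem]
    constructor
    · rintro ⟨w, hw, rfl⟩
      exact (Submodule.mem_smul_pointwise_iff_exists _ _ _).mpr ⟨w, hw, hsm w⟩
    · intro hx
      obtain ⟨w, hw, rfl⟩ := (Submodule.mem_smul_pointwise_iff_exists _ _ _).mp hx
      exact ⟨w, hw, (hsm w).symm⟩
  obtain ⟨hfin, hrk⟩ := H24.finrank_quotient_pow_smul_of_isLattice (k := k) (L := E) Wm t ht h1 m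
  have hle : Wm.restrictScalars k ≤ T := by
    intro f hf
    rw [hT, ← hsm]
    exact Wm.smul_mem _ hf
  haveI hfin' : FiniteDimensional k
      (↥(T.map (φ : F →ₗ[k] F)) ⧸
        ((Wm.restrictScalars k).map (φ : F →ₗ[k] F)).submoduleOf (T.map (φ : F →ₗ[k] F))) := by
    rw [e1, e2]
    exact hfin
  refine ⟨⟨hle, finiteDimensional_colength_of_map_equiv φ (Wm.restrictScalars k) T⟩, ?_⟩
  have h2 := colength_map_equiv' φ (Wm.restrictScalars k) T
  rw [e1, e2] at h2
  show colength (Wm.restrictScalars k) T = m * finrank E F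
  rw [← h2]
  exact hrk

end Fermat.Agent.S16.H85
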