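import Mathlib
import Fermat.Agent.S16.H35_G0Inst
import Fermat.Agent.S16.H85_G0Twist

/-!
# (G0) P3i adapters (helper35): the uniformiser `tinf` of `Binf k x` for the consumers

* `maximalIdeal_Binf_eq` : the maximal ideal of `Binf k x` is `(tinf)` (for any DVR/local-ring
  instance on `Binf k x`);
* `coe_coe_tinf` : the image of `tinf` in `F` is `x⁻¹`;
* `tinf_pow_smul` : the `k⟮x⟯`-action of `tinf ^ m` on `F` is multiplication by `x⁻¹ ^ m`
  (the predicate `hT` of `H85.twist_end`).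
-/

set_option autoImplicit false

noncomputable section

open Polynomial IntermediateField AlgebraicCurve

namespace Fermat.Agent.S16.H35

open Fermat.Agent.S16.H6

variable {k F : Type*} [Field k] [Field F] [Algebra k F] {x : F}

/-- The maximal ideal of `Binf k x` is generated by `tinf = x⁻¹` (instance-generic). -/
theorem maximalIdeal_Binf_eq (hx : Transcendental k x) (hpole : ∃ v : Place k F, v.ord x < 0)
    [IsDiscreteValuationRing ↥(Binf k x)] :
    IsLocalRing.maximalIdeal ↥(Binf k x) = Ideal.span {tinf hx} :=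
  (irreducible_tinf hx hpole).maximalIdeal_eq

/-- Local-ring form: a non-unit of `Binf k x` is a multiple of `tinf`. -/
theorem mem_span_tinf_of_not_isUnit (hx : Transcendental k x)
    (hpole : ∃ v : Place k F, v.ord x < 0) {b : ↥(Binf k x)} (hb : ¬ IsUnit b) :
    b ∈ Ideal.span {tinf hx} := by
  rcases eq_or_ne b 0 with rfl | hb0
  · exact Ideal.zero_mem _
  obtain ⟨m, u, hu⟩ := exists_pow_mul_unit' hx hpole hb0
  rcases Nat.eq_zero_or_pos m with hm | hm
  · exfalso
    apply hb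
    rw [hu, hm, pow_zero, one_mul]
    exact u.isUnit
  · obtain ⟨m', rfl⟩ : ∃ m', m = m' + 1 := ⟨m - 1, by omega⟩
    rw [hu, pow_succ', mul_assoc]
    exact Ideal.mul_mem_right _ _ (Ideal.mem_span_singleton_self _)

@[simp]
theorem coe_coe_tinf (hx : Transcendental k x) :
    (((tinf hx : ↥(Binf k x)) : k⟮x⟯) : F) = x⁻¹ := by
  rw [coe_tinf, IntermediateField.coe_inv, AdjoinSimple.coe_gen]

theorem coe_coe_tinf_pow (hx : Transcendental k x) (m : ℕ) :
    ((((tinf hx : ↥(Binf k x)) : k⟮x⟯) ^ m : k⟮x⟯) : F) = x⁻¹ ^ m := by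
  rw [IntermediateField.coe_pow, coe_coe_tinf]

/-- The action of `tinf ^ m ∈ k⟮x⟯` on `F` is multiplication by `x⁻¹ ^ m`. -/
theorem tinf_pow_smul (hx : Transcendental k x) (m : ℕ) (f : F) :
    (((tinf hx : ↥(Binf k x)) : k⟮x⟯) ^ m) • f = x⁻¹ ^ m * f := by
  rw [Algebra.smul_def, IntermediateField.algebraMap_apply, coe_coe_tinf_pow]

/-- The twist predicate of `H85.twist_end` in multiplicative form. -/
theorem twist_pred_iff (hx : Transcendental k x) (m : ℕ) (W T : Submodule k F)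
    (hT : ∀ f : F, f ∈ T ↔ x⁻¹ ^ m * f ∈ W) :
    ∀ f : F, f ∈ T ↔ (((tinf hx : ↥(Binf k x)) : k⟮x⟯) ^ m) • f ∈ W := by
  intro f
  rw [tinf_pow_smul, hT]

/-- **The twist at the instance**: for a `k`-subspace `T` with `f ∈ T ↔ x⁻¹ ^ m * f ∈ Rinf k x`
(i.e. `T = x^m • Rinf`), `Rinf ≤ T` has colength `m * [F : k(x)]`. -/
theorem twist_Rinf (hx : Transcendental k x) (hpole : ∃ v : Place k F, v.ord x < 0)
    [FiniteDimensional k⟮x⟯ F] (hLat : Rinf k x ∈ LatK (Binf k x) (F := F)) (m : ℕ)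
    (T : Submodule k F) (hT : ∀ f : F, f ∈ T ↔ x⁻¹ ^ m * f ∈ Rinf k x) :
    FinCol (Rinf k x) T ∧ colen (Rinf k x) T = m * Module.finrank k⟮x⟯ F := by
  have := isPrincipalIdealRing_Binf hx hpole
  have := isFractionRing_Binf (F := F) hx
  exact H85.twist_end (Binf k x) (tinf hx) (tinf_ne_zero hx) (finrank_quotient_tinf hx hpole)
    hLat m T (twist_pred_iff hx m _ T hT)

end Fermat.Agent.S16.H35
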