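/-
S16, package (U3b) [helper59]: level one modular forms modulo `3`.

* `qExpansion 1 Δ` has integer coefficients, given by the explicit series `deltaZ`, and
  `Δ ≡ S - S^3 (mod 3)` with `S = ∑ σ₃(n) q^n`  (`deltaZ_map_three`).
* Every level one modular form whose `q`-expansion has coefficients in a subring `O ⊆ ℂ`
  reduces, along any ring hom `O →+* κ` to a field of characteristic `3`, to a polynomial in
  `Δ mod 3`  (`exists_polynomial_reduction`).
-/
import Mathlib
import Fermat.Agent.S23.H80_LevelOne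

set_option autoImplicit false

open UpperHalfPlane ModularForm ModularFormClass MatrixGroups EisensteinSeries
open scoped ArithmeticFunction.sigma

namespace Fermat.Agent.S16.H59

local notation "Δ" => ModularForm.discriminant

/-- The generating series `∑ σ_k(n) q^n` over `ℤ`. -/
noncomputable def sg (k : ℕ) : PowerSeries ℤ :=
  PowerSeries.mk fun n => (ArithmeticFunction.sigma k n : ℤ)

@[simp] lemma coeff_sg (k n : ℕ) : (sg k).coeff n = (ArithmeticFunction.sigma k n : ℤ) := by
  simp [sg]

lemma constantCoeff_sg (k : ℕ) : PowerSeries.constantCoeff (sg k) = 0 := by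
  rw [← PowerSeries.coeff_zero_eq_constantCoeff_apply, coeff_sg]
  simp

/-- The Eisenstein series of weight `8`. -/
noncomputable abbrev E₈ : ModularForm 𝒮ℒ 8 := E (by norm_num : 3 ≤ 8)

lemma coeff_one_add_mul_sg (c : ℤ) (k n : ℕ) :
    (1 + PowerSeries.C c * sg k).coeff n =
      if n = 0 then 1 else c * (ArithmeticFunction.sigma k n : ℤ) := by
  rw [map_add, PowerSeries.coeff_C_mul, coeff_sg, PowerSeries.coeff_one]
  by_cases hn : n = 0
  · subst hn
    simp
  · simp [hn]

lemma qExpansion_E₄_eq :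
    qExpansion 1 E₄ = PowerSeries.map (Int.castRingHom ℂ) (1 + 240 * sg 3) := by
  ext n
  rw [E_qExpansion_coeff _ ⟨2, rfl⟩, PowerSeries.coeff_map,
    show ((240 : PowerSeries ℤ)) = PowerSeries.C (240 : ℤ) by simp, coeff_one_add_mul_sg]
  by_cases hn : n = 0
  · simp [hn]
  · rw [if_neg hn, if_neg hn, show bernoulli 4 = -1 / 30 by decide +kernel]
    push_cast
    norm_num

lemma qExpansion_E₆_eq :
    qExpansion 1 E₆ = PowerSeries.map (Int.castRingHom ℂ) (1 + (-504) * sg 5) := by
  ext n
  rw [E_qExpansion_coeff _ ⟨3, rfl⟩, PowerSeries.coeff_map,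
    show ((-504 : PowerSeries ℤ)) = PowerSeries.C (-504 : ℤ) by simp, coeff_one_add_mul_sg]
  by_cases hn : n = 0
  · simp [hn]
  · rw [if_neg hn, if_neg hn, show bernoulli 6 = 1 / 42 by decide +kernel]
    push_cast
    norm_num

lemma qExpansion_E₈_eq :
    qExpansion 1 E₈ = PowerSeries.map (Int.castRingHom ℂ) (1 + 480 * sg 7) := by
  ext n
  rw [E_qExpansion_coeff _ ⟨4, rfl⟩, PowerSeries.coeff_map,
    show ((480 : PowerSeries ℤ)) = PowerSeries.C (480 : ℤ) by simp, coeff_one_add_mul_sg]
  by_cases hn : n = 0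
  · simp [hn]
  · rw [if_neg hn, if_neg hn, show bernoulli 8 = -1 / 30 by decide +kernel]
    push_cast
    norm_num

/-- `E₄² = E₈` (weight `8` is one-dimensional), on `q`-expansions. -/
lemma qExpansion_E₄_sq : qExpansion 1 E₄ ^ 2 = qExpansion 1 E₈ := by
  have hrank : Module.rank ℂ (ModularForm 𝒮ℒ ((8 : ℕ) : ℤ)) = 1 := by
    have := dimension_level_one 8 ⟨4, rfl⟩
    simpa [Nat.ModEq] using this
  have hfr : Module.finrank ℂ (ModularForm 𝒮ℒ ((8 : ℕ) : ℤ)) = 1 :=
    Module.finrank_eq_of_rank_eq hrank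
  set f : ModularForm 𝒮ℒ ((8 : ℕ) : ℤ) := ModularForm.mcast (by decide) (E₄.pow 2) with hf
  have hE8 : E₈ ≠ 0 := E_ne_zero _ ⟨4, rfl⟩
  obtain ⟨c, hc⟩ := exists_smul_eq_of_finrank_eq_one hfr hE8 f
  have hqf : qExpansion 1 f = qExpansion 1 E₄ ^ 2 := by
    rw [hf, coe_mcast, ModularForm.qExpansion_pow one_pos one_mem_strictPeriods_SL]
  have hqc : qExpansion 1 f = c • qExpansion 1 E₈ := by
    rw [← hc, FunLike.coe_smul, ModularForm.qExpansion_smul one_pos one_mem_strictPeriods_SL]
  have h0 := congrArg (PowerSeries.coeff 0) (hqf.symm.trans hqc)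
  rw [PowerSeries.coeff_smul, E_qExpansion_coeff_zero _ ⟨4, rfl⟩,
    PowerSeries.coeff_zero_eq_constantCoeff_apply, map_pow,
    ← PowerSeries.coeff_zero_eq_constantCoeff_apply, E_qExpansion_coeff_zero _ ⟨2, rfl⟩] at h0
  have hc1 : c = 1 := by simpa using h0.symm
  rw [← hqf, hqc, hc1, one_smul]

lemma map_int_injective :
    Function.Injective (PowerSeries.map (Int.castRingHom ℂ)) :=
  PowerSeries.map_injective _ (RingHom.injective_int (Int.castRingHom ℂ))

/-- The convolution identity `σ₇ = σ₃ + 120 σ₃ * σ₃` in generating-series form. -/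
lemma sg_three_sq : 120 * sg 3 ^ 2 = sg 7 - sg 3 := by
  have h : ((1 : PowerSeries ℤ) + 240 * sg 3) ^ 2 = 1 + 480 * sg 7 := by
    apply map_int_injective
    rw [map_pow, ← qExpansion_E₄_eq, ← qExpansion_E₈_eq, qExpansion_E₄_sq]
  have h2 : (480 : PowerSeries ℤ) * (120 * sg 3 ^ 2) = 480 * (sg 7 - sg 3) := by
    linear_combination h
  have h480 : (480 : PowerSeries ℤ) ≠ 0 := by
    intro h0
    have := congrArg (PowerSeries.constantCoeff (R := ℤ)) h0
    rw [map_ofNat, map_zero] at this
    norm_num at this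
  exact mul_left_cancel₀ h480 h2

/-- The termwise congruence behind `Δ ∈ ℤ⟦q⟧` and `Δ ≡ σ₃ - σ₃³ (mod 3)`. -/
lemma termwise_dvd (d : ℤ) : (36 : ℤ) ∣ -17 * d ^ 3 + 7 * d ^ 5 + 10 * d ^ 7 := by
  have h : ∀ x : ZMod 36, -17 * x ^ 3 + 7 * x ^ 5 + 10 * x ^ 7 = 0 := by decide
  have h1 := h (d : ZMod 36)
  have h2 := (ZMod.intCast_zmod_eq_zero_iff_dvd (-17 * d ^ 3 + 7 * d ^ 5 + 10 * d ^ 7) 36).mp
    (by push_cast; exact h1)
  exact_mod_cast h2

/-- The correction series `R` with `36 R = -17 σ₃ + 7 σ₅ + 10 σ₇`. -/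
noncomputable def corrR : PowerSeries ℤ :=
  PowerSeries.mk fun n =>
    (-17 * (ArithmeticFunction.sigma 3 n : ℤ) + 7 * (ArithmeticFunction.sigma 5 n : ℤ) +
      10 * (ArithmeticFunction.sigma 7 n : ℤ)) / 36

lemma corrR_spec : 36 * corrR = -17 * sg 3 + 7 * sg 5 + 10 * sg 7 := by
  ext n
  have hdvd : (36 : ℤ) ∣ -17 * (ArithmeticFunction.sigma 3 n : ℤ) +
      7 * (ArithmeticFunction.sigma 5 n : ℤ) + 10 * (ArithmeticFunction.sigma 7 n : ℤ) := by
    simp only [ArithmeticFunction.sigma_apply]
    push_cast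
    rw [Finset.mul_sum, Finset.mul_sum, Finset.mul_sum, ← Finset.sum_add_distrib,
      ← Finset.sum_add_distrib]
    exact Finset.dvd_sum fun d _ => termwise_dvd d
  rw [show (36 : PowerSeries ℤ) = PowerSeries.C (36 : ℤ) by simp, PowerSeries.coeff_C_mul]
  simp only [corrR, PowerSeries.coeff_mk, map_add]
  rw [show (-17 : PowerSeries ℤ) = PowerSeries.C (-17 : ℤ) by simp,
    show (7 : PowerSeries ℤ) = PowerSeries.C (7 : ℤ) by simp,
    show (10 : PowerSeries ℤ) = PowerSeries.C (10 : ℤ) by simp,
    PowerSeries.coeff_C_mul, PowerSeries.coeff_C_mul, PowerSeries.coeff_C_mul]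
  simp only [coeff_sg]
  exact Int.mul_ediv_cancel' hdvd

/-- The integral `q`-expansion of `Δ`, in a form adapted to reduction modulo `3`. -/
noncomputable def deltaZ : PowerSeries ℤ :=
  sg 3 - sg 3 ^ 3 + 3 * (2667 * sg 3 ^ 3 - 49 * sg 5 ^ 2 + corrR)

lemma deltaZ_spec :
    ((1 : PowerSeries ℤ) + 240 * sg 3) ^ 3 - (1 + (-504) * sg 5) ^ 2 = 1728 * deltaZ := by
  have h1 := sg_three_sq
  have h2 := corrR_spec
  unfold deltaZ
  linear_combination 1440 * h1 - 144 * h2

/-- **`Δ` has the integral `q`-expansion `deltaZ`.** -/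
theorem qExpansion_discriminant_eq_map :
    qExpansion 1 Δ = PowerSeries.map (Int.castRingHom ℂ) deltaZ := by
  rw [Fermat.Agent.S23.H80.qExpansion_discriminant_eq, Fermat.Agent.S23.H80.qExpansion_D12,
    qExpansion_E₄_eq, qExpansion_E₆_eq, ← map_pow, ← map_pow, ← map_sub, deltaZ_spec, map_mul]
  have h1728 : (1728 : PowerSeries ℂ) = PowerSeries.C (1728 : ℂ) :=
    (map_ofNat (PowerSeries.C (R := ℂ)) 1728).symm
  rw [map_ofNat, PowerSeries.smul_eq_C_mul, h1728, ← mul_assoc, ← map_mul]
  norm_num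

lemma constantCoeff_corrR : PowerSeries.constantCoeff corrR = 0 := by
  rw [← PowerSeries.coeff_zero_eq_constantCoeff_apply]
  simp [corrR]

lemma constantCoeff_deltaZ : PowerSeries.constantCoeff deltaZ = 0 := by
  simp [deltaZ, constantCoeff_sg, constantCoeff_corrR]

lemma coeff_one_deltaZ : deltaZ.coeff 1 = 1 := by
  have h := discriminant_qExpansion_coeff_one
  have h2 : (qExpansion 1 Δ).coeff 1 = ((deltaZ.coeff 1 : ℤ) : ℂ) := by
    rw [qExpansion_discriminant_eq_map, PowerSeries.coeff_map]
    rfl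
  have h3 : ((deltaZ.coeff 1 : ℤ) : ℂ) = 1 := by
    rw [← h2]
    exact h
  exact_mod_cast h3

/-- `Δ = q · (unit)` over `ℤ`. -/
lemma exists_deltaZ_eq_X_mul :
    ∃ V : PowerSeries ℤ, deltaZ = PowerSeries.X * V ∧ PowerSeries.constantCoeff V = 1 := by
  obtain ⟨V, hV⟩ := PowerSeries.X_dvd_iff.mpr constantCoeff_deltaZ
  refine ⟨V, hV, ?_⟩
  have h := coeff_one_deltaZ
  rw [hV, show (1 : ℕ) = 0 + 1 from rfl, PowerSeries.coeff_succ_X_mul,
    PowerSeries.coeff_zero_eq_constantCoeff_apply] at h
  exact h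

/-- **`Δ ≡ S - S³ (mod 3)`**, `S = ∑ σ₃(n) qⁿ`. -/
theorem deltaZ_map_three {κ : Type*} [CommRing κ] [CharP κ 3] :
    PowerSeries.map (Int.castRingHom κ) deltaZ =
      PowerSeries.map (Int.castRingHom κ) (sg 3) -
        PowerSeries.map (Int.castRingHom κ) (sg 3) ^ 3 := by
  have h3 : (3 : PowerSeries κ) = 0 := by
    have h : ((3 : ℕ) : κ) = 0 := CharP.cast_eq_zero κ 3
    have h' : (3 : κ) = 0 := by exact_mod_cast h
    have : (3 : PowerSeries κ) = PowerSeries.C (3 : κ) :=
      (map_ofNat (PowerSeries.C (R := κ)) 3).symm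
    rw [this, h', map_zero]
  unfold deltaZ
  rw [map_add, map_sub, map_pow, map_mul, map_ofNat, h3, zero_mul, add_zero]

section reduction

/-- The integral `q`-expansion of the monomial `E₄^a E₆^b`. -/
noncomputable def monoZ (a b : ℕ) : PowerSeries ℤ :=
  (1 + 240 * sg 3) ^ a * (1 + (-504) * sg 5) ^ b

lemma constantCoeff_monoZ (a b : ℕ) : PowerSeries.constantCoeff (monoZ a b) = 1 := by
  simp [monoZ, constantCoeff_sg]

lemma monoZ_map_three {κ : Type*} [CommRing κ] [CharP κ 3] (a b : ℕ) :
    PowerSeries.map (Int.castRingHom κ) (monoZ a b) = 1 := by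
  have h3 : (3 : PowerSeries κ) = 0 := by
    have h : ((3 : ℕ) : κ) = 0 := CharP.cast_eq_zero κ 3
    have h' : (3 : κ) = 0 := by exact_mod_cast h
    have : (3 : PowerSeries κ) = PowerSeries.C (3 : κ) :=
      (map_ofNat (PowerSeries.C (R := κ)) 3).symm
    rw [this, h', map_zero]
  have h240 : (240 : PowerSeries κ) = 0 := by
    have : (240 : PowerSeries κ) = 3 * 80 := by norm_num
    rw [this, h3, zero_mul]
  have h504 : (504 : PowerSeries κ) = 0 := by
    have : (504 : PowerSeries κ) = 3 * 168 := by norm_num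
    rw [this, h3, zero_mul]
  unfold monoZ
  rw [map_mul, map_pow, map_pow, map_add, map_add, map_one, map_mul, map_mul, map_neg,
    map_ofNat, map_ofNat, h240, h504]
  simp

lemma exists_monomial_monoZ {k : ℤ} (hk : 4 ≤ k) (hk2 : Even k) :
    ∃ (M : ModularForm 𝒮ℒ k) (a b : ℕ),
      qExpansion 1 M = PowerSeries.map (Int.castRingHom ℂ) (monoZ a b) := by
  obtain ⟨a, b, hab⟩ : ∃ a b : ℕ, (a : ℤ) * 4 + (b : ℤ) * 6 = k := by
    obtain ⟨m, hm⟩ := hk2
    rcases Int.even_or_odd m with ⟨c, hc⟩ | ⟨c, hc⟩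
    · exact ⟨c.toNat, 0, by omega⟩
    · exact ⟨(c - 1).toNat, 1, by omega⟩
  refine ⟨ModularForm.mcast hab ((E₄.pow a).mul (E₆.pow b)), a, b, ?_⟩
  rw [coe_mcast, ModularForm.qExpansion_mul one_pos one_mem_strictPeriods_SL,
    ModularForm.qExpansion_pow one_pos one_mem_strictPeriods_SL,
    ModularForm.qExpansion_pow one_pos one_mem_strictPeriods_SL, qExpansion_E₄_eq,
    qExpansion_E₆_eq, monoZ, map_mul, map_pow, map_pow]

variable (O : Subring ℂ)

lemma map_subtype_injective :
    Function.Injective (PowerSeries.map O.subtype) :=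
  PowerSeries.map_injective _ Subtype.val_injective

lemma map_subtype_map_int (P : PowerSeries ℤ) :
    PowerSeries.map O.subtype (PowerSeries.map (Int.castRingHom O) P) =
      PowerSeries.map (Int.castRingHom ℂ) P := by
  ext n
  simp

lemma map_map_int {κ : Type*} [CommRing κ] (φ : O →+* κ) (P : PowerSeries ℤ) :
    PowerSeries.map φ (PowerSeries.map (Int.castRingHom O) P) =
      PowerSeries.map (Int.castRingHom κ) P := by
  ext n
  simp

variable {κ : Type*} [Field κ] [CharP κ 3] (φ : O →+* κ)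

/-- **Level one forms modulo `3` are polynomials in `Δ`.** If the `q`-expansion of a level one
modular form `F` has coefficients in the subring `O ⊆ ℂ` (witnessed by `P : O⟦q⟧`), then for
every ring homomorphism `φ : O →+* κ` into a field of characteristic `3` the reduced series
`φ(P)` is a polynomial in `Δ mod 3`. -/
theorem exists_polynomial_reduction :
    ∀ (k : ℤ) (F : ModularForm 𝒮ℒ k) (P : PowerSeries O),
      PowerSeries.map O.subtype P = qExpansion 1 F →
      ∃ Q : Polynomial κ, PowerSeries.map φ P =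
        Polynomial.aeval (PowerSeries.map (Int.castRingHom κ) deltaZ) Q := by
  suffices H : ∀ n : ℕ, ∀ (k : ℤ), k < 12 * n → ∀ (F : ModularForm 𝒮ℒ k) (P : PowerSeries O),
      PowerSeries.map O.subtype P = qExpansion 1 F →
      ∃ Q : Polynomial κ, PowerSeries.map φ P =
        Polynomial.aeval (PowerSeries.map (Int.castRingHom κ) deltaZ) Q from
    fun k => H (k.toNat + 1) k (by omega)
  intro n
  induction n with
  | zero =>
    intro k hk F P hP
    have hF : F = 0 :=
      rank_zero_iff_forall_zero.mp (levelOne_neg_weight_rank_zero (by omega)) F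
    have hP0 : P = 0 := by
      apply map_subtype_injective O
      rw [hP, hF, map_zero]
      exact qExpansion_zero 1
    exact ⟨0, by rw [hP0, map_zero, map_zero]⟩
  | succ n ih =>
    intro k hk F P hP
    -- the zero form
    have hzero : F = 0 → ∃ Q : Polynomial κ, PowerSeries.map φ P =
        Polynomial.aeval (PowerSeries.map (Int.castRingHom κ) deltaZ) Q := by
      intro hF
      have hP0 : P = 0 := by
        apply map_subtype_injective O
        rw [hP, hF, map_zero]
        exact qExpansion_zero 1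
      exact ⟨0, by rw [hP0, map_zero, map_zero]⟩
    rcases lt_or_ge k 0 with hneg | hnn
    · exact hzero (rank_zero_iff_forall_zero.mp (levelOne_neg_weight_rank_zero hneg) F)
    rcases Int.even_or_odd k with hev | hodd
    swap
    · exact hzero (levelOne_odd_weight_eq_zero hodd F)
    have hcases : k = 0 ∨ k = 2 ∨ 4 ≤ k := by
      obtain ⟨m, hm⟩ := hev
      omega
    rcases hcases with rfl | rfl | h4
    · -- weight zero: constants
      obtain ⟨c, hc⟩ := levelOne_weight_zero_const F
      have hq : qExpansion 1 F = PowerSeries.C c := by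
        have hF : (F : ℍ → ℂ) = c • (1 : ℍ → ℂ) := by
          rw [hc]; ext z; simp
        rw [hF, UpperHalfPlane.qExpansion_smul (by
          rw [show (1 : ℍ → ℂ) = ⇑(1 : ModularForm 𝒮ℒ 0) from rfl]
          exact ModularFormClass.analyticAt_cuspFunction_zero _ one_pos
            one_mem_strictPeriods_SL), UpperHalfPlane.qExpansion_one, PowerSeries.smul_eq_C_mul,
          mul_one]
      have hPc : P = PowerSeries.C (P.coeff 0) := by
        ext m
        by_cases hm : m = 0
        · subst hm; simp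
        · have h1 := congrArg (PowerSeries.coeff m) hP
          rw [PowerSeries.coeff_map, hq, PowerSeries.coeff_C, if_neg hm] at h1
          rw [PowerSeries.coeff_C, if_neg hm]
          simpa using h1
      obtain ⟨a, hPa⟩ : ∃ a : O, P = PowerSeries.C a := ⟨P.coeff 0, hPc⟩
      refine ⟨Polynomial.C (φ a), ?_⟩
      rw [Polynomial.aeval_C, hPa, PowerSeries.map_C]
      rfl
    · -- weight two: zero
      exact hzero (rank_zero_iff_forall_zero.mp levelOne_weight_two_rank_zero F)
    · -- weight at least four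
      obtain ⟨M, a, b, hM⟩ := exists_monomial_monoZ h4 hev
      obtain ⟨PMO, hPMO⟩ : ∃ x : PowerSeries O,
          x = PowerSeries.map (Int.castRingHom O) (monoZ a b) := ⟨_, rfl⟩
      have hPMO_map : PowerSeries.map O.subtype PMO = qExpansion 1 M := by
        rw [hPMO, map_subtype_map_int, hM]
      have hPMO0 : PowerSeries.constantCoeff PMO = 1 := by
        rw [hPMO, ← PowerSeries.coeff_zero_eq_constantCoeff_apply, PowerSeries.coeff_map,
          PowerSeries.coeff_zero_eq_constantCoeff_apply, constantCoeff_monoZ, map_one]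
      obtain ⟨a0, ha0⟩ : ∃ x : O, x = P.coeff 0 := ⟨_, rfl⟩
      have ha0' : (qExpansion 1 F).coeff 0 = (a0 : ℂ) := by
        rw [← hP, PowerSeries.coeff_map, ha0]; rfl
      have hM0 : (qExpansion 1 M).coeff 0 = 1 := by
        rw [hM, PowerSeries.coeff_map, PowerSeries.coeff_zero_eq_constantCoeff_apply,
          constantCoeff_monoZ]
        simp
      have hg0 : (qExpansion 1 ((F - (a0 : ℂ) • M : ModularForm 𝒮ℒ k) : ℍ → ℂ)).coeff 0 = 0 := by
        rw [FunLike.coe_sub, ModularForm.qExpansion_sub one_pos one_mem_strictPeriods_SL,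
          FunLike.coe_smul, ModularForm.qExpansion_smul one_pos one_mem_strictPeriods_SL,
          map_sub, PowerSeries.coeff_smul, hM0, smul_eq_mul, mul_one, ha0', sub_self]
      obtain ⟨h, hh⟩ : ∃ x : ModularForm 𝒮ℒ (k - 12),
          x = CuspForm.discriminantEquiv (toCuspForm (F - (a0 : ℂ) • M) hg0) := ⟨_, rfl⟩
      have hfac := ModularForm.qExpansion_eq_qExpansion_discriminant_mul
        (F - (a0 : ℂ) • M) hg0
      rw [← hh] at hfac
      -- the series `Y = P - a0 * PMO` over `O`
      obtain ⟨Y, hY⟩ : ∃ x : PowerSeries O, x = P - PowerSeries.C a0 * PMO := ⟨_, rfl⟩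
      have hYmap : PowerSeries.map O.subtype Y = qExpansion 1 Δ * qExpansion 1 h := by
        rw [← hfac, FunLike.coe_sub, ModularForm.qExpansion_sub one_pos one_mem_strictPeriods_SL,
          FunLike.coe_smul, ModularForm.qExpansion_smul one_pos one_mem_strictPeriods_SL,
          hY, map_sub, map_mul, hP, hPMO_map, PowerSeries.map_C, PowerSeries.smul_eq_C_mul]
        rfl
      have hY0 : PowerSeries.constantCoeff Y = 0 := by
        rw [hY, map_sub, map_mul, PowerSeries.constantCoeff_C, hPMO0, mul_one, ha0,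
          PowerSeries.coeff_zero_eq_constantCoeff_apply, sub_self]
      obtain ⟨Y1, hY1⟩ := PowerSeries.X_dvd_iff.mpr hY0
      obtain ⟨V, hV, hV1⟩ := exists_deltaZ_eq_X_mul
      obtain ⟨VO, hVO⟩ : ∃ x : PowerSeries O, x = PowerSeries.map (Int.castRingHom O) V :=
        ⟨_, rfl⟩
      have hVOunit : IsUnit VO := by
        rw [PowerSeries.isUnit_iff_constantCoeff, hVO,
          ← PowerSeries.coeff_zero_eq_constantCoeff_apply, PowerSeries.coeff_map,
          PowerSeries.coeff_zero_eq_constantCoeff_apply, hV1, map_one]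
        exact isUnit_one
      obtain ⟨u, hu⟩ := hVOunit
      obtain ⟨DO, hDO⟩ : ∃ x : PowerSeries O,
          x = PowerSeries.map (Int.castRingHom O) deltaZ := ⟨_, rfl⟩
      obtain ⟨Z, hDOZ⟩ : ∃ Z : PowerSeries O, DO * Z = Y := by
        refine ⟨(↑u⁻¹ : PowerSeries O) * Y1, ?_⟩
        rw [hDO, hV, map_mul, PowerSeries.map_X, ← hVO, ← hu, hY1]
        rw [mul_assoc, ← mul_assoc (u : PowerSeries O), Units.mul_inv, one_mul]
      have hDOmap : PowerSeries.map O.subtype DO = qExpansion 1 Δ := by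
        rw [hDO, map_subtype_map_int, qExpansion_discriminant_eq_map]
      have hZmap : PowerSeries.map O.subtype Z = qExpansion 1 h := by
        have h1 : qExpansion 1 Δ * PowerSeries.map O.subtype Z =
            qExpansion 1 Δ * qExpansion 1 h := by
          rw [← hYmap, ← hDOZ, map_mul, hDOmap]
        have hne : qExpansion 1 Δ ≠ 0 := by
          intro h0
          have h1 := discriminant_qExpansion_coeff_one
          rw [show (qExpansion 1 (discriminant : ℍ → ℂ)) = qExpansion 1 Δ from rfl, h0] at h1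
          simp at h1
        exact mul_left_cancel₀ hne h1
      obtain ⟨Q', hQ'⟩ := ih (k - 12) (by push_cast at hk ⊢; omega) h Z hZmap
      refine ⟨Polynomial.C (φ a0) + Polynomial.X * Q', ?_⟩
      have hPeq : P = PowerSeries.C a0 * PMO + DO * Z := by
        rw [hDOZ, hY]; ring
      rw [hPeq, map_add, map_mul, map_mul, hQ', hPMO, map_map_int, monoZ_map_three, hDO,
        map_map_int, PowerSeries.map_C, map_add, map_mul, Polynomial.aeval_C, Polynomial.aeval_X,
        mul_one]
      rfl

end reduction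

end Fermat.Agent.S16.H59
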