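/-
S16, package (U2b)/(G3)(b) [helper36]: level one modular forms modulo `2` (more generally over any
ring in which `240 = 0 = 504`, i.e. characteristic `2` or `3`) are polynomials in `Δ`, WITH the
degree bound `12 * deg ≤ weight`.

Twin of helper59's `H59.exists_polynomial_reduction` (characteristic `3`, no degree bound); the
same Victor–Miller induction, keeping track of the degree.
-/
import Mathlib
import Fermat.Agent.S16.H59_U3LevelOne

set_option autoImplicit false

open UpperHalfPlane ModularForm ModularFormClass MatrixGroups EisensteinSeries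

namespace Fermat.Agent.S16.H36

open Fermat.Agent.S16.H59

local notation "Δ" => ModularForm.discriminant

/-- `E₄^a E₆^b ≡ 1` as soon as `240 = 0 = 504` in the coefficient ring. -/
lemma monoZ_map_eq_one {κ : Type*} [CommRing κ] (h240 : (240 : κ) = 0) (h504 : (504 : κ) = 0)
    (a b : ℕ) : PowerSeries.map (Int.castRingHom κ) (monoZ a b) = 1 := by
  have e240 : (240 : PowerSeries κ) = 0 := by
    have : (240 : PowerSeries κ) = PowerSeries.C (240 : κ) :=
      (map_ofNat (PowerSeries.C (R := κ)) 240).symm
    rw [this, h240, map_zero]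
  have e504 : (504 : PowerSeries κ) = 0 := by
    have : (504 : PowerSeries κ) = PowerSeries.C (504 : κ) :=
      (map_ofNat (PowerSeries.C (R := κ)) 504).symm
    rw [this, h504, map_zero]
  unfold monoZ
  rw [map_mul, map_pow, map_pow, map_add, map_add, map_one, map_mul, map_mul, map_neg,
    map_ofNat, map_ofNat, e240, e504]
  simp

section reduction

variable (O : Subring ℂ) {κ : Type*} [CommRing κ] (φ : O →+* κ)

/-- **Level one forms modulo `2` (or `3`) are polynomials in `Δ` of degree `≤ weight / 12`.**
If the `q`-expansion of a level one modular form `F` of weight `k` has coefficients in the subring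
`O ⊆ ℂ` (witnessed by `P : O⟦q⟧`), then for every ring homomorphism `φ : O →+* κ` into a ring with
`240 = 0 = 504` the reduced series `φ(P)` is `Q(Δ mod)` for a polynomial `Q` all of whose nonzero
coefficients sit in degrees `n` with `12 n ≤ k`. -/
theorem exists_polynomial_reduction_bound (h240 : (240 : κ) = 0) (h504 : (504 : κ) = 0) :
    ∀ (k : ℤ) (F : ModularForm 𝒮ℒ k) (P : PowerSeries O),
      PowerSeries.map O.subtype P = qExpansion 1 F →
      ∃ Q : Polynomial κ, (∀ n : ℕ, Q.coeff n ≠ 0 → 12 * (n : ℤ) ≤ k) ∧
        PowerSeries.map φ P =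
          Polynomial.aeval (PowerSeries.map (Int.castRingHom κ) deltaZ) Q := by
  suffices H : ∀ n : ℕ, ∀ (k : ℤ), k < 12 * n → ∀ (F : ModularForm 𝒮ℒ k) (P : PowerSeries O),
      PowerSeries.map O.subtype P = qExpansion 1 F →
      ∃ Q : Polynomial κ, (∀ n : ℕ, Q.coeff n ≠ 0 → 12 * (n : ℤ) ≤ k) ∧
        PowerSeries.map φ P =
          Polynomial.aeval (PowerSeries.map (Int.castRingHom κ) deltaZ) Q from
    fun k => H (k.toNat + 1) k (by omega)
  intro n
  induction n with
  | zero =>
    intro k hk F P hP
    have hF : F = 0 :=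
      rank_zero_iff_forall_zero.mp (levelOne_neg_weight_rank_zero (by omega)) F
    have hP0 : P = 0 := by
      apply map_subtype_injective O
      rw [hP, hF, map_zero]
      exact qExpansion_zero 1
    exact ⟨0, fun n hn => absurd (Polynomial.coeff_zero n) hn, by rw [hP0, map_zero, map_zero]⟩
  | succ n ih =>
    intro k hk F P hP
    -- the zero form
    have hzero : F = 0 → ∃ Q : Polynomial κ, (∀ n : ℕ, Q.coeff n ≠ 0 → 12 * (n : ℤ) ≤ k) ∧
        PowerSeries.map φ P =
          Polynomial.aeval (PowerSeries.map (Int.castRingHom κ) deltaZ) Q := by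
      intro hF
      have hP0 : P = 0 := by
        apply map_subtype_injective O
        rw [hP, hF, map_zero]
        exact qExpansion_zero 1
      exact ⟨0, fun n hn => absurd (Polynomial.coeff_zero n) hn,
        by rw [hP0, map_zero, map_zero]⟩
    rcases lt_or_ge k 0 with hneg | hnn
    · exact hzero (rank_zero_iff_forall_zero.mp (levelOne_neg_weight_rank_zero hneg) F)
    rcases Int.even_or_odd k with hev | hodd
    swap
    · exact hzero (levelOne_odd_weight_eq_zero hodd F)
    have hcases : k = 0 ∨ k = 2 ∨ 4 ≤ k := by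
      obtain ⟨m, hm⟩ := hev
      omega
    rcases hcases with rfl | rfl | h4
    · -- weight zero: constants
      obtain ⟨c, hc⟩ := levelOne_weight_zero_const F
      have hq : qExpansion 1 F = PowerSeries.C c := by
        have hF : (F : ℍ → ℂ) = c • (1 : ℍ → ℂ) := by
          rw [hc]; ext z; simp
        rw [hF, UpperHalfPlane.qExpansion_smul (by
          rw [show (1 : ℍ → ℂ) = ⇑(1 : ModularForm 𝒮ℒ 0) from rfl]
          exact ModularFormClass.analyticAt_cuspFunction_zero _ one_pos
            one_mem_strictPeriods_SL), UpperHalfPlane.qExpansion_one, PowerSeries.smul_eq_C_mul,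
          mul_one]
      have hPc : P = PowerSeries.C (P.coeff 0) := by
        ext m
        by_cases hm : m = 0
        · subst hm; simp
        · have h1 := congrArg (PowerSeries.coeff m) hP
          rw [PowerSeries.coeff_map, hq, PowerSeries.coeff_C, if_neg hm] at h1
          rw [PowerSeries.coeff_C, if_neg hm]
          simpa using h1
      obtain ⟨a, hPa⟩ : ∃ a : O, P = PowerSeries.C a := ⟨P.coeff 0, hPc⟩
      refine ⟨Polynomial.C (φ a), ?_, ?_⟩
      · intro m hm
        rw [Polynomial.coeff_C] at hm
        by_cases h0 : m = 0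
        · subst h0; simp
        · rw [if_neg h0] at hm
          exact absurd rfl hm
      · rw [Polynomial.aeval_C, hPa, PowerSeries.map_C]
        rfl
    · -- weight two: zero
      exact hzero (rank_zero_iff_forall_zero.mp levelOne_weight_two_rank_zero F)
    · -- weight at least four
      obtain ⟨M, a, b, hM⟩ := exists_monomial_monoZ h4 hev
      obtain ⟨PMO, hPMO⟩ : ∃ x : PowerSeries O,
          x = PowerSeries.map (Int.castRingHom O) (monoZ a b) := ⟨_, rfl⟩
      have hPMO_map : PowerSeries.map O.subtype PMO = qExpansion 1 M := by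
        rw [hPMO, map_subtype_map_int, hM]
      have hPMO0 : PowerSeries.constantCoeff PMO = 1 := by
        rw [hPMO, ← PowerSeries.coeff_zero_eq_constantCoeff_apply, PowerSeries.coeff_map,
          PowerSeries.coeff_zero_eq_constantCoeff_apply, constantCoeff_monoZ, map_one]
      obtain ⟨a0, ha0⟩ : ∃ x : O, x = P.coeff 0 := ⟨_, rfl⟩
      have ha0' : (qExpansion 1 F).coeff 0 = (a0 : ℂ) := by
        rw [← hP, PowerSeries.coeff_map, ha0]; rfl
      have hM0 : (qExpansion 1 M).coeff 0 = 1 := by
        rw [hM, PowerSeries.coeff_map, PowerSeries.coeff_zero_eq_constantCoeff_apply,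
          constantCoeff_monoZ]
        simp
      have hg0 : (qExpansion 1 ((F - (a0 : ℂ) • M : ModularForm 𝒮ℒ k) : ℍ → ℂ)).coeff 0 = 0 := by
        rw [FunLike.coe_sub, ModularForm.qExpansion_sub one_pos one_mem_strictPeriods_SL,
          FunLike.coe_smul, ModularForm.qExpansion_smul one_pos one_mem_strictPeriods_SL,
          map_sub, PowerSeries.coeff_smul, hM0, smul_eq_mul, mul_one, ha0', sub_self]
      obtain ⟨h, hh⟩ : ∃ x : ModularForm 𝒮ℒ (k - 12),
          x = CuspForm.discriminantEquiv (toCuspForm (F - (a0 : ℂ) • M) hg0) := ⟨_, rfl⟩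
      have hfac := ModularForm.qExpansion_eq_qExpansion_discriminant_mul
        (F - (a0 : ℂ) • M) hg0
      rw [← hh] at hfac
      -- the series `Y = P - a0 * PMO` over `O`
      obtain ⟨Y, hY⟩ : ∃ x : PowerSeries O, x = P - PowerSeries.C a0 * PMO := ⟨_, rfl⟩
      have hYmap : PowerSeries.map O.subtype Y = qExpansion 1 Δ * qExpansion 1 h := by
        rw [← hfac, FunLike.coe_sub, ModularForm.qExpansion_sub one_pos one_mem_strictPeriods_SL,
          FunLike.coe_smul, ModularForm.qExpansion_smul one_pos one_mem_strictPeriods_SL,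
          hY, map_sub, map_mul, hP, hPMO_map, PowerSeries.map_C, PowerSeries.smul_eq_C_mul]
        rfl
      have hY0 : PowerSeries.constantCoeff Y = 0 := by
        rw [hY, map_sub, map_mul, PowerSeries.constantCoeff_C, hPMO0, mul_one, ha0,
          PowerSeries.coeff_zero_eq_constantCoeff_apply, sub_self]
      obtain ⟨Y1, hY1⟩ := PowerSeries.X_dvd_iff.mpr hY0
      obtain ⟨V, hV, hV1⟩ := exists_deltaZ_eq_X_mul
      obtain ⟨VO, hVO⟩ : ∃ x : PowerSeries O, x = PowerSeries.map (Int.castRingHom O) V :=
        ⟨_, rfl⟩
      have hVOunit : IsUnit VO := by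
        rw [PowerSeries.isUnit_iff_constantCoeff, hVO,
          ← PowerSeries.coeff_zero_eq_constantCoeff_apply, PowerSeries.coeff_map,
          PowerSeries.coeff_zero_eq_constantCoeff_apply, hV1, map_one]
        exact isUnit_one
      obtain ⟨u, hu⟩ := hVOunit
      obtain ⟨DO, hDO⟩ : ∃ x : PowerSeries O,
          x = PowerSeries.map (Int.castRingHom O) deltaZ := ⟨_, rfl⟩
      obtain ⟨Z, hDOZ⟩ : ∃ Z : PowerSeries O, DO * Z = Y := by
        refine ⟨(↑u⁻¹ : PowerSeries O) * Y1, ?_⟩
        rw [hDO, hV, map_mul, PowerSeries.map_X, ← hVO, ← hu, hY1]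
        rw [mul_assoc, ← mul_assoc (u : PowerSeries O), Units.mul_inv, one_mul]
      have hDOmap : PowerSeries.map O.subtype DO = qExpansion 1 Δ := by
        rw [hDO, map_subtype_map_int, qExpansion_discriminant_eq_map]
      have hZmap : PowerSeries.map O.subtype Z = qExpansion 1 h := by
        have h1 : qExpansion 1 Δ * PowerSeries.map O.subtype Z =
            qExpansion 1 Δ * qExpansion 1 h := by
          rw [← hYmap, ← hDOZ, map_mul, hDOmap]
        have hne : qExpansion 1 Δ ≠ 0 := by
          intro h0
          have h1 := discriminant_qExpansion_coeff_one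
          rw [show (qExpansion 1 (discriminant : ℍ → ℂ)) = qExpansion 1 Δ from rfl, h0] at h1
          simp at h1
        exact mul_left_cancel₀ hne h1
      obtain ⟨Q', hQ'deg, hQ'⟩ := ih (k - 12) (by push_cast at hk ⊢; omega) h Z hZmap
      refine ⟨Polynomial.C (φ a0) + Polynomial.X * Q', ?_, ?_⟩
      · intro m hm
        rcases Nat.eq_zero_or_pos m with rfl | hmpos
        · simp only [Nat.cast_zero, mul_zero]
          omega
        · obtain ⟨m', rfl⟩ : ∃ m', m = m' + 1 := ⟨m - 1, by omega⟩
          rw [Polynomial.coeff_add, Polynomial.coeff_C_succ, zero_add,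
            Polynomial.coeff_X_mul] at hm
          have := hQ'deg m' hm
          push_cast
          omega
      · have hPeq : P = PowerSeries.C a0 * PMO + DO * Z := by
          rw [hDOZ, hY]; ring
        rw [hPeq, map_add, map_mul, map_mul, hQ', hPMO, map_map_int,
          monoZ_map_eq_one h240 h504, hDO, map_map_int, PowerSeries.map_C, map_add, map_mul,
          Polynomial.aeval_C, Polynomial.aeval_X, mul_one]
        rfl

/-- characteristic `2` form. -/
theorem exists_polynomial_reduction_two [CharP κ 2] (k : ℤ) (F : ModularForm 𝒮ℒ k)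
    (P : PowerSeries O) (hP : PowerSeries.map O.subtype P = qExpansion 1 F) :
    ∃ Q : Polynomial κ, (∀ n : ℕ, Q.coeff n ≠ 0 → 12 * (n : ℤ) ≤ k) ∧
      PowerSeries.map φ P =
        Polynomial.aeval (PowerSeries.map (Int.castRingHom κ) deltaZ) Q := by
  have h2 : (2 : κ) = 0 := CharP.ofNat_eq_zero κ 2
  have h240 : (240 : κ) = 0 := by
    have : (240 : κ) = 2 * 120 := by norm_num
    rw [this, h2, zero_mul]
  have h504 : (504 : κ) = 0 := by
    have : (504 : κ) = 2 * 252 := by norm_num
    rw [this, h2, zero_mul]
  exact exists_polynomial_reduction_bound O φ h240 h504 k F P hP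

/-- `natDegree` form of the bound (for `0 ≤ k`). -/
theorem natDegree_le_of_coeff_bound {Q : Polynomial κ} {k : ℤ} (hk : 0 ≤ k)
    (h : ∀ n : ℕ, Q.coeff n ≠ 0 → 12 * (n : ℤ) ≤ k) : 12 * (Q.natDegree : ℤ) ≤ k := by
  by_cases hQ : Q = 0
  · rw [hQ, Polynomial.natDegree_zero]
    simpa using hk
  · exact h _ (by rwa [Polynomial.coeff_natDegree, Polynomial.leadingCoeff_ne_zero])

end reduction

end Fermat.Agent.S16.H36
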