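/-
S16, package (U2b)/(G3)(b2) [helper36]: bridge between the integral `q`-expansion of `Δ` used by the
level-one reduction files (`H59.deltaZ`) and the Prelude/S28 series `X * dedekindEtaUnit`,
`S28.DeltaS`; Laurent-series form of the level-one reduction modulo `2`.
-/
import Mathlib
import Fermat.Agent.S28.H9_DeltaQuot
import Fermat.Agent.S16.H36_LevelOneMod2

set_option autoImplicit false

open UpperHalfPlane ModularForm ModularFormClass MatrixGroups EisensteinSeries ModularCurve

namespace Fermat.Agent.S16.H36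

open Fermat.Agent.S16.H59 Fermat.Agent.S28 Fermat.Agent.S24.H17

local notation "Δ" => ModularForm.discriminant
local notation "𝕢" => Function.Periodic.qParam

/-- `DeltaS R` is the Laurent series of the power series `X * dedekindEtaUnit`. -/
theorem DeltaS_eq_ofPowerSeries (R : Type*) [CommRing R] :
    DeltaS R = HahnSeries.ofPowerSeries ℤ R
      (PowerSeries.map (Int.castRingHom R) (PowerSeries.X * dedekindEtaUnit)) := by
  rw [map_mul, PowerSeries.map_X, map_mul, HahnSeries.ofPowerSeries_X, DeltaS]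

theorem coeff_DeltaS_natCast (R : Type*) [CommRing R] (m : ℕ) :
    (DeltaS R).coeff (m : ℤ) =
      (PowerSeries.map (Int.castRingHom R) (PowerSeries.X * dedekindEtaUnit)).coeff m := by
  rw [DeltaS_eq_ofPowerSeries, HahnSeries.ofPowerSeries_apply_coeff]

theorem coeff_DeltaS_of_neg (R : Type*) [CommRing R] {n : ℤ} (hn : n < 0) :
    (DeltaS R).coeff n = 0 := by
  rw [DeltaS_eq_ofPowerSeries]
  exact ofPowerSeries_coeff_of_neg _ hn

/-- **The `q`-expansion of `Δ` is `q ∏ (1 - q^n)^24`** (Mathlib's `qExpansion` vs the Prelude's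
formal product). -/
theorem qExpansion_discriminant_eq_X_mul :
    qExpansion 1 Δ =
      PowerSeries.map (Int.castRingHom ℂ) (PowerSeries.X * dedekindEtaUnit) := by
  ext m
  rw [← coeff_DeltaS_natCast]
  symm
  have hcoe : (⇑(CuspForm.discriminant) : ℍ → ℂ) = Δ := rfl
  have key := ModularFormClass.qExpansion_coeff_unique (k := 12) (Γ := 𝒮ℒ)
    (f := CuspForm.discriminant) (h := 1) one_pos one_mem_strictPeriods_SL
    (c := fun m : ℕ => (DeltaS ℂ).coeff (m : ℤ)) ?_ m
  · rw [hcoe] at key
    exact key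
  intro τ
  have h := S28.H9.isQSum_Delta τ
  rw [hasSum_int_iff_nat 0 (fun n hn => by
    rw [coeff_DeltaS_of_neg ℂ (by simpa using hn), zero_mul])] at h
  convert h using 2 with m
  · simp
  · rfl

/-- helper59's integral model of `Δ` is the Prelude's `X * dedekindEtaUnit`. -/
theorem deltaZ_eq_X_mul : deltaZ = PowerSeries.X * dedekindEtaUnit := by
  apply map_int_injective
  rw [← qExpansion_discriminant_eq_map, qExpansion_discriminant_eq_X_mul]

/-- over any ring, `deltaZ` reduces to `DeltaS`. -/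
theorem ofPowerSeries_map_deltaZ (κ : Type*) [CommRing κ] :
    HahnSeries.ofPowerSeries ℤ κ (PowerSeries.map (Int.castRingHom κ) deltaZ) = DeltaS κ := by
  rw [deltaZ_eq_X_mul, DeltaS_eq_ofPowerSeries]

/-- `ofPowerSeries` commutes with polynomial evaluation. -/
theorem ofPowerSeries_aeval {κ : Type*} [CommRing κ] (x : PowerSeries κ) (Q : Polynomial κ) :
    HahnSeries.ofPowerSeries ℤ κ (Polynomial.aeval x Q) =
      Polynomial.aeval (HahnSeries.ofPowerSeries ℤ κ x) Q := by
  rw [Polynomial.aeval_def, Polynomial.aeval_def, Polynomial.hom_eval₂]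
  congr 1

/-- **Level one forms modulo `2` (or `3`), Laurent form**: the reduction is a polynomial in
`DeltaS κ` with `12 * deg ≤ weight`. -/
theorem exists_polynomial_reduction_laurent (O : Subring ℂ) {κ : Type*} [CommRing κ]
    (φ : O →+* κ) (h240 : (240 : κ) = 0) (h504 : (504 : κ) = 0)
    (k : ℤ) (F : ModularForm 𝒮ℒ k) (P : PowerSeries O)
    (hP : PowerSeries.map O.subtype P = qExpansion 1 F) :
    ∃ Q : Polynomial κ, (∀ n : ℕ, Q.coeff n ≠ 0 → 12 * (n : ℤ) ≤ k) ∧
      HahnSeries.ofPowerSeries ℤ κ (PowerSeries.map φ P) = Polynomial.aeval (DeltaS κ) Q := by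
  obtain ⟨Q, hQ1, hQ2⟩ := exists_polynomial_reduction_bound O φ h240 h504 k F P hP
  refine ⟨Q, hQ1, ?_⟩
  rw [hQ2, ofPowerSeries_aeval, ofPowerSeries_map_deltaZ]

/-- characteristic `2`, Laurent form. -/
theorem exists_polynomial_reduction_laurent_two (O : Subring ℂ) {κ : Type*} [CommRing κ]
    [CharP κ 2] (φ : O →+* κ) (k : ℤ) (F : ModularForm 𝒮ℒ k) (P : PowerSeries O)
    (hP : PowerSeries.map O.subtype P = qExpansion 1 F) :
    ∃ Q : Polynomial κ, (∀ n : ℕ, Q.coeff n ≠ 0 → 12 * (n : ℤ) ≤ k) ∧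
      HahnSeries.ofPowerSeries ℤ κ (PowerSeries.map φ P) = Polynomial.aeval (DeltaS κ) Q := by
  have h2 : (2 : κ) = 0 := CharP.ofNat_eq_zero κ 2
  have h240 : (240 : κ) = 0 := by
    have : (240 : κ) = 2 * 120 := by norm_num
    rw [this, h2, zero_mul]
  have h504 : (504 : κ) = 0 := by
    have : (504 : κ) = 2 * 252 := by norm_num
    rw [this, h2, zero_mul]
  exact exists_polynomial_reduction_laurent O φ h240 h504 k F P hP

end Fermat.Agent.S16.H36
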