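import Fermat.Agent.S16.H76_U2RelQ
import Fermat.Agent.S16.H77_ChooseO
import Fermat.Agent.S16.H36_U2Inst
import Fermat.Prelude.Def_FLTPrelim_Ramification

/-!
# S16, case (U,2): the seam between the relation (forms over `ℂ`) and the cover (over `k_A`)
(helper36)

The monic relation for `δ` over `k[Δ]` is produced from modular forms over `ℂ` by reduction along
`φ : 𝒪 →+* κ`, `𝒪 ⊆ ℂ` a valuation ring over `2`; the Hesse cover lives over `k_A`, the residue
field of a place `A` of `ℚ̄` over `2`.  This file makes the two meet: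

* `descend_core`, `hrel_descend` : a relation `Dⁿ + ∑ P_m(Δ) D^m = 0` over `κ`, with `D`, `Δ`
  defined over a subfield `k → κ`, descends to `k` (apply a `k`-linear retraction `κ → k`
  coefficientwise); the degrees of the `P_m` do not grow.
* `exists_subring_hom_place` : the choice of `𝒪` (same properties as `H77.exists_subring_hom`)
  TOGETHER with a place `A` of `ℚ̄` over `l` (`A := V.comap ι`) and a field hom `k_A →+* κ`.
-/

set_option autoImplicit false

noncomputable section

namespace Fermat.Agent.S16.H36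

open PowerSeries

section Descent

variable {k κ : Type*} [Field k] [Field κ]

/-- coefficientwise application of an additive map to a power series. -/
def psApply (r : κ →+ k) : κ⟦X⟧ →+ k⟦X⟧ where
  toFun f := PowerSeries.mk fun N => r (coeff N f)
  map_zero' := by
    ext N
    simp
  map_add' f g := by
    ext N
    simp

@[simp] theorem coeff_psApply (r : κ →+ k) (f : κ⟦X⟧) (N : ℕ) :
    coeff N (psApply r f) = r (coeff N f) := by
  simp [psApply]

theorem psApply_map (i : k →+* κ) (r : κ →+ k) (hr : ∀ c a, r (c * i a) = r c * a)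
    (hr1 : r 1 = 1) (g : k⟦X⟧) : psApply r (g.map i) = g := by
  ext N
  rw [coeff_psApply, PowerSeries.coeff_map]
  have := hr 1 (coeff N g)
  rw [one_mul, hr1, one_mul] at this
  exact this

theorem psApply_C_mul_map (i : k →+* κ) (r : κ →+ k) (hr : ∀ c a, r (c * i a) = r c * a)
    (c : κ) (g : k⟦X⟧) : psApply r (C c * g.map i) = C (r c) * g := by
  ext N
  rw [coeff_psApply, PowerSeries.coeff_C_mul, PowerSeries.coeff_C_mul, PowerSeries.coeff_map, hr]

/-- the coefficientwise retraction of a polynomial. -/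
def polyApply (r : κ →+ k) (P : Polynomial κ) : Polynomial k :=
  ∑ j ∈ Finset.range (P.natDegree + 1), Polynomial.C (r (P.coeff j)) * Polynomial.X ^ j

theorem natDegree_polyApply_le (r : κ →+ k) (P : Polynomial κ) :
    (polyApply r P).natDegree ≤ P.natDegree := by
  refine Polynomial.natDegree_sum_le_of_forall_le _ _ fun j hj => ?_
  refine (Polynomial.natDegree_C_mul_X_pow_le _ _).trans ?_
  have := Finset.mem_range.1 hj
  omega

theorem aeval_polyApply (r : κ →+ k) (P : Polynomial κ) (Δ : k⟦X⟧) :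
    Polynomial.aeval Δ (polyApply r P) =
      ∑ j ∈ Finset.range (P.natDegree + 1), C (r (P.coeff j)) * Δ ^ j := by
  rw [polyApply, map_sum]
  refine Finset.sum_congr rfl fun j _ => ?_
  rw [map_mul, map_pow, Polynomial.aeval_X, Polynomial.aeval_C]
  rfl

/-- **Descent of a relation along a field extension** (abstract form). -/
theorem descend_core (i : k →+* κ) (r : κ →+ k) (hr : ∀ c a, r (c * i a) = r c * a)
    (hr1 : r 1 = 1) (D Δ : k⟦X⟧) (n : ℕ) (P : ℕ → Polynomial κ)
    (hrel : (D.map i) ^ n +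
      ∑ m ∈ Finset.range n, Polynomial.aeval (Δ.map i) (P m) * (D.map i) ^ m = 0) :
    D ^ n + ∑ m ∈ Finset.range n, Polynomial.aeval Δ (polyApply r (P m)) * D ^ m = 0 := by
  have hterm : ∀ m : ℕ, psApply r (Polynomial.aeval (Δ.map i) (P m) * (D.map i) ^ m) =
      Polynomial.aeval Δ (polyApply r (P m)) * D ^ m := by
    intro m
    rw [aeval_polyApply, Polynomial.aeval_eq_sum_range, Finset.sum_mul, Finset.sum_mul, map_sum]
    refine Finset.sum_congr rfl fun j _ => ?_
    have h1 : (P m).coeff j • (Δ.map i) ^ j * (D.map i) ^ m =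
        C ((P m).coeff j) * (Δ ^ j * D ^ m).map i := by
      rw [PowerSeries.smul_eq_C_mul, map_mul, map_pow, map_pow, mul_assoc]
    rw [h1, psApply_C_mul_map i r hr, mul_assoc]
  have h := congrArg (psApply r) hrel
  rw [map_zero, map_add, map_sum, Finset.sum_congr rfl (fun m _ => hterm m), ← map_pow,
    psApply_map i r hr hr1] at h
  exact h

/-- existence of a retraction `κ → k` that is linear over `k`. -/
theorem exists_retraction (i : k →+* κ) :
    ∃ r : κ →+ k, (∀ c a, r (c * i a) = r c * a) ∧ r 1 = 1 := by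
  let _ : Algebra k κ := i.toAlgebra
  obtain ⟨g, hg⟩ := LinearMap.exists_leftInverse_of_injective (Algebra.linearMap k κ)
    (LinearMap.ker_eq_bot.2 (algebraMap k κ).injective)
  refine ⟨g.toAddMonoidHom, fun c a => ?_, ?_⟩
  · have h1 : c * i a = a • c := by
      rw [Algebra.smul_def, mul_comm]
      rfl
    change g (c * i a) = g c * a
    rw [h1, map_smul, smul_eq_mul, mul_comm]
  · have h1 := LinearMap.congr_fun hg (1 : k)
    rw [LinearMap.comp_apply, Algebra.linearMap_apply, map_one, LinearMap.id_apply] at h1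
    exact h1

theorem deltaPS_map (i : k →+* κ) (p : ℕ) : (H76.deltaPS k p).map i = H76.deltaPS κ p := by
  ext N
  rw [H76.deltaPS, H76.deltaPS, PowerSeries.coeff_map, PowerSeries.coeff_map,
    PowerSeries.coeff_map]
  simp

theorem DeltaPS_map (i : k →+* κ) : (H76.DeltaPS k).map i = H76.DeltaPS κ := by
  rw [H76.DeltaPS, H76.DeltaPS, map_mul, PowerSeries.map_X]
  congr 1
  ext N
  rw [PowerSeries.coeff_map, PowerSeries.coeff_map, PowerSeries.coeff_map]
  simp

/-- **Descent of the (U,2) relation**: a monic relation for `δ` over `κ[Δ]` gives one over `k[Δ]`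
for every subfield `i : k →+* κ`, with the same degree bounds. -/
theorem hrel_descend (i : k →+* κ) (p n : ℕ) (P : ℕ → Polynomial κ)
    (hP : ∀ m, m < n → 6 * (P m).natDegree ≤ n - m)
    (hrel : H76.deltaPS κ p ^ n +
      ∑ m ∈ Finset.range n, Polynomial.aeval (H76.DeltaPS κ) (P m) * H76.deltaPS κ p ^ m = 0) :
    ∃ P' : ℕ → Polynomial k, (∀ m, m < n → 6 * (P' m).natDegree ≤ n - m) ∧
      H76.deltaPS k p ^ n +
        ∑ m ∈ Finset.range n, Polynomial.aeval (H76.DeltaPS k) (P' m) * H76.deltaPS k p ^ m =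
          0 := by
  obtain ⟨r, hr, hr1⟩ := exists_retraction i
  refine ⟨fun m => polyApply r (P m), fun m hm => ?_, ?_⟩
  · exact (Nat.mul_le_mul_left 6 (natDegree_polyApply_le r (P m))).trans (hP m hm)
  · apply descend_core i r hr hr1
    rw [deltaPS_map, DeltaPS_map]
    exact hrel

end Descent

section Place

open IsLocalRing

/-- **Choice of `𝒪 ⊆ ℂ` over `l` together with a place of `ℚ̄`.**  Same properties as
`H77.exists_subring_hom`; in addition a valuation subring `A` of `ℚ̄` over `l`
(`A = V.comap ι`) and a field hom from its residue field to `κ`. -/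
theorem exists_subring_hom_place (l : ℕ) [hl : Fact l.Prime] (ι : AlgebraicClosure ℚ →+* ℂ) :
    ∃ (𝒪 : Subring ℂ) (_ : IsLocalRing 𝒪) (κ : Type) (_ : Field κ) (φ : 𝒪 →+* κ),
      CharP κ l ∧ (∀ x : 𝒪, φ x = 0 ↔ x ∈ IsLocalRing.maximalIdeal 𝒪) ∧
      (l : 𝒪) ∈ IsLocalRing.maximalIdeal 𝒪 ∧ φ (l : 𝒪) = 0 ∧
      (∀ z : ℤ, φ ((z : ℤ) : 𝒪) = 0 ↔ (l : ℤ) ∣ z) ∧
      (∀ x : ℂ, IsIntegral ℤ x → x ∈ 𝒪) ∧
      (∀ m : ℤ, ¬ (l : ℤ) ∣ m → IsUnit ((m : ℤ) : 𝒪)) ∧
      Function.Surjective φ ∧
      ∃ A : ValuationSubring (AlgebraicClosure ℚ), A.LiesOverPrime l ∧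
        (∀ a : AlgebraicClosure ℚ, a ∈ A ↔ ι a ∈ 𝒪) ∧
        Nonempty (IsLocalRing.ResidueField A →+* κ) := by
  obtain ⟨V, hlV, hint, hinv⟩ := H77.exists_valuationSubring_over l
  let 𝒪 : Subring ℂ := V.toSubring
  have hloc : IsLocalRing 𝒪 := inferInstanceAs (IsLocalRing V)
  let φ : 𝒪 →+* IsLocalRing.ResidueField 𝒪 := IsLocalRing.residue 𝒪
  have hker : ∀ x : 𝒪, φ x = 0 ↔ x ∈ IsLocalRing.maximalIdeal 𝒪 :=
    fun x => IsLocalRing.residue_eq_zero_iff x
  have hlmem : (l : 𝒪) ∈ IsLocalRing.maximalIdeal 𝒪 := by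
    have h2 : (((l : V) : V) : ℂ) ∈ V.nonunits := by
      have : (((l : V) : V) : ℂ) = (l : ℂ) := by simp
      rw [this]; exact hlV
    exact (ValuationSubring.coe_mem_nonunits_iff (A := V) (a := (l : V))).mp h2
  have hφl : φ (l : 𝒪) = 0 := (hker _).mpr hlmem
  have hunit : ∀ m : ℤ, ¬ (l : ℤ) ∣ m → IsUnit ((m : ℤ) : 𝒪) := by
    intro m hm
    have hm0 : m ≠ 0 := by
      rintro rfl
      exact hm (dvd_zero _)
    exact H77.isUnit_intCast_of_inv_mem 𝒪 m hm0 (hinv m hm)
  have hchar : CharP (IsLocalRing.ResidueField 𝒪) l := by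
    refine (CharP.charP_iff_prime_eq_zero hl.out).mpr ?_
    have : ((l : ℕ) : IsLocalRing.ResidueField 𝒪) = φ (l : 𝒪) := by simp [φ]
    rw [this, hφl]
  refine ⟨𝒪, hloc, IsLocalRing.ResidueField 𝒪, inferInstance, φ, hchar, hker, hlmem, hφl, ?_,
    hint, hunit, IsLocalRing.residue_surjective, ?_⟩
  · intro z
    constructor
    · intro hz
      by_contra hnd
      have hu := (hunit z hnd).map φ
      rw [hz] at hu
      exact not_isUnit_zero hu
    · rintro ⟨w, rfl⟩
      have : (((l : ℤ) * w : ℤ) : 𝒪) = (l : 𝒪) * ((w : ℤ) : 𝒪) := by push_cast; ring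
      rw [this, map_mul, hφl, zero_mul]
  · -- the place of `ℚ̄`
    refine ⟨V.comap ι, ?_, fun a => ValuationSubring.mem_comap, ?_⟩
    · -- lies over `l`
      change ((l : ℕ) : AlgebraicClosure ℚ) ∈ (V.comap ι).nonunits
      rw [ValuationSubring.mem_nonunits_iff_or]
      rcases (ValuationSubring.mem_nonunits_iff_or (A := V)).1 hlV with h0 | hninv
      · exact absurd h0 (by exact_mod_cast hl.out.ne_zero)
      · right
        intro hmem
        apply hninv
        have := (ValuationSubring.mem_comap (A := V) (f := ι)).1 hmem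
        rwa [map_inv₀, map_natCast] at this
    · -- the residue field hom
      let f : (V.comap ι) →+* 𝒪 :=
        { toFun := fun a => ⟨ι a, ValuationSubring.mem_comap.1 a.2⟩
          map_one' := by
            apply Subtype.ext
            simp
          map_mul' := fun a b => by
            apply Subtype.ext
            simp
          map_zero' := by
            apply Subtype.ext
            simp
          map_add' := fun a b => by
            apply Subtype.ext
            simp }
      have hf : IsLocalHom f := by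
        constructor
        intro a ha
        obtain ⟨b, hb⟩ := isUnit_iff_exists_inv.1 ha
        have hb' : ι a * (b : ℂ) = 1 := congrArg Subtype.val hb
        have ha0 : (a : AlgebraicClosure ℚ) ≠ 0 := by
          intro h0
          rw [h0, map_zero, zero_mul] at hb'
          exact zero_ne_one hb'
        have hinvmem : (a : AlgebraicClosure ℚ)⁻¹ ∈ V.comap ι := by
          rw [ValuationSubring.mem_comap, map_inv₀]
          have : (ι a)⁻¹ = (b : ℂ) := by
            rw [inv_eq_iff_eq_inv]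
            exact (eq_inv_of_mul_eq_one_left hb')
          rw [this]
          exact b.2
        refine isUnit_iff_exists_inv.2 ⟨⟨_, hinvmem⟩, ?_⟩
        apply Subtype.ext
        simp [ha0]
      exact ⟨IsLocalRing.ResidueField.map f⟩

end Place

section Combined

open ModularCurve Fermat.Agent.S18.H16

/-- **(U,2; `p ≡ 3 mod 4`), relation over a BIGGER field.**  `H36.u2_rel_fullC` with the relation
`hrel` given over any field `κ` receiving `k` (e.g. `k = k_A`, `κ` = residue field of `𝒪 ⊆ ℂ`). -/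
theorem u2_rel_fullC_of_hom (k : Type) [Field k] [CharP k 2] (hperf : ∀ c : k, ∃ d : k, d ^ 2 = c)
    {κ : Type*} [Field κ] (i : k →+* κ)
    (p : ℕ) (hpp : p.Prime) (hp : p % 4 = 3)
    {F' : Type*} [Field F']
    (ι' : haveI : NeZero p := ⟨hpp.ne_zero⟩; modularFunctionFieldFullC k p →+* F')
    (n : ℕ) (hn : 0 < n) (P : ℕ → Polynomial κ) (hP : ∀ m, m < n → 6 * (P m).natDegree ≤ n - m)
    (hrel : H76.deltaPS κ p ^ n +
      ∑ m ∈ Finset.range n, Polynomial.aeval (H76.DeltaPS κ) (P m) * H76.deltaPS κ p ^ m = 0)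
    {Γ₀ : Type*} [LinearOrderedCommGroupWithZero Γ₀] (v : Valuation F' Γ₀)
    (μ : F') (hμ0 : μ ≠ 0) (hμ : v μ < 1)
    (hnsq : ∀ g : Γ₀, g ^ 2 ≠ v μ)
    (hJμ : haveI : NeZero p := ⟨hpp.ne_zero⟩; ι' (jK k p) * (μ ^ 3 + 1) ^ 3 = μ ^ 12)
    (hk : haveI : NeZero p := ⟨hpp.ne_zero⟩;
      ∀ c : k, v (ι' (algebraMap k (modularFunctionFieldFullC k p) c)) ≤ 1) : False := by
  obtain ⟨P', hP', hrel'⟩ := hrel_descend i p n P hP hrel
  exact u2_rel_fullC k hperf p hpp hp ι' n hn P' hP' hrel' v μ hμ0 hμ hnsq hJμ hk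

end Combined

end Fermat.Agent.S16.H36
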