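import Mathlib

/-!
# (G0) P2: colength duality for lattices over a PID

`A` a PID, `L = Frac A`, `V` a finite-dimensional `L`-space with a nondegenerate bilinear form `B`.
For `A`-lattices `U' ≤ U` in `V` there is an `L`-linear automorphism `φ` of `V` with
`φ U' = U^` and `φ U = U'^` (`^` = dual lattice w.r.t. `B`).  Consequently `U'^ / U^ ≃ U / U'`
as `A`-modules, and as `k`-spaces for every field `k` over which `A` is an algebra.
-/

set_option autoImplicit false

noncomputable section

open Module Submodule

namespace Fermat.Agent.S16.H38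

/-! ### Transport of a quotient along a linear equivalence -/

section Transport

variable {k V : Type*} [Field k] [AddCommGroup V] [Module k V]

/-- A linear automorphism maps the quotient `U / U'` isomorphically to `φ U / φ U'`. -/
def quotEquivMap (φ : V ≃ₗ[k] V) (U' U : Submodule k V) :
    (↥U ⧸ U'.submoduleOf U) ≃ₗ[k]
      (↥(U.map (φ : V →ₗ[k] V)) ⧸ (U'.map (φ : V →ₗ[k] V)).submoduleOf (U.map (φ : V →ₗ[k] V))) :=
  Submodule.Quotient.equiv _ _ (φ.submoduleMap U) (by
    ext ⟨y, hy⟩
    simp only [Submodule.mem_map, Submodule.submoduleOf, Submodule.mem_comap,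
      Submodule.subtype_apply, Subtype.exists]
    constructor
    · rintro ⟨x, hxU, hxU', hxy⟩
      refine ⟨x, hxU', ?_⟩
      have := congrArg Subtype.val hxy
      simpa using this
    · rintro ⟨x, hxU', hxy⟩
      obtain ⟨z, hzU, hzy⟩ := hy
      have hxz : x = z := φ.injective (by
        have h1 : (φ : V →ₗ[k] V) x = φ x := rfl
        have h2 : (φ : V →ₗ[k] V) z = φ z := rfl
        rw [← h1, ← h2, hxy, hzy])
      subst hxz
      exact ⟨x, hzU, hxU', Subtype.ext (by simpa using hxy)⟩)

theorem finrank_quot_eq_of_map_eq (φ : V ≃ₗ[k] V) {U' U W' W : Submodule k V}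
    (hU : U.map (φ : V →ₗ[k] V) = W) (hU' : U'.map (φ : V →ₗ[k] V) = W') :
    Module.finrank k (↥W ⧸ W'.submoduleOf W) = Module.finrank k (↥U ⧸ U'.submoduleOf U) := by
  subst hU hU'
  exact (quotEquivMap φ U' U).finrank_eq.symm

theorem finite_quot_iff_of_map_eq (φ : V ≃ₗ[k] V) {U' U W' W : Submodule k V}
    (hU : U.map (φ : V →ₗ[k] V) = W) (hU' : U'.map (φ : V →ₗ[k] V) = W') :
    FiniteDimensional k (↥W ⧸ W'.submoduleOf W) ↔ FiniteDimensional k (↥U ⧸ U'.submoduleOf U) := by
  subst hU hU'
  exact ⟨fun _ => Module.Finite.equiv (quotEquivMap φ U' U).symm,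
    fun _ => Module.Finite.equiv (quotEquivMap φ U' U)⟩

end Transport

/-! ### Smith normal form for a pair of lattices -/

section Lattice

variable {A L V : Type*} [CommRing A] [IsDomain A] [IsPrincipalIdealRing A] [Field L]
  [Algebra A L] [IsFractionRing A L] [AddCommGroup V] [Module A V] [Module L V]
  [IsScalarTower A L V]

theorem finrank_lattice (U : Submodule A V) [IsLattice L U] :
    Module.finrank A ↥U = Module.finrank L V := by
  unfold Module.finrank
  rw [IsLattice.rank' L U]

/-- Simultaneous bases: `U = ⊕ A u_i`, `U' = ⊕ A (a_i u_i)`. -/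
theorem exists_basis_smul_basis {U' U : Submodule A V} [IsLattice L U'] [IsLattice L U]
    (h : U' ≤ U) :
    ∃ (n : ℕ) (u : Basis (Fin n) L V) (a : Fin n → A),
      (∀ i, a i ≠ 0) ∧ U = span A (Set.range u) ∧
        U' = span A (Set.range fun i => a i • u i) := by
  have hfree : Module.Free A ↥U := IsLattice.free (K := L) U
  have hfin : Module.Finite A ↥U := IsLattice.finite L U
  let b := Module.finBasis A ↥U
  set N : Submodule A ↥U := U'.submoduleOf U with hN
  have hrank : Module.finrank A ↥N = Module.finrank A ↥U := by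
    rw [(Submodule.submoduleOfEquivOfLe h).finrank_eq, finrank_lattice (L := L) U',
      finrank_lattice (L := L) U]
  obtain ⟨b', a, ab', hab⟩ := Submodule.exists_smith_normal_form_of_rank_eq (N := N) b hrank
  refine ⟨_, b'.extendOfIsLattice L, a, ?_, ?_, ?_⟩
  · intro i hi
    have h0 : (ab' i : ↥U) = 0 := by rw [hab, hi, zero_smul]
    exact ab'.ne_zero i (by exact_mod_cast h0)
  · have e : Set.range (b'.extendOfIsLattice L) = U.subtype '' Set.range b' := by
      ext x
      simp only [Set.mem_range, Set.mem_image, exists_exists_eq_and,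
        Basis.extendOfIsLattice_apply, Submodule.subtype_apply]
    rw [e, ← Submodule.map_span, b'.span_eq, Submodule.map_subtype_top]
  · have e : (Set.range fun i => a i • (b'.extendOfIsLattice L) i)
        = U.subtype '' (N.subtype '' Set.range ab') := by
      ext x
      simp only [Set.mem_range, Set.mem_image, exists_exists_eq_and,
        Basis.extendOfIsLattice_apply, Submodule.subtype_apply, hab,
        Submodule.coe_smul_of_tower]
    rw [e, ← Submodule.map_span, ← Submodule.map_span, ab'.span_eq, Submodule.map_subtype_top,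
      hN, Submodule.submoduleOf, Submodule.map_comap_subtype]
    exact (inf_eq_right.mpr h).symm

/-! ### Dual lattices -/

variable (B : LinearMap.BilinForm L V) (hB : B.Nondegenerate)
include hB

omit [IsDomain A] [IsPrincipalIdealRing A] in
/-- The dual basis of the rescaled basis `a_i u_i`. -/
theorem dualBasis_isUnitSMul {ι : Type*} [Finite ι] [DecidableEq ι] (u : Basis ι L V)
    (c : ι → L) (hc : ∀ i, IsUnit (c i)) (i : ι) :
    B.dualBasis hB (u.isUnitSMul hc) i = (c i)⁻¹ • B.dualBasis hB u i := by
  have key : B.dualBasis hB (u.isUnitSMul hc) = fun i => (c i)⁻¹ • B.dualBasis hB u i := by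
    rw [LinearMap.BilinForm.dualBasis_eq_iff]
    intro i j
    simp only [Basis.isUnitSMul_apply, map_smul, LinearMap.smul_apply, smul_eq_mul,
      LinearMap.BilinForm.apply_dualBasis_left]
    split_ifs with hji
    · subst hji
      rw [mul_one, mul_inv_cancel₀ (hc j).ne_zero]
    · simp
  exact congrFun key i

omit [IsDomain A] [IsPrincipalIdealRing A] in
theorem dualSubmodule_span_smul_basis {ι : Type*} [Finite ι] [DecidableEq ι] (u : Basis ι L V)
    (a : ι → A) (ha : ∀ i, a i ≠ 0) :
    B.dualSubmodule (span A (Set.range fun i => a i • u i))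
      = span A (Set.range fun i => (algebraMap A L (a i))⁻¹ • B.dualBasis hB u i) := by
  have hc : ∀ i, IsUnit (algebraMap A L (a i)) := fun i =>
    IsUnit.mk0 _ (by
      rw [Ne, map_eq_zero_iff _ (IsFractionRing.injective A L)]
      exact ha i)
  have e1 : (fun i => a i • u i) = u.isUnitSMul hc := by
    funext i
    rw [Basis.isUnitSMul_apply, algebraMap_smul]
  have e2 : (fun i => (algebraMap A L (a i))⁻¹ • B.dualBasis hB u i)
      = B.dualBasis hB (u.isUnitSMul hc) := by
    funext i
    rw [dualBasis_isUnitSMul B hB u _ hc i]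
  rw [e1, e2]
  exact LinearMap.BilinForm.dualSubmodule_span_of_basis B hB (u.isUnitSMul hc)

/-- **Colength duality, structural form**: an `L`-linear automorphism of `V` exchanging the pair
`U' ≤ U` with the pair `U^ ≤ U'^`. -/
theorem exists_equiv_map_eq_dual {U' U : Submodule A V} [IsLattice L U'] [IsLattice L U]
    (h : U' ≤ U) :
    ∃ φ : V ≃ₗ[L] V,
      U'.map ((φ.restrictScalars A : V ≃ₗ[A] V) : V →ₗ[A] V) = B.dualSubmodule U ∧
      U.map ((φ.restrictScalars A : V ≃ₗ[A] V) : V →ₗ[A] V) = B.dualSubmodule U' := by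
  classical
  obtain ⟨n, u, a, ha, hU, hU'⟩ := exists_basis_smul_basis (L := L) h
  have hc : ∀ i, IsUnit (algebraMap A L (a i)) := fun i =>
    IsUnit.mk0 _ (by
      rw [Ne, map_eq_zero_iff _ (IsFractionRing.injective A L)]
      exact ha i)
  let d := B.dualBasis hB u
  let d' : Basis _ L V := B.dualBasis hB (u.isUnitSMul hc)
  have hd' : ∀ i, d' i = (algebraMap A L (a i))⁻¹ • d i := dualBasis_isUnitSMul B hB u _ hc
  let φ : V ≃ₗ[L] V := u.equiv d' (Equiv.refl _)
  have hφ : ∀ i, φ (u i) = d' i := fun i => by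
    simp [φ, Basis.equiv_apply]
  have hdualU : B.dualSubmodule U = span A (Set.range d) := by
    rw [hU]
    exact LinearMap.BilinForm.dualSubmodule_span_of_basis B hB u
  have hdualU' : B.dualSubmodule U' = span A (Set.range d') := by
    rw [hU', dualSubmodule_span_smul_basis B hB u a ha]
    congr 2
    funext i
    rw [hd']
  refine ⟨φ, ?_, ?_⟩
  · rw [hdualU]
    conv_lhs => rw [hU']
    rw [Submodule.map_span, ← Set.range_comp]
    congr 2
    funext i
    show φ (a i • u i) = d i
    rw [← algebraMap_smul L (a i) (u i), map_smul, hφ, hd', smul_smul,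
      mul_inv_cancel₀ (hc i).ne_zero, one_smul]
  · rw [hdualU']
    conv_lhs => rw [hU]
    rw [Submodule.map_span, ← Set.range_comp]
    congr 2
    funext i
    exact hφ i

omit [IsDomain A] [IsPrincipalIdealRing A] [IsFractionRing A L] hB in
theorem dualSubmodule_anti {U' U : Submodule A V} (h : U' ≤ U) :
    B.dualSubmodule U ≤ B.dualSubmodule U' :=
  fun _ hx y hy => hx y (h hy)

/-- The dual of a lattice is a lattice. -/
theorem isLattice_dualSubmodule (U : Submodule A V) [IsLattice L U] :
    IsLattice L (B.dualSubmodule U) := by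
  classical
  obtain ⟨n, u, a, -, hU, -⟩ := exists_basis_smul_basis (L := L) (le_refl U)
  have hd : B.dualSubmodule U = span A (Set.range (B.dualBasis hB u)) := by
    rw [hU]
    exact LinearMap.BilinForm.dualSubmodule_span_of_basis B hB u
  rw [hd]
  refine ⟨Submodule.fg_span (Set.finite_range _), ?_⟩
  rw [eq_top_iff, ← (B.dualBasis hB u).span_eq]
  exact Submodule.span_mono Submodule.subset_span

/-- Double dual of a lattice for a symmetric form. -/
theorem dualSubmodule_dualSubmodule_eq (hsymm : B.IsSymm) (U : Submodule A V) [IsLattice L U] :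
    B.dualSubmodule (B.dualSubmodule U) = U := by
  obtain ⟨n, u, a, -, hU, -⟩ := exists_basis_smul_basis (L := L) (le_refl U)
  conv_rhs => rw [hU]
  rw [hU]
  exact LinearMap.BilinForm.dualSubmodule_dualSubmodule_of_basis B hB hsymm u

omit hB in
/-- A nonzero element of `A` multiplying `U` into `U'`. -/
theorem exists_ne_zero_smul_le {U' U : Submodule A V} [IsLattice L U'] [IsLattice L U]
    (h : U' ≤ U) : ∃ a : A, a ≠ 0 ∧ ∀ x ∈ U, a • x ∈ U' := by
  classical
  obtain ⟨n, u, a, ha, hU, hU'⟩ := exists_basis_smul_basis (L := L) h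
  refine ⟨∏ i, a i, Finset.prod_ne_zero_iff.mpr fun i _ => ha i, fun x hx => ?_⟩
  rw [hU] at hx
  induction hx using Submodule.span_induction with
  | mem x hx =>
    obtain ⟨i, rfl⟩ := hx
    rw [← Finset.mul_prod_erase Finset.univ a (Finset.mem_univ i), mul_comm, mul_smul, hU']
    exact Submodule.smul_mem _ _ (Submodule.subset_span ⟨i, rfl⟩)
  | zero => rw [smul_zero]; exact zero_mem _
  | add x y _ _ hx hy => rw [smul_add]; exact add_mem hx hy
  | smul c x _ hx => rw [smul_comm]; exact Submodule.smul_mem _ _ hx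

/-! ### Dimensions over a base field -/

section BaseField

variable {k : Type*} [Field k] [Algebra k A] [Module k V] [IsScalarTower k A V]

omit [IsDomain A] [IsPrincipalIdealRing A] [IsFractionRing A L] [IsScalarTower A L V] hB in
theorem restrictScalars_map_equiv (φ : V ≃ₗ[A] V) (U : Submodule A V) :
    (U.restrictScalars k).map ((φ.restrictScalars k : V ≃ₗ[k] V) : V →ₗ[k] V)
      = (U.map (φ : V →ₗ[A] V)).restrictScalars k := by
  ext x
  simp only [Submodule.mem_map, Submodule.restrictScalars_mem]
  rfl

/-- **Colength duality**: `dim_k U'^ / U^ = dim_k U / U'`. -/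
theorem finrank_dual_quotient_eq {U' U : Submodule A V} [IsLattice L U'] [IsLattice L U]
    (h : U' ≤ U) :
    Module.finrank k (↥((B.dualSubmodule U').restrictScalars k) ⧸
        ((B.dualSubmodule U).restrictScalars k).submoduleOf
          ((B.dualSubmodule U').restrictScalars k))
      = Module.finrank k (↥(U.restrictScalars k) ⧸
          (U'.restrictScalars k).submoduleOf (U.restrictScalars k)) := by
  obtain ⟨φ, h1, h2⟩ := exists_equiv_map_eq_dual B hB h
  refine finrank_quot_eq_of_map_eq ((φ.restrictScalars A).restrictScalars k) ?_ ?_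
  · rw [restrictScalars_map_equiv, h2]
  · rw [restrictScalars_map_equiv, h1]

theorem finiteDimensional_dual_quotient_iff {U' U : Submodule A V} [IsLattice L U']
    [IsLattice L U] (h : U' ≤ U) :
    FiniteDimensional k (↥((B.dualSubmodule U').restrictScalars k) ⧸
        ((B.dualSubmodule U).restrictScalars k).submoduleOf
          ((B.dualSubmodule U').restrictScalars k))
      ↔ FiniteDimensional k (↥(U.restrictScalars k) ⧸
          (U'.restrictScalars k).submoduleOf (U.restrictScalars k)) := by
  obtain ⟨φ, h1, h2⟩ := exists_equiv_map_eq_dual B hB h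
  refine finite_quot_iff_of_map_eq ((φ.restrictScalars A).restrictScalars k) ?_ ?_
  · rw [restrictScalars_map_equiv, h2]
  · rw [restrictScalars_map_equiv, h1]

omit hB in
/-- Two nested lattices have finite colength over `k`, provided `A / (a)` is finite-dimensional
over `k` for every `a ≠ 0` (true for `k[x]` and for the local ring of `k(x)` at infinity). -/
theorem finiteDimensional_quotient_of_lattices
    (hfin : ∀ a : A, a ≠ 0 → FiniteDimensional k (A ⧸ Ideal.span {a}))
    {U' U : Submodule A V} [IsLattice L U'] [IsLattice L U] (h : U' ≤ U) :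
    FiniteDimensional k (↥(U.restrictScalars k) ⧸
      (U'.restrictScalars k).submoduleOf (U.restrictScalars k)) := by
  classical
  obtain ⟨a, ha0, ha⟩ := exists_ne_zero_smul_le (L := L) h
  have hQ := hfin a ha0
  -- a finite `k`-spanning set of `A` modulo `a`
  obtain ⟨T, hT⟩ := (Module.finite_def (R := k) (M := A ⧸ Ideal.span {a})).mp hQ
  have hlift : ∀ t : (A ⧸ Ideal.span {a}), ∃ s : A, Ideal.Quotient.mk _ s = t :=
    Ideal.Quotient.mk_surjective
  choose lift hlift using hlift
  let S : Finset A := T.image lift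
  have hA : ∀ c : A, ∃ y ∈ Submodule.span k (S : Set A), ∃ r : A, c = y + a * r := by
    intro c
    have hc : (Ideal.Quotient.mk (Ideal.span {a}) c) ∈ Submodule.span k (T : Set _) := by
      rw [hT]; trivial
    have himg : (T : Set (A ⧸ Ideal.span {a}))
        = (Ideal.Quotient.mkₐ k (Ideal.span {a})).toLinearMap '' (S : Set A) := by
      ext t
      simp only [Finset.mem_coe, Set.mem_image, S, Finset.mem_image]
      constructor
      · intro ht
        exact ⟨lift t, ⟨t, ht, rfl⟩, hlift t⟩
      · rintro ⟨s, ⟨t', ht', rfl⟩, hs⟩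
        have : t = t' := by rw [← hs]; exact hlift t'
        rw [this]; exact ht'
    rw [himg, ← Submodule.map_span] at hc
    obtain ⟨y, hy, hyc⟩ := hc
    have : Ideal.Quotient.mk (Ideal.span {a}) (c - y) = 0 := by
      rw [map_sub, ← hyc]
      simp
    rw [Ideal.Quotient.eq_zero_iff_mem, Ideal.mem_span_singleton] at this
    obtain ⟨r, hr⟩ := this
    exact ⟨y, hy, r, by rw [← hr]; ring⟩
  -- a finite `A`-generating set of `U`
  obtain ⟨G, hG⟩ := (IsLattice.fg (A := L) (M := U))
  have hGU : ∀ g ∈ G, g ∈ U := fun g hg => hG ▸ Submodule.subset_span hg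
  let F : Finset V := (S ×ˢ G).image fun p => p.1 • p.2
  have hFU : ∀ f ∈ F, f ∈ U := by
    intro f hf
    simp only [F, Finset.mem_image, Finset.mem_product] at hf
    obtain ⟨p, ⟨-, hp2⟩, rfl⟩ := hf
    exact U.smul_mem _ (hGU _ hp2)
  have hyg : ∀ y ∈ Submodule.span k (S : Set A), ∀ g ∈ G,
      y • g ∈ Submodule.span k (F : Set V) := by
    intro y hy g hg
    let ψ : A →ₗ[k] V :=
      { toFun := fun c => c • g
        map_add' := fun c c' => add_smul c c' g
        map_smul' := fun l c => by simp [smul_assoc] }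
    have hmap : Submodule.map ψ (Submodule.span k (S : Set A)) ≤ Submodule.span k (F : Set V) := by
      rw [Submodule.map_span]
      apply Submodule.span_mono
      rintro _ ⟨s', hs', rfl⟩
      simp only [F, Finset.coe_image, Set.mem_image, Finset.mem_coe, Finset.mem_product]
      exact ⟨(s', g), ⟨hs', hg⟩, rfl⟩
    exact hmap ⟨y, hy, rfl⟩
  have key : ∀ x ∈ U, ∃ f ∈ Submodule.span k (F : Set V), ∃ z ∈ U', x = f + z := by
    intro x hx
    rw [← hG, Submodule.mem_span_finset] at hx
    obtain ⟨c, -, rfl⟩ := hx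
    choose y hy r hr using hA
    refine ⟨∑ g ∈ G, y (c g) • g, Submodule.sum_mem _ fun g hg => hyg _ (hy _) g hg,
      a • ∑ g ∈ G, r (c g) • g, ha _ (Submodule.sum_mem _ fun g hg => U.smul_mem _ (hGU g hg)),
      ?_⟩
    rw [Finset.smul_sum, ← Finset.sum_add_distrib]
    refine Finset.sum_congr rfl fun g _ => ?_
    conv_lhs => rw [hr (c g)]
    rw [add_smul, mul_smul]
  -- conclude
  let Uk := U.restrictScalars k
  let U'k := U'.restrictScalars k
  show Module.Finite k _
  rw [Module.finite_def]
  refine ⟨F.attach.image fun f => Submodule.Quotient.mk (p := U'k.submoduleOf Uk)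
    (⟨f.1, hFU f.1 f.2⟩ : ↥Uk), ?_⟩
  rw [eq_top_iff]
  rintro q -
  obtain ⟨⟨x, hx⟩, rfl⟩ := Submodule.Quotient.mk_surjective _ q
  obtain ⟨f, hf, z, hz, rfl⟩ := key x hx
  have hfU : f ∈ Uk := by
    refine Submodule.span_le (p := Uk).mpr ?_ hf
    intro f' hf'
    exact hFU f' hf'
  have hzU : z ∈ Uk := h hz
  have e : (⟨f + z, hx⟩ : ↥Uk) = ⟨f, hfU⟩ + ⟨z, hzU⟩ := rfl
  rw [e, Submodule.Quotient.mk_add]
  have hz0 : Submodule.Quotient.mk (p := U'k.submoduleOf Uk) (⟨z, hzU⟩ : ↥Uk) = 0 := by
    rw [Submodule.Quotient.mk_eq_zero]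
    exact hz
  rw [hz0, add_zero]
  -- `f` is a `k`-combination of elements of `F`
  have : ∀ f' (hf' : f' ∈ Submodule.span k (F : Set V)) (hf'U : f' ∈ Uk),
      Submodule.Quotient.mk (p := U'k.submoduleOf Uk) (⟨f', hf'U⟩ : ↥Uk) ∈
        Submodule.span k ((F.attach.image fun f => Submodule.Quotient.mk
          (p := U'k.submoduleOf Uk) (⟨f.1, hFU f.1 f.2⟩ : ↥Uk) : Finset _) : Set _) := by
    intro f' hf'
    induction hf' using Submodule.span_induction with
    | mem v hv =>
      intro _
      apply Submodule.subset_span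
      simp only [Finset.coe_image, Set.mem_image, Finset.mem_coe, Finset.mem_attach, true_and,
        Subtype.exists]
      exact ⟨v, hv, rfl⟩
    | zero =>
      intro _
      have : (⟨0, ‹_›⟩ : ↥Uk) = 0 := rfl
      rw [this, Submodule.Quotient.mk_zero]
      exact zero_mem _
    | add v v' hv hv' ih ih' =>
      intro hvv'
      have hvU : v ∈ Uk := Submodule.span_le (p := Uk).mpr (fun f' hf' => hFU f' hf') hv
      have hv'U : v' ∈ Uk := Submodule.span_le (p := Uk).mpr (fun f' hf' => hFU f' hf') hv'
      have : (⟨v + v', hvv'⟩ : ↥Uk) = ⟨v, hvU⟩ + ⟨v', hv'U⟩ := rfl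
      rw [this, Submodule.Quotient.mk_add]
      exact add_mem (ih hvU) (ih' hv'U)
    | smul l v hv ih =>
      intro hlv
      have hvU : v ∈ Uk := Submodule.span_le (p := Uk).mpr (fun f' hf' => hFU f' hf') hv
      have : (⟨l • v, hlv⟩ : ↥Uk) = l • ⟨v, hvU⟩ := rfl
      rw [this, Submodule.Quotient.mk_smul]
      exact Submodule.smul_mem _ _ (ih hvU)
  exact this f hf hfU

end BaseField

end Lattice

end Fermat.Agent.S16.H38
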