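import Mathlib
import Fermat.Agent.S16.H6_G0Iface
import Fermat.Agent.S16.H38_ColengthDual

/-!
# (G0) P2 in the interface shape: `DualSys (LatK A) (dualK A)`

For a `k`-subalgebra `A ⊆ E` that is a PID with fraction field `E`, `F/E` finite separable, and
`A/(a)` finite-dimensional over `k` for `a ≠ 0`: the `k`-subspaces of `F` underlying `A`-lattices,
with the trace dual, form a `DualSys` in the sense of `H6_G0Iface`.
-/

set_option autoImplicit false

noncomputable section

open Module Submodule

namespace Fermat.Agent.S16.H38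

open Fermat.Agent.S16.H6

variable {k E F : Type*} [Field k] [Field E] [Field F] [Algebra k E] [Algebra E F] [Algebra k F]
  [IsScalarTower k E F]

/-- The bridge: `dualK A` is Mathlib's dual lattice for the trace form. -/
theorem dualK_restrictScalars (A : Subalgebra k E) (U : Submodule ↥A F) :
    dualK A (U.restrictScalars k)
      = ((Algebra.traceForm E F).dualSubmodule U).restrictScalars k := by
  ext y
  simp only [mem_dualK, Submodule.restrictScalars_mem, LinearMap.BilinForm.mem_dualSubmodule,
    Algebra.traceForm_apply, Submodule.mem_one]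
  constructor
  · intro h u hu
    exact ⟨⟨_, h u hu⟩, rfl⟩
  · intro h u hu
    obtain ⟨a, ha⟩ := h u hu
    rw [← ha]
    exact a.2

variable {A : Subalgebra k E} [IsPrincipalIdealRing ↥A] [IsFractionRing ↥A E]
  [FiniteDimensional E F] [Algebra.IsSeparable E F]

/-- **(G0) P2**: lattices over `A` with the trace dual form a `DualSys`. -/
theorem dualSys_LatK
    (hfin : ∀ a : ↥A, a ≠ 0 → FiniteDimensional k (↥A ⧸ Ideal.span {a})) :
    DualSys (LatK A (F := F)) (dualK A) := by
  have hB : (Algebra.traceForm E F).Nondegenerate := traceForm_nondegenerate E F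
  refine ⟨?_, ?_⟩
  · rintro _ ⟨U, hUfg, hUspan, rfl⟩ _ ⟨U', hU'fg, hU'span, rfl⟩
    have : IsLattice E U := ⟨hUfg, hUspan⟩
    have : IsLattice E U' := ⟨hU'fg, hU'span⟩
    have : IsLattice E (U ⊓ U') := inferInstance
    refine ⟨(U ⊓ U').restrictScalars k,
      ⟨U ⊓ U', IsLattice.fg (A := E), IsLattice.span_eq_top, rfl⟩, ⟨?_, ?_⟩, ⟨?_, ?_⟩⟩
    · exact fun x hx => hx.1
    · exact finiteDimensional_quotient_of_lattices (L := E) hfin (inf_le_left : U ⊓ U' ≤ U)
    · exact fun x hx => hx.2
    · exact finiteDimensional_quotient_of_lattices (L := E) hfin (inf_le_right : U ⊓ U' ≤ U')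
  · rintro _ ⟨U, hUfg, hUspan, rfl⟩ _ ⟨U', hU'fg, hU'span, rfl⟩ ⟨hle, hfd⟩
    have : IsLattice E U := ⟨hUfg, hUspan⟩
    have : IsLattice E U' := ⟨hU'fg, hU'span⟩
    have hle' : U ≤ U' := fun x hx => hle hx
    rw [dualK_restrictScalars, dualK_restrictScalars]
    refine ⟨⟨?_, ?_⟩, ?_⟩
    · exact fun x hx => dualSubmodule_anti (Algebra.traceForm E F) hle' hx
    · exact (finiteDimensional_dual_quotient_iff (Algebra.traceForm E F) hB hle').mpr hfd
    · exact finrank_dual_quotient_eq (Algebra.traceForm E F) hB hle'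

end Fermat.Agent.S16.H38
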