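import Mathlib
import Fermat.Agent.S16.H6_G0Iface
import Fermat.Agent.S16.H38_ColengthDual
import Fermat.Agent.S16.H38_G0DualSys

/-!
# (G0) P5a, abstract: the integral closure as a lattice

`A ⊆ E` a `k`-subalgebra that is a PID with fraction field `E`, `F/E` finite separable.
If a `k`-subspace `R ⊆ F` is (as a set) the integral closure of `A` in `F`, then

* `R ∈ LatK A` (`mem_LatK_of_integral`);
* `R ≤ dualK A R` with finite colength (`finCol_dualK_of_integral`).

Also: the trace dual of the span of an `E`-basis of `F` is the span of the dual basis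
(`dualK_span_basis`), and such spans are in `LatK A` (`span_basis_mem_LatK`).
-/

set_option autoImplicit false

noncomputable section

open Module Submodule

namespace Fermat.Agent.S16.H38

open Fermat.Agent.S16.H6

variable {k E F : Type*} [Field k] [Field E] [Field F] [Algebra k E] [Algebra E F] [Algebra k F]
  [IsScalarTower k E F]

section Basis

variable {A : Subalgebra k E}

/-- The `A`-span of an `E`-basis of `F` is a lattice. -/
theorem span_basis_mem_LatK {ι : Type*} [Finite ι] (b : Basis ι E F) :
    (span ↥A (Set.range b)).restrictScalars k ∈ LatK A (F := F) := by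
  refine ⟨span ↥A (Set.range b), Submodule.fg_span (Set.finite_range _), ?_, rfl⟩
  rw [eq_top_iff, ← b.span_eq]
  exact Submodule.span_mono Submodule.subset_span

variable [FiniteDimensional E F] [Algebra.IsSeparable E F]

/-- The trace dual of the `A`-span of a basis is the `A`-span of the trace-dual basis. -/
theorem dualK_span_basis {ι : Type*} [Finite ι] [DecidableEq ι] (b : Basis ι E F) :
    dualK A ((span ↥A (Set.range b)).restrictScalars k)
      = (span ↥A (Set.range ((Algebra.traceForm E F).dualBasis
          (traceForm_nondegenerate E F) b))).restrictScalars k := by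
  rw [dualK_restrictScalars,
    LinearMap.BilinForm.dualSubmodule_span_of_basis (Algebra.traceForm E F)
      (traceForm_nondegenerate E F) b]

end Basis

variable {A : Subalgebra k E} [IsPrincipalIdealRing ↥A] [IsFractionRing ↥A E]
  [FiniteDimensional E F] [Algebra.IsSeparable E F]

omit [Algebra k F] [IsScalarTower k E F] in
/-- The integral closure of `A` in `F`, as an `A`-submodule of `F`, is a lattice. -/
theorem isLattice_integralClosure :
    IsLattice E (Subalgebra.toSubmodule (integralClosure ↥A F)) := by
  refine ⟨?_, ?_⟩
  · have hfin : Module.Finite ↥A ↥(integralClosure ↥A F) :=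
      IsIntegralClosure.finite ↥A E F ↥(integralClosure ↥A F)
    have := (Module.Finite.iff_fg (R := ↥A) (M := F)
      (N := Subalgebra.toSubmodule (integralClosure ↥A F))).mp hfin
    exact this
  · rw [eq_top_iff]
    intro f _
    have halg : IsAlgebraic ↥A f := by
      have h1 : IsAlgebraic E f := Algebra.IsAlgebraic.isAlgebraic f
      exact (IsFractionRing.isAlgebraic_iff ↥A E F).mpr h1
    obtain ⟨y, hy0, hy⟩ := halg.exists_integral_multiple
    have hyE : algebraMap ↥A E y ≠ 0 := by
      rwa [Ne, map_eq_zero_iff _ (IsFractionRing.injective ↥A E)]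
    have hf : f = (algebraMap ↥A E y)⁻¹ • (y • f) := by
      rw [← algebraMap_smul E y f, smul_smul, inv_mul_cancel₀ hyE, one_smul]
    rw [hf]
    exact Submodule.smul_mem _ _ (Submodule.subset_span hy)

omit [IsPrincipalIdealRing ↥A] [IsFractionRing ↥A E] [FiniteDimensional E F]
  [Algebra.IsSeparable E F] in
theorem restrictScalars_integralClosure_eq {R : Submodule k F}
    (hR : ∀ f : F, f ∈ R ↔ IsIntegral ↥A f) :
    (Subalgebra.toSubmodule (integralClosure ↥A F)).restrictScalars k = R := by
  ext f
  rw [Submodule.restrictScalars_mem, hR]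
  rfl

/-- **(G0) P5a (a)**: the integral closure is in `LatK A`. -/
theorem mem_LatK_of_integral {R : Submodule k F} (hR : ∀ f : F, f ∈ R ↔ IsIntegral ↥A f) :
    R ∈ LatK A (F := F) := by
  have hl := isLattice_integralClosure (k := k) (E := E) (F := F) (A := A)
  exact ⟨Subalgebra.toSubmodule (integralClosure ↥A F), hl.fg, hl.span_eq_top,
    restrictScalars_integralClosure_eq hR⟩

omit [Algebra.IsSeparable E F] in
/-- Integral elements have integral trace: `R ≤ R^`. -/
theorem le_dualK_of_integral {R : Submodule k F} (hR : ∀ f : F, f ∈ R ↔ IsIntegral ↥A f) :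
    R ≤ dualK A R := by
  intro y hy u hu
  have hyu : IsIntegral ↥A (y * u) := ((hR y).mp hy).mul ((hR u).mp hu)
  have htr : IsIntegral ↥A (Algebra.trace E F (y * u)) := Algebra.isIntegral_trace hyu
  obtain ⟨a, ha⟩ := (IsIntegrallyClosed.isIntegral_iff (R := ↥A) (K := E)).mp htr
  rw [← ha]
  exact a.2

/-- **(G0) P5a (b)**: `R ≤ R^` with finite colength. -/
theorem finCol_dualK_of_integral
    (hfin : ∀ a : ↥A, a ≠ 0 → FiniteDimensional k (↥A ⧸ Ideal.span {a}))
    {R : Submodule k F} (hR : ∀ f : F, f ∈ R ↔ IsIntegral ↥A f) :
    FinCol R (dualK A R) := by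
  refine ⟨le_dualK_of_integral hR, ?_⟩
  have hl := isLattice_integralClosure (k := k) (E := E) (F := F) (A := A)
  have hB : (Algebra.traceForm E F).Nondegenerate := traceForm_nondegenerate E F
  have hl' := isLattice_dualSubmodule (L := E) (Algebra.traceForm E F) hB
    (Subalgebra.toSubmodule (integralClosure ↥A F))
  have hle : Subalgebra.toSubmodule (integralClosure ↥A F)
      ≤ (Algebra.traceForm E F).dualSubmodule (Subalgebra.toSubmodule (integralClosure ↥A F)) := by
    intro y hy
    have h1 : y ∈ dualK A R := le_dualK_of_integral hR ((hR y).mpr hy)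
    rw [← restrictScalars_integralClosure_eq hR, dualK_restrictScalars] at h1
    exact h1
  have := finiteDimensional_quotient_of_lattices (L := E) (k := k) hfin hle
  rw [← dualK_restrictScalars, restrictScalars_integralClosure_eq hR] at this
  exact this

end Fermat.Agent.S16.H38
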