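/-
S16 / (G0) package P5 (helper94): the bridge between the RR bank (`riemannRochSpace`, Riemann's
theorem, `gR`) and the pair of "lattices" used by the lattice Euler characteristic argument:

* `Rfin x`   : the elements of `F` regular at every place where `x` is regular
               (= the integral closure of `K[x]`);
* `Rinf x m` : the elements `y` with `y / x^m` regular at every pole of `x`
               (= `x^m •` the integral closure of the local ring at infinity of `K(x)`).

Main results: `L(m (x)_oo) = Rfin x ⊓ Rinf x m` and `dim = m n + 1 - gR` for `m` large.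
-/
import Mathlib
import Fermat.Agent.RR.H76_Inst
import Fermat.Agent.S18.H33_CechDict

set_option autoImplicit false

noncomputable section

namespace Fermat.Agent.S16.H94

open AlgebraicCurve

variable {K F : Type*} [Field K] [Field F] [Algebra K F]

/-! ### The two halves -/

/-- Elements regular at all places where `x` is regular (the "finite" places). -/
def Rfin (x : F) : Submodule K F where
  carrier := {y | ∀ v : Place K F, x ∈ v.toValuationSubring → y ∈ v.toValuationSubring}
  zero_mem' := fun v _ => v.toValuationSubring.zero_mem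
  add_mem' := fun ha hb v hv => v.toValuationSubring.add_mem _ _ (ha v hv) (hb v hv)
  smul_mem' := fun c y hy v hv => by
    rw [Algebra.smul_def]
    exact v.toValuationSubring.mul_mem _ _ (v.algebraMap_mem' c) (hy v hv)

/-- Elements `y` such that `y / x^m` is regular at all poles of `x`. -/
def Rinf (x : F) (m : ℤ) : Submodule K F where
  carrier := {y | ∀ v : Place K F, x ∉ v.toValuationSubring →
    y * x ^ (-m) ∈ v.toValuationSubring}
  zero_mem' := fun v _ => by
    rw [zero_mul]
    exact v.toValuationSubring.zero_mem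
  add_mem' := fun {a b} ha hb v hv => by
    rw [add_mul]
    exact v.toValuationSubring.add_mem _ _ (ha v hv) (hb v hv)
  smul_mem' := fun c y hy v hv => by
    rw [Algebra.smul_def, mul_assoc]
    exact v.toValuationSubring.mul_mem _ _ (v.algebraMap_mem' c) (hy v hv)

theorem mem_Rfin {x y : F} :
    y ∈ Rfin (K := K) x ↔
      ∀ v : Place K F, x ∈ v.toValuationSubring → y ∈ v.toValuationSubring := Iff.rfl

theorem mem_Rinf {x y : F} {m : ℤ} :
    y ∈ Rinf (K := K) x m ↔
      ∀ v : Place K F, x ∉ v.toValuationSubring → y * x ^ (-m) ∈ v.toValuationSubring :=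
  Iff.rfl

theorem mem_Rinf_zero {x y : F} :
    y ∈ Rinf (K := K) x 0 ↔
      ∀ v : Place K F, x ∉ v.toValuationSubring → y ∈ v.toValuationSubring := by
  rw [mem_Rinf]
  simp

theorem one_mem_Rfin (x : F) : (1 : F) ∈ Rfin (K := K) x :=
  fun v _ => v.toValuationSubring.one_mem

theorem self_mem_Rfin (x : F) : x ∈ Rfin (K := K) x := fun _ hv => hv

theorem mul_mem_Rfin {x a b : F} (ha : a ∈ Rfin (K := K) x) (hb : b ∈ Rfin (K := K) x) :
    a * b ∈ Rfin (K := K) x :=
  fun v hv => v.toValuationSubring.mul_mem _ _ (ha v hv) (hb v hv)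

theorem one_mem_Rinf_zero (x : F) : (1 : F) ∈ Rinf (K := K) x 0 :=
  mem_Rinf_zero.mpr fun v _ => v.toValuationSubring.one_mem

theorem mul_mem_Rinf_zero {x a b : F} (ha : a ∈ Rinf (K := K) x 0)
    (hb : b ∈ Rinf (K := K) x 0) : a * b ∈ Rinf (K := K) x 0 :=
  mem_Rinf_zero.mpr fun v hv =>
    v.toValuationSubring.mul_mem _ _ (mem_Rinf_zero.mp ha v hv) (mem_Rinf_zero.mp hb v hv)

/-- `x⁻¹` is regular at the poles of `x`. -/
theorem inv_mem_of_not_mem (v : Place K F) {x : F} (hv : x ∉ v.toValuationSubring) :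
    x⁻¹ ∈ v.toValuationSubring :=
  (v.toValuationSubring.mem_or_inv_mem x).resolve_left hv

theorem inv_mem_Rinf_zero (x : F) : x⁻¹ ∈ Rinf (K := K) x 0 :=
  mem_Rinf_zero.mpr fun v hv => inv_mem_of_not_mem v hv

/-- Multiplication by `x^j` shifts the twist. -/
theorem mul_zpow_mem_Rinf_iff {x : F} (hx : x ≠ 0) {y : F} (m j : ℤ) :
    y * x ^ j ∈ Rinf (K := K) x (m + j) ↔ y ∈ Rinf (K := K) x m := by
  have key : y * x ^ j * x ^ (-(m + j)) = y * x ^ (-m) := by
    rw [mul_assoc, ← zpow_add₀ hx]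
    congr 2
    ring
  rw [mem_Rinf, mem_Rinf, key]

theorem Rinf_mono {x : F} (hx : x ≠ 0) {m m' : ℤ} (h : m ≤ m') :
    Rinf (K := K) x m ≤ Rinf (K := K) x m' := by
  intro y hy v hv
  have h1 := hy v hv
  have h2 : (x⁻¹) ^ (m' - m).toNat ∈ v.toValuationSubring :=
    v.toValuationSubring.pow_mem (inv_mem_of_not_mem v hv) _
  have h3 : y * x ^ (-m') = y * x ^ (-m) * (x⁻¹) ^ (m' - m).toNat := by
    rw [mul_assoc]
    congr 1
    rw [← zpow_natCast, Int.toNat_of_nonneg (by omega), inv_zpow', ← zpow_add₀ hx]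
    congr 1
    ring
  rw [h3]
  exact v.toValuationSubring.mul_mem _ _ h1 h2

/-- The `K`-linear equivalence `Rinf x 0 ≃ Rinf x m`, `y ↦ x^m y` ("`Rinf x m = x^m • Ri`"). -/
def twistEquiv {x : F} (hx : x ≠ 0) (m : ℤ) :
    ↥(Rinf (K := K) x 0) ≃ₗ[K] ↥(Rinf (K := K) x m) where
  toFun y := ⟨(y : F) * x ^ m, by
    have := (mul_zpow_mem_Rinf_iff (K := K) hx (y := (y : F)) 0 m).mpr y.2
    rwa [zero_add] at this⟩
  invFun y := ⟨(y : F) * x ^ (-m), by
    have := (mul_zpow_mem_Rinf_iff (K := K) hx (y := (y : F)) m (-m)).mpr y.2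
    rwa [add_neg_cancel] at this⟩
  map_add' a b := by
    apply Subtype.ext
    simp [add_mul]
  map_smul' c a := by
    apply Subtype.ext
    simp [Algebra.smul_def, mul_assoc]
  left_inv y := by
    apply Subtype.ext
    show (y : F) * x ^ m * x ^ (-m) = y
    rw [mul_assoc, ← zpow_add₀ hx, add_neg_cancel, zpow_zero, mul_one]
  right_inv y := by
    apply Subtype.ext
    show (y : F) * x ^ (-m) * x ^ m = y
    rw [mul_assoc, ← zpow_add₀ hx, neg_add_cancel, zpow_zero, mul_one]

@[simp]
theorem twistEquiv_apply {x : F} (hx : x ≠ 0) (m : ℤ) (y : ↥(Rinf (K := K) x 0)) :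
    ((twistEquiv (K := K) hx m y : ↥(Rinf (K := K) x m)) : F) = (y : F) * x ^ m := rfl

/-! ### Membership in a place in terms of `ord` -/

theorem not_mem_place_iff_ord_neg (v : Place K F) {f : F} (hf : f ≠ 0) :
    f ∉ v.toValuationSubring ↔ v.ord f < 0 := by
  rw [S18.H33.mem_place_iff_ord_nonneg v hf, not_le]

/-! ### The dictionary -/

/-- **The dictionary**: `L(m (x)_∞) = Rfin x ⊓ Rinf x m`. -/
theorem riemannRochSpace_nsmul_eq {x : F} (hx : x ≠ 0) {D0 : Divisor K F}
    (hD0 : S18.H33.IsPoleDivisor x D0) (m : ℕ) :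
    riemannRochSpace (m • D0) = Rfin (K := K) x ⊓ Rinf (K := K) x (m : ℤ) := by
  have hDv : ∀ v : Place K F, (m • D0) v = m * max 0 (-v.ord x) := fun v => by
    rw [Finsupp.smul_apply, nsmul_eq_mul, hD0 v]
  ext y
  rw [mem_riemannRochSpace_iff, Submodule.mem_inf, mem_Rfin, mem_Rinf]
  constructor
  · intro h
    refine ⟨fun v hv => ?_, fun v hv => ?_⟩
    · by_cases hy : y = 0
      · rw [hy]; exact v.toValuationSubring.zero_mem
      have hox : 0 ≤ v.ord x := (S18.H33.mem_place_iff_ord_nonneg v hx).mp hv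
      have h1 := (h v).resolve_left hy
      rw [hDv, max_eq_left (by linarith), mul_zero, neg_zero] at h1
      exact (S18.H33.mem_place_iff_ord_nonneg v hy).mpr h1
    · by_cases hy : y = 0
      · rw [hy, zero_mul]; exact v.toValuationSubring.zero_mem
      have hox : v.ord x < 0 := (not_mem_place_iff_ord_neg v hx).mp hv
      have h1 := (h v).resolve_left hy
      rw [hDv, max_eq_right (by linarith)] at h1
      have hne : y * x ^ (-(m : ℤ)) ≠ 0 := mul_ne_zero hy (zpow_ne_zero _ hx)
      rw [S18.H33.mem_place_iff_ord_nonneg v hne, v.ord_mul hy (zpow_ne_zero _ hx), v.ord_zpow]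
      linarith
  · rintro ⟨h1, h2⟩ v
    by_cases hy : y = 0
    · exact Or.inl hy
    right
    rw [hDv]
    by_cases hv : x ∈ v.toValuationSubring
    · have hox : 0 ≤ v.ord x := (S18.H33.mem_place_iff_ord_nonneg v hx).mp hv
      rw [max_eq_left (by linarith), mul_zero, neg_zero]
      exact (S18.H33.mem_place_iff_ord_nonneg v hy).mp (h1 v hv)
    · have hox : v.ord x < 0 := (not_mem_place_iff_ord_neg v hx).mp hv
      rw [max_eq_right (by linarith)]
      have hne : y * x ^ (-(m : ℤ)) ≠ 0 := mul_ne_zero hy (zpow_ne_zero _ hx)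
      have h3 := (S18.H33.mem_place_iff_ord_nonneg v hne).mp (h2 v hv)
      rw [v.ord_mul hy (zpow_ne_zero _ hx), v.ord_zpow] at h3
      linarith

/-- `Rfin x ⊓ Rinf x m` is finite dimensional for `m ≥ 0`. -/
theorem finiteDimensional_inf (h : RR.H76.FFBase K F) {x : F} (hx : x ≠ 0) {D0 : Divisor K F}
    (hD0 : S18.H33.IsPoleDivisor x D0) (m : ℕ) :
    FiniteDimensional K ↥(Rfin (K := K) x ⊓ Rinf (K := K) x (m : ℤ)) := by
  rw [← riemannRochSpace_nsmul_eq hx hD0 m]
  exact h.finiteDimensional_riemannRochSpace _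

/-- `finrank (Rfin x ⊓ Rinf x m) = l(m (x)_∞)`. -/
theorem finrank_inf_eq_ell {x : F} (hx : x ≠ 0) {D0 : Divisor K F}
    (hD0 : S18.H33.IsPoleDivisor x D0) (m : ℕ) :
    Module.finrank K ↥(Rfin (K := K) x ⊓ Rinf (K := K) x (m : ℤ)) = RR.H76.ell (m • D0) := by
  unfold RR.H76.ell
  rw [riemannRochSpace_nsmul_eq hx hD0 m]

/-- **Riemann's theorem in lattice form**: `dim (Rfin x ⊓ Rinf x m) = m n + 1 - gR` for all large
`m`, `n = deg (x)_∞`. -/
theorem exists_finrank_inf_eq (h : RR.H76.FFBase K F) {x : F} (hx : x ≠ 0) {D0 : Divisor K F}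
    (hD0 : S18.H33.IsPoleDivisor x D0) (hdeg : 0 < Divisor.degree D0) :
    ∃ m0 : ℕ, ∀ m : ℕ, m0 ≤ m →
      (Module.finrank K ↥(Rfin (K := K) x ⊓ Rinf (K := K) x (m : ℤ)) : ℤ)
        = m * Divisor.degree D0 + 1 - h.gR := by
  obtain ⟨c, hc⟩ := h.exists_riemann_degree_bound
  refine ⟨c.toNat, fun m hm => ?_⟩
  rw [finrank_inf_eq_ell hx hD0 m]
  have hdegm : Divisor.degree (m • D0) = m * Divisor.degree D0 := by
    rw [map_nsmul, nsmul_eq_mul]
  have hle : c ≤ Divisor.degree (m • D0) := by
    rw [hdegm]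
    have h1 : c ≤ (c.toNat : ℤ) := Int.self_le_toNat c
    have h2 : ((c.toNat : ℕ) : ℤ) ≤ (m : ℤ) := by exact_mod_cast hm
    have h3 : (m : ℤ) * 1 ≤ (m : ℤ) * Divisor.degree D0 :=
      mul_le_mul_of_nonneg_left (by omega) (Int.natCast_nonneg m)
    linarith
  rw [hc _ hle, hdegm]

/-- Riemann's inequality in lattice form, valid for every `m`. -/
theorem le_finrank_inf (h : RR.H76.FFBase K F) {x : F} (hx : x ≠ 0) {D0 : Divisor K F}
    (hD0 : S18.H33.IsPoleDivisor x D0) (m : ℕ) :
    m * Divisor.degree D0 + 1 - h.gR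
      ≤ (Module.finrank K ↥(Rfin (K := K) x ⊓ Rinf (K := K) x (m : ℤ)) : ℤ) := by
  rw [finrank_inf_eq_ell hx hD0 m]
  have := h.riemann_inequality (m • D0)
  rwa [map_nsmul, nsmul_eq_mul] at this

/-! ### Euler characteristic form (with `χ` unfolded, so that no other (G0) file is needed) -/

/-- The lattice Euler characteristic `dim (U ⊓ W) - dim V/(U ⊔ W)` (same as helper85's
`H85.chi`, restated here to keep this file independent). -/
def chiPair (U W : Submodule K F) : ℤ :=
  (Module.finrank K ↥(U ⊓ W) : ℤ) - Module.finrank K (F ⧸ (U ⊔ W))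

theorem chiPair_le_finrank (U W : Submodule K F) :
    chiPair U W ≤ (Module.finrank K ↥(U ⊓ W) : ℤ) := by
  unfold chiPair
  have : (0 : ℤ) ≤ Module.finrank K (F ⧸ (U ⊔ W)) := Int.natCast_nonneg _
  linarith

/-- `χ(R, x^m Ri) ≤ m n + 1 - gR` for `m` large. -/
theorem exists_chiPair_le (h : RR.H76.FFBase K F) {x : F} (hx : x ≠ 0) {D0 : Divisor K F}
    (hD0 : S18.H33.IsPoleDivisor x D0) (hdeg : 0 < Divisor.degree D0) :
    ∃ m0 : ℕ, ∀ m : ℕ, m0 ≤ m →
      chiPair (Rfin (K := K) x) (Rinf (K := K) x (m : ℤ))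
        ≤ m * Divisor.degree D0 + 1 - h.gR := by
  obtain ⟨m0, hm0⟩ := exists_finrank_inf_eq h hx hD0 hdeg
  exact ⟨m0, fun m hm => (chiPair_le_finrank _ _).trans (hm0 m hm).le⟩

/-- **The output of P5**: if twisting by `x^m` shifts `χ` by `m n` (P3), then
`χ(R, Ri) ≤ 1 - gR`. -/
theorem chiPair_le_one_sub_gR (h : RR.H76.FFBase K F) {x : F} (hx : x ≠ 0) {D0 : Divisor K F}
    (hD0 : S18.H33.IsPoleDivisor x D0) (hdeg : 0 < Divisor.degree D0)
    (htwist : ∀ m : ℕ, chiPair (Rfin (K := K) x) (Rinf (K := K) x (m : ℤ))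
      = chiPair (Rfin (K := K) x) (Rinf (K := K) x 0) + m * Divisor.degree D0) :
    chiPair (Rfin (K := K) x) (Rinf (K := K) x 0) ≤ 1 - h.gR := by
  obtain ⟨m0, hm0⟩ := exists_chiPair_le h hx hD0 hdeg
  have := hm0 m0 le_rfl
  rw [htwist m0] at this
  linarith

/-! ### Adapters to integral closures -/

/-- An element lying in every place that contains the subalgebra `S` is integral over `S`
(needs that every proper valuation ring of `F/K` is a place). -/
theorem isIntegral_of_forall_place
    (hplace : ∀ O : ValuationSubring F, (∀ a : K, algebraMap K F a ∈ O) → O ≠ ⊤ →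
      IsPrincipalIdealRing O)
    (S : Subalgebra K F) (g : F)
    (hg : ∀ v : Place K F, (∀ s ∈ S, s ∈ v.toValuationSubring) → g ∈ v.toValuationSubring) :
    IsIntegral S g := by
  have hmem : g ∈ (integralClosure (Subring.closure (S : Set F)) F).toSubring := by
    rw [← iInf_valuationSubring_superset]
    rw [Subring.mem_iInf]
    rintro ⟨V, hV⟩
    by_cases htop : V = ⊤
    · show g ∈ V
      rw [htop]; trivial
    have hK : ∀ a : K, algebraMap K F a ∈ V := fun a => hV (S.algebraMap_mem a)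
    exact hg ⟨V, hK, htop, hplace V hK htop⟩ fun s hs => hV hs
  have hcl : Subring.closure (S : Set F) = S.toSubring := Subring.closure_eq S.toSubring
  obtain ⟨p, hpm, hp⟩ := hmem
  let φ : Subring.closure (S : Set F) →+* S :=
    (Subring.subtype _).codRestrict S.toSubring fun s => by
      exact hcl.le s.2
  refine ⟨p.map φ, hpm.map φ, ?_⟩
  rw [Polynomial.eval₂_map]
  exact hp

/-- `Rfin x` is the integral closure of `K[x]`. -/
theorem mem_Rfin_iff_isIntegral
    (hplace : ∀ O : ValuationSubring F, (∀ a : K, algebraMap K F a ∈ O) → O ≠ ⊤ →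
      IsPrincipalIdealRing O) {x y : F} :
    y ∈ Rfin (K := K) x ↔ IsIntegral (Algebra.adjoin K {x}) y := by
  constructor
  · intro hy
    refine isIntegral_of_forall_place hplace _ y fun v hv => hy v ?_
    exact hv x (Algebra.subset_adjoin rfl)
  · intro hy v hv
    have hle : Algebra.adjoin K {x} ≤ S18.H33.placeSubalgebra v :=
      Algebra.adjoin_le (Set.singleton_subset_iff.mpr hv)
    exact S18.H33.mem_valuationSubring_of_isIntegral _ _ (fun s hs => hle hs) hy

/-- `Rinf x 0` is the integral closure of any `K`-subalgebra `S` "supported at infinity":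
`S` is contained in every pole place of `x`, and every place containing `S` is a pole place. -/
theorem mem_Rinf_zero_iff_isIntegral
    (hplace : ∀ O : ValuationSubring F, (∀ a : K, algebraMap K F a ∈ O) → O ≠ ⊤ →
      IsPrincipalIdealRing O) {x : F} (S : Subalgebra K F)
    (hS1 : ∀ v : Place K F, x ∉ v.toValuationSubring → ∀ s ∈ S, s ∈ v.toValuationSubring)
    (hS2 : ∀ v : Place K F, (∀ s ∈ S, s ∈ v.toValuationSubring) → x ∉ v.toValuationSubring)
    {y : F} : y ∈ Rinf (K := K) x 0 ↔ IsIntegral S y := by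
  rw [mem_Rinf_zero]
  constructor
  · intro hy
    exact isIntegral_of_forall_place hplace S y fun v hv => hy v (hS2 v hv)
  · intro hy v hv
    exact S18.H33.mem_valuationSubring_of_isIntegral _ S (hS1 v hv) hy

/-- The local ring at infinity of `K(x)` inside `F`: rational functions of `x` regular at all
poles of `x`. -/
def Oinf (x : F) : Subalgebra K F where
  carrier := {f | f ∈ IntermediateField.adjoin K {x} ∧ f ∈ Rinf (K := K) x 0}
  mul_mem' := fun ha hb =>
    ⟨(IntermediateField.adjoin K {x}).mul_mem ha.1 hb.1, mul_mem_Rinf_zero ha.2 hb.2⟩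
  add_mem' := fun ha hb =>
    ⟨(IntermediateField.adjoin K {x}).add_mem ha.1 hb.1, (Rinf (K := K) x 0).add_mem ha.2 hb.2⟩
  algebraMap_mem' := fun c =>
    ⟨(IntermediateField.adjoin K {x}).algebraMap_mem c,
      mem_Rinf_zero.mpr fun v _ => v.algebraMap_mem' c⟩

theorem mem_Oinf {x f : F} :
    f ∈ Oinf (K := K) x ↔ f ∈ IntermediateField.adjoin K {x} ∧ f ∈ Rinf (K := K) x 0 := Iff.rfl

theorem inv_mem_Oinf (x : F) : x⁻¹ ∈ Oinf (K := K) x :=
  ⟨(IntermediateField.adjoin K {x}).inv_mem (IntermediateField.mem_adjoin_simple_self K x),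
    inv_mem_Rinf_zero x⟩

/-- For `c : K`, `(x - c)⁻¹` is regular at the poles of `x`. -/
theorem inv_sub_mem_Oinf (x : F) (c : K) : (x - algebraMap K F c)⁻¹ ∈ Oinf (K := K) x := by
  refine ⟨(IntermediateField.adjoin K {x}).inv_mem ((IntermediateField.adjoin K {x}).sub_mem
    (IntermediateField.mem_adjoin_simple_self K x)
    ((IntermediateField.adjoin K {x}).algebraMap_mem c)), mem_Rinf_zero.mpr fun v hv => ?_⟩
  refine (v.toValuationSubring.mem_or_inv_mem _).resolve_left fun h => hv ?_
  have := v.toValuationSubring.add_mem _ _ h (v.algebraMap_mem' c)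
  rwa [sub_add_cancel] at this

/-- Over an algebraically closed constant field, a place containing `Oinf x` is a pole of `x`
(`x` non-constant). -/
theorem not_mem_of_Oinf_le [IsAlgClosed K] (hfin : ∀ v : Place K F, Module.Finite K v.ResidueField)
    {x : F} (htr : Transcendental K x) (v : Place K F)
    (hv : ∀ s ∈ Oinf (K := K) x, s ∈ v.toValuationSubring) :
    x ∉ v.toValuationSubring := by
  intro hx
  have := hfin v
  -- the residue class of `x` is a constant `c`
  have hbij : Function.Bijective (algebraMap K v.ResidueField) :=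
    IsAlgClosed.algebraMap_bijective_of_isIntegral
  obtain ⟨c, hc⟩ := hbij.2 (IsLocalRing.residue v.toValuationSubring ⟨x, hx⟩)
  -- so `x - c` is a non-unit of the valuation ring, but `(x - c)⁻¹` lies in it
  have hxc : x - algebraMap K F c ∈ v.toValuationSubring :=
    v.toValuationSubring.toSubring.sub_mem hx (v.algebraMap_mem' c)
  have hinv := hv _ (inv_sub_mem_Oinf (K := K) x c)
  have hres : IsLocalRing.residue v.toValuationSubring ⟨x - algebraMap K F c, hxc⟩ = 0 := by
    have h1 : (⟨x - algebraMap K F c, hxc⟩ : v.toValuationSubring)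
        = ⟨x, hx⟩ - algebraMap K v.toValuationSubring c := Subtype.ext rfl
    rw [h1, map_sub, ← hc]
    exact sub_self _
  have hnu : ¬ IsUnit (⟨x - algebraMap K F c, hxc⟩ : v.toValuationSubring) := by
    rwa [IsLocalRing.residue_eq_zero_iff, IsLocalRing.mem_maximalIdeal, mem_nonunits_iff] at hres
  have h0 : x - algebraMap K F c ≠ 0 := by
    intro h0
    apply htr
    rw [sub_eq_zero.mp h0]
    exact isAlgebraic_algebraMap c
  exact hnu ⟨⟨⟨x - algebraMap K F c, hxc⟩, ⟨(x - algebraMap K F c)⁻¹, hinv⟩,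
      Subtype.ext (mul_inv_cancel₀ h0), Subtype.ext (inv_mul_cancel₀ h0)⟩, rfl⟩

/-- `Rinf x 0` is the integral closure of `Oinf x` (algebraically closed constants, `x`
non-constant). -/
theorem mem_Rinf_zero_iff_isIntegral_Oinf [IsAlgClosed K]
    (hfin : ∀ v : Place K F, Module.Finite K v.ResidueField)
    (hplace : ∀ O : ValuationSubring F, (∀ a : K, algebraMap K F a ∈ O) → O ≠ ⊤ →
      IsPrincipalIdealRing O) {x : F} (htr : Transcendental K x) {y : F} :
    y ∈ Rinf (K := K) x 0 ↔ IsIntegral (Oinf (K := K) x) y :=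
  mem_Rinf_zero_iff_isIntegral hplace (Oinf (K := K) x)
    (fun v hv _ hs => mem_Rinf_zero.mp hs.2 v hv)
    (fun v hv => not_mem_of_Oinf_le hfin htr v hv)

end Fermat.Agent.S16.H94
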