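import Mathlib
import Fermat.Agent.S16.H6_G0Iface
import Fermat.Agent.S16.H94_RRBridge
import Fermat.Agent.S16.H35_G0Inst
import Fermat.Agent.S16.H38_G0IntClosure

/-!
# (G0): the `IsIntegral` adapters in interface names, and the lattice facts for `Rfin`, `Rinf`

* `mem_Rfin_iff_isIntegral_Afin` : `f ∈ Rfin k x ↔ IsIntegral ↥(Afin k x) f`;
* `mem_Rinf_iff_isIntegral_Binf` : `f ∈ Rinf k x ↔ IsIntegral ↥(Binf k x) f`;
* consequences through `H38_G0IntClosure` / `H38_G0DualSys`: `Rfin k x ∈ LatK (Afin k x)`,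
  `FinCol (Rfin k x) (dualK (Afin k x) (Rfin k x))`, `DualSys` at `Afin k x`, and the same for
  `Binf k x` (with the DVR facts as instance hypotheses).
-/

set_option autoImplicit false

noncomputable section

open AlgebraicCurve IntermediateField

namespace Fermat.Agent.S16.H38

open Fermat.Agent.S16 Fermat.Agent.RR

/-! ### Integrality over a subalgebra only depends on its image -/

section Image

variable {k E F : Type*} [Field k] [Field E] [Field F] [Algebra k E] [Algebra E F] [Algebra k F]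
  [IsScalarTower k E F]

omit [IsScalarTower k E F] in
/-- If `S ⊆ F` is the image of `A ⊆ E`, integrality over `A` and over `S` agree. -/
theorem isIntegral_iff_of_image_eq {A : Subalgebra k E} {S : Subalgebra k F}
    (h : ∀ f : F, f ∈ S ↔ ∃ a ∈ A, algebraMap E F a = f) (f : F) :
    IsIntegral ↥A f ↔ IsIntegral ↥S f := by
  -- the comparison map
  let φ : ↥A →+* ↥S :=
    ((algebraMap E F).comp A.val.toRingHom).codRestrict S.toSubring
      fun a => (h _).mpr ⟨a, a.2, rfl⟩
  have hφ : ∀ a : ↥A, ((φ a : ↥S) : F) = algebraMap E F (a : E) := fun _ => rfl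
  have hinj : Function.Injective φ := by
    intro a b hab
    have h1 : algebraMap E F (a : E) = algebraMap E F (b : E) := by
      rw [← hφ, ← hφ, hab]
    exact Subtype.ext ((algebraMap E F).injective h1)
  have hsurj : Function.Surjective φ := by
    rintro ⟨s, hs⟩
    obtain ⟨a, ha, rfl⟩ := (h s).mp hs
    exact ⟨⟨a, ha⟩, Subtype.ext rfl⟩
  let e : ↥A ≃+* ↥S := RingEquiv.ofBijective φ ⟨hinj, hsurj⟩
  constructor
  · intro hf
    have := IsIntegral.map_of_comp_eq (R := ↥A) (S := F) (T := ↥S) (U := F) φ (RingHom.id F)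
      (by ext a; rfl) hf
    simpa using this
  · intro hf
    have hcomp : (algebraMap ↥A F).comp (e.symm : ↥S →+* ↥A) = (RingHom.id F).comp
        (algebraMap ↥S F) := by
      ext s
      obtain ⟨a, rfl⟩ := e.surjective s
      simp only [RingHom.coe_comp, RingHom.coe_coe, Function.comp_apply,
        RingEquiv.symm_apply_apply, RingHom.id_apply]
      rfl
    have := IsIntegral.map_of_comp_eq (R := ↥S) (S := F) (T := ↥A) (U := F)
      (e.symm : ↥S →+* ↥A) (RingHom.id F) hcomp hf
    simpa using this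

end Image

variable {k F : Type*} [Field k] [Field F] [Algebra k F]

/-! ### The interface subspaces are helper94's -/

theorem mem_valuationSubring_iff_ord (v : Place k F) (x : F) :
    x ∈ v.toValuationSubring ↔ 0 ≤ v.ord x := by
  rw [H76.mem_valSubring_iff]
  constructor
  · rintro (rfl | h)
    · simp
    · exact h
  · exact fun h => Or.inr h

theorem Rfin_eq (x : F) : H6.Rfin k x = H94.Rfin (K := k) x := by
  ext f
  rw [H6.mem_Rfin, H94.mem_Rfin]
  exact forall_congr' fun v => by rw [mem_valuationSubring_iff_ord v x]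

theorem Rinf_eq (x : F) : H6.Rinf k x = H94.Rinf (K := k) x 0 := by
  ext f
  rw [H6.mem_Rinf, H94.mem_Rinf_zero]
  exact forall_congr' fun v => by rw [mem_valuationSubring_iff_ord v x, not_le]

/-! ### Images of `Afin`, `Binf` in `F` -/

theorem mem_adjoin_iff_exists_Afin (x : F) (f : F) :
    f ∈ Algebra.adjoin k {x} ↔ ∃ a ∈ H6.Afin k x, algebraMap k⟮x⟯ F a = f := by
  have h3 : (H6.Afin k x).map (IntermediateField.val k⟮x⟯) = Algebra.adjoin k {x} := by
    unfold H6.Afin
    rw [AlgHom.map_adjoin, Set.image_singleton]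
    rfl
  rw [← h3]
  exact Iff.rfl

theorem mem_Oinf_iff_exists_Binf (x : F) (f : F) :
    f ∈ H94.Oinf (K := k) x ↔ ∃ a ∈ H6.Binf k x, algebraMap k⟮x⟯ F a = f := by
  rw [H94.mem_Oinf]
  constructor
  · rintro ⟨h1, h2⟩
    refine ⟨⟨f, h1⟩, ?_, rfl⟩
    rw [H6.mem_Binf, Rinf_eq]
    exact h2
  · rintro ⟨a, ha, rfl⟩
    refine ⟨a.2, ?_⟩
    rw [H6.mem_Binf, Rinf_eq] at ha
    exact ha

/-! ### The adapters -/

/-- **Adapter, finite side**: `Rfin k x` is the integral closure of `Afin k x = k[x]`. -/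
theorem mem_Rfin_iff_isIntegral_Afin
    (hplace : ∀ O : ValuationSubring F, (∀ a : k, algebraMap k F a ∈ O) → O ≠ ⊤ →
      IsPrincipalIdealRing O) (x : F) :
    ∀ f : F, f ∈ H6.Rfin k x ↔ IsIntegral ↥(H6.Afin k x) f := by
  intro f
  rw [Rfin_eq, H94.mem_Rfin_iff_isIntegral hplace,
    isIntegral_iff_of_image_eq (mem_adjoin_iff_exists_Afin x) f]

/-- **Adapter, infinite side**: `Rinf k x` is the integral closure of `Binf k x`. -/
theorem mem_Rinf_iff_isIntegral_Binf [IsAlgClosed k]
    (hres : ∀ v : Place k F, Module.Finite k v.ResidueField)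
    (hplace : ∀ O : ValuationSubring F, (∀ a : k, algebraMap k F a ∈ O) → O ≠ ⊤ →
      IsPrincipalIdealRing O) {x : F} (htr : Transcendental k x) :
    ∀ f : F, f ∈ H6.Rinf k x ↔ IsIntegral ↥(H6.Binf k x) f := by
  intro f
  rw [Rinf_eq, H94.mem_Rinf_zero_iff_isIntegral_Oinf hres hplace htr,
    isIntegral_iff_of_image_eq (mem_Oinf_iff_exists_Binf x) f]

/-! ### Lattice facts at `Afin k x` -/

section Afin

variable (hplace : ∀ O : ValuationSubring F, (∀ a : k, algebraMap k F a ∈ O) → O ≠ ⊤ →
      IsPrincipalIdealRing O) {x : F} (htr : Transcendental k x)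
  [FiniteDimensional k⟮x⟯ F] [Algebra.IsSeparable k⟮x⟯ F]

include htr in
/-- `DualSys` for the `k[x]`-lattices. -/
theorem dualSys_Afin : H6.DualSys (H6.LatK (H6.Afin k x) (F := F)) (H6.dualK (H6.Afin k x)) := by
  have := H35.isPrincipalIdealRing_Afin htr
  have := H35.isFractionRing_Afin (k := k) x
  exact dualSys_LatK (H35.hfin_Afin htr)

include hplace htr in
theorem Rfin_mem_LatK : H6.Rfin k x ∈ H6.LatK (H6.Afin k x) (F := F) := by
  have := H35.isPrincipalIdealRing_Afin htr
  have := H35.isFractionRing_Afin (k := k) x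
  exact mem_LatK_of_integral (mem_Rfin_iff_isIntegral_Afin hplace x)

include hplace htr in
theorem finCol_Rfin_dualK :
    H6.FinCol (H6.Rfin k x) (H6.dualK (H6.Afin k x) (H6.Rfin k x)) := by
  have := H35.isPrincipalIdealRing_Afin htr
  have := H35.isFractionRing_Afin (k := k) x
  exact finCol_dualK_of_integral (H35.hfin_Afin htr) (mem_Rfin_iff_isIntegral_Afin hplace x)

end Afin

/-! ### Lattice facts at `Binf k x` (DVR facts as hypotheses) -/

section Binf

variable [IsAlgClosed k] (hres : ∀ v : Place k F, Module.Finite k v.ResidueField)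
  (hplace : ∀ O : ValuationSubring F, (∀ a : k, algebraMap k F a ∈ O) → O ≠ ⊤ →
      IsPrincipalIdealRing O) {x : F} (htr : Transcendental k x)
  [FiniteDimensional k⟮x⟯ F] [Algebra.IsSeparable k⟮x⟯ F]
  [IsPrincipalIdealRing ↥(H6.Binf k x)] [IsFractionRing ↥(H6.Binf k x) k⟮x⟯]
  (hfinB : ∀ b : ↥(H6.Binf k x), b ≠ 0 → FiniteDimensional k (↥(H6.Binf k x) ⧸ Ideal.span {b}))

omit [IsAlgClosed k] in
include hfinB in
/-- `DualSys` for the lattices over the local ring at infinity. -/
theorem dualSys_Binf : H6.DualSys (H6.LatK (H6.Binf k x) (F := F)) (H6.dualK (H6.Binf k x)) :=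
  dualSys_LatK hfinB

include hres hplace htr in
theorem Rinf_mem_LatK : H6.Rinf k x ∈ H6.LatK (H6.Binf k x) (F := F) :=
  mem_LatK_of_integral (mem_Rinf_iff_isIntegral_Binf hres hplace htr)

include hres hplace htr hfinB in
theorem finCol_Rinf_dualK :
    H6.FinCol (H6.Rinf k x) (H6.dualK (H6.Binf k x) (H6.Rinf k x)) :=
  finCol_dualK_of_integral hfinB (mem_Rinf_iff_isIntegral_Binf hres hplace htr)

end Binf

end Fermat.Agent.S16.H38
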