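import Mathlib
import Fermat.Agent.S18.H92_IndepK

/-!
# S16 / P5 RED: the Gauss ring contains ratios of integral `q`-expansions (helper38)

helper92's Gauss model `T : H92.TwoGen A π` (`A` a valuation ring of `L`, `π : A → k` the residue
map) has `(V3)`: an `A`-integral `q`-expansion lying in the function field `T.FL = L(x,y)` lies in
the Gauss ball and its residue is the coefficientwise reduction.  Here is the version for RATIOS:

if `f ∈ T.FL` and `f * up v = up u` with `u v : A((q))` ARBITRARY integral series (e.g. the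
`q`-expansions of two modular forms of the same weight, which are not themselves in the function
field) and `v̄ ≠ 0`, then `f` lies in the Gauss ball and `res f * v̄ = ū`.

This is the "q-expansion principle for quotients of modular forms": `F / G` reduces to `F̄ / Ḡ`.
-/

set_option autoImplicit false

noncomputable section

namespace Fermat.Agent.S16.H38

open ModularCurve Polynomial Fermat.Agent.S18 Fermat.Agent.S18.H92

section Model

variable {L : Type*} [Field L] {k : Type*} [Field k]
  {A : ValuationSubring L} {π : A →+* k} (T : TwoGen A π)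

/-- **Ratio lemma.** -/
theorem ratio_mem_ball {f : LaurentSeries L} (hf : f ∈ T.FL) {u v : LaurentSeries A}
    (hv : T.red v ≠ 0) (h : f * up A v = up A u) :
    f ∈ T.ball ∧ T.resFun f * T.red v = T.red u := by
  by_cases hf0 : f = 0
  · subst hf0
    rw [zero_mul] at h
    have hu : u = 0 := up_injective A (by rw [← h, map_zero])
    subst hu
    rw [T.resFun_zero, zero_mul, map_zero]
    exact ⟨T.ball.zero_mem, rfl⟩
  obtain ⟨c, hc, a, ha, b, hb, ha0, hb0, hrel⟩ := T.exists_frac hf hf0
  have hCc : (HahnSeries.C c : LaurentSeries L) ≠ 0 := by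
    rw [Ne, map_eq_zero]; exact hc
  -- the key relation `c • (u b) = a v`
  have hkey : HahnSeries.C c * up A (u * b) = up A (a * v) := by
    rw [map_mul, map_mul, ← h, ← hrel]; ring
  have hav : T.red (a * v) ≠ 0 := by
    rw [map_mul]; exact mul_ne_zero ha0 hv
  -- `c⁻¹ ∈ A`
  have hcinv : c⁻¹ ∈ A := by
    rcases A.mem_or_inv_mem c with hcA | hcA
    · have h1 : up A (HahnSeries.C ⟨c, hcA⟩ * (u * b)) = up A (a * v) := by
        rw [map_mul, TwoGen.up_C]; exact hkey
      have h2 := up_injective A h1
      have hu : IsUnit (⟨c, hcA⟩ : A) := by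
        by_contra hnu
        apply hav
        rw [← h2, map_mul, T.red_C, (T.map_eq_zero_iff _).mpr hnu]
        simp
      obtain ⟨w, hw⟩ := hu
      have h3 : (((w⁻¹ : Aˣ) : A) : L) * c = 1 := by
        have : ((w⁻¹ : Aˣ) : A) * (⟨c, hcA⟩ : A) = 1 := by rw [← hw]; simp
        have := congrArg Subtype.val this
        simpa using this
      have h4 : c⁻¹ = (((w⁻¹ : Aˣ) : A) : L) := by
        field_simp
        rw [mul_comm]; exact h3.symm
      rw [h4]; exact ((w⁻¹ : Aˣ) : A).2
    · exact hcA
  have hrel' : f * up A b = up A (HahnSeries.C ⟨c⁻¹, hcinv⟩ * a) := by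
    rw [map_mul, TwoGen.up_C, ← hrel]
    show _ = HahnSeries.C c⁻¹ * (HahnSeries.C c * f * up A b)
    rw [map_inv₀]
    field_simp
  have hmem : f ∈ T.ball := ⟨_, T.smul_mem_RA _ ha, b, hb, hb0, hrel'⟩
  refine ⟨hmem, ?_⟩
  rw [T.resFun_eq hb0 hrel' hmem, div_mul_eq_mul_div, div_eq_iff hb0]
  have h5 : up A (HahnSeries.C ⟨c⁻¹, hcinv⟩ * a * v) = up A (u * b) := by
    rw [map_mul, ← hrel', map_mul, ← h]; ring
  have h6 := up_injective A h5
  rw [← map_mul, ← map_mul, h6]

/-- If the reduction of the numerator is nonzero too, `f` is a unit of the ball. -/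
theorem ratio_inv_mem_ball {f : LaurentSeries L} (hf : f ∈ T.FL) {u v : LaurentSeries A}
    (hu : T.red u ≠ 0) (hv : T.red v ≠ 0) (h : f * up A v = up A u) : f⁻¹ ∈ T.ball := by
  obtain ⟨hmem, hres⟩ := ratio_mem_ball T hf hv h
  apply T.inv_mem_ball_of_resFun_ne_zero hmem
  intro h0
  rw [h0, zero_mul] at hres
  exact hu hres.symm

section Package

variable (F : IntermediateField L (LaurentSeries L)) (hF : F = T.FL)
variable (Fb : IntermediateField k (LaurentSeries k)) (hFb : Fb = T.Fk)

/-- **Ratio lemma**, packaged on the function field `F` and its Gauss valuation ring. -/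
theorem ratio_mem_unitBall (f : F) {u v : LaurentSeries A} (hv : coeffMap π v ≠ 0)
    (h : (f : LaurentSeries L) * up A v = up A u) :
    ∃ hmem : f ∈ T.unitBall F hF,
      ((T.resHom F hF Fb hFb ⟨f, hmem⟩ : Fb) : LaurentSeries k) * coeffMap π v = coeffMap π u := by
  have hf : (f : LaurentSeries L) ∈ T.FL := hF ▸ f.2
  obtain ⟨h1, h2⟩ := ratio_mem_ball T hf hv h
  exact ⟨h1, h2⟩

end Package

end Model

section Modular

variable (N : ℕ) [NeZero N] {ℓ : ℕ} [Fact ℓ.Prime] (hℓN : ¬ ℓ ∣ N)
  (A : ValuationSubring (AlgebraicClosure ℚ)) (hA : A.LiesOverPrime ℓ)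

/-- **q-expansion principle for ratios, level `N`, `ℓ ∤ N`**: an element `f` of the function field
`F_N(ℚ̄)` with `f * V = U` for `A`-integral `q`-series `U`, `V` (`V̄ ≠ 0`) lies in the Gauss ring
`stdO`, and its reduction `stdRes f ∈ F_N(k)` satisfies `stdRes f * V̄ = Ū`. -/
theorem ratio_mem_stdO (f : modularFunctionFieldBar N) {u v : LaurentSeries A}
    (hv : coeffMap (IsLocalRing.residue A) v ≠ 0)
    (h : (f : LaurentSeries (AlgebraicClosure ℚ)) * coeffMap A.subtype v = coeffMap A.subtype u) :
    ∃ hmem : f ∈ stdO N hℓN A hA,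
      ((stdRes N hℓN A hA ⟨f, hmem⟩ : modularFunctionFieldFullC (IsLocalRing.ResidueField A) N) :
        LaurentSeries (IsLocalRing.ResidueField A)) * coeffMap (IsLocalRing.residue A) v
        = coeffMap (IsLocalRing.residue A) u :=
  ratio_mem_unitBall (stdTwoGen N hℓN A hA) _ (stdTwoGen_FL N hℓN A hA) _
    (stdTwoGen_Fk N hℓN A hA) f hv h

end Modular

end Fermat.Agent.S16.H38
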