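import Mathlib
import Fermat.Agent.RR.H76_Riemann
import Fermat.Agent.RR.H52_PlaceBasic

/-!
# (F) global count for the S18-free route to (U2b)

Abstract statement, RR bank only.  `K/k` a function field of one variable in characteristic `2`
over a field `k` in which every element is a square, `J ∈ K`, `d` a `k`-derivation of `K` with
`d J = 1`.  For a divisor `Dinf ≥ 0` with `J ∈ L(Dinf)`, a divisor `H ≥ 0` with `2 H ≤ Dinf`,
a finite set `S` of places outside the support of `Dinf`, uniformisers `s x` (`x ∈ S`) that are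
regular outside `Dinf`, and numbers `E x` with `exp (E x) ≤ |d (s x)|_x`
(i.e. `ord_x (d (s x)) ≤ -E x`):

  `∑ x ∈ S, ⌈E x / 2⌉ + 1 ≤ deg Dinf - deg H + g`.

Proof: for `m` large the squares of a basis of `L(m Dinf + H)`, `J` times the squares of a basis
of `L(m Dinf)` and the functions `s x * (s x ^ i * h x) ^ 2` (`2 i < E x`) are linearly
independent in `L((2m+1) Dinf)`, as one sees by applying `d`.  Then Riemann's theorem.
-/

set_option autoImplicit false

noncomputable section

open AlgebraicCurve WithZero Fermat.Agent.RR.H76 Fermat.Agent.RR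

namespace Fermat.Agent.S16.H38

variable {k K : Type*} [Field k] [Field K] [Algebra k K]

/-! ### Derivations in characteristic two -/

section Deriv

variable [CharP K 2] (d : Derivation k K K)

theorem d_sq (a : K) : d (a ^ 2) = 0 := by
  rw [Derivation.leibniz_pow]
  have h2 : (2 : K) = 0 := CharTwo.two_eq_zero
  simp [nsmul_eq_mul, h2]

theorem d_mul_sq (a y : K) : d (a * y ^ 2) = y ^ 2 * d a := by
  rw [Derivation.leibniz, d_sq, smul_zero, zero_add, smul_eq_mul]

theorem d_smul_mul_sq (c : k) (a y : K) : d (c • (a * y ^ 2)) = c • (y ^ 2 * d a) := by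
  rw [Derivation.map_smul, d_mul_sq]

end Deriv

/-! ### Sums of squares in characteristic two -/

section Squares

variable [CharP K 2]

theorem sum_smul_sq {ι : Type*} (t : Finset ι) (c : ι → k) (a : ι → K) :
    (∑ i ∈ t, c i • a i) ^ 2 = ∑ i ∈ t, (c i ^ 2) • (a i) ^ 2 := by
  have : Fact (Nat.Prime 2) := ⟨Nat.prime_two⟩
  rw [sum_pow_char 2]
  refine Finset.sum_congr rfl fun i _ => ?_
  rw [Algebra.smul_def, Algebra.smul_def, mul_pow, map_pow]

/-- If every element of `k` is a square, a `k`-linear relation between squares of a linearly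
independent family is trivial. -/
theorem eq_zero_of_sum_smul_sq_eq_zero (hk : ∀ c : k, ∃ e : k, e ^ 2 = c)
    {ι : Type*} [Fintype ι] {a : ι → K} (ha : LinearIndependent k a) (c : ι → k)
    (h : ∑ i, c i • (a i) ^ 2 = 0) : ∀ i, c i = 0 := by
  choose e he using hk
  have h1 : (∑ i, e (c i) • a i) ^ 2 = 0 := by
    rw [sum_smul_sq]
    simpa [he] using h
  have h2 : ∑ i, e (c i) • a i = 0 := pow_eq_zero_iff (two_ne_zero) |>.mp h1
  have h3 := Fintype.linearIndependent_iff.mp ha _ h2
  intro i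
  rw [← he (c i), h3 i]
  simp

end Squares

/-! ### The local leading-term lemma -/

section Local

variable (w : Valuation K ℤᵐ⁰)

theorem val_sum_smul_pow_eq (hw : ∀ c : k, c ≠ 0 → w (algebraMap k K c) = 1) {s : K}
    (hs0 : s ≠ 0) (hs : w s < 1) {n : ℕ} (γ : Fin n → k) (i0 : Fin n) (hγ0 : γ i0 ≠ 0)
    (hmin : ∀ i : Fin n, i < i0 → γ i = 0) :
    w (∑ i : Fin n, γ i • s ^ (2 * (i : ℕ))) = w s ^ (2 * (i0 : ℕ)) := by
  classical
  have hpos : 0 < w s := zero_lt_iff.mpr ((Valuation.ne_zero_iff _).mpr hs0)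
  have hterm : ∀ i : Fin n, γ i ≠ 0 → w (γ i • s ^ (2 * (i : ℕ))) = w s ^ (2 * (i : ℕ)) := by
    intro i hi
    rw [Algebra.smul_def, map_mul, hw _ hi, one_mul, map_pow]
  rw [Valuation.map_sum_eq_of_lt (j := i0) _ (Finset.mem_univ _), hterm i0 hγ0]
  intro i hi
  rw [hterm i0 hγ0]
  have hne : i ≠ i0 := by
    simpa using hi
  by_cases hγ : γ i = 0
  · rw [hγ, zero_smul, map_zero]
    exact pow_pos hpos _
  · rcases lt_or_gt_of_ne hne with hlt | hgt
    · exact absurd (hmin i hlt) hγ
    · rw [hterm i hγ]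
      apply pow_lt_pow_right_of_lt_one₀ hpos hs
      have : (i0 : ℕ) < (i : ℕ) := hgt
      omega

/-- If `w s = exp (-1)`, `exp E ≤ w u` and `2 n ≤ E + 1`, then `(∑_{i<n} γ i s^(2i)) u`
regular forces all `γ i = 0`. -/
theorem eq_zero_of_val_mul_le_one (hw : ∀ c : k, c ≠ 0 → w (algebraMap k K c) = 1) {s : K}
    (hs : w s = exp (-1 : ℤ)) {n E : ℕ} (hn : 2 * n ≤ E + 1) (γ : Fin n → k) {u : K}
    (hu : exp (E : ℤ) ≤ w u)
    (hle : w ((∑ i : Fin n, γ i • s ^ (2 * (i : ℕ))) * u) ≤ 1) : ∀ i, γ i = 0 := by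
  have hs0 : s ≠ 0 := by
    rintro rfl
    rw [map_zero] at hs
    exact exp_ne_zero hs.symm
  have hs1 : w s < 1 := by
    rw [hs, ← exp_zero, exp_lt_exp]; norm_num
  have key : ∀ m : ℕ, ∀ i : Fin n, (i : ℕ) = m → γ i = 0 := by
    intro m
    induction m using Nat.strong_induction_on with
    | _ m ih =>
      intro i him
      by_contra hγ
      have hmin : ∀ j : Fin n, j < i → γ j = 0 := by
        intro j hj
        exact ih (j : ℕ) (by rw [← him]; exact hj) j rfl
      have e := val_sum_smul_pow_eq w hw hs0 hs1 γ i hγ hmin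
      rw [map_mul, e, hs] at hle
      have h1 : exp (-1 : ℤ) ^ (2 * (i : ℕ)) * exp (E : ℤ) ≤ 1 :=
        (mul_le_mul' le_rfl hu).trans hle
      rw [← exp_nsmul, ← exp_add, ← exp_zero, exp_le_exp] at h1
      have hi : (i : ℕ) < n := i.2
      simp only [nsmul_eq_mul] at h1
      push_cast at h1
      omega
  exact fun i => key i i rfl

end Local

/-! ### Existence of functions with an exact order at one place -/

section Exist

theorem mem_L_iff {D : Divisor k K} {f : K} :
    f ∈ riemannRochSpace D ↔ ∀ v : Place k K, v.adicValuation f ≤ exp (D v) := Iff.rfl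

variable (h : FFBase k K)
include h

theorem exists_mem_not_mem : ∃ c : ℤ, ∀ (B : Divisor k K) (x : Place k K),
    c ≤ Divisor.degree B → ∃ f ∈ riemannRochSpace (addP B x), f ∉ riemannRochSpace B := by
  obtain ⟨c, hc⟩ := h.exists_riemann_degree_bound
  refine ⟨c, fun B x hB => ?_⟩
  by_contra hcon
  push Not at hcon
  have hle : riemannRochSpace (addP B x) ≤ riemannRochSpace B := fun f hf => hcon f hf
  have heq : riemannRochSpace (addP B x) = riemannRochSpace B :=
    le_antisymm hle (riemannRochSpace_mono (le_add_single B x))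
  have hx := h.deg_pos x
  have e1 := hc B hB
  have e2 := hc (addP B x) (by rw [degree_addP]; omega)
  rw [degree_addP] at e2
  have e3 : ell (addP B x) = ell B := by unfold ell; rw [heq]
  rw [e3] at e2
  omega

omit h in
theorem val_eq_of_mem_not_mem {B : Divisor k K} {x : Place k K} {f : K}
    (hf : f ∈ riemannRochSpace (addP B x)) (hf' : f ∉ riemannRochSpace B) :
    x.adicValuation f = exp (B x + 1) := by
  have hex : ∃ v : Place k K, ¬ v.adicValuation f ≤ exp (B v) := by
    by_contra hcon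
    push Not at hcon
    exact hf' (mem_L_iff.mpr hcon)
  obtain ⟨v, hv⟩ := hex
  have hvx : v = x := by
    by_contra hne
    apply hv
    have := mem_L_iff.mp hf v
    rwa [add_single_apply_of_ne B hne] at this
  subst hvx
  have h1 := mem_L_iff.mp hf v
  rw [add_single_apply_self] at h1
  have hf0 : f ≠ 0 := by
    rintro rfl
    exact hv (by simp)
  rw [v.adicValuation_eq_exp_neg_ord hf0] at hv h1 ⊢
  rw [exp_le_exp] at h1
  rw [exp_le_exp, not_le] at hv
  congr 1
  omega

omit h in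
/-- finitely many values of a fixed function are bounded by `exp (2 M)`. -/
theorem exists_val_le_exp (S : Finset (Place k K)) (u : K) :
    ∃ M : ℕ, ∀ x ∈ S, x.adicValuation u ≤ exp ((2 * M : ℕ) : ℤ) := by
  classical
  refine ⟨S.sup fun x => (-(x.ord u)).toNat, fun x hx => ?_⟩
  rcases eq_or_ne u 0 with rfl | hu
  · simp
  · rw [x.adicValuation_eq_exp_neg_ord hu, exp_le_exp]
    have h1 : (-(x.ord u)).toNat ≤ S.sup fun x => (-(x.ord u)).toNat :=
      Finset.le_sup (f := fun x : Place k K => (-(x.ord u)).toNat) hx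
    have h2 := Int.self_le_toNat (-(x.ord u))
    push_cast
    omega

/-- For `x` outside the support of `Dinf` (of positive degree) and a finite set `S` of such
places, there is a function regular outside `Dinf`, a unit at `x`, vanishing to order `≥ M` at
the other points of `S`. -/
theorem exists_unit_at (Dinf : Divisor k K) (hDpos : 0 < Divisor.degree Dinf)
    (S : Finset (Place k K)) (hS : ∀ x ∈ S, Dinf x = 0) (x : Place k K) (hx : x ∈ S) (M : ℕ) :
    ∃ (n : ℕ) (g : K), g ∈ riemannRochSpace (n • Dinf) ∧ x.adicValuation g = 1 ∧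
      ∀ x' ∈ S, x' ≠ x → x'.adicValuation g ≤ exp (-(M : ℤ)) := by
  classical
  obtain ⟨c, hc⟩ := exists_mem_not_mem h
  set C : Divisor k K := ∑ x' ∈ S.erase x, Finsupp.single x' (M : ℤ) with hC
  have hCx : C x = 0 := by
    rw [hC, Finsupp.finsetSum_apply]
    refine Finset.sum_eq_zero fun y hy => ?_
    rw [Finsupp.single_apply, if_neg (Finset.ne_of_mem_erase hy)]
  have hCx' : ∀ x' ∈ S, x' ≠ x → C x' = M := by
    intro x' hx' hne
    rw [hC, Finsupp.finsetSum_apply, Finset.sum_eq_single x']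
    · simp
    · intro y _ hy
      rw [Finsupp.single_apply, if_neg hy]
    · intro hnot
      exact absurd (Finset.mem_erase.mpr ⟨hne, hx'⟩) hnot
  have hC0 : 0 ≤ C := by
    rw [hC]
    refine Finset.sum_nonneg fun y _ => ?_
    intro v
    rw [Finsupp.single_apply]
    split_ifs <;> simp
  -- choose n
  set n : ℕ := (c + Divisor.degree C + x.deg).toNat with hn
  set B : Divisor k K := n • Dinf - C - Finsupp.single x 1 with hB
  have hdegB : c ≤ Divisor.degree B := by
    rw [hB, map_sub, map_sub, map_nsmul, Divisor.degree_single, one_mul, nsmul_eq_mul]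
    have h1 := Int.self_le_toNat (c + Divisor.degree C + x.deg)
    have h2 : ((n : ℕ) : ℤ) ≤ n * Divisor.degree Dinf := by
      nlinarith [Int.natCast_nonneg n]
    rw [← hn] at h1
    linarith
  obtain ⟨g, hg, hg'⟩ := hc B x hdegB
  have hBadd : addP B x = n • Dinf - C := by
    rw [hB]; simp only [addP]; abel
  refine ⟨n, g, ?_, ?_, ?_⟩
  · refine riemannRochSpace_mono ?_ hg
    rw [hBadd]
    exact sub_le_self _ hC0
  · rw [val_eq_of_mem_not_mem hg hg', hB]
    simp [hS x hx, hCx]
  · intro x' hx' hne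
    have := mem_L_iff.mp hg x'
    rw [hBadd] at this
    simpa [hS x' hx', hCx' x' hx' hne] using this

end Exist

/-! ### Products in Riemann-Roch spaces -/

section Products

theorem mul_mem_L {D1 D2 : Divisor k K} {f g : K} (hf : f ∈ riemannRochSpace D1)
    (hg : g ∈ riemannRochSpace D2) : f * g ∈ riemannRochSpace (D1 + D2) := by
  intro v
  rw [map_mul, Finsupp.add_apply, exp_add]
  exact mul_le_mul' (hf v) (hg v)

theorem pow_mem_L {D : Divisor k K} {f : K} (hf : f ∈ riemannRochSpace D) (n : ℕ) :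
    f ^ n ∈ riemannRochSpace (n • D) := by
  intro v
  rw [map_pow, Finsupp.smul_apply, exp_nsmul]
  exact pow_le_pow_left' (hf v) n

theorem val_le_one_of_mem_L {D : Divisor k K} {f : K} (hf : f ∈ riemannRochSpace D)
    {x : Place k K} (hx : D x = 0) : x.adicValuation f ≤ 1 := by
  have := hf x
  rwa [hx, exp_zero] at this

end Products

/-! ### The count -/

section Main

variable (h : FFBase k K) [CharP K 2]
include h

theorem count_le (hk : ∀ c : k, ∃ e : k, e ^ 2 = c)
    (J : K) (d : Derivation k K K) (hd : d J = 1)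
    (Dinf H : Divisor k K) (hD0 : 0 ≤ Dinf) (hDpos : 0 < Divisor.degree Dinf)
    (hJ : J ∈ riemannRochSpace Dinf) (hH : 2 • H ≤ Dinf)
    (S : Finset (Place k K)) (hS : ∀ x ∈ S, Dinf x = 0)
    (s : Place k K → K) (n0 : ℕ)
    (hsR : ∀ x ∈ S, s x ∈ riemannRochSpace (n0 • Dinf))
    (hs1 : ∀ x ∈ S, x.adicValuation (s x) = exp (-1 : ℤ))
    (E : Place k K → ℕ)
    (hE : ∀ x ∈ S, 0 < E x → exp (E x : ℤ) ≤ x.adicValuation (d (s x))) :
    (∑ x ∈ S, (((E x + 1) / 2 : ℕ) : ℤ)) + 1
      ≤ Divisor.degree Dinf - Divisor.degree H + h.gR := by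
  classical
  -- Step 0: the auxiliary functions
  have hex : ∀ x : ↥S, ∃ (n : ℕ) (g : K), g ∈ riemannRochSpace (n • Dinf) ∧
      x.1.adicValuation g = 1 ∧
      ∀ x' ∈ S, x' ≠ x.1 → x'.adicValuation g ^ 2 * x'.adicValuation (d (s x.1)) ≤ 1 := by
    intro x
    obtain ⟨M, hM⟩ := exists_val_le_exp S (d (s x.1))
    obtain ⟨n, g, hg, hg1, hg2⟩ := exists_unit_at h Dinf hDpos S hS x.1 x.2 M
    refine ⟨n, g, hg, hg1, fun x' hx' hne => ?_⟩
    calc x'.adicValuation g ^ 2 * x'.adicValuation (d (s x.1))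
        ≤ exp (-(M : ℤ)) ^ 2 * exp ((2 * M : ℕ) : ℤ) :=
          mul_le_mul' (pow_le_pow_left' (hg2 x' hx' hne) 2) (hM x' hx')
      _ = 1 := by
          rw [← exp_nsmul, ← exp_add, ← exp_zero]
          congr 1
          push_cast
          simp only [nsmul_eq_mul]
          push_cast
          ring
  choose n1 g hgR hg1 hg2 using hex
  -- Step 1: the parameter m
  obtain ⟨c, hc⟩ := h.exists_riemann_degree_bound
  set Emax : ℕ := S.sup E with hEmax
  set N1 : ℕ := (Finset.univ : Finset ↥S).sup n1 with hN1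
  set m : ℕ := max c.toNat ((Emax + 1) * n0 + 2 * N1) with hm
  set dD : ℤ := Divisor.degree Dinf with hdD
  have hmc : c ≤ Divisor.degree ((2 * m + 1) • Dinf) := by
    rw [map_nsmul, nsmul_eq_mul, ← hdD]
    have h1 := Int.self_le_toNat c
    have h2 : c.toNat ≤ m := le_max_left _ _
    have h3 : ((2 * m + 1 : ℕ) : ℤ) ≤ ((2 * m + 1 : ℕ) : ℤ) * dD := by
      nlinarith [Int.natCast_nonneg (2 * m + 1)]
    have h4 : (c.toNat : ℤ) ≤ m := by exact_mod_cast h2
    push_cast at h3 ⊢
    linarith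
  -- the three spaces
  have fV := h.finiteDimensional_riemannRochSpace ((2 * m + 1) • Dinf)
  have fA := h.finiteDimensional_riemannRochSpace (m • Dinf + H)
  have fB := h.finiteDimensional_riemannRochSpace (m • Dinf)
  let bA := Module.finBasis k ↥(riemannRochSpace (m • Dinf + H))
  let bB := Module.finBasis k ↥(riemannRochSpace (m • Dinf))
  -- the family
  let fA' : Fin (Module.finrank k ↥(riemannRochSpace (m • Dinf + H))) → K :=
    fun i => ((bA i : K)) ^ 2
  let fB' : Fin (Module.finrank k ↥(riemannRochSpace (m • Dinf))) → K :=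
    fun j => J * ((bB j : K)) ^ 2
  let fC' : (Σ x : ↥S, Fin ((E x.1 + 1) / 2)) → K :=
    fun p => s p.1.1 * (s p.1.1 ^ (p.2 : ℕ) * g p.1) ^ 2
  let F := Sum.elim (Sum.elim fA' fB') fC'
  -- membership
  have hle_smul : ∀ a b : ℕ, a ≤ b → a • Dinf ≤ b • Dinf := fun a b hab =>
    nsmul_le_nsmul_left hD0 hab
  have hFV : ∀ i, F i ∈ riemannRochSpace ((2 * m + 1) • Dinf) := by
    rintro ((i | j) | ⟨x, i⟩)
    · refine riemannRochSpace_mono ?_ (pow_mem_L (bA i).2 2)
      intro v
      have := hH v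
      simp only [Finsupp.smul_apply, Finsupp.add_apply, nsmul_eq_mul] at this ⊢
      push_cast at this ⊢
      nlinarith
    · refine riemannRochSpace_mono ?_ (mul_mem_L hJ (pow_mem_L (bB j).2 2))
      intro v
      simp only [Finsupp.smul_apply, Finsupp.add_apply, nsmul_eq_mul]
      push_cast
      nlinarith
    · have h1 := mul_mem_L (hsR x.1 x.2)
        (pow_mem_L (mul_mem_L (pow_mem_L (hsR x.1 x.2) (i : ℕ)) (hgR x)) 2)
      refine riemannRochSpace_mono ?_ h1
      have e : n0 • Dinf + 2 • ((i : ℕ) • n0 • Dinf + n1 x • Dinf)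
          = (n0 + 2 * ((i : ℕ) * n0 + n1 x)) • Dinf := by
        module
      rw [e]
      apply hle_smul
      have hi : (i : ℕ) < (E x.1 + 1) / 2 := i.2
      have hEx : E x.1 ≤ Emax := Finset.le_sup (f := E) x.2
      have hnx : n1 x ≤ N1 := Finset.le_sup (f := n1) (Finset.mem_univ x)
      have hm2 : (Emax + 1) * n0 + 2 * N1 ≤ m := le_max_right _ _
      have h2i : 2 * (i : ℕ) + 1 ≤ Emax + 1 := by omega
      calc n0 + 2 * ((i : ℕ) * n0 + n1 x) = (2 * (i : ℕ) + 1) * n0 + 2 * n1 x := by ring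
        _ ≤ (Emax + 1) * n0 + 2 * N1 := by
            have := Nat.mul_le_mul_right n0 h2i
            omega
        _ ≤ 2 * m + 1 := by omega
  -- linear independence
  have hbBli : LinearIndependent k (fun j => (bB j : K)) :=
    bB.linearIndependent.map' (riemannRochSpace (m • Dinf)).subtype
      (Submodule.ker_subtype _)
  have hbAli : LinearIndependent k (fun i => (bA i : K)) :=
    bA.linearIndependent.map' (riemannRochSpace (m • Dinf + H)).subtype
      (Submodule.ker_subtype _)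
  have hFli : LinearIndependent k F := by
    rw [Fintype.linearIndependent_iff]
    intro cf hsum
    rw [Fintype.sum_sum_type, Fintype.sum_sum_type, Fintype.sum_sigma] at hsum
    simp only [F, Sum.elim_inl, Sum.elim_inr, fA', fB', fC'] at hsum
    -- apply d
    have hd' := congrArg d hsum
    rw [map_add, map_add, map_sum, map_sum, map_sum, map_zero] at hd'
    have e1 : ∀ i, d (cf (Sum.inl (Sum.inl i)) • (bA i : K) ^ 2) = 0 := by
      intro i
      rw [Derivation.map_smul, d_sq, smul_zero]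
    have e2 : ∀ j, d (cf (Sum.inl (Sum.inr j)) • (J * (bB j : K) ^ 2))
        = cf (Sum.inl (Sum.inr j)) • (bB j : K) ^ 2 := by
      intro j
      rw [d_smul_mul_sq, hd, mul_one]
    have e3 : ∀ x : ↥S, d (∑ i : Fin ((E x.1 + 1) / 2),
        cf (Sum.inr ⟨x, i⟩) • (s x.1 * (s x.1 ^ (i : ℕ) * g x) ^ 2))
        = (∑ i : Fin ((E x.1 + 1) / 2), cf (Sum.inr ⟨x, i⟩) • s x.1 ^ (2 * (i : ℕ)))
            * (g x ^ 2 * d (s x.1)) := by
      intro x
      rw [map_sum, Finset.sum_mul]
      refine Finset.sum_congr rfl fun i _ => ?_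
      rw [d_smul_mul_sq, smul_mul_assoc]
      congr 1
      ring
    simp only [e1, e2, e3, Finset.sum_const_zero, zero_add] at hd'
    -- the coefficients at the places
    have hγ : ∀ (x0 : ↥S) (i : Fin ((E x0.1 + 1) / 2)), cf (Sum.inr ⟨x0, i⟩) = 0 := by
      intro x0
      set w := x0.1.adicValuation with hw
      have hwk : ∀ a : k, a ≠ 0 → w (algebraMap k K a) = 1 := fun a ha =>
        H52.val_algebraMap x0.1 ha
      have hwk' : ∀ a : k, w (algebraMap k K a) ≤ 1 := fun a =>
        x0.1.adicValuation_algebraMap_le_one a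
      by_cases hE0 : (E x0.1 + 1) / 2 = 0
      · intro i
        exact absurd i.2 (by omega)
      have hEpos : 0 < E x0.1 := by omega
      refine eq_zero_of_val_mul_le_one w hwk (hs1 x0.1 x0.2) (E := E x0.1)
        (Nat.mul_div_le _ 2) _ (u := g x0 ^ 2 * d (s x0.1)) ?_ ?_
      · rw [map_mul, map_pow, ← hw] at *
        rw [show w (g x0) = 1 from hg1 x0, one_pow, one_mul]
        exact hE x0.1 x0.2 hEpos
      · rw [← Finset.add_sum_erase _ _ (Finset.mem_univ x0)] at hd'
        have hT : (∑ i : Fin ((E x0.1 + 1) / 2), cf (Sum.inr ⟨x0, i⟩) • s x0.1 ^ (2 * (i : ℕ)))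
            * (g x0 ^ 2 * d (s x0.1))
            = -(∑ j, cf (Sum.inl (Sum.inr j)) • (bB j : K) ^ 2
              + ∑ x ∈ Finset.univ.erase x0,
                (∑ i : Fin ((E x.1 + 1) / 2), cf (Sum.inr ⟨x, i⟩) • s x.1 ^ (2 * (i : ℕ)))
                  * (g x ^ 2 * d (s x.1))) := by
          rw [eq_neg_iff_add_eq_zero, ← hd']
          ring
        rw [hT, Valuation.map_neg]
        refine Valuation.map_add_le _ (Valuation.map_sum_le _ fun j _ => ?_)
          (Valuation.map_sum_le _ fun x hx => ?_)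
        · rw [Algebra.smul_def, map_mul, map_pow]
          have hb : w (bB j : K) ≤ 1 :=
            val_le_one_of_mem_L (bB j).2 (by simp [hS x0.1 x0.2])
          calc w (algebraMap k K _) * w (bB j : K) ^ 2 ≤ 1 * 1 ^ 2 :=
                mul_le_mul' (hwk' _) (pow_le_pow_left' hb 2)
            _ = 1 := by simp
        · have hne : x0.1 ≠ x.1 := fun hxx =>
            (Finset.ne_of_mem_erase hx) (Subtype.ext hxx.symm)
          rw [map_mul, map_mul, map_pow]
          have h1 : w (∑ i : Fin ((E x.1 + 1) / 2),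
              cf (Sum.inr ⟨x, i⟩) • s x.1 ^ (2 * (i : ℕ))) ≤ 1 := by
            refine Valuation.map_sum_le _ fun i _ => ?_
            rw [Algebra.smul_def, map_mul, map_pow]
            have hsx : w (s x.1) ≤ 1 :=
              val_le_one_of_mem_L (hsR x.1 x.2) (by simp [hS x0.1 x0.2])
            calc w (algebraMap k K _) * w (s x.1) ^ (2 * (i : ℕ)) ≤ 1 * 1 ^ (2 * (i : ℕ)) :=
                  mul_le_mul' (hwk' _) (pow_le_pow_left' hsx _)
              _ = 1 := by simp
          calc _ ≤ 1 * 1 := mul_le_mul' h1 (hg2 x x0.1 x0.2 hne)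
            _ = 1 := by simp
    simp only [hγ, zero_smul, Finset.sum_const_zero, zero_mul, add_zero] at hd' hsum
    have hβ := eq_zero_of_sum_smul_sq_eq_zero hk hbBli _ hd'
    simp only [hβ, zero_smul, Finset.sum_const_zero, add_zero] at hsum
    have hα := eq_zero_of_sum_smul_sq_eq_zero hk hbAli _ hsum
    rintro ((i | j) | ⟨x, i⟩)
    · exact hα i
    · exact hβ j
    · exact hγ x i
  -- the count
  let F' : _ → ↥(riemannRochSpace ((2 * m + 1) • Dinf)) := fun i => ⟨F i, hFV i⟩
  have hF'li : LinearIndependent k F' :=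
    LinearIndependent.of_comp (riemannRochSpace ((2 * m + 1) • Dinf)).subtype hFli
  have hcard := hF'li.fintype_card_le_finrank
  rw [Fintype.card_sum, Fintype.card_sum, Fintype.card_sigma, Fintype.card_fin,
    Fintype.card_fin] at hcard
  simp only [Fintype.card_fin] at hcard
  rw [Finset.sum_coe_sort S (fun x => (E x + 1) / 2)] at hcard
  have eV := hc _ hmc
  have iA := h.riemann_inequality (m • Dinf + H)
  have iB := h.riemann_inequality (m • Dinf)
  rw [map_nsmul, nsmul_eq_mul, ← hdD] at eV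
  rw [map_add, map_nsmul, nsmul_eq_mul, ← hdD] at iA
  rw [map_nsmul, nsmul_eq_mul, ← hdD] at iB
  have hcard' : (ell (m • Dinf + H) : ℤ) + ell (m • Dinf)
      + ∑ x ∈ S, (((E x + 1) / 2 : ℕ) : ℤ) ≤ ell ((2 * m + 1) • Dinf) := by
    unfold ell
    exact_mod_cast hcard
  push_cast at eV
  nlinarith

omit [CharP K 2] in
/-- Uniformisers regular outside `Dinf` exist at every place outside the support of `Dinf`. -/
theorem exists_uniformizer_regular (Dinf : Divisor k K) (hDpos : 0 < Divisor.degree Dinf)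
    (x : Place k K) (hx : Dinf x = 0) :
    ∃ (n : ℕ) (t : K), t ∈ riemannRochSpace (n • Dinf) ∧ x.adicValuation t = exp (-1 : ℤ) ∧
      x.ord t = 1 := by
  obtain ⟨c, hc⟩ := exists_mem_not_mem h
  set n : ℕ := (c + 2 * x.deg).toNat with hn
  set B : Divisor k K := n • Dinf - Finsupp.single x 2 with hB
  have hdegB : c ≤ Divisor.degree B := by
    rw [hB, map_sub, map_nsmul, Divisor.degree_single, nsmul_eq_mul]
    have h1 := Int.self_le_toNat (c + 2 * x.deg)
    have h2 : ((n : ℕ) : ℤ) ≤ n * Divisor.degree Dinf := by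
      nlinarith [Int.natCast_nonneg n]
    rw [← hn] at h1
    linarith
  obtain ⟨t, ht, ht'⟩ := hc B x hdegB
  have hval : x.adicValuation t = exp (-1 : ℤ) := by
    rw [val_eq_of_mem_not_mem ht ht', hB]
    simp [hx]
  refine ⟨n, t, ?_, hval, ?_⟩
  · refine riemannRochSpace_mono ?_ ht
    have hBadd : addP B x = n • Dinf - Finsupp.single x 1 := by
      have e2 : (Finsupp.single x (2 : ℤ)) = Finsupp.single x 1 + Finsupp.single x 1 := by
        rw [← Finsupp.single_add]; norm_num
      rw [hB]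
      simp only [addP]
      rw [e2]
      abel
    rw [hBadd]
    refine sub_le_self _ ?_
    intro v
    classical
    rw [Finsupp.single_apply]
    split_ifs <;> simp
  · have ht0 : t ≠ 0 := by
      rintro rfl
      rw [map_zero] at hval
      exact exp_ne_zero hval.symm
    rw [x.adicValuation_eq_exp_neg_ord ht0, exp_inj] at hval
    omega

omit [CharP K 2] in
/-- The same for a finite set of places, with a common `n0`. -/
theorem exists_uniformizers_regular (Dinf : Divisor k K) (hD0 : 0 ≤ Dinf)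
    (hDpos : 0 < Divisor.degree Dinf) (S : Finset (Place k K)) (hS : ∀ x ∈ S, Dinf x = 0) :
    ∃ (n0 : ℕ) (s : Place k K → K),
      ∀ x ∈ S, s x ∈ riemannRochSpace (n0 • Dinf) ∧ x.ord (s x) = 1 := by
  classical
  have hex : ∀ x : ↥S, ∃ (n : ℕ) (t : K), t ∈ riemannRochSpace (n • Dinf) ∧
      x.1.adicValuation t = exp (-1 : ℤ) ∧ x.1.ord t = 1 :=
    fun x => exists_uniformizer_regular h Dinf hDpos x.1 (hS x.1 x.2)
  choose n t ht _ ht1 using hex
  refine ⟨(Finset.univ : Finset ↥S).sup n,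
    fun x => if hx : x ∈ S then t ⟨x, hx⟩ else 0, fun x hx => ?_⟩
  simp only [dif_pos hx]
  refine ⟨riemannRochSpace_mono (nsmul_le_nsmul_left hD0 ?_) (ht ⟨x, hx⟩), ht1 ⟨x, hx⟩⟩
  exact Finset.le_sup (f := n) (Finset.mem_univ (⟨x, hx⟩ : ↥S))

/-- `theta`-form of the count: `theta J = J`, `e x = ord_x J`, `ord_x (theta (s x)) ≤ -eps x`. -/
theorem count_le_theta (hk : ∀ c : k, ∃ e : k, e ^ 2 = c)
    (J : K) (θ : Derivation k K K) (hθ : θ J = J) (hJ0 : J ≠ 0)
    (Dinf H : Divisor k K) (hD0 : 0 ≤ Dinf) (hDpos : 0 < Divisor.degree Dinf)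
    (hJ : J ∈ riemannRochSpace Dinf) (hH : 2 • H ≤ Dinf)
    (S : Finset (Place k K)) (hS : ∀ x ∈ S, Dinf x = 0)
    (s : Place k K → K) (n0 : ℕ)
    (hsR : ∀ x ∈ S, s x ∈ riemannRochSpace (n0 • Dinf))
    (hs1 : ∀ x ∈ S, x.ord (s x) = 1)
    (e ε : Place k K → ℕ) (he : ∀ x ∈ S, x.ord J = e x)
    (hε : ∀ x ∈ S, 0 < e x + ε x → θ (s x) ≠ 0 ∧ x.ord (θ (s x)) ≤ -(ε x : ℤ)) :
    (∑ x ∈ S, (((e x + ε x + 1) / 2 : ℕ) : ℤ)) + 1
      ≤ Divisor.degree Dinf - Divisor.degree H + h.gR := by
  have hd : (J⁻¹ • θ) J = 1 := by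
    rw [Derivation.smul_apply, hθ, smul_eq_mul, inv_mul_cancel₀ hJ0]
  refine count_le h hk J (J⁻¹ • θ) hd Dinf H hD0 hDpos hJ hH S hS s n0 hsR ?_
    (fun x => e x + ε x) ?_
  · intro x hx
    have hs0 : s x ≠ 0 := by
      intro h0
      have := hs1 x hx
      rw [h0, Place.ord_zero] at this
      omega
    rw [x.adicValuation_eq_exp_neg_ord hs0, hs1 x hx]
  · intro x hx hpos
    obtain ⟨hne, hord⟩ := hε x hx hpos
    have hne' : J⁻¹ * θ (s x) ≠ 0 := mul_ne_zero (inv_ne_zero hJ0) hne
    rw [Derivation.smul_apply, smul_eq_mul, x.adicValuation_eq_exp_neg_ord hne', exp_le_exp,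
      x.ord_mul (inv_ne_zero hJ0) hne, x.ord_inv, he x hx]
    push_cast
    omega

/-- Final form: if moreover all `e x`, `eps x` are even, `∑ e x = deg Dinf` and
`2 deg H + 2 = deg Dinf`, then `∑ eps x ≤ 2 g`. -/
theorem sum_eps_le (hk : ∀ c : k, ∃ e : k, e ^ 2 = c)
    (J : K) (θ : Derivation k K K) (hθ : θ J = J) (hJ0 : J ≠ 0)
    (Dinf H : Divisor k K) (hD0 : 0 ≤ Dinf) (hDpos : 0 < Divisor.degree Dinf)
    (hJ : J ∈ riemannRochSpace Dinf) (hH : 2 • H ≤ Dinf)
    (S : Finset (Place k K)) (hS : ∀ x ∈ S, Dinf x = 0)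
    (s : Place k K → K) (n0 : ℕ)
    (hsR : ∀ x ∈ S, s x ∈ riemannRochSpace (n0 • Dinf))
    (hs1 : ∀ x ∈ S, x.ord (s x) = 1)
    (e ε : Place k K → ℕ) (he : ∀ x ∈ S, x.ord J = e x)
    (hε : ∀ x ∈ S, 0 < e x + ε x → θ (s x) ≠ 0 ∧ x.ord (θ (s x)) ≤ -(ε x : ℤ))
    (heven : ∀ x ∈ S, Even (e x) ∧ Even (ε x))
    (hsum : ∑ x ∈ S, (e x : ℤ) = Divisor.degree Dinf)
    (hHdeg : 2 * Divisor.degree H + 2 = Divisor.degree Dinf) :
    ∑ x ∈ S, (ε x : ℤ) ≤ 2 * h.gR := by
  have key := count_le_theta h hk J θ hθ hJ0 Dinf H hD0 hDpos hJ hH S hS s n0 hsR hs1 e ε he hε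
  have h2 : 2 * ∑ x ∈ S, (((e x + ε x + 1) / 2 : ℕ) : ℤ)
      = ∑ x ∈ S, (e x : ℤ) + ∑ x ∈ S, (ε x : ℤ) := by
    rw [Finset.mul_sum, ← Finset.sum_add_distrib]
    refine Finset.sum_congr rfl fun x hx => ?_
    obtain ⟨⟨a, ha⟩, ⟨b, hb⟩⟩ := heven x hx
    have : (e x + ε x + 1) / 2 = a + b := by omega
    rw [this, ha, hb]
    push_cast
    ring
  linarith

end Main

end Fermat.Agent.S16.H38
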