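/-
S16 (helper39): GEO-e instance, route 2, chart-parametric END THEOREM.

helper70's place over the closed point `μ = 0` of the auxiliary line
(`H70.exists_place_over_point`)  +  the Gauss-model embedding `H39.exists_embedding_of_gaussModel`
⟹  the residue function field `Fk` of ANY Gauss model of `(F1, j1, θ)` embeds into the field `κ`
of the place, compatibly with a ring homomorphism `ρ : A₁[μ, 1/f] → κ` killing `ϖ`
(`ι xb = ρ jY`, constants go to constants), and `ρ μ` is a nonzero non-unit of the valuation ring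
whose value is not a square.  No primality of the special fibre, no saturation, no lifting.
-/
import Fermat.Agent.S16.H70_AuxLinePlace
import Fermat.Agent.S16.H39_GaussEmbed

set_option autoImplicit false
set_option linter.unusedSectionVars false
set_option linter.style.haveILetI false

namespace Fermat.Agent.S16.H39

open Polynomial IntermediateField AlgebraicCurve Fermat.Agent.S18

section Main

universe u v

variable {A₁ : Type*} {L1 : Type u} {F1 : Type*} {F' : Type v}
  [CommRing A₁] [IsDomain A₁] [IsDiscreteValuationRing A₁]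
  [Field L1] [Algebra A₁ L1] [IsFractionRing A₁ L1] [CharZero L1]
  [Field F1] [Algebra L1 F1] [Algebra A₁ F1] [IsScalarTower A₁ L1 F1]
  [Field F'] [Algebra F1 F'] [Algebra L1 F'] [IsScalarTower L1 F1 F'] [Algebra A₁ F']
  [IsScalarTower A₁ L1 F']

set_option maxHeartbeats 1600000 in
set_option synthInstance.maxHeartbeats 400000 in
/-- **Route 2, chart-parametric end theorem.** -/
theorem exists_cover_of_auxLine
    {ϖ : A₁} (hϖ : Irreducible ϖ)
    {k : Type} [Field k] (res : A₁ →+* k) (hres : Function.Surjective res)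
    (hker : RingHom.ker res = Ideal.span {ϖ})
    (j1 θ : F1) (hgen : L1⟮j1⟯⟮θ⟯ = ⊤)
    [FiniteDimensional L1⟮j1⟯ F1]
    (μ : F') (hμ : Transcendental L1 μ) (hμtop : F1⟮μ⟯ = ⊤) [FiniteDimensional L1⟮μ⟯ F']
    (f : A₁[X]) (hf : f.map res ≠ 0) (hfμ : IsUnit (aeval μ f))
    [IsDomain (H26.LineRing f)] (hμA : Transcendental A₁ μ)
    (jY : H26.LineRing f) (hjY : H26.LineRing.liftAlg f μ hfμ jY = algebraMap F1 F' j1)
    (Φ : (H26.LineRing f)[X]) (hΦ : Φ.Monic)
    (hroot : Φ.eval₂ (H26.LineRing.liftAlg f μ hfμ).toRingHom (algebraMap F1 F' θ) = 0)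
    (hsep : (Φ.map (H26.LineRing.toRatFunc f res hf)).Separable)
    (hunr : ∀ (v : Place L1 F') (g₀ : L1[X]), Irreducible g₀ →
      ¬ g₀ ∣ f.map (algebraMap A₁ L1) → 0 < v.ord (aeval μ g₀) → v.ord (aeval μ g₀) = 1)
    (hf0 : res (f.eval 0) ≠ 0)
    (htr : Transcendental k (H26.LineRing.toRatFunc f res hf jY))
    {Fk : Type*} [Field Fk] [Algebra k Fk] {xb θb : Fk}
    (M : H3.GaussModel ϖ res j1 θ xb θb)
    (hgenk : ∀ γ : Fk, ∃ s : k[X], aeval xb s ≠ 0 ∧ ∃ g : k[X][X],
      aeval xb s * γ = g.eval₂ ((aeval xb : k[X] →ₐ[k] Fk) : k[X] →+* Fk) θb) :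
    ∃ (κ : Type v) (_ : Field κ) (ι : Fk →+* κ) (ρ : H26.LineRing f →+* κ)
      (O : ValuationSubring κ),
      ρ (algebraMap A₁ (H26.LineRing f) ϖ) = 0 ∧ ι xb = ρ jY ∧
      (∀ c : A₁, ι (algebraMap k Fk (res c)) = ρ (algebraMap A₁ (H26.LineRing f) c)) ∧
      (∀ r, ρ r ∈ O) ∧ ρ (H26.LineRing.coord f) ≠ 0 ∧
      O.valuation (ρ (H26.LineRing.coord f)) < 1 ∧
      ∀ γ : O.ValueGroup, γ ^ 2 ≠ O.valuation (ρ (H26.LineRing.coord f)) := by
  classical
  have hconds := H70.auxLineConds hϖ res hker j1 θ hgen μ hμ hμtop f hf hfμ hμA jY hjY Φ hΦ hroot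
    hsep hunr
  unfold H70.AuxLineConds at hconds
  have hplace := H70.exists_place_over_point hϖ res hres hker j1 θ hgen μ hμ hμtop f hf hfμ hμA
    jY hjY Φ hΦ hroot hsep hunr 0 hf0
  have hϖ0 : ϖ ≠ 0 := hϖ.ne_zero
  have hfne : f ≠ 0 := H26.LineRing.ne_zero_of_map_ne_zero f res hf
  letI algR'F' : Algebra (H26.LineRing f) F' := H26.LineRing.algebraOfCoord f μ hfμ
  have htR' : IsScalarTower A₁ (H26.LineRing f) F' :=
    H26.LineRing.isScalarTower_algebraOfCoord f μ hfμ
  haveI hfaith : FaithfulSMul (H26.LineRing f) F' :=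
    H26.LineRing.faithfulSMul_algebraOfCoord f μ hfμ hμA
  letI algK'F' : Algebra (FractionRing (H26.LineRing f)) F' := FractionRing.liftAlgebra _ _
  haveI htK' : IsScalarTower (H26.LineRing f) (FractionRing (H26.LineRing f)) F' :=
    FractionRing.isScalarTower_liftAlgebra _ _
  obtain ⟨hfin, -, -⟩ := hconds
  haveI := hfin
  haveI : IsNoetherianRing (H26.LineRing f) := H79.Away.isNoetherianRing f
  haveI : IsIntegrallyClosed (H26.LineRing f) := H79.Away.isIntegrallyClosed res f hf
  haveI hczR' : CharZero (H26.LineRing f) := by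
    have hcz : CharZero A₁ := by
      refine ⟨fun a b hab => ?_⟩
      have : ((a : ℕ) : L1) = ((b : ℕ) : L1) := by
        rw [← map_natCast (algebraMap A₁ L1), ← map_natCast (algebraMap A₁ L1), hab]
      exact Nat.cast_injective this
    exact charZero_of_injective_algebraMap (H26.LineRing.algebraMap_injective f hfne)
  haveI hczK' : CharZero (FractionRing (H26.LineRing f)) :=
    charZero_of_injective_algebraMap
      (IsFractionRing.injective (H26.LineRing f) (FractionRing (H26.LineRing f)))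
  haveI hsep' : Algebra.IsSeparable (FractionRing (H26.LineRing f)) F' := inferInstance
  have hπ : Prime (algebraMap A₁ (H26.LineRing f) ϖ) :=
    H26.LineRing.prime_algebraMap f res hker hϖ0 hf
  haveI hPID : IsPrincipalIdealRing
      (H26.LineRing f ⧸ Ideal.span {algebraMap A₁ (H26.LineRing f) ϖ}) :=
    H26.LineRing.isPrincipalIdealRing_quotient f res hres hker hf
  obtain ⟨κ, instκ, φ, O, hφπ, hfrac, hO, hOtop, ht0, htlt, hnsq, -⟩ := hplace
  rw [map_zero, sub_zero] at ht0 htlt
  simp only [map_zero, sub_zero] at hnsq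
  -- `ρ : R' → B' → κ` and its kernel
  set alg : H26.LineRing f →+* integralClosure (H26.LineRing f) F' :=
    algebraMap (H26.LineRing f) (integralClosure (H26.LineRing f) F') with halg
  have hkerρ : RingHom.ker (φ.comp alg) = Ideal.span {algebraMap A₁ (H26.LineRing f) ϖ} :=
    S16.H41.ker_comp_algebraMap_eq_span (FractionRing (H26.LineRing f)) F' hπ φ hφπ hfrac O hO
      hOtop
  -- `A₁ → F1 → F'` tower
  have htAF : ∀ a : A₁, algebraMap F1 F' (algebraMap A₁ F1 a) = algebraMap A₁ F' a := by
    intro a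
    rw [IsScalarTower.algebraMap_apply A₁ L1 F', IsScalarTower.algebraMap_apply L1 F1 F',
      ← IsScalarTower.algebraMap_apply A₁ L1 F1]
  -- the bivariate evaluation into `B'`
  set base : A₁[X] →+* integralClosure (H26.LineRing f) F' :=
    alg.comp ((aeval jY : A₁[X] →ₐ[A₁] H26.LineRing f) : A₁[X] →+* H26.LineRing f) with hbase
  have hθint : IsIntegral (H26.LineRing f) (algebraMap F1 F' θ) := ⟨Φ, hΦ, hroot⟩
  set θ' : integralClosure (H26.LineRing f) F' := ⟨algebraMap F1 F' θ, hθint⟩ with hθ'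
  set e2 : A₁[X][X] →+* integralClosure (H26.LineRing f) F' :=
    Polynomial.eval₂RingHom base θ' with he2
  have hbase_coe : ((integralClosure (H26.LineRing f) F').val.toRingHom.comp base) =
      (algebraMap F1 F').comp ((aeval j1 : A₁[X] →ₐ[A₁] F1) : A₁[X] →+* F1) := by
    apply Polynomial.ringHom_ext
    · intro a
      show algebraMap (H26.LineRing f) F' (aeval jY (C a)) = algebraMap F1 F' (aeval j1 (C a))
      rw [aeval_C, aeval_C, htAF, ← IsScalarTower.algebraMap_apply A₁ (H26.LineRing f) F']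
    · show algebraMap (H26.LineRing f) F' (aeval jY X) = algebraMap F1 F' (aeval j1 X)
      rw [aeval_X, aeval_X]
      exact hjY
  have he2_coe : ∀ g : A₁[X][X],
      ((e2 g : integralClosure (H26.LineRing f) F') : F') = algebraMap F1 F' (H3.eval2 j1 θ g) := by
    intro g
    have h1 : ((e2 g : integralClosure (H26.LineRing f) F') : F') =
        (integralClosure (H26.LineRing f) F').val.toRingHom (g.eval₂ base θ') := rfl
    rw [h1, Polynomial.hom_eval₂, hbase_coe]
    unfold H3.eval2
    rw [Polynomial.hom_eval₂]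
    rfl
  set ψ : A₁[X][X] →+* κ := φ.comp e2 with hψ
  have hψC : ∀ s : A₁[X], ψ (C s) = φ (alg (aeval jY s)) := by
    intro s
    show φ (Polynomial.eval₂ base θ' (C s)) = _
    rw [eval₂_C]
    rfl
  -- the three hypotheses of (B)
  have h1 : ∀ s : A₁[X], s.map res ≠ 0 → ψ (C s) ≠ 0 := by
    intro s hs h0
    apply hs
    rw [hψC] at h0
    have hmem : aeval jY s ∈ RingHom.ker (φ.comp alg) := h0
    rw [hkerρ, ← H26.LineRing.ker_toRatFunc f res hker hf, RingHom.mem_ker] at hmem
    have hcomp : (H26.LineRing.toRatFunc f res hf).comp (algebraMap A₁ (H26.LineRing f)) =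
        (algebraMap k (RatFunc k)).comp res := by
      ext a
      exact H26.LineRing.toRatFunc_algebraMap f res hf a
    have h2 : aeval (H26.LineRing.toRatFunc f res hf jY) (s.map res) = 0 := by
      rw [aeval_def, eval₂_map, ← hcomp, ← Polynomial.hom_eval₂, ← aeval_def]
      exact hmem
    exact (transcendental_iff.1 htr) _ h2
  have h2 : ∀ g : A₁[X][X], H3.eval2 j1 θ g = 0 → ψ g = 0 := by
    intro g hg
    have : e2 g = 0 := by
      apply Subtype.ext
      rw [he2_coe, hg, map_zero]
      rfl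
    show φ (e2 g) = 0
    rw [this, map_zero]
  have h3 : ψ (C (C ϖ)) = 0 := by
    rw [hψC, aeval_C]
    exact hφπ
  obtain ⟨ι, hι⟩ := exists_embedding_of_gaussModel M hres hgenk ψ h1 h2 h3
  refine ⟨κ, instκ, ι, φ.comp alg, O, hφπ, ?_, ?_, fun r => hO _, ht0, htlt, hnsq⟩
  · -- `ι xb = ρ jY`
    have := hι (C X)
    rw [eval2b_C, Polynomial.map_X, aeval_X, hψC, aeval_X] at this
    exact this
  · intro c
    have := hι (C (C c))
    rw [eval2b_C, Polynomial.map_C, aeval_C, hψC, aeval_C] at this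
    exact this

end Main

end Fermat.Agent.S16.H39
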