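/-
S16 (Eisenstein ideal index), frozen-statement plumbing.

`T := heckeLatticeAlgebra p ∅`, `ψ : HeckeAlg →+* T` the frozen map, `ev : HeckeAlg → ℤ` the
evaluation at the Eisenstein system.  The frozen quotient `T ⧸ map ψ (eisensteinIdeal p)` is
`ℤ ⧸ ev (ker ψ)`; hence S16 follows from

* (lower)  `ψ t = 0 → (n : ℤ) ∣ ev t`   for all `t`,
* (upper)  `∃ t, ψ t = 0 ∧ ev t = n`.
-/
import Fermat.Statements.S16

set_option autoImplicit false

open ModularCurve CuspForm

namespace Fermat.Agent.S16.H39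

noncomputable section

/-- The frozen map `HeckeAlg →+* heckeLatticeAlgebra p ∅`. -/
def psi (p : ℕ) [NeZero p] : HeckeAlg →+* ↥(heckeLatticeAlgebra p ∅) :=
  (latticeRestrictHom p ∅).toRingHom.comp (heckeEvalForms p 2)

/-- Evaluation at the Eisenstein system. -/
def ev (p : ℕ) : HeckeAlg →+* ℤ :=
  (MvPolynomial.aeval (R := ℤ) (eisensteinSystem p)).toRingHom

theorem ev_apply (p : ℕ) (t : HeckeAlg) :
    ev p t = MvPolynomial.aeval (R := ℤ) (eisensteinSystem p) t := rfl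

theorem mem_eisensteinIdeal_iff (p : ℕ) (t : HeckeAlg) :
    t ∈ eisensteinIdeal p ↔ ev p t = 0 :=
  mem_eigenIdeal_iff _ _

theorem ev_C (p : ℕ) (c : ℤ) : ev p (MvPolynomial.C c) = c := by
  rw [ev_apply, MvPolynomial.aeval_C]; rfl

theorem ev_heckeGen (p : ℕ) (ℓ : Nat.Primes) : ev p (heckeGen ℓ) = eisensteinSystem p ℓ := by
  rw [ev_apply, aeval_heckeGen]

/-- `heckeEvalForms` is surjective: the Hecke algebra is generated by the `T_ℓ`, `U_q`. -/
theorem heckeEvalForms_surjective (N : ℕ) [NeZero N] (k : ℤ) :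
    Function.Surjective (heckeEvalForms N k) := by
  intro t
  obtain ⟨t, ht⟩ := t
  have key : heckeAlgebra N k ∅ ≤
      ((MvPolynomial.aeval (heckeFormsGen N k)).range.map (heckeAlgebra N k ∅).val) := by
    refine Algebra.adjoin_le ?_
    rintro T (⟨ℓ, hℓ, hℓN, hℓS, rfl⟩ | ⟨q, hqN, hq, hqS, rfl⟩)
    · refine ⟨heckeFormsGen N k ⟨ℓ, hℓ⟩,
        ⟨MvPolynomial.X ⟨ℓ, hℓ⟩, MvPolynomial.aeval_X _ _⟩, ?_⟩
      rw [heckeFormsGen_of_not_dvd (show ¬ ((⟨ℓ, hℓ⟩ : Nat.Primes) : ℕ) ∣ N from hℓN)]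
      rfl
    · refine ⟨heckeFormsGen N k ⟨q, hq⟩,
        ⟨MvPolynomial.X ⟨q, hq⟩, MvPolynomial.aeval_X _ _⟩, ?_⟩
      rw [heckeFormsGen_of_dvd (show ((⟨q, hq⟩ : Nat.Primes) : ℕ) ∣ N from hqN)]
      rfl
  obtain ⟨s, ⟨r, hr⟩, hs⟩ := key ht
  refine ⟨r, ?_⟩
  apply Subtype.ext
  change ((MvPolynomial.aeval (heckeFormsGen N k)) r : Module.End ℂ _) = t
  have hr' : (MvPolynomial.aeval (heckeFormsGen N k)) r = s := hr
  rw [hr']
  exact hs

theorem psi_surjective (p : ℕ) [NeZero p] : Function.Surjective (psi p) := by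
  intro t
  obtain ⟨s, hs⟩ := latticeRestrictHom_surjective p ∅ t
  obtain ⟨r, hr⟩ := heckeEvalForms_surjective p 2 s
  exact ⟨r, by simp [psi, hr, hs]⟩

/-- **Reduction of the frozen S16** to the two inclusions `ev (ker ψ) = n ℤ`. -/
theorem natCard_quotient_eq (p : ℕ) [NeZero p] (n : ℕ) (hn : 0 < n)
    (hlow : ∀ t : HeckeAlg, psi p t = 0 → (n : ℤ) ∣ ev p t)
    (hup : ∃ t : HeckeAlg, psi p t = 0 ∧ ev p t = n) :
    Nat.card (↥(heckeLatticeAlgebra p ∅) ⧸
        Ideal.map ((latticeRestrictHom p ∅).toRingHom.comp (heckeEvalForms p 2))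
          (eisensteinIdeal p)) = n := by
  classical
  have : NeZero n := ⟨hn.ne'⟩
  -- the map `HeckeAlg → ZMod n`
  let χ : HeckeAlg →+* ZMod n := (Int.castRingHom (ZMod n)).comp (ev p)
  have hχ : ∀ t, psi p t = 0 → χ t = 0 := by
    intro t ht
    change ((ev p t : ℤ) : ZMod n) = 0
    exact (ZMod.intCast_zmod_eq_zero_iff_dvd _ _).mpr (hlow t ht)
  have hker : RingHom.ker (psi p) ≤ RingHom.ker χ := fun t ht => hχ t ht
  -- descend to `T`
  let φ : ↥(heckeLatticeAlgebra p ∅) →+* ZMod n :=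
    RingHom.liftOfSurjective (psi p) (psi_surjective p) ⟨χ, hker⟩
  have hφ : ∀ t, φ (psi p t) = χ t := fun t =>
    RingHom.liftOfRightInverse_comp_apply _ _ _ ⟨χ, hker⟩ t
  have hφsurj : Function.Surjective φ := by
    intro z
    obtain ⟨c, rfl⟩ := ZMod.intCast_surjective z
    refine ⟨psi p (MvPolynomial.C c), ?_⟩
    rw [hφ]
    change ((ev p (MvPolynomial.C c) : ℤ) : ZMod n) = c
    rw [ev_C]
  have hφker : RingHom.ker φ =
      Ideal.map ((latticeRestrictHom p ∅).toRingHom.comp (heckeEvalForms p 2))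
        (eisensteinIdeal p) := by
    apply le_antisymm
    · intro x hx
      obtain ⟨t, rfl⟩ := psi_surjective p x
      rw [RingHom.mem_ker, hφ] at hx
      have hdvd : (n : ℤ) ∣ ev p t := (ZMod.intCast_zmod_eq_zero_iff_dvd _ _).mp hx
      obtain ⟨c, hc⟩ := hdvd
      obtain ⟨t0, ht0, hev0⟩ := hup
      have hmem : t - MvPolynomial.C c * t0 ∈ eisensteinIdeal p := by
        rw [mem_eisensteinIdeal_iff, map_sub, map_mul, ev_C, hev0, hc]
        ring
      have : psi p t = psi p (t - MvPolynomial.C c * t0) := by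
        rw [map_sub, map_mul, ht0, mul_zero, sub_zero]
      rw [this]
      exact Ideal.mem_map_of_mem _ hmem
    · rw [Ideal.map_le_iff_le_comap]
      intro t ht
      rw [Ideal.mem_comap, RingHom.mem_ker]
      change φ (psi p t) = 0
      rw [hφ]
      change ((ev p t : ℤ) : ZMod n) = 0
      rw [(mem_eisensteinIdeal_iff p t).mp ht]
      simp
  rw [← hφker]
  rw [Nat.card_congr (RingHom.quotientKerEquivOfSurjective hφsurj).toEquiv]
  simp [Nat.card_eq_fintype_card, ZMod.card]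

theorem eisensteinNumerator_pos (p : ℕ) (hp : p.Prime) : 0 < eisensteinNumerator p := by
  unfold eisensteinNumerator
  have h1 : 0 < p - 1 := Nat.sub_pos_of_lt hp.one_lt
  exact Nat.div_pos (Nat.le_of_dvd h1 (Nat.gcd_dvd_left _ _)) (Nat.gcd_pos_of_pos_left _ h1)

/-- The frozen S16 from the lower and the upper bound. -/
theorem frozen_of_bounds (p : ℕ) [hp : Fact p.Prime]
    (hlow : ∀ t : HeckeAlg, (haveI : NeZero p := ⟨hp.out.ne_zero⟩; psi p t) = 0 →
      (eisensteinNumerator p : ℤ) ∣ ev p t)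
    (hup : ∃ t : HeckeAlg, (haveI : NeZero p := ⟨hp.out.ne_zero⟩; psi p t) = 0 ∧
      ev p t = eisensteinNumerator p) :
    Nat.card (↥(heckeLatticeAlgebra p ∅) ⧸
        Ideal.map ((latticeRestrictHom p ∅).toRingHom.comp (heckeEvalForms p 2))
          (eisensteinIdeal p)) = eisensteinNumerator p :=
  natCard_quotient_eq p _ (eisensteinNumerator_pos p hp.out) hlow hup

end

end Fermat.Agent.S16.H39
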