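/-
S16 project, package GEO-e (helper41), chart step: in the chart-parametric setting of helper96's
`H96.isIntegrallyClosed_specialFibre_of_auxLine` (S18 route Q: `A₁` a DVR with uniformiser `ϖ`,
`F1 = L1(j1, θ)`, `F' = F1(μ)`, auxiliary line `R' = A₁[μ, 1/f(μ)] = H26.LineRing f`, (VERT) and (HOR)
in their concrete forms), every closed point `μ = a` of the special fibre of the line carries a
place of the special fibre of the normalisation of the line in `F'` at which `μ - a` is a
uniformiser.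

Output (`exists_place_of_auxLine`): a field `κ`, a ring homomorphism `φ` from the integral closure
of `A₁[j1]` in `F'` to `κ` and a valuation subring `O ≠ ⊤` of `κ` containing the image of `φ`, such
that the kernel of `φ` on the line is `(ϖ)`, `κ = Frac (im φ)`, and `v (φ (μ - a))` is the largest
value `< 1` and generates the value group.
-/
import Fermat.Agent.S16.H41_GeoE
import Fermat.Agent.S18.H96_AuxChartDed

set_option autoImplicit false
set_option linter.unusedSectionVars false
set_option linter.style.haveILetI false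

namespace Fermat.Agent.S16.H41

open Polynomial IntermediateField AlgebraicCurve Fermat.Agent.S18

section Centre

/-- If the centre of a valuation subring `O` on `R` (through `ψ : R → κ` with image in `O`)
contains a maximal ideal `p`, it is equal to `p`. -/
theorem mem_of_valuation_lt_one_of_isMaximal {R κ : Type*} [CommRing R] [Field κ]
    (ψ : R →+* κ) (O : ValuationSubring κ) (hO : ∀ r : R, ψ r ∈ O)
    (p : Ideal R) (hp : p.IsMaximal) (hlt : ∀ r ∈ p, O.valuation (ψ r) < 1)
    (r : R) (hr : O.valuation (ψ r) < 1) : r ∈ p := by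
  let ψO : R →+* O := ψ.codRestrict O.toSubring hO
  set q : Ideal R := (IsLocalRing.maximalIdeal O).comap ψO with hq
  have hmem : ∀ r : R, r ∈ q ↔ O.valuation (ψ r) < 1 := by
    intro r
    rw [hq, Ideal.mem_comap]
    exact ValuationSubring.valuation_lt_one_iff O (ψO r)
  have hpq : p ≤ q := fun r hr => (hmem r).2 (hlt r hr)
  have hq1 : q ≠ ⊤ := by
    intro h
    have : (1 : R) ∈ q := h ▸ Submodule.mem_top
    rw [hmem, map_one, map_one] at this
    exact lt_irrefl _ this
  rw [hp.eq_of_le hq1 hpq]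
  exact (hmem r).2 hr

end Centre

section Chart

universe u v

variable {A₁ : Type*} {L1 : Type u} {F1 : Type*} {F' : Type v}
  [CommRing A₁] [IsDomain A₁] [IsDiscreteValuationRing A₁]
  [Field L1] [Algebra A₁ L1] [IsFractionRing A₁ L1] [CharZero L1]
  [Field F1] [Algebra L1 F1] [Algebra A₁ F1] [IsScalarTower A₁ L1 F1]
  [Field F'] [Algebra F1 F'] [Algebra L1 F'] [IsScalarTower L1 F1 F'] [Algebra A₁ F']
  [IsScalarTower A₁ L1 F']

set_option maxHeartbeats 1600000 in
set_option synthInstance.maxHeartbeats 400000 in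
/-- **GEO-e, one auxiliary-line chart (chart-parametric).**  Same binders as helper96's
`H96.isIntegrallyClosed_specialFibre_of_auxLine'` (without `IsGalois` and `hprime`), plus a closed
point `μ = a` of the special fibre of the line (`f̄(ā) ≠ 0`). -/
theorem exists_place_of_auxLine
    {ϖ : A₁} (hϖ : Irreducible ϖ)
    {k : Type} [Field k] [IsAlgClosed k] (res : A₁ →+* k) (hres : Function.Surjective res)
    (hker : RingHom.ker res = Ideal.span {ϖ})
    (j1 θ : F1) (hj1 : Transcendental L1 j1) (hgen : L1⟮j1⟯⟮θ⟯ = ⊤)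
    [FiniteDimensional L1⟮j1⟯ F1] [FiniteDimensional F1 F']
    (μ : F') (hμ : Transcendental L1 μ) (hμtop : F1⟮μ⟯ = ⊤) [FiniteDimensional L1⟮μ⟯ F']
    (f : A₁[X]) (hf : f.map res ≠ 0) (hfμ : IsUnit (aeval μ f))
    (jY : H26.LineRing f) (hjY : H26.LineRing.liftAlg f μ hfμ jY = algebraMap F1 F' j1)
    (hintμ : IsIntegral (Algebra.adjoin A₁ {algebraMap F1 F' j1}) μ)
    (hintw : IsIntegral (Algebra.adjoin A₁ {algebraMap F1 F' j1})
      (H26.LineRing.liftAlg f μ hfμ (H26.LineRing.inv f)))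
    (Φ : (H26.LineRing f)[X]) (hΦ : Φ.Monic)
    (hroot : Φ.eval₂ (H26.LineRing.liftAlg f μ hfμ).toRingHom (algebraMap F1 F' θ) = 0)
    (hsep : (Φ.map (H26.LineRing.toRatFunc f res hf)).Separable)
    (hunr : ∀ (v : Place L1 F') (g₀ : L1[X]), Irreducible g₀ →
      ¬ g₀ ∣ f.map (algebraMap A₁ L1) → 0 < v.ord (aeval μ g₀) → v.ord (aeval μ g₀) = 1)
    (a : A₁) (hfa : res (f.eval a) ≠ 0) :
    ∃ (κ : Type v) (_ : Field κ)
      (φ : ↥(integralClosure ↥(Algebra.adjoin A₁ {j1}) F') →+* κ) (O : ValuationSubring κ),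
      (∀ (r : H26.LineRing f)
        (h : IsIntegral ↥(Algebra.adjoin A₁ {j1}) (H26.LineRing.liftAlg f μ hfμ r)),
        φ ⟨_, h⟩ = 0 ↔ r ∈ Ideal.span {algebraMap A₁ (H26.LineRing f) ϖ}) ∧
      (∀ z : κ, ∃ x y : ↥(integralClosure ↥(Algebra.adjoin A₁ {j1}) F'),
        φ y ≠ 0 ∧ z * φ y = φ x) ∧
      (∀ x, φ x ∈ O) ∧ O ≠ ⊤ ∧
      ∀ h : IsIntegral ↥(Algebra.adjoin A₁ {j1}) (μ - algebraMap A₁ F' a),
        φ ⟨_, h⟩ ≠ 0 ∧ O.valuation (φ ⟨_, h⟩) < 1 ∧
        (∀ y : κ, O.valuation y < 1 → O.valuation y ≤ O.valuation (φ ⟨_, h⟩)) ∧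
        ∀ y : κ, y ≠ 0 → ∃ m : ℤ, O.valuation y = O.valuation (φ ⟨_, h⟩) ^ m := by
  classical
  have hcz : CharZero A₁ := by
    refine ⟨fun a b hab => ?_⟩
    have : ((a : ℕ) : L1) = ((b : ℕ) : L1) := by
      rw [← map_natCast (algebraMap A₁ L1), ← map_natCast (algebraMap A₁ L1), hab]
    exact Nat.cast_injective this
  have hϖ0 : ϖ ≠ 0 := hϖ.ne_zero
  have hf0 : f ≠ 0 := H26.LineRing.ne_zero_of_map_ne_zero f res hf
  have hDed : IsDedekindDomain (Localization.Away (algebraMap A₁ (H26.LineRing f) ϖ)) :=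
    H96.isDedekindDomain_away_lineRing L1 hϖ f hf0
  have htAF : IsScalarTower A₁ F1 F' := IsScalarTower.of_algebraMap_eq (fun a => by
    rw [IsScalarTower.algebraMap_apply A₁ L1 F', IsScalarTower.algebraMap_apply L1 F1 F',
      ← IsScalarTower.algebraMap_apply A₁ L1 F1])
  have hj1A : Transcendental A₁ j1 := H40.transcendental_of_tower (K := L1) j1 hj1
  have hμA : Transcendental A₁ μ := H40.transcendental_of_tower (K := L1) μ hμ
  -- ## the chart ring `R0 = A₁[j1]`
  let e : A₁[X] ≃ₐ[A₁] Algebra.adjoin A₁ {j1} := Polynomial.algEquivOfTranscendental A₁ j1 hj1A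
  -- ## the auxiliary line `R' = A₁[μ, 1/f(μ)]`, `K' = Frac R'`
  have hR'dom : IsDomain (H26.LineRing f) := H26.LineRing.isDomain f hf0
  letI algR'F' : Algebra (H26.LineRing f) F' := H26.LineRing.algebraOfCoord f μ hfμ
  have htR' : IsScalarTower A₁ (H26.LineRing f) F' :=
    H26.LineRing.isScalarTower_algebraOfCoord f μ hfμ
  have hfaith : FaithfulSMul (H26.LineRing f) F' :=
    H26.LineRing.faithfulSMul_algebraOfCoord f μ hfμ hμA
  have hinjR'F' : Function.Injective (algebraMap (H26.LineRing f) F') :=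
    (faithfulSMul_iff_algebraMap_injective _ _).mp hfaith
  letI algK'F' : Algebra (FractionRing (H26.LineRing f)) F' := FractionRing.liftAlgebra _ _
  have htK' : IsScalarTower (H26.LineRing f) (FractionRing (H26.LineRing f)) F' :=
    FractionRing.isScalarTower_liftAlgebra _ _
  have halgR'F' : ∀ r : H26.LineRing f,
      algebraMap (H26.LineRing f) F' r = H26.LineRing.liftAlg f μ hfμ r := fun _ => rfl
  -- ## `R0 → R'`, `j1 ↦ jY`
  let ψ : Algebra.adjoin A₁ {j1} →ₐ[A₁] H26.LineRing f :=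
    (Polynomial.aeval jY : A₁[X] →ₐ[A₁] H26.LineRing f).comp e.symm.toAlgHom
  letI algR0R' : Algebra (Algebra.adjoin A₁ {j1}) (H26.LineRing f) := ψ.toRingHom.toAlgebra
  have htA01 : IsScalarTower A₁ (Algebra.adjoin A₁ {j1}) (H26.LineRing f) :=
    IsScalarTower.of_algebraMap_eq (fun a => (ψ.commutes a).symm)
  have htR0F1F' : IsScalarTower (Algebra.adjoin A₁ {j1}) F1 F' := inferInstance
  have halgR0F' : ∀ x : Algebra.adjoin A₁ {j1},
      algebraMap (Algebra.adjoin A₁ {j1}) F' x = algebraMap F1 F' (x : F1) := fun _ => rfl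
  have hψ : ∀ x : Algebra.adjoin A₁ {j1},
      algebraMap (H26.LineRing f) F' (ψ x) = algebraMap F1 F' (x : F1) := by
    intro x
    obtain ⟨p, rfl⟩ := e.surjective x
    have h1 : ψ (e p) = Polynomial.aeval jY p := by
      change Polynomial.aeval jY (e.symm (e p)) = _
      rw [AlgEquiv.symm_apply_apply]
    have h2 : ((e p : Algebra.adjoin A₁ {j1}) : F1) = Polynomial.aeval j1 p := by
      change ((Polynomial.aeval (⟨j1, Algebra.self_mem_adjoin_singleton A₁ j1⟩ :
        Algebra.adjoin A₁ {j1}) p : Algebra.adjoin A₁ {j1}) : F1) = _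
      rw [← Subalgebra.coe_val, ← Polynomial.aeval_algHom_apply]
      rfl
    rw [h1, h2, halgR'F', ← Polynomial.aeval_algHom_apply, hjY,
      ← Polynomial.aeval_algebraMap_apply]
  have htR0R'F' : IsScalarTower (Algebra.adjoin A₁ {j1}) (H26.LineRing f) F' :=
    IsScalarTower.of_algebraMap_eq (fun x => by rw [halgR0F']; exact (hψ x).symm)
  -- ## `R'` is integral over `R0`
  have hintR' : Algebra.IsIntegral (Algebra.adjoin A₁ {j1}) (H26.LineRing f) := by
    refine ⟨fun r => ?_⟩
    have h1 : IsIntegral (Algebra.adjoin A₁ {algebraMap F1 F' j1})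
        (H26.LineRing.liftAlg f μ hfμ r) := H26.LineRing.isIntegral_liftAlg f μ hfμ hintμ hintw r
    have h2 : IsIntegral (Algebra.adjoin A₁ {j1}) (algebraMap (H26.LineRing f) F' r) :=
      H96.isIntegral_adjoin_of_isIntegral_adjoin_image j1 halgR0F' h1
    exact (isIntegral_algebraMap_iff hinjR'F').mp h2
  -- ## `F' = K'(θ)`, finite separable
  have hθalg : IsAlgebraic L1⟮j1⟯ θ := Algebra.IsAlgebraic.isAlgebraic θ
  have hinjAK' : Function.Injective ((algebraMap (H26.LineRing f)
      (FractionRing (H26.LineRing f))).comp (algebraMap A₁ (H26.LineRing f))) :=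
    (IsFractionRing.injective (H26.LineRing f) (FractionRing (H26.LineRing f))).comp
      (H26.LineRing.algebraMap_injective f hf0)
  obtain ⟨hgen', hfin'⟩ := H96.adjoin_eq_top_and_finiteDimensional_of_line (A₁ := A₁) (L1 := L1)
    (R' := H26.LineRing f) (K' := FractionRing (H26.LineRing f)) hinjAK' hgen hθalg hμtop
    (H26.LineRing.coord f) jY (H26.LineRing.liftAlg_coord f μ hfμ) hjY
  have hczR' : CharZero (H26.LineRing f) :=
    charZero_of_injective_algebraMap (H26.LineRing.algebraMap_injective f hf0)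
  have hczK' : CharZero (FractionRing (H26.LineRing f)) :=
    charZero_of_injective_algebraMap
      (IsFractionRing.injective (H26.LineRing f) (FractionRing (H26.LineRing f)))
  have hsep' : Algebra.IsSeparable (FractionRing (H26.LineRing f)) F' := inferInstance
  -- ## (VERT)
  have hresϖ : res ϖ = 0 := by
    rw [← RingHom.mem_ker, hker]; exact Ideal.mem_span_singleton_self ϖ
  have hV : H41.VertCond (H26.LineRing f) (FractionRing (H26.LineRing f)) F'
      (algebraMap A₁ (H26.LineRing f) ϖ) := by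
    refine H1.vertCond_of_separable (algebraMap F1 F' θ) hgen' hΦ ?_
      (H26.LineRing.toRatFunc f res hf) hsep ?_
    · rw [Polynomial.aeval_def]; exact hroot
    · rw [H26.LineRing.toRatFunc_algebraMap, hresϖ, map_zero]
  -- ## (HOR)
  have hϖR' : Prime (algebraMap A₁ (H26.LineRing f) ϖ) :=
    H26.LineRing.prime_algebraMap f res hker hϖ0 hf
  have hH : H41.HorCond (H26.LineRing f) (FractionRing (H26.LineRing f)) F'
      (algebraMap A₁ (H26.LineRing f) ϖ) := by
    haveI := hDed
    refine H9.horCond_of_hHOR (algebraMap A₁ (H26.LineRing f) ϖ) hϖR'.ne_zero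
      (Localization.Away (algebraMap A₁ (H26.LineRing f) ϖ))
      (fun n hn => H96.isUnit_natCast_away (R := H26.LineRing f) hϖ _ n hn) ?_
    intro V hV hRV hϖV
    refine H96.exists_uniformizer_of_places (K0 := L1) hϖ μ hμ (f.map (algebraMap A₁ L1)) hunr
      (H26.LineRing.coord f) (H26.LineRing.liftAlg_coord f μ hfμ) ?_ V hV hRV hϖV
    refine ⟨H26.LineRing.inv f, ?_⟩
    rw [Polynomial.aeval_map_algebraMap]
    exact H26.LineRing.liftAlg_inv_mul f μ hfμ
  haveI hPID : IsPrincipalIdealRing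
      (H26.LineRing f ⧸ Ideal.span {algebraMap A₁ (H26.LineRing f) ϖ}) :=
    H26.LineRing.isPrincipalIdealRing_quotient f res hres hker hf
  -- ## the closed point `μ = a`
  set g₀ : H26.LineRing f := H26.LineRing.coord f - algebraMap A₁ (H26.LineRing f) a with hg₀
  have hpmax : (Ideal.span {algebraMap A₁ (H26.LineRing f) ϖ, g₀}).IsMaximal :=
    H26.LineRing.isMaximal_span f res hres hker hfa
  have hπp : algebraMap A₁ (H26.LineRing f) ϖ ∈
      Ideal.span {algebraMap A₁ (H26.LineRing f) ϖ, g₀} :=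
    Ideal.subset_span (Set.mem_insert _ _)
  have hg₀p : g₀ ∈ Ideal.span {algebraMap A₁ (H26.LineRing f) ϖ, g₀} :=
    Ideal.subset_span (Set.mem_insert_of_mem _ rfl)
  have hg₀rat : H26.LineRing.toRatFunc f res hf g₀ ≠ 0 := by
    rw [hg₀, map_sub, H26.LineRing.toRatFunc_coord, H26.LineRing.toRatFunc_algebraMap]
    intro h0
    have h1 : (RatFunc.X : RatFunc k) = RatFunc.C (res a) := sub_eq_zero.mp h0
    have h2 := congrArg RatFunc.num h1
    rw [RatFunc.num_X, RatFunc.num_C] at h2
    have h3 := congrArg Polynomial.natDegree h2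
    rw [natDegree_X, natDegree_C] at h3
    exact one_ne_zero h3
  have hnf : ¬ IsField (H26.LineRing f ⧸ Ideal.span {algebraMap A₁ (H26.LineRing f) ϖ}) := by
    intro hfield
    have hmax : (Ideal.span {algebraMap A₁ (H26.LineRing f) ϖ}).IsMaximal :=
      Ideal.Quotient.maximal_of_isField _ hfield
    have hle : Ideal.span {algebraMap A₁ (H26.LineRing f) ϖ} ≤
        Ideal.span {algebraMap A₁ (H26.LineRing f) ϖ, g₀} := by
      rw [Ideal.span_singleton_le_iff_mem]; exact hπp
    have heq := hmax.eq_of_le hpmax.ne_top hle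
    have : g₀ ∈ Ideal.span {algebraMap A₁ (H26.LineRing f) ϖ} := heq ▸ hg₀p
    rw [← H26.LineRing.ker_toRatFunc f res hker hf, RingHom.mem_ker] at this
    exact hg₀rat this
  -- ## the place
  obtain ⟨κ, hκ, φB, O, hφπ, hfrac, hO, hOtop, hlt⟩ :=
    exists_valuationSubring_over (K := FractionRing (H26.LineRing f)) (L := F')
      (B := integralClosure (H26.LineRing f) F') hϖR' hnf hV hH _ hpmax hπp
  have hcentre : ∀ r : H26.LineRing f,
      O.valuation (φB (algebraMap (H26.LineRing f) (integralClosure (H26.LineRing f) F') r)) < 1 →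
        r ∈ Ideal.span {algebraMap A₁ (H26.LineRing f) ϖ, g₀} :=
    mem_of_valuation_lt_one_of_isMaximal
      (φB.comp (algebraMap (H26.LineRing f) (integralClosure (H26.LineRing f) F'))) O
      (fun r => hO _) _ hpmax hlt
  have hkerR' := ker_comp_algebraMap_eq_span (FractionRing (H26.LineRing f)) F' hϖR' φB hφπ
    hfrac O hO hOtop
  obtain ⟨hg₀0, hg₀max⟩ := valuation_le_of_span_pair (K := FractionRing (H26.LineRing f))
    (L := F') hϖR' hnf hV hH φB hφπ hfrac O hO hOtop g₀ hcentre
  have hg₀lt := hlt g₀ hg₀p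
  have hg₀pow := valuation_eq_zpow_of_span_pair (K := FractionRing (H26.LineRing f))
    (L := F') hϖR' hnf hV hH φB hφπ hfrac O hO hOtop g₀ hg₀lt hcentre
  -- ## transport to the integral closure of `R0 = A₁[j1]` in `F'`
  let incl : ↥(integralClosure ↥(Algebra.adjoin A₁ {j1}) F') →+*
      ↥(integralClosure (H26.LineRing f) F') :=
    (algebraMap ↥(integralClosure ↥(Algebra.adjoin A₁ {j1}) F') F').codRestrict
      (integralClosure (H26.LineRing f) F')
      (fun x => (x.2 : IsIntegral ↥(Algebra.adjoin A₁ {j1}) (x : F')).tower_top)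
  have hincl : ∀ (r : H26.LineRing f)
      (h : IsIntegral ↥(Algebra.adjoin A₁ {j1}) (H26.LineRing.liftAlg f μ hfμ r)),
      incl ⟨_, h⟩ = algebraMap (H26.LineRing f) (integralClosure (H26.LineRing f) F') r :=
    fun r h => Subtype.ext rfl
  have hback : ∀ b : ↥(integralClosure (H26.LineRing f) F'),
      ∃ x : ↥(integralClosure ↥(Algebra.adjoin A₁ {j1}) F'), incl x = b := by
    intro b
    have hb : IsIntegral ↥(Algebra.adjoin A₁ {j1}) (b : F') :=
      isIntegral_trans (R := ↥(Algebra.adjoin A₁ {j1})) (A := H26.LineRing f) (b : F') b.2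
    exact ⟨⟨b, hb⟩, Subtype.ext rfl⟩
  refine ⟨κ, hκ, φB.comp incl, O, ?_, ?_, fun x => hO _, hOtop, ?_⟩
  · intro r h
    rw [RingHom.comp_apply, hincl r h, ← hkerR', RingHom.mem_ker, RingHom.comp_apply]
  · intro z
    obtain ⟨x, y, hy, hxy⟩ := hfrac z
    obtain ⟨x', rfl⟩ := hback x
    obtain ⟨y', rfl⟩ := hback y
    exact ⟨x', y', hy, hxy⟩
  · intro h
    have hμa : H26.LineRing.liftAlg f μ hfμ g₀ = μ - algebraMap A₁ F' a := by
      rw [hg₀, map_sub, H26.LineRing.liftAlg_coord, AlgHom.commutes]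
    have h' : IsIntegral ↥(Algebra.adjoin A₁ {j1}) (H26.LineRing.liftAlg f μ hfμ g₀) := by
      rw [hμa]; exact h
    have heq : (⟨μ - algebraMap A₁ F' a, h⟩ : ↥(integralClosure ↥(Algebra.adjoin A₁ {j1}) F')) =
        ⟨H26.LineRing.liftAlg f μ hfμ g₀, h'⟩ := Subtype.ext hμa.symm
    rw [heq, RingHom.comp_apply, hincl g₀ h']
    exact ⟨hg₀0, hg₀lt, hg₀max, hg₀pow⟩

end Chart

end Fermat.Agent.S16.H41
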