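/-
S16 project, (U,2; p = 3 mod 4): derivation-free variant of helper76's core `H76.u2_core`
(helper41).  Imports `H76_U2Core` (descent `z ∈ F`, `δ = J B² / z`) and helper17's
`H17_HesseParity` (parity count at a place where `v μ` is not a square).  On the cover side it needs
exactly what `Fermat.Agent.S16.H41_GeoE` delivers from S18 PURITY: a valuation `v` on a field
`F' ⊇ F` with `v μ < 1` not a square in the value group.
-/
import Fermat.Agent.S16.H76_U2Core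
import Fermat.Agent.S16.H17_HesseParity

set_option autoImplicit false

namespace Fermat.Agent.S16.H41

open Fermat.Agent.S16

/-- **Derivation-free core of S16 (U,2), `p ≡ 3 mod 4`.**  Same dictionary and conclusion as
`H76.u2_core`, but on the cover side only a valuation `v` with `v μ < 1` **not a square in the value
group** is needed (no derivation of `F'`, no discreteness statement): the parity count is
`H17.val_hesJ2_mul_sq_div`. -/
theorem u2_core_nsq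
    {F Q F' : Type*} [Field F] [Field Q] [CharP Q 2] [Field F'] [CharP F' 2]
    (ιQ : F →+* Q) (ι' : F →+* F') (J Jp : F) (hJ0 : J ≠ 0) (hJp0 : Jp ≠ 0)
    (hdec : ∀ y : F, ∃ A B : F, y = A ^ 2 + J * B ^ 2)
    (DQ : Derivation ℤ Q Q) (hDQJ : DQ (ιQ J) = ιQ J)
    (p : ℕ) (hp : p % 4 = 3)
    (z δ : Q) (hz8 : z ^ 8 * ιQ Jp = ιQ J ^ p) (hδ : DQ z = δ * z)
    (hbar : F) (hh : ιQ hbar = δ ^ 6 * ιQ J)
    {Γ₀ : Type*} [LinearOrderedCommGroupWithZero Γ₀] (v : Valuation F' Γ₀)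
    (μ : F') (hμ0 : μ ≠ 0) (hμ : v μ < 1)
    (hnsq : ∀ g : Γ₀, g ^ 2 ≠ v μ)
    (hJμ : ι' J * (μ ^ 3 + 1) ^ 3 = μ ^ 12)
    (hunit : v (ι' J) = v (ι' Jp))
    (hint : v (ι' hbar) ≤ 1) : False := by
  set π : Γ₀ := v μ with hπ
  have hπ0 : π ≠ 0 := (Valuation.ne_zero_iff v).mpr hμ0
  have hπpos : 0 < π := zero_lt_iff.mpr hπ0
  -- `z` comes from `F`
  have hz8' : z ^ 8 = ιQ (J ^ p / Jp) := by
    rw [map_div₀, map_pow, ← hz8, mul_div_assoc, div_self ((map_ne_zero ιQ).mpr hJp0), mul_one]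
  obtain ⟨z₀, hz₀⟩ := H76.mem_range_of_pow_eight ιQ DQ J hJ0 hDQJ hdec z ⟨_, hz8'.symm⟩
  have hz₀8 : z₀ ^ 8 * Jp = J ^ p := by
    apply ιQ.injective
    rw [map_mul, map_pow, map_pow, hz₀, hz8]
  have hz₀0 : z₀ ≠ 0 := by
    rintro rfl
    rw [zero_pow (by norm_num), zero_mul] at hz₀8
    exact pow_ne_zero _ hJ0 hz₀8.symm
  obtain ⟨A, B, hAB⟩ := hdec z₀
  -- `δ` comes from `F`
  have hDz : DQ z = ιQ (J * B ^ 2) := by
    rw [← hz₀, hAB]; exact H76.deriv_sq_add_mul_sq DQ ιQ J hDQJ A B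
  have hz0 : z ≠ 0 := by rw [← hz₀]; exact (map_ne_zero ιQ).mpr hz₀0
  have hδ' : δ = ιQ (J * B ^ 2 / z₀) := by
    rw [map_div₀, hz₀, ← hDz, hδ, mul_div_assoc, div_self hz0, mul_one]
  have hhbar : hbar = (J * B ^ 2 / z₀) ^ 6 * J := by
    apply ιQ.injective
    rw [hh, hδ', map_mul, map_pow]
  -- the cover side
  have hvw : v (μ ^ 3 + 1) = 1 := by
    have h1 : v (μ ^ 3) < v (1 : F') := by
      rw [map_one, map_pow]
      exact pow_lt_one₀ zero_le hμ (by norm_num)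
    rw [Valuation.map_add_eq_of_lt_right v h1, map_one]
  have hw0 : μ ^ 3 + 1 ≠ 0 := by
    intro h; rw [h, map_zero] at hvw; exact zero_ne_one hvw
  have hJhes : ι' J = H17.hesJ2 μ := by
    unfold H17.hesJ2
    rw [eq_div_iff (pow_ne_zero _ hw0), hJμ]
  have hvJ : v (ι' J) = π ^ (12 : ℤ) := by
    have := congrArg v hJμ
    rw [map_mul, map_pow, hvw, one_pow, mul_one, map_pow] at this
    rw [this]; norm_cast
  -- `v (ι' z₀) = π ^ (3 (p-1)/2)`, an odd power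
  obtain ⟨t, ht⟩ : ∃ t : ℕ, p = 4 * t + 3 := ⟨p / 4, by omega⟩
  have hvz : v (ι' z₀) = π ^ ((6 * t + 3 : ℕ) : ℤ) := by
    have h1 := congrArg (fun x => v (ι' x)) hz₀8
    simp only [map_mul, map_pow] at h1
    rw [← hunit, hvJ] at h1
    have hJne : (π ^ (12 : ℤ)) ≠ 0 := zpow_ne_zero _ hπ0
    -- `v z₀ ^ 8 = π ^ (12 (p-1))`
    have h2 : v (ι' z₀) ^ 8 = (π ^ (6 * t + 3)) ^ 8 := by
      have h3 : v (ι' z₀) ^ 8 * π ^ (12 : ℤ) = (π ^ (6 * t + 3)) ^ 8 * π ^ (12 : ℤ) := by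
        rw [h1, ht, ← pow_mul, zpow_ofNat, ← pow_mul, ← pow_add]
        congr 1; ring
      exact mul_right_cancel₀ hJne h3
    have h4 := (pow_left_inj₀ (M₀ := Γ₀) zero_le zero_le (by norm_num : (8 : ℕ) ≠ 0)).1 h2
    rw [h4, zpow_natCast]
  have hodd : Odd (((6 * t + 3 : ℕ) : ℤ)) := by
    refine ⟨3 * t + 1, ?_⟩
    push_cast; ring
  have hH : ι' z₀ = (ι' A) ^ 2 + H17.hesJ2 μ * (ι' B) ^ 2 := by
    rw [hAB, map_add, map_mul, map_pow, map_pow, hJhes]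
  have hvδ := H17.val_hesJ2_mul_sq_div v μ (ι' A) (ι' B) (ι' z₀) hμ0 hvw hnsq hH hodd hvz
  have hvδ' : v (ι' (J * B ^ 2 / z₀)) = π⁻¹ ^ 3 := by
    rw [map_div₀, map_mul, map_pow, hJhes]; exact hvδ
  have hvh : v (ι' hbar) = π⁻¹ ^ 6 := by
    rw [hhbar, map_mul ι', map_pow ι', map_mul v, map_pow v, hvδ', hvJ, ← pow_mul, zpow_ofNat,
      inv_pow, inv_pow]
    field_simp
  rw [hvh] at hint
  have h6 : π ^ 6 < 1 := pow_lt_one₀ zero_le hμ (by norm_num)
  have h6pos : 0 < π ^ 6 := pow_pos hπpos _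
  rw [inv_pow] at hint
  exact absurd hint (not_le.mpr ((one_lt_inv₀ h6pos).mpr h6))

end Fermat.Agent.S16.H41
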