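/-
S16 / (U5b), helper46: the reduction calculus for width-`h` `q`-expansions.

`IntRed φ h f r` (`φ : 𝒪 →+* κ`, `𝒪 ⊆ ℂ` a subring) : the cusp function of `f` (width `h`) is analytic
at `0`, the `q_h`-expansion of `f` has coefficients in `𝒪`, and reduces to `r ∈ κ[[X]]` under `φ`.
Closed under `+`, `*`, finite sums and products, hence under elementary symmetric functions.
-/
import Mathlib

set_option autoImplicit false

open UpperHalfPlane
open scoped ModularForm

noncomputable section

namespace Fermat.Agent.S16.H46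

variable {𝒪 : Subring ℂ} {κ : Type*} [CommRing κ] (φ : 𝒪 →+* κ) (h : ℝ)

/-- `f` has an `𝒪`-integral width-`h` `q`-expansion with reduction `r`. -/
structure IntRed (f : ℍ → ℂ) (r : PowerSeries κ) : Prop where
  analytic : AnalyticAt ℂ (cuspFunction h f) 0
  lift : ∃ Ψ : PowerSeries 𝒪, PowerSeries.map 𝒪.subtype Ψ = qExpansion h f ∧
    PowerSeries.map φ Ψ = r

variable {φ h}

theorem cuspFunction_zero' : cuspFunction h (0 : ℍ → ℂ) = 0 := by
  ext q
  rcases eq_or_ne q 0 with rfl | hq
  · simpa [cuspFunction, Function.Periodic.cuspFunction]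
      using! (tendsto_const_nhds.mono_left nhdsWithin_le_nhds).limUnder_eq
  · simp [cuspFunction, Function.Periodic.cuspFunction_eq_of_nonzero h _ hq]

theorem cuspFunction_one' : cuspFunction h (1 : ℍ → ℂ) = 1 := by
  ext q
  rcases eq_or_ne q 0 with rfl | hq
  · simpa [cuspFunction, Function.Periodic.cuspFunction] using! tendsto_const_nhds.limUnder_eq
  · simp [cuspFunction, Function.Periodic.cuspFunction_eq_of_nonzero h _ hq]

namespace IntRed

theorem zero : IntRed φ h (0 : ℍ → ℂ) 0 where
  analytic := by rw [cuspFunction_zero']; exact analyticAt_const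
  lift := ⟨0, by rw [map_zero, qExpansion_zero], map_zero _⟩

theorem one : IntRed φ h (1 : ℍ → ℂ) 1 where
  analytic := by rw [cuspFunction_one']; exact analyticAt_const
  lift := ⟨1, by rw [map_one, qExpansion_one], map_one _⟩

theorem add {f g : ℍ → ℂ} {r s : PowerSeries κ} (hf : IntRed φ h f r) (hg : IntRed φ h g s) :
    IntRed φ h (f + g) (r + s) where
  analytic := by
    rw [cuspFunction_add hf.analytic.continuousAt hg.analytic.continuousAt]
    exact hf.analytic.add hg.analytic
  lift := by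
    obtain ⟨Ψ, h1, h2⟩ := hf.lift
    obtain ⟨Φ, h3, h4⟩ := hg.lift
    exact ⟨Ψ + Φ, by rw [map_add, h1, h3, qExpansion_add hf.analytic hg.analytic],
      by rw [map_add, h2, h4]⟩

theorem mul {f g : ℍ → ℂ} {r s : PowerSeries κ} (hf : IntRed φ h f r) (hg : IntRed φ h g s) :
    IntRed φ h (f * g) (r * s) where
  analytic := by
    rw [cuspFunction_mul hf.analytic.continuousAt hg.analytic.continuousAt]
    exact hf.analytic.mul hg.analytic
  lift := by
    obtain ⟨Ψ, h1, h2⟩ := hf.lift
    obtain ⟨Φ, h3, h4⟩ := hg.lift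
    exact ⟨Ψ * Φ, by rw [map_mul, h1, h3, qExpansion_mul hf.analytic hg.analytic],
      by rw [map_mul, h2, h4]⟩

theorem neg {f : ℍ → ℂ} {r : PowerSeries κ} (hf : IntRed φ h f r) : IntRed φ h (-f) (-r) where
  analytic := by
    rw [cuspFunction_neg hf.analytic.continuousAt]
    exact hf.analytic.neg
  lift := by
    obtain ⟨Ψ, h1, h2⟩ := hf.lift
    exact ⟨-Ψ, by rw [map_neg, h1, qExpansion_neg hf.analytic], by rw [map_neg, h2]⟩

theorem sum {ι : Type*} (s : Finset ι) {f : ι → ℍ → ℂ} {r : ι → PowerSeries κ}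
    (hf : ∀ i ∈ s, IntRed φ h (f i) (r i)) : IntRed φ h (∑ i ∈ s, f i) (∑ i ∈ s, r i) := by
  classical
  induction s using Finset.induction_on with
  | empty => simpa using zero
  | insert a s ha ih =>
    rw [Finset.sum_insert ha, Finset.sum_insert ha]
    exact (hf a (Finset.mem_insert_self a s)).add
      (ih fun i hi => hf i (Finset.mem_insert_of_mem hi))

theorem prod {ι : Type*} (s : Finset ι) {f : ι → ℍ → ℂ} {r : ι → PowerSeries κ}
    (hf : ∀ i ∈ s, IntRed φ h (f i) (r i)) : IntRed φ h (∏ i ∈ s, f i) (∏ i ∈ s, r i) := by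
  classical
  induction s using Finset.induction_on with
  | empty => simpa using one
  | insert a s ha ih =>
    rw [Finset.prod_insert ha, Finset.prod_insert ha]
    exact (hf a (Finset.mem_insert_self a s)).mul
      (ih fun i hi => hf i (Finset.mem_insert_of_mem hi))

/-- Elementary symmetric functions. -/
theorem esymm {ι : Type*} [Fintype ι] {f : ι → ℍ → ℂ} {r : ι → PowerSeries κ}
    (hf : ∀ i, IntRed φ h (f i) (r i)) (n : ℕ) :
    IntRed φ h (∑ S ∈ Finset.powersetCard n (Finset.univ : Finset ι), ∏ i ∈ S, f i)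
      (∑ S ∈ Finset.powersetCard n (Finset.univ : Finset ι), ∏ i ∈ S, r i) :=
  sum _ fun S _ => prod S fun i _ => hf i

/-- Extraction of the coefficients when the reduction is a constant. -/
theorem coeff_of_const {f : ℍ → ℂ} {c : κ} (hf : IntRed φ h f (PowerSeries.C c)) (n : ℕ) :
    ∃ hmem : (qExpansion h f).coeff n ∈ 𝒪,
      φ ⟨_, hmem⟩ = if n = 0 then c else 0 := by
  obtain ⟨Ψ, h1, h2⟩ := hf.lift
  have h3 : (qExpansion h f).coeff n = ((Ψ.coeff n : 𝒪) : ℂ) := by
    rw [← h1, PowerSeries.coeff_map]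
    rfl
  have h4 : φ (Ψ.coeff n) = if n = 0 then c else 0 := by
    rw [← PowerSeries.coeff_map, h2, PowerSeries.coeff_C]
  refine ⟨h3 ▸ (Ψ.coeff n).2, ?_⟩
  rw [← h4]
  congr 1
  exact Subtype.ext h3

end IntRed

end Fermat.Agent.S16.H46
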