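import Mathlib
import Fermat.Agent.S29.H72_DictImage
import Fermat.Agent.S29.H65_Gamma0Pos

/-!
# S16 / (QP) W-BRIDGE (helper48)

The algebraic Atkin–Lehner involution `w` of the complex modular function field
`H72.FC N = ℂ(j(q^d) : d ∣ N) ⊆ ℂ((q))` (any ring endomorphism fixing the constants and
sending `j(q^d)` to `j(q^(N/d))`) is realised on `Mer = Frac Hol` by precomposition with the
Fricke matrix `W_N = [[0,-1],[N,0]]`:

  `toMer N (w f) = actGL (wPos N) (toMer N f)`.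

* `wPos N : GL(2,ℝ)⁺`, `coe_wPos_smul : ((wPos N) • τ : ℂ) = -1 / (N τ)`.
* `mulD_wPos_smul` : `d • (W_N • τ) = S • (d' • τ)` for `d * d' = N`.
* `actGL_wPos_toMer_jdC`, `actGL_wPos_toMer_algebraMap`.
* `toMer_eq_actGL_of_closure` : the generic eq-locus lemma (any field `E`, two ring homs
  `φ ψ : E →+* FC N`, agreement on a generating set).
* `toMer_comp_eq_actGL_wPos`, `toMer_comp_eq_actGL_wPos_prime`.
-/

set_option autoImplicit false

open UpperHalfPlane
open scoped MatrixGroups Manifold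

noncomputable section

namespace Fermat.Agent.S16.H48

open Fermat.Agent.S24 Fermat.Agent.S24.H81 Fermat.Agent.S29 Fermat.Agent.S29.H72

variable (N : ℕ) [NeZero N]

/-- The Fricke matrix `W_N = [[0,-1],[N,0]]` as an element of `GL(2,ℝ)⁺`. -/
def wPos : GL(2, ℝ)⁺ := ⟨H65.wGL N (NeZero.ne N), H65.wGL_mem_glPos (NeZero.ne N)⟩

@[simp] theorem coe_wPos : ((wPos N : GL(2, ℝ)⁺) : GL (Fin 2) ℝ) = H65.wGL N (NeZero.ne N) := rfl

/-- `W_N • τ = -1 / (N τ)`. -/
theorem coe_wPos_smul (τ : ℍ) :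
    ((((wPos N : GL(2, ℝ)⁺) : GL (Fin 2) ℝ) • τ : ℍ) : ℂ) = -1 / ((N : ℂ) * (τ : ℂ)) := by
  rw [UpperHalfPlane.coe_smul_of_det_pos (H65.glPos_det_pos (wPos N))]
  simp [UpperHalfPlane.num, UpperHalfPlane.denom, H65.val_wGL]

/-- `d • (W_N • τ) = S • (d' • τ)` whenever `d * d' = N`. -/
theorem mulD_wPos_smul (d d' : ℕ) [NeZero d] [NeZero d'] (h : d * d' = N) (τ : ℍ) :
    H17.mulD d (((wPos N : GL(2, ℝ)⁺) : GL (Fin 2) ℝ) • τ) = ModularGroup.S • H17.mulD d' τ := by
  apply UpperHalfPlane.ext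
  rw [UpperHalfPlane.modular_S_smul]
  have hτ : (τ : ℂ) ≠ 0 := UpperHalfPlane.ne_zero τ
  have hd : (d : ℂ) ≠ 0 := by exact_mod_cast NeZero.ne d
  have hd' : (d' : ℂ) ≠ 0 := by exact_mod_cast NeZero.ne d'
  have hN : (N : ℂ) = (d : ℂ) * (d' : ℂ) := by exact_mod_cast h.symm
  simp only [H17.mulD, H15.coe_aff, coe_wPos_smul, hN]
  field_simp
  ring

/-- `J (d • (W_N • τ)) = J (d' • τ)` whenever `d * d' = N`. -/
theorem J_mulD_wPos_smul (d d' : ℕ) [NeZero d] [NeZero d'] (h : d * d' = N) (τ : ℍ) :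
    H28.J (H17.mulD d (((wPos N : GL(2, ℝ)⁺) : GL (Fin 2) ℝ) • τ)) = H28.J (H17.mulD d' τ) := by
  rw [mulD_wPos_smul N d d' h, H28.J_smul]

/-! ### The action of `W_N` on the generators of `FC N` -/

/-- `W_N` fixes the constants. -/
theorem actGL_wPos_toMer_algebraMap (c : ℂ) :
    H65.actGL (wPos N) (toMer N (algebraMap ℂ (FC N) c)) = toMer N (algebraMap ℂ (FC N) c) := by
  rw [toMer_algebraMap, H72.constMer, H65.actGL_algebraMap]
  rfl

/-- `W_N` sends `j(q^d)` to `j(q^d')` whenever `d * d' = N`. -/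
theorem actGL_wPos_toMer_jdC (d d' : ℕ) [NeZero d] [NeZero d'] (h : d * d' = N) :
    H65.actGL (wPos N) (toMer N (jdC N d (Dvd.intro d' h)))
      = toMer N (jdC N d' (Dvd.intro_left d h)) := by
  have h1 : jdC N d (Dvd.intro d' h)
      = ((⟨jdC N d (Dvd.intro d' h), jdC_mem_AC N d _⟩ : AC N) : FC N) := rfl
  have h2 : jdC N d' (Dvd.intro_left d h)
      = ((⟨jdC N d' (Dvd.intro_left d h), jdC_mem_AC N d' _⟩ : AC N) : FC N) := rfl
  rw [h1, h2, toMer_coe, toMer_coe, H65.actGL_algebraMap]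
  congr 1
  apply Subtype.ext
  funext τ
  rw [H65.compHol_apply, coe_ThetaHol, coe_ThetaHol, ThetaC_jdC, ThetaC_jdC,
    J_mulD_wPos_smul N d d' h]

/-! ### The eq-locus lemma -/

/-- GENERIC BRIDGE.  Let `E` be a field with two ring homs `φ ψ : E →+* FC N` (think: `φ` an
identification of `E` with `FC N` and `ψ = φ ∘ w`).  If `toMer (ψ s) = (toMer (φ s)) ∘ W_N` on a
set `S` generating `E` as a field, then this holds on all of `E`. -/
theorem toMer_eq_actGL_of_closure {E : Type*} [Field E] (φ ψ : E →+* FC N) (S : Set E)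
    (hS : Subfield.closure S = ⊤)
    (h : ∀ s ∈ S, toMer N (ψ s) = H65.actGL (wPos N) (toMer N (φ s))) (e : E) :
    toMer N (ψ e) = H65.actGL (wPos N) (toMer N (φ e)) := by
  let f₁ : E →+* Mer := (toMer N).comp ψ
  let f₂ : E →+* Mer := ((H65.actGL (wPos N)).comp (toMer N)).comp φ
  have hle : Subfield.closure S ≤ RingHom.eqLocusField f₁ f₂ :=
    Subfield.closure_le.mpr fun s hs => h s hs
  have he : e ∈ RingHom.eqLocusField f₁ f₂ := hle (hS ▸ Subfield.mem_top e)
  exact he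

/-- The constants and the `j(q^d)`, `d ∣ N`, generate `FC N` as a field. -/
theorem closure_range_union_jdSetC :
    Subfield.closure (Set.range (algebraMap ℂ (FC N)) ∪ jdSetC N) = ⊤ := by
  have h := congrArg IntermediateField.toSubfield (adjoin_jdSetC_eq_top N)
  rw [IntermediateField.adjoin_toSubfield] at h
  exact h

/-- **W-BRIDGE.**  Any ring endomorphism `w` of `FC N` which fixes the constants and sends
`j(q^d)` to `j(q^(N/d))` is realised on `Mer` by precomposition with `W_N`. -/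
theorem toMer_comp_eq_actGL_wPos (w : FC N →+* FC N)
    (hc : ∀ c : ℂ, w (algebraMap ℂ (FC N) c) = algebraMap ℂ (FC N) c)
    (hj : ∀ (d d' : ℕ) [NeZero d] [NeZero d'] (h : d * d' = N),
      w (jdC N d (Dvd.intro d' h)) = jdC N d' (Dvd.intro_left d h)) (f : FC N) :
    toMer N (w f) = H65.actGL (wPos N) (toMer N f) := by
  refine toMer_eq_actGL_of_closure N (RingHom.id _) w _ (closure_range_union_jdSetC N) ?_ f
  rintro s (⟨c, rfl⟩ | ⟨d, hne, hd, rfl⟩)
  · rw [RingHom.id_apply, hc, actGL_wPos_toMer_algebraMap]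
  · obtain ⟨d', hd'⟩ := hd
    have : NeZero d' := ⟨by rintro rfl; exact NeZero.ne N (by rw [hd', mul_zero])⟩
    have e1 : jdC N d ⟨d', hd'⟩ = jdC N d (Dvd.intro d' hd'.symm) := rfl
    rw [RingHom.id_apply, e1, hj d d' hd'.symm, actGL_wPos_toMer_jdC N d d' hd'.symm]

end Fermat.Agent.S16.H48
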