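import Mathlib
import Fermat.Agent.S16.H48_FrickeBridge
import Fermat.Agent.S18.H8_FullCBridge
import Fermat.Agent.S18.H16_FKGen

/-!
# S16 / (QP) W-BRIDGE in the `modularFunctionFieldFullC K N` vocabulary (helper48)

For a field `K ⊆ ℂ` (`K = ℚ`, `Qbar`, `ℂ`, a number field ...) and any ring endomorphism `w` of
the prelude function field `modularFunctionFieldFullC K N = K(j(q^d) : d ∣ N) ⊆ K((q))` which
fixes the constants and swaps `j = H16.jK K N` and `j_N = H16.jNK K N`, the coefficient
embedding `H8.toFL ℂ N K` into `H72.FC N` followed by the realisation `H72.toMer N` intertwines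
`w` with precomposition by the Fricke matrix `W_N`:

  `toMer N (toFL ℂ N K (w f)) = actGL (wPos N) (toMer N (toFL ℂ N K f))`.
-/

set_option autoImplicit false

open UpperHalfPlane ModularCurve
open scoped MatrixGroups Manifold

noncomputable section

namespace Fermat.Agent.S16.H48

open Fermat.Agent.S24 Fermat.Agent.S24.H81 Fermat.Agent.S29 Fermat.Agent.S29.H72
open Fermat.Agent.S18

variable (N : ℕ) [NeZero N] (K : Type) [Field K] [Algebra K ℂ]

theorem toFL_jK : H8.toFL ℂ N K (H16.jK K N) = jC N :=
  Subtype.ext (H8.coe_toFL_j ℂ N K)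

theorem toFL_jNK : H8.toFL ℂ N K (H16.jNK K N) = jdC N N dvd_rfl :=
  Subtype.ext (H8.coe_toFL_jd ℂ N K N dvd_rfl)

theorem natCast_ne_zero_of_algebra : ((N : ℕ) : K) ≠ 0 := by
  intro h
  have h2 := congrArg (algebraMap K ℂ) h
  rw [map_natCast, map_zero] at h2
  exact NeZero.ne N (by exact_mod_cast h2)

/-- The constants, `j` and `j_N` generate the function field over `K` as a field. -/
theorem closure_range_union_pair :
    Subfield.closure (Set.range (algebraMap K (modularFunctionFieldFullC K N)) ∪
      {H16.jK K N, H16.jNK K N}) = ⊤ := by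
  have h := congrArg IntermediateField.toSubfield
    (H16.adjoin_pair_eq_top_gen N K (natCast_ne_zero_of_algebra N K))
  rw [IntermediateField.adjoin_toSubfield] at h
  exact h

/-- **W-BRIDGE over a subfield `K` of `ℂ`.** -/
theorem toMer_toFL_comp_eq_actGL_wPos
    (w : modularFunctionFieldFullC K N →+* modularFunctionFieldFullC K N)
    (hc : ∀ c : K, w (algebraMap K (modularFunctionFieldFullC K N) c)
      = algebraMap K (modularFunctionFieldFullC K N) c)
    (h1 : w (H16.jK K N) = H16.jNK K N) (h2 : w (H16.jNK K N) = H16.jK K N)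
    (f : modularFunctionFieldFullC K N) :
    toMer N (H8.toFL ℂ N K (w f)) = H65.actGL (wPos N) (toMer N (H8.toFL ℂ N K f)) := by
  refine toMer_eq_actGL_of_closure N (H8.toFL ℂ N K) ((H8.toFL ℂ N K).comp w) _
    (closure_range_union_pair N K) ?_ f
  rintro s (⟨c, rfl⟩ | hs)
  · rw [RingHom.comp_apply, hc, H8.toFL_algebraMap, actGL_wPos_toMer_algebraMap]
  · rcases hs with rfl | hs
    · rw [RingHom.comp_apply, h1, toFL_jK, toFL_jNK, jC_eq_jdC]
      exact (actGL_wPos_toMer_jdC N 1 N (one_mul N)).symm
    · rw [Set.mem_singleton_iff] at hs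
      subst hs
      rw [RingHom.comp_apply, h2, toFL_jK, toFL_jNK, jC_eq_jdC]
      exact (actGL_wPos_toMer_jdC N N 1 (mul_one N)).symm

end Fermat.Agent.S16.H48
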