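import Fermat.Agent.S16.H49_EisensteinForm

/-!
# The Fricke transform of the weight-2 Eisenstein form of level `N`

`eisFun N (-1 / (N z)) = - N z² eisFun N z`, i.e. `E ∣ W_N = - E`.
-/

namespace Fermat.Agent.S16.H49

open UpperHalfPlane EisensteinSeries ModularForm CongruenceSubgroup Matrix.SpecialLinearGroup
open scoped MatrixGroups ModularForm Real Manifold

noncomputable section

/-- The Fricke involution `z ↦ -1 / (N z)` on the upper half plane. -/
def frickeH (N : ℕ) [NeZero N] (z : ℍ) : ℍ := ModularGroup.S • scaleH N z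

theorem coe_frickeH (N : ℕ) [NeZero N] (z : ℍ) : (frickeH N z : ℂ) = -1 / ((N : ℂ) * z) := by
  rw [frickeH, UpperHalfPlane.modular_S_smul]
  change (-((scaleH N z : ℂ)))⁻¹ = _
  rw [coe_scaleH]
  field_simp

theorem scaleH_frickeH (N : ℕ) [NeZero N] (z : ℍ) : scaleH N (frickeH N z) = ModularGroup.S • z := by
  apply UpperHalfPlane.ext
  rw [coe_scaleH, coe_frickeH, UpperHalfPlane.modular_S_smul]
  change _ = (-(z : ℂ))⁻¹
  have hN : (N : ℂ) ≠ 0 := by exact_mod_cast NeZero.ne N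
  have hz : (z : ℂ) ≠ 0 := ne_zero z
  field_simp

theorem E2_S_smul (w : ℍ) :
    E2 (ModularGroup.S • w) = (w : ℂ) ^ 2 * E2 w - c0 * (2 * π * Complex.I) * w := by
  rw [E2_smul, ModularGroup.denom_S, D2_S]
  have hw : (w : ℂ) ≠ 0 := ne_zero w
  field_simp

/-- **Fricke transform**: `E(-1/(N z)) = - N z² E(z)` for `E = E₂(z) - N E₂(N z)`. -/
theorem eisFun_frickeH (N : ℕ) [NeZero N] (z : ℍ) :
    eisFun N (frickeH N z) = -(N : ℂ) * (z : ℂ) ^ 2 * eisFun N z := by
  rw [eisFun_apply, eisFun_apply, scaleH_frickeH, frickeH, E2_S_smul, E2_S_smul, coe_scaleH]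
  ring

/-- `z ↦ z / N` on the upper half plane. -/
def divH (N : ℕ) [NeZero N] (z : ℍ) : ℍ :=
  triH 1 N 0 one_pos (by exact_mod_cast NeZero.pos N) z

theorem coe_divH (N : ℕ) [NeZero N] (z : ℍ) : (divH N z : ℂ) = (z : ℂ) / N := by
  rw [divH, coe_triH]
  simp

theorem scaleH_divH (N : ℕ) [NeZero N] (z : ℍ) : scaleH N (divH N z) = z := by
  apply UpperHalfPlane.ext
  rw [coe_scaleH, coe_divH]
  have hN : (N : ℂ) ≠ 0 := by exact_mod_cast NeZero.ne N
  field_simp

/-- The expansion at the cusp `0`: `(E ∣₂ S)(z) = -(1/N) E(z / N)`. -/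
theorem eisFun_slash_S (N : ℕ) [NeZero N] (z : ℍ) :
    (eisFun N ∣[(2 : ℤ)] ModularGroup.S) z = -(1 / (N : ℂ)) * eisFun N (divH N z) := by
  have h := eisFun_frickeH N (divH N z)
  rw [frickeH, scaleH_divH, coe_divH] at h
  rw [SL_slash_apply, h, ModularGroup.denom_S]
  have hN : (N : ℂ) ≠ 0 := by exact_mod_cast NeZero.ne N
  have hz : (z : ℂ) ≠ 0 := ne_zero z
  rw [zpow_neg, zpow_ofNat]
  field_simp

end

end Fermat.Agent.S16.H49
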