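/-
helper51 — S16 / (U, l ≥ 5), Swinnerton-Dyer-free route: power series with coefficients in a
subring `𝒪 ⊆ ℂ`, reduction modulo the maximal ideal, and a transcendence lemma (Mathlib only).
-/
import Mathlib

set_option autoImplicit false

open PowerSeries

namespace Fermat.Agent.S16.H51

/-! ### Power series with coefficients in a subring -/

/-- The subring of `ℂ⟦X⟧` of power series with all coefficients in `𝒪`. -/
noncomputable def coeffSubring (𝒪 : Subring ℂ) : Subring (PowerSeries ℂ) :=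
  (PowerSeries.map 𝒪.subtype).range

theorem mem_coeffSubring_iff {𝒪 : Subring ℂ} {P : PowerSeries ℂ} :
    P ∈ coeffSubring 𝒪 ↔ ∀ n, PowerSeries.coeff n P ∈ 𝒪 := by
  constructor
  · rintro ⟨Q, rfl⟩ n
    rw [PowerSeries.coeff_map]
    exact (PowerSeries.coeff n Q).2
  · intro h
    refine ⟨PowerSeries.mk fun n => ⟨PowerSeries.coeff n P, h n⟩, ?_⟩
    ext n
    rw [PowerSeries.coeff_map, PowerSeries.coeff_mk]
    rfl

theorem C_mem_coeffSubring {𝒪 : Subring ℂ} {c : ℂ} (hc : c ∈ 𝒪) :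
    PowerSeries.C c ∈ coeffSubring 𝒪 := by
  rw [mem_coeffSubring_iff]
  intro n
  rw [PowerSeries.coeff_C]
  split_ifs
  · exact hc
  · exact 𝒪.zero_mem

theorem X_mem_coeffSubring (𝒪 : Subring ℂ) : (PowerSeries.X : PowerSeries ℂ) ∈ coeffSubring 𝒪 := by
  rw [mem_coeffSubring_iff]
  intro n
  rw [PowerSeries.coeff_X]
  split_ifs
  · exact 𝒪.one_mem
  · exact 𝒪.zero_mem

theorem smul_mem_coeffSubring {𝒪 : Subring ℂ} {c : ℂ} (hc : c ∈ 𝒪) {P : PowerSeries ℂ}
    (hP : P ∈ coeffSubring 𝒪) : c • P ∈ coeffSubring 𝒪 := by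
  rw [mem_coeffSubring_iff] at hP ⊢
  intro n
  rw [PowerSeries.coeff_smul]
  exact 𝒪.mul_mem hc (hP n)

theorem psMap_injective (𝒪 : Subring ℂ) :
    Function.Injective (PowerSeries.map 𝒪.subtype) := by
  intro P Q h
  ext n
  have := congrArg (PowerSeries.coeff n) h
  rw [PowerSeries.coeff_map, PowerSeries.coeff_map] at this
  exact this

/-- Division by a series `D = X + …` (coefficients in `𝒪`) preserves `𝒪`-integrality. -/
theorem mem_coeffSubring_of_mul_mem {𝒪 : Subring ℂ} {D H : PowerSeries ℂ}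
    (hD : D ∈ coeffSubring 𝒪) (hD0 : PowerSeries.coeff 0 D = 0) (hD1 : PowerSeries.coeff 1 D = 1)
    (hDH : D * H ∈ coeffSubring 𝒪) : H ∈ coeffSubring 𝒪 := by
  -- `D = X * U`, `U` a unit of `𝒪⟦X⟧`
  obtain ⟨D₀, rfl⟩ := hD
  rw [PowerSeries.coeff_map] at hD0 hD1
  have hD0' : PowerSeries.coeff 0 D₀ = 0 := by
    apply Subtype.ext
    simpa using hD0
  have hD1' : PowerSeries.coeff 1 D₀ = 1 := by
    apply Subtype.ext
    simpa using hD1
  set U₀ : PowerSeries 𝒪 := PowerSeries.mk fun n => PowerSeries.coeff (n + 1) D₀ with hU₀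
  have hDU : D₀ = PowerSeries.X * U₀ := by
    ext n
    cases n with
    | zero => rw [PowerSeries.coeff_zero_X_mul, hD0']
    | succ n => rw [PowerSeries.coeff_succ_X_mul, hU₀, PowerSeries.coeff_mk]
  have hUunit : IsUnit U₀ := by
    rw [PowerSeries.isUnit_iff_constantCoeff, ← PowerSeries.coeff_zero_eq_constantCoeff_apply,
      hU₀, PowerSeries.coeff_mk, hD1']
    exact isUnit_one
  obtain ⟨V₀, hV⟩ := hUunit.exists_left_inv
  -- `X * H = V * (D * H)`
  have hXH : (PowerSeries.X : PowerSeries ℂ) * H ∈ coeffSubring 𝒪 := by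
    have : (PowerSeries.X : PowerSeries ℂ) * H =
        PowerSeries.map 𝒪.subtype V₀ * (PowerSeries.map 𝒪.subtype D₀ * H) := by
      rw [hDU, map_mul, PowerSeries.map_X, ← mul_assoc, ← mul_assoc,
        mul_comm (PowerSeries.map 𝒪.subtype V₀) PowerSeries.X, mul_assoc PowerSeries.X,
        ← map_mul, hV, map_one, mul_one]
    rw [this]
    exact (coeffSubring 𝒪).mul_mem ⟨V₀, rfl⟩ hDH
  rw [mem_coeffSubring_iff] at hXH ⊢
  intro n
  have := hXH (n + 1)
  rwa [PowerSeries.coeff_succ_X_mul] at this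

/-! ### Reduction modulo the maximal ideal -/

/-- `𝒪⟦X⟧ ≃ coeffSubring 𝒪`. -/
noncomputable def coeffEquiv (𝒪 : Subring ℂ) : PowerSeries 𝒪 ≃+* coeffSubring 𝒪 :=
  RingEquiv.ofBijective (PowerSeries.map 𝒪.subtype).rangeRestrict
    ⟨fun _ _ h => psMap_injective 𝒪 (congrArg Subtype.val h),
      (PowerSeries.map 𝒪.subtype).rangeRestrict_surjective⟩

theorem map_coeffEquiv_symm (𝒪 : Subring ℂ) (P : coeffSubring 𝒪) :
    PowerSeries.map 𝒪.subtype ((coeffEquiv 𝒪).symm P) = P.1 := by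
  have := (coeffEquiv 𝒪).apply_symm_apply P
  exact congrArg Subtype.val this

theorem coeff_coeffEquiv_symm (𝒪 : Subring ℂ) (P : coeffSubring 𝒪) (n : ℕ) :
    ((PowerSeries.coeff n ((coeffEquiv 𝒪).symm P) : 𝒪) : ℂ) = PowerSeries.coeff n P.1 := by
  have := congrArg (PowerSeries.coeff n) (map_coeffEquiv_symm 𝒪 P)
  rwa [PowerSeries.coeff_map] at this

variable (𝒪 : Subring ℂ) [IsLocalRing 𝒪]

/-- Reduction of a power series with `𝒪`-coefficients modulo the maximal ideal. -/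
noncomputable def red : coeffSubring 𝒪 →+* PowerSeries (IsLocalRing.ResidueField 𝒪) :=
  (PowerSeries.map (IsLocalRing.residue 𝒪)).comp (coeffEquiv 𝒪).symm.toRingHom

theorem coeff_red (P : coeffSubring 𝒪) (n : ℕ) (h : PowerSeries.coeff n P.1 ∈ 𝒪) :
    PowerSeries.coeff n (red 𝒪 P) = IsLocalRing.residue 𝒪 ⟨PowerSeries.coeff n P.1, h⟩ := by
  unfold red
  rw [RingHom.comp_apply, PowerSeries.coeff_map]
  congr 1
  apply Subtype.ext
  exact coeff_coeffEquiv_symm 𝒪 P n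

theorem red_C {c : ℂ} (hc : c ∈ 𝒪) :
    red 𝒪 ⟨PowerSeries.C c, C_mem_coeffSubring hc⟩ =
      PowerSeries.C (IsLocalRing.residue 𝒪 ⟨c, hc⟩) := by
  ext n
  have hmem : PowerSeries.coeff n (PowerSeries.C c) ∈ 𝒪 :=
    mem_coeffSubring_iff.mp (C_mem_coeffSubring hc) n
  rw [coeff_red 𝒪 _ n hmem]
  by_cases hn : n = 0
  · subst hn
    conv_rhs => rw [PowerSeries.coeff_C, if_pos rfl]
    congr 1
    apply Subtype.ext
    simp
  · conv_rhs => rw [PowerSeries.coeff_C, if_neg hn]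
    have : (⟨PowerSeries.coeff n (PowerSeries.C c), hmem⟩ : 𝒪) = 0 := by
      apply Subtype.ext
      simp [PowerSeries.coeff_C, hn]
    rw [this, map_zero]

/-- If all higher coefficients of `P` lie in the maximal ideal, `red P` is a constant. -/
theorem red_eq_C_of_forall_mem (P : coeffSubring 𝒪)
    (hpos : ∀ n, 1 ≤ n → ∀ h : PowerSeries.coeff n P.1 ∈ 𝒪,
      (⟨PowerSeries.coeff n P.1, h⟩ : 𝒪) ∈ IsLocalRing.maximalIdeal 𝒪)
    (h0 : PowerSeries.coeff 0 P.1 ∈ 𝒪) :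
    red 𝒪 P = PowerSeries.C (IsLocalRing.residue 𝒪 ⟨PowerSeries.coeff 0 P.1, h0⟩) := by
  ext n
  have hmem : PowerSeries.coeff n P.1 ∈ 𝒪 := mem_coeffSubring_iff.mp P.2 n
  rw [coeff_red 𝒪 _ n hmem]
  by_cases hn : n = 0
  · subst hn
    conv_rhs => rw [PowerSeries.coeff_C, if_pos rfl]
  · conv_rhs => rw [PowerSeries.coeff_C, if_neg hn]
    exact (IsLocalRing.residue_eq_zero_iff _).mpr (hpos n (Nat.one_le_iff_ne_zero.mpr hn) hmem)

end Fermat.Agent.S16.H51
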