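/-
helper51 — S16 / (U, l ≥ 5), Swinnerton-Dyer-free route: level-one modular forms of weight `12 n`
with `𝒪`-integral `q`-expansion are `𝒪`-combinations of `E₄^(3j) Δ^(n-j)` (Mathlib + H51_CountPS).
-/
import Mathlib
import Fermat.Agent.S16.H51_CountPS

set_option autoImplicit false

open UpperHalfPlane ModularForm ModularFormClass EisensteinSeries MatrixGroups

namespace Fermat.Agent.S16.H51

/-- `q`-expansion of `E₄`. -/
noncomputable def q4 : PowerSeries ℂ := qExpansion 1 E₄
/-- `q`-expansion of `E₆`. -/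
noncomputable def q6 : PowerSeries ℂ := qExpansion 1 E₆
/-- `q`-expansion of `Δ`. -/
noncomputable def qD : PowerSeries ℂ := qExpansion 1 ModularForm.discriminant

theorem coeff_zero_q4 : PowerSeries.coeff 0 q4 = 1 := E_qExpansion_coeff_zero _ ⟨2, rfl⟩
theorem coeff_zero_q6 : PowerSeries.coeff 0 q6 = 1 := E_qExpansion_coeff_zero _ ⟨3, rfl⟩

theorem coeff_zero_qD : PowerSeries.coeff 0 qD = 0 := by
  have h := discriminant_qExpansion_order
  have := PowerSeries.coeff_of_lt_order (φ := qExpansion 1 ModularForm.discriminant) 0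
    (by rw [h]; exact_mod_cast zero_lt_one)
  exact this

theorem coeff_one_qD : PowerSeries.coeff 1 qD = 1 := discriminant_qExpansion_coeff_one

theorem qExpansion_const (c : ℂ) (f : ModularForm 𝒮ℒ 0) (hf : ⇑f = Function.const ℍ c) :
    qExpansion 1 f = PowerSeries.C c := by
  have h1 : (⇑f : ℍ → ℂ) = c • ⇑(1 : ModularForm 𝒮ℒ 0) := by
    rw [hf]
    funext z
    simp
  rw [h1, ModularForm.qExpansion_smul one_pos one_mem_strictPeriods_SL c (1 : ModularForm 𝒮ℒ 0),
    ModularForm.qExpansion_one, PowerSeries.smul_eq_C_mul, mul_one]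

/-- **Lemma P**: a level-one form of weight `12 n` whose `q`-expansion has coefficients in `𝒪`
is an `𝒪`-linear combination of the `E₄^(3j) Δ^(n-j)`, `j ≤ n` (on `q`-expansions). -/
theorem exists_coeffs (𝒪 : Subring ℂ) (h4 : q4 ∈ coeffSubring 𝒪) (hD : qD ∈ coeffSubring 𝒪) :
    ∀ (n : ℕ) (k : ℤ) (_ : k = 12 * n) (f : ModularForm 𝒮ℒ k),
      qExpansion 1 f ∈ coeffSubring 𝒪 →
      ∃ c : ℕ → 𝒪, qExpansion 1 f =
        ∑ j ∈ Finset.range (n + 1), PowerSeries.C ((c j : ℂ)) * q4 ^ (3 * j) * qD ^ (n - j) := by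
  intro n
  induction n with
  | zero =>
    intro k hk f hf
    have hk0 : k = 0 := by simpa using hk
    subst hk0
    obtain ⟨c, hc⟩ := levelOne_weight_zero_const f
    have hq := qExpansion_const c f hc
    have hcO : c ∈ 𝒪 := by
      have := mem_coeffSubring_iff.mp hf 0
      rwa [hq, PowerSeries.coeff_zero_C] at this
    refine ⟨fun _ => ⟨c, hcO⟩, ?_⟩
    rw [hq]
    simp
  | succ n ih =>
    intro k hk f hf
    set a₀ : ℂ := PowerSeries.coeff 0 (qExpansion 1 f) with ha₀
    have ha₀O : a₀ ∈ 𝒪 := mem_coeffSubring_iff.mp hf 0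
    have hw : ((3 * (n + 1) : ℕ) : ℤ) * 4 = k := by
      rw [hk]
      push_cast
      ring
    set E4p : ModularForm 𝒮ℒ k := ModularForm.mcast hw (E₄.pow (3 * (n + 1))) with hE4p
    have hqE4p : qExpansion 1 E4p = q4 ^ (3 * (n + 1)) := by
      rw [hE4p, ModularForm.qExpansion_mcast,
        ModularForm.qExpansion_pow one_pos one_mem_strictPeriods_SL]
      rfl
    set g : ModularForm 𝒮ℒ k := f - a₀ • E4p with hg
    have hqg : qExpansion 1 g = qExpansion 1 f - a₀ • q4 ^ (3 * (n + 1)) := by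
      have h1 : (⇑g : ℍ → ℂ) = ⇑f - ⇑(a₀ • E4p) := rfl
      have h2 : (⇑(a₀ • E4p) : ℍ → ℂ) = a₀ • ⇑E4p := rfl
      rw [h1, ModularForm.qExpansion_sub one_pos one_mem_strictPeriods_SL f (a₀ • E4p), h2,
        ModularForm.qExpansion_smul one_pos one_mem_strictPeriods_SL a₀ E4p, hqE4p]
    have hc4 : PowerSeries.constantCoeff q4 = 1 := by
      rw [← PowerSeries.coeff_zero_eq_constantCoeff_apply]
      exact coeff_zero_q4
    have hg0 : PowerSeries.coeff 0 (qExpansion 1 g) = 0 := by
      rw [hqg, map_sub, PowerSeries.coeff_smul]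
      have : PowerSeries.coeff 0 (q4 ^ (3 * (n + 1))) = 1 := by
        rw [PowerSeries.coeff_zero_eq_constantCoeff_apply, map_pow, hc4, one_pow]
      rw [this, smul_eq_mul, mul_one, ← ha₀, sub_self]
    have hgmem : qExpansion 1 g ∈ coeffSubring 𝒪 := by
      rw [hqg]
      exact (coeffSubring 𝒪).sub_mem hf
        (smul_mem_coeffSubring ha₀O ((coeffSubring 𝒪).pow_mem h4 _))
    have hfac := ModularForm.qExpansion_eq_qExpansion_discriminant_mul g hg0
    set h' : ModularForm 𝒮ℒ (k - 12) := CuspForm.discriminantEquiv (g.toCuspForm hg0) with hh'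
    have hh'mem : qExpansion 1 h' ∈ coeffSubring 𝒪 := by
      refine mem_coeffSubring_of_mul_mem hD coeff_zero_qD coeff_one_qD ?_
      have : qD * qExpansion 1 h' = qExpansion 1 g := hfac.symm
      rw [this]
      exact hgmem
    have hk' : k - 12 = 12 * (n : ℤ) := by
      rw [hk]
      push_cast
      ring
    obtain ⟨c, hc⟩ := ih (k - 12) hk' h' hh'mem
    classical
    refine ⟨fun j => if j = n + 1 then ⟨a₀, ha₀O⟩ else c j, ?_⟩
    have hf_eq : qExpansion 1 f = qExpansion 1 g + a₀ • q4 ^ (3 * (n + 1)) := by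
      rw [hqg]
      ring
    rw [hf_eq, hfac, Finset.sum_range_succ]
    congr 1
    · change qD * qExpansion 1 h' = _
      rw [hc, Finset.mul_sum]
      refine Finset.sum_congr rfl fun j hj => ?_
      have hjn : j ≤ n := Nat.lt_succ_iff.mp (Finset.mem_range.mp hj)
      have hne : j ≠ n + 1 := by omega
      dsimp only
      rw [if_neg hne, show n + 1 - j = (n - j) + 1 by omega, pow_succ]
      ring
    · dsimp only
      rw [if_pos rfl, Nat.sub_self, pow_zero, mul_one, PowerSeries.smul_eq_C_mul]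

end Fermat.Agent.S16.H51
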