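/-
helper51 — S16 / (U, l ≥ 5), Swinnerton-Dyer-free route: integrality of the `q`-expansions of
`E₄`, `E₆`, `Δ`, and `E_{l-1} ≡ 1 (mod l)` via von Staudt–Clausen (Mathlib + H51_CountMF).
-/
import Mathlib
import Fermat.Agent.S16.H51_CountMF

set_option autoImplicit false

open UpperHalfPlane ModularForm ModularFormClass EisensteinSeries MatrixGroups IsLocalRing

namespace Fermat.Agent.S16.H51

/-! ### `E₄`, `E₆` have integer coefficients -/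

theorem q4_mem (𝒪 : Subring ℂ) : q4 ∈ coeffSubring 𝒪 := by
  rw [mem_coeffSubring_iff]
  intro m
  rw [q4, E_qExpansion_coeff _ ⟨2, rfl⟩]
  split_ifs
  · exact 𝒪.one_mem
  · have : (-(2 * ((4 : ℕ) : ℂ) / ((bernoulli 4 : ℚ) : ℂ))) = ((240 : ℕ) : ℂ) := by
      rw [show bernoulli 4 = -1 / 30 by decide +kernel]
      push_cast
      norm_num
    rw [this, ← Nat.cast_mul]
    exact natCast_mem 𝒪 _

theorem q6_mem (𝒪 : Subring ℂ) : q6 ∈ coeffSubring 𝒪 := by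
  rw [mem_coeffSubring_iff]
  intro m
  rw [q6, E_qExpansion_coeff _ ⟨3, rfl⟩]
  split_ifs
  · exact 𝒪.one_mem
  · have : (-(2 * ((6 : ℕ) : ℂ) / ((bernoulli 6 : ℚ) : ℂ))) = -((504 : ℕ) : ℂ) := by
      rw [show bernoulli 6 = 1 / 42 by decide +kernel]
      push_cast
      norm_num
    rw [this, neg_mul, ← Nat.cast_mul]
    exact 𝒪.neg_mem (natCast_mem 𝒪 _)

/-! ### `1728 Δ = E₄³ - E₆²` on `q`-expansions -/

theorem qD_rel : (1728 : ℂ) • qD = q4 ^ 3 - q6 ^ 2 := by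
  set G : ModularForm 𝒮ℒ 12 :=
    ModularForm.mcast (by decide) (E₄.pow 3) - ModularForm.mcast (by decide) (E₆.pow 2) with hG
  have hGq : qExpansion 1 G = q4 ^ 3 - q6 ^ 2 := by
    have h1 : (⇑G : ℍ → ℂ) = ⇑(ModularForm.mcast (by decide) (E₄.pow 3) : ModularForm 𝒮ℒ 12) -
        ⇑(ModularForm.mcast (by decide) (E₆.pow 2) : ModularForm 𝒮ℒ 12) := rfl
    rw [h1, ModularForm.qExpansion_sub one_pos one_mem_strictPeriods_SL,
      ModularForm.qExpansion_mcast, ModularForm.qExpansion_mcast,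
      ModularForm.qExpansion_pow one_pos one_mem_strictPeriods_SL,
      ModularForm.qExpansion_pow one_pos one_mem_strictPeriods_SL]
    rfl
  have hfun : (⇑G : ℍ → ℂ) = (1728 : ℂ) • ⇑CuspForm.discriminant := by
    funext z
    have := discriminant_eq_E₄_cube_sub_E₆_sq z
    have hz : G z = E₄ z ^ 3 - E₆ z ^ 2 := by
      simp only [hG, ModularForm.coe_mcast, ModularForm.coe_pow, sub_apply,
        Pi.pow_apply]
    rw [hz, Pi.smul_apply, smul_eq_mul, CuspForm.coe_discriminant, this]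
    ring
  rw [← hGq, hfun, ModularForm.qExpansion_smul one_pos one_mem_strictPeriods_SL (1728 : ℂ)
    CuspForm.discriminant, CuspForm.coe_discriminant]
  rfl

theorem qD_mem (𝒪 : Subring ℂ) (h : ((1728 : ℂ))⁻¹ ∈ 𝒪) : qD ∈ coeffSubring 𝒪 := by
  have : qD = ((1728 : ℂ))⁻¹ • (q4 ^ 3 - q6 ^ 2) := by
    rw [← qD_rel, smul_smul, inv_mul_cancel₀ (by norm_num), one_smul]
  rw [this]
  exact smul_mem_coeffSubring h
    ((coeffSubring 𝒪).sub_mem ((coeffSubring 𝒪).pow_mem (q4_mem 𝒪) _)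
      ((coeffSubring 𝒪).pow_mem (q6_mem 𝒪) _))

/-! ### Local subrings of `ℂ` -/

section Local

variable (𝒪 : Subring ℂ) [IsLocalRing 𝒪] {l : ℕ} (hl : l.Prime)
  (hlO : (l : 𝒪) ∈ maximalIdeal 𝒪)

include hl hlO

theorem natCast_isUnit {n : ℕ} (hn : ¬ l ∣ n) : IsUnit (n : 𝒪) := by
  rw [← notMem_maximalIdeal]
  intro hmem
  have hcop : Nat.Coprime l n := (Nat.Prime.coprime_iff_not_dvd hl).mpr hn
  obtain ⟨a, b, hab⟩ := Nat.Coprime.isCoprime hcop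
  have h1 : ((a * (l : ℤ) + b * (n : ℤ) : ℤ) : 𝒪) = 1 := by
    rw [hab]
    simp
  have h2 : ((a * (l : ℤ) + b * (n : ℤ) : ℤ) : 𝒪) ∈ maximalIdeal 𝒪 := by
    push_cast
    exact Ideal.add_mem _ (Ideal.mul_mem_left _ _ hlO) (Ideal.mul_mem_left _ _ hmem)
  rw [h1] at h2
  exact (Ideal.ne_top_iff_one _).mp (maximalIdeal.isMaximal 𝒪).ne_top h2

theorem natCast_inv_mem {n : ℕ} (hn : ¬ l ∣ n) : ((n : ℂ))⁻¹ ∈ 𝒪 := by
  obtain ⟨u, hu⟩ := (natCast_isUnit 𝒪 hl hlO hn).exists_right_inv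
  have h1 : (n : ℂ) * (u : ℂ) = 1 := by
    have := congrArg (Subtype.val) hu
    simpa using this
  have hn0 : (n : ℂ) ≠ 0 := left_ne_zero_of_mul_eq_one h1
  have : ((n : ℂ))⁻¹ = (u : ℂ) := inv_eq_of_mul_eq_one_right h1
  rw [this]
  exact u.2

omit hl in
/-- `z = l * w` with `w ∈ 𝒪` lies in the maximal ideal. -/
theorem mul_mem_max {w : ℂ} (hw : w ∈ 𝒪) (h : (l : ℂ) * w ∈ 𝒪) :
    (⟨(l : ℂ) * w, h⟩ : 𝒪) ∈ maximalIdeal 𝒪 := by
  have : (⟨(l : ℂ) * w, h⟩ : 𝒪) = (l : 𝒪) * ⟨w, hw⟩ := by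
    apply Subtype.ext
    simp
  rw [this]
  exact Ideal.mul_mem_right _ _ hlO

/-- von Staudt–Clausen: `-(2 (l-1) / B_{l-1}) = l * w` with `w ∈ 𝒪`. -/
theorem exists_bernoulli_factor (hl5 : 5 ≤ l) :
    ∃ w : ℂ, w ∈ 𝒪 ∧
      (-(2 * ((l - 1 : ℕ) : ℂ) / ((bernoulli (l - 1) : ℚ) : ℂ))) = (l : ℂ) * w := by
  classical
  have hodd : Odd l := hl.odd_of_ne_two (by omega)
  obtain ⟨k₀, hk₀⟩ := hodd
  have hl1 : l - 1 = 2 * k₀ := by omega
  obtain ⟨Z, hZ⟩ := Bernoulli.vonStaudt_clausen k₀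
  set F := (Finset.range (2 * k₀ + 2)).filter (fun p => p.Prime ∧ (p - 1) ∣ 2 * k₀) with hF
  have hlF : l ∈ F := by
    rw [hF, Finset.mem_filter, Finset.mem_range]
    refine ⟨by omega, hl, ?_⟩
    rw [hl1]
  rw [← Finset.add_sum_erase F _ hlF] at hZ
  -- cast to ℂ
  have hZ' : (Z : ℂ) = ((bernoulli (2 * k₀) : ℚ) : ℂ) + (1 / (l : ℂ) +
      ∑ p ∈ F.erase l, 1 / (p : ℂ)) := by
    have := congrArg (fun q : ℚ => (q : ℂ)) hZ
    simpa using this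
  set B : ℂ := ((bernoulli (2 * k₀) : ℚ) : ℂ) with hB
  set R : ℂ := ∑ p ∈ F.erase l, 1 / (p : ℂ) with hR
  have hRO : R ∈ 𝒪 := by
    rw [hR]
    refine sum_mem fun p hp => ?_
    rw [Finset.mem_erase, hF, Finset.mem_filter] at hp
    have hpl : ¬ l ∣ p := by
      intro hdvd
      rcases (Nat.dvd_prime hp.2.2.1).mp hdvd with h | h
      · exact hl.one_lt.ne' h
      · exact hp.1 h.symm
    rw [one_div]
    exact natCast_inv_mem 𝒪 hl hlO hpl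
  have hl0 : (l : ℂ) ≠ 0 := Nat.cast_ne_zero.mpr hl.ne_zero
  set r : ℂ := (Z : ℂ) - R with hr
  have hrO : r ∈ 𝒪 := 𝒪.sub_mem (intCast_mem 𝒪 Z) hRO
  have hy : (l : ℂ) * B = -1 + (l : ℂ) * r := by
    rw [hr, hZ']
    field_simp
    ring
  have hlrO : (l : ℂ) * r ∈ 𝒪 := 𝒪.mul_mem (natCast_mem 𝒪 l) hrO
  have hyO : (l : ℂ) * B ∈ 𝒪 := by
    rw [hy]
    exact 𝒪.add_mem (𝒪.neg_mem 𝒪.one_mem) hlrO
  have hyunit : IsUnit (⟨(l : ℂ) * B, hyO⟩ : 𝒪) := by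
    rw [← notMem_maximalIdeal]
    intro hmem
    have h1 : (1 : 𝒪) = ⟨(l : ℂ) * r, hlrO⟩ - ⟨(l : ℂ) * B, hyO⟩ := by
      apply Subtype.ext
      change (1 : ℂ) = (l : ℂ) * r - (l : ℂ) * B
      rw [hy]
      ring
    have h2 : (1 : 𝒪) ∈ maximalIdeal 𝒪 := by
      rw [h1]
      exact Ideal.sub_mem _ (mul_mem_max 𝒪 hlO hrO hlrO) hmem
    exact (Ideal.ne_top_iff_one _).mp (maximalIdeal.isMaximal 𝒪).ne_top h2
  obtain ⟨u, hu⟩ := hyunit.exists_right_inv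
  have hu' : (l : ℂ) * B * (u : ℂ) = 1 := by
    have := congrArg Subtype.val hu
    simpa using this
  have hyinv : ((l : ℂ) * B)⁻¹ = (u : ℂ) := inv_eq_of_mul_eq_one_right hu'
  have hB0 : B ≠ 0 := by
    intro h
    rw [h, mul_zero, zero_mul] at hu'
    exact zero_ne_one hu'
  refine ⟨-(2 * ((l - 1 : ℕ) : ℂ)) * (u : ℂ), 𝒪.mul_mem (𝒪.neg_mem (𝒪.mul_mem ?_ (natCast_mem 𝒪 _)))
    u.2, ?_⟩
  · exact ofNat_mem 𝒪 2
  · rw [hl1, ← hB, ← hyinv]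
    field_simp

/-- The `q`-expansion of `E_{l-1}` has coefficients in `𝒪`, the higher ones in the maximal
ideal. -/
theorem qEl_coeff (hl5 : 5 ≤ l) (hk : 3 ≤ l - 1) (m : ℕ) :
    ∃ h : PowerSeries.coeff m (qExpansion 1 (E hk)) ∈ 𝒪,
      1 ≤ m → (⟨_, h⟩ : 𝒪) ∈ maximalIdeal 𝒪 := by
  have heven : Even (l - 1) := by
    have hodd : Odd l := hl.odd_of_ne_two (by omega)
    obtain ⟨k₀, hk₀⟩ := hodd
    exact ⟨k₀, by omega⟩
  obtain ⟨w, hwO, hw⟩ := exists_bernoulli_factor 𝒪 hl hlO hl5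
  have hcoeff := E_qExpansion_coeff hk heven m
  by_cases hm : m = 0
  · subst hm
    rw [if_pos rfl] at hcoeff
    refine ⟨hcoeff ▸ 𝒪.one_mem, fun h => absurd h (by norm_num)⟩
  · rw [if_neg hm, hw, mul_assoc] at hcoeff
    have hwσ : w * ((ArithmeticFunction.sigma (l - 1 - 1) m : ℕ) : ℂ) ∈ 𝒪 :=
      𝒪.mul_mem hwO (natCast_mem 𝒪 _)
    have hmem : (l : ℂ) * (w * ((ArithmeticFunction.sigma (l - 1 - 1) m : ℕ) : ℂ)) ∈ 𝒪 :=
      𝒪.mul_mem (natCast_mem 𝒪 l) hwσ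
    refine ⟨hcoeff ▸ hmem, fun _ => ?_⟩
    have := mul_mem_max 𝒪 hlO hwσ hmem
    convert this using 2
    

end Local

end Fermat.Agent.S16.H51
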