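/-
helper51 — S16 / (U, l ≥ 5), Swinnerton-Dyer-free route, abstract algebra part (Mathlib only).

`k ⊆ L` fields, `J ∈ L` transcendental over `k`, `e4 e6 dl ∈ L` with
`e4³ = J·dl`, `e6² = (J - 1728)·dl`, and `dl^n · S(J) = 1` for a polynomial `S` of degree `≤ n`.
Then `t := e6 / e4` is not in `k(J)` (a multiplicity count at `J = 1728`), and consequently
there is `d > 1`, `d ∣ 6 n`, with `t ^ i ∈ k(J) → d ∣ i`.
-/
import Mathlib

set_option autoImplicit false

open Polynomial IntermediateField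

namespace Fermat.Agent.S16.H51

section Count

variable {k L : Type*} [Field k] [Field L] [Algebra k L]

/-- The basic identity `t⁶ J² = (J - 1728)³ dl` for `t = e6 / e4`. -/
theorem t_pow_six {J e4 e6 dl : L} (he4 : e4 ≠ 0)
    (h4 : e4 ^ 3 = J * dl) (h6 : e6 ^ 2 = (J - 1728) * dl) :
    (e6 / e4) ^ 6 * J ^ 2 = (J - 1728) ^ 3 * dl := by
  have hdl : dl ≠ 0 := by
    rintro rfl
    rw [mul_zero] at h4
    exact he4 (pow_eq_zero_iff (by norm_num) |>.mp h4)
  have hJ : J ≠ 0 := by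
    rintro rfl
    rw [zero_mul] at h4
    exact he4 (pow_eq_zero_iff (by norm_num) |>.mp h4)
  rw [div_pow, div_mul_eq_mul_div, div_eq_iff (pow_ne_zero 6 he4)]
  have e1 : e6 ^ 6 = ((J - 1728) * dl) ^ 3 := by rw [← h6]; ring
  have e2 : e4 ^ 6 = (J * dl) ^ 2 := by rw [← h4]; ring
  rw [e1, e2]
  ring

theorem t_pow_six_mul {J e4 e6 dl : L} (he4 : e4 ≠ 0)
    (h4 : e4 ^ 3 = J * dl) (h6 : e6 ^ 2 = (J - 1728) * dl) (n : ℕ) {s : L}
    (hs : dl ^ n * s = 1) :
    (e6 / e4) ^ (6 * n) * J ^ (2 * n) * s = (J - 1728) ^ (3 * n) := by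
  have h := t_pow_six he4 h4 h6
  calc (e6 / e4) ^ (6 * n) * J ^ (2 * n) * s
      = ((e6 / e4) ^ 6 * J ^ 2) ^ n * s := by rw [mul_pow, ← pow_mul, ← pow_mul]
    _ = ((J - 1728) ^ 3 * dl) ^ n * s := by rw [h]
    _ = (J - 1728) ^ (3 * n) * (dl ^ n * s) := by rw [mul_pow, ← pow_mul, mul_assoc]
    _ = _ := by rw [hs, mul_one]

/-- **COUNT**: `e6 / e4 ∉ k(J)`. -/
theorem div_not_mem_adjoin {J e4 e6 dl : L} (hJ : Transcendental k J) (he4 : e4 ≠ 0)
    (h4 : e4 ^ 3 = J * dl) (h6 : e6 ^ 2 = (J - 1728) * dl)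
    (h1728 : (1728 : k) ≠ 0) {n : ℕ} (hn : 0 < n) (S : k[X]) (hSdeg : S.natDegree ≤ n)
    (hS : dl ^ n * aeval J S = 1) :
    e6 / e4 ∉ k⟮J⟯ := by
  intro hmem
  obtain ⟨A, B, hAB⟩ := (mem_adjoin_simple_iff k _).mp hmem
  have hinj : Function.Injective (aeval (R := k) J) := transcendental_iff_injective.mp hJ
  have hdl : dl ≠ 0 := by
    rintro rfl
    rw [mul_zero] at h4
    exact he4 (pow_eq_zero_iff (by norm_num) |>.mp h4)
  have hJ1728 : J - 1728 ≠ 0 := by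
    intro h
    have : aeval J (X - C (1728 : k)) = 0 := by
      rw [map_sub, aeval_X, aeval_C, map_ofNat, h]
    have h2 := hinj (this.trans (map_zero _).symm)
    exact X_sub_C_ne_zero _ h2
  have he6 : e6 ≠ 0 := by
    intro h
    rw [h] at h6
    have : (J - 1728) * dl = 0 := by rw [← h6]; ring
    exact (mul_ne_zero hJ1728 hdl) this
  have hB : aeval J B ≠ 0 := by
    intro h
    rw [h, div_zero] at hAB
    exact (div_ne_zero he6 he4) hAB
  have hB0 : B ≠ 0 := by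
    rintro rfl
    exact hB (map_zero _)
  have key := t_pow_six_mul he4 h4 h6 n hS
  rw [hAB, div_pow, div_mul_eq_mul_div, div_mul_eq_mul_div,
    div_eq_iff (pow_ne_zero _ hB)] at key
  -- polynomial identity
  have hpoly : A ^ (6 * n) * X ^ (2 * n) * S = (X - C (1728 : k)) ^ (3 * n) * B ^ (6 * n) := by
    apply hinj
    simp only [map_mul, map_pow, aeval_X, map_sub, map_ofNat]
    rw [key]
  have hR : (X - C (1728 : k)) ^ (3 * n) * B ^ (6 * n) ≠ 0 :=
    mul_ne_zero (pow_ne_zero _ (X_sub_C_ne_zero _)) (pow_ne_zero _ hB0)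
  have hLne : A ^ (6 * n) * X ^ (2 * n) * S ≠ 0 := hpoly ▸ hR
  have hA0 : A ≠ 0 := by
    rintro rfl
    apply hLne
    rw [zero_pow (by omega), zero_mul, zero_mul]
  have hS0 : S ≠ 0 := right_ne_zero_of_mul hLne
  have hXroot : rootMultiplicity (1728 : k) (X : k[X]) = 0 :=
    rootMultiplicity_eq_zero (by simpa [IsRoot] using h1728)
  have hpowmult : ∀ (P : k[X]) (m : ℕ), P ≠ 0 →
      rootMultiplicity (1728 : k) (P ^ m) = m * rootMultiplicity (1728 : k) P := by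
    intro P m hP
    induction m with
    | zero => simp
    | succ m ih =>
      rw [pow_succ, rootMultiplicity_mul (mul_ne_zero (pow_ne_zero _ hP) hP), ih]
      ring
  have hm := congrArg (rootMultiplicity (1728 : k)) hpoly
  rw [rootMultiplicity_mul hLne, rootMultiplicity_mul (left_ne_zero_of_mul hLne),
    rootMultiplicity_mul hR, hpowmult A _ hA0, hpowmult B _ hB0, hpowmult X _ X_ne_zero,
    hXroot, rootMultiplicity_X_sub_C_pow] at hm
  have hSm : rootMultiplicity (1728 : k) S ≤ n := by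
    refine le_trans ?_ hSdeg
    have hdvd := pow_rootMultiplicity_dvd S (1728 : k)
    have := natDegree_le_of_dvd hdvd hS0
    rwa [natDegree_pow, natDegree_X_sub_C, mul_one] at this
  set a := rootMultiplicity (1728 : k) A
  set b := rootMultiplicity (1728 : k) B
  set s := rootMultiplicity (1728 : k) S
  rcases Nat.lt_or_ge b a with hab | hab
  · -- a ≥ b + 1
    have : 6 * n * (b + 1) ≤ 6 * n * a := Nat.mul_le_mul_left _ hab
    nlinarith
  · have : 6 * n * a ≤ 6 * n * b := Nat.mul_le_mul_left _ hab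
    nlinarith

/-- `t ^ (6 n) ∈ k(J)`. -/
theorem pow_mem_adjoin {J e4 e6 dl : L} (hJ : Transcendental k J) (he4 : e4 ≠ 0)
    (h4 : e4 ^ 3 = J * dl) (h6 : e6 ^ 2 = (J - 1728) * dl)
    {n : ℕ} (S : k[X]) (hS : dl ^ n * aeval J S = 1) :
    (e6 / e4) ^ (6 * n) ∈ k⟮J⟯ := by
  have key := t_pow_six_mul he4 h4 h6 n hS
  have hJ0 : J ≠ 0 := by
    rintro rfl
    rw [zero_mul] at h4
    exact he4 (pow_eq_zero_iff (by norm_num) |>.mp h4)
  have hS0 : aeval J S ≠ 0 := right_ne_zero_of_mul (hS ▸ one_ne_zero)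
  have hJmem : J ∈ k⟮J⟯ := mem_adjoin_simple_self k J
  have hSmem : aeval J S ∈ k⟮J⟯ := by
    rw [aeval_eq_sum_range]
    refine sum_mem fun i _ => ?_
    rw [Algebra.smul_def]
    exact mul_mem (IntermediateField.algebraMap_mem _ _) (pow_mem hJmem _)
  have : (e6 / e4) ^ (6 * n) = (J - 1728) ^ (3 * n) / (J ^ (2 * n) * aeval J S) := by
    rw [eq_div_iff (mul_ne_zero (pow_ne_zero _ hJ0) hS0), ← mul_assoc, key]
  rw [this]
  refine div_mem (pow_mem (sub_mem hJmem ?_) _) (mul_mem (pow_mem hJmem _) hSmem)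
  have : (1728 : L) = algebraMap k L 1728 := (map_ofNat _ _).symm
  rw [this]
  exact IntermediateField.algebraMap_mem _ _

/-- **(C3)**: there is `d > 1`, `d ∣ 6 n`, such that `t ^ i ∈ k(J)` forces `d ∣ i`. -/
theorem exists_period {J e4 e6 dl : L} (hJ : Transcendental k J) (he4 : e4 ≠ 0)
    (h4 : e4 ^ 3 = J * dl) (h6 : e6 ^ 2 = (J - 1728) * dl)
    (h1728 : (1728 : k) ≠ 0) {n : ℕ} (hn : 0 < n) (S : k[X]) (hSdeg : S.natDegree ≤ n)
    (hS : dl ^ n * aeval J S = 1) :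
    ∃ d : ℕ, 1 < d ∧ d ∣ 6 * n ∧ ∀ i : ℕ, (e6 / e4) ^ i ∈ k⟮J⟯ → d ∣ i := by
  classical
  set t := e6 / e4 with ht
  have hnot : t ∉ k⟮J⟯ := div_not_mem_adjoin hJ he4 h4 h6 h1728 hn S hSdeg hS
  have h6n : t ^ (6 * n) ∈ k⟮J⟯ := pow_mem_adjoin hJ he4 h4 h6 S hS
  have ht0 : t ≠ 0 := by
    intro h
    apply hnot
    rw [h]
    exact zero_mem _
  have hex : ∃ i : ℕ, 0 < i ∧ t ^ i ∈ k⟮J⟯ := ⟨6 * n, by omega, h6n⟩
  set d := Nat.find hex with hd
  have hdpos : 0 < d := (Nat.find_spec hex).1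
  have hdmem : t ^ d ∈ k⟮J⟯ := (Nat.find_spec hex).2
  have hdiv : ∀ i : ℕ, t ^ i ∈ k⟮J⟯ → d ∣ i := by
    intro i hi
    by_contra hnd
    have hr : 0 < i % d := Nat.pos_of_ne_zero fun h => hnd (Nat.dvd_of_mod_eq_zero h)
    have hlt : i % d < d := Nat.mod_lt _ hdpos
    have hmem : t ^ (i % d) ∈ k⟮J⟯ := by
      have hsplit : t ^ i = (t ^ d) ^ (i / d) * t ^ (i % d) := by
        rw [← pow_mul, ← pow_add, Nat.div_add_mod]
      have hq : (t ^ d) ^ (i / d) ≠ 0 := pow_ne_zero _ (pow_ne_zero _ ht0)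
      have : t ^ (i % d) = t ^ i / (t ^ d) ^ (i / d) := by
        rw [eq_div_iff hq, hsplit, mul_comm]
      rw [this]
      exact div_mem hi (pow_mem hdmem _)
    exact Nat.find_min hex hlt ⟨hr, hmem⟩
  refine ⟨d, ?_, hdiv _ h6n, hdiv⟩
  rcases Nat.lt_or_ge 1 d with h | h
  · exact h
  · exfalso
    have : d = 1 := by omega
    rw [this, pow_one] at hdmem
    exact hnot hdmem

end Count

end Fermat.Agent.S16.H51
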