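/-
helper51 — S16 / (U, l ≥ 5), Swinnerton-Dyer-free route: the formal statement over `k⟦X⟧`
(Mathlib + H51_CountAlg).
-/
import Mathlib
import Fermat.Agent.S16.H51_CountAlg

set_option autoImplicit false

open Polynomial IntermediateField

namespace Fermat.Agent.S16.H51

section PS

variable {k : Type*} [Field k]

local notation "ι" => algebraMap (PowerSeries k) (LaurentSeries k)

theorem iota_injective : Function.Injective (ι) :=
  IsFractionRing.injective (PowerSeries k) (LaurentSeries k)

theorem iota_C (a : k) : ι (PowerSeries.C a) = algebraMap k (LaurentSeries k) a := rfl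

/-- The polynomial `∑_{j ≤ m} a j X^j`. -/
noncomputable def coeffPoly (a : ℕ → k) (m : ℕ) : k[X] :=
  ∑ j ∈ Finset.range (m + 1), C (a j) * X ^ j

theorem natDegree_coeffPoly_le (a : ℕ → k) (m : ℕ) : (coeffPoly a m).natDegree ≤ m := by
  unfold coeffPoly
  refine natDegree_sum_le_of_forall_le _ _ fun j hj => ?_
  refine (natDegree_C_mul_X_pow_le _ _).trans ?_
  have := Finset.mem_range.mp hj
  omega

theorem aeval_coeffPoly {L : Type*} [Field L] [Algebra k L] (J : L) (a : ℕ → k) (m : ℕ) :
    aeval J (coeffPoly a m) = ∑ j ∈ Finset.range (m + 1), algebraMap k L (a j) * J ^ j := by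
  unfold coeffPoly
  rw [map_sum]
  refine Finset.sum_congr rfl fun j _ => ?_
  rw [map_mul, aeval_C, map_pow, aeval_X]

/-- Homogeneous sums become `dl^m * S(J)` in the Laurent series field. -/
theorem iota_hom_sum (r4 rD : PowerSeries k) (hD : rD ≠ 0) (a : ℕ → k) (m : ℕ) :
    ι (∑ j ∈ Finset.range (m + 1), PowerSeries.C (a j) * r4 ^ (3 * j) * rD ^ (m - j)) =
      (ι rD) ^ m * aeval ((ι r4) ^ 3 / ι rD) (coeffPoly a m) := by
  have hdl : ι rD ≠ 0 := fun h => hD (iota_injective (h.trans (map_zero _).symm))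
  rw [aeval_coeffPoly, map_sum, Finset.mul_sum]
  refine Finset.sum_congr rfl fun j hj => ?_
  have hjm : j ≤ m := Nat.lt_succ_iff.mp (Finset.mem_range.mp hj)
  rw [map_mul, map_mul, map_pow, map_pow, iota_C, div_pow]
  have : (ι rD) ^ m = (ι rD) ^ j * (ι rD) ^ (m - j) := by
    rw [← pow_add, Nat.add_sub_cancel' hjm]
  rw [this, pow_mul]
  field_simp

/-- `J = r4³ / rD` is transcendental over `k` when `r4(0) = 1`, `rD(0) = 0`, `rD ≠ 0`. -/
theorem transcendental_J (r4 rD : PowerSeries k) (h4 : PowerSeries.constantCoeff r4 = 1)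
    (hD0 : PowerSeries.constantCoeff rD = 0) (hD : rD ≠ 0) :
    Transcendental k ((ι r4) ^ 3 / ι rD) := by
  rw [transcendental_iff_injective, injective_iff_map_eq_zero]
  intro P hP
  by_contra hP0
  -- multiply by `dl ^ natDegree P`
  set m := P.natDegree with hm
  have hdl : ι rD ≠ 0 := fun h => hD (iota_injective (h.trans (map_zero _).symm))
  have hPeq : P = coeffPoly (fun j => P.coeff j) m := by
    unfold coeffPoly
    conv_lhs => rw [P.as_sum_range_C_mul_X_pow]
  have h1 := iota_hom_sum r4 rD hD (fun j => P.coeff j) m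
  rw [← hPeq, hP, mul_zero] at h1
  have h2 := iota_injective (h1.trans (map_zero _).symm)
  have h3 := congrArg PowerSeries.constantCoeff h2
  rw [map_sum, map_zero, Finset.sum_eq_single m] at h3
  · simp only [map_mul, map_pow, PowerSeries.constantCoeff_C, h4, one_pow, mul_one, Nat.sub_self,
      pow_zero] at h3
    exact hP0 (leadingCoeff_eq_zero.mp h3)
  · intro j hj hjm
    have hjlt : j < m := lt_of_le_of_ne (Nat.lt_succ_iff.mp (Finset.mem_range.mp hj)) hjm
    rw [map_mul, map_pow (PowerSeries.constantCoeff) rD, hD0, zero_pow (by omega), mul_zero]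
  · intro h
    exact absurd (Finset.mem_range.mpr (Nat.lt_succ_self m)) h

/-- **Formal version of COUNT + (C3)** over `k⟦X⟧`. -/
theorem exists_period_ps (h1728 : (1728 : k) ≠ 0) (r4 r6 rD : PowerSeries k)
    (h4 : PowerSeries.constantCoeff r4 = 1) (h6c : PowerSeries.constantCoeff r6 = 1)
    (hD0 : PowerSeries.constantCoeff rD = 0) (hD : rD ≠ 0)
    (hrel : PowerSeries.C (1728 : k) * rD = r4 ^ 3 - r6 ^ 2)
    {n : ℕ} (hn : 0 < n) (c : ℕ → k)
    (hS : ∑ j ∈ Finset.range (n + 1), PowerSeries.C (c j) * r4 ^ (3 * j) * rD ^ (n - j) = 1) :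
    ∃ d : ℕ, 1 < d ∧ d ∣ 6 * n ∧
      ∀ (i : ℕ) (a : ℕ → k) (u : k), u ≠ 0 →
        PowerSeries.C u * r4 ^ i * r6 ^ (11 * i) =
          ∑ j ∈ Finset.range (6 * i + 1),
            PowerSeries.C (a j) * r4 ^ (3 * j) * rD ^ (6 * i - j) → d ∣ i := by
  set e4 := ι r4 with he4d
  set e6 := ι r6 with he6d
  set dl := ι rD with hdld
  set J := e4 ^ 3 / dl with hJd
  have hdl : dl ≠ 0 := fun h => hD (iota_injective (h.trans (map_zero _).symm))
  have hr4 : r4 ≠ 0 := by
    rintro rfl
    simp at h4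
  have hr6 : r6 ≠ 0 := by
    rintro rfl
    simp at h6c
  have he4 : e4 ≠ 0 := fun h => hr4 (iota_injective (h.trans (map_zero _).symm))
  have he6 : e6 ≠ 0 := fun h => hr6 (iota_injective (h.trans (map_zero _).symm))
  have hJtr : Transcendental k J := transcendental_J r4 rD h4 hD0 hD
  have h4' : e4 ^ 3 = J * dl := by
    rw [hJd, div_mul_cancel₀ _ hdl]
  have h1728L : algebraMap k (LaurentSeries k) 1728 = 1728 := map_ofNat _ _
  have h6' : e6 ^ 2 = (J - 1728) * dl := by
    have := congrArg (ι) hrel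
    rw [map_mul, iota_C, map_sub, map_pow, map_pow, h1728L, ← hdld, ← he4d, ← he6d] at this
    rw [sub_mul, ← h4']
    linear_combination this
  have hS' : dl ^ n * aeval J (coeffPoly c n) = 1 := by
    have := iota_hom_sum r4 rD hD c n
    rw [hS, map_one] at this
    exact this.symm
  obtain ⟨d, hd1, hd6, hd⟩ := exists_period hJtr he4 h4' h6' h1728 hn (coeffPoly c n)
    (natDegree_coeffPoly_le c n) hS'
  refine ⟨d, hd1, hd6, fun i a u hu hid => hd i ?_⟩
  -- reduction: `u * (e4/e6)^i ∈ k(J)`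
  have hJmem : J ∈ k⟮J⟯ := mem_adjoin_simple_self k J
  have haeval_mem : ∀ P : k[X], aeval J P ∈ k⟮J⟯ := by
    intro P
    rw [aeval_eq_sum_range]
    refine sum_mem fun i _ => ?_
    rw [Algebra.smul_def]
    exact mul_mem (IntermediateField.algebraMap_mem _ _) (pow_mem hJmem _)
  have h1 := congrArg (ι) hid
  rw [iota_hom_sum r4 rD hD a (6 * i), map_mul, map_mul, map_pow, map_pow, iota_C] at h1
  -- `e6^(12 i) = ((J - 1728) dl)^(6 i)`
  have h12 : e6 ^ (12 * i) = ((J - 1728) * dl) ^ (6 * i) := by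
    rw [← h6', ← pow_mul]
    congr 1
    ring
  have hJ1728 : J - 1728 ≠ 0 := by
    intro h
    rw [h, zero_mul] at h6'
    exact he6 (pow_eq_zero_iff (by norm_num) |>.mp h6')
  have hu' : algebraMap k (LaurentSeries k) u ≠ 0 := by
    rwa [Ne, map_eq_zero]
  have hkey : algebraMap k (LaurentSeries k) u * (e4 / e6) ^ i =
      aeval J (coeffPoly a (6 * i)) / (J - 1728) ^ (6 * i) := by
    rw [eq_div_iff (pow_ne_zero _ hJ1728), div_pow, mul_div_assoc', div_mul_eq_mul_div,
      div_eq_iff (pow_ne_zero _ he6)]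
    have e1 : e6 ^ i * e6 ^ (11 * i) = e6 ^ (12 * i) := by
      rw [← pow_add]
      congr 1
      ring
    calc algebraMap k (LaurentSeries k) u * e4 ^ i * (J - 1728) ^ (6 * i)
        = (algebraMap k (LaurentSeries k) u * e4 ^ i * e6 ^ (11 * i)) * (J - 1728) ^ (6 * i)
            / e6 ^ (11 * i) := by
          field_simp
      _ = (dl ^ (6 * i) * aeval J (coeffPoly a (6 * i))) * (J - 1728) ^ (6 * i)
            / e6 ^ (11 * i) := by rw [h1]
      _ = aeval J (coeffPoly a (6 * i)) * ((J - 1728) * dl) ^ (6 * i) / e6 ^ (11 * i) := by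
          rw [mul_pow]
          ring
      _ = aeval J (coeffPoly a (6 * i)) * e6 ^ (12 * i) / e6 ^ (11 * i) := by rw [h12]
      _ = aeval J (coeffPoly a (6 * i)) * e6 ^ i := by
          rw [← e1]
          field_simp
  have hmem1 : algebraMap k (LaurentSeries k) u * (e4 / e6) ^ i ∈ k⟮J⟯ := by
    rw [hkey]
    refine div_mem (haeval_mem _) (pow_mem (sub_mem hJmem ?_) _)
    rw [← h1728L]
    exact IntermediateField.algebraMap_mem _ _
  have hne : algebraMap k (LaurentSeries k) u * (e4 / e6) ^ i ≠ 0 :=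
    mul_ne_zero hu' (pow_ne_zero _ (div_ne_zero he4 he6))
  have : (e6 / e4) ^ i =
      algebraMap k (LaurentSeries k) u / (algebraMap k (LaurentSeries k) u * (e4 / e6) ^ i) := by
    rw [eq_div_iff hne, ← mul_assoc, mul_comm _ (algebraMap k (LaurentSeries k) u), mul_assoc,
      ← mul_pow, div_mul_div_comm, mul_comm e6 e4, div_self (mul_ne_zero he4 he6), one_pow,
      mul_one]
  rw [this]
  exact div_mem (IntermediateField.algebraMap_mem _ _) hmem1

end PS

end Fermat.Agent.S16.H51
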