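/-
helper51 — S16 / (U, l ≥ 5): Swinnerton-Dyer-free substitute for the level-one weight congruence.

`count_sparse`: for a prime `l ≥ 5` and a local subring `𝒪 ⊆ ℂ` with `l` in its maximal ideal there
is `d > 1`, prime to `l`, such that every level-one modular form with `𝒪`-integral `q`-expansion
which is congruent to a unit constant modulo the maximal ideal has weight divisible by `2 d`.
(The true value is `d = (l - 1) / 2`; the statement does not need it.)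
-/
import Mathlib
import Fermat.Agent.S16.H51_CountField
import Fermat.Agent.S16.H51_CountEis

set_option autoImplicit false

open UpperHalfPlane ModularForm ModularFormClass EisensteinSeries MatrixGroups IsLocalRing

namespace Fermat.Agent.S16.H51

section Main

variable (𝒪 : Subring ℂ) [IsLocalRing 𝒪]

/-- `C c` as an element of `coeffSubring 𝒪`. -/
noncomputable def cO (c : 𝒪) : coeffSubring 𝒪 := ⟨PowerSeries.C (c : ℂ), C_mem_coeffSubring c.2⟩

theorem red_cO (c : 𝒪) : red 𝒪 (cO 𝒪 c) = PowerSeries.C (residue 𝒪 c) := by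
  unfold cO
  rw [red_C 𝒪 c.2]

/-- Transport of a homogeneous identity from `ℂ⟦X⟧` to `k⟦X⟧`. -/
theorem red_hom_sum (P4 PD : coeffSubring 𝒪) (c : ℕ → 𝒪) (m : ℕ) (Q : coeffSubring 𝒪)
    (h : Q.1 = ∑ j ∈ Finset.range (m + 1),
      PowerSeries.C ((c j : ℂ)) * P4.1 ^ (3 * j) * PD.1 ^ (m - j)) :
    red 𝒪 Q = ∑ j ∈ Finset.range (m + 1),
      PowerSeries.C (residue 𝒪 (c j)) * (red 𝒪 P4) ^ (3 * j) * (red 𝒪 PD) ^ (m - j) := by
  have hQ : Q = ∑ j ∈ Finset.range (m + 1), cO 𝒪 (c j) * P4 ^ (3 * j) * PD ^ (m - j) := by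
    apply Subtype.ext
    rw [h]
    change _ = (coeffSubring 𝒪).subtype _
    rw [map_sum]
    refine Finset.sum_congr rfl fun j _ => ?_
    rw [map_mul, map_mul, map_pow, map_pow]
    rfl
  rw [hQ, map_sum]
  refine Finset.sum_congr rfl fun j _ => ?_
  rw [map_mul, map_mul, map_pow, map_pow, red_cO]

variable {l : ℕ} (hl : l.Prime) (hlO : (l : 𝒪) ∈ maximalIdeal 𝒪)

include hl hlO

theorem inv_1728_mem (hl5 : 5 ≤ l) : ((1728 : ℂ))⁻¹ ∈ 𝒪 := by
  have hnd : ¬ l ∣ 1728 := by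
    intro h
    have h' : l ∣ 2 ^ 6 * 3 ^ 3 := by norm_num; exact h
    rcases (Nat.Prime.dvd_mul hl).mp h' with h2 | h3
    · have := Nat.le_of_dvd (by norm_num) (hl.dvd_of_dvd_pow h2)
      omega
    · have := Nat.le_of_dvd (by norm_num) (hl.dvd_of_dvd_pow h3)
      omega
  have := natCast_inv_mem 𝒪 hl hlO hnd
  simpa using this

theorem residue_1728_ne_zero (hl5 : 5 ≤ l) : (1728 : ResidueField 𝒪) ≠ 0 := by
  have hnd : ¬ l ∣ 1728 := by
    intro h
    have h' : l ∣ 2 ^ 6 * 3 ^ 3 := by norm_num; exact h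
    rcases (Nat.Prime.dvd_mul hl).mp h' with h2 | h3
    · have := Nat.le_of_dvd (by norm_num) (hl.dvd_of_dvd_pow h2)
      omega
    · have := Nat.le_of_dvd (by norm_num) (hl.dvd_of_dvd_pow h3)
      omega
  have hu := natCast_isUnit 𝒪 hl hlO hnd
  have h1 : IsUnit (residue 𝒪 ((1728 : ℕ) : 𝒪)) := hu.map _
  rw [map_natCast] at h1
  have := h1.ne_zero
  exact_mod_cast this

/-- **COUNT, final form.** -/
theorem count_sparse (hl5 : 5 ≤ l) :
    ∃ d : ℕ, 1 < d ∧ ¬ l ∣ d ∧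
      ∀ (k : ℤ) (f : ModularForm 𝒮ℒ k)
        (hf : ∀ n, PowerSeries.coeff n (qExpansion 1 f) ∈ 𝒪),
        (∀ n, 1 ≤ n → (⟨_, hf n⟩ : 𝒪) ∈ maximalIdeal 𝒪) →
        (⟨_, hf 0⟩ : 𝒪) ∉ maximalIdeal 𝒪 → (2 * (d : ℤ)) ∣ k := by
  classical
  -- the basic series
  have h1728 := inv_1728_mem 𝒪 hl hlO hl5
  set P4 : coeffSubring 𝒪 := ⟨q4, q4_mem 𝒪⟩ with hP4
  set P6 : coeffSubring 𝒪 := ⟨q6, q6_mem 𝒪⟩ with hP6
  set PD : coeffSubring 𝒪 := ⟨qD, qD_mem 𝒪 h1728⟩ with hPD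
  set r4 := red 𝒪 P4 with hr4
  set r6 := red 𝒪 P6 with hr6
  set rD := red 𝒪 PD with hrD
  have hres1 : ∀ h : (1 : ℂ) ∈ 𝒪, residue 𝒪 ⟨1, h⟩ = 1 := fun h => by
    have : (⟨1, h⟩ : 𝒪) = 1 := rfl
    rw [this, map_one]
  have hres0 : ∀ h : (0 : ℂ) ∈ 𝒪, residue 𝒪 ⟨0, h⟩ = 0 := fun h => by
    have : (⟨0, h⟩ : 𝒪) = 0 := rfl
    rw [this, map_zero]
  have h4c : PowerSeries.constantCoeff r4 = 1 := by
    rw [← PowerSeries.coeff_zero_eq_constantCoeff_apply, hr4,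
      coeff_red 𝒪 P4 0 (mem_coeffSubring_iff.mp P4.2 0)]
    have : PowerSeries.coeff 0 P4.1 = 1 := coeff_zero_q4
    simp only [this]
    exact hres1 _
  have h6c : PowerSeries.constantCoeff r6 = 1 := by
    rw [← PowerSeries.coeff_zero_eq_constantCoeff_apply, hr6,
      coeff_red 𝒪 P6 0 (mem_coeffSubring_iff.mp P6.2 0)]
    have : PowerSeries.coeff 0 P6.1 = 1 := coeff_zero_q6
    simp only [this]
    exact hres1 _
  have hD0 : PowerSeries.constantCoeff rD = 0 := by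
    rw [← PowerSeries.coeff_zero_eq_constantCoeff_apply, hrD,
      coeff_red 𝒪 PD 0 (mem_coeffSubring_iff.mp PD.2 0)]
    have : PowerSeries.coeff 0 PD.1 = 0 := coeff_zero_qD
    simp only [this]
    exact hres0 _
  have hD1 : PowerSeries.coeff 1 rD = 1 := by
    rw [hrD, coeff_red 𝒪 PD 1 (mem_coeffSubring_iff.mp PD.2 1)]
    have : PowerSeries.coeff 1 PD.1 = 1 := coeff_one_qD
    simp only [this]
    exact hres1 _
  have hDne : rD ≠ 0 := by
    intro h
    rw [h, map_zero] at hD1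
    exact zero_ne_one hD1
  -- the relation `1728 Δ = E₄³ - E₆²`
  have h1728O : (1728 : ℂ) ∈ 𝒪 := ofNat_mem 𝒪 1728
  have hrel : PowerSeries.C (1728 : ResidueField 𝒪) * rD = r4 ^ 3 - r6 ^ 2 := by
    have h : cO 𝒪 ⟨1728, h1728O⟩ * PD = P4 ^ 3 - P6 ^ 2 := by
      apply Subtype.ext
      change PowerSeries.C (1728 : ℂ) * qD = q4 ^ 3 - q6 ^ 2
      rw [← qD_rel, PowerSeries.smul_eq_C_mul]
    have h2 := congrArg (red 𝒪) h
    rw [map_mul, map_sub, map_pow, map_pow, red_cO] at h2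
    have h3 : residue 𝒪 ⟨1728, h1728O⟩ = (1728 : ResidueField 𝒪) := by
      have : (⟨1728, h1728O⟩ : 𝒪) = (1728 : 𝒪) := rfl
      rw [this, map_ofNat]
    rw [h3] at h2
    exact h2
  -- `E_{l-1}`
  have hk : 3 ≤ l - 1 := by omega
  have hqEl_mem : qExpansion 1 (E hk) ∈ coeffSubring 𝒪 :=
    mem_coeffSubring_iff.mpr fun m => (qEl_coeff 𝒪 hl hlO hl5 hk m).1
  set Pl : coeffSubring 𝒪 := ⟨qExpansion 1 (E hk), hqEl_mem⟩ with hPl
  have hrl : red 𝒪 Pl = 1 := by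
    have h0mem : PowerSeries.coeff 0 Pl.1 ∈ 𝒪 := mem_coeffSubring_iff.mp Pl.2 0
    rw [red_eq_C_of_forall_mem 𝒪 Pl (fun n hn h => (qEl_coeff 𝒪 hl hlO hl5 hk n).2 hn) h0mem]
    have : PowerSeries.coeff 0 Pl.1 = 1 := E_qExpansion_coeff_zero hk (by
      have hodd : Odd l := hl.odd_of_ne_two (by omega)
      obtain ⟨k₀, hk₀⟩ := hodd
      exact ⟨k₀, by omega⟩)
    simp only [this]
    rw [hres1, map_one]
  -- Lemma P for `E_{l-1}^12`
  have hw12 : ((12 : ℕ) : ℤ) * ((l - 1 : ℕ) : ℤ) = 12 * ((l - 1 : ℕ) : ℤ) := by norm_num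
  have hq12 : qExpansion 1 ((E hk).pow 12) = Pl.1 ^ 12 :=
    ModularForm.qExpansion_pow one_pos one_mem_strictPeriods_SL (E hk) 12
  obtain ⟨c, hc⟩ := exists_coeffs 𝒪 (q4_mem 𝒪) (qD_mem 𝒪 h1728) (l - 1) _ hw12 ((E hk).pow 12)
    (by rw [hq12]; exact ((coeffSubring 𝒪).pow_mem Pl.2 12))
  have hS : ∑ j ∈ Finset.range (l - 1 + 1),
      PowerSeries.C (residue 𝒪 (c j)) * r4 ^ (3 * j) * rD ^ (l - 1 - j) = 1 := by
    have := red_hom_sum 𝒪 P4 PD c (l - 1) (Pl ^ 12) (by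
      change Pl.1 ^ 12 = _
      rw [← hq12, hc])
    rw [← this, map_pow, hrl, one_pow]
  obtain ⟨d, hd1, hd6, hd⟩ := exists_period_ps (residue_1728_ne_zero 𝒪 hl hlO hl5) r4 r6 rD h4c h6c
    hD0 hDne hrel (by omega : 0 < l - 1) (fun j => residue 𝒪 (c j)) hS
  refine ⟨d, hd1, ?_, ?_⟩
  · -- `l ∤ d`
    intro hld
    have h6 : l ∣ 6 * (l - 1) := hld.trans hd6
    rcases (Nat.Prime.dvd_mul hl).mp h6 with h | h
    · have hle := Nat.le_of_dvd (by norm_num) h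
      have h56 : l = 5 ∨ l = 6 := by omega
      rcases h56 with h5 | h6'
      · rw [h5] at h
        norm_num at h
      · rw [h6'] at hl
        norm_num at hl
    · have := Nat.le_of_dvd (by omega) h
      omega
  · intro k f hf hpos h0
    -- the weight is even and nonnegative
    have hfne : (⇑f : ℍ → ℂ) ≠ 0 := by
      intro hzero
      apply h0
      have : PowerSeries.coeff 0 (qExpansion 1 f) = 0 := by
        rw [hzero, qExpansion_zero, map_zero]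
      have h' : (⟨PowerSeries.coeff 0 (qExpansion 1 f), hf 0⟩ : 𝒪) = 0 := Subtype.ext this
      rw [h']
      exact Ideal.zero_mem _
    have hknn : 0 ≤ k := by
      by_contra hneg
      exact hfne (levelOne_neg_weight_eq_zero (not_le.mp hneg) f)
    have hkeven : Even k := by
      by_contra hodd
      rw [Int.not_even_iff_odd] at hodd
      apply hfne
      rw [ModularForm.levelOne_odd_weight_eq_zero hodd f]
      rfl
    obtain ⟨i', hi'⟩ := hkeven
    have hi'nn : 0 ≤ i' := by omega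
    obtain ⟨i, rfl⟩ := Int.eq_ofNat_of_zero_le hi'nn
    -- the auxiliary form `f * E₄^i * E₆^(11 i)` of weight `12 * (6 i)`
    set Ff := f.mul ((E₄.pow i).mul (E₆.pow (11 * i))) with hFf
    have hFw : k + (((i : ℕ) : ℤ) * 4 + ((11 * i : ℕ) : ℤ) * 6) = 12 * ((6 * i : ℕ) : ℤ) := by
      rw [hi']
      push_cast
      ring
    have hqF : qExpansion 1 Ff = qExpansion 1 f * q4 ^ i * q6 ^ (11 * i) := by
      rw [hFf, ModularForm.qExpansion_mul one_pos one_mem_strictPeriods_SL,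
        ModularForm.qExpansion_mul one_pos one_mem_strictPeriods_SL,
        ModularForm.qExpansion_pow one_pos one_mem_strictPeriods_SL,
        ModularForm.qExpansion_pow one_pos one_mem_strictPeriods_SL, mul_assoc]
      rfl
    have hfmem : qExpansion 1 f ∈ coeffSubring 𝒪 := mem_coeffSubring_iff.mpr hf
    set Pf : coeffSubring 𝒪 := ⟨qExpansion 1 f, hfmem⟩ with hPf
    have hFmem : qExpansion 1 Ff ∈ coeffSubring 𝒪 := by
      rw [hqF]
      exact (coeffSubring 𝒪).mul_mem ((coeffSubring 𝒪).mul_mem hfmem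
        ((coeffSubring 𝒪).pow_mem (q4_mem 𝒪) _)) ((coeffSubring 𝒪).pow_mem (q6_mem 𝒪) _)
    obtain ⟨a, ha⟩ := exists_coeffs 𝒪 (q4_mem 𝒪) (qD_mem 𝒪 h1728) (6 * i) _ hFw Ff hFmem
    have hred := red_hom_sum 𝒪 P4 PD a (6 * i) (Pf * P4 ^ i * P6 ^ (11 * i)) (by
      change qExpansion 1 f * q4 ^ i * q6 ^ (11 * i) = _
      rw [← hqF, ha])
    rw [map_mul, map_mul, map_pow, map_pow] at hred
    have hPfred : red 𝒪 Pf = PowerSeries.C (residue 𝒪 ⟨_, hf 0⟩) :=
      red_eq_C_of_forall_mem 𝒪 Pf (fun n hn _ => hpos n hn) (hf 0)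
    rw [hPfred] at hred
    have hu : residue 𝒪 ⟨_, hf 0⟩ ≠ 0 := by
      rw [Ne, residue_eq_zero_iff]
      exact h0
    have hdi := hd i (fun j => residue 𝒪 (a j)) _ hu hred
    rw [hi']
    obtain ⟨e, rfl⟩ := hdi
    exact ⟨e, by push_cast; ring⟩

end Main

end Fermat.Agent.S16.H51
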