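/-
helper51 — S16 / (U, l ≥ 5): consumer shapes of `count_sparse` (hypothesis-free):
`count_sparse'` (the fixed (U5b) consumer shape, `[Fact l.Prime]` binders) and
`swd_weak` (`∃ D, 4 ≤ D ∧ D ∣ l - 1 ∧ …, D ∣ k`).
-/
import Mathlib
import Fermat.Agent.S16.H51_Count

set_option autoImplicit false

open UpperHalfPlane ModularForm ModularFormClass EisensteinSeries MatrixGroups IsLocalRing

namespace Fermat.Agent.S16.H51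

/-- The fixed consumer shape. -/
theorem count_sparse' (l : ℕ) [hl : Fact l.Prime] (hl5 : 5 ≤ l) (𝒪 : Subring ℂ) [IsLocalRing 𝒪]
    (hl𝒪 : (l : 𝒪) ∈ maximalIdeal 𝒪) :
    ∃ d : ℕ, 1 < d ∧ ¬ l ∣ d ∧
      ∀ (k : ℤ) (f : ModularForm 𝒮ℒ k)
        (hf : ∀ n, PowerSeries.coeff n (qExpansion 1 f) ∈ 𝒪)
        (_ : ∀ n, 1 ≤ n → (⟨_, hf n⟩ : 𝒪) ∈ maximalIdeal 𝒪)
        (_ : (⟨_, hf 0⟩ : 𝒪) ∉ maximalIdeal 𝒪), (2 * (d : ℤ)) ∣ k :=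
  count_sparse 𝒪 hl.out hl𝒪 hl5

/-- Weak Swinnerton-Dyer: a fixed `D ≥ 4`, `D ∣ l - 1`, divides the weight of every level-one
form with `𝒪`-integral `q`-expansion congruent to a unit constant. -/
theorem swd_weak (l : ℕ) [hl : Fact l.Prime] (hl5 : 5 ≤ l) (𝒪 : Subring ℂ) [IsLocalRing 𝒪]
    (hl𝒪 : (l : 𝒪) ∈ maximalIdeal 𝒪) :
    ∃ D : ℕ, 4 ≤ D ∧ D ∣ l - 1 ∧
      ∀ (k : ℤ) (f : ModularForm 𝒮ℒ k)
        (hf : ∀ n, PowerSeries.coeff n (qExpansion 1 f) ∈ 𝒪)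
        (_ : ∀ n, 1 ≤ n → (⟨_, hf n⟩ : 𝒪) ∈ maximalIdeal 𝒪)
        (_ : (⟨_, hf 0⟩ : 𝒪) ∉ maximalIdeal 𝒪), (D : ℤ) ∣ k := by
  obtain ⟨d, hd1, -, hd⟩ := count_sparse 𝒪 hl.out hl𝒪 hl5
  refine ⟨2 * d, by omega, ?_, fun k f hf hpos h0 => ?_⟩
  · -- apply to `E_{l-1}`
    have hk : 3 ≤ l - 1 := by omega
    have hf : ∀ n, PowerSeries.coeff n (qExpansion 1 (E hk)) ∈ 𝒪 :=
      fun n => (qEl_coeff 𝒪 hl.out hl𝒪 hl5 hk n).1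
    have hpos : ∀ n, 1 ≤ n → (⟨_, hf n⟩ : 𝒪) ∈ maximalIdeal 𝒪 :=
      fun n hn => (qEl_coeff 𝒪 hl.out hl𝒪 hl5 hk n).2 hn
    have heven : Even (l - 1) := by
      have hodd : Odd l := hl.out.odd_of_ne_two (by omega)
      obtain ⟨k₀, hk₀⟩ := hodd
      exact ⟨k₀, by omega⟩
    have h0 : (⟨_, hf 0⟩ : 𝒪) ∉ maximalIdeal 𝒪 := by
      have h1 : (⟨_, hf 0⟩ : 𝒪) = 1 := Subtype.ext (E_qExpansion_coeff_zero hk heven)
      rw [h1]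
      exact fun h => (Ideal.ne_top_iff_one _).mp (maximalIdeal.isMaximal 𝒪).ne_top h
    have := hd _ (E hk) hf hpos h0
    exact_mod_cast this
  · have := hd k f hf hpos h0
    exact_mod_cast this

end Fermat.Agent.S16.H51
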