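import Mathlib
import Fermat.Agent.S16.H52_Assembly
import Fermat.Agent.S16.H48_SmallLevel
import Fermat.Agent.S16.H98_ShimuraClass

/-!
# S16: the frozen statement from the five `(U)` leaves (helper52)

`(L)` is `H98.lower_bound` (unconditional), the small levels are `H48.result_of_small_or`, the
duality/skeleton is `H52`.  What remains are the five leaf statements about integral cusp forms
congruent to the Eisenstein series, for `p ∉ {2, 3, 5, 7, 13}`.
-/

set_option autoImplicit false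

open ModularCurve CuspForm CongruenceSubgroup ModularFormClass

namespace Fermat.Agent.S16.H52

/-- The five `(U)` leaves at a prime level `p`. -/
structure Leaves (p : ℕ) : Prop where
  u5 : ∀ l a : ℕ, l.Prime → 5 ≤ l → 0 < a → ∀ f : CuspForm (Gamma0 p) 2,
    Cong p f (l ^ a) → l ^ a ∣ p - 1
  u3a : p % 3 = 1 → ∀ a : ℕ, 0 < a → ∀ f : CuspForm (Gamma0 p) 2,
    Cong p f (3 ^ a) → 3 ^ (a + 1) ∣ p - 1
  u3b : p % 3 = 2 → ∀ f : CuspForm (Gamma0 p) 2, ¬ Cong p f 3
  u2a : p % 4 = 1 → ∀ a : ℕ, 0 < a → ∀ f : CuspForm (Gamma0 p) 2,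
    Cong p f (2 ^ a) → 2 ^ (a + 2) ∣ p - 1
  u2b : p % 4 = 3 → ∀ f : CuspForm (Gamma0 p) 2, ¬ Cong p f 2

/-- **S16 from the five leaves.** -/
theorem frozen_of_leaves (p : ℕ) [Fact p.Prime]
    (h : p ∉ ({2, 3, 5, 7, 13} : Finset ℕ) → Leaves p) :
    Nat.card (↥(heckeLatticeAlgebra p ∅) ⧸
        Ideal.map ((latticeRestrictHom p ∅).toRingHom.comp (heckeEvalForms p 2))
          (eisensteinIdeal p)) = eisensteinNumerator p := by
  apply H48.result_of_small_or
  intro hp
  have hp2 : p ≠ 2 := fun h2 => hp (by simp [h2])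
  have hp3 : p ≠ 3 := fun h3 => hp (by simp [h3])
  obtain ⟨h5, h3a, h3b, h2a, h2b⟩ := h hp
  exact natCard_eq_of_L_leaves p hp2 hp3 (H98.lower_bound p) h5 h3a h3b h2a h2b

end Fermat.Agent.S16.H52
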