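import Mathlib

/-!
# S16 (P7, TR): a degree count in a compositum of three simple algebraic extensions

Pure field theory (Mathlib only).  If `x₁, x₂, x₃ : L` are roots of nonzero polynomials
`P₁, P₂, P₃ : F[X]`, every element of `F(x₁) ⊔ F(x₂) ⊔ F(x₃)` is a root of a nonzero polynomial of
degree at most `deg P₁ * deg P₂ * deg P₃`.
-/

set_option autoImplicit false

namespace Fermat.Agent.S16.H54

open Polynomial IntermediateField

variable {F L : Type*} [Field F] [Field L] [Algebra F L]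

theorem isIntegral_of_aeval_eq_zero {x : L} {P : F[X]} (hP : P ≠ 0) (hx : aeval x P = 0) :
    IsIntegral F x :=
  (isAlgebraic_iff_isIntegral).1 ⟨P, hP, hx⟩

/-- a root of a nonzero polynomial `P` generates an extension of degree `≤ deg P`. -/
theorem finrank_adjoin_simple_le_natDegree {x : L} {P : F[X]} (hP : P ≠ 0)
    (hx : aeval x P = 0) : Module.finrank F F⟮x⟯ ≤ P.natDegree := by
  rw [IntermediateField.adjoin.finrank (isIntegral_of_aeval_eq_zero hP hx)]
  exact Polynomial.natDegree_le_of_dvd (minpoly.dvd F x hx) hP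

theorem finiteDimensional_adjoin_simple_of_root {x : L} {P : F[X]} (hP : P ≠ 0)
    (hx : aeval x P = 0) : FiniteDimensional F F⟮x⟯ :=
  IntermediateField.adjoin.finiteDimensional (isIntegral_of_aeval_eq_zero hP hx)

/-- an element of a finite-dimensional intermediate field is a root of a nonzero polynomial of
degree at most the dimension. -/
theorem exists_poly_of_mem_of_finrank_le (E : IntermediateField F L) [FiniteDimensional F E]
    {y : L} (hy : y ∈ E) {d : ℕ} (hd : Module.finrank F E ≤ d) :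
    ∃ P : F[X], P ≠ 0 ∧ aeval y P = 0 ∧ P.natDegree ≤ d := by
  have hint : IsIntegral F (⟨y, hy⟩ : E) := Algebra.IsIntegral.isIntegral _
  have hinty : IsIntegral F y := by
    have := hint.map (E.val)
    simpa using this
  refine ⟨minpoly F y, minpoly.ne_zero hinty, minpoly.aeval F y, ?_⟩
  have h1 : (minpoly F (⟨y, hy⟩ : E)).natDegree ≤ Module.finrank F E := minpoly.natDegree_le _
  rw [IntermediateField.minpoly_eq] at h1
  exact h1.trans hd

theorem exists_poly_of_mem_sup3 {x₁ x₂ x₃ y : L} {P₁ P₂ P₃ : F[X]}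
    (h₁ : P₁ ≠ 0) (h₂ : P₂ ≠ 0) (h₃ : P₃ ≠ 0)
    (hx₁ : aeval x₁ P₁ = 0) (hx₂ : aeval x₂ P₂ = 0) (hx₃ : aeval x₃ P₃ = 0)
    (hy : y ∈ F⟮x₁⟯ ⊔ F⟮x₂⟯ ⊔ F⟮x₃⟯) :
    ∃ P : F[X], P ≠ 0 ∧ aeval y P = 0 ∧
      P.natDegree ≤ P₁.natDegree * P₂.natDegree * P₃.natDegree := by
  have := finiteDimensional_adjoin_simple_of_root h₁ hx₁
  have := finiteDimensional_adjoin_simple_of_root h₂ hx₂
  have := finiteDimensional_adjoin_simple_of_root h₃ hx₃
  have : FiniteDimensional F ↥(F⟮x₁⟯ ⊔ F⟮x₂⟯) := IntermediateField.finiteDimensional_sup _ _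
  have : FiniteDimensional F ↥(F⟮x₁⟯ ⊔ F⟮x₂⟯ ⊔ F⟮x₃⟯) :=
    IntermediateField.finiteDimensional_sup _ _
  refine exists_poly_of_mem_of_finrank_le _ hy ?_
  calc Module.finrank F ↥(F⟮x₁⟯ ⊔ F⟮x₂⟯ ⊔ F⟮x₃⟯)
      ≤ Module.finrank F ↥(F⟮x₁⟯ ⊔ F⟮x₂⟯) * Module.finrank F ↥F⟮x₃⟯ :=
        IntermediateField.finrank_sup_le _ _
    _ ≤ (Module.finrank F ↥F⟮x₁⟯ * Module.finrank F ↥F⟮x₂⟯) * Module.finrank F ↥F⟮x₃⟯ :=
        Nat.mul_le_mul_right _ (IntermediateField.finrank_sup_le _ _)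
    _ ≤ P₁.natDegree * P₂.natDegree * P₃.natDegree :=
        Nat.mul_le_mul (Nat.mul_le_mul (finrank_adjoin_simple_le_natDegree h₁ hx₁)
          (finrank_adjoin_simple_le_natDegree h₂ hx₂))
          (finrank_adjoin_simple_le_natDegree h₃ hx₃)

/-- one-generator version. -/
theorem exists_poly_of_mem_adjoin_simple {x y : L} {P₁ : F[X]} (h₁ : P₁ ≠ 0)
    (hx : aeval x P₁ = 0) (hy : y ∈ F⟮x⟯) :
    ∃ P : F[X], P ≠ 0 ∧ aeval y P = 0 ∧ P.natDegree ≤ P₁.natDegree := by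
  have := finiteDimensional_adjoin_simple_of_root h₁ hx
  exact exists_poly_of_mem_of_finrank_le _ hy (finrank_adjoin_simple_le_natDegree h₁ hx)

end Fermat.Agent.S16.H54
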