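import Mathlib
import Fermat.Agent.S18.H16_FKGen
import Fermat.Agent.S16.H54_TRDegree

/-!
# S16 (P7, TR): the abstract core of the `V_r` trick

Everything happens inside `LaurentSeries k`, `k` a field.  `J := jqModC k`, `V_r := qExpand k r`.

`tr_core`: let `Q R Δ` be series with `Q^3 = J Δ`, `Q^3 - R^2 = 1728 Δ`, `Δ^(ℓ-1) * S(J) = 1`
for a polynomial `S` (this is what `E_(ℓ-1) ≡ 1 mod ℓ` gives), and suppose `V_r Q = a R`,
`V_r R = b Q^2` with `a b` in the level `p` function field `k(J, J_p)`.  Then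
`ψ(r) ≤ ψ(p) * 3(ℓ-1) * 2(ℓ-1)`: indeed `V_r J` lies in `k(J)(J_p, Q, R)`, of degree at most the
right side over `k(J)`, whereas `V_r J` has degree `ψ(r)` over `k(J)` (Igusa, S28).

`tr_core_three`: the twin used mod `3` (where `E₄ ≡ E₆ ≡ 1`): if `V_r J` lies in `k(J, J_p)` then
`ψ(r) ≤ ψ(p)`.
-/

set_option autoImplicit false
set_option linter.style.haveILetI false
set_option synthInstance.maxHeartbeats 400000

noncomputable section

namespace Fermat.Agent.S16.H54

open ModularCurve HahnSeries Polynomial IntermediateField Fermat.Agent.S28 Fermat.Agent.S18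

variable {k : Type} [Field k]

/-- `iotaJ` on constants. -/
theorem iotaJ_algebraMap (c : k) :
    H16.iotaJ k (algebraMap k (RatFunc k) c) = algebraMap k (LaurentSeries k) c := by
  have h : algebraMap k (RatFunc k) c = algebraMap k[X] (RatFunc k) (Polynomial.C c) := by
    rw [RatFunc.algebraMap_eq_C, RatFunc.algebraMap_C]
  rw [h, H16.iotaJ, S28.H16.ratFuncToLaurent_algebraMap, Polynomial.aeval_C]

theorem iotaJ_X : H16.iotaJ k RatFunc.X = jqModC k :=
  S28.H16.ratFuncToLaurent_X _ _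

theorem iotaJ_poly (P : k[X]) :
    H16.iotaJ k (algebraMap k[X] (RatFunc k) P) = Polynomial.aeval (jqModC k) P :=
  S28.H16.ratFuncToLaurent_algebraMap _ _ P

theorem jqModC_ne_zero : jqModC k ≠ 0 := by
  intro h
  have := H16.aeval_jqModC_injective (K := k)
  have h2 : Polynomial.aeval (jqModC k) (Polynomial.X : k[X]) =
      Polynomial.aeval (jqModC k) (0 : k[X]) := by
    rw [Polynomial.aeval_X, map_zero, h]
  exact Polynomial.X_ne_zero (this h2)

/-- a `k(J)`-intermediate field of `k((q))` contains the level `p` function field as soon as it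
contains `J_p`. -/
theorem fullC_le_of_mem {p : ℕ} [NeZero p] (hpk : ((p : ℕ) : k) ≠ 0)
    (E : letI := (H16.iotaJ k).toAlgebra; IntermediateField (RatFunc k) (LaurentSeries k))
    (hJp : qExpand k p (jqModC k) ∈ E) {y : LaurentSeries k}
    (hy : y ∈ modularFunctionFieldFullC k p) : y ∈ E := by
  letI := (H16.iotaJ k).toAlgebra
  let E' : IntermediateField k (LaurentSeries k) :=
    E.toSubfield.toIntermediateField (fun c => by
      have : algebraMap k (LaurentSeries k) c =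
          algebraMap (RatFunc k) (LaurentSeries k) (algebraMap k (RatFunc k) c) := by
        show _ = H16.iotaJ k _
        rw [iotaJ_algebraMap]
      rw [this]
      exact E.algebraMap_mem _)
  have hle : modularFunctionFieldFullC k p ≤ E' := by
    rw [H16.fullC_eq_adjoin_gen p k hpk, IntermediateField.adjoin_le_iff]
    rintro z (rfl | rfl)
    · have : jqModC k = algebraMap (RatFunc k) (LaurentSeries k) RatFunc.X := by
        show _ = H16.iotaJ k _
        rw [iotaJ_X]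
      show jqModC k ∈ E
      rw [this]
      exact E.algebraMap_mem _
    · exact hJp
  exact hle hy

theorem aeval_eq_eval_map_iotaJ (P : Polynomial (RatFunc k)) (y : LaurentSeries k) :
    letI := (H16.iotaJ k).toAlgebra
    Polynomial.aeval y P = (P.map (H16.iotaJ k)).eval y := by
  letI := (H16.iotaJ k).toAlgebra
  rw [Polynomial.aeval_def, Polynomial.eval₂_eq_eval_map, RingHom.algebraMap_toAlgebra]

/-- `J_p` is a root of the reduced modular polynomial, of degree `ψ(p)`. -/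
theorem exists_poly_Jp (p : ℕ) [NeZero p] :
    ∃ P : Polynomial (RatFunc k), P ≠ 0 ∧ P.natDegree = dedekindPsi p ∧
      (P.map (H16.iotaJ k)).eval (qExpand k p (jqModC k)) = 0 := by
  obtain ⟨D, _, _⟩ := H16.exists_modPoly_gen p
  have hmonic : (redModPoly k D.Φ).Monic := D.monic.map _
  refine ⟨redModPoly k D.Φ, hmonic.ne_zero, ?_, ?_⟩
  · rw [redModPoly, D.monic.natDegree_map, D.natDegree_eq]
  · rw [H16.eval_map_iotaJ]
    exact H16.modPoly_root p D k

/-- a series whose `n`-th power lies in `k(J)` is a root of `X^n - c`. -/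
theorem exists_poly_of_pow_eq {x : LaurentSeries k} {n : ℕ} (hn : 0 < n) (c : RatFunc k)
    (hx : x ^ n = H16.iotaJ k c) :
    ∃ P : Polynomial (RatFunc k), P ≠ 0 ∧ P.natDegree = n ∧
      (P.map (H16.iotaJ k)).eval x = 0 := by
  refine ⟨Polynomial.X ^ n - Polynomial.C c, Polynomial.X_pow_sub_C_ne_zero hn c,
    Polynomial.natDegree_X_pow_sub_C, ?_⟩
  rw [Polynomial.map_sub, Polynomial.map_pow, Polynomial.map_X, Polynomial.map_C,
    Polynomial.eval_sub, Polynomial.eval_pow, Polynomial.eval_X, Polynomial.eval_C, hx, sub_self]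

theorem tr_core (ℓ : ℕ) (hℓ : 2 ≤ ℓ) (p r : ℕ) [NeZero p] [NeZero r]
    (hpk : ((p : ℕ) : k) ≠ 0) (hrk : ((r : ℕ) : k) ≠ 0) (h1728 : (1728 : k) ≠ 0)
    (Q R Δ : LaurentSeries k) (hΔ0 : Δ ≠ 0)
    (hQ : Q ^ 3 = jqModC k * Δ) (hR : Q ^ 3 - R ^ 2 = 1728 * Δ)
    (S : k[X]) (hS : Δ ^ (ℓ - 1) * Polynomial.aeval (jqModC k) S = 1)
    (a b : LaurentSeries k) (ha : a ∈ modularFunctionFieldFullC k p)
    (hb : b ∈ modularFunctionFieldFullC k p)
    (hQr : qExpand k r Q = a * R) (hRr : qExpand k r R = b * Q ^ 2) :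
    dedekindPsi r ≤ dedekindPsi p * (3 * (ℓ - 1)) * (2 * (ℓ - 1)) := by
  letI := (H16.iotaJ k).toAlgebra
  set J := jqModC k with hJdef
  have hJ0 : J ≠ 0 := jqModC_ne_zero
  have hℓ1 : 0 < ℓ - 1 := by omega
  -- `S(J)` is invertible and `Δ^(ℓ-1) = 1 / S(J)`
  have hSJ0 : Polynomial.aeval J S ≠ 0 := by
    intro h
    rw [h, mul_zero] at hS
    exact zero_ne_one hS
  have hΔpow : Δ ^ (ℓ - 1) = (Polynomial.aeval J S)⁻¹ := eq_inv_of_mul_eq_one_left hS
  have hSne : algebraMap k[X] (RatFunc k) S ≠ 0 := by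
    intro h
    apply hSJ0
    rw [← iotaJ_poly, h, map_zero]
  -- the three generators
  obtain ⟨P₁, hP₁0, hP₁deg, hP₁root⟩ := exists_poly_Jp (k := k) p
  have hQpow : Q ^ (3 * (ℓ - 1)) =
      H16.iotaJ k (RatFunc.X ^ (ℓ - 1) / algebraMap k[X] (RatFunc k) S) := by
    rw [pow_mul, hQ, mul_pow, hΔpow, map_div₀, map_pow, iotaJ_X, iotaJ_poly, div_eq_mul_inv]
  have hR2 : R ^ 2 = (J - 1728) * Δ := by
    have : R ^ 2 = Q ^ 3 - 1728 * Δ := by rw [← hR]; ring
    rw [this, hQ]; ring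
  have h1728L : (1728 : LaurentSeries k) = H16.iotaJ k (algebraMap k (RatFunc k) 1728) := by
    rw [iotaJ_algebraMap, map_ofNat]
  have hRpow : R ^ (2 * (ℓ - 1)) =
      H16.iotaJ k ((RatFunc.X - algebraMap k (RatFunc k) 1728) ^ (ℓ - 1) /
        algebraMap k[X] (RatFunc k) S) := by
    rw [pow_mul, hR2, mul_pow, hΔpow, map_div₀, map_pow, map_sub, iotaJ_X, iotaJ_poly,
      ← h1728L, div_eq_mul_inv]
  obtain ⟨P₂, hP₂0, hP₂deg, hP₂root⟩ :=
    exists_poly_of_pow_eq (k := k) (Nat.mul_pos (by norm_num) hℓ1) _ hQpow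
  obtain ⟨P₃, hP₃0, hP₃deg, hP₃root⟩ :=
    exists_poly_of_pow_eq (k := k) (Nat.mul_pos (by norm_num) hℓ1) _ hRpow
  set Jp := qExpand k p J with hJpdef
  -- the compositum
  set E : IntermediateField (RatFunc k) (LaurentSeries k) :=
    (RatFunc k)⟮Jp⟯ ⊔ (RatFunc k)⟮Q⟯ ⊔ (RatFunc k)⟮R⟯ with hE
  have hJpE : Jp ∈ E :=
    (le_sup_left.trans le_sup_left : (RatFunc k)⟮Jp⟯ ≤ E)
      (IntermediateField.mem_adjoin_simple_self _ _)
  have hQE : Q ∈ E :=
    (le_sup_right.trans le_sup_left : (RatFunc k)⟮Q⟯ ≤ E)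
      (IntermediateField.mem_adjoin_simple_self _ _)
  have hRE : R ∈ E :=
    (le_sup_right : (RatFunc k)⟮R⟯ ≤ E) (IntermediateField.mem_adjoin_simple_self _ _)
  have haE : a ∈ E := fullC_le_of_mem hpk E hJpE ha
  have hbE : b ∈ E := fullC_le_of_mem hpk E hJpE hb
  have h1728E : (1728 : LaurentSeries k) ∈ E := by
    rw [h1728L]
    exact E.algebraMap_mem _
  have h1728L0 : (1728 : LaurentSeries k) ≠ 0 := by
    rw [h1728L]
    intro h
    have h2 : H16.iotaJ k (algebraMap k (RatFunc k) 1728) = H16.iotaJ k 0 := by rw [h, map_zero]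
    have h3 := (H16.iotaJ k).injective h2
    exact h1728 ((algebraMap k (RatFunc k)).injective (by rw [h3, map_zero]))
  -- `V_r` of the relations
  have hQrE : qExpand k r Q ∈ E := by rw [hQr]; exact mul_mem haE hRE
  have hRrE : qExpand k r R ∈ E := by rw [hRr]; exact mul_mem hbE (pow_mem hQE 2)
  have hΔr : (1728 : LaurentSeries k) * qExpand k r Δ =
      qExpand k r Q ^ 3 - qExpand k r R ^ 2 := by
    have := congrArg (qExpand k r) hR
    rw [map_sub, map_pow, map_pow, map_mul, map_ofNat] at this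
    exact this.symm
  have hΔrE : qExpand k r Δ ∈ E := by
    have : qExpand k r Δ = (qExpand k r Q ^ 3 - qExpand k r R ^ 2) / 1728 := by
      rw [eq_div_iff h1728L0, mul_comm, hΔr]
    rw [this]
    exact div_mem (sub_mem (pow_mem hQrE 3) (pow_mem hRrE 2)) h1728E
  have hΔr0 : qExpand k r Δ ≠ 0 := by
    intro h
    exact hΔ0 (qExpand_injective r (by rw [h, map_zero]))
  have hJrE : qExpand k r J ∈ E := by
    have h1 : qExpand k r Q ^ 3 = qExpand k r J * qExpand k r Δ := by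
      rw [← map_pow, hQ, map_mul]
    have : qExpand k r J = qExpand k r Q ^ 3 / qExpand k r Δ := by
      rw [eq_div_iff hΔr0, h1]
    rw [this]
    exact div_mem (pow_mem hQrE 3) hΔrE
  -- degree count
  obtain ⟨P, hP0, hProot, hPdeg⟩ := exists_poly_of_mem_sup3 hP₁0 hP₂0 hP₃0
    (by rw [aeval_eq_eval_map_iotaJ]; exact hP₁root)
    (by rw [aeval_eq_eval_map_iotaJ]; exact hP₂root)
    (by rw [aeval_eq_eval_map_iotaJ]; exact hP₃root) hJrE
  rw [aeval_eq_eval_map_iotaJ] at hProot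
  by_contra hlt
  rw [not_le] at hlt
  refine H16.eval_map_iotaJ_ne_zero_gen r k hrk hP0 ?_ hProot
  rw [hP₁deg, hP₂deg, hP₃deg] at hPdeg
  exact lt_of_le_of_lt hPdeg hlt

/-- the mod-`3` twin: if `V_r J` lies in the level `p` function field then `ψ(r) ≤ ψ(p)`. -/
theorem tr_core_three (p r : ℕ) [NeZero p] [NeZero r]
    (hpk : ((p : ℕ) : k) ≠ 0) (hrk : ((r : ℕ) : k) ≠ 0)
    (h : qExpand k r (jqModC k) ∈ modularFunctionFieldFullC k p) :
    dedekindPsi r ≤ dedekindPsi p := by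
  letI := (H16.iotaJ k).toAlgebra
  obtain ⟨P₁, hP₁0, hP₁deg, hP₁root⟩ := exists_poly_Jp (k := k) p
  have hJrE : qExpand k r (jqModC k) ∈ (RatFunc k)⟮qExpand k p (jqModC k)⟯ :=
    fullC_le_of_mem hpk _ (IntermediateField.mem_adjoin_simple_self _ _) h
  obtain ⟨P, hP0, hProot, hPdeg⟩ := exists_poly_of_mem_adjoin_simple hP₁0
    (by rw [aeval_eq_eval_map_iotaJ]; exact hP₁root) hJrE
  rw [aeval_eq_eval_map_iotaJ] at hProot
  by_contra hlt
  rw [not_le] at hlt
  refine H16.eval_map_iotaJ_ne_zero_gen r k hrk hP0 ?_ hProot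
  rw [hP₁deg] at hPdeg
  exact lt_of_le_of_lt hPdeg hlt

end Fermat.Agent.S16.H54
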