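import Mathlib

/-!
# S16 (P7, TR): the `V_r` trick at the level of formal power series

`hTS e r` is the weight-`(e+1)` Hecke operator `T_r = U_r + r^e V_r` on coefficients,
`vS r` is `V_r : q ↦ q^r`.  If `G = C u + C m * H`, then

`hTS e r g * G - hTS (e+2) r (g * G) = C (u * r^e * (1 - r^2)) * vS r g + C m * W`

with `W = hTS e r g * H - hTS (e+2) r (g * H)`.  Consequently
* (`tr_series_mod`) if `G ≡ u` modulo a ring hom `φ`, the left side reduces to
  `φ(u r^e (1 - r^2)) • V_r (φ g)`;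
* (`tr_series_nine`) if `G = u + 9 H` and `1 - r^2 = 3 u'`, the left side is `3 Z` with
  `Z ≡ u r^e u' • V_r g` modulo `3`.
-/

set_option autoImplicit false

namespace Fermat.Agent.S16.H54

open PowerSeries

variable {R : Type*} [CommRing R]

/-- series-level Hecke operator `T_r`, weight exponent `e = k - 1`. -/
noncomputable def hTS (e r : ℕ) (s : R⟦X⟧) : R⟦X⟧ :=
  PowerSeries.mk fun n => coeff (n * r) s + if r ∣ n then (r : R) ^ e * coeff (n / r) s else 0

/-- `V_r : q ↦ q^r` on power series. -/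
noncomputable def vS (r : ℕ) (s : R⟦X⟧) : R⟦X⟧ :=
  PowerSeries.mk fun n => if r ∣ n then coeff (n / r) s else 0

@[simp] theorem coeff_hTS (e r : ℕ) (s : R⟦X⟧) (n : ℕ) :
    coeff n (hTS e r s) =
      coeff (n * r) s + if r ∣ n then (r : R) ^ e * coeff (n / r) s else 0 := by
  rw [hTS, coeff_mk]

@[simp] theorem coeff_vS (r : ℕ) (s : R⟦X⟧) (n : ℕ) :
    coeff n (vS r s) = if r ∣ n then coeff (n / r) s else 0 := by
  rw [vS, coeff_mk]

theorem hTS_add (e r : ℕ) (s t : R⟦X⟧) : hTS e r (s + t) = hTS e r s + hTS e r t := by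
  ext n
  simp only [coeff_hTS, map_add]
  split_ifs <;> ring

theorem hTS_sub (e r : ℕ) (s t : R⟦X⟧) : hTS e r (s - t) = hTS e r s - hTS e r t := by
  ext n
  simp only [coeff_hTS, map_sub]
  split_ifs <;> ring

theorem hTS_C_mul (e r : ℕ) (c : R) (s : R⟦X⟧) : hTS e r (C c * s) = C c * hTS e r s := by
  ext n
  simp only [coeff_hTS, coeff_C_mul]
  split_ifs <;> ring

theorem hTS_mul_C (e r : ℕ) (c : R) (s : R⟦X⟧) : hTS e r (s * C c) = hTS e r s * C c := by
  rw [mul_comm, hTS_C_mul, mul_comm]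

theorem map_hTS {S : Type*} [CommRing S] (φ : R →+* S) (e r : ℕ) (s : R⟦X⟧) :
    (hTS e r s).map φ = hTS e r (s.map φ) := by
  ext n
  simp only [coeff_map, coeff_hTS, map_add]
  split_ifs
  · rw [map_mul, map_pow, map_natCast]
  · rw [map_zero]

theorem map_vS {S : Type*} [CommRing S] (φ : R →+* S) (r : ℕ) (s : R⟦X⟧) :
    (vS r s).map φ = vS r (s.map φ) := by
  ext n
  simp only [coeff_map, coeff_vS]
  split_ifs
  · rfl
  · rw [map_zero]

/-- the constant case of the trick. -/
theorem tr_series_const (e r : ℕ) (g : R⟦X⟧) (u : R) :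
    hTS e r g * C u - hTS (e + 2) r (g * C u) =
      C (u * (r : R) ^ e * (1 - (r : R) ^ 2)) * vS r g := by
  rw [hTS_mul_C]
  ext n
  simp only [map_sub, coeff_mul_C, coeff_hTS, coeff_C_mul, coeff_vS]
  split_ifs <;> ring

/-- the general identity. -/
theorem tr_series (e r : ℕ) (g H : R⟦X⟧) (u m : R) :
    hTS e r g * (C u + C m * H) - hTS (e + 2) r (g * (C u + C m * H)) =
      C (u * (r : R) ^ e * (1 - (r : R) ^ 2)) * vS r g +
        C m * (hTS e r g * H - hTS (e + 2) r (g * H)) := by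
  have h1 : g * (C u + C m * H) = g * C u + C m * (g * H) := by ring
  rw [h1, hTS_add, hTS_C_mul, ← tr_series_const]
  ring

/-- **mod `φ` version**: if `G` reduces to the constant `φ u`, the trick produces
`φ(u r^e (1 - r^2)) • V_r (φ g)`. -/
theorem tr_series_mod {S : Type*} [CommRing S] (φ : R →+* S) (e r : ℕ) (g G : R⟦X⟧) (u : R)
    (hG : G.map φ = C (φ u)) :
    (hTS e r g * G - hTS (e + 2) r (g * G)).map φ =
      C (φ u * (r : S) ^ e * (1 - (r : S) ^ 2)) * vS r (g.map φ) := by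
  rw [map_sub, map_mul, map_hTS, map_hTS, map_mul, hG, tr_series_const]

/-- **mod `9` version** (stated for a general `m = t * t`, `1 - r^2 = t * u'`): the trick
produces `t • Z` with `Z ≡ u r^e u' • V_r g` modulo `t`. -/
theorem tr_series_sq (e r : ℕ) (g H : R⟦X⟧) (u t u' : R)
    (hr : 1 - (r : R) ^ 2 = t * u') :
    ∃ Z : R⟦X⟧,
      hTS e r g * (C u + C (t * t) * H) - hTS (e + 2) r (g * (C u + C (t * t) * H)) = C t * Z ∧
      ∀ {S : Type*} [CommRing S] (φ : R →+* S), φ t = 0 →
        Z.map φ = C (φ u * (r : S) ^ e * φ u') * vS r (g.map φ) := by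
  refine ⟨C (u * (r : R) ^ e * u') * vS r g +
    C t * (hTS e r g * H - hTS (e + 2) r (g * H)), ?_, ?_⟩
  · rw [tr_series, hr]
    simp only [map_mul]
    ring
  · intro S _ φ hφ
    have h1 : (C t : R⟦X⟧).map φ = 0 := by
      rw [PowerSeries.map_C, hφ, map_zero]
    have h2 : (C (u * (r : R) ^ e * u') : R⟦X⟧).map φ = C (φ u * (r : S) ^ e * φ u') := by
      rw [PowerSeries.map_C]
      congr 1
      rw [map_mul, map_mul, map_pow, map_natCast]
    rw [map_add, RingHom.map_mul (PowerSeries.map φ) (C (u * (r : R) ^ e * u')) (vS r g),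
      RingHom.map_mul (PowerSeries.map φ) (C t), map_vS, h1, zero_mul, add_zero, h2]

end Fermat.Agent.S16.H54
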