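import Mathlib
import Fermat.Prelude.Def_ModularForm_HeckeOperatorForms
import Fermat.Prelude.Thm_ModularFormClass_qCoeff_heckeT
import Fermat.Prelude.Thm_CongruenceSubgroup_one_mem_strictPeriods_Gamma0
import Fermat.Agent.S16.H54_TRSeries

/-!
# S16 (P7, TR): the `V_r` trick for modular forms on `Γ₀(p)`

`IntQ f s` : the `q`-expansion of `f` is the integer power series `s`.
`trY hr hrp g G = (T_r g) * G - T_r (g * G)`, a form of weight `w + 2`, whose `q`-expansion is
`hTS e r s_g * s_G - hTS (e + 2) r (s_g * s_G)` when `w = e + 1`.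
-/

set_option autoImplicit false

open UpperHalfPlane CongruenceSubgroup ModularForm ModularFormClass
open scoped MatrixGroups ModularForm

namespace Fermat.Agent.S16.H54

noncomputable section

/-- `f` has the integer `q`-expansion `s`. -/
def IntQ (f : ℍ → ℂ) (s : PowerSeries ℤ) : Prop :=
  qExpansion 1 f = s.map (Int.castRingHom ℂ)

variable {p : ℕ}

theorem one_mem_sp (p : ℕ) :
    (1 : ℝ) ∈ ((Gamma0 p : Subgroup (GL (Fin 2) ℝ))).strictPeriods :=
  CongruenceSubgroup.one_mem_strictPeriods_Gamma0 p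

theorem IntQ.mul {k₁ k₂ : ℤ} {f : ModularForm (Gamma0 p) k₁} {g : ModularForm (Gamma0 p) k₂}
    {s t : PowerSeries ℤ} (hf : IntQ f s) (hg : IntQ g t) : IntQ (f.mul g) (s * t) := by
  unfold IntQ at *
  rw [ModularForm.qExpansion_mul one_pos (one_mem_sp p), hf, hg, map_mul]

theorem IntQ.sub {k : ℤ} {f g : ModularForm (Gamma0 p) k}
    {s t : PowerSeries ℤ} (hf : IntQ f s) (hg : IntQ g t) : IntQ (f - g) (s - t) := by
  unfold IntQ at *
  have := ModularForm.qExpansion_sub one_pos (one_mem_sp p) f g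
  show qExpansion 1 (⇑f - ⇑g) = _
  rw [this, hf, hg, map_sub]

theorem IntQ.heckeT {w : ℤ} {e : ℕ} (hw : w = (e : ℤ) + 1) {r : ℕ} (hr : r.Prime)
    (hrp : ¬ r ∣ p) {f : ModularForm (Gamma0 p) w} {s : PowerSeries ℤ} (hf : IntQ f s) :
    IntQ (ModularForm.heckeTLin w hr hrp f) (hTS e r s) := by
  unfold IntQ at *
  ext n
  have h := ModularFormClass.qCoeff_heckeT f (one_mem_sp p) hr.ne_zero n
  rw [ModularForm.coe_heckeTLin_apply]
  unfold ModularFormClass.qCoeff at h
  rw [h, ModularForm.coeffHeckeT]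
  rw [hf, PowerSeries.coeff_map, PowerSeries.coeff_map, PowerSeries.coeff_map, coeff_hTS]
  have hwe : w - 1 = (e : ℤ) := by rw [hw]; ring
  rw [hwe, zpow_natCast]
  split_ifs with hd
  · simp
  · simp

/-- the trick form `(T_r g) G - T_r (g G)`. -/
def trY {w : ℤ} {r : ℕ} (hr : r.Prime) (hrp : ¬ r ∣ p) (g : ModularForm (Gamma0 p) w)
    (G : ModularForm (Gamma0 p) 2) : ModularForm (Gamma0 p) (w + 2) :=
  (ModularForm.heckeTLin w hr hrp g).mul G - ModularForm.heckeTLin (w + 2) hr hrp (g.mul G)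

theorem intQ_trY {w : ℤ} {e : ℕ} (hw : w = (e : ℤ) + 1) {r : ℕ} (hr : r.Prime)
    (hrp : ¬ r ∣ p) {g : ModularForm (Gamma0 p) w} {G : ModularForm (Gamma0 p) 2}
    {sg sG : PowerSeries ℤ} (hg : IntQ g sg) (hG : IntQ G sG) :
    IntQ (trY hr hrp g G) (hTS e r sg * sG - hTS (e + 2) r (sg * sG)) := by
  have hw2 : w + 2 = ((e + 2 : ℕ) : ℤ) + 1 := by rw [hw]; push_cast; ring
  exact IntQ.sub (IntQ.mul (IntQ.heckeT hw hr hrp hg) hG)
    (IntQ.heckeT hw2 hr hrp (IntQ.mul hg hG))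

end

end Fermat.Agent.S16.H54
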