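import Mathlib
import Fermat.Agent.S23.H2_Restrict
import Fermat.Agent.S24.H28_JBridge
import Fermat.Agent.S28.H9_DeltaQuot
import Fermat.Agent.S16.H72_FormFunction
import Fermat.Agent.S16.H54_TRForms

/-!
# S16 (P7, TR): the two level-one forms `E₄³`, `Δ` and the formal `j`-relation

* `e4Cube p`, `deltaF p` : `E₄³` and `Δ` as modular forms of weight `12` on `Γ₀(p)`, with integer
  `q`-expansions `eisenstein4 ^ 3` and `X * dedekindEtaUnit`.
* `jq_rel R` : `jqModC R * (X * η^24) = E₄^3` in `R((q))`, for every commutative ring `R`.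
* `ofPS_vS` : `V_r` on power series is `qExpand r` on Laurent series.
-/

set_option autoImplicit false

open UpperHalfPlane CongruenceSubgroup ModularForm ModularFormClass ModularCurve
open scoped MatrixGroups ModularForm

namespace Fermat.Agent.S16.H54

noncomputable section

/-! ### `V_r` versus `qExpand` -/

theorem ofPS_vS {R : Type*} [CommRing R] (r : ℕ) [NeZero r] (s : PowerSeries R) :
    HahnSeries.ofPowerSeries ℤ R (vS r s) = qExpand R r (HahnSeries.ofPowerSeries ℤ R s) := by
  ext n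
  by_cases hn : 0 ≤ n
  · obtain ⟨m, rfl⟩ := Int.eq_ofNat_of_zero_le hn
    rw [HahnSeries.ofPowerSeries_apply_coeff, coeff_vS]
    split_ifs with hd
    · obtain ⟨c, rfl⟩ := hd
      have hr : 0 < r := Nat.pos_of_ne_zero (NeZero.ne r)
      rw [Nat.mul_div_cancel_left c hr]
      have : ((r * c : ℕ) : ℤ) = (r : ℤ) * (c : ℤ) := by push_cast; ring
      rw [this, qExpand_coeff_mul, HahnSeries.ofPowerSeries_apply_coeff]
    · rw [qExpand_coeff_of_not_dvd]
      intro h
      exact hd (by exact_mod_cast h)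
  · have hn' : n < 0 := not_le.mp hn
    rw [H72.ofPowerSeries_coeff_of_neg _ hn']
    by_cases hd : (r : ℤ) ∣ n
    · obtain ⟨c, rfl⟩ := hd
      rw [qExpand_coeff_mul, H72.ofPowerSeries_coeff_of_neg]
      have hr : (0 : ℤ) < r := by exact_mod_cast Nat.pos_of_ne_zero (NeZero.ne r)
      by_contra hc
      have : 0 ≤ c := not_lt.mp hc
      exact hn (mul_nonneg hr.le this)
    · rw [qExpand_coeff_of_not_dvd _ _ hd]

/-! ### the formal `j`-relation -/

/-- the integer `q`-series of `Δ`. -/
def deltaS : PowerSeries ℤ := PowerSeries.X * dedekindEtaUnit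

/-- the integer `q`-series of `E₄³`. -/
def e4CubeS : PowerSeries ℤ := eisenstein4 ^ 3

theorem jNum_mul_etaUnit : jNum * dedekindEtaUnit = eisenstein4 ^ 3 := by
  rw [jNum, mul_assoc, mul_comm dedekindEtaUnitInv, dedekindEtaUnit_mul_inv, mul_one]

theorem jq_rel (R : Type*) [CommRing R] :
    jqModC R * HahnSeries.ofPowerSeries ℤ R (deltaS.map (Int.castRingHom R)) =
      HahnSeries.ofPowerSeries ℤ R (e4CubeS.map (Int.castRingHom R)) := by
  rw [jqModC, deltaS, e4CubeS, ← jNum_mul_etaUnit, map_mul, map_mul, map_mul, PowerSeries.map_X,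
    HahnSeries.ofPowerSeries_X, map_mul]
  have h : (HahnSeries.single (-1 : ℤ) (1 : R)) * HahnSeries.single (1 : ℤ) (1 : R) = 1 := by
    rw [HahnSeries.single_mul_single]
    simp
  calc _ = (HahnSeries.single (-1 : ℤ) (1 : R) * HahnSeries.single (1 : ℤ) (1 : R)) *
        (HahnSeries.ofPowerSeries ℤ R (jNum.map (Int.castRingHom R)) *
          HahnSeries.ofPowerSeries ℤ R (dedekindEtaUnit.map (Int.castRingHom R))) := by ring
    _ = _ := by rw [h, one_mul]

theorem coeff_one_deltaS : PowerSeries.coeff 1 deltaS = 1 := by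
  rw [deltaS, show (1 : ℕ) = 0 + 1 from rfl, PowerSeries.coeff_succ_X_mul,
    PowerSeries.coeff_zero_eq_constantCoeff_apply, constantCoeff_dedekindEtaUnit]

theorem deltaS_map_ne_zero (R : Type*) [CommRing R] [Nontrivial R] :
    deltaS.map (Int.castRingHom R) ≠ 0 := by
  intro h
  have := congrArg (PowerSeries.coeff 1) h
  rw [PowerSeries.coeff_map, coeff_one_deltaS] at this
  simp at this

/-! ### the two forms -/

variable (p : ℕ) [NeZero p]

/-- `E₄³` on `Γ₀(p)`. -/
def e4Cube : ModularForm (Gamma0 p) 12 :=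
  S23.H2.restrictGamma0 p
    (ModularForm.mcast (by norm_num : (4 : ℤ) + 4 + 4 = 12) ((E₄.mul E₄).mul E₄))

/-- `Δ` on `Γ₀(p)`. -/
def deltaF : ModularForm (Gamma0 p) 12 :=
  S23.H2.restrictGamma0 p (CuspForm.toModularFormₗ CuspForm.discriminant)

omit [NeZero p] in
theorem intQ_e4Cube : IntQ (e4Cube p) e4CubeS := by
  unfold IntQ e4Cube
  have h1 : (1 : ℝ) ∈ (𝒮ℒ : Subgroup (GL (Fin 2) ℝ)).strictPeriods :=
    _root_.one_mem_strictPeriods_SL
  show qExpansion 1 ((E₄.mul E₄).mul E₄) = _
  rw [ModularForm.qExpansion_mul one_pos h1, ModularForm.qExpansion_mul one_pos h1,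
    S24.H28.qExpansion_E4, e4CubeS, map_pow]
  ring

theorem qExpansion_discriminant :
    qExpansion 1 ModularForm.discriminant = deltaS.map (Int.castRingHom ℂ) := by
  have h1 := (H72.isFormOn_levelOne_cuspForm 1 CuspForm.discriminant).isQSum
  have h2 := S28.H9.isQSum_Delta
  have h3 := h1.series_unique h2
  rw [H72.IsFormOn.qLaurent, S28.DeltaS] at h3
  apply HahnSeries.ofPowerSeries_injective (Γ := ℤ)
  rw [deltaS, map_mul, PowerSeries.map_X, map_mul, HahnSeries.ofPowerSeries_X]
  exact h3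

omit [NeZero p] in
theorem intQ_deltaF : IntQ (deltaF p) deltaS := by
  unfold IntQ deltaF
  exact qExpansion_discriminant

end

end Fermat.Agent.S16.H54
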