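import Mathlib
import Fermat.Agent.S16.H72_FormFunction
import Fermat.Agent.S16.H38_GaussRatio

/-!
# S16 (P7, TR): reduction of a ratio of two forms with integer `q`-expansions

If `F`, `G` are forms of the same weight on `Γ₀(p)` with `q`-expansions `m * s₁`, `m * s₂`
(`s₁ s₂ ∈ ℤ[[q]]`, `m ≠ 0`), `A` is a valuation subring of `Qbar` over `ℓ ∤ p` with residue
field `k`, and `s₂ ≠ 0` in `k[[q]]`, then there is `y ∈ F_p(k) = modularFunctionFieldFullC k p`
with `y * s̄₂ = s̄₁` in `k((q))`.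
-/

set_option autoImplicit false

open UpperHalfPlane ModularCurve
open scoped MatrixGroups ModularForm

namespace Fermat.Agent.S16.H54

noncomputable section

theorem map_map_intCast {R S : Type*} [CommRing R] [CommRing S] (f : R →+* S)
    (s : PowerSeries ℤ) :
    (s.map (Int.castRingHom R)).map f = s.map (Int.castRingHom S) := by
  ext n
  simp only [PowerSeries.coeff_map, eq_intCast, map_intCast]

theorem ofPS_C_mul {R : Type*} [CommRing R] (m : ℤ) (s : PowerSeries ℤ) :
    HahnSeries.ofPowerSeries ℤ R ((PowerSeries.C m * s).map (Int.castRingHom R)) =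
      HahnSeries.C (m : R) * HahnSeries.ofPowerSeries ℤ R (s.map (Int.castRingHom R)) := by
  rw [map_mul, map_mul, PowerSeries.map_C, HahnSeries.ofPowerSeries_C]
  simp

theorem red_ratio (p : ℕ) [NeZero p] {ℓ : ℕ} [Fact ℓ.Prime] (hℓp : ¬ ℓ ∣ p)
    (A : ValuationSubring (AlgebraicClosure ℚ)) (hA : A.LiesOverPrime ℓ)
    {w : ℤ} {F G : ℍ → ℂ} (hF : H72.IsFormOn p w F) (hG : H72.IsFormOn p w G)
    (m : ℤ) (hm : m ≠ 0) (s₁ s₂ : PowerSeries ℤ)
    (h1 : qExpansion 1 F = (PowerSeries.C m * s₁).map (Int.castRingHom ℂ))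
    (h2 : qExpansion 1 G = (PowerSeries.C m * s₂).map (Int.castRingHom ℂ))
    (hred : s₂.map (Int.castRingHom (IsLocalRing.ResidueField A)) ≠ 0) :
    ∃ y ∈ modularFunctionFieldFullC (IsLocalRing.ResidueField A) p,
      y * HahnSeries.ofPowerSeries ℤ _ (s₂.map (Int.castRingHom (IsLocalRing.ResidueField A))) =
        HahnSeries.ofPowerSeries ℤ _ (s₁.map (Int.castRingHom (IsLocalRing.ResidueField A))) := by
  haveI : Algebra.IsAlgebraic ℚ (AlgebraicClosure ℚ) := AlgebraicClosure.isAlgebraic ℚ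
  let _ : Algebra (AlgebraicClosure ℚ) ℂ :=
    (IsAlgClosed.lift : AlgebraicClosure ℚ →ₐ[ℚ] ℂ).toRingHom.toAlgebra
  -- `G ≠ 0`
  have hs2 : s₂ ≠ 0 := by
    rintro rfl
    exact hred (map_zero _)
  have h0 : G ≠ 0 := by
    rintro rfl
    rw [qExpansion_zero] at h2
    have h3 : (PowerSeries.C m * s₂) = 0 := by
      ext n
      have := congrArg (PowerSeries.coeff n) h2
      rw [PowerSeries.coeff_map, map_zero, eq_intCast] at this
      rw [map_zero]
      exact_mod_cast this.symm
    rcases mul_eq_zero.mp h3 with h | h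
    · exact hm (by
        have := congrArg (PowerSeries.coeff 0) h
        simpa using this)
    · exact hs2 h
  -- descent to `Qbar`
  obtain ⟨f₀, hf₀, -⟩ := H72.exists_baseChange_eq_ratio (K := AlgebraicClosure ℚ) p hF hG h0
    ((PowerSeries.C m * s₁).map (Int.castRingHom (AlgebraicClosure ℚ)))
    ((PowerSeries.C m * s₂).map (Int.castRingHom (AlgebraicClosure ℚ)))
    (by rw [h1, map_map_intCast]) (by rw [h2, map_map_intCast])
  rw [ofPS_C_mul, ofPS_C_mul] at hf₀
  have hmQ : (HahnSeries.C ((m : ℤ) : AlgebraicClosure ℚ) :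
      LaurentSeries (AlgebraicClosure ℚ)) ≠ 0 := by
    rw [Ne, map_eq_zero]
    exact_mod_cast hm
  have hf₁ : (f₀ : LaurentSeries (AlgebraicClosure ℚ)) *
      HahnSeries.ofPowerSeries ℤ _ (s₂.map (Int.castRingHom (AlgebraicClosure ℚ))) =
      HahnSeries.ofPowerSeries ℤ _ (s₁.map (Int.castRingHom (AlgebraicClosure ℚ))) := by
    apply mul_left_cancel₀ hmQ
    rw [← hf₀]
    ring
  -- integral models
  set u : LaurentSeries A := HahnSeries.ofPowerSeries ℤ A (s₁.map (Int.castRingHom A)) with hu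
  set v : LaurentSeries A := HahnSeries.ofPowerSeries ℤ A (s₂.map (Int.castRingHom A)) with hv
  have hu1 : coeffMap A.subtype u =
      HahnSeries.ofPowerSeries ℤ _ (s₁.map (Int.castRingHom (AlgebraicClosure ℚ))) := by
    rw [hu, coeffMap_ofPowerSeries, map_map_intCast]
  have hv1 : coeffMap A.subtype v =
      HahnSeries.ofPowerSeries ℤ _ (s₂.map (Int.castRingHom (AlgebraicClosure ℚ))) := by
    rw [hv, coeffMap_ofPowerSeries, map_map_intCast]
  have hu2 : coeffMap (IsLocalRing.residue A) u =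
      HahnSeries.ofPowerSeries ℤ _ (s₁.map (Int.castRingHom (IsLocalRing.ResidueField A))) := by
    rw [hu, coeffMap_ofPowerSeries, map_map_intCast]
  have hv2 : coeffMap (IsLocalRing.residue A) v =
      HahnSeries.ofPowerSeries ℤ _ (s₂.map (Int.castRingHom (IsLocalRing.ResidueField A))) := by
    rw [hv, coeffMap_ofPowerSeries, map_map_intCast]
  have hvne : coeffMap (IsLocalRing.residue A) v ≠ 0 := by
    rw [hv2]
    intro h
    apply hred
    apply HahnSeries.ofPowerSeries_injective (Γ := ℤ)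
    rw [h, map_zero]
  obtain ⟨hmem, hres⟩ := H38.ratio_mem_stdO p hℓp A hA f₀ (u := u) (v := v) hvne
    (by rw [hu1, hv1]; exact hf₁)
  refine ⟨_, (S18.H92.stdRes p hℓp A hA ⟨f₀, hmem⟩).2, ?_⟩
  rw [← hu2, ← hv2]
  exact hres

end

end Fermat.Agent.S16.H54
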