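import Mathlib
import Fermat.Agent.S14.H54_Places
import Fermat.Agent.S20.H78_Index
import Fermat.Agent.S16.H39_Leaves
import Fermat.Agent.S16.H54_TRCore
import Fermat.Agent.S16.H54_TRLevelOne
import Fermat.Agent.S16.H54_TRRed

/-!
# S16 (P7, TR): the `V_r` trick, final assembly

* `tr_false` : the core contradiction.  A form `G ∈ M₂(Γ₀(p))` with integer `q`-expansion for
  which the two trick forms `Y_i = (T_r g_i) G - T_r (g_i G)` (`g₁ = E₄³`, `g₂ = Δ`) are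
  `m * Z_i` with `Z_i ≡ c V_r(g_i)` modulo `ℓ` (`ℓ ∤ c`, `ℓ ≠ p`, `r > p` prime, `r ≠ ℓ`) cannot
  exist: `V_r(j) = Z̄₁ / Z̄₂` would lie in `F_p(k)`, but `[k(j, V_r j) : k(j)] = r + 1 > p + 1`.
* `uLeaf_five` : `H39.ULeaf p ℓ 0` for `ℓ ≥ 5` prime, `ℓ ≠ p`.
* `uLeaf_nine` : `H39.ULeaf p 3 1` for `p ≠ 3`.
-/

set_option autoImplicit false
set_option linter.style.haveILetI false

open UpperHalfPlane CongruenceSubgroup ModularForm ModularFormClass ModularCurve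
open scoped MatrixGroups ModularForm

namespace Fermat.Agent.S16.H54

noncomputable section

theorem vS_deltaS_ne_zero (k : Type*) [Field k] (r : ℕ) (hr : 0 < r) :
    vS r (deltaS.map (Int.castRingHom k)) ≠ 0 := by
  intro h
  have := congrArg (PowerSeries.coeff r) h
  rw [coeff_vS, if_pos dvd_rfl, Nat.div_self hr, PowerSeries.coeff_map, coeff_one_deltaS] at this
  simp at this

/-- **The core contradiction.** -/
theorem tr_false (p : ℕ) [Fact p.Prime] (ℓ : ℕ) [Fact ℓ.Prime] (hℓp : ℓ ≠ p)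
    (r : ℕ) (hr : r.Prime) (hpr : p < r) (hrℓ : r ≠ ℓ)
    (G : ModularForm (Gamma0 p) 2) (sG : PowerSeries ℤ) (hG : IntQ G sG)
    (m : ℤ) (hm : m ≠ 0) (c : ℤ) (hc : ¬ (ℓ : ℤ) ∣ c) (Z₁ Z₂ : PowerSeries ℤ)
    (hZ1 : hTS 11 r e4CubeS * sG - hTS (11 + 2) r (e4CubeS * sG) = PowerSeries.C m * Z₁)
    (hZ2 : hTS 11 r deltaS * sG - hTS (11 + 2) r (deltaS * sG) = PowerSeries.C m * Z₂)
    (hred1 : ∀ (k : Type) [Field k] [CharP k ℓ], Z₁.map (Int.castRingHom k) =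
        PowerSeries.C ((c : ℤ) : k) * vS r (e4CubeS.map (Int.castRingHom k)))
    (hred2 : ∀ (k : Type) [Field k] [CharP k ℓ], Z₂.map (Int.castRingHom k) =
        PowerSeries.C ((c : ℤ) : k) * vS r (deltaS.map (Int.castRingHom k))) : False := by
  have hp : p.Prime := Fact.out
  have hℓ : ℓ.Prime := Fact.out
  haveI : NeZero p := ⟨hp.ne_zero⟩
  haveI : NeZero r := ⟨hr.ne_zero⟩
  obtain ⟨A, hA⟩ := S14.H54.exists_liesOverPrime_place hℓ
  have hℓp' : ¬ ℓ ∣ p := fun h => hℓp ((Nat.prime_dvd_prime_iff_eq hℓ hp).mp h)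
  have hℓr' : ¬ ℓ ∣ r := fun h => hrℓ ((Nat.prime_dvd_prime_iff_eq hℓ hr).mp h).symm
  have hrp : ¬ r ∣ p := fun h => absurd (Nat.le_of_dvd hp.pos h) (not_le.mpr hpr)
  haveI : CharP (IsLocalRing.ResidueField A) ℓ := S18.H92.charP_residueField A hA
  have hpk : ((p : ℕ) : IsLocalRing.ResidueField A) ≠ 0 :=
    S18.H92.natCast_residueField_ne_zero p hℓp' A hA
  have hrk : ((r : ℕ) : IsLocalRing.ResidueField A) ≠ 0 :=
    S18.H92.natCast_residueField_ne_zero r hℓr' A hA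
  -- the two trick forms
  have hY1 : IntQ (trY hr hrp (e4Cube p) G) (PowerSeries.C m * Z₁) := by
    rw [← hZ1]
    exact intQ_trY (by norm_num) hr hrp (intQ_e4Cube p) hG
  have hY2 : IntQ (trY hr hrp (deltaF p) G) (PowerSeries.C m * Z₂) := by
    rw [← hZ2]
    exact intQ_trY (by norm_num) hr hrp (intQ_deltaF p) hG
  have hck : ((c : ℤ) : IsLocalRing.ResidueField A) ≠ 0 := by
    rw [Ne, CharP.intCast_eq_zero_iff (IsLocalRing.ResidueField A) ℓ]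
    exact hc
  have hCc : (PowerSeries.C ((c : ℤ) : IsLocalRing.ResidueField A) :
      PowerSeries (IsLocalRing.ResidueField A)) ≠ 0 := by
    rw [Ne, map_eq_zero_iff _ PowerSeries.C_injective]
    exact hck
  have hred : Z₂.map (Int.castRingHom (IsLocalRing.ResidueField A)) ≠ 0 := by
    rw [hred2]
    exact mul_ne_zero hCc (vS_deltaS_ne_zero _ r hr.pos)
  obtain ⟨y, hy, hyrel⟩ := red_ratio p hℓp' A hA
    (H72.isFormOn_modularForm (trY hr hrp (e4Cube p) G))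
    (H72.isFormOn_modularForm (trY hr hrp (deltaF p) G)) m hm Z₁ Z₂ hY1 hY2 hred
  rw [hred1, hred2, map_mul, map_mul, HahnSeries.ofPowerSeries_C, ofPS_vS, ofPS_vS] at hyrel
  -- cancel the constant
  have hCc' : (HahnSeries.C ((c : ℤ) : IsLocalRing.ResidueField A) :
      LaurentSeries (IsLocalRing.ResidueField A)) ≠ 0 := by
    rw [Ne, map_eq_zero]
    exact hck
  have h1 : y * qExpand _ r (HahnSeries.ofPowerSeries ℤ (IsLocalRing.ResidueField A)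
        (deltaS.map (Int.castRingHom _))) =
      qExpand _ r (HahnSeries.ofPowerSeries ℤ (IsLocalRing.ResidueField A)
        (e4CubeS.map (Int.castRingHom _))) := by
    apply mul_left_cancel₀ hCc'
    rw [← hyrel]
    ring
  rw [← jq_rel, map_mul] at h1
  have hδ : qExpand (IsLocalRing.ResidueField A) r
      (HahnSeries.ofPowerSeries ℤ (IsLocalRing.ResidueField A)
        (deltaS.map (Int.castRingHom _))) ≠ 0 := by
    rw [Ne, map_eq_zero_iff _ (qExpand_injective r)]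
    intro h
    apply deltaS_map_ne_zero (IsLocalRing.ResidueField A)
    apply HahnSeries.ofPowerSeries_injective (Γ := ℤ)
    rw [h, map_zero]
  have hyeq : y = qExpand (IsLocalRing.ResidueField A) r (jqModC _) := mul_right_cancel₀ hδ h1
  have hmem : qExpand (IsLocalRing.ResidueField A) r (jqModC _) ∈
      modularFunctionFieldFullC (IsLocalRing.ResidueField A) p := hyeq ▸ hy
  have hle := tr_core_three p r hpk hrk hmem
  have e1 : dedekindPsi r = r + 1 := by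
    simpa using S20.H78.dedekindPsi_prime_pow (p := r) (k := 1) hr one_pos
  have e2 : dedekindPsi p = p + 1 := by
    simpa using S20.H78.dedekindPsi_prime_pow (p := p) (k := 1) hp one_pos
  rw [e1, e2] at hle
  omega

/-! ### normalisation of a form with a non-divisible constant term -/

/-- If `ℓ ^ N ∣ a n` for `n ≥ 1` but `ℓ ^ N ∤ ℓ ^ e * a 0`, then `F / ℓ ^ v` (`v = v_ℓ(a 0)`) has
integer `q`-expansion `u + ℓ ^ (e + 1) * H` with `ℓ ∤ u`. -/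
theorem exists_normalized (p ℓ e : ℕ) (hℓ : ℓ.Prime) (F : ModularForm (Gamma0 p) 2) (a : ℕ → ℤ)
    (ha : ∀ n, (qExpansion 1 F).coeff n = (a n : ℂ)) (N : ℕ)
    (hdiv : ∀ n, 1 ≤ n → (ℓ : ℤ) ^ N ∣ a n) (hnot : ¬ (ℓ : ℤ) ^ N ∣ (ℓ : ℤ) ^ e * a 0) :
    ∃ (G : ModularForm (Gamma0 p) 2) (u : ℤ) (H : PowerSeries ℤ), ¬ (ℓ : ℤ) ∣ u ∧
      IntQ G (PowerSeries.C u + PowerSeries.C ((ℓ : ℤ) ^ (e + 1)) * H) := by
  have hℓ0 : (ℓ : ℤ) ≠ 0 := by exact_mod_cast hℓ.ne_zero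
  have ha0 : a 0 ≠ 0 := by
    intro h
    apply hnot
    rw [h, mul_zero]
    exact dvd_zero _
  have hfin : FiniteMultiplicity (ℓ : ℤ) (a 0) := by
    rw [Int.finiteMultiplicity_iff]
    refine ⟨?_, ha0⟩
    simpa using hℓ.ne_one
  obtain ⟨u, hu, hud⟩ := hfin.exists_eq_pow_mul_and_not_dvd
  set v := multiplicity (ℓ : ℤ) (a 0) with hv
  -- `v + e + 1 ≤ N`
  have hN : v + e + 1 ≤ N := by
    by_contra hlt
    have hle : N ≤ e + v := by omega
    apply hnot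
    rw [hu, ← mul_assoc, ← pow_add]
    exact Dvd.dvd.mul_right (pow_dvd_pow _ hle) _
  have hdiv' : ∀ n, 1 ≤ n → (ℓ : ℤ) ^ (v + e + 1) ∣ a n := fun n hn =>
    (pow_dvd_pow _ hN).trans (hdiv n hn)
  choose! b hb using hdiv'
  refine ⟨(((ℓ : ℂ) ^ v)⁻¹) • F, u, PowerSeries.mk fun n => if n = 0 then 0 else b n, hud, ?_⟩
  unfold IntQ
  have hsm := ModularForm.qExpansion_smul one_pos (one_mem_sp p) (((ℓ : ℂ) ^ v)⁻¹) F
  have hcoe : (⇑((((ℓ : ℂ) ^ v)⁻¹) • F) : ℍ → ℂ) = (((ℓ : ℂ) ^ v)⁻¹) • ⇑F := rfl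
  rw [hcoe, hsm]
  ext n
  have hℓC : ((ℓ : ℂ) ^ v) ≠ 0 := pow_ne_zero _ (by exact_mod_cast hℓ.ne_zero)
  rw [PowerSeries.coeff_smul, ha n, PowerSeries.coeff_map, map_add, PowerSeries.coeff_C,
    PowerSeries.coeff_C_mul, PowerSeries.coeff_mk, smul_eq_mul]
  rcases Nat.eq_zero_or_pos n with rfl | hn
  · rw [if_pos rfl, if_pos rfl, mul_zero, add_zero, hu]
    simp only [eq_intCast]
    push_cast
    field_simp
  · rw [if_neg hn.ne', if_neg hn.ne', zero_add, hb n hn]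
    simp only [eq_intCast]
    push_cast
    rw [pow_add, pow_add]
    field_simp
    ring

/-! ### the auxiliary prime -/

theorem exists_prime_five (ℓ : ℕ) (hℓ : ℓ.Prime) (h5 : 5 ≤ ℓ) (p : ℕ) :
    ∃ r : ℕ, r.Prime ∧ p < r ∧ r ≠ ℓ ∧ ¬ (ℓ : ℤ) ∣ 1 - (r : ℤ) ^ 2 := by
  have hcop : Nat.Coprime 2 ℓ := by
    rw [Nat.coprime_primes Nat.prime_two hℓ]
    omega
  obtain ⟨r, hrp, hr, hmod⟩ := Nat.forall_exists_prime_gt_and_modEq p hℓ.ne_zero hcop
  have hmodZ : (r : ℤ) ≡ 2 [ZMOD (ℓ : ℤ)] := by exact_mod_cast (Int.natCast_modEq_iff.mpr hmod)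
  refine ⟨r, hr, hrp, ?_, ?_⟩
  · rintro rfl
    have : (r : ℤ) ∣ 2 := by
      have h0 : (r : ℤ) ≡ 0 [ZMOD (r : ℤ)] := Int.modEq_zero_iff_dvd.mpr dvd_rfl
      have := (hmodZ.symm.trans h0)
      exact (Int.modEq_zero_iff_dvd.mp this)
    have h2 : (r : ℤ) ≤ 2 := Int.le_of_dvd (by norm_num) this
    have : (5 : ℤ) ≤ r := by exact_mod_cast h5
    omega
  · intro hd
    have h1 : (1 - (r : ℤ) ^ 2) ≡ 1 - 2 ^ 2 [ZMOD (ℓ : ℤ)] :=
      Int.ModEq.sub (Int.ModEq.refl 1) (hmodZ.pow 2)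
    have h2 : (ℓ : ℤ) ∣ 1 - 2 ^ 2 := by
      have := (Int.modEq_zero_iff_dvd.mpr hd)
      exact Int.modEq_zero_iff_dvd.mp (h1.symm.trans this)
    have h3 : (ℓ : ℤ) ∣ 3 := by
      have : (1 - 2 ^ 2 : ℤ) = -3 := by norm_num
      rw [this] at h2
      exact (dvd_neg.mp h2)
    have h4 : (ℓ : ℤ) ≤ 3 := Int.le_of_dvd (by norm_num) h3
    have : (5 : ℤ) ≤ ℓ := by exact_mod_cast h5
    omega

theorem exists_prime_nine (p : ℕ) :
    ∃ r : ℕ, r.Prime ∧ p < r ∧ r ≠ 3 ∧ ∃ u' : ℤ, 1 - (r : ℤ) ^ 2 = 3 * u' ∧ ¬ (3 : ℤ) ∣ u' := by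
  have hcop : Nat.Coprime 2 9 := by norm_num
  obtain ⟨r, hrp, hr, hmod⟩ := Nat.forall_exists_prime_gt_and_modEq p (by norm_num : 9 ≠ 0) hcop
  have hmod' : r % 9 = 2 := hmod
  refine ⟨r, hr, hrp, ?_, ?_⟩
  · rintro rfl
    norm_num at hmod'
  · obtain ⟨q, hq⟩ : ∃ q : ℕ, r = 9 * q + 2 := ⟨r / 9, by omega⟩
    refine ⟨-(27 * (q : ℤ) ^ 2 + 12 * q + 1), ?_, ?_⟩
    · rw [hq]
      push_cast
      ring
    · intro hd
      rw [dvd_neg] at hd
      have : (3 : ℤ) ∣ 1 := by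
        have h3 : (3 : ℤ) ∣ 27 * (q : ℤ) ^ 2 + 12 * q := ⟨9 * (q : ℤ) ^ 2 + 4 * q, by ring⟩
        exact (dvd_add_right h3).mp hd
      norm_num at this

/-! ### the two leaves -/

/-- **(U5), `ℓ ≠ p`.** -/
theorem uLeaf_five (p : ℕ) [Fact p.Prime] (ℓ : ℕ) (hℓ : ℓ.Prime) (h5 : 5 ≤ ℓ) (hℓp : ℓ ≠ p) :
    H39.ULeaf p ℓ 0 := by
  haveI : Fact ℓ.Prime := ⟨hℓ⟩
  intro F a ha N hdiv
  by_contra hnot
  obtain ⟨G, u, H, hu, hG⟩ := exists_normalized p ℓ 0 hℓ F a ha N hdiv hnot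
  obtain ⟨r, hr, hpr, hrℓ, hr2⟩ := exists_prime_five ℓ hℓ h5 p
  have hℓZ : Prime (ℓ : ℤ) := Nat.prime_iff_prime_int.mp hℓ
  have hℓr : ¬ (ℓ : ℤ) ∣ (r : ℤ) := by
    intro h
    have h' : ℓ ∣ r := by exact_mod_cast h
    exact hrℓ ((Nat.prime_dvd_prime_iff_eq hℓ hr).mp h').symm
  have hc : ¬ (ℓ : ℤ) ∣ u * (r : ℤ) ^ 11 * (1 - (r : ℤ) ^ 2) := by
    intro h
    rcases hℓZ.dvd_or_dvd h with h | h
    · rcases hℓZ.dvd_or_dvd h with h | h
      · exact hu h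
      · exact hℓr (hℓZ.dvd_of_dvd_pow h)
    · exact hr2 h
  have hGmap : ∀ (k : Type) [Field k] [CharP k ℓ],
      (PowerSeries.C u + PowerSeries.C ((ℓ : ℤ) ^ (0 + 1)) * H).map (Int.castRingHom k) =
        PowerSeries.C ((Int.castRingHom k) u) := by
    intro k _ _
    rw [map_add, map_mul, PowerSeries.map_C, PowerSeries.map_C]
    have : (Int.castRingHom k) ((ℓ : ℤ) ^ (0 + 1)) = 0 := by
      simp
    rw [this, map_zero, zero_mul, add_zero]
  refine tr_false p ℓ hℓp r hr hpr hrℓ G _ hG 1 one_ne_zero _ hc _ _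
    (by rw [map_one, one_mul]) (by rw [map_one, one_mul]) ?_ ?_
  · intro k _ _
    rw [tr_series_mod (Int.castRingHom k) 11 r e4CubeS _ u (hGmap k)]
    congr 2
    simp
  · intro k _ _
    rw [tr_series_mod (Int.castRingHom k) 11 r deltaS _ u (hGmap k)]
    congr 2
    simp

/-- **(U3b) in the strong form: no form `≡ unit mod 9`**, any prime level `p ≠ 3`. -/
theorem uLeaf_nine (p : ℕ) [Fact p.Prime] (hp3 : p ≠ 3) : H39.ULeaf p 3 1 := by
  haveI : Fact (3 : ℕ).Prime := ⟨Nat.prime_three⟩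
  intro F a ha N hdiv
  by_contra hnot
  obtain ⟨G, u, H, hu, hG⟩ := exists_normalized p 3 1 Nat.prime_three F a ha N hdiv hnot
  obtain ⟨r, hr, hpr, hr3, u', hru', hu'⟩ := exists_prime_nine p
  have h3Z : Prime (3 : ℤ) := Int.prime_three
  have h3r : ¬ (3 : ℤ) ∣ (r : ℤ) := by
    intro h
    have h' : 3 ∣ r := by exact_mod_cast h
    exact hr3 ((Nat.prime_dvd_prime_iff_eq Nat.prime_three hr).mp h').symm
  have hc : ¬ ((3 : ℕ) : ℤ) ∣ u * (r : ℤ) ^ 11 * u' := by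
    intro h
    rcases h3Z.dvd_or_dvd (by exact_mod_cast h) with h | h
    · rcases h3Z.dvd_or_dvd h with h | h
      · exact hu (by exact_mod_cast h)
      · exact h3r (h3Z.dvd_of_dvd_pow h)
    · exact hu' h
  have hG' : IntQ G (PowerSeries.C u + PowerSeries.C ((3 : ℤ) * 3) * H) := by
    have : ((3 : ℕ) : ℤ) ^ (1 + 1) = 3 * 3 := by norm_num
    rw [this] at hG
    exact hG
  obtain ⟨Z₁, hZ1, hZ1r⟩ := tr_series_sq 11 r e4CubeS H u 3 u' (by exact_mod_cast hru')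
  obtain ⟨Z₂, hZ2, hZ2r⟩ := tr_series_sq 11 r deltaS H u 3 u' (by exact_mod_cast hru')
  have h3k : ∀ (k : Type) [Field k] [CharP k 3], (Int.castRingHom k) 3 = 0 := by
    intro k _ _
    have := CharP.cast_eq_zero k 3
    simpa using this
  refine tr_false p 3 (Ne.symm hp3) r hr hpr hr3 G _ hG' 3 (by norm_num) _ hc Z₁ Z₂ hZ1 hZ2 ?_ ?_
  · intro k _ _
    rw [hZ1r (Int.castRingHom k) (h3k k)]
    congr 2
    simp
  · intro k _ _
    rw [hZ2r (Int.castRingHom k) (h3k k)]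
    congr 2
    simp

end

end Fermat.Agent.S16.H54
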