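/-
S16, package (U3b) [helper59]: the algebra step.

In characteristic `3`, for a nonzero power series `S` without constant term, the series
`S * (S + c) ^ p` is never a polynomial in `S - S ^ 3`: the latter are invariant under the
substitution `S ↦ S + 1`.
-/
import Mathlib

set_option autoImplicit false

open Polynomial

namespace Fermat.Agent.S16.H59

section poly

variable {κ : Type*} [Field κ] [CharP κ 3]

/-- `(X - X^3) ∘ (X + 1) = X - X^3` in characteristic `3`. -/
theorem comp_X_add_one_artinSchreier :
    ((X : κ[X]) - X ^ 3).comp (X + 1) = X - X ^ 3 := by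
  have : Fact (Nat.Prime 3) := ⟨Nat.prime_three⟩
  have h : ((X : κ[X]) + 1) ^ 3 = X ^ 3 + 1 := by
    rw [add_pow_char, one_pow]
  simp only [sub_comp, X_comp, pow_comp]
  rw [h]
  ring

/-- **The polynomial identity is impossible**: `X (X + c)^p` is not a polynomial in `X - X^3`
in characteristic `3`. -/
theorem X_mul_pow_ne_comp (c : κ) (p : ℕ) (P : κ[X]) :
    (X : κ[X]) * (X + C c) ^ p ≠ P.comp (X - X ^ 3) := by
  intro h
  -- substitute `X + 1`
  have h1 : ((X : κ[X]) * (X + C c) ^ p).comp (X + 1) = (X : κ[X]) * (X + C c) ^ p := by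
    rw [h, comp_assoc, comp_X_add_one_artinSchreier]
  have h2 : ((X : κ[X]) + 1) * (X + 1 + C c) ^ p = X * (X + C c) ^ p := by
    simpa [mul_comp, pow_comp, add_comp] using h1
  -- evaluate at `0`
  have e0 := congrArg (Polynomial.eval (0 : κ)) h2
  simp only [eval_mul, eval_add, eval_X, eval_one, eval_pow, eval_C, zero_add, one_mul,
    zero_mul] at e0
  have hc : 1 + c = 0 := by
    exact eq_zero_of_pow_eq_zero e0 |> fun h => by simpa using h
  -- evaluate at `-1`
  have e1 := congrArg (Polynomial.eval (-1 : κ)) h2
  simp only [eval_mul, eval_add, eval_X, eval_one, eval_pow, eval_C, neg_add_cancel,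
    zero_mul] at e1
  have hc' : c = -1 := by linear_combination hc
  have h3 : (3 : κ) = 0 := by
    have := CharP.cast_eq_zero κ 3
    exact_mod_cast this
  have h21 : (-1 + c : κ) = 1 := by
    rw [hc']; linear_combination (-1 : κ) * h3
  rw [h21, one_pow, mul_one] at e1
  -- `0 = -1`
  have : (1 : κ) = 0 := by linear_combination e1
  exact one_ne_zero this

end poly

section series

variable {κ : Type*} [Field κ]

/-- Evaluation of polynomials at a nonzero power series without constant term is injective. -/
theorem aeval_powerSeries_injective (S : PowerSeries κ) (hS : S ≠ 0)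
    (h0 : PowerSeries.constantCoeff S = 0) :
    Function.Injective (Polynomial.aeval S : κ[X] → PowerSeries κ) := by
  rw [injective_iff_map_eq_zero]
  intro Q hQ
  by_contra hne
  -- write `Q = X^n * Q'` with `Q'(0) ≠ 0`
  obtain ⟨Q', hQQ', hQ'⟩ :=
    Polynomial.exists_eq_pow_rootMultiplicity_mul_and_not_dvd Q hne (0 : κ)
  set n := Q.rootMultiplicity 0
  have hQ'0 : Q'.eval 0 ≠ 0 := by
    intro h
    apply hQ'
    rw [Polynomial.dvd_iff_isRoot]
    exact h
  rw [hQQ', map_mul, map_pow, map_sub, Polynomial.aeval_X, Polynomial.aeval_C, map_zero,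
    sub_zero] at hQ
  rcases mul_eq_zero.mp hQ with h | h
  · exact hS (eq_zero_of_pow_eq_zero h)
  · apply hQ'0
    have h00 := congrArg (PowerSeries.constantCoeff (R := κ)) h
    rw [map_zero] at h00
    -- constant coefficient of `aeval S Q'` is `Q'(S(0)) = Q'(0)`
    have hcomp : PowerSeries.constantCoeff (Polynomial.aeval S Q') =
        Polynomial.eval₂ (RingHom.id κ) (PowerSeries.constantCoeff S) Q' := by
      rw [Polynomial.aeval_def, Polynomial.hom_eval₂]
      congr 1
    rw [hcomp, h0, Polynomial.eval₂_id] at h00
    exact h00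

variable [CharP κ 3]

/-- **(U3b), algebra step.** For a nonzero power series `S` without constant term over a field
of characteristic `3`, `S (S + c)^p` is not a polynomial in `S - S^3`. -/
theorem mul_pow_ne_aeval_artinSchreier (S : PowerSeries κ) (hS : S ≠ 0)
    (h0 : PowerSeries.constantCoeff S = 0) (c : κ) (p : ℕ) (P : κ[X]) :
    S * (S + PowerSeries.C c) ^ p ≠ Polynomial.aeval (S - S ^ 3) P := by
  intro h
  apply X_mul_pow_ne_comp c p P
  apply aeval_powerSeries_injective S hS h0
  rw [Polynomial.aeval_comp, map_mul, map_pow, map_add, map_sub, map_pow, Polynomial.aeval_X,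
    Polynomial.aeval_C]
  exact h

end series

end Fermat.Agent.S16.H59
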