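/-
S16, package (U3b) [helper59]: the level-one obstruction.

No level one modular form with coefficients in `O ⊆ ℂ` reduces (along `φ : O →+* κ`,
`char κ = 3`) to `S (S + c)^p`, where `S = ∑ σ₃(n) qⁿ mod 3`.
-/
import Fermat.Agent.S16.H59_U3Alg
import Fermat.Agent.S16.H59_U3LevelOne

set_option autoImplicit false

open UpperHalfPlane ModularForm ModularFormClass MatrixGroups EisensteinSeries

namespace Fermat.Agent.S16.H59

variable (O : Subring ℂ) {κ : Type*} [Field κ] [CharP κ 3] (φ : O →+* κ)

/-- `S = ∑ σ₃(n) qⁿ` with coefficients in a ring `κ`. -/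
noncomputable def sBar (κ : Type*) [CommRing κ] : PowerSeries κ :=
  PowerSeries.map (Int.castRingHom κ) (sg 3)

lemma constantCoeff_sBar (κ : Type*) [CommRing κ] :
    PowerSeries.constantCoeff (sBar κ) = 0 := by
  rw [sBar, ← PowerSeries.coeff_zero_eq_constantCoeff_apply, PowerSeries.coeff_map,
    PowerSeries.coeff_zero_eq_constantCoeff_apply, constantCoeff_sg, map_zero]

lemma coeff_one_sBar (κ : Type*) [CommRing κ] : (sBar κ).coeff 1 = 1 := by
  rw [sBar, PowerSeries.coeff_map, coeff_sg]
  simp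

lemma sBar_ne_zero (κ : Type*) [CommRing κ] [Nontrivial κ] : sBar κ ≠ 0 := by
  intro h
  have := coeff_one_sBar κ
  rw [h] at this
  simp at this

/-- **(U3b), level one obstruction.** -/
theorem levelOne_reduction_ne {k : ℤ} (F : ModularForm 𝒮ℒ k) (P : PowerSeries O)
    (hP : PowerSeries.map O.subtype P = qExpansion 1 F) (c : κ) (p : ℕ) :
    PowerSeries.map φ P ≠ sBar κ * (sBar κ + PowerSeries.C c) ^ p := by
  intro h
  obtain ⟨Q, hQ⟩ := exists_polynomial_reduction O φ k F P hP
  rw [deltaZ_map_three] at hQ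
  exact mul_pow_ne_aeval_artinSchreier (sBar κ) (sBar_ne_zero κ) (constantCoeff_sBar κ) c p Q
    (h.symm.trans hQ)

end Fermat.Agent.S16.H59
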