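/-
S16, package (U3b) [helper59]: a local subring of `ℂ` over the prime `l`.

`exists_local_data l`: a subring `O ⊆ ℂ`, a field `κ` of characteristic `l` and a ring
homomorphism `φ : O → κ` such that `O` contains every `l`-integral rational number and every
root of unity.  (`O` is a valuation subring of `ℂ` in which `l` is a non-unit, `κ` its residue
field.)
-/
import Mathlib

set_option autoImplicit false

namespace Fermat.Agent.S16.H59

/-- A valuation subring of `ℂ` in which the prime `l` is a non-unit. -/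
theorem exists_valuationSubring_nonunit (l : ℕ) (hl : l.Prime) :
    ∃ V : ValuationSubring ℂ, (l : ℂ) ∈ V.nonunits := by
  let A : Subring ℂ := (Int.castRingHom ℂ).range
  have hlA : (l : ℂ) ∈ A := ⟨(l : ℤ), by simp⟩
  let I : Ideal A := Ideal.span {⟨(l : ℂ), hlA⟩}
  have hI : I ≠ ⊤ := by
    intro h
    have h1 : (1 : A) ∈ I := by rw [h]; trivial
    obtain ⟨⟨a, n, rfl⟩, ha⟩ := Ideal.mem_span_singleton'.mp h1
    have h2 : ((n : ℤ) : ℂ) * (l : ℂ) = 1 := by
      have := congrArg Subtype.val ha
      simpa using this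
    have h3 : (n : ℤ) * (l : ℤ) = 1 := by exact_mod_cast h2
    have h4 : ((l : ℤ)) ∣ 1 := ⟨n, by rw [← h3]; ring⟩
    have h5 : (l : ℤ) = 1 ∨ (l : ℤ) = -1 := Int.isUnit_iff.mp (isUnit_of_dvd_one h4)
    have := hl.two_le
    omega
  obtain ⟨V, -, hV⟩ := Ideal.image_subset_nonunits_valuationSubring I hI
  exact ⟨V, hV ⟨⟨(l : ℂ), hlA⟩, Ideal.subset_span rfl, rfl⟩⟩

/-- The local data over a prime `l`: a subring of `ℂ`, a field of characteristic `l`, and a ring
homomorphism between them; the subring contains the `l`-integral rationals and all roots of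
unity. -/
theorem exists_local_data (l : ℕ) (hl : l.Prime) :
    ∃ (O : Subring ℂ) (κ : Type) (_ : Field κ) (_ : CharP κ l) (_ : O →+* κ),
      (∀ x : ℚ, ¬ l ∣ x.den → (x : ℂ) ∈ O) ∧
      (∀ z : ℂ, ∀ n : ℕ, 0 < n → z ^ n = 1 → z ∈ O) := by
  obtain ⟨V, hV⟩ := exists_valuationSubring_nonunit l hl
  have hlt : V.valuation (l : ℂ) < 1 := V.mem_nonunits_iff.mp hV
  have hint : ∀ n : ℤ, V.valuation (n : ℂ) ≤ 1 := fun n =>
    (V.valuation_le_one_iff _).mpr (intCast_mem V.toSubring n)
  -- integers prime to `l` are units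
  have hunit : ∀ d : ℕ, ¬ l ∣ d → ((d : ℂ))⁻¹ ∈ V := by
    intro d hd
    have hcop : IsCoprime (d : ℤ) (l : ℤ) := by
      rw [Int.isCoprime_iff_gcd_eq_one]
      have : Nat.Coprime l d := (Nat.Prime.coprime_iff_not_dvd hl).mpr hd
      rw [Int.gcd_natCast_natCast]
      exact this.symm
    obtain ⟨a, b, hab⟩ := hcop
    have h1 : ((a : ℤ) : ℂ) * (d : ℂ) + ((b : ℤ) : ℂ) * (l : ℂ) = 1 := by exact_mod_cast hab
    have hb : V.valuation (((b : ℤ) : ℂ) * (l : ℂ)) < 1 := by
      rw [map_mul]
      calc V.valuation ((b : ℤ) : ℂ) * V.valuation (l : ℂ) ≤ 1 * V.valuation (l : ℂ) :=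
            mul_le_mul_left (hint b) _
        _ < 1 := by rwa [one_mul]
    have hd1 : V.valuation (d : ℂ) = 1 := by
      refine le_antisymm (by simpa using hint (d : ℤ)) ?_
      by_contra hlt'
      push Not at hlt'
      have ha : V.valuation (((a : ℤ) : ℂ) * (d : ℂ)) < 1 := by
        rw [map_mul]
        calc V.valuation ((a : ℤ) : ℂ) * V.valuation (d : ℂ) ≤ 1 * V.valuation (d : ℂ) :=
              mul_le_mul_left (hint a) _
          _ < 1 := by rwa [one_mul]
      have := V.valuation.map_add_lt ha hb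
      rw [h1, map_one] at this
      exact lt_irrefl _ this
    rw [← V.valuation_le_one_iff, map_inv₀, hd1, inv_one]
  have hres : (IsLocalRing.residue V) (l : V) = 0 := by
    rw [IsLocalRing.residue_eq_zero_iff, V.valuation_lt_one_iff]
    simpa using hlt
  have hchar : CharP (IsLocalRing.ResidueField V) l := by
    rw [CharP.charP_iff_prime_eq_zero hl]
    have := hres
    rwa [map_natCast] at this
  refine ⟨V.toSubring, IsLocalRing.ResidueField V, inferInstance, hchar,
    (IsLocalRing.residue V : V →+* IsLocalRing.ResidueField V), ?_, ?_⟩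
  · intro x hx
    have hxd := hunit x.den hx
    have hxe : (x : ℂ) = ((x.num : ℤ) : ℂ) * ((x.den : ℂ))⁻¹ := by
      rw [← div_eq_mul_inv]
      exact_mod_cast (Rat.num_div_den x).symm
    rw [hxe]
    exact V.toSubring.mul_mem (intCast_mem V.toSubring _) hxd
  · intro z n hn hz
    rcases V.mem_or_inv_mem z with h | h
    · exact h
    · have hz0 : z ≠ 0 := by
        rintro rfl
        rw [zero_pow hn.ne'] at hz
        exact zero_ne_one hz
      have : z = (z⁻¹) ^ (n - 1) := by
        have hn' : n = (n - 1) + 1 := by omega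
        rw [hn', pow_succ] at hz
        rw [inv_pow]
        field_simp
        rw [← hz]
        ring
      rw [this]
      exact V.toSubring.pow_mem h _

end Fermat.Agent.S16.H59
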