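/-
S16, package (U3b) [helper59]: the reduction calculus for power series with coefficients in a
subring `O ⊆ ℂ`, and the two formal identities behind `G = (F² - E₄)/3`.

`Red O φ f r`: the series `f : ℂ⟦X⟧` has coefficients in `O` and reduces to `r : κ⟦X⟧` along
`φ : O →+* κ`.
-/
import Mathlib

set_option autoImplicit false

open PowerSeries

namespace Fermat.Agent.S16.H59

section Red

variable (O : Subring ℂ) {κ : Type*} [CommRing κ] (φ : O →+* κ)

/-- `f` has coefficients in `O` and reduces to `r` along `φ`. -/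
def Red (f : PowerSeries ℂ) (r : PowerSeries κ) : Prop :=
  ∃ P : PowerSeries O, PowerSeries.map O.subtype P = f ∧ PowerSeries.map φ P = r

variable {O φ}

lemma Red.one : Red O φ 1 1 := ⟨1, map_one _, map_one _⟩

lemma Red.mul {f g : PowerSeries ℂ} {r s : PowerSeries κ} (hf : Red O φ f r) (hg : Red O φ g s) :
    Red O φ (f * g) (r * s) := by
  obtain ⟨P, hP, hP'⟩ := hf
  obtain ⟨Q, hQ, hQ'⟩ := hg
  exact ⟨P * Q, by rw [map_mul, hP, hQ], by rw [map_mul, hP', hQ']⟩

lemma Red.prod {ι : Type*} (s : Finset ι) (f : ι → PowerSeries ℂ) (r : ι → PowerSeries κ)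
    (h : ∀ i ∈ s, Red O φ (f i) (r i)) : Red O φ (∏ i ∈ s, f i) (∏ i ∈ s, r i) := by
  classical
  induction s using Finset.induction_on with
  | empty => simpa using (Red.one : Red O φ 1 1)
  | insert a s ha ih =>
    rw [Finset.prod_insert ha, Finset.prod_insert ha]
    exact (h a (Finset.mem_insert_self a s)).mul
      (ih fun i hi => h i (Finset.mem_insert_of_mem hi))

lemma Red.expand {p : ℕ} (hp : p ≠ 0) {f : PowerSeries ℂ} {r : PowerSeries κ}
    (hf : Red O φ f r) : Red O φ (PowerSeries.expand p hp f) (PowerSeries.expand p hp r) := by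
  obtain ⟨P, hP, hP'⟩ := hf
  exact ⟨PowerSeries.expand p hp P, by rw [map_expand, hP], by rw [map_expand, hP']⟩

/-- Descent along `X ↦ X^p`. -/
lemma Red.of_expand {p : ℕ} (hp : p ≠ 0) {f : PowerSeries ℂ} {r : PowerSeries κ}
    (hf : Red O φ (PowerSeries.expand p hp f) (PowerSeries.expand p hp r)) : Red O φ f r := by
  obtain ⟨P, hP, hP'⟩ := hf
  refine ⟨PowerSeries.mk fun n => P.coeff (p * n), ?_, ?_⟩
  · ext n
    rw [coeff_map, coeff_mk, ← coeff_map, hP, coeff_expand_mul]
  · ext n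
    rw [coeff_map, coeff_mk, ← coeff_map, hP', coeff_expand_mul]

end Red

section formal

variable {A : Type*} [CommRing A]

/-- `(1 + 9R)² - (1 + 240 s) = 3 (3 (…) + s)`. -/
lemma formal_sq_sub (e R s : PowerSeries A) (he : e ^ 2 = 1) :
    (e + 9 * R) ^ 2 - (1 + 240 * s) = 3 * (3 * (2 * e * R + 9 * R ^ 2 - 27 * s) + s) := by
  linear_combination he

/-- `(u (e + 9R))² - (1 + 240 E) = 3 (3 (…) + (c₁ + E))` when `u² = 1 + 3 c₁`, `e² = 1`. -/
lemma formal_sq_sub_translate (u c₁ e R E : PowerSeries A) (hu : u ^ 2 = 1 + 3 * c₁)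
    (he : e ^ 2 = 1) :
    (u * (e + 9 * R)) ^ 2 - (1 + 240 * E) =
      3 * (3 * ((1 + 3 * c₁) * (2 * e * R + 9 * R ^ 2) - 27 * E) + (c₁ + E)) := by
  linear_combination (e + 9 * R) ^ 2 * hu + (1 + 3 * c₁) * he

end formal

section third

variable {O : Subring ℂ} {κ : Type*} [CommRing κ] {φ : O →+* κ}

/-- Dividing by `3`: if `f = map (3 (3 A + B))` then `f / 3` reduces to `B mod 3`. -/
lemma Red.third (h3 : (3 : κ) = 0) {f : PowerSeries ℂ} (A B : PowerSeries O)
    (hf : PowerSeries.map O.subtype (3 * (3 * A + B)) = f) :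
    Red O φ ((1 / 3 : ℂ) • f) (PowerSeries.map φ B) := by
  refine ⟨3 * A + B, ?_, ?_⟩
  · rw [← hf, map_mul (PowerSeries.map O.subtype) 3, map_ofNat]
    rw [show (3 : PowerSeries ℂ) = PowerSeries.C (3 : ℂ) from
      (map_ofNat (PowerSeries.C (R := ℂ)) 3).symm, ← PowerSeries.smul_eq_C_mul, smul_smul]
    norm_num
  · rw [map_add, map_mul, map_ofNat]
    have : (3 : PowerSeries κ) = 0 := by
      rw [show (3 : PowerSeries κ) = PowerSeries.C (3 : κ) from
        (map_ofNat (PowerSeries.C (R := κ)) 3).symm, h3, map_zero]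
    rw [this, zero_mul, zero_add]

end third

end Fermat.Agent.S16.H59
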