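/-
S16, package (U3b) [helper59]: there is no `F ∈ M₂(Γ₀(p))`, `p ≠ 3` prime, with `3`-integral
rational `q`-coefficients and `F ≡ 1 mod 9`.

Norm route: `G := (F² - E₄)/3 ∈ M₄(Γ₀(p))` reduces mod `3` to `S = ∑ σ₃(n) qⁿ`, its `p` other
conjugates reduce to `c + S(q)` as series in `q^{1/p}`, so the norm of `G` to level one reduces
to `S (S + c)^p`, which is not a polynomial in `Δ ≡ S - S³`.
-/
import Mathlib
import Fermat.Agent.S16.H59_U3Core
import Fermat.Agent.S16.H59_U3Period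
import Fermat.Agent.S16.H59_U3Local
import Fermat.Agent.S16.H59_U3Red
import Fermat.Agent.S16.H14_Trace
import Fermat.Agent.S16.H46_Cosets
import Fermat.Agent.S23.H2_Restrict
import Fermat.Agent.S16.H39_Leaves

set_option autoImplicit false

open UpperHalfPlane CongruenceSubgroup Matrix.SpecialLinearGroup ModularGroup ModularForm
  EisensteinSeries
open scoped MatrixGroups ModularForm Manifold

namespace Fermat.Agent.S16.H59

/-! ### Generic analytic lemmas -/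

/-- Modular forms on a group containing the translation by `1` are nice of period `1`. -/
lemma niceAt_modularForm {Γ : Subgroup (GL (Fin 2) ℝ)} {k : ℤ}
    (hΓ : (1 : ℝ) ∈ Γ.strictPeriods) (F : ModularForm Γ k) : NiceAt 1 (F : ℍ → ℂ) :=
  have : Fact (IsCusp OnePoint.infty Γ) := ⟨Γ.isCusp_of_mem_strictPeriods one_pos hΓ⟩
  ⟨SlashInvariantFormClass.periodic_comp_ofComplex F hΓ, ModularFormClass.holo F,
    ModularFormClass.bdd_at_infty F⟩

section thirdFn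

variable {O : Subring ℂ} {κ : Type*} [CommRing κ] {φ : O →+* κ}

/-- The function-level version of `Red.third` for `(a² - e)/3`. -/
lemma red_third_fn {h : ℝ} (hh : 0 < h) (h3 : (3 : κ) = 0) {a e : ℍ → ℂ}
    (ha : NiceAt h a) (he : NiceAt h e) (A₀ E₀ A B : PowerSeries O)
    (hA : PowerSeries.map O.subtype A₀ = qExpansion h a)
    (hE : PowerSeries.map O.subtype E₀ = qExpansion h e)
    (hrel : A₀ ^ 2 - E₀ = 3 * (3 * A + B)) :
    Red O φ (qExpansion h ((1 / 3 : ℂ) • (a * a - e))) (PowerSeries.map φ B) := by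
  have hq : qExpansion h ((1 / 3 : ℂ) • (a * a - e)) =
      (1 / 3 : ℂ) • (qExpansion h a * qExpansion h a - qExpansion h e) := by
    rw [qExpansion_smul (((ha.mul ha).sub he).analyticAt hh),
      qExpansion_sub ((ha.mul ha).analyticAt hh) (he.analyticAt hh),
      qExpansion_mul (ha.analyticAt hh) (ha.analyticAt hh)]
  rw [hq]
  apply Red.third h3 A B
  rw [← hrel, map_sub, map_pow, hA, hE, sq]

end thirdFn

/-! ### Lifting the coefficient hypotheses to `O⟦X⟧` -/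

section series

variable {O : Subring ℂ}

/-- A series with rational coefficients `c`, `c 0 = ε`, `c n ∈ 9 ℤ_(3)` lifts to `ε + 9 R`. -/
lemma exists_series (hO : ∀ x : ℚ, ¬ 3 ∣ x.den → (x : ℂ) ∈ O) (f : PowerSeries ℂ) (c : ℕ → ℚ)
    (ε : ℤ) (hf : ∀ n, f.coeff n = ((c n : ℚ) : ℂ)) (h0 : c 0 = ε)
    (hc : ∀ n, 1 ≤ n → ∃ x : ℚ, c n = (3 : ℚ) ^ 2 * x ∧ ¬ 3 ∣ x.den) :
    ∃ R : PowerSeries O, PowerSeries.map O.subtype ((ε : PowerSeries O) + 9 * R) = f := by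
  have hc' : ∀ n, ∃ x : ℚ, (1 ≤ n → c n = 9 * x) ∧ ¬ 3 ∣ x.den := by
    intro n
    by_cases hn : 1 ≤ n
    · obtain ⟨x, hx, hd⟩ := hc n hn
      exact ⟨x, fun _ => by rw [hx]; norm_num, hd⟩
    · exact ⟨0, fun h => absurd h hn, by norm_num⟩
  choose x hx hd using hc'
  refine ⟨PowerSeries.mk fun n => if n = 0 then 0 else ⟨(x n : ℂ), hO (x n) (hd n)⟩, ?_⟩
  ext n
  rw [hf, PowerSeries.coeff_map, map_add,
    show (9 : PowerSeries O) = PowerSeries.C (9 : O) from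
      (map_ofNat (PowerSeries.C (R := O)) 9).symm,
    PowerSeries.coeff_C_mul, PowerSeries.coeff_mk,
    show ((ε : PowerSeries O)) = PowerSeries.C (ε : O) from
      (map_intCast (PowerSeries.C (R := O)) ε).symm, PowerSeries.coeff_C]
  by_cases hn : n = 0
  · subst hn
    simp [h0]
  · have h1 : 1 ≤ n := Nat.one_le_iff_ne_zero.mpr hn
    rw [if_neg hn, if_neg hn, hx n h1]
    push_cast
    simp
    left
    rfl

end series

/-! ### The reductions of `(f² - E₄)/3` and of its translates -/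

section gFun

variable {O : Subring ℂ} {κ : Type*} [CommRing κ] {φ : O →+* κ}

/-- `σ₃`-series over `O`. -/
noncomputable def sgO (O : Subring ℂ) : PowerSeries O :=
  PowerSeries.map (Int.castRingHom O) (sg 3)

lemma map_subtype_e4O :
    PowerSeries.map O.subtype (1 + 240 * sgO O) = qExpansion 1 (E₄ : ℍ → ℂ) := by
  rw [qExpansion_E₄_eq, ← map_subtype_map_int O (1 + 240 * sg 3)]
  congr 1
  rw [sgO, map_add, map_one, map_mul, map_ofNat]

lemma niceAt_E₄ : NiceAt 1 (E₄ : ℍ → ℂ) :=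
  niceAt_modularForm one_mem_strictPeriods_SL E₄

/-- `(f² - E₄)/3 ≡ S mod 3` for `f ≡ 1 mod 9`. -/
lemma red_gFun_one (h3 : (3 : κ) = 0) {f : ℍ → ℂ} (hf : NiceAt 1 f) (R : PowerSeries O)
    (hR : PowerSeries.map O.subtype (1 + 9 * R) = qExpansion 1 f) :
    Red O φ (qExpansion 1 ((1 / 3 : ℂ) • (f * f - (E₄ : ℍ → ℂ)))) (sBar κ) := by
  have h := red_third_fn (φ := φ) one_pos h3 hf niceAt_E₄ (1 + 9 * R) (1 + 240 * sgO O)
    (2 * 1 * R + 9 * R ^ 2 - 27 * sgO O) (sgO O) hR map_subtype_e4O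
    (formal_sq_sub 1 R (sgO O) (one_pow 2))
  rwa [sgO, map_map_int] at h

lemma map_subtype_rescale (z : O) (P : PowerSeries O) :
    PowerSeries.map O.subtype (PowerSeries.rescale z P) =
      PowerSeries.rescale (z : ℂ) (PowerSeries.map O.subtype P) := by
  ext n
  simp [PowerSeries.coeff_rescale]

/-- The translates of `(f² - E₄)/3`: `((f ∣ B_j)² - E₄)/3 ≡ c₁ + S(t^p) mod 3` for `f ≡ -1 mod 9`,
as a series in `t = q^{1/p}`. -/
lemma red_gFun_translate (h3 : (3 : κ) = 0) {p : ℕ} (hp : p ≠ 0) {f : ℍ → ℂ} (hf : NiceAt 1 f)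
    (R : PowerSeries O) (hR : PowerSeries.map O.subtype (-1 + 9 * R) = qExpansion 1 f)
    (u c₁ z : O) (hu : (u : ℂ) = (p : ℂ)⁻¹) (hc₁ : u ^ 2 = 1 + 3 * c₁) (j : ℕ)
    (hz : (z : ℂ) = zetaC p ^ j) :
    Red O φ (qExpansion p ((1 / 3 : ℂ) • ((f ∣[(2 : ℤ)] heckeMatrix p j) *
        (f ∣[(2 : ℤ)] heckeMatrix p j) - (E₄ : ℍ → ℂ))))
      (PowerSeries.C (φ c₁) + PowerSeries.expand p hp (sBar κ)) := by
  have hpos : (0 : ℝ) < p := by exact_mod_cast Nat.pos_of_ne_zero hp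
  have hA : PowerSeries.map O.subtype
      (PowerSeries.C u * (-1 + 9 * PowerSeries.rescale z R)) =
      qExpansion p (f ∣[(2 : ℤ)] heckeMatrix p j) := by
    rw [qExpansion_heckeMatrix_slash hp 2 j hf, ← hR, ← hz, ← hu, map_mul, PowerSeries.map_C,
      ← map_subtype_rescale, PowerSeries.smul_eq_C_mul]
    congr 2
    rw [map_add, map_neg, map_one, map_mul, map_ofNat]
  have hE : PowerSeries.map O.subtype (1 + 240 * PowerSeries.expand p hp (sgO O)) =
      qExpansion p (E₄ : ℍ → ℂ) := by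
    rw [qExpansion_nat_eq_expand hp niceAt_E₄, ← map_subtype_e4O (O := O),
      ← PowerSeries.map_expand]
    congr 1
    rw [map_add, map_one, map_mul, map_ofNat]
  have hu' : (PowerSeries.C u : PowerSeries O) ^ 2 = 1 + 3 * PowerSeries.C c₁ := by
    rw [← map_pow, hc₁, map_add, map_one, map_mul, map_ofNat]
  have h := red_third_fn (φ := φ) hpos h3 (hf.heckeMatrix_slash hp 2 j)
    (NiceAt.of_one p niceAt_E₄) _ _
    ((1 + 3 * PowerSeries.C c₁) * (2 * (-1) * PowerSeries.rescale z R +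
      9 * PowerSeries.rescale z R ^ 2) - 27 * PowerSeries.expand p hp (sgO O))
    (PowerSeries.C c₁ + PowerSeries.expand p hp (sgO O)) hA hE
    (formal_sq_sub_translate (PowerSeries.C u) (PowerSeries.C c₁) (-1)
      (PowerSeries.rescale z R) (PowerSeries.expand p hp (sgO O)) hu' (by ring))
  rwa [map_add, PowerSeries.map_C, PowerSeries.map_expand, sgO, map_map_int] at h

end gFun

/-! ### The form `G = (F² - E₄)/3` and its norm -/

section modular

variable {p : ℕ} [hp : Fact p.Prime]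

attribute [local instance] H14.neZero_of_fact_prime

local notation "Γp" => ((Gamma0 p : Subgroup SL(2, ℤ)) : Subgroup (GL (Fin 2) ℝ))

/-- `G = (F² - E₄)/3` as a modular form of weight `4` on `Γ₀(p)`. -/
noncomputable def gForm (F : ModularForm Γp 2) : ModularForm Γp 4 :=
  (1 / 3 : ℂ) • (ModularForm.mcast (by norm_num : (2 : ℤ) + 2 = 4) (F.mul F) -
    S23.H2.restrict (S23.H2.gamma0_le_SL p) E₄)

lemma coe_gForm (F : ModularForm Γp 2) :
    (gForm F : ℍ → ℂ) = (1 / 3 : ℂ) • ((F : ℍ → ℂ) * (F : ℍ → ℂ) - (E₄ : ℍ → ℂ)) := rfl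

omit hp in
lemma rho_some_eq (x : Fin p) : H46.rho p (some x) = H14.stMat ((x : ℕ) : ℤ) :=
  Subtype.ext (H46.coe_S_mul_T_zpow _)

/-- The translates of `G`: `G ∣ S T^j = ((F∣W ∣ B_j)² - E₄)/3`. -/
lemma gForm_slash_stMat (F : ModularForm Γp 2) (j : ℕ) :
    (gForm F : ℍ → ℂ) ∣[(4 : ℤ)] H14.stMat (j : ℤ) =
      (1 / 3 : ℂ) • (((H14.fricke p F : ℍ → ℂ) ∣[(2 : ℤ)] heckeMatrix p j) *
        ((H14.fricke p F : ℍ → ℂ) ∣[(2 : ℤ)] heckeMatrix p j) - (E₄ : ℍ → ℂ)) := by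
  have hE : (E₄ : ℍ → ℂ) ∣[(4 : ℤ)] H14.stMat (j : ℤ) = (E₄ : ℍ → ℂ) :=
    SlashInvariantForm.slash_action_eqn E₄ _ ⟨H14.stMat (j : ℤ), rfl⟩
  have hF : ((F : ℍ → ℂ) * (F : ℍ → ℂ)) ∣[(4 : ℤ)] H14.stMat (j : ℤ) =
      ((F : ℍ → ℂ) ∣[(2 : ℤ)] H14.stMat (j : ℤ)) * ((F : ℍ → ℂ) ∣[(2 : ℤ)] H14.stMat (j : ℤ)) :=
    ModularForm.mul_slash_SL2 2 2 (H14.stMat (j : ℤ)) F F
  rw [coe_gForm, ModularForm.SL_smul_slash, sub_eq_add_neg, SlashAction.add_slash,
    SlashAction.neg_slash, hE, hF, H14.coe_fricke, H14.slash_frickeMat_slash_heckeMatrix,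
    ← sub_eq_add_neg]

open SlashInvariantForm in
/-- The norm to level one, as a product over the `p + 1` cosets. -/
lemma coe_norm_eq {k : ℤ} (G : ModularForm Γp k) :
    (ModularForm.norm 𝒮ℒ G : ℍ → ℂ) =
      (G : ℍ → ℂ) * ∏ x : Fin p, ((G : ℍ → ℂ) ∣[k] H14.stMat ((x : ℕ) : ℤ)) := by
  rw [ModularForm.coe_norm]
  let := Fintype.ofFinite (↥(𝒮ℒ) ⧸ (Γp).subgroupOf 𝒮ℒ)
  change ∏ q : ↥(𝒮ℒ) ⧸ (Γp).subgroupOf 𝒮ℒ, quotientFunc G q = _
  rw [← (H46.cosetEquiv p).prod_comp, Fintype.prod_option, H46.quotientFunc_cosetEquiv]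
  congr 1
  · change (G : ℍ → ℂ) ∣[k] mapGL ℝ (1 : SL(2, ℤ)) = _
    rw [map_one, SlashAction.slash_one]
  · refine Finset.prod_congr rfl fun x _ => ?_
    rw [H46.quotientFunc_cosetEquiv, rho_some_eq]
    rfl

end modular

/-! ### The main theorem -/

lemma zetaC_pow_self (p : ℕ) (hp : p ≠ 0) : zetaC p ^ p = 1 := by
  have hp' : (p : ℂ) ≠ 0 := by exact_mod_cast hp
  rw [zetaC, ← Complex.exp_nat_mul]
  have : (p : ℂ) * (2 * Real.pi * Complex.I / p) = 2 * Real.pi * Complex.I := by field_simp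
  rw [this, Complex.exp_two_pi_mul_I]

section main

variable {p : ℕ} [hp : Fact p.Prime]

attribute [local instance] H14.neZero_of_fact_prime

local notation "Γp" => ((Gamma0 p : Subgroup SL(2, ℤ)) : Subgroup (GL (Fin 2) ℝ))

/-- **(U3b) core**: no `F ∈ M₂(Γ₀(p))` (`p ≠ 3`) with `3`-integral rational coefficients is
`≡ 1 mod 9`. -/
theorem noUnitForm_three_sq (hp3 : p ≠ 3) (F : ModularForm Γp 2) (c : ℕ → ℚ)
    (hF : ∀ n, (qExpansion 1 F).coeff n = ((c n : ℚ) : ℂ)) (h0 : c 0 = 1)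
    (hc : ∀ n, 1 ≤ n → ∃ x : ℚ, c n = (3 : ℚ) ^ 2 * x ∧ ¬ 3 ∣ x.den) : False := by
  obtain ⟨O, κ, _, _, φ, hO, hroot⟩ := exists_local_data 3 Nat.prime_three
  have hp0 : p ≠ 0 := hp.out.ne_zero
  have hpos : (0 : ℝ) < p := by exact_mod_cast hp.out.pos
  have hpC : (p : ℂ) ≠ 0 := by exact_mod_cast hp0
  have h3 : (3 : κ) = 0 := by exact_mod_cast CharP.cast_eq_zero κ 3
  have h3p : ¬ 3 ∣ p := fun h =>
    hp3 ((Nat.prime_dvd_prime_iff_eq Nat.prime_three hp.out).mp h).symm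
  have hΓ : (1 : ℝ) ∈ (Γp).strictPeriods := CongruenceSubgroup.one_mem_strictPeriods_Gamma0 p
  -- the series of `F`
  obtain ⟨R, hR⟩ := exists_series hO (qExpansion 1 F) c 1 hF (by simpa using h0) hc
  rw [Int.cast_one] at hR
  -- the series of `F ∣ W`
  obtain ⟨R', hR'⟩ := exists_series hO (qExpansion 1 (H14.fricke p F)) (fun n => -c (n * p)) (-1)
    (fun n => by
      have := H14.qCoeff_fricke F n
      unfold ModularFormClass.qCoeff at this
      rw [this, hF]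
      push_cast
      rfl)
    (by simp [h0])
    (fun n hn => by
      obtain ⟨x, hx, hd⟩ := hc (n * p) (Nat.mul_pos hn hp.out.pos)
      exact ⟨-x, by rw [hx]; ring, by simpa using hd⟩)
  rw [Int.cast_neg, Int.cast_one] at hR'
  -- `u = 1/p ∈ O`
  have hu_mem : ((p : ℂ))⁻¹ ∈ O := by
    have := hO ((p : ℚ)⁻¹) (by rwa [Rat.inv_natCast_den_of_pos hp.out.pos])
    simpa using this
  obtain ⟨u, hu⟩ : ∃ u : O, (u : ℂ) = (p : ℂ)⁻¹ := ⟨⟨_, hu_mem⟩, rfl⟩
  have hup : u * (p : O) = 1 := by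
    apply Subtype.ext
    push_cast
    rw [hu, inv_mul_cancel₀ hpC]
  obtain ⟨m, hm⟩ : ∃ m : ℤ, (1 : ℤ) - (p : ℤ) ^ 2 = 3 * m := by
    have h1 : (p : ℤ) % 3 = 1 ∨ (p : ℤ) % 3 = 2 := by omega
    have h2 : ((p : ℤ) ^ 2) % 3 = 1 := by
      rcases h1 with h | h <;> simp [pow_two, Int.mul_emod, h]
    exact ⟨(1 - (p : ℤ) ^ 2) / 3, by omega⟩
  have hm' : (1 : O) - (p : O) ^ 2 = 3 * (m : O) := by exact_mod_cast congrArg (Int.cast : ℤ → O) hm
  obtain ⟨c₁, hc₁def⟩ : ∃ c₁ : O, c₁ = (m : O) * u ^ 2 := ⟨_, rfl⟩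
  have hc₁ : u ^ 2 = 1 + 3 * c₁ := by
    rw [hc₁def]
    linear_combination (u * (p : O) + 1) * hup + u ^ 2 * hm'
  -- the roots of unity
  have hζ : zetaC p ∈ O := hroot (zetaC p) p hp.out.pos (zetaC_pow_self p hp0)
  -- the forms
  have hFn : NiceAt 1 (F : ℍ → ℂ) := niceAt_modularForm hΓ F
  have hHn : NiceAt 1 (H14.fricke p F : ℍ → ℂ) := niceAt_modularForm hΓ (H14.fricke p F)
  have hGn : NiceAt 1 (gForm F : ℍ → ℂ) := niceAt_modularForm hΓ (gForm F)
  have hNn : NiceAt 1 (ModularForm.norm 𝒮ℒ (gForm F) : ℍ → ℂ) :=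
    niceAt_modularForm one_mem_strictPeriods_SL _
  -- the translates
  have htr : ∀ x : Fin p, NiceAt (p : ℝ) ((gForm F : ℍ → ℂ) ∣[(4 : ℤ)] H14.stMat ((x : ℕ) : ℤ)) ∧
      Red O φ (qExpansion p ((gForm F : ℍ → ℂ) ∣[(4 : ℤ)] H14.stMat ((x : ℕ) : ℤ)))
        (PowerSeries.C (φ c₁) + PowerSeries.expand p hp0 (sBar κ)) := by
    intro x
    rw [gForm_slash_stMat]
    refine ⟨(((hHn.heckeMatrix_slash hp0 2 x).mul (hHn.heckeMatrix_slash hp0 2 x)).sub
      (NiceAt.of_one p niceAt_E₄)).const_smul _, ?_⟩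
    exact red_gFun_translate h3 hp0 hHn R' hR' u c₁ ⟨zetaC p ^ (x : ℕ), O.pow_mem hζ _⟩ hu hc₁
      (x : ℕ) rfl
  -- the trivial coset
  have hG : Red O φ (qExpansion p (gForm F : ℍ → ℂ)) (PowerSeries.expand p hp0 (sBar κ)) := by
    rw [qExpansion_nat_eq_expand hp0 hGn]
    exact (red_gFun_one h3 hFn R hR).expand hp0
  -- the norm
  have hN : Red O φ (qExpansion p (ModularForm.norm 𝒮ℒ (gForm F) : ℍ → ℂ))
      (PowerSeries.expand p hp0 (sBar κ * (sBar κ + PowerSeries.C (φ c₁)) ^ p)) := by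
    rw [coe_norm_eq, qExpansion_mul ((NiceAt.of_one p hGn).analyticAt hpos)
      ((NiceAt.prod _ _ fun x _ => (htr x).1).analyticAt hpos),
      qExpansion_prod hpos _ _ fun x _ => (htr x).1]
    have h1 := hG.mul (Red.prod Finset.univ _ _ fun x _ => (htr x).2)
    rw [Finset.prod_const, Finset.card_univ, Fintype.card_fin] at h1
    rwa [map_mul, map_pow, map_add, PowerSeries.expand_C, add_comm (PowerSeries.expand p hp0 _)]
  rw [qExpansion_nat_eq_expand hp0 hNn] at hN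
  obtain ⟨P, hP, hP'⟩ := hN.of_expand hp0
  exact levelOne_reduction_ne O φ (ModularForm.norm 𝒮ℒ (gForm F)) P hP (φ c₁) p hP'

end main

/-! ### End shapes -/

/-- **(U3b)** in helper39's core shape. -/
theorem noUnitForm_three (p : ℕ) [Fact p.Prime] (hp3 : p ≠ 3) : H39.NoUnitForm p 3 2 := by
  intro G c hG h0 hc
  exact noUnitForm_three_sq hp3 G c hG h0 (by exact_mod_cast hc)

/-- **LEAF (U3b)**: `ULeaf p 3 1` for every prime `p ≠ 3` (in particular for `p ≡ 2 mod 3`). -/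
theorem uLeaf_three_one (p : ℕ) [Fact p.Prime] (hp3 : p ≠ 3) : H39.ULeaf p 3 1 :=
  H39.uLeaf_of_noUnitForm Nat.prime_three (noUnitForm_three p hp3)

/-- **LEAF (U3b)** in the shape of `H39.natCard_of_leaves` / `H16.result_of_uLeaves`. -/
theorem uLeaf_three_one_of_mod (p : ℕ) [Fact p.Prime] (h : p % 3 = 2) : H39.ULeaf p 3 1 :=
  uLeaf_three_one p (by rintro rfl; norm_num at h)

end Fermat.Agent.S16.H59
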