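/-
S16, package (U3b) [helper59]: `q`-expansions of period `p`.

Generic function-level lemmas (Mathlib + the prelude Hecke matrices):
* `NiceAt h f`: `f` is `h`-periodic, holomorphic and bounded at `i∞`;
* a `1`-periodic nice function is `p`-periodic nice, and its period-`p` expansion is
  `expand p` of its period-`1` expansion;
* the Hecke translate `f ∣[k] heckeMatrix p j` of a `1`-periodic nice function is `p`-periodic
  nice, with period-`p` expansion `p⁻¹ • rescale (ζ^j)` of the period-`1` expansion of `f`;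
* the period-`h` expansion is multiplicative on finite products of nice functions.
-/
import Mathlib
import Fermat.Prelude.Def_ModularForm_HeckeOperator

set_option autoImplicit false

open UpperHalfPlane Function Complex
open scoped Manifold MatrixGroups ModularForm Real

namespace Fermat.Agent.S16.H59

local notation "𝕢" => Periodic.qParam

/-- `f` is `h`-periodic, holomorphic and bounded at `i∞`. -/
structure NiceAt (h : ℝ) (f : ℍ → ℂ) : Prop where
  per : Periodic (f ∘ ofComplex) h
  hol : MDiff f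
  bdd : IsBoundedAtImInfty f

namespace NiceAt

variable {h : ℝ} {f g : ℍ → ℂ}

lemma analyticAt (hh : 0 < h) (hf : NiceAt h f) : AnalyticAt ℂ (cuspFunction h f) 0 :=
  analyticAt_cuspFunction_zero hh hf.per hf.hol hf.bdd

lemma hasSum (hh : 0 < h) (hf : NiceAt h f) (τ : ℍ) :
    HasSum (fun m : ℕ => (qExpansion h f).coeff m • 𝕢 h τ ^ m) (f τ) :=
  hasSum_qExpansion hh hf.per hf.hol hf.bdd τ

lemma mul (hf : NiceAt h f) (hg : NiceAt h g) : NiceAt h (f * g) where
  per := by
    intro z
    have h1 := hf.per z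
    have h2 := hg.per z
    simp only [Function.comp_apply, Pi.mul_apply] at h1 h2 ⊢
    rw [h1, h2]
  hol := hf.hol.mul hg.hol
  bdd := hf.bdd.mul hg.bdd

lemma sub (hf : NiceAt h f) (hg : NiceAt h g) : NiceAt h (f - g) where
  per := by
    intro z
    have h1 := hf.per z
    have h2 := hg.per z
    simp only [Function.comp_apply, Pi.sub_apply] at h1 h2 ⊢
    rw [h1, h2]
  hol := hf.hol.sub hg.hol
  bdd := hf.bdd.sub hg.bdd

lemma const_smul (c : ℂ) (hf : NiceAt h f) : NiceAt h (c • f) where
  per := by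
    intro z
    have h1 := hf.per z
    simp only [Function.comp_apply, Pi.smul_apply] at h1 ⊢
    rw [h1]
  hol := hf.hol.const_smul c
  bdd := hf.bdd.const_smul_left c

lemma one : NiceAt h (1 : ℍ → ℂ) where
  per := fun z => rfl
  hol := mdifferentiable_const
  bdd := by
    rw [isBoundedAtImInfty_iff]
    exact ⟨1, 0, fun z _ => by simp⟩

lemma prod {ι : Type*} (s : Finset ι) (F : ι → ℍ → ℂ) (hF : ∀ i ∈ s, NiceAt h (F i)) :
    NiceAt h (∏ i ∈ s, F i) := by
  classical
  induction s using Finset.induction_on with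
  | empty => simpa using (one : NiceAt h (1 : ℍ → ℂ))
  | insert a s ha ih =>
    rw [Finset.prod_insert ha]
    exact (hF a (Finset.mem_insert_self a s)).mul
      (ih fun i hi => hF i (Finset.mem_insert_of_mem hi))

end NiceAt

/-- The period-`h` expansion is multiplicative on finite products of nice functions. -/
theorem qExpansion_prod {h : ℝ} (hh : 0 < h) {ι : Type*} (s : Finset ι) (F : ι → ℍ → ℂ)
    (hF : ∀ i ∈ s, NiceAt h (F i)) :
    qExpansion h (∏ i ∈ s, F i) = ∏ i ∈ s, qExpansion h (F i) := by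
  classical
  induction s using Finset.induction_on with
  | empty =>
    simp only [Finset.prod_empty]
    exact qExpansion_one h
  | insert a s ha ih =>
    rw [Finset.prod_insert ha, Finset.prod_insert ha,
      qExpansion_mul ((hF a (Finset.mem_insert_self a s)).analyticAt hh)
        ((NiceAt.prod s F fun i hi => hF i (Finset.mem_insert_of_mem hi)).analyticAt hh),
      ih fun i hi => hF i (Finset.mem_insert_of_mem hi)]

/-- Uniqueness of `q`-expansion coefficients for plain functions. -/
theorem qExpansion_coeff_unique_fn {h : ℝ} {f : ℍ → ℂ} {c : ℕ → ℂ} (hh : 0 < h)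
    (hfanalytic : AnalyticAt ℂ (cuspFunction h f) 0)
    (hf : ∀ τ : ℍ, HasSum (fun m => c m • 𝕢 h τ ^ m) (f τ)) (m : ℕ) :
    c m = (qExpansion h f).coeff m := by
  have h1 := (hasFPowerSeriesOnBall_cuspFunction hh hfanalytic hf).hasFPowerSeriesAt
  have h2 : HasFPowerSeriesAt (cuspFunction h f)
      (.ofScalars ℂ fun m ↦ (qExpansion h f).coeff m) 0 := by
    simpa [qExpansion_coeff, div_eq_mul_inv, mul_comm] using hfanalytic.hasFPowerSeriesAt
  simpa [FormalMultilinearSeries.coeff_ofScalars] using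
    congr_arg (FormalMultilinearSeries.coeff · m) (h1.eq_formalMultilinearSeries h2)

section periodChange

variable {p : ℕ}

lemma qParam_one_eq_pow (hp : p ≠ 0) (z : ℂ) : 𝕢 (1 : ℝ) z = 𝕢 (p : ℝ) z ^ p := by
  have hp' : (p : ℂ) ≠ 0 := by exact_mod_cast hp
  simp only [Periodic.qParam]
  rw [← Complex.exp_nat_mul]
  congr 1
  push_cast
  field_simp

/-- A `1`-periodic nice function is `p`-periodic nice. -/
lemma NiceAt.of_one (p : ℕ) {f : ℍ → ℂ} (hf : NiceAt 1 f) : NiceAt (p : ℝ) f where
  per := by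
    have h1 : Periodic (f ∘ ofComplex) ((1 : ℝ) : ℂ) := hf.per
    have := h1.nat_mul p
    simpa using this
  hol := hf.hol
  bdd := hf.bdd

/-- The period-`p` expansion of a `1`-periodic nice function is `expand p` of its period-`1`
expansion. -/
theorem qExpansion_nat_eq_expand (hp : p ≠ 0) {f : ℍ → ℂ} (hf : NiceAt 1 f) :
    qExpansion (p : ℝ) f = PowerSeries.expand p hp (qExpansion 1 f) := by
  have hpos : (0 : ℝ) < p := by exact_mod_cast Nat.pos_of_ne_zero hp
  ext m
  refine (qExpansion_coeff_unique_fn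
    (c := fun m => (PowerSeries.expand p hp (qExpansion 1 f)).coeff m) hpos
    ((NiceAt.of_one p hf).analyticAt hpos) (fun τ => ?_) m).symm
  have h1 := hf.hasSum one_pos τ
  -- reindex along `n ↦ p * n`
  have hinj : Function.Injective fun n : ℕ => p * n :=
    fun a b hab => Nat.eq_of_mul_eq_mul_left (Nat.pos_of_ne_zero hp) hab
  have h2 : HasSum ((fun m : ℕ => (PowerSeries.expand p hp (qExpansion 1 f)).coeff m •
      𝕢 (p : ℝ) τ ^ m) ∘ fun n : ℕ => p * n) (f τ) := by
    convert h1 using 1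
    ext n
    simp only [Function.comp_apply, PowerSeries.coeff_expand_mul]
    rw [qParam_one_eq_pow hp, ← pow_mul]
  refine (hinj.hasSum_iff ?_).mp h2
  intro m hm
  have hnd : ¬ p ∣ m := by
    rintro ⟨n, rfl⟩
    exact hm ⟨n, rfl⟩
  rw [PowerSeries.coeff_expand_of_not_dvd p hp _ hnd, zero_smul]

end periodChange

section heckeTranslate

open ModularForm

variable {p : ℕ}

/-- The primitive `p`-th root of unity `e^{2πi/p}`. -/
noncomputable def zetaC (p : ℕ) : ℂ := Complex.exp (2 * π * Complex.I / p)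

lemma qParam_one_heckeMatrix_smul (hp : p ≠ 0) (j : ℕ) (τ : ℍ) :
    𝕢 (1 : ℝ) ((heckeMatrix p j • τ : ℍ) : ℂ) = zetaC p ^ j * 𝕢 (p : ℝ) τ := by
  have hp' : (p : ℂ) ≠ 0 := by exact_mod_cast hp
  rw [coe_heckeMatrix_smul hp]
  simp only [Periodic.qParam, zetaC]
  rw [← Complex.exp_nat_mul, ← Complex.exp_add]
  congr 1
  push_cast
  field_simp
  ring

/-- The Hecke translate of a `1`-periodic nice function is `p`-periodic nice. -/
lemma NiceAt.heckeMatrix_slash (hp : p ≠ 0) (k : ℤ) (j : ℕ) {f : ℍ → ℂ} (hf : NiceAt 1 f) :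
    NiceAt (p : ℝ) (f ∣[k] heckeMatrix p j) where
  per := by
    intro z
    simp only [Function.comp_apply]
    by_cases hz : 0 < z.im
    · have hz' : 0 < (z + ((p : ℝ) : ℂ)).im := by simpa using hz
      rw [ofComplex_apply_of_im_pos hz', ofComplex_apply_of_im_pos hz,
        slash_heckeMatrix_apply k hp, slash_heckeMatrix_apply k hp]
      congr 1
      -- `f` at two points differing by `1`
      have h1 := hf.per (((heckeMatrix p j • (⟨z, hz⟩ : ℍ) : ℍ) : ℂ))
      simp only [Function.comp_apply] at h1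
      have hp' : (p : ℂ) ≠ 0 := by exact_mod_cast hp
      have e1 : ((heckeMatrix p j • (⟨z + ((p : ℝ) : ℂ), hz'⟩ : ℍ) : ℍ) : ℂ) =
          ((heckeMatrix p j • (⟨z, hz⟩ : ℍ) : ℍ) : ℂ) + ((1 : ℝ) : ℂ) := by
        rw [coe_heckeMatrix_smul hp, coe_heckeMatrix_smul hp]
        push_cast
        field_simp
        ring
      rw [← e1, ofComplex_apply, ofComplex_apply] at h1
      exact h1
    · have hz' : ¬ 0 < (z + ((p : ℝ) : ℂ)).im := by simpa using hz
      rw [ofComplex_apply_of_im_nonpos (not_lt.mp hz'), ofComplex_apply_of_im_nonpos (not_lt.mp hz)]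
  hol := hf.hol.slash k _
  bdd := by
    obtain ⟨M, A, hMA⟩ := isBoundedAtImInfty_iff.mp hf.bdd
    rw [isBoundedAtImInfty_iff]
    refine ⟨‖(p : ℂ)⁻¹‖ * M, p * A, fun z hz => ?_⟩
    rw [slash_heckeMatrix_apply k hp, norm_mul]
    refine mul_le_mul_of_nonneg_left (hMA _ ?_) (norm_nonneg _)
    have him : (heckeMatrix p j • z : ℍ).im = z.im / p := by
      have := congrArg Complex.im (coe_heckeMatrix_smul hp j z)
      rw [UpperHalfPlane.coe_im] at this
      rw [this]
      have hpr : ((p : ℂ)) = ((p : ℝ) : ℂ) := by push_cast; rfl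
      rw [hpr, Complex.div_ofReal_im]
      simp
    rw [him, le_div_iff₀ (by exact_mod_cast Nat.pos_of_ne_zero hp)]
    linarith [mul_comm (p : ℝ) A]

/-- **Period-`p` expansion of a Hecke translate**: `p⁻¹ ∑ aₘ ζ^{jm} tᵐ`. -/
theorem qExpansion_heckeMatrix_slash (hp : p ≠ 0) (k : ℤ) (j : ℕ) {f : ℍ → ℂ} (hf : NiceAt 1 f) :
    qExpansion (p : ℝ) (f ∣[k] heckeMatrix p j) =
      (p : ℂ)⁻¹ • PowerSeries.rescale (zetaC p ^ j) (qExpansion 1 f) := by
  have hpos : (0 : ℝ) < p := by exact_mod_cast Nat.pos_of_ne_zero hp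
  ext m
  refine (qExpansion_coeff_unique_fn
    (c := fun m => ((p : ℂ)⁻¹ • PowerSeries.rescale (zetaC p ^ j) (qExpansion 1 f)).coeff m) hpos
    ((hf.heckeMatrix_slash hp k j).analyticAt hpos) (fun τ => ?_) m).symm
  rw [slash_heckeMatrix_apply k hp]
  have h1 := (hf.hasSum one_pos (heckeMatrix p j • τ)).mul_left ((p : ℂ)⁻¹)
  have hfun : (fun m : ℕ => ((p : ℂ)⁻¹ • PowerSeries.rescale (zetaC p ^ j)
      (qExpansion 1 f)).coeff m • 𝕢 (p : ℝ) τ ^ m) =
      fun i : ℕ => (p : ℂ)⁻¹ * (qExpansion 1 f).coeff i •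
        𝕢 (1 : ℝ) ((heckeMatrix p j • τ : ℍ) : ℂ) ^ i := by
    funext n
    rw [PowerSeries.coeff_smul, PowerSeries.coeff_rescale, qParam_one_heckeMatrix_smul hp]
    simp only [smul_eq_mul, mul_pow]
    ring
  rw [hfun]
  exact h1

end heckeTranslate

end Fermat.Agent.S16.H59
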