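import Mathlib

/-!
# S16, case (U,2), `p ≡ 3 mod 4`: the abstract (Mathlib-only) core  (helper76)

Paper argument (board #2061/#2062, reviewed #2103/#2104/#2128).  In characteristic `2` put
`Δ = q ∏ (1 - q^n)^24`, `J = 1/Δ`, `J_p = J(q^p)`, `z = P(q^p)^3 / P(q)^(3p)` with
`P = ∏ (1 - q^n)`.  Then `θ J = J` (`θ = q d/dq`), `z^8 = J^p / J_p`, and
`θ z / z = ∑ σ'(k) q^k =: δ` is the reduction of the weight-2 Eisenstein series of level `p`.
If a cusp form `f` of level `p` had `f ≡ δ mod 2`, then `h = f^6/Δ` would be integral over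
`ℤ_(2)[j]`, so its reduction `δ^6 J` would be integral over `k[J]`.  On the Hesse cover
`J = μ^12/(μ^3+1)^3`, at a place `v` over `μ = 0` which is unramified over `k(μ)`, one has
`v(J) = 12`, `v(z) = 3(p-1)/2` (odd iff `p ≡ 3 mod 4`), `θ = ((1+μ^3)/μ^2) d/dμ`, hence
`v(δ) = -3` and `v(δ^6 J) = -6 < 0`: contradiction.

This file proves the contradiction from abstract hypotheses:

* `F`   : the function field (`= k(J, J_p)`), with `ιQ : F →+* Q` (`Q = k((q))`, any field of
          characteristic two carrying a derivation `DQ` with `DQ J = J`);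
* `hdec`: every element of `F` is `A^2 + J B^2` (true when `F / k(J)` is separable and `k`
          perfect: `exists_sq_add_mul_sq`);
* `F'`  : the function field of the cover, `ι' : F →+* F'`, `μ`, a valuation `v` with
          uniformiser `μ`, a derivation `∂` with `∂ μ = 1` preserving the valuation ring
          (true when `v` is unramified over `k(μ)`: `Derivation.val_le_one_of_formallyUnramified`).

Main results: `exists_sq_add_mul_sq`, `mem_range_of_pow_eight`, `val_deriv_of_odd`, `u2_core`.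
-/

set_option autoImplicit false

namespace Fermat.Agent.S16.H76

/-! ## 1. Squares and the decomposition `F = F² + J F²` -/

section Decomp

variable {K0 F : Type*} [Field K0] [Field F] [Algebra K0 F] [CharP K0 2]

theorem two_eq_zero_of_charP (A : Type*) [Ring A] [CharP A 2] : (2 : A) = 0 := by
  have h := CharP.cast_eq_zero A 2
  exact_mod_cast h

/-- If `F / K0` is separable of characteristic two and every element of `K0` is of the form
`a² + J0 b²`, then every element of `F` is of the form `A² + J0 B²`. -/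
theorem exists_sq_add_mul_sq [Algebra.IsSeparable K0 F] (J0 : K0)
    (hK0 : ∀ c : K0, ∃ a b : K0, c = a ^ 2 + J0 * b ^ 2) (y : F) :
    ∃ A B : F, y = A ^ 2 + algebraMap K0 F J0 * B ^ 2 := by
  have : ExpChar K0 2 := ExpChar.prime Nat.prime_two
  have : CharP F 2 := charP_of_injective_algebraMap (algebraMap K0 F).injective 2
  have h2 : (2 : F) = 0 := two_eq_zero_of_charP F
  have hspan : Submodule.span K0 (Set.range fun x : F => x ^ 2 ^ 1) = ⊤ :=
    Field.span_map_pow_expChar_pow_eq_top_of_isSeparable (F := K0) (E := F) 2 1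
      (v := fun x : F => x) (by simp)
  have hy : y ∈ Submodule.span K0 (Set.range fun x : F => x ^ 2 ^ 1) := by
    rw [hspan]; trivial
  induction hy using Submodule.span_induction with
  | mem x hx =>
    obtain ⟨t, rfl⟩ := hx
    exact ⟨t, 0, by simp⟩
  | zero => exact ⟨0, 0, by simp⟩
  | add x y _ _ hx hy =>
    obtain ⟨A, B, rfl⟩ := hx
    obtain ⟨A', B', rfl⟩ := hy
    refine ⟨A + A', B + B', ?_⟩
    linear_combination (-(A * A') - algebraMap K0 F J0 * (B * B')) * h2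
  | smul c x _ hx =>
    obtain ⟨A, B, rfl⟩ := hx
    obtain ⟨a, b, rfl⟩ := hK0 c
    refine ⟨algebraMap K0 F a * A + algebraMap K0 F J0 * algebraMap K0 F b * B,
      algebraMap K0 F a * B + algebraMap K0 F b * A, ?_⟩
    rw [Algebra.smul_def]
    simp only [map_add, map_mul, map_pow]
    linear_combination
      (-(algebraMap K0 F a * A * algebraMap K0 F J0 * algebraMap K0 F b * B) -
        algebraMap K0 F J0 * (algebraMap K0 F a * B * algebraMap K0 F b * A)) * h2

end Decomp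

/-! ## 2. Derivations in characteristic two -/

section Deriv

variable {E : Type*} [CommRing E] [CharP E 2] (D : Derivation ℤ E E)

theorem deriv_sq (x : E) : D (x ^ 2) = 0 := by
  have h2 : (2 : E) = 0 := two_eq_zero_of_charP E
  rw [pow_two, Derivation.leibniz, smul_eq_mul]
  linear_combination (x * D x) * h2

theorem deriv_sq_add_mul_sq {F : Type*} [Field F] (ι : F →+* E) (J : F)
    (hJ : D (ι J) = ι J) (A B : F) :
    D (ι (A ^ 2 + J * B ^ 2)) = ι (J * B ^ 2) := by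
  rw [map_add, map_mul, map_pow, map_pow, map_add, deriv_sq, zero_add, Derivation.leibniz,
    deriv_sq, smul_zero, zero_add, hJ, smul_eq_mul, mul_comm]

end Deriv

/-! ## 3. Descent of 2-power roots: `x ∈ Q`, `x^8 ∈ ι F` implies `x ∈ ι F` -/

section Descent

variable {F Q : Type*} [Field F] [Field Q] [CharP Q 2] (ι : F →+* Q)
  (DQ : Derivation ℤ Q Q) (J : F)

theorem mem_range_of_sq (hJ0 : J ≠ 0) (hJ : DQ (ι J) = ι J)
    (hdec : ∀ y : F, ∃ A B : F, y = A ^ 2 + J * B ^ 2) (x : Q) (hx : x ^ 2 ∈ ι.range) :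
    x ∈ ι.range := by
  have h2 : (2 : Q) = 0 := two_eq_zero_of_charP Q
  obtain ⟨w, hw⟩ := hx
  obtain ⟨A, B, rfl⟩ := hdec w
  have h1 : DQ (ι (A ^ 2 + J * B ^ 2)) = ι (J * B ^ 2) := deriv_sq_add_mul_sq DQ ι J hJ A B
  rw [hw, deriv_sq] at h1
  have hB : J * B ^ 2 = 0 := by
    have := h1.symm
    rwa [map_eq_zero] at this
  have hB0 : B = 0 := by
    rcases mul_eq_zero.mp hB with h | h
    · exact absurd h hJ0
    · exact pow_eq_zero_iff (two_ne_zero) |>.mp h
  subst hB0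
  refine ⟨A, ?_⟩
  have hsq : (x - ι A) ^ 2 = 0 := by
    have : x ^ 2 = ι A ^ 2 := by rw [← hw]; simp
    linear_combination this - (x * ι A - ι A ^ 2) * h2
  have := pow_eq_zero_iff (two_ne_zero) |>.mp hsq
  exact (sub_eq_zero.mp this).symm

theorem mem_range_of_pow_eight (hJ0 : J ≠ 0) (hJ : DQ (ι J) = ι J)
    (hdec : ∀ y : F, ∃ A B : F, y = A ^ 2 + J * B ^ 2) (x : Q) (hx : x ^ 8 ∈ ι.range) :
    x ∈ ι.range := by
  have h4 : (x ^ 4) ^ 2 ∈ ι.range := by rw [← pow_mul]; exact hx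
  have h4' := mem_range_of_sq ι DQ J hJ0 hJ hdec _ h4
  have h2 : (x ^ 2) ^ 2 ∈ ι.range := by rw [← pow_mul]; exact h4'
  have h2' := mem_range_of_sq ι DQ J hJ0 hJ hdec _ h2
  exact mem_range_of_sq ι DQ J hJ0 hJ hdec _ h2'

end Descent

/-! ## 4. The order of a derivative at an unramified place, characteristic two -/

section Val

variable {F' : Type*} [Field F'] [CharP F' 2] {Γ₀ : Type*} [LinearOrderedCommGroupWithZero Γ₀]
  (v : Valuation F' Γ₀) (μ : F') (d : Derivation ℤ F' F')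

/-- If `μ` is a uniformiser, `d μ = 1`, `d` preserves the valuation ring and `ζ` has odd
order `m`, then `d ζ` has order exactly `m - 1`. -/
theorem val_deriv_of_odd (hμ : v μ < 1) (hμ0 : μ ≠ 0) (hdμ : d μ = 1)
    (hdv : ∀ x, v x ≤ 1 → v (d x) ≤ 1) (ζ : F') (m : ℤ) (hm : Odd m) (hζ : v ζ = v μ ^ m) :
    v (d ζ) = v μ ^ (m - 1) := by
  have h2 : (2 : F') = 0 := two_eq_zero_of_charP F'
  have hvμ0 : v μ ≠ 0 := (Valuation.ne_zero_iff v).mpr hμ0
  obtain ⟨k, rfl⟩ := hm
  -- `ζ = μ * (μ^k)^2 * u` with `v u = 1`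
  set s : F' := μ ^ k with hs
  have hs0 : s ≠ 0 := zpow_ne_zero _ hμ0
  set u : F' := ζ / (μ * s ^ 2) with hu
  have hden : μ * s ^ 2 ≠ 0 := mul_ne_zero hμ0 (pow_ne_zero _ hs0)
  have hζu : ζ = μ * s ^ 2 * u := by rw [hu]; field_simp
  have hvs : v (s ^ 2) = v μ ^ (2 * k) := by
    rw [hs, map_pow, map_zpow₀, ← zpow_natCast, ← zpow_mul]; congr 1; ring
  have hvden : v (μ * s ^ 2) = v μ ^ (2 * k + 1) := by
    rw [map_mul, hvs, zpow_add_one₀ hvμ0, mul_comm]
  have hvu : v u = 1 := by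
    rw [hu, map_div₀, hζ, hvden, div_self (zpow_ne_zero _ hvμ0)]
  have hdu : v (d u) ≤ 1 := hdv u hvu.le
  have hdζ : d ζ = s ^ 2 * u + μ * s ^ 2 * d u := by
    rw [hζu, Derivation.leibniz, Derivation.leibniz, deriv_sq, hdμ]
    simp only [smul_eq_mul, mul_zero, zero_add, mul_one]
    ring
  have hv1 : v (s ^ 2 * u) = v μ ^ (2 * k) := by rw [map_mul, hvu, mul_one, hvs]
  have hv2 : v (μ * s ^ 2 * d u) < v μ ^ (2 * k) := by
    rw [map_mul, hvden]
    calc v μ ^ (2 * k + 1) * v (d u) ≤ v μ ^ (2 * k + 1) * 1 := by gcongr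
      _ = v μ ^ (2 * k) * v μ := by rw [mul_one, zpow_add_one₀ hvμ0]
      _ < v μ ^ (2 * k) * 1 := by
          exact mul_lt_mul_of_pos_left hμ (zpow_pos (zero_lt_iff.mpr hvμ0) _)
      _ = v μ ^ (2 * k) := mul_one _
  rw [hdζ, show (2 * k + 1 - 1 : ℤ) = 2 * k by ring, ← hv1]
  exact Valuation.map_add_eq_of_lt_left v (by rw [hv1]; exact hv2)

end Val

/-! ## 5. The Hesse derivation: `((μ³+1)/μ²) d/dμ` fixes `J = μ¹²/(μ³+1)³` -/

section Hesse

variable {F' : Type*} [Field F'] [CharP F' 2] (μ : F') (d : Derivation ℤ F' F')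

theorem hesse_deriv_J (hdμ : d μ = 1) (hw : μ ^ 3 + 1 ≠ 0) (hμ0 : μ ≠ 0) (j : F')
    (hj : j * (μ ^ 3 + 1) ^ 3 = μ ^ 12) :
    (((μ ^ 3 + 1) / μ ^ 2) • d) j = j := by
  have h2 : (2 : F') = 0 := two_eq_zero_of_charP F'
  set w : F' := μ ^ 3 + 1 with hwdef
  have hdw : d w = μ ^ 2 := by
    rw [hwdef, map_add, Derivation.map_one_eq_zero, add_zero,
      show μ ^ 3 = μ ^ 2 * μ by ring, Derivation.leibniz, deriv_sq, hdμ]
    simp
  have hdw3 : d (w ^ 3) = w ^ 2 * μ ^ 2 := by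
    rw [show w ^ 3 = w ^ 2 * w by ring, Derivation.leibniz, deriv_sq, hdw]
    simp
  have hd12 : d (μ ^ 12) = 0 := by
    rw [show μ ^ 12 = (μ ^ 6) ^ 2 by ring, deriv_sq]
  have h1 : d (j * w ^ 3) = 0 := by rw [hj, hd12]
  rw [Derivation.leibniz, hdw3, smul_eq_mul, smul_eq_mul] at h1
  -- `j * (w^2 * μ^2) + w^3 * d j = 0`
  have h3 : w * d j = j * μ ^ 2 := by
    have hw2 : w ^ 2 ≠ 0 := pow_ne_zero _ hw
    apply mul_left_cancel₀ hw2
    linear_combination h1 - (j * (w ^ 2 * μ ^ 2)) * h2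
  rw [Derivation.smul_apply, smul_eq_mul, div_mul_eq_mul_div, h3]
  field_simp

end Hesse

/-! ## 6. The core contradiction -/

section Core

/-- **Core of S16 (U,2), `p ≡ 3 mod 4`.**  See the header of this file for the dictionary. -/
theorem u2_core
    {F Q F' : Type*} [Field F] [Field Q] [CharP Q 2] [Field F'] [CharP F' 2]
    (ιQ : F →+* Q) (ι' : F →+* F') (J Jp : F) (hJ0 : J ≠ 0) (hJp0 : Jp ≠ 0)
    (hdec : ∀ y : F, ∃ A B : F, y = A ^ 2 + J * B ^ 2)
    (DQ : Derivation ℤ Q Q) (hDQJ : DQ (ιQ J) = ιQ J)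
    (p : ℕ) (hp : p % 4 = 3)
    (z δ : Q) (hz8 : z ^ 8 * ιQ Jp = ιQ J ^ p) (hδ : DQ z = δ * z)
    (hbar : F) (hh : ιQ hbar = δ ^ 6 * ιQ J)
    {Γ₀ : Type*} [LinearOrderedCommGroupWithZero Γ₀] (v : Valuation F' Γ₀)
    (μ : F') (hμ0 : μ ≠ 0) (hμ : v μ < 1)
    (hunif : ∀ x : F', x ≠ 0 → ∃ m : ℤ, v x = v μ ^ m)
    (hJμ : ι' J * (μ ^ 3 + 1) ^ 3 = μ ^ 12)
    (d : Derivation ℤ F' F') (hdμ : d μ = 1) (hdv : ∀ x, v x ≤ 1 → v (d x) ≤ 1)
    (hunit : v (ι' J) = v (ι' Jp))
    (hint : v (ι' hbar) ≤ 1) : False := by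
  set π : Γ₀ := v μ with hπ
  have hπ0 : π ≠ 0 := (Valuation.ne_zero_iff v).mpr hμ0
  have hπpos : 0 < π := zero_lt_iff.mpr hπ0
  -- `z` comes from `F`
  have hz8' : z ^ 8 = ιQ (J ^ p / Jp) := by
    rw [map_div₀, map_pow, ← hz8, mul_div_assoc, div_self ((map_ne_zero ιQ).mpr hJp0), mul_one]
  obtain ⟨z₀, hz₀⟩ := mem_range_of_pow_eight ιQ DQ J hJ0 hDQJ hdec z ⟨_, hz8'.symm⟩
  have hz₀8 : z₀ ^ 8 * Jp = J ^ p := by
    apply ιQ.injective
    rw [map_mul, map_pow, map_pow, hz₀, hz8]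
  have hz₀0 : z₀ ≠ 0 := by
    rintro rfl
    rw [zero_pow (by norm_num), zero_mul] at hz₀8
    exact pow_ne_zero _ hJ0 hz₀8.symm
  obtain ⟨A, B, hAB⟩ := hdec z₀
  -- `δ` comes from `F`
  have hDz : DQ z = ιQ (J * B ^ 2) := by
    rw [← hz₀, hAB]; exact deriv_sq_add_mul_sq DQ ιQ J hDQJ A B
  have hz0 : z ≠ 0 := by rw [← hz₀]; exact (map_ne_zero ιQ).mpr hz₀0
  have hδ' : δ = ιQ (J * B ^ 2 / z₀) := by
    rw [map_div₀, hz₀, ← hDz, hδ, mul_div_assoc, div_self hz0, mul_one]
  have hhbar : hbar = (J * B ^ 2 / z₀) ^ 6 * J := by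
    apply ιQ.injective
    rw [hh, hδ', map_mul, map_pow]
  -- the cover side
  have hvw : v (μ ^ 3 + 1) = 1 := by
    have h1 : v (μ ^ 3) < v (1 : F') := by
      rw [map_one, map_pow]
      exact pow_lt_one₀ zero_le hμ (by norm_num)
    rw [Valuation.map_add_eq_of_lt_right v h1, map_one]
  have hw0 : μ ^ 3 + 1 ≠ 0 := by
    intro h; rw [h, map_zero] at hvw; exact zero_ne_one hvw
  have hvJ : v (ι' J) = π ^ (12 : ℤ) := by
    have := congrArg v hJμ
    rw [map_mul, map_pow, hvw, one_pow, mul_one, map_pow] at this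
    rw [this]; norm_cast
  set ζ : F' := ι' z₀ with hζ
  have hζ0 : ζ ≠ 0 := (map_ne_zero ι').mpr hz₀0
  obtain ⟨m, hm⟩ := hunif ζ hζ0
  have hm8 : 8 * m + 12 = 12 * (p : ℤ) := by
    have h1 := congrArg (fun t => v (ι' t)) hz₀8
    simp only [map_mul, map_pow] at h1
    rw [← hunit, hvJ, ← hζ, hm] at h1
    have h2 : π ^ (8 * m + 12) = π ^ (12 * (p : ℤ)) := by
      rw [zpow_add₀ hπ0, mul_comm 8 m, zpow_mul, zpow_mul]
      exact_mod_cast h1
    exact zpow_right_injective₀ hπpos hμ.ne h2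
  have hmodd : Odd m := by
    rw [Int.odd_iff]
    omega
  -- the derivation `D' = ((μ^3+1)/μ^2) d`
  set D' : Derivation ℤ F' F' := ((μ ^ 3 + 1) / μ ^ 2) • d with hD'
  have hD'J : D' (ι' J) = ι' J := hesse_deriv_J μ d hdμ hw0 hμ0 _ hJμ
  have hD'ζ : D' ζ = ι' (J * B ^ 2) := by
    rw [hζ, hAB]; exact deriv_sq_add_mul_sq D' ι' J hD'J A B
  have hvdζ : v (d ζ) = π ^ (m - 1) := val_deriv_of_odd v μ d hμ hμ0 hdμ hdv ζ m hmodd hm
  have hvD'ζ : v (D' ζ) = π ^ (m - 3) := by
    rw [hD', Derivation.smul_apply, smul_eq_mul, map_mul, map_div₀, hvw, map_pow, hvdζ,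
      show m - 3 = -2 + (m - 1) by ring, zpow_add₀ hπ0, zpow_neg, one_div]
    norm_cast
  have hvδ : v (ι' (J * B ^ 2 / z₀)) = π ^ (-3 : ℤ) := by
    rw [map_div₀, ← hD'ζ, map_div₀, hvD'ζ, ← hζ, hm, ← zpow_sub₀ hπ0]
    congr 1; ring
  have hvh : v (ι' hbar) = π ^ (-6 : ℤ) := by
    rw [hhbar, map_mul, map_pow, map_mul, map_pow, hvδ, hvJ, ← zpow_natCast, ← zpow_mul,
      ← zpow_add₀ hπ0]
    congr 1
  rw [hvh, zpow_neg] at hint
  have h6 : π ^ (6 : ℤ) < 1 := by
    have := pow_lt_one₀ zero_le hμ (n := 6) (by norm_num)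
    exact_mod_cast this
  have h6pos : 0 < π ^ (6 : ℤ) := zpow_pos hπpos _
  exact absurd hint (not_le.mpr ((one_lt_inv₀ h6pos).mpr h6))

end Core

/-! ## 7. Unramified places: the derivation preserves the valuation ring -/

section Unramified

open KaehlerDifferential

/-- If `O` is formally unramified over `A` and a derivation `d` of an `O`-algebra `L` maps `A`
into (the image of) `O`, then it maps `O` into (the image of) `O`. -/
theorem deriv_mem_range_of_formallyUnramified {A O L : Type*} [CommRing A] [CommRing O]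
    [CommRing L] [Algebra A O] [Algebra O L] [Algebra.FormallyUnramified A O]
    (d : Derivation ℤ L L)
    (hA : ∀ a : A, d (algebraMap O L (algebraMap A O a)) ∈ (algebraMap O L).range) (o : O) :
    d (algebraMap O L o) ∈ (algebraMap O L).range := by
  let d' : Derivation ℤ O L := d.compAlgebraMap O
  let l : Ω[O⁄ℤ] →ₗ[O] L := d'.liftKaehlerDifferential
  let M : Submodule O L := LinearMap.range (Algebra.linearMap O L)
  have hM : ∀ x : L, x ∈ M ↔ x ∈ (algebraMap O L).range := fun x => Iff.rfl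
  have hl : ∀ x : O, l (D ℤ O x) = d (algebraMap O L x) := fun x =>
    Derivation.liftKaehlerDifferential_comp_D d' x
  suffices h : ∀ ω : Ω[O⁄ℤ], l ω ∈ M by
    have := h (D ℤ O o)
    rwa [hl, hM] at this
  have hker : LinearMap.range (mapBaseChange ℤ A O) = ⊤ := by
    rw [range_mapBaseChange]
    exact LinearMap.ker_eq_top.mpr (Subsingleton.elim _ _)
  intro ω
  obtain ⟨t, rfl⟩ : ω ∈ LinearMap.range (mapBaseChange ℤ A O) := by rw [hker]; trivial
  induction t using TensorProduct.induction_on with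
  | zero => simp
  | add x y hx hy => rw [map_add, map_add]; exact add_mem hx hy
  | tmul x y =>
    rw [mapBaseChange_tmul, map_smul]
    refine M.smul_mem x ?_
    have hy : y ∈ Submodule.span A (Set.range (D ℤ A)) := by
      rw [span_range_derivation]; trivial
    induction hy using Submodule.span_induction with
    | mem y hy =>
      obtain ⟨a, rfl⟩ := hy
      rw [map_D, hl, hM]
      exact hA a
    | zero => simp
    | add y y' _ _ hy hy' => rw [map_add, map_add]; exact add_mem hy hy'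
    | smul a y _ hy =>
      rw [map_smul, algebra_compatible_smul O a, map_smul]
      exact M.smul_mem _ hy

end Unramified

end Fermat.Agent.S16.H76
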