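import Mathlib
import Fermat.Agent.S16.H76_U2Core

/-!
# S16, case (U,2), `p ≡ 3 mod 4`: a purely local analysis at ANY supersingular place (helper60)

Route-Q-free alternative to the Hesse-uniformiser input (GEO-e) of `H76.u2_core`.

Setting: `F` a field of characteristic two with a `ℤ`-derivation `θ` and a discrete valuation `v`
with uniformiser `t` (every nonzero value is an integral power of `π := v t < 1`), such that
`F = F² + t F²`.  (For `F = k(J, J_p)` this holds at EVERY place of `F`; no cover, no completion.)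

* `theta_sq_add_mul_sq`, `val_theta_of_odd`, `val_theta_of_even`, `val_theta_le` :
  `v (θ f) = v (θ t) π^(m-1)` if `v f = π^m` with `m` odd, `v (θ f) ≤ v (θ t) π^m` if `m` is even;
* `exists_sq_add_uniformizer_mul_sq` : `F = F² + J F²` implies `F = F² + t F²`;
* `local_odd`  : data `J, D₁, z, δ` as in (U,2) (`θ J = J`, `v J = π^e`, `4 ∣ e`, `D₁` a unit with
  `θ D₁ = D₁`, `θ z = δ z`, `δ² + δ = (1 + D₁)² / J`) and `v z = π^m` with `m` ODD:
  then `1 ≤ (v δ)^4 * v J`, i.e. `ord δ ≤ - e / 4`;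
* `false_of_local_odd` : hence the holomorphy bound `v (δ^6 J) ≤ 1` is violated;
* `local_even` : same data with `m` EVEN: then `1 ≤ (v (θ t))^4 * v J`, i.e. `ε := - ord (θ t) ≥ e/4`.
-/

set_option autoImplicit false
set_option linter.unusedSectionVars false

namespace Fermat.Agent.S16.H60

open Fermat.Agent.S16

section Local

variable {F : Type*} [Field F] [CharP F 2] {Γ₀ : Type*} [LinearOrderedCommGroupWithZero Γ₀]
  (v : Valuation F Γ₀) (t : F) (θ : Derivation ℤ F F)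

/-- `θ (a² + t b²) = θ t * b²` in characteristic two. -/
theorem theta_sq_add_mul_sq (a b : F) : θ (a ^ 2 + t * b ^ 2) = θ t * b ^ 2 := by
  rw [map_add, H76.deriv_sq, zero_add, Derivation.leibniz, H76.deriv_sq]
  simp [mul_comm]

variable {v t}

theorem zpow_lt_zpow_iff_of_lt_one (ht0 : t ≠ 0) (ht : v t < 1) {m n : ℤ} :
    v t ^ m < v t ^ n ↔ n < m := by
  have hπ0 : v t ≠ 0 := (Valuation.ne_zero_iff v).mpr ht0
  have hπpos : 0 < v t := zero_lt_iff.mpr hπ0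
  constructor
  · intro h
    by_contra hnm
    rw [not_lt] at hnm
    exact absurd h (not_lt.mpr (zpow_le_zpow_right_of_le_one₀ hπpos ht.le hnm))
  · intro h
    exact zpow_lt_zpow_right_of_lt_one₀ hπpos ht h

theorem zpow_le_zpow_iff_of_lt_one (ht0 : t ≠ 0) (ht : v t < 1) {m n : ℤ} :
    v t ^ m ≤ v t ^ n ↔ n ≤ m := by
  rw [← not_lt, zpow_lt_zpow_iff_of_lt_one ht0 ht, not_lt]

theorem zpow_inj_of_lt_one (ht0 : t ≠ 0) (ht : v t < 1) {m n : ℤ} (h : v t ^ m = v t ^ n) :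
    m = n := by
  have h1 := (zpow_le_zpow_iff_of_lt_one (v := v) ht0 ht).mp h.le
  have h2 := (zpow_le_zpow_iff_of_lt_one (v := v) ht0 ht).mp h.ge
  omega

/-- Shape of the value of `a² + t b²`: no cancellation between the even and the odd part. -/
theorem val_sq_add_mul_sq (ht0 : t ≠ 0) (ht : v t < 1)
    (hunif : ∀ x : F, x ≠ 0 → ∃ m : ℤ, v x = v t ^ m) (a b : F) :
    (a = 0 ∧ b = 0) ∨
    (∃ l : ℤ, v a = v t ^ l ∧ v (a ^ 2 + t * b ^ 2) = v t ^ (2 * l) ∧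
      v (b ^ 2) ≤ v t ^ (2 * l)) ∨
    (∃ n : ℤ, b ≠ 0 ∧ v b = v t ^ n ∧ v (a ^ 2 + t * b ^ 2) = v t ^ (2 * n + 1)) := by
  have hπ0 : v t ≠ 0 := (Valuation.ne_zero_iff v).mpr ht0
  have hπpos : 0 < v t := zero_lt_iff.mpr hπ0
  by_cases hb : b = 0
  · by_cases ha : a = 0
    · exact Or.inl ⟨ha, hb⟩
    · obtain ⟨l, hl⟩ := hunif a ha
      refine Or.inr (Or.inl ⟨l, hl, ?_, ?_⟩)
      · rw [hb]; simp only [ne_eq, OfNat.ofNat_ne_zero, not_false_eq_true, zero_pow, mul_zero,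
          add_zero, map_pow, hl]
        rw [← zpow_natCast, ← zpow_mul]; congr 1; ring
      · rw [hb]; simp
  · obtain ⟨n, hn⟩ := hunif b hb
    have hvtb : v (t * b ^ 2) = v t ^ (2 * n + 1) := by
      rw [map_mul, map_pow, hn, zpow_add_one₀ hπ0, mul_comm, ← zpow_natCast, ← zpow_mul]
      congr 2; ring
    by_cases ha : a = 0
    · refine Or.inr (Or.inr ⟨n, hb, hn, ?_⟩)
      rw [ha]; simpa using hvtb
    · obtain ⟨l, hl⟩ := hunif a ha
      have hva : v (a ^ 2) = v t ^ (2 * l) := by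
        rw [map_pow, hl, ← zpow_natCast, ← zpow_mul]; congr 1; ring
      have hne : v (a ^ 2) ≠ v (t * b ^ 2) := by
        rw [hva, hvtb]
        intro h
        have := zpow_inj_of_lt_one (v := v) ht0 ht h
        omega
      have hmax := Valuation.map_add_of_distinct_val v hne
      rcases lt_or_gt_of_ne hne with h | h
      · -- odd part dominates
        refine Or.inr (Or.inr ⟨n, hb, hn, ?_⟩)
        rw [hmax, max_eq_right h.le, hvtb]
      · refine Or.inr (Or.inl ⟨l, hl, ?_, ?_⟩)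
        · rw [hmax, max_eq_left h.le, hva]
        · rw [hva, hvtb] at h
          have h1 := (zpow_lt_zpow_iff_of_lt_one (v := v) ht0 ht).mp h
          have h2 : 2 * l ≤ 2 * n := by omega
          rw [map_pow, hn, ← zpow_natCast, ← zpow_mul]
          have : v t ^ (2 * n) ≤ v t ^ (2 * l) :=
            (zpow_le_zpow_iff_of_lt_one (v := v) ht0 ht).mpr h2
          convert this using 2; ring

/-- Odd order: `ord (θ f) = ord (θ t) + ord f - 1`. -/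
theorem val_theta_of_odd (ht0 : t ≠ 0) (ht : v t < 1)
    (hunif : ∀ x : F, x ≠ 0 → ∃ m : ℤ, v x = v t ^ m)
    (hdec : ∀ y : F, ∃ a b : F, y = a ^ 2 + t * b ^ 2)
    (f : F) (m : ℤ) (hm : Odd m) (hf : v f = v t ^ m) :
    v (θ f) = v (θ t) * v t ^ (m - 1) := by
  have hπ0 : v t ≠ 0 := (Valuation.ne_zero_iff v).mpr ht0
  obtain ⟨a, b, rfl⟩ := hdec f
  rw [theta_sq_add_mul_sq]
  rcases val_sq_add_mul_sq ht0 ht hunif a b with ⟨ha, hb⟩ | ⟨l, -, hl, -⟩ | ⟨n, -, hn, hn'⟩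
  · rw [ha, hb] at hf
    simp only [ne_eq, OfNat.ofNat_ne_zero, not_false_eq_true, zero_pow, mul_zero, add_zero,
      map_zero] at hf
    exact absurd hf.symm (zpow_ne_zero _ hπ0)
  · rw [hl] at hf
    have := zpow_inj_of_lt_one (v := v) ht0 ht hf
    obtain ⟨k, hk⟩ := hm
    omega
  · rw [hn'] at hf
    have h1 := zpow_inj_of_lt_one (v := v) ht0 ht hf
    rw [map_mul, map_pow, hn, ← zpow_natCast, ← zpow_mul]
    congr 2
    push_cast; omega

/-- Even order: `ord (θ f) ≥ ord (θ t) + ord f`. -/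
theorem val_theta_of_even (ht0 : t ≠ 0) (ht : v t < 1)
    (hunif : ∀ x : F, x ≠ 0 → ∃ m : ℤ, v x = v t ^ m)
    (hdec : ∀ y : F, ∃ a b : F, y = a ^ 2 + t * b ^ 2)
    (f : F) (m : ℤ) (hm : Even m) (hf : v f = v t ^ m) :
    v (θ f) ≤ v (θ t) * v t ^ m := by
  have hπ0 : v t ≠ 0 := (Valuation.ne_zero_iff v).mpr ht0
  obtain ⟨a, b, rfl⟩ := hdec f
  rw [theta_sq_add_mul_sq]
  rcases val_sq_add_mul_sq ht0 ht hunif a b with ⟨ha, hb⟩ | ⟨l, -, hl, hl'⟩ | ⟨n, -, hn, hn'⟩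
  · rw [hb]; simp
  · rw [hl] at hf
    have h1 := zpow_inj_of_lt_one (v := v) ht0 ht hf
    rw [map_mul, ← h1]
    exact mul_le_mul_of_nonneg_left hl' zero_le
  · rw [hn'] at hf
    have := zpow_inj_of_lt_one (v := v) ht0 ht hf
    obtain ⟨k, hk⟩ := hm
    omega

/-- In all cases `ord (θ f) ≥ ord (θ t) + ord f - 1`. -/
theorem val_theta_le (ht0 : t ≠ 0) (ht : v t < 1)
    (hunif : ∀ x : F, x ≠ 0 → ∃ m : ℤ, v x = v t ^ m)
    (hdec : ∀ y : F, ∃ a b : F, y = a ^ 2 + t * b ^ 2)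
    (f : F) (m : ℤ) (hf : v f = v t ^ m) :
    v (θ f) ≤ v (θ t) * v t ^ (m - 1) := by
  rcases Int.even_or_odd m with hm | hm
  · refine (val_theta_of_even θ ht0 ht hunif hdec f m hm hf).trans ?_
    exact mul_le_mul_of_nonneg_left
      ((zpow_le_zpow_iff_of_lt_one (v := v) ht0 ht).mpr (by omega)) zero_le
  · exact (val_theta_of_odd θ ht0 ht hunif hdec f m hm hf).le

/-- Common part of `local_odd` / `local_even`: with `v (θ t) = π^n₀` one has `n₀ ≤ 0`, and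
`y = 1 + D₁` has `v y = π^a` with `0 ≤ a ≤ 1 - n₀`. -/
theorem local_common (ht0 : t ≠ 0) (ht : v t < 1)
    (hunif : ∀ x : F, x ≠ 0 → ∃ m : ℤ, v x = v t ^ m)
    (hdec : ∀ y : F, ∃ a b : F, y = a ^ 2 + t * b ^ 2)
    (J D₁ : F) (e : ℤ) (hJ : v J = v t ^ e) (he2 : Even e) (hθJ : θ J = J)
    (hD₁ : v D₁ = 1) (hθD₁ : θ D₁ = D₁) :
    ∃ n₀ a : ℤ, v (θ t) = v t ^ n₀ ∧ n₀ ≤ 0 ∧ v (1 + D₁) = v t ^ a ∧ 0 ≤ a ∧ a ≤ 1 - n₀ := by
  have hπ0 : v t ≠ 0 := (Valuation.ne_zero_iff v).mpr ht0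
  have hJ0 : J ≠ 0 := by
    intro h; rw [h, map_zero] at hJ; exact zpow_ne_zero _ hπ0 hJ.symm
  have hθt0 : θ t ≠ 0 := by
    intro h
    obtain ⟨a, b, hab⟩ := hdec J
    have := theta_sq_add_mul_sq t θ a b
    rw [← hab, hθJ, h, zero_mul] at this
    exact hJ0 this
  obtain ⟨n₀, hn₀⟩ := hunif _ hθt0
  have hn₀le : n₀ ≤ 0 := by
    have h1 := val_theta_of_even θ ht0 ht hunif hdec J e he2 hJ
    rw [hθJ, hJ, hn₀, ← zpow_add₀ hπ0] at h1
    have := (zpow_le_zpow_iff_of_lt_one (v := v) ht0 ht).mp h1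
    omega
  have hD₁0 : D₁ ≠ 0 := by
    intro h; rw [h, map_zero] at hD₁; exact zero_ne_one hD₁
  have hθy : θ (1 + D₁) = D₁ := by
    rw [map_add, hθD₁]
    have : θ (1 : F) = 0 := θ.map_one_eq_zero
    rw [this, zero_add]
  have hy0 : (1 + D₁ : F) ≠ 0 := by
    intro h; rw [h, map_zero] at hθy; exact hD₁0 hθy.symm
  obtain ⟨a, ha⟩ := hunif _ hy0
  have hvy : v (1 + D₁) ≤ 1 := by
    refine (v.map_add _ _).trans ?_
    rw [map_one, hD₁, max_self]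
  have ha0 : 0 ≤ a := by
    rw [ha] at hvy
    have : v t ^ a ≤ v t ^ (0 : ℤ) := by simpa using hvy
    exact (zpow_le_zpow_iff_of_lt_one (v := v) ht0 ht).mp this
  have ha1 : a ≤ 1 - n₀ := by
    have h1 := val_theta_le θ ht0 ht hunif hdec _ a ha
    rw [hθy, hD₁, hn₀, ← zpow_add₀ hπ0] at h1
    have : v t ^ (0 : ℤ) ≤ v t ^ (n₀ + (a - 1)) := by simpa using h1
    have := (zpow_le_zpow_iff_of_lt_one (v := v) ht0 ht).mp this
    omega
  exact ⟨n₀, a, hn₀, hn₀le, ha, ha0, ha1⟩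

/-- **Local analysis, odd case.**  If `ord z` is odd then `ord δ ≤ - e/4`:
`1 ≤ (v δ)^4 * v J`. -/
theorem local_odd (ht0 : t ≠ 0) (ht : v t < 1)
    (hunif : ∀ x : F, x ≠ 0 → ∃ m : ℤ, v x = v t ^ m)
    (hdec : ∀ y : F, ∃ a b : F, y = a ^ 2 + t * b ^ 2)
    (J D₁ z δ : F) (e m : ℤ) (hJ : v J = v t ^ e) (he2 : Even e) (hθJ : θ J = J)
    (hD₁ : v D₁ = 1) (hθD₁ : θ D₁ = D₁)
    (hz : v z = v t ^ m) (hm : Odd m) (hδ : θ z = δ * z)
    (hAS : δ ^ 2 + δ = (1 + D₁) ^ 2 / J) :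
    1 < v δ ∧ 1 ≤ v δ ^ 4 * v J := by
  have hπ0 : v t ≠ 0 := (Valuation.ne_zero_iff v).mpr ht0
  obtain ⟨n₀, a, hn₀, hn₀le, ha, ha0, ha1⟩ :=
    local_common θ ht0 ht hunif hdec J D₁ e hJ he2 hθJ hD₁ hθD₁
  have hz0 : z ≠ 0 := by
    intro h; rw [h, map_zero] at hz; exact zpow_ne_zero _ hπ0 hz.symm
  have hvδ : v δ = v t ^ (n₀ - 1) := by
    have h1 := val_theta_of_odd θ ht0 ht hunif hdec z m hm hz
    rw [hδ, map_mul, hz, hn₀, ← zpow_add₀ hπ0] at h1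
    have h2 : v δ = v t ^ (n₀ + (m - 1)) / v t ^ m := by
      rw [← h1, mul_div_assoc, div_self (zpow_ne_zero _ hπ0), mul_one]
    rw [h2, ← zpow_sub₀ hπ0]; congr 1; ring
  have hδ1 : 1 < v δ := by
    rw [hvδ]
    have : v t ^ (0 : ℤ) < v t ^ (n₀ - 1) :=
      (zpow_lt_zpow_iff_of_lt_one (v := v) ht0 ht).mpr (by omega)
    simpa using this
  refine ⟨hδ1, ?_⟩
  -- `v (δ² + δ) = (v δ)²`
  have hlt : v δ < v (δ ^ 2) := by
    rw [map_pow, sq]
    have hpos : 0 < v δ := lt_trans zero_lt_one hδ1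
    calc v δ = v δ * 1 := (mul_one _).symm
      _ < v δ * v δ := mul_lt_mul_of_pos_left hδ1 hpos
  have hL : v (δ ^ 2 + δ) = v t ^ (2 * (n₀ - 1)) := by
    rw [Valuation.map_add_eq_of_lt_left v hlt, map_pow, hvδ, ← zpow_natCast, ← zpow_mul]
    congr 1; ring
  have hR : v ((1 + D₁) ^ 2 / J) = v t ^ (2 * a - e) := by
    rw [map_div₀, map_pow, ha, hJ, ← zpow_natCast, ← zpow_mul, ← zpow_sub₀ hπ0]
    congr 1; ring
  rw [hAS, hR] at hL
  have hrel := zpow_inj_of_lt_one (v := v) ht0 ht hL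
  rw [hvδ, hJ, ← zpow_natCast, ← zpow_mul, ← zpow_add₀ hπ0]
  have : v t ^ (0 : ℤ) ≤ v t ^ ((n₀ - 1) * ((4 : ℕ) : ℤ) + e) :=
    (zpow_le_zpow_iff_of_lt_one (v := v) ht0 ht).mpr (by push_cast; omega)
  simpa using this

/-- **The holomorphy bound is violated at a place with `ord z` odd.** -/
theorem false_of_local_odd (ht0 : t ≠ 0) (ht : v t < 1)
    (hunif : ∀ x : F, x ≠ 0 → ∃ m : ℤ, v x = v t ^ m)
    (hdec : ∀ y : F, ∃ a b : F, y = a ^ 2 + t * b ^ 2)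
    (J D₁ z δ : F) (e m : ℤ) (hJ : v J = v t ^ e) (he2 : Even e) (hθJ : θ J = J)
    (hD₁ : v D₁ = 1) (hθD₁ : θ D₁ = D₁)
    (hz : v z = v t ^ m) (hm : Odd m) (hδ : θ z = δ * z)
    (hAS : δ ^ 2 + δ = (1 + D₁) ^ 2 / J)
    (hhol : v (δ ^ 6 * J) ≤ 1) : False := by
  obtain ⟨h1, h2⟩ := local_odd θ ht0 ht hunif hdec J D₁ z δ e m hJ he2 hθJ hD₁ hθD₁ hz hm hδ hAS
  have hpos : 0 < v δ := lt_trans zero_lt_one h1
  have h3 : v (δ ^ 6 * J) = v δ ^ 2 * (v δ ^ 4 * v J) := by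
    rw [map_mul, map_pow, ← mul_assoc, ← pow_add]
  have h4 : 1 < v δ ^ 2 := one_lt_pow₀ h1 (by norm_num)
  have h5 : 1 < v δ ^ 2 * (v δ ^ 4 * v J) := by
    calc (1 : Γ₀) < v δ ^ 2 := h4
      _ = v δ ^ 2 * 1 := (mul_one _).symm
      _ ≤ v δ ^ 2 * (v δ ^ 4 * v J) := mul_le_mul_of_nonneg_left h2 zero_le
  rw [h3] at hhol
  exact absurd hhol (not_le.mpr h5)

/-- **Local analysis, even case.**  If `ord z` is even then `ε := - ord (θ t) ≥ e/4`:
`1 ≤ (v (θ t))^4 * v J`. -/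
theorem local_even (ht0 : t ≠ 0) (ht : v t < 1)
    (hunif : ∀ x : F, x ≠ 0 → ∃ m : ℤ, v x = v t ^ m)
    (hdec : ∀ y : F, ∃ a b : F, y = a ^ 2 + t * b ^ 2)
    (J D₁ z δ : F) (e m : ℤ) (hJ : v J = v t ^ e) (he4 : 4 ∣ e) (hθJ : θ J = J)
    (hD₁ : v D₁ = 1) (hθD₁ : θ D₁ = D₁)
    (hz : v z = v t ^ m) (hm : Even m) (hδ : θ z = δ * z)
    (hAS : δ ^ 2 + δ = (1 + D₁) ^ 2 / J) :
    1 ≤ v (θ t) ^ 4 * v J := by
  have hπ0 : v t ≠ 0 := (Valuation.ne_zero_iff v).mpr ht0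
  have he2 : Even e := by
    obtain ⟨c, hc⟩ := he4
    exact ⟨2 * c, by omega⟩
  obtain ⟨n₀, a, hn₀, hn₀le, ha, ha0, ha1⟩ :=
    local_common θ ht0 ht hunif hdec J D₁ e hJ he2 hθJ hD₁ hθD₁
  have hz0 : z ≠ 0 := by
    intro h; rw [h, map_zero] at hz; exact zpow_ne_zero _ hπ0 hz.symm
  have hvδ : v δ ≤ v t ^ n₀ := by
    have h1 := val_theta_of_even θ ht0 ht hunif hdec z m hm hz
    rw [hδ, map_mul, hz, hn₀] at h1
    have hzpos : 0 < v t ^ m := zpow_pos (zero_lt_iff.mpr hπ0) _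
    exact le_of_mul_le_mul_right h1 hzpos
  have h1le : (1 : Γ₀) ≤ v t ^ n₀ := by
    have : v t ^ (0 : ℤ) ≤ v t ^ n₀ :=
      (zpow_le_zpow_iff_of_lt_one (v := v) ht0 ht).mpr hn₀le
    simpa using this
  have hL : v (δ ^ 2 + δ) ≤ v t ^ (2 * n₀) := by
    refine (v.map_add _ _).trans (max_le ?_ ?_)
    · rw [map_pow, two_mul, zpow_add₀ hπ0, sq]
      exact mul_le_mul' hvδ hvδ
    · refine hvδ.trans ?_
      rw [two_mul, zpow_add₀ hπ0]
      calc v t ^ n₀ = v t ^ n₀ * 1 := (mul_one _).symm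
        _ ≤ v t ^ n₀ * v t ^ n₀ := mul_le_mul_of_nonneg_left h1le zero_le
  have hR : v ((1 + D₁) ^ 2 / J) = v t ^ (2 * a - e) := by
    rw [map_div₀, map_pow, ha, hJ, ← zpow_natCast, ← zpow_mul, ← zpow_sub₀ hπ0]
    congr 1; ring
  rw [hAS, hR] at hL
  have hrel := (zpow_le_zpow_iff_of_lt_one (v := v) ht0 ht).mp hL
  rw [hn₀, hJ, ← zpow_natCast, ← zpow_mul, ← zpow_add₀ hπ0]
  obtain ⟨c, hc⟩ := he4
  have : v t ^ (0 : ℤ) ≤ v t ^ (n₀ * ((4 : ℕ) : ℤ) + e) :=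
    (zpow_le_zpow_iff_of_lt_one (v := v) ht0 ht).mpr (by push_cast; omega)
  simpa using this

/-- `F = F² + J F²` and `t` of odd order imply `F = F² + t F²`. -/
theorem exists_sq_add_uniformizer_mul_sq (ht0 : t ≠ 0) (ht : v t < 1)
    (hunif : ∀ x : F, x ≠ 0 → ∃ m : ℤ, v x = v t ^ m)
    (J : F) (hdecJ : ∀ y : F, ∃ A B : F, y = A ^ 2 + J * B ^ 2) :
    ∀ y : F, ∃ a b : F, y = a ^ 2 + t * b ^ 2 := by
  have h2 : (2 : F) = 0 := H76.two_eq_zero_of_charP F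
  obtain ⟨At, Bt, hAB⟩ := hdecJ t
  have hBt : Bt ≠ 0 := by
    intro h
    rw [h] at hAB
    simp only [ne_eq, OfNat.ofNat_ne_zero, not_false_eq_true, zero_pow, mul_zero, add_zero] at hAB
    have hAt : At ≠ 0 := by
      intro h'; rw [h'] at hAB; simp at hAB; exact ht0 hAB
    obtain ⟨l, hl⟩ := hunif At hAt
    have h1 : v t = v t ^ (2 * l) := by
      conv_lhs => rw [hAB]
      rw [map_pow, hl, ← zpow_natCast, ← zpow_mul]; congr 1; ring
    have h3 : v t ^ (1 : ℤ) = v t ^ (2 * l) := by simpa using h1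
    have := zpow_inj_of_lt_one (v := v) ht0 ht h3
    omega
  intro y
  obtain ⟨A, B, hy⟩ := hdecJ y
  refine ⟨A + At * B / Bt, B / Bt, ?_⟩
  have hJ : J = (t + At ^ 2) / Bt ^ 2 := by
    rw [hAB]; field_simp
    linear_combination (-(At ^ 2)) * h2
  rw [hy, hJ]
  field_simp
  linear_combination (-(A * At * B * Bt)) * h2

end Local

end Fermat.Agent.S16.H60
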