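import Mathlib
import Fermat.Agent.S16.H60_U2Local
import Fermat.Agent.S16.H38_U2Count
import Fermat.Agent.S16.H76_U2CoreRel

/-!
# S16, case (U,2), `p ≡ 3 mod 4`: the S18-free route, abstract core (helper60)

`F/k` a function field of one variable in characteristic two (`RR.H76.FFBase`), all places of
degree one, `k = k²`.  Data: `J, Jp, z, δ ∈ F`, a `k`-derivation `θ` of `F` with `θ J = J`,
`F = F² + J F²`, `z⁸ Jp = J^p`, `θ z = δ z`, the Artin–Schreier relation
`δ² + δ = 1/J + 1/Jp`; `J` and `Jp` have the same order at the zeros of `J`; `δ⁶ J` is regular at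
the zeros of `J`; `J` has exactly two poles, of orders `1` and `p`.  Then `p + 1 ≤ 8 g`.

* `local_data`: at a zero `x` of `J`: `8 ∣ ord_x J` and `ord_x (θ t) ≤ - ord_x J / 4`
  (from `H60.false_of_local_odd`, `H60.local_even`);
* `sum_ord_zeros`: the zeros of `J` have total order `p + 1`;
* `u2_alt_core`: the contradiction with `8 g < p + 1` (via helper38's `H38.sum_eps_le`).
-/

set_option autoImplicit false

namespace Fermat.Agent.S16.H60

open AlgebraicCurve WithZero Fermat.Agent.RR Fermat.Agent.RR.H76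

section Deriv

variable {k F : Type*} [Field k] [Field F] [Algebra k F] [CharP F 2]

/-- `θ (J ^ n) = J ^ n` for odd `n` when `θ J = J` (characteristic two). -/
theorem theta_pow_of_odd (θ : Derivation k F F) {J : F} (hθJ : θ J = J) {n : ℕ} (hn : Odd n) :
    θ (J ^ n) = J ^ n := by
  obtain ⟨m, rfl⟩ := hn
  rw [Derivation.leibniz_pow, hθJ, smul_eq_mul, nsmul_eq_mul]
  have h1 : ((2 * m + 1 : ℕ) : F) = 1 := by
    have h2 : (2 : F) = 0 := H76.two_eq_zero_of_charP F
    push_cast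
    rw [h2, zero_mul, zero_add]
  rw [h1, one_mul, show 2 * m + 1 - 1 = 2 * m by omega, ← pow_succ]

/-- `θ (z⁴ / J ^ n) = z⁴ / J ^ n` for odd `n`. -/
theorem theta_pow_four_div (θ : Derivation k F F) {J : F} (hJ0 : J ≠ 0) (hθJ : θ J = J) (z : F)
    {n : ℕ} (hn : Odd n) : θ (z ^ 4 / J ^ n) = z ^ 4 / J ^ n := by
  have h4 : θ (z ^ 4) = 0 := by
    rw [show z ^ 4 = (z ^ 2) ^ 2 by ring]
    exact H38.d_sq θ _
  have hJn : J ^ n ≠ 0 := pow_ne_zero n hJ0
  rw [div_eq_mul_inv, Derivation.leibniz, h4, smul_zero, add_zero, Derivation.leibniz_inv,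
    theta_pow_of_odd θ hθJ hn, smul_eq_mul, smul_eq_mul]
  have hneg : -((J ^ n)⁻¹ ^ 2) = (J ^ n)⁻¹ ^ 2 := CharTwo.neg_eq _
  rw [hneg]
  field_simp

end Deriv

section Local

variable {k F : Type*} [Field k] [Field F] [Algebra k F]

/-- At a place with uniformiser `t`: `|f| = |t| ^ ord f`. -/
theorem place_val_eq (x : Place k F) {t : F} (ht : x.ord t = 1) {f : F} (hf : f ≠ 0) :
    x.adicValuation f = x.adicValuation t ^ x.ord f := by
  have ht0 : t ≠ 0 := by
    rintro rfl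
    rw [Place.ord_zero] at ht
    omega
  rw [x.adicValuation_eq_exp_neg_ord hf, x.adicValuation_eq_exp_neg_ord ht0, ht, ← exp_zsmul,
    smul_eq_mul, mul_neg, mul_one]

theorem place_val_unif_lt_one (x : Place k F) {t : F} (ht : x.ord t = 1) :
    t ≠ 0 ∧ x.adicValuation t < 1 := by
  have ht0 : t ≠ 0 := by
    rintro rfl
    rw [Place.ord_zero] at ht
    omega
  refine ⟨ht0, ?_⟩
  rw [x.adicValuation_eq_exp_neg_ord ht0, ht, ← exp_zero, exp_lt_exp]
  omega

variable [CharP F 2]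

/-- **Local analysis at a zero of `J`** (S18-free route to (U2b)): `8 ∣ ord_x J` and
`4 ord_x (θ t) ≤ - ord_x J`. -/
theorem local_data (x : Place k F) (p : ℕ) (hp : p % 4 = 3) (J Jp z δ : F) (hJ0 : J ≠ 0)
    (hJp0 : Jp ≠ 0) (θ : Derivation k F F) (hθJ : θ J = J)
    (hdecJ : ∀ y : F, ∃ A B : F, y = A ^ 2 + J * B ^ 2)
    (hz8 : z ^ 8 * Jp = J ^ p) (hδ : θ z = δ * z) (hAS : δ ^ 2 + δ = J⁻¹ + Jp⁻¹)
    (hunit : x.ord Jp = x.ord J) (hhol : x.adicValuation (δ ^ 6 * J) ≤ 1)
    (t : F) (ht : x.ord t = 1) :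
    8 ∣ x.ord J ∧ θ t ≠ 0 ∧ 4 * x.ord (θ t) ≤ -x.ord J := by
  obtain ⟨ht0, htlt⟩ := place_val_unif_lt_one x ht
  set v := x.adicValuation with hv
  have h2 : (2 : F) = 0 := H76.two_eq_zero_of_charP F
  obtain ⟨s, hs⟩ : ∃ s : ℕ, p = 4 * s + 3 := ⟨p / 4, by omega⟩
  set n : ℕ := 2 * s + 1 with hn
  have hnodd : Odd n := ⟨s, rfl⟩
  have hpn : p = 2 * n + 1 := by omega
  have hz0 : z ≠ 0 := by
    rintro rfl
    rw [zero_pow (by norm_num), zero_mul] at hz8
    exact pow_ne_zero p hJ0 hz8.symm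
  have hJn : J ^ n ≠ 0 := pow_ne_zero n hJ0
  -- the unit `D₁`
  set D₁ : F := z ^ 4 / J ^ n with hD₁
  have hD₁sq : D₁ ^ 2 = J / Jp := by
    rw [hD₁, div_pow, eq_div_iff hJp0, div_mul_eq_mul_div, div_eq_iff (pow_ne_zero 2 hJn)]
    calc (z ^ 4) ^ 2 * Jp = z ^ 8 * Jp := by ring
      _ = J ^ p := hz8
      _ = J * (J ^ n) ^ 2 := by rw [hpn]; ring
  have hunif : ∀ f : F, f ≠ 0 → ∃ m : ℤ, v f = v t ^ m := fun f hf => ⟨_, place_val_eq x ht hf⟩
  have hvJJp : v Jp = v J := by
    rw [hv, x.adicValuation_eq_exp_neg_ord hJp0, x.adicValuation_eq_exp_neg_ord hJ0, hunit]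
  have hvJ0 : v J ≠ 0 := (Valuation.ne_zero_iff v).mpr hJ0
  have hvD₁ : v D₁ = 1 := by
    have h1 : v D₁ ^ 2 = 1 ^ 2 := by
      rw [← map_pow, hD₁sq, map_div₀, hvJJp, div_self hvJ0, one_pow]
    exact (pow_left_inj₀ (M₀ := ℤᵐ⁰) zero_le zero_le (by norm_num : (2 : ℕ) ≠ 0)).1 h1
  set θ' : Derivation ℤ F F := θ.restrictScalars ℤ with hθ'
  have hθ'app : ∀ f : F, θ' f = θ f := fun f => rfl
  have hθD₁ : θ' D₁ = D₁ := by
    rw [hθ'app, hD₁]
    exact theta_pow_four_div θ hJ0 hθJ z hnodd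
  have hAS' : δ ^ 2 + δ = (1 + D₁) ^ 2 / J := by
    have h1 : (1 + D₁) ^ 2 = 1 + D₁ ^ 2 := by
      rw [add_sq, mul_one, one_pow, h2, zero_mul, add_zero]
    rw [hAS, h1, hD₁sq]
    field_simp
  have hdec : ∀ y : F, ∃ a b : F, y = a ^ 2 + t * b ^ 2 :=
    exists_sq_add_uniformizer_mul_sq ht0 htlt hunif J hdecJ
  -- orders
  have hvJ : v J = v t ^ x.ord J := place_val_eq x ht hJ0
  have hvz : v z = v t ^ x.ord z := place_val_eq x ht hz0
  have hord : 8 * x.ord z + x.ord Jp = (p : ℤ) * x.ord J := by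
    have h1 := congrArg x.ord hz8
    rw [x.ord_mul (pow_ne_zero 8 hz0) hJp0, ← zpow_natCast, ← zpow_natCast, x.ord_zpow,
      x.ord_zpow] at h1
    exact_mod_cast h1
  rw [hunit] at hord
  -- `4 * ord z = n * ord J`
  have hord' : 4 * x.ord z = (n : ℤ) * x.ord J := by
    have : (p : ℤ) = 2 * (n : ℤ) + 1 := by exact_mod_cast hpn
    rw [this] at hord
    linarith
  have he4 : (4 : ℤ) ∣ x.ord J := by
    have hdvd : (4 : ℤ) ∣ (n : ℤ) * x.ord J := ⟨_, hord'.symm⟩
    have hcop : IsCoprime (4 : ℤ) (n : ℤ) := by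
      have h1 : IsCoprime (2 : ℤ) (n : ℤ) := by
        refine ⟨-(s : ℤ), 1, ?_⟩
        rw [hn]; push_cast; ring
      have := h1.pow_left (m := 2)
      norm_num at this
      exact this
    exact hcop.dvd_of_dvd_mul_left hdvd
  obtain ⟨e', he'⟩ := he4
  have hm : x.ord z = (n : ℤ) * e' := by
    rw [he'] at hord'
    linarith
  have he2 : Even (x.ord J) := ⟨2 * e', by rw [he']; ring⟩
  -- `e'` is even
  have he'even : Even e' := by
    by_contra hodd
    rw [Int.not_even_iff_odd] at hodd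
    have hmodd : Odd (x.ord z) := by
      rw [hm]
      exact (Odd.natCast hnodd).mul hodd
    exact false_of_local_odd θ' ht0 htlt hunif hdec J D₁ z δ (x.ord J) (x.ord z) hvJ he2
      ((hθ'app J).trans hθJ) hvD₁ hθD₁ hvz hmodd ((hθ'app z).trans hδ) hAS' hhol
  have hmeven : Even (x.ord z) := by
    rw [hm]
    exact he'even.mul_left _
  have hkey := local_even θ' ht0 htlt hunif hdec J D₁ z δ (x.ord J) (x.ord z) hvJ ⟨e', he'⟩
    ((hθ'app J).trans hθJ) hvD₁ hθD₁ hvz hmeven ((hθ'app z).trans hδ) hAS'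
  rw [hθ'app] at hkey
  have hθt0 : θ t ≠ 0 := by
    intro h0
    rw [h0, map_zero, zero_pow (by norm_num), zero_mul] at hkey
    exact absurd hkey (by simp)
  refine ⟨?_, hθt0, ?_⟩
  · obtain ⟨e'', he''⟩ := he'even
    exact ⟨e'', by rw [he', he'']; ring⟩
  · rw [hv, x.adicValuation_eq_exp_neg_ord hθt0, x.adicValuation_eq_exp_neg_ord hJ0, ← exp_nsmul,
      ← exp_add, ← exp_zero, exp_le_exp] at hkey
    simp only [nsmul_eq_mul, Nat.cast_ofNat] at hkey
    linarith

end Local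

section Global

variable {k F : Type*} [Field k] [Field F] [Algebra k F]

/-- The degree of a divisor as a plain sum when all places have degree one. -/
theorem degree_eq_sum_of_deg_one (hdeg : ∀ v : Place k F, v.deg = 1) (E : Divisor k F)
    (T : Finset (Place k F)) (hT : E.support ⊆ T) : Divisor.degree E = ∑ v ∈ T, E v := by
  have h1 : Divisor.degree E = E.sum fun v n => n * (v.deg : ℤ) := by
    simp [Divisor.degree, Finsupp.liftAddHom_apply]
  rw [h1, Finsupp.sum_of_support_subset E hT _ (fun v _ => by simp)]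
  refine Finset.sum_congr rfl fun v _ => ?_
  rw [hdeg v]; simp

variable [CharP F 2]

/-- **The S18-free route to (U2b), abstract core**: `p + 1 ≤ 8 g`. -/
theorem u2_alt_core (B : FFBase k F) (hk : ∀ c : k, ∃ e : k, e ^ 2 = c)
    (hdeg : ∀ v : Place k F, v.deg = 1) (p : ℕ) (hp : p % 4 = 3) (J Jp z δ : F) (hJ0 : J ≠ 0)
    (hJp0 : Jp ≠ 0) (θ : Derivation k F F) (hθJ : θ J = J)
    (hdecJ : ∀ y : F, ∃ A B : F, y = A ^ 2 + J * B ^ 2)
    (hz8 : z ^ 8 * Jp = J ^ p) (hδ : θ z = δ * z) (hAS : δ ^ 2 + δ = J⁻¹ + Jp⁻¹)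
    (hunit : ∀ x : Place k F, 0 < x.ord J → x.ord Jp = x.ord J)
    (hhol : ∀ x : Place k F, 0 < x.ord J → x.adicValuation (δ ^ 6 * J) ≤ 1)
    (c₁ c₂ : Place k F) (hc : c₁ ≠ c₂) (h₁ : c₁.ord J = -1) (h₂ : c₂.ord J = -(p : ℤ))
    (hpoles : ∀ v : Place k F, v.ord J < 0 → v = c₁ ∨ v = c₂) :
    (p : ℤ) + 1 ≤ 8 * B.gR := by
  classical
  obtain ⟨s₀, hs₀⟩ : ∃ s : ℕ, p = 4 * s + 3 := ⟨p / 4, by omega⟩
  set n : ℕ := 2 * s₀ + 1 with hn
  have hpn : p = 2 * n + 1 := by omega
  obtain ⟨E, hE, hE0⟩ := B.pd.exists_divisor J hJ0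
  set S : Finset (Place k F) := E.support.filter (fun v => 0 < v.ord J) with hS
  set Dinf : Divisor k F := Finsupp.single c₁ 1 + Finsupp.single c₂ (p : ℤ) with hDinf
  set H : Divisor k F := Finsupp.single c₂ (n : ℤ) with hH
  have hmemS : ∀ x, x ∈ S ↔ 0 < x.ord J := by
    intro x
    rw [hS, Finset.mem_filter, Finsupp.mem_support_iff, hE x]
    constructor
    · exact fun h => h.2
    · exact fun h => ⟨by omega, h⟩
  have hDc₁ : Dinf c₁ = 1 := by
    rw [hDinf, Finsupp.add_apply, Finsupp.single_eq_same, Finsupp.single_eq_of_ne hc, add_zero]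
  have hDc₂ : Dinf c₂ = p := by
    rw [hDinf, Finsupp.add_apply, Finsupp.single_eq_same, Finsupp.single_eq_of_ne hc.symm, zero_add]
  have hDother : ∀ v, v ≠ c₁ → v ≠ c₂ → Dinf v = 0 := by
    intro v hv1 hv2
    rw [hDinf, Finsupp.add_apply, Finsupp.single_eq_of_ne hv1, Finsupp.single_eq_of_ne hv2,
      add_zero]
  have hD0 : 0 ≤ Dinf := by
    intro v
    by_cases hv1 : v = c₁
    · subst hv1; rw [hDc₁]; simp
    · by_cases hv2 : v = c₂
      · subst hv2; rw [hDc₂]; simp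
      · rw [hDother v hv1 hv2]; simp
  have hdegD : Divisor.degree Dinf = (p : ℤ) + 1 := by
    rw [hDinf, map_add, Divisor.degree_single, Divisor.degree_single, hdeg, hdeg]
    push_cast; ring
  have hdegH : Divisor.degree H = (n : ℤ) := by
    rw [hH, Divisor.degree_single, hdeg]
    push_cast; ring
  have hDpos : 0 < Divisor.degree Dinf := by
    rw [hdegD]; positivity
  have hJmem : J ∈ riemannRochSpace Dinf := by
    rw [mem_riemannRochSpace_iff]
    intro v
    right
    by_cases hv1 : v = c₁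
    · subst hv1; rw [hDc₁, h₁]
    · by_cases hv2 : v = c₂
      · subst hv2; rw [hDc₂, h₂]
      · rw [hDother v hv1 hv2]
        by_contra hlt
        rcases hpoles v (by omega) with h | h
        · exact hv1 h
        · exact hv2 h
  have hHle : 2 • H ≤ Dinf := by
    intro v
    rw [Finsupp.smul_apply, hH]
    by_cases hv2 : v = c₂
    · subst hv2
      rw [Finsupp.single_eq_same, hDc₂, hpn]
      push_cast
      rw [nsmul_eq_mul]
      push_cast
      omega
    · rw [Finsupp.single_eq_of_ne hv2, smul_zero]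
      exact hD0 v
  have hSD : ∀ x ∈ S, Dinf x = 0 := by
    intro x hx
    have hpos := (hmemS x).1 hx
    refine hDother x ?_ ?_
    · rintro rfl; rw [h₁] at hpos; omega
    · rintro rfl; rw [h₂] at hpos; omega
  obtain ⟨n0, s, hs⟩ := H38.exists_uniformizers_regular B Dinf hD0 hDpos S hSD
  -- local data
  have hloc : ∀ x ∈ S, 8 ∣ x.ord J ∧ θ (s x) ≠ 0 ∧ 4 * x.ord (θ (s x)) ≤ -x.ord J := by
    intro x hx
    have hpos := (hmemS x).1 hx
    exact local_data x p hp J Jp z δ hJ0 hJp0 θ hθJ hdecJ hz8 hδ hAS (hunit x hpos) (hhol x hpos)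
      (s x) (hs x hx).2
  set e : Place k F → ℕ := fun x => (x.ord J).toNat with he
  set ε : Place k F → ℕ := fun x => e x / 4 with hε
  have hex : ∀ x ∈ S, x.ord J = (e x : ℤ) := by
    intro x hx
    have hpos := (hmemS x).1 hx
    rw [he]
    exact (Int.toNat_of_nonneg hpos.le).symm
  have h8 : ∀ x ∈ S, ∃ c : ℕ, e x = 8 * c := by
    intro x hx
    obtain ⟨⟨c, hc8⟩, -, -⟩ := hloc x hx
    have h1 := hex x hx
    have hpos := (hmemS x).1 hx
    refine ⟨c.toNat, ?_⟩
    have hc0 : 0 ≤ c := by omega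
    have : ((e x : ℕ) : ℤ) = ((8 * c.toNat : ℕ) : ℤ) := by
      push_cast
      rw [Int.toNat_of_nonneg hc0, ← h1, hc8]
    exact_mod_cast this
  have key := H38.sum_eps_le B hk J θ hθJ hJ0 Dinf H hD0 hDpos hJmem hHle S hSD s n0
    (fun x hx => (hs x hx).1) (fun x hx => (hs x hx).2) e ε hex ?_ ?_ ?_ ?_
  · -- conclusion
    have h4 : ∑ x ∈ S, (e x : ℤ) = 4 * ∑ x ∈ S, (ε x : ℤ) := by
      rw [Finset.mul_sum]
      refine Finset.sum_congr rfl fun x hx => ?_
      obtain ⟨c, hc8⟩ := h8 x hx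
      rw [hε]
      simp only
      rw [hc8]
      have : 8 * c / 4 = 2 * c := by omega
      rw [this]
      push_cast; ring
    have hsum : ∑ x ∈ S, (e x : ℤ) = (p : ℤ) + 1 := by
      have hT : E.support ⊆ E.support := subset_rfl
      have h1 := degree_eq_sum_of_deg_one hdeg E E.support hT
      rw [hE0] at h1
      rw [← Finset.sum_filter_add_sum_filter_not E.support (fun v => 0 < v.ord J)] at h1
      have hN : E.support.filter (fun v => ¬ 0 < v.ord J) = {c₁, c₂} := by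
        ext v
        rw [Finset.mem_filter, Finsupp.mem_support_iff, hE v, Finset.mem_insert,
          Finset.mem_singleton]
        constructor
        · rintro ⟨hne, hnp⟩
          exact hpoles v (by omega)
        · rintro (rfl | rfl)
          · rw [h₁]; omega
          · rw [h₂]; omega
      rw [hN, Finset.sum_pair hc, hE c₁, hE c₂, h₁, h₂] at h1
      have h2 : ∑ x ∈ S, (e x : ℤ) = ∑ v ∈ E.support.filter (fun v => 0 < v.ord J), E v := by
        refine Finset.sum_congr rfl fun x hx => ?_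
        rw [hE x, hex x hx]
      rw [h2]
      linarith
    rw [hsum] at h4
    linarith
  · -- hε
    intro x hx _
    obtain ⟨⟨c, hc8⟩, hne, hle⟩ := hloc x hx
    refine ⟨hne, ?_⟩
    obtain ⟨c', hc'⟩ := h8 x hx
    have h1 := hex x hx
    have : (ε x : ℤ) = 2 * c' := by
      rw [hε]
      simp only
      rw [hc']
      have : 8 * c' / 4 = 2 * c' := by omega
      rw [this]
      push_cast; ring
    rw [this]
    rw [h1, hc'] at hle
    push_cast at hle
    omega
  · -- heven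
    intro x hx
    obtain ⟨c', hc'⟩ := h8 x hx
    refine ⟨⟨4 * c', by rw [hc']; ring⟩, ?_⟩
    rw [hε]
    simp only
    rw [hc']
    exact ⟨c', by omega⟩
  · -- hsum
    have hT : E.support ⊆ E.support := subset_rfl
    have h1 := degree_eq_sum_of_deg_one hdeg E E.support hT
    rw [hE0] at h1
    rw [← Finset.sum_filter_add_sum_filter_not E.support (fun v => 0 < v.ord J)] at h1
    have hN : E.support.filter (fun v => ¬ 0 < v.ord J) = {c₁, c₂} := by
      ext v
      rw [Finset.mem_filter, Finsupp.mem_support_iff, hE v, Finset.mem_insert,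
        Finset.mem_singleton]
      constructor
      · rintro ⟨hne, hnp⟩
        exact hpoles v (by omega)
      · rintro (rfl | rfl)
        · rw [h₁]; omega
        · rw [h₂]; omega
    rw [hN, Finset.sum_pair hc, hE c₁, hE c₂, h₁, h₂] at h1
    have h2 : ∑ x ∈ S, (e x : ℤ) = ∑ v ∈ E.support.filter (fun v => 0 < v.ord J), E v := by
      refine Finset.sum_congr rfl fun x hx => ?_
      rw [hE x, hex x hx]
    rw [h2, hdegD]
    linarith
  · -- hHdeg
    rw [hdegH, hdegD, hpn]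
    push_cast; ring

end Global

end Fermat.Agent.S16.H60
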