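import Mathlib
import Fermat.Agent.S16.H76_U2RelQ
import Fermat.Agent.S16.H12_DeltaFinal
import Fermat.Agent.S16.H36_DeltaBridge
import Fermat.Agent.S24.H27_PlaceOfValuation
import Fermat.Agent.S16.H60_U2AltCore

/-!
# S16, case (U,2), `p ≡ 3 mod 4`: the S18-free route, `q`-series layer (helper60)

* `sigmaL_sq_add`, `deltaL_sq_add` : the Artin–Schreier relations `S² + S = Δ`,
  `δ² + δ = 1/J + 1/J_p` in `k((q))`, characteristic two;
* `derivRestrict` : restriction of a derivation to a stable subfield;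
* `cuspPlace` : the place of a function field `F ↪ k((q))` given by the `q`-order;
* `u2_rel_qseries_alt` : drop-in replacement of `H76.u2_rel_qseries` in which the cover-side
  hypotheses (a place of a cover with `J = μ¹²/(μ³+1)³`, ...) are replaced by global data of
  `F` itself: `RR.H76.FFBase k F`, all places of degree one, the Atkin–Lehner involution, the degree
  `p + 1` of the pole divisor of `J`, `ord_x J_p = ord_x J` at the zeros of `J`, and the genus
  bound `8 g < p + 1`.
-/

set_option autoImplicit false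

namespace Fermat.Agent.S16.H60

open PowerSeries ModularCurve AlgebraicCurve Fermat.Agent.S28 Fermat.Agent.S28.H39
open Fermat.Agent.RR

/-! ### The Artin–Schreier relations -/

section AS

variable (k : Type*) [Field k] [CharP k 2]

theorem deltaZ_eq_deltaPoly : H59.deltaZ = H12.deltaPoly (H12.sigmaSeries 1) := by
  apply H59.map_int_injective
  rw [← H59.qExpansion_discriminant_eq_map, H12.qExpansion_discriminant_eq]

/-- `S² + S = Δ` in `k((q))`, `S = ∑ σ(n) q^n`. -/
theorem sigmaL_sq_add : H76.sigmaL k ^ 2 + H76.sigmaL k = DeltaS k := by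
  rw [← H36.ofPowerSeries_map_deltaZ k, deltaZ_eq_deltaPoly,
    H12.map_deltaPoly_sigmaSeries_of_charP_two' k, map_add, map_pow, add_comm]
  rfl

variable (p : ℕ) [NeZero p]

/-- `δ² + δ = 1/J + 1/J_p` in `k((q))`. -/
theorem deltaL_sq_add (hp : Odd p) :
    H76.deltaL k p ^ 2 + H76.deltaL k p = (jqModC k)⁻¹ + (jqNModC k p)⁻¹ := by
  have := H76.charP_laurent k
  have h2 : (2 : LaurentSeries k) = 0 := H76.two_eq_zero_of_charP _
  rw [H76.deltaL_eq k p hp, add_sq, h2, zero_mul, zero_mul, add_zero, jqNModC, ← map_inv₀,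
    H76.jqModC_eq_DeltaS_inv, inv_inv, ← sigmaL_sq_add, map_add, map_pow]
  ring

end AS

/-! ### Restriction of a derivation to a stable subfield -/

section Restrict

variable {k F Q : Type*} [Field k] [Field F] [Algebra k F] [CommRing Q] [Algebra k Q]

/-- Restriction of a derivation of `Q` to a subfield `F ↪ Q` that it preserves. -/
noncomputable def derivRestrict (ι : F →ₐ[k] Q) (hι : Function.Injective ι) (D : Derivation k Q Q)
    (h : ∀ y : F, ∃ y' : F, ι y' = D (ι y)) : Derivation k F F where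
  toFun y := Classical.choose (h y)
  map_add' a b := by
    apply hι
    rw [Classical.choose_spec (h (a + b)), map_add, map_add, map_add,
      Classical.choose_spec (h a), Classical.choose_spec (h b)]
  map_smul' c a := by
    apply hι
    rw [Classical.choose_spec (h (c • a)), RingHom.id_apply, map_smul, Derivation.map_smul,
      map_smul, Classical.choose_spec (h a)]
  map_one_eq_zero' := by
    apply hι
    show ι (Classical.choose (h 1)) = ι 0
    rw [Classical.choose_spec (h 1), map_one, map_zero, Derivation.map_one_eq_zero]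
  leibniz' a b := by
    apply hι
    show ι (Classical.choose (h (a * b))) =
      ι (a • Classical.choose (h b) + b • Classical.choose (h a))
    rw [Classical.choose_spec (h (a * b)), map_add, smul_eq_mul, smul_eq_mul,
      map_mul ι a (Classical.choose (h b)), map_mul ι b (Classical.choose (h a)),
      Classical.choose_spec (h a), Classical.choose_spec (h b), map_mul ι a b,
      Derivation.leibniz, smul_eq_mul, smul_eq_mul]

theorem derivRestrict_spec (ι : F →ₐ[k] Q) (hι : Function.Injective ι) (D : Derivation k Q Q)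
    (h : ∀ y : F, ∃ y' : F, ι y' = D (ι y)) (y : F) :
    ι (derivRestrict ι hι D h y) = D (ι y) :=
  Classical.choose_spec (h y)

end Restrict

/-! ### The place given by the `q`-order -/

section Cusp

variable {k F : Type*} [Field k] [Field F] [Algebra k F] (ι : F →ₐ[k] LaurentSeries k)

/-- `f ↦ ord_q (ι f)` is an order function on `F` as soon as some element has `q`-order `≠ 0`. -/
theorem isOrdFunction_order (hnt : ∃ f : F, f ≠ 0 ∧ (ι f).order ≠ 0) :
    S24.H27.IsOrdFunction k (fun f : F => (ι f).order) where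
  map_mul f g hf hg := by
    show (ι (f * g)).order = (ι f).order + (ι g).order
    rw [map_mul]
    exact HahnSeries.order_mul ((map_ne_zero ι).mpr hf) ((map_ne_zero ι).mpr hg)
  map_add f g _ _ hfg := by
    show min (ι f).order (ι g).order ≤ (ι (f + g)).order
    rw [map_add]
    refine HahnSeries.min_order_le_order_add ?_
    rw [← map_add]
    exact (map_ne_zero ι).mpr hfg
  map_algebraMap a _ := by
    show (ι (algebraMap k F a)).order = 0
    rw [AlgHom.commutes, algebraMap_eq_C, HahnSeries.order_C]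
  nontrivial := hnt

/-- The place of `F` at the cusp `∞` of a `q`-expansion embedding. -/
noncomputable def cuspPlace (hnt : ∃ f : F, f ≠ 0 ∧ (ι f).order ≠ 0) : Place k F :=
  (isOrdFunction_order ι hnt).place

theorem ord_cuspPlace (hnt : ∃ f : F, f ≠ 0 ∧ (ι f).order ≠ 0)
    (h1 : ∃ t : F, t ≠ 0 ∧ (ι t).order = 1) {f : F} (hf : f ≠ 0) :
    (cuspPlace ι hnt).ord f = (ι f).order :=
  (isOrdFunction_order ι hnt).ord_place_eq h1 hf

end Cusp

/-! ### The poles of `J` -/

section Poles

variable {k F : Type*} [Field k] [Field F] [Algebra k F]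

/-- If the pole divisor of `J` has degree `p + 1` and two places are poles of orders `1` and `p`,
there is no other pole. -/
theorem eq_or_eq_of_ord_neg (B : H76.FFBase k F) (hdeg : ∀ v : Place k F, v.deg = 1) (J : F)
    (hJ0 : J ≠ 0) (p : ℕ) (hp0 : 0 < p)
    (hdegJ : ∀ D : Divisor k F, (∀ v, D v = max (-v.ord J) 0) → Divisor.degree D = (p : ℤ) + 1)
    (c₁ c₂ : Place k F) (hc : c₁ ≠ c₂) (h₁ : c₁.ord J = -1) (h₂ : c₂.ord J = -(p : ℤ))
    (v : Place k F) (hv : v.ord J < 0) : v = c₁ ∨ v = c₂ := by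
  classical
  by_contra hne
  rw [not_or] at hne
  obtain ⟨hv1, hv2⟩ := hne
  have hfin : (Function.support fun w : Place k F => max (-w.ord J) 0).Finite := by
    refine (B.finOrd J hJ0).subset ?_
    intro w hw
    simp only [Function.mem_support, ne_eq] at hw
    simp only [Set.mem_ofPred_eq]
    intro h0
    apply hw
    rw [h0]; simp
  set D : Divisor k F := Finsupp.ofSupportFinite (fun w => max (-w.ord J) 0) hfin with hD
  have hDapp : ∀ w, D w = max (-w.ord J) 0 := fun w => rfl
  have h1 := hdegJ D hDapp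
  rw [degree_eq_sum_of_deg_one hdeg D D.support subset_rfl] at h1
  have hsub : ({c₁, c₂, v} : Finset (Place k F)) ⊆ D.support := by
    intro w hw
    rw [Finset.mem_insert, Finset.mem_insert, Finset.mem_singleton] at hw
    rw [Finsupp.mem_support_iff, hDapp]
    rcases hw with rfl | rfl | rfl
    · rw [h₁]; simp
    · rw [h₂, neg_neg]
      have : (0 : ℤ) < p := by exact_mod_cast hp0
      rw [max_eq_left this.le]
      omega
    · intro h0
      have := le_max_left (-w.ord J) 0
      rw [h0] at this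
      omega
  have hle := Finset.sum_le_sum_of_subset_of_nonneg hsub (f := fun w => D w)
    (fun w _ _ => by rw [hDapp]; exact le_max_right _ _)
  have hne12 : c₁ ≠ c₂ := hc
  have hsum3 : ∑ w ∈ ({c₁, c₂, v} : Finset (Place k F)), D w = D c₁ + (D c₂ + D v) := by
    rw [Finset.sum_insert, Finset.sum_insert, Finset.sum_singleton]
    · rw [Finset.mem_singleton]; exact fun h => hv2 h.symm
    · rw [Finset.mem_insert, Finset.mem_singleton]
      rintro (h | h)
      · exact hc h
      · exact hv1 h.symm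
  rw [hsum3, hDapp c₁, hDapp c₂, hDapp v, h₁, h₂] at hle
  have e1 : max (- -(1 : ℤ)) 0 = 1 := by simp
  have e2 : max (- -(p : ℤ)) 0 = p := by
    rw [neg_neg]; exact max_eq_left (Int.natCast_nonneg p)
  have e3 : 1 ≤ max (-v.ord J) 0 := le_trans (by omega) (le_max_left _ _)
  rw [e1, e2] at hle
  omega

end Poles

/-! ### The main theorem -/

section Main

open H76

/-- **(U,2; `p ≡ 3 mod 4`), S18-free form.**  Same `q`-series binders as `H76.u2_rel_qseries`
(`F ↪ k((q))` with `J ↦ j`, `Jp ↦ j(q^p)`, `F = F² + J F²`, the monic relation `hrel` for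
`δ = ∑ σ'(n) q^n` over `k[Δ]`); the cover-side hypotheses are replaced by global data of `F`:
the RR-bank bundle `B`, all places of degree one, `k = k²`, the Atkin–Lehner involution `W`,
the degree `p + 1` of the pole divisor of `J`, `ord_x Jp = ord_x J` at the zeros of `J`, and the
genus bound `8 g < p + 1`. -/
theorem u2_rel_qseries_alt (k : Type*) [Field k] [CharP k 2] (hk : ∀ c : k, ∃ e : k, e ^ 2 = c)
    (p : ℕ) [NeZero p] (hp : p % 4 = 3)
    {F : Type*} [Field F] [Algebra k F]
    (B : RR.H76.FFBase k F) (hdeg : ∀ v : Place k F, v.deg = 1)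
    (ιQ : F →ₐ[k] LaurentSeries k) (J Jp : F)
    (hJ : ιQ J = jqModC k) (hJp : ιQ Jp = jqNModC k p)
    (hdec : ∀ y : F, ∃ A B : F, y = A ^ 2 + J * B ^ 2)
    (n : ℕ) (hn : 0 < n) (P : ℕ → Polynomial k) (hP : ∀ m, m < n → 6 * (P m).natDegree ≤ n - m)
    (hrel : deltaPS k p ^ n +
      ∑ m ∈ Finset.range n, Polynomial.aeval (DeltaPS k) (P m) * deltaPS k p ^ m = 0)
    (W : F ≃ₐ[k] F) (hWJp : W Jp = J)
    (hdegJ : ∀ D : Divisor k F, (∀ v, D v = max (-v.ord J) 0) → Divisor.degree D = (p : ℤ) + 1)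
    (hunit : ∀ x : Place k F, 0 < x.ord J → x.ord Jp = x.ord J)
    (hg : 8 * B.gR < (p : ℤ) + 1) : False := by
  have := charP_laurent k
  have : CharP F 2 := charP_of_injective_algebraMap (algebraMap k F).injective 2
  have hodd : Odd p := by
    rw [Nat.odd_iff]; omega
  have hp0 : 0 < p := by omega
  have hinj : Function.Injective ιQ := (ιQ : F →+* LaurentSeries k).injective
  have hj0 : jqModC k ≠ 0 := by
    rw [jqModC_eq_DeltaS_inv]; exact inv_ne_zero DeltaS_ne_zero
  have hJ0 : J ≠ 0 := by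
    intro h; rw [h, map_zero] at hJ; exact hj0 hJ.symm
  have hJp0 : Jp ≠ 0 := by
    intro h
    rw [h, map_zero, jqNModC] at hJp
    exact hj0 ((map_eq_zero_iff _ (qExpand_injective p)).mp hJp.symm)
  -- the derivation `θ` of `F`
  have hDQJ : thetaZ k ((ιQ : F →+* LaurentSeries k) J) = (ιQ : F →+* LaurentSeries k) J := by
    show thetaZ k (ιQ J) = ιQ J
    rw [hJ, theta_jbar]
  have hstable : ∀ y : F, ∃ y' : F, ιQ y' = (thetaDer (R := k)) (ιQ y) := by
    intro y
    obtain ⟨A, B', hAB⟩ := hdec y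
    refine ⟨J * B' ^ 2, ?_⟩
    have h := deriv_sq_add_mul_sq (thetaZ k) (ιQ : F →+* LaurentSeries k) J hDQJ A B'
    rw [hAB, thetaDer_apply]
    exact h.symm
  set θ : Derivation k F F := derivRestrict ιQ hinj thetaDer hstable with hθ
  have hθspec : ∀ y : F, ιQ (θ y) = thetaOp (ιQ y) := by
    intro y
    rw [hθ, derivRestrict_spec, thetaDer_apply]
  have hθJ : θ J = J := by
    apply hinj
    rw [hθspec, hJ]
    exact theta_jbar k
  -- `z` and `δ` in `F`
  have hz8 : zq k p ^ 8 * ιQ Jp = ιQ J ^ p := by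
    rw [hJ, hJp, jqNModC, zq_pow_eight]
  have hz8' : zq k p ^ 8 = (ιQ : F →+* LaurentSeries k) (J ^ p / Jp) := by
    show zq k p ^ 8 = ιQ (J ^ p / Jp)
    rw [map_div₀, map_pow, ← hz8, mul_div_assoc, div_self ((map_ne_zero ιQ).mpr hJp0), mul_one]
  obtain ⟨z, hz⟩ := mem_range_of_pow_eight (ιQ : F →+* LaurentSeries k) (thetaZ k) J hJ0 hDQJ hdec
    (zq k p) ⟨_, hz8'.symm⟩
  have hz' : ιQ z = zq k p := hz
  have hzF8 : z ^ 8 * Jp = J ^ p := by
    apply hinj
    rw [map_mul, map_pow, map_pow, hz', hz8]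
  have hz0 : z ≠ 0 := by
    rintro rfl
    rw [zero_pow (by norm_num), zero_mul] at hzF8
    exact pow_ne_zero _ hJ0 hzF8.symm
  set δ : F := θ z / z with hδdef
  have hδ : θ z = δ * z := by
    rw [hδdef, div_mul_cancel₀ _ hz0]
  have hιδ : ιQ δ = deltaL k p := by
    have h1 : ιQ (θ z) = deltaL k p * zq k p := by
      rw [hθspec, hz']
      exact theta_zq k p hodd
    rw [hδdef, map_div₀, h1, hz', mul_div_assoc, div_self (zq_ne_zero k p), mul_one]
  have hAS : δ ^ 2 + δ = J⁻¹ + Jp⁻¹ := by
    apply hinj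
    rw [map_add, map_pow, map_add, map_inv₀, map_inv₀, hιδ, hJ, hJp]
    exact deltaL_sq_add k p hodd
  -- the relation for `δ` in `F`
  have hrelL : deltaL k p ^ n +
      ∑ m ∈ Finset.range n, Polynomial.aeval (ιQ J)⁻¹ (P m) * deltaL k p ^ m = 0 := by
    have hterm : ∀ m : ℕ, HahnSeries.ofPowerSeries ℤ k
        (Polynomial.aeval (DeltaPS k) (P m) * deltaPS k p ^ m) =
        Polynomial.aeval (ιQ J)⁻¹ (P m) * deltaL k p ^ m := by
      intro m
      rw [map_mul, map_pow, ofPowerSeries_deltaPS, Polynomial.aeval_def, Polynomial.hom_eval₂,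
        ofPowerSeries_DeltaPS, hJ, jqModC_eq_DeltaS_inv, inv_inv, Polynomial.aeval_def]
      rfl
    have h := congrArg (HahnSeries.ofPowerSeries ℤ k) hrel
    rw [map_zero, map_add, map_pow, map_sum, ofPowerSeries_deltaPS,
      Finset.sum_congr rfl (fun m _ => hterm m)] at h
    exact h
  have hrelF : δ ^ n + ∑ m ∈ Finset.range n,
      (P m).eval₂ (algebraMap k F) J⁻¹ * δ ^ m = 0 := by
    apply hinj
    rw [map_zero, ← hrelL, map_add, map_pow, map_sum, hιδ]
    congr 1
    refine Finset.sum_congr rfl fun m _ => ?_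
    rw [map_mul, map_pow, hιδ]
    congr 1
    rw [← Polynomial.aeval_def, ← Polynomial.aeval_algHom_apply, map_inv₀]
  have hhol : ∀ x : Place k F, 0 < x.ord J → x.adicValuation (δ ^ 6 * J) ≤ 1 := by
    intro x hx
    refine val_pow_six_mul_le_one (algebraMap k F) x.adicValuation
      (fun c => x.adicValuation_algebraMap_le_one c) J δ hJ0 ?_ n hn P hP hrelF
    rw [x.adicValuation_le_one_iff]
    right
    exact hx.le
  -- the two cusps
  have hordJ : (ιQ J).order = -1 := by rw [hJ]; exact order_jqModC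
  have hordJp : (ιQ Jp).order = -(p : ℤ) := by
    rw [hJp, jqNModC, order_qExpand, order_jqModC]; ring
  have hnt : ∃ f : F, f ≠ 0 ∧ (ιQ f).order ≠ 0 := ⟨J, hJ0, by rw [hordJ]; omega⟩
  have hJinv : (ιQ J⁻¹).order = 1 := by
    have h1 : (ιQ J⁻¹).order = -(ιQ J).order := (isOrdFunction_order ιQ hnt).map_inv hJ0
    rw [h1, hordJ]; ring
  have h1 : ∃ t : F, t ≠ 0 ∧ (ιQ t).order = 1 := ⟨J⁻¹, inv_ne_zero hJ0, hJinv⟩
  set c₁ : Place k F := cuspPlace ιQ hnt with hc₁
  set c₂ : Place k F := W • c₁ with hc₂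
  have hc₁J : c₁.ord J = -1 := by rw [hc₁, ord_cuspPlace ιQ hnt h1 hJ0, hordJ]
  have hc₂J : c₂.ord J = -(p : ℤ) := by
    rw [hc₂, ← hWJp, Place.ord_smul, hc₁, ord_cuspPlace ιQ hnt h1 hJp0, hordJp]
  have hc : c₁ ≠ c₂ := by
    intro h
    rw [← h, hc₁J] at hc₂J
    have : (p : ℤ) = 1 := by omega
    have : p = 1 := by exact_mod_cast this
    omega
  have hpoles := eq_or_eq_of_ord_neg B hdeg J hJ0 p hp0 hdegJ c₁ c₂ hc hc₁J hc₂J
  have key := u2_alt_core B hk hdeg p hp J Jp z δ hJ0 hJp0 θ hθJ hdec hzF8 hδ hAS hunit hhol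
    c₁ c₂ hc hc₁J hc₂J hpoles
  omega

end Main

end Fermat.Agent.S16.H60
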