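/-
S16, package (QP) (helper63): the two instances of helper92's `TwoGen` for `X₀(N)` over a generic
valued base `(L, A, π : A ↠ k)` with `(N : k) ≠ 0`:

* `twoGenStd`  : `x = j`,   `y = j_N`, `Φ = Φ_N`;
* `twoGenSwap` : `x = j_N`, `y = j`,   `Φ = Φ_N`  (the cusp `0`; Atkin-Lehner swap).

Inputs: S28 `RootsAt` at the primitive triple `(1, 0, N)` (swapped root `Φ_N(j_N, j) = 0`), and the
irreducibility of `Φ_N` over `k(Y)` (helper16's `exists_modPoly_gen`).
-/
import Mathlib
import Fermat.Agent.S16.H63_QPCore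
import Fermat.Agent.S18.H92_IndepK

set_option autoImplicit false
set_option synthInstance.maxHeartbeats 400000

noncomputable section

namespace Fermat.Agent.S16.H63

open ModularCurve Polynomial AlgebraicCurve
open Fermat.Agent.S28 (evalJ RootsAt redModPoly Jconj IsPrimTriple)
open Fermat.Agent.S18.H92 (TwoGen up ev2 ev2_apply)

/-! ### `ev2` versus `evalJ` -/

theorem ev2_map_int {R : Type*} [CommRing R] (x y : LaurentSeries R) (Φ : Polynomial ℤ[X]) :
    ev2 x y (Φ.map (Polynomial.mapRingHom (Int.castRingHom R))) = Φ.eval₂ (evalJ x) y := by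
  rw [ev2_apply, Polynomial.eval₂_map]
  congr 1
  apply Polynomial.ringHom_ext
  · intro a
    simp [evalJ]
  · simp [evalJ]

/-! ### The swapped root -/

section SwapRoot

variable (N : ℕ) [NeZero N]

/-- the modular polynomial datum used by helper92's `stdTwoGen`. -/
abbrev modD : ModularPolynomialData N := Fermat.Agent.S18.H92.modData N

theorem modD_rootsAt (k : Type) [Field k] (ζ : kˣ) (hζ : IsPrimitiveRoot ζ N) :
    RootsAt k N ζ (modD N).Φ :=
  (Fermat.Agent.S18.H16.exists_modPoly_gen N).choose_spec.1 k ζ hζ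

theorem modD_irreducible (K : Type) [Field K] (hNK : ((N : ℕ) : K) ≠ 0) :
    Irreducible (redModPoly K (modD N).Φ) :=
  (Fermat.Agent.S18.H16.exists_modPoly_gen N).choose_spec.2 K hNK

/-- `Φ_N(j_N, j) = 0` over `ℂ`. -/
theorem swap_root_complex :
    (modD N).Φ.eval₂ (evalJ (qExpand ℂ N (jqModC ℂ))) (jqModC ℂ) = 0 := by
  have hN : N ≠ 0 := NeZero.ne N
  have hprim : IsPrimitiveRoot (Complex.exp (2 * Real.pi * Complex.I / N)) N :=
    Complex.isPrimitiveRoot_exp N hN
  obtain ⟨ζ, hζ⟩ : ∃ ζ : ℂˣ, (ζ : ℂ) = Complex.exp (2 * Real.pi * Complex.I / N) :=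
    ⟨Units.mk0 _ (Complex.exp_ne_zero _), rfl⟩
  have hζ' : IsPrimitiveRoot ζ N := by
    rw [← IsPrimitiveRoot.coe_units_iff, hζ]
    exact hprim
  have h := modD_rootsAt N ℂ ζ hζ' 1 0 N
    ⟨by simp, Nat.pos_of_ne_zero hN, by simp⟩ ⟨by simp⟩
  have h1 : Jconj ℂ (ζ ^ (1 * 0)) (1 * 1) = jqModC ℂ := by
    have h2 : (ζ ^ (1 * 0) : ℂˣ) = 1 := by simp
    rw [h2, Fermat.Agent.S28.Jconj_one]
    exact qExpand_one_apply _
  rw [h1] at h
  exact h

/-- `Φ_N(j_N, j) = 0` over `ℤ`, hence over every commutative ring. -/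
theorem swap_root (R : Type*) [CommRing R] :
    (modD N).Φ.eval₂ (evalJ (qExpand R N (jqModC R))) (jqModC R) = 0 := by
  have hZ : (modD N).Φ.eval₂ (evalJ (qExpand ℤ N (jqModC ℤ))) (jqModC ℤ) = 0 := by
    apply Fermat.Agent.S28.H16.coeffMap_injective (f := Int.castRingHom ℂ)
      (RingHom.injective_int _)
    rw [Fermat.Agent.S28.H16.coeffMap_eval₂_evalJ, coeffMap_qExpand, coeffMap_jqModC, map_zero]
    exact swap_root_complex N
  have := congrArg (coeffMap (Int.castRingHom R)) hZ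
  rwa [Fermat.Agent.S28.H16.coeffMap_eval₂_evalJ, coeffMap_qExpand, coeffMap_jqModC,
    map_zero] at this

theorem swap_root' (R : Type*) [CommRing R] :
    (modD N).Φ.eval₂ (evalJ (jqNModC R N)) (jqModC R) = 0 := swap_root N R

theorem ev2_swap_eq_zero (R : Type*) [CommRing R] :
    ev2 (jqNModC R N) (jqModC R)
      ((modD N).Φ.map (Polynomial.mapRingHom (Int.castRingHom R))) = 0 := by
  rw [ev2_map_int]
  exact swap_root' N R

end SwapRoot

/-! ### The swapped independence -/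

section SwapIndep

variable (N : ℕ) [NeZero N] (K : Type) [Field K]

theorem aeval_jqNModC_injective :
    Function.Injective (Polynomial.aeval (R := K) (jqNModC K N)) := by
  have h : Transcendental K (Jconj K 1 N) := Fermat.Agent.S28.H39.transcendental_Jconj 1 N
  rw [Fermat.Agent.S28.Jconj_one] at h
  exact transcendental_iff_injective.1 h

/-- `K(Y) → K((q))`, `Y ↦ j_N`. -/
def iotaJN : RatFunc K →+* LaurentSeries K :=
  Fermat.Agent.S28.H16.ratFuncToLaurent (jqNModC K N) (aeval_jqNModC_injective N K)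

theorem eval_map_iotaJN (Ψ : Polynomial ℤ[X]) (y : LaurentSeries K) :
    ((redModPoly K Ψ).map (iotaJN N K)).eval y = Ψ.eval₂ (evalJ (jqNModC K N)) y :=
  Fermat.Agent.S28.H16.eval_redModPoly_map (jqNModC K N) y (aeval_jqNModC_injective N K) Ψ

/-- the powers `1, j, …, j^(ψ(N)-1)` are linearly independent over `K[j_N]` inside `K((q))`. -/
theorem indepSwap (hNK : ((N : ℕ) : K) ≠ 0) :
    ∀ P : K[X][X], P.degree < dedekindPsi N → ev2 (jqNModC K N) (jqModC K) P = 0 → P = 0 := by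
  intro P hdeg h
  by_contra hP
  have hinj : Function.Injective (algebraMap K[X] (RatFunc K)) :=
    IsFractionRing.injective K[X] (RatFunc K)
  set P' : Polynomial (RatFunc K) := P.map (algebraMap K[X] (RatFunc K)) with hP'def
  have hP' : P' ≠ 0 := (Polynomial.map_ne_zero_iff hinj).mpr hP
  have hΦ := (modD N).monic
  have hirr := modD_irreducible N K hNK
  have hdegP : P'.degree < (redModPoly K (modD N).Φ).degree := by
    rw [show (redModPoly K (modD N).Φ).degree = (modD N).Φ.degree from hΦ.degree_map _,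
      Polynomial.degree_eq_natDegree hΦ.ne_zero, (modD N).natDegree_eq,
      Polynomial.degree_map_eq_of_injective hinj]
    exact hdeg
  have hnd : ¬ redModPoly K (modD N).Φ ∣ P' := Polynomial.not_dvd_of_degree_lt hP' hdegP
  obtain ⟨a, b, hab⟩ := (hirr.coprime_iff_not_dvd.2 hnd)
  have := congrArg
    (fun Q : Polynomial (RatFunc K) => (Q.map (iotaJN N K)).eval (jqModC K)) hab
  simp only [Polynomial.map_add, Polynomial.map_mul, Polynomial.eval_add, Polynomial.eval_mul,
    Polynomial.map_one, Polynomial.eval_one] at this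
  have h0 : (P'.map (iotaJN N K)).eval (jqModC K) = 0 := by
    rw [hP'def, Polynomial.map_map, Polynomial.eval_map]
    rw [ev2_apply] at h
    rw [← h]
    congr 1
    apply RingHom.ext
    intro p
    show iotaJN N K (algebraMap K[X] (RatFunc K) p) = Polynomial.aeval (jqNModC K N) p
    exact Fermat.Agent.S28.H16.ratFuncToLaurent_algebraMap _ _ p
  rw [eval_map_iotaJN, swap_root' N K, h0, mul_zero, mul_zero, add_zero] at this
  exact zero_ne_one this

end SwapIndep

/-! ### The two instances -/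

section Inst

variable {L : Type*} [Field L] (A : ValuationSubring L) {k : Type} [Field k] (π : A →+* k)
  (hπ : Function.Surjective π) (N : ℕ) [NeZero N] (hNk : ((N : ℕ) : k) ≠ 0)

/-- The standard two-generator datum `(j, j_N)` of `X₀(N)` over `(A, π)`. -/
def twoGenStd : TwoGen A π where
  x := jqModC A
  y := jqNModC A N
  n := dedekindPsi N
  Φ := (modD N).Φ.map (Polynomial.mapRingHom (Int.castRingHom A))
  monic := (modD N).monic.map _
  natDegree_eq := by rw [(modD N).monic.natDegree_map, (modD N).natDegree_eq]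
  root := Fermat.Agent.S18.H92.ev2_map_eq_zero N (modD N) A
  indep := by
    intro P hdeg h
    rw [coeffMap_jqModC, coeffMap_jqNModC] at h
    exact Fermat.Agent.S18.H92.indepK N k hNk P hdeg h
  surj := hπ

/-- The swapped two-generator datum `(j_N, j)` of `X₀(N)` over `(A, π)`. -/
def twoGenSwap : TwoGen A π where
  x := jqNModC A N
  y := jqModC A
  n := dedekindPsi N
  Φ := (modD N).Φ.map (Polynomial.mapRingHom (Int.castRingHom A))
  monic := (modD N).monic.map _
  natDegree_eq := by rw [(modD N).monic.natDegree_map, (modD N).natDegree_eq]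
  root := ev2_swap_eq_zero N A
  indep := by
    intro P hdeg h
    rw [coeffMap_jqModC, coeffMap_jqNModC] at h
    exact indepSwap N k hNk P hdeg h
  surj := hπ

theorem twoGenStd_xL : (twoGenStd A π hπ N hNk).xL = jqModC L := coeffMap_jqModC _

theorem twoGenStd_yL : (twoGenStd A π hπ N hNk).yL = jqNModC L N := coeffMap_jqNModC _ _

theorem twoGenSwap_x : (twoGenSwap A π hπ N hNk).x = (twoGenStd A π hπ N hNk).y := rfl

theorem twoGenSwap_y : (twoGenSwap A π hπ N hNk).y = (twoGenStd A π hπ N hNk).x := rfl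

theorem twoGenSwap_Φ : (twoGenSwap A π hπ N hNk).Φ = (twoGenStd A π hπ N hNk).Φ := rfl

include hπ hNk in
/-- **The swap theorem for `X₀(N)`** (`q`-expansion principle at the cusp `0`): if
`f = P_a(j,j_N)/P_b(j,j_N)` has the `A`-integral expansion `s ≡ 0 mod ϖ^e` and
`P_a(j_N,j)/P_b(j_N,j)` has the `A`-integral expansion `z`, then `z ≡ 0 mod ϖ^e`. -/
theorem forall_pow_dvd_coeff_X0 {ϖ : A} (hϖ0 : ϖ ≠ 0) (hker : ∀ a, π a = 0 ↔ ϖ ∣ a) (e : ℕ)
    (Pa Pb : L[X][X]) (s z : LaurentSeries A) (hs : ∀ n, ϖ ^ e ∣ s.coeff n)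
    (h1 : ev2 (jqModC L) (jqNModC L N) Pa = up A s * ev2 (jqModC L) (jqNModC L N) Pb)
    (h1b : ev2 (jqModC L) (jqNModC L N) Pb ≠ 0)
    (h2 : ev2 (jqNModC L N) (jqModC L) Pa = up A z * ev2 (jqNModC L N) (jqModC L) Pb) :
    ∀ n, ϖ ^ e ∣ z.coeff n := by
  have hx := twoGenStd_xL A π hπ N hNk
  have hy := twoGenStd_yL A π hπ N hNk
  refine forall_pow_dvd_coeff_swap' (twoGenStd A π hπ N hNk) (twoGenSwap A π hπ N hNk)
    rfl rfl rfl hϖ0 hker e Pa Pb s z hs ?_ ?_ ?_
  · rw [hx, hy]; exact h1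
  · rw [hx, hy]; exact h1b
  · rw [hx, hy]; exact h2

include hπ hNk in
/-- **Constant test for `X₀(N)`**: if `f = P_a(j,j_N)/P_b(j,j_N)` has the `A`-integral expansion
`s ≡ c₁ mod ϖ^e` (`c₁ ∈ A` a constant) and `P_a(j_N,j)/P_b(j_N,j)` has the `A`-integral expansion
`z`, then `z ≡ c₁ mod ϖ^e`. -/
theorem forall_pow_dvd_coeff_sub_X0 {ϖ : A} (hϖ0 : ϖ ≠ 0) (hker : ∀ a, π a = 0 ↔ ϖ ∣ a) (e : ℕ)
    (Pa Pb : L[X][X]) (s z : LaurentSeries A) (c₁ : A)
    (hs : ∀ n, ϖ ^ e ∣ (s - HahnSeries.C c₁).coeff n)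
    (h1 : ev2 (jqModC L) (jqNModC L N) Pa = up A s * ev2 (jqModC L) (jqNModC L N) Pb)
    (h1b : ev2 (jqModC L) (jqNModC L N) Pb ≠ 0)
    (h2 : ev2 (jqNModC L N) (jqModC L) Pa = up A z * ev2 (jqNModC L N) (jqModC L) Pb) :
    ∀ n, ϖ ^ e ∣ (z - HahnSeries.C c₁).coeff n := by
  have hx := twoGenStd_xL A π hπ N hNk
  have hy := twoGenStd_yL A π hπ N hNk
  refine forall_pow_dvd_coeff_sub_swap (twoGenStd A π hπ N hNk) (twoGenSwap A π hπ N hNk)
    rfl rfl rfl hϖ0 hker e Pa Pb s z c₁ hs ?_ ?_ ?_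
  · rw [hx, hy]; exact h1
  · rw [hx, hy]; exact h1b
  · rw [hx, hy]; exact h2

end Inst

/-! ### Polynomial pairs for elements of the function field -/

section Pairs

variable (N : ℕ) [NeZero N] (K : Type) [Field K] (hNK : ((N : ℕ) : K) ≠ 0)

include hNK in
/-- every element of `K·F_N ⊆ K((q))` is `P_a(j,j_N)/P_b(j,j_N)`. -/
theorem exists_pair_of_mem_fullC {f : LaurentSeries K} (hf : f ∈ modularFunctionFieldFullC K N) :
    ∃ Pa Pb : K[X][X], ev2 (jqModC K) (jqNModC K N) Pb ≠ 0 ∧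
      ev2 (jqModC K) (jqNModC K N) Pa = f * ev2 (jqModC K) (jqNModC K N) Pb := by
  rw [Fermat.Agent.S18.H16.fullC_eq_adjoin_gen N K hNK] at hf
  obtain ⟨r, hr, s, hs, rfl⟩ := IntermediateField.mem_adjoin_iff_div.mp hf
  rw [Fermat.Agent.S18.H92.adjoin_pair_eq_range] at hr hs
  obtain ⟨Pr, hPr⟩ := hr
  obtain ⟨Ps, hPs⟩ := hs
  have hPr' : ev2 (jqModC K) (jqNModC K N) Pr = r := hPr
  have hPs' : ev2 (jqModC K) (jqNModC K N) Ps = s := hPs
  by_cases hs0 : s = 0
  · refine ⟨0, 1, ?_, ?_⟩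
    · rw [map_one]; exact one_ne_zero
    · rw [hs0, div_zero, map_zero, zero_mul]
  · refine ⟨Pr, Ps, by rw [hPs']; exact hs0, ?_⟩
    rw [hPr', hPs', div_mul_cancel₀ _ hs0]

end Pairs

end Fermat.Agent.S16.H63
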