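/-
S16, package (QP) (helper63): `ℤ_(ℓ)` as a valuation subring of `ℚ`, with its residue map to
`ZMod ℓ` whose kernel is `(ℓ)`.  Mathlib only.
-/
import Mathlib

set_option autoImplicit false

noncomputable section

namespace Fermat.Agent.S16.H63

variable (ℓ : ℕ) [hℓ : Fact ℓ.Prime]

/-- `ℤ_(ℓ) = {x ∈ ℚ : |x|_ℓ ≤ 1}` as a valuation subring of `ℚ`. -/
def zl : ValuationSubring ℚ where
  carrier := {x : ℚ | ‖(x : ℚ_[ℓ])‖ ≤ 1}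
  zero_mem' := by simp
  one_mem' := by simp
  add_mem' {x y} hx hy := by
    show ‖((x + y : ℚ) : ℚ_[ℓ])‖ ≤ 1
    rw [Rat.cast_add]
    exact (Padic.nonarchimedean _ _).trans (max_le_iff.2 ⟨hx, hy⟩)
  mul_mem' {x y} hx hy := by
    show ‖((x * y : ℚ) : ℚ_[ℓ])‖ ≤ 1
    rw [Rat.cast_mul]
    rw [norm_mul]
    exact mul_le_one₀ hx (norm_nonneg _) hy
  neg_mem' {x} hx := by
    show ‖((-x : ℚ) : ℚ_[ℓ])‖ ≤ 1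
    rw [Rat.cast_neg, norm_neg]
    exact hx
  mem_or_inv_mem' x := by
    show ‖(x : ℚ_[ℓ])‖ ≤ 1 ∨ ‖((x⁻¹ : ℚ) : ℚ_[ℓ])‖ ≤ 1
    rcases le_total ‖(x : ℚ_[ℓ])‖ 1 with h | h
    · exact Or.inl h
    · right
      rw [Rat.cast_inv, norm_inv]
      exact inv_le_one_of_one_le₀ h

theorem mem_zl {x : ℚ} : x ∈ zl ℓ ↔ ‖(x : ℚ_[ℓ])‖ ≤ 1 := Iff.rfl

theorem intCast_mem_zl (n : ℤ) : (n : ℚ) ∈ zl ℓ := by
  rw [mem_zl]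
  have : ((n : ℚ) : ℚ_[ℓ]) = (n : ℚ_[ℓ]) := by norm_cast
  rw [this]
  exact Padic.norm_int_le_one n

/-- the embedding `ℤ_(ℓ) → ℤ_ℓ`. -/
def zlToPadicInt : zl ℓ →+* ℤ_[ℓ] :=
  ((Rat.castHom ℚ_[ℓ]).comp (zl ℓ).subtype).codRestrict (PadicInt.subring ℓ) fun a => a.2

theorem coe_zlToPadicInt (a : zl ℓ) : ((zlToPadicInt ℓ a : ℤ_[ℓ]) : ℚ_[ℓ]) = ((a : ℚ) : ℚ_[ℓ]) :=
  rfl

/-- the residue map `ℤ_(ℓ) → 𝔽_ℓ`. -/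
def zlRes : zl ℓ →+* ZMod ℓ := (PadicInt.toZMod).comp (zlToPadicInt ℓ)

theorem zlRes_surjective : Function.Surjective (zlRes ℓ) := by
  intro n
  refine ⟨(((n.val : ℕ) : ℤ) : zl ℓ), ?_⟩
  rw [map_intCast]
  simp

theorem zlRes_eq_zero_iff (a : zl ℓ) : zlRes ℓ a = 0 ↔ ((ℓ : ℕ) : zl ℓ) ∣ a := by
  have h1 : zlRes ℓ a = 0 ↔ ‖zlToPadicInt ℓ a‖ < 1 := by
    show PadicInt.toZMod (zlToPadicInt ℓ a) = 0 ↔ _
    rw [← RingHom.mem_ker, PadicInt.ker_toZMod, IsLocalRing.mem_maximalIdeal,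
      PadicInt.mem_nonunits]
  rw [h1]
  constructor
  · intro h
    rw [PadicInt.norm_lt_one_iff_dvd] at h
    obtain ⟨y, hy⟩ := h
    -- `a / ℓ ∈ ℤ_(ℓ)`
    have hℓ0 : ((ℓ : ℕ) : ℚ) ≠ 0 := Nat.cast_ne_zero.2 hℓ.out.ne_zero
    have hℓ0' : ((ℓ : ℕ) : ℚ_[ℓ]) ≠ 0 := Nat.cast_ne_zero.2 hℓ.out.ne_zero
    have hy' : ((a : ℚ) : ℚ_[ℓ]) = (ℓ : ℚ_[ℓ]) * (y : ℚ_[ℓ]) := by
      have := congrArg (fun z : ℤ_[ℓ] => (z : ℚ_[ℓ])) hy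
      simpa [coe_zlToPadicInt] using this
    have hmem : (a : ℚ) / ℓ ∈ zl ℓ := by
      rw [mem_zl, Rat.cast_div, hy', Rat.cast_natCast, mul_div_cancel_left₀ _ hℓ0']
      exact y.2
    refine ⟨⟨(a : ℚ) / ℓ, hmem⟩, ?_⟩
    apply Subtype.ext
    show (a : ℚ) = ((ℓ : ℕ) : ℚ) * ((a : ℚ) / ℓ)
    field_simp
  · rintro ⟨b, rfl⟩
    rw [map_mul, map_natCast]
    exact PadicInt.norm_lt_one_mul (z1 := zlToPadicInt ℓ b) (by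
      rw [PadicInt.norm_p]
      exact inv_lt_one_of_one_lt₀ (by exact_mod_cast hℓ.out.one_lt)) |>.trans_eq' (by
        rw [mul_comm])

theorem natCast_zl_ne_zero : ((ℓ : ℕ) : zl ℓ) ≠ 0 := by
  intro h
  have := congrArg (fun z : zl ℓ => (z : ℚ)) h
  simp at this
  exact hℓ.out.ne_zero this

/-- a rational prime different from `ℓ` is a unit of `ℤ_(ℓ)`. -/
theorem inv_natCast_mem_zl {p : ℕ} (hp : p.Prime) (hpℓ : p ≠ ℓ) : ((p : ℚ))⁻¹ ∈ zl ℓ := by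
  rw [mem_zl, Rat.cast_inv, norm_inv, Rat.cast_natCast]
  have h1 : ‖(p : ℚ_[ℓ])‖ = 1 := by
    rw [Padic.norm_natCast_eq_one_iff]
    exact (Nat.coprime_primes hℓ.out hp).2 (Ne.symm hpℓ)
  rw [h1, inv_one]

/-- divisibility by `ℓ^c` of integers, in `ℤ_(ℓ)` and in `ℤ`. -/
theorem pow_dvd_intCast_iff (c : ℕ) (n : ℤ) :
    ((ℓ : ℕ) : zl ℓ) ^ c ∣ ((n : ℤ) : zl ℓ) ↔ ((ℓ : ℕ) : ℤ) ^ c ∣ n := by
  constructor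
  · rintro ⟨b, hb⟩
    have hb' : (n : ℚ) = (ℓ : ℚ) ^ c * (b : ℚ) := by
      have := congrArg (fun z : zl ℓ => (z : ℚ)) hb
      simpa using this
    have hbn : ‖((b : ℚ) : ℚ_[ℓ])‖ ≤ 1 := b.2
    have h1 : ‖((n : ℤ) : ℚ_[ℓ])‖ ≤ (ℓ : ℝ) ^ (-(c : ℤ)) := by
      have : ((n : ℤ) : ℚ_[ℓ]) = (ℓ : ℚ_[ℓ]) ^ c * ((b : ℚ) : ℚ_[ℓ]) := by
        have h2 := congrArg (fun z : ℚ => (z : ℚ_[ℓ])) hb'
        simpa using h2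
      rw [this, norm_mul, norm_pow, Padic.norm_p, zpow_neg, zpow_natCast, inv_pow]
      exact mul_le_of_le_one_right (by positivity) hbn
    exact (Padic.norm_int_le_pow_iff_dvd n c).1 h1
  · rintro ⟨m, rfl⟩
    exact ⟨((m : ℤ) : zl ℓ), by push_cast; ring⟩

end Fermat.Agent.S16.H63
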