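import Mathlib
import Fermat.Agent.S16.H72_FormFunction
import Fermat.Agent.S16.H14_Fricke
import Fermat.Agent.S18.H92_GaussModel
import Fermat.Prelude.Thm_ModularCurve_coeffMap_qExpand
import Fermat.Prelude.Def_ModularCurve_X0ModL

/-!
# S16 / QP-DICT, the `W`-side : the analytic swap theorem (helper72)

`W = W_N = [[0,-1],[N,0]]` (helper14's `H14.frickeMat N`).

* `IsFormOn.fricke` : `IsFormOn N k F → IsFormOn N k (F ∣[k] W)`;
* `isQSum_ev2` : polynomial expressions in two `q`-series are `q`-sums of the pointwise polynomial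
  expressions;
* **`swap_ratio_C`, `swap_ratio`** : if `F / G = P_a(j, j_N) / P_b(j, j_N)` as `q`-series, then
  `(F ∣ W) / (G ∣ W) = P_a(j_N, j) / P_b(j_N, j)` as `q`-series
  (`j = j(q)`, `j_N = j(q^N)`; the polynomials have coefficients in any subfield `K ⊆ ℂ`).

This is the input `h2` of helper63's `H63.forall_pow_dvd_coeff_swap` (`T.x = j`, `T.y = j_N`).
-/

set_option autoImplicit false

open Complex Filter Function Polynomial
open UpperHalfPlane hiding I
open ModularForm CongruenceSubgroup Matrix.SpecialLinearGroup ModularCurve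
open scoped Real Topology Manifold MatrixGroups ModularForm

noncomputable section

namespace Fermat.Agent.S16.H72

open Fermat.Agent.S24 Fermat.Agent.S24.H81 Fermat.Agent.S24.H4 Fermat.Agent.S24.H17
open Fermat.Agent.S29.H72
open Fermat.Agent.S18.H92 (ev2)

/-! ## the Fricke transform of a form -/

theorem IsFormOn.fricke {N : ℕ} [NeZero N] {k : ℤ} {F : ℍ → ℂ} (hF : IsFormOn N k F) :
    IsFormOn N k (F ∣[k] H14.frickeMat N) where
  mdiff := hF.mdiff.slash k _
  inv g hg := H14.slash_frickeMat_slash N F (fun γ hγ => hF.inv γ hγ) g hg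
  bdd σ := by
    obtain ⟨g', t, b, u, htu, -, -, -, -, hmat⟩ := S23.H85.hermite_GL N σ
    change IsBoundedAtImInfty ((F ∣[k] H14.frickeMat N) ∣[k] (mapGL ℝ σ))
    rw [← SlashAction.slash_mul, H14.frickeMat_eq, mul_assoc, hmat, ← mul_assoc, ← map_mul,
      SlashAction.slash_mul]
    refine IsBoundedAtImInfty.slash k (g := upperTriangularGL t b u htu) ?_
      (hF.bdd (ModularGroup.S * g'))
    rw [val_upperTriangularGL]
    simp

/-! ## polynomial expressions in `q`-series -/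

theorem isQSum_pow {x : LaurentSeries ℂ} {g : ℍ → ℂ} (hx : IsQSum x g) (n : ℕ) :
    IsQSum (x ^ n) (g ^ n) := by
  induction n with
  | zero => simpa using IsQSum.one
  | succ n ih => rw [pow_succ, pow_succ]; exact ih.mul hx

theorem isQSum_aeval {x : LaurentSeries ℂ} {g : ℍ → ℂ} (hx : IsQSum x g) (Q : ℂ[X]) :
    IsQSum (Polynomial.aeval x Q) (fun τ => Q.eval (g τ)) := by
  induction Q using Polynomial.induction_on' with
  | add p q hp hq =>
      have := hp.add hq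
      simpa [Pi.add_def] using this
  | monomial n a =>
      have h1 : IsQSum (HahnSeries.single 0 a * x ^ n) ((fun _ => a) * g ^ n) :=
        (IsQSum.single_zero a).mul (isQSum_pow hx n)
      have e1 : Polynomial.aeval x (Polynomial.monomial n a) = HahnSeries.single 0 a * x ^ n := by
        rw [Polynomial.aeval_monomial, algebraMap_laurentSeries_eq_single]
      have e2 : (fun τ => (Polynomial.monomial n a).eval (g τ)) = (fun _ => a) * g ^ n := by
        funext τ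
        simp [Polynomial.eval_monomial]
      rw [e1, e2]
      exact h1

/-- pointwise evaluation of a two-variable polynomial. -/
def ev2pt (a b : ℂ) : ℂ[X][X] →+* ℂ := Polynomial.eval₂RingHom (Polynomial.evalRingHom a) b

theorem ev2pt_monomial (a b : ℂ) (n : ℕ) (Q : ℂ[X]) :
    ev2pt a b (Polynomial.monomial n Q) = Q.eval a * b ^ n := by
  simp [ev2pt, Polynomial.eval₂_monomial]

theorem isQSum_ev2 {x y : LaurentSeries ℂ} {g h : ℍ → ℂ} (hx : IsQSum x g) (hy : IsQSum y h)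
    (P : ℂ[X][X]) : IsQSum (ev2 x y P) (fun τ => ev2pt (g τ) (h τ) P) := by
  induction P using Polynomial.induction_on' with
  | add p q hp hq =>
      have := hp.add hq
      simpa [Pi.add_def] using this
  | monomial n Q =>
      have h1 : IsQSum (Polynomial.aeval x Q * y ^ n) ((fun τ => Q.eval (g τ)) * h ^ n) :=
        (isQSum_aeval hx Q).mul (isQSum_pow hy n)
      have e1 : ev2 x y (Polynomial.monomial n Q) = Polynomial.aeval x Q * y ^ n := by
        simp [Fermat.Agent.S18.H92.ev2_apply, Polynomial.eval₂_monomial]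
      have e2 : (fun τ => ev2pt (g τ) (h τ) (Polynomial.monomial n Q))
          = (fun τ => Q.eval (g τ)) * h ^ n := by
        funext τ
        simp [ev2pt_monomial]
      rw [e1, e2]
      exact h1

/-! ## the geometry of `W` -/

section geometry

variable (N : ℕ) [NeZero N]

/-- `j(q)` with complex coefficients. -/
abbrev jSerC : LaurentSeries ℂ := jqModC ℂ

/-- `j(q^N)` with complex coefficients. -/
abbrev jNSerC : LaurentSeries ℂ := qExpand ℂ N (jqModC ℂ)

theorem jqModC_eq_coeffMap : jqModC ℂ = coeffMap (algebraMap ℚ ℂ) jq :=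
  (coeffMap_jqModC (algebraMap ℚ ℂ)).symm

theorem isQSum_jSerC : IsQSum jSerC H28.J := by
  rw [jSerC, jqModC_eq_coeffMap]
  exact H17.isQSum_J

theorem isQSum_jNSerC : IsQSum (jNSerC N) (fun τ => H28.J (H17.mulD N τ)) :=
  isQSum_jSerC.scale N

/-- `W τ = S (N τ)`. -/
theorem frickeMat_smul_eq (τ : ℍ) :
    H14.frickeMat N • τ = ModularGroup.S • H17.mulD N τ := by
  apply UpperHalfPlane.ext
  rw [H14.coe_frickeMat_smul, UpperHalfPlane.modular_S_smul]
  simp only [H15.coe_aff]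
  have hN : (N : ℂ) ≠ 0 := Nat.cast_ne_zero.mpr (NeZero.ne N)
  have hτ : (τ : ℂ) ≠ 0 := ne_zero τ
  push_cast
  field_simp
  ring

/-- `N (W τ) = S τ`. -/
theorem mulD_frickeMat_smul (τ : ℍ) :
    H17.mulD N (H14.frickeMat N • τ) = ModularGroup.S • τ := by
  apply UpperHalfPlane.ext
  rw [UpperHalfPlane.modular_S_smul]
  simp only [H15.coe_aff, H14.coe_frickeMat_smul]
  have hN : (N : ℂ) ≠ 0 := Nat.cast_ne_zero.mpr (NeZero.ne N)
  have hτ : (τ : ℂ) ≠ 0 := ne_zero τ
  push_cast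
  field_simp
  ring

theorem J_frickeMat_smul (τ : ℍ) : H28.J (H14.frickeMat N • τ) = H28.J (H17.mulD N τ) := by
  rw [frickeMat_smul_eq, H28.J_smul]

theorem J_mulD_frickeMat_smul (τ : ℍ) :
    H28.J (H17.mulD N (H14.frickeMat N • τ)) = H28.J τ := by
  rw [mulD_frickeMat_smul, H28.J_smul]

end geometry

/-! ## Fricke transforms of products and of level-one forms -/

section frickeCalc

variable (N : ℕ) [NeZero N]

/-- `(f g) ∣[k+k'] W = N • (f ∣[k] W) (g ∣[k'] W)`. -/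
theorem mul_slash_frickeMat (k k' : ℤ) (f g : ℍ → ℂ) :
    (f * g) ∣[k + k'] H14.frickeMat N
      = (N : ℂ) • ((f ∣[k] H14.frickeMat N) * (g ∣[k'] H14.frickeMat N)) := by
  funext τ
  have hN : (N : ℂ) ≠ 0 := Nat.cast_ne_zero.mpr (NeZero.ne N)
  have hτ : (N : ℂ) * (τ : ℂ) ≠ 0 := mul_ne_zero hN (ne_zero τ)
  simp only [Pi.smul_apply, Pi.mul_apply, smul_eq_mul, H14.slash_frickeMat_apply]
  have e1 : ((N : ℂ) * (τ : ℂ)) ^ (-(k + k')) = ((N : ℂ) * τ) ^ (-k) * ((N : ℂ) * τ) ^ (-k') := by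
    rw [neg_add, zpow_add₀ hτ]
  have e2 : (N : ℂ) * ((N : ℂ) ^ (k - 1) * (N : ℂ) ^ (k' - 1)) = (N : ℂ) ^ (k + k' - 1) := by
    rw [← zpow_add₀ hN, ← zpow_one_add₀ hN]
    congr 1
    ring
  rw [e1, ← e2]
  ring

/-- A level-one form: `E ∣[k] W = N^(k-1) • E(N τ)`. -/
theorem levelOne_slash_frickeMat {k : ℤ} (E : ModularForm 𝒮ℒ k) :
    (E : ℍ → ℂ) ∣[k] H14.frickeMat N = (N : ℂ) ^ (k - 1) • fun τ => E (H17.mulD N τ) := by
  funext τ
  have hN : (N : ℂ) ≠ 0 := Nat.cast_ne_zero.mpr (NeZero.ne N)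
  have hτ : (N : ℂ) * (τ : ℂ) ≠ 0 := mul_ne_zero hN (ne_zero τ)
  rw [H14.slash_frickeMat_apply, frickeMat_smul_eq]
  have hS := IsFormOn.comp_smul (E : ℍ → ℂ) k ModularGroup.S (H17.mulD N τ)
  have hinv : (E : ℍ → ℂ) ∣[k] ModularGroup.S = E :=
    SlashInvariantFormClass.slash_action_eq E _ ⟨ModularGroup.S, rfl⟩
  rw [hinv] at hS
  have hden : denom ModularGroup.S (H17.mulD N τ) = (N : ℂ) * τ := by
    rw [ModularGroup.denom_S]
    simp [H15.coe_aff]
  rw [hS, hden]
  simp only [Pi.smul_apply, smul_eq_mul]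
  have : ((N : ℂ) * (τ : ℂ)) ^ k * ((N : ℂ) * τ) ^ (-k) = 1 := by
    rw [← zpow_add₀ hτ, add_neg_cancel, zpow_zero]
  calc E (H17.mulD N τ) * ((N : ℂ) * τ) ^ k * (N : ℂ) ^ (k - 1) * ((N : ℂ) * τ) ^ (-k)
      = (N : ℂ) ^ (k - 1) * E (H17.mulD N τ) * (((N : ℂ) * τ) ^ k * ((N : ℂ) * τ) ^ (-k)) := by ring
    _ = _ := by rw [this, mul_one]

/-- The `q`-expansion of the Fricke transform of a level-one form. -/
theorem qLaurent_levelOne_slash_frickeMat {k : ℤ} (E : ModularForm 𝒮ℒ k) :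
    IsFormOn.qLaurent ((E : ℍ → ℂ) ∣[k] H14.frickeMat N)
      = HahnSeries.single 0 ((N : ℂ) ^ (k - 1)) * qExpand ℂ N (IsFormOn.qLaurent (E : ℍ → ℂ)) := by
  have hE := isFormOn_levelOne N E
  refine hE.fricke.isQSum.series_unique ?_
  rw [levelOne_slash_frickeMat]
  exact (IsQSum.single_zero _).mul (hE.isQSum.scale N)

end frickeCalc

/-! ## the swap theorem -/

section swap

variable (N : ℕ) [NeZero N] {k : ℤ} {F G : ℍ → ℂ}

/-- **The analytic swap theorem over `ℂ`.** -/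
theorem swap_ratio_C (hF : IsFormOn N k F) (hG : IsFormOn N k G) (Pa Pb : ℂ[X][X])
    (h1 : ev2 jSerC (jNSerC N) Pa * IsFormOn.qLaurent G
      = ev2 jSerC (jNSerC N) Pb * IsFormOn.qLaurent F) :
    ev2 (jNSerC N) jSerC Pa * IsFormOn.qLaurent (G ∣[k] H14.frickeMat N)
      = ev2 (jNSerC N) jSerC Pb * IsFormOn.qLaurent (F ∣[k] H14.frickeMat N) := by
  set J := H28.J with hJ
  set JN : ℍ → ℂ := fun τ => H28.J (H17.mulD N τ) with hJN
  -- the function identity
  have hfun : (fun τ => ev2pt (J τ) (JN τ) Pa) * G = (fun τ => ev2pt (J τ) (JN τ) Pb) * F := by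
    have e1 := (isQSum_ev2 isQSum_jSerC (isQSum_jNSerC N) Pa).mul hG.isQSum
    have e2 := (isQSum_ev2 isQSum_jSerC (isQSum_jNSerC N) Pb).mul hF.isQSum
    rw [h1] at e1
    exact e1.unique e2
  -- evaluate at `W τ`
  have hW : ∀ τ : ℍ, ev2pt (JN τ) (J τ) Pa * (G ∣[k] H14.frickeMat N) τ
      = ev2pt (JN τ) (J τ) Pb * (F ∣[k] H14.frickeMat N) τ := by
    intro τ
    have h := congrFun hfun (H14.frickeMat N • τ)
    simp only [Pi.mul_apply, hJ, hJN, J_frickeMat_smul, J_mulD_frickeMat_smul] at h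
    rw [H14.slash_frickeMat_apply, H14.slash_frickeMat_apply]
    calc ev2pt (JN τ) (J τ) Pa *
          (G (H14.frickeMat N • τ) * (N : ℂ) ^ (k - 1) * ((N : ℂ) * τ) ^ (-k))
        = (ev2pt (H28.J (H17.mulD N τ)) (H28.J τ) Pa * G (H14.frickeMat N • τ)) *
            ((N : ℂ) ^ (k - 1) * ((N : ℂ) * τ) ^ (-k)) := by ring
      _ = (ev2pt (H28.J (H17.mulD N τ)) (H28.J τ) Pb * F (H14.frickeMat N • τ)) *
            ((N : ℂ) ^ (k - 1) * ((N : ℂ) * τ) ^ (-k)) := by rw [h]
      _ = _ := by ring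
  have e1 := (isQSum_ev2 (isQSum_jNSerC N) isQSum_jSerC Pa).mul hG.fricke.isQSum
  have e2 := (isQSum_ev2 (isQSum_jNSerC N) isQSum_jSerC Pb).mul hF.fricke.isQSum
  have hfun' : (fun τ => ev2pt (JN τ) (J τ) Pa) * (G ∣[k] H14.frickeMat N)
      = (fun τ => ev2pt (JN τ) (J τ) Pb) * (F ∣[k] H14.frickeMat N) := by
    funext τ
    exact hW τ
  rw [hfun'] at e1
  exact e1.series_unique e2

variable {K : Type*} [Field K] [Algebra K ℂ]

/-- **The analytic swap theorem**, polynomials and `q`-expansions over a subfield `K ⊆ ℂ`: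
if `F / G = P_a(j, j_N) / P_b(j, j_N)` then `(F ∣ W) / (G ∣ W) = P_a(j_N, j) / P_b(j_N, j)`. -/
theorem swap_ratio (hF : IsFormOn N k F) (hG : IsFormOn N k G) (Pa Pb : K[X][X])
    (a b a' b' : PowerSeries K)
    (ha : qExpansion 1 F = a.map (algebraMap K ℂ)) (hb : qExpansion 1 G = b.map (algebraMap K ℂ))
    (ha' : qExpansion 1 (F ∣[k] H14.frickeMat N) = a'.map (algebraMap K ℂ))
    (hb' : qExpansion 1 (G ∣[k] H14.frickeMat N) = b'.map (algebraMap K ℂ))
    (h1 : ev2 (jqModC K) (qExpand K N (jqModC K)) Pa * HahnSeries.ofPowerSeries ℤ K b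
      = ev2 (jqModC K) (qExpand K N (jqModC K)) Pb * HahnSeries.ofPowerSeries ℤ K a) :
    ev2 (qExpand K N (jqModC K)) (jqModC K) Pa * HahnSeries.ofPowerSeries ℤ K b'
      = ev2 (qExpand K N (jqModC K)) (jqModC K) Pb * HahnSeries.ofPowerSeries ℤ K a' := by
  set φ := algebraMap K ℂ with hφ
  have hinj : Function.Injective (coeffMap φ) := (coeffMap φ).injective
  have hj : coeffMap φ (jqModC K) = jSerC := coeffMap_jqModC φ
  have hjN : coeffMap φ (qExpand K N (jqModC K)) = jNSerC N := by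
    rw [coeffMap_qExpand, hj]
  have hq : ∀ (H : ℍ → ℂ) (c : PowerSeries K), qExpansion 1 H = c.map φ →
      coeffMap φ (HahnSeries.ofPowerSeries ℤ K c) = IsFormOn.qLaurent H := by
    intro H c hc
    rw [IsFormOn.qLaurent, hc, ofPowerSeries_map]
  apply hinj
  rw [map_mul, map_mul, Fermat.Agent.S18.H92.coeffMap_ev2, Fermat.Agent.S18.H92.coeffMap_ev2, hj,
    hjN, hq _ _ ha', hq _ _ hb']
  refine swap_ratio_C N hF hG _ _ ?_
  have := congrArg (coeffMap φ) h1
  rwa [map_mul, map_mul, Fermat.Agent.S18.H92.coeffMap_ev2, Fermat.Agent.S18.H92.coeffMap_ev2, hj,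
    hjN, hq _ _ ha, hq _ _ hb] at this

omit [Algebra K ℂ] in
/-- Every element of `K(x, y) ⊆ K((q))` is a quotient of two polynomial expressions. -/
theorem exists_ev2_div (x y s : LaurentSeries K) (hs : s ∈ IntermediateField.adjoin K {x, y}) :
    ∃ Pa Pb : K[X][X], ev2 x y Pb ≠ 0 ∧ ev2 x y Pa = s * ev2 x y Pb := by
  obtain ⟨r, hr, t, ht, rfl⟩ := IntermediateField.mem_adjoin_iff_div.mp hs
  rw [Fermat.Agent.S18.H92.adjoin_pair_eq_range] at hr ht
  obtain ⟨Pa, rfl⟩ := hr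
  obtain ⟨Pb, rfl⟩ := ht
  have ea : (Fermat.Agent.S18.H92.ev2Alg x y).toRingHom Pa = ev2 x y Pa := rfl
  have eb : (Fermat.Agent.S18.H92.ev2Alg x y).toRingHom Pb = ev2 x y Pb := rfl
  rw [ea, eb]
  by_cases hb : ev2 x y Pb = 0
  · refine ⟨0, 1, by simp, ?_⟩
    rw [hb, div_zero]
    simp
  · refine ⟨Pa, Pb, hb, ?_⟩
    rw [div_mul_cancel₀ _ hb]

/-- **The swap theorem, final form**: the inputs `h1`, `h1b`, `h2` of helper63's
`H63.forall_pow_dvd_coeff_swap`.  If `s ∈ K(j, j_N)` is the `q`-expansion of `F / G`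
(`s * qG = qF`), there are `P_a, P_b ∈ K[X][Y]` with `P_b(j, j_N) ≠ 0`,
`P_a(j, j_N) = s * P_b(j, j_N)` and `P_a(j_N, j) = z * P_b(j_N, j)` for the `q`-expansion `z` of
`(F ∣ W) / (G ∣ W)`. -/
theorem exists_swap_polys (hF : IsFormOn N k F) (hG : IsFormOn N k G)
    (a b a' b' : PowerSeries K)
    (ha : qExpansion 1 F = a.map (algebraMap K ℂ)) (hb : qExpansion 1 G = b.map (algebraMap K ℂ))
    (ha' : qExpansion 1 (F ∣[k] H14.frickeMat N) = a'.map (algebraMap K ℂ))
    (hb' : qExpansion 1 (G ∣[k] H14.frickeMat N) = b'.map (algebraMap K ℂ))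
    (s : LaurentSeries K)
    (hs : s ∈ IntermediateField.adjoin K {jqModC K, qExpand K N (jqModC K)})
    (hsab : s * HahnSeries.ofPowerSeries ℤ K b = HahnSeries.ofPowerSeries ℤ K a) :
    ∃ Pa Pb : K[X][X], ev2 (jqModC K) (qExpand K N (jqModC K)) Pb ≠ 0 ∧
      ev2 (jqModC K) (qExpand K N (jqModC K)) Pa
        = s * ev2 (jqModC K) (qExpand K N (jqModC K)) Pb ∧
      ∀ z : LaurentSeries K,
        z * HahnSeries.ofPowerSeries ℤ K b' = HahnSeries.ofPowerSeries ℤ K a' →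
        HahnSeries.ofPowerSeries ℤ K b' ≠ 0 →
        ev2 (qExpand K N (jqModC K)) (jqModC K) Pa
          = z * ev2 (qExpand K N (jqModC K)) (jqModC K) Pb := by
  obtain ⟨Pa, Pb, hPb, hPa⟩ := exists_ev2_div _ _ s hs
  refine ⟨Pa, Pb, hPb, hPa, fun z hz hb0 => ?_⟩
  have h1 : ev2 (jqModC K) (qExpand K N (jqModC K)) Pa * HahnSeries.ofPowerSeries ℤ K b
      = ev2 (jqModC K) (qExpand K N (jqModC K)) Pb * HahnSeries.ofPowerSeries ℤ K a := by
    rw [hPa, ← hsab]; ring
  have h2 := swap_ratio N hF hG Pa Pb a b a' b' ha hb ha' hb' h1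
  rw [← hz] at h2
  have h3 : (ev2 (qExpand K N (jqModC K)) (jqModC K) Pa
      - z * ev2 (qExpand K N (jqModC K)) (jqModC K) Pb) * HahnSeries.ofPowerSeries ℤ K b' = 0 := by
    rw [sub_mul, h2]; ring
  rcases mul_eq_zero.mp h3 with h | h
  · exact sub_eq_zero.mp h
  · exact absurd h hb0

end swap

end Fermat.Agent.S16.H72
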