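/-
S16, package (QP) (helper63): THE CONSTANT TEST.

`p` prime, `ℓ ≠ p` prime, `ℓ^c ∣ 24`.  If `F ∈ M₂(Γ₀(p))` has integral `q`-expansion `∑ aₙ qⁿ`
with `ℓ^c ∣ aₙ` for all `n ≥ 1`, then `ℓ^c ∣ (p + 1) a₀`.

Proof: `g := F E₄ / E₆ ∈ ℚ(j, j_p)` has the `ℤ_(ℓ)`-integral expansion `≡ a₀ mod ℓ^c`; by
helper14's TRACE (`F ∣ W_p = -U_p F`) and helper72's analytic swap theorem, the swapped function
`g ∘ W_p` has the `ℤ_(ℓ)`-integral expansion `-(1/p) (U_p F)(q) E₄(q^p)/E₆(q^p) ≡ -a₀/p`; the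
abstract constant test (`H63_QPInst.forall_pow_dvd_coeff_sub_X0`) gives `-a₀/p ≡ a₀ mod ℓ^c`.
-/
import Mathlib
import Fermat.Agent.S16.H63_QPInst
import Fermat.Agent.S16.H63_Zl
import Fermat.Agent.S16.H72_FormSwap
import Fermat.Agent.S16.H14_Trace
import Fermat.Agent.S16.H95_LevelOneStructure
import Fermat.Agent.S18.H8_FullCBridge

set_option autoImplicit false
set_option synthInstance.maxHeartbeats 400000

open Complex Filter Function Polynomial
open UpperHalfPlane hiding I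
open ModularForm CongruenceSubgroup Matrix.SpecialLinearGroup ModularCurve
open scoped Real Topology Manifold MatrixGroups ModularForm

noncomputable section

namespace Fermat.Agent.S16.H63

open Fermat.Agent.S16.H72 (IsFormOn isFormOn_modularForm isFormOn_levelOne)
open Fermat.Agent.S18.H92 (ev2 up)

local notation "ofPS" => HahnSeries.ofPowerSeries ℤ

/-! ### `ofPowerSeries` toolkit -/

section OfPS

variable {R S : Type*} [CommRing R] [CommRing S]

theorem ofPS_injective : Function.Injective (ofPS R) := HahnSeries.ofPowerSeries_injective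

theorem ofPS_map (φ : R →+* S) (a : PowerSeries R) :
    ofPS S (a.map φ) = coeffMap φ (ofPS R a) := Fermat.Agent.S16.H72.ofPowerSeries_map φ a

theorem ofPS_coeff_natCast (a : PowerSeries R) (n : ℕ) :
    (ofPS R a).coeff (n : ℤ) = PowerSeries.coeff n a := by
  rw [HahnSeries.ofPowerSeries_apply_coeff]

theorem ofPS_coeff_of_neg (a : PowerSeries R) {n : ℤ} (hn : n < 0) : (ofPS R a).coeff n = 0 :=
  Fermat.Agent.S16.H72.ofPowerSeries_coeff_of_neg a hn

/-- `q ↦ q^N` on power series and on Laurent series. -/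
theorem qExpand_ofPS (N : ℕ) [NeZero N] (f : PowerSeries R) :
    qExpand R N (ofPS R f) = ofPS R (f.expand N (NeZero.ne N)) := by
  ext n
  by_cases hdvd : (N : ℤ) ∣ n
  · obtain ⟨m, rfl⟩ := hdvd
    rw [qExpand_coeff_mul]
    by_cases hm : 0 ≤ m
    · obtain ⟨m', rfl⟩ := Int.eq_ofNat_of_zero_le hm
      have : (N : ℤ) * (m' : ℤ) = ((N * m' : ℕ) : ℤ) := by push_cast; ring
      rw [this, ofPS_coeff_natCast, ofPS_coeff_natCast, PowerSeries.coeff_expand_mul]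
    · have hm' : m < 0 := not_le.mp hm
      have hN : (0 : ℤ) < N := by exact_mod_cast Nat.pos_of_ne_zero (NeZero.ne N)
      rw [ofPS_coeff_of_neg _ hm', ofPS_coeff_of_neg _ (mul_neg_of_pos_of_neg hN hm')]
  · rw [qExpand_coeff_of_not_dvd N _ hdvd]
    by_cases hn : 0 ≤ n
    · obtain ⟨n', rfl⟩ := Int.eq_ofNat_of_zero_le hn
      rw [ofPS_coeff_natCast, PowerSeries.coeff_expand_of_not_dvd]
      intro h
      exact hdvd (by exact_mod_cast h)
    · rw [ofPS_coeff_of_neg _ (not_le.mp hn)]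

end OfPS

/-! ### `q`-expansions with rational coefficients -/

section HasQ

/-- `H` has the `q`-expansion `c ∈ ℚ⟦q⟧`. -/
def HasQ (H : ℍ → ℂ) (c : PowerSeries ℚ) : Prop :=
  qExpansion 1 H = c.map (algebraMap ℚ ℂ)

theorem hasQ_iff_qLaurent (H : ℍ → ℂ) (c : PowerSeries ℚ) :
    HasQ H c ↔ IsFormOn.qLaurent H = coeffMap (algebraMap ℚ ℂ) (ofPS ℚ c) := by
  rw [HasQ, IsFormOn.qLaurent, ← ofPS_map]
  exact ⟨fun h => by rw [h], fun h => ofPS_injective h⟩

variable {N : ℕ}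

theorem HasQ.mul {k k' : ℤ} {F G : ℍ → ℂ} (hF : IsFormOn N k F) (hG : IsFormOn N k' G)
    {a b : PowerSeries ℚ} (ha : HasQ F a) (hb : HasQ G b) : HasQ (F * G) (a * b) := by
  rw [hasQ_iff_qLaurent] at *
  rw [IsFormOn.qLaurent_mul hF hG, ha, hb, map_mul, map_mul]

theorem HasQ.smul {k : ℤ} {F : ℍ → ℂ} (hF : IsFormOn N k F) {a : PowerSeries ℚ} (ha : HasQ F a)
    (c : ℚ) : HasQ (((c : ℚ) : ℂ) • F) (PowerSeries.C c * a) := by
  rw [hasQ_iff_qLaurent] at *
  rw [IsFormOn.qLaurent_const_smul _ hF, ha, map_mul, map_mul]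
  congr 1
  rw [HahnSeries.ofPowerSeries_C, ← HahnSeries.C_apply]
  ext n
  simp only [coeffMap_coeff, HahnSeries.C_apply, HahnSeries.coeff_single]
  split_ifs <;> simp

theorem HasQ.levelOne_fricke [NeZero N] {k : ℤ} (E : ModularForm 𝒮ℒ k) {c : PowerSeries ℚ}
    (hc : HasQ (E : ℍ → ℂ) c) (m : ℕ) (hm : (k - 1 : ℤ) = (m : ℤ)) :
    HasQ ((E : ℍ → ℂ) ∣[k] H14.frickeMat N)
      (PowerSeries.C ((N : ℚ) ^ m) * c.expand N (NeZero.ne N)) := by
  rw [hasQ_iff_qLaurent] at *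
  rw [Fermat.Agent.S16.H72.qLaurent_levelOne_slash_frickeMat, hc, map_mul, map_mul,
    ← qExpand_ofPS, coeffMap_qExpand, hm, zpow_natCast]
  congr 1
  rw [HahnSeries.ofPowerSeries_C]
  ext n
  simp only [coeffMap_coeff, HahnSeries.C_apply, HahnSeries.coeff_single]
  split_ifs <;> simp

end HasQ

/-! ### The forms side -/

section Forms

variable (p : ℕ) [hp : Fact p.Prime]

/-- the series `∑ a_n q^n` over a ring `R`. -/
def aSer (R : Type*) [CommRing R] (a : ℕ → ℤ) : PowerSeries R :=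
  PowerSeries.mk fun n => ((a n : ℤ) : R)

/-- the series `∑ a_{np} q^n` over a ring `R`. -/
def uSer (R : Type*) [CommRing R] (a : ℕ → ℤ) : PowerSeries R :=
  PowerSeries.mk fun n => ((a (n * p) : ℤ) : R)

theorem aSer_map {R S : Type*} [CommRing R] [CommRing S] (φ : R →+* S) (a : ℕ → ℤ) :
    (aSer R a).map φ = aSer S a := by
  ext n; simp [aSer]

omit hp in
theorem uSer_map {R S : Type*} [CommRing R] [CommRing S] (φ : R →+* S) (a : ℕ → ℤ) :
    (uSer p R a).map φ = uSer p S a := by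
  ext n; simp [uSer]

variable {p}

omit hp in
theorem hasQ_form (F : ModularForm ((Gamma0 p).map (mapGL ℝ)) 2) (a : ℕ → ℤ)
    (ha : ∀ n, (qExpansion 1 F).coeff n = (a n : ℂ)) : HasQ (F : ℍ → ℂ) (aSer ℚ a) := by
  rw [HasQ, aSer_map]
  ext n
  rw [ha n]
  simp [aSer]

theorem hasQ_form_fricke (F : ModularForm ((Gamma0 p).map (mapGL ℝ)) 2) (a : ℕ → ℤ)
    (ha : ∀ n, (qExpansion 1 F).coeff n = (a n : ℂ)) :
    HasQ ((F : ℍ → ℂ) ∣[(2 : ℤ)] H14.frickeMat p) (-uSer p ℚ a) := by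
  rw [HasQ, map_neg, uSer_map]
  ext n
  have h := H14.qCoeff_fricke F n
  unfold ModularFormClass.qCoeff at h
  rw [H14.coe_fricke] at h
  rw [h, ha (n * p)]
  simp [uSer]

theorem hasQ_E4 : HasQ (E₄ : ℍ → ℂ) (H95.e4 ℚ) := by
  rw [HasQ, H95.e4_map, H95.qExpansion_E4]

theorem hasQ_E6 : HasQ (E₆ : ℍ → ℂ) (H95.e6 ℚ) := by
  rw [HasQ, H95.e6_map, H95.qExpansion_E6]

end Forms

/-! ### Power series over `ℤ_(ℓ)` -/

section PS

variable {R : Type*} [CommRing R]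

/-- a power series with constant coefficient `1` has an inverse. -/
theorem exists_mul_eq_one_of_constantCoeff (x : PowerSeries R)
    (hx : PowerSeries.constantCoeff x = 1) : ∃ y : PowerSeries R, x * y = 1 := by
  have hu : IsUnit x := by
    rw [PowerSeries.isUnit_iff_constantCoeff, hx]
    exact isUnit_one
  obtain ⟨u, rfl⟩ := hu
  exact ⟨((u⁻¹ : (PowerSeries R)ˣ) : PowerSeries R), by simp⟩

end PS

/-! ### The constant test -/

section Main

variable {p : ℕ} [hp : Fact p.Prime] (ℓ : ℕ) [hℓ : Fact ℓ.Prime]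

theorem E6_ne_zero : ((E₆ : ModularForm 𝒮ℒ 6) : ℍ → ℂ) ≠ 0 := by
  intro h0
  have h := hasQ_E6
  rw [HasQ, h0] at h
  have h1 := congrArg (PowerSeries.coeff 0) h
  rw [H95.e6_map] at h1
  have h2 : PowerSeries.coeff 0 (H95.e6 ℂ) = 1 := by
    rw [PowerSeries.coeff_zero_eq_constantCoeff_apply, H95.constantCoeff_e6]
  rw [h2] at h1
  have h3 : qExpansion 1 (0 : ℍ → ℂ) = 0 := qExpansion_zero 1
  rw [h3] at h1
  simp at h1

/-- the forms side of the constant test: polynomial pair for `F E₄ / E₆` and its swap. -/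
theorem exists_pair_const_test (F : ModularForm ((Gamma0 p).map (mapGL ℝ)) 2) (a : ℕ → ℤ)
    (ha : ∀ n, (qExpansion 1 F).coeff n = (a n : ℂ)) :
    ∃ (s : LaurentSeries ℚ) (Pa Pb : ℚ[X][X]),
      s * ofPS ℚ (H95.e6 ℚ) = ofPS ℚ (aSer ℚ a * H95.e4 ℚ) ∧
      ev2 (jqModC ℚ) (jqNModC ℚ p) Pb ≠ 0 ∧
      ev2 (jqModC ℚ) (jqNModC ℚ p) Pa = s * ev2 (jqModC ℚ) (jqNModC ℚ p) Pb ∧
      ∀ z : LaurentSeries ℚ,
        z * ofPS ℚ (PowerSeries.C ((p : ℚ) ^ 5) * (H95.e6 ℚ).expand p hp.out.ne_zero) =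
          ofPS ℚ (PowerSeries.C (p : ℚ) * (-uSer p ℚ a *
            (PowerSeries.C ((p : ℚ) ^ 3) * (H95.e4 ℚ).expand p hp.out.ne_zero))) →
        ev2 (jqNModC ℚ p) (jqModC ℚ) Pa = z * ev2 (jqNModC ℚ p) (jqModC ℚ) Pb := by
  have : NeZero p := ⟨hp.out.ne_zero⟩
  have hF : IsFormOn p 2 (F : ℍ → ℂ) := isFormOn_modularForm F
  have hE4 : IsFormOn p 4 (E₄ : ℍ → ℂ) := isFormOn_levelOne p E₄
  have hE6 : IsFormOn p 6 (E₆ : ℍ → ℂ) := isFormOn_levelOne p E₆
  have h24 : (2 : ℤ) + 4 = 6 := by norm_num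
  have hNum : IsFormOn p 6 ((F : ℍ → ℂ) * (E₄ : ℍ → ℂ)) := h24 ▸ hF.mul hE4
  have hq_a : HasQ ((F : ℍ → ℂ) * (E₄ : ℍ → ℂ)) (aSer ℚ a * H95.e4 ℚ) :=
    HasQ.mul hF hE4 (hasQ_form F a ha) hasQ_E4
  have hq_b : HasQ (E₆ : ℍ → ℂ) (H95.e6 ℚ) := hasQ_E6
  have hslash : ((F : ℍ → ℂ) * (E₄ : ℍ → ℂ)) ∣[(6 : ℤ)] H14.frickeMat p =
      (p : ℂ) • (((F : ℍ → ℂ) ∣[(2 : ℤ)] H14.frickeMat p) *
        ((E₄ : ℍ → ℂ) ∣[(4 : ℤ)] H14.frickeMat p)) := by
    rw [← h24]
    exact Fermat.Agent.S16.H72.mul_slash_frickeMat p 2 4 (F : ℍ → ℂ) (E₄ : ℍ → ℂ)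
  have hq_a' : HasQ (((F : ℍ → ℂ) * (E₄ : ℍ → ℂ)) ∣[(6 : ℤ)] H14.frickeMat p)
      (PowerSeries.C (p : ℚ) * (-uSer p ℚ a *
        (PowerSeries.C ((p : ℚ) ^ 3) * (H95.e4 ℚ).expand p hp.out.ne_zero))) := by
    rw [hslash]
    have h1 := HasQ.mul hF.fricke hE4.fricke (hasQ_form_fricke F a ha)
      (HasQ.levelOne_fricke (N := p) E₄ hasQ_E4 3 (by norm_num))
    have h2 := HasQ.smul (hF.fricke.mul hE4.fricke) h1 (p : ℚ)
    have h3 : (((p : ℚ) : ℂ)) = (p : ℂ) := by norm_cast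
    rw [h3] at h2
    exact h2
  have hq_b' : HasQ ((E₆ : ℍ → ℂ) ∣[(6 : ℤ)] H14.frickeMat p)
      (PowerSeries.C ((p : ℚ) ^ 5) * (H95.e6 ℚ).expand p hp.out.ne_zero) :=
    HasQ.levelOne_fricke (N := p) E₆ hasQ_E6 5 (by norm_num)
  obtain ⟨f₀, hf₀, -⟩ := Fermat.Agent.S16.H72.exists_baseChange_eq_ratio p hNum hE6 E6_ne_zero
    (aSer ℚ a * H95.e4 ℚ) (H95.e6 ℚ) hq_a hq_b
  have hpQ : ((p : ℕ) : ℚ) ≠ 0 := Nat.cast_ne_zero.2 hp.out.ne_zero
  have hs_mem : (f₀ : LaurentSeries ℚ) ∈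
      IntermediateField.adjoin ℚ {jqModC ℚ, qExpand ℚ p (jqModC ℚ)} := by
    have key : laurentBaseChange ℚ (modularFunctionFieldFull p) =
        IntermediateField.adjoin ℚ {jqModC ℚ, qExpand ℚ p (jqModC ℚ)} := by
      rw [← Fermat.Agent.S18.H8.fullC_eq_laurentBaseChange,
        Fermat.Agent.S18.H16.fullC_eq_adjoin_gen p ℚ hpQ]
    exact (SetLike.ext_iff.mp key _).mp f₀.2
  obtain ⟨Pa, Pb, hPb, hPa, hswap⟩ := Fermat.Agent.S16.H72.exists_swap_polys p hNum hE6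
    (aSer ℚ a * H95.e4 ℚ) (H95.e6 ℚ) _ _ hq_a hq_b hq_a' hq_b' (f₀ : LaurentSeries ℚ) hs_mem hf₀
  refine ⟨(f₀ : LaurentSeries ℚ), Pa, Pb, hf₀, hPb, hPa, fun z hz => hswap z hz ?_⟩
  -- the denominator series is nonzero
  intro h0
  have h1 := ofPS_injective (h0.trans (map_zero _).symm)
  have h2 := congrArg PowerSeries.constantCoeff h1
  rw [map_mul, PowerSeries.constantCoeff_C, PowerSeries.constantCoeff_expand,
    H95.constantCoeff_e6, mul_one, map_zero] at h2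
  exact pow_ne_zero 5 hpQ h2

/-- coefficientwise divisibility of a power series, via the quotient ring. -/
theorem forall_dvd_coeff_iff_map_eq_zero {R : Type*} [CommRing R] (ϖ : R) (x : PowerSeries R) :
    (∀ n, ϖ ∣ PowerSeries.coeff n x) ↔
      x.map (Ideal.Quotient.mk (Ideal.span {ϖ})) = 0 := by
  constructor
  · intro h
    ext n
    rw [PowerSeries.coeff_map, map_zero, Ideal.Quotient.eq_zero_iff_mem,
      Ideal.mem_span_singleton]
    exact h n
  · intro h n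
    have := congrArg (PowerSeries.coeff n) h
    rwa [PowerSeries.coeff_map, map_zero, Ideal.Quotient.eq_zero_iff_mem,
      Ideal.mem_span_singleton] at this

/-- `E₄ ≡ 1` modulo any divisor of `240`. -/
theorem e4_map_eq_one {S : Type*} [CommRing S] (h240 : (240 : S) = 0) : H95.e4 S = 1 := by
  ext n
  simp only [H95.e4, H95.e4Z, PowerSeries.coeff_map, PowerSeries.coeff_mk, PowerSeries.coeff_one]
  split_ifs with h
  · simp
  · rw [map_mul, map_ofNat, h240, zero_mul]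

/-- `E₆ ≡ 1` modulo any divisor of `504`. -/
theorem e6_map_eq_one {S : Type*} [CommRing S] (h504 : (504 : S) = 0) : H95.e6 S = 1 := by
  ext n
  simp only [H95.e6, H95.e6Z, PowerSeries.coeff_map, PowerSeries.coeff_mk, PowerSeries.coeff_one]
  split_ifs with h
  · simp
  · rw [map_mul, map_neg, map_ofNat, h504, neg_zero, zero_mul]

/-- **THE CONSTANT TEST.**  `p` prime, `ℓ ≠ p` prime, `ℓ^c ∣ 24`; `F ∈ M₂(Γ₀(p))` with integral
`q`-expansion `∑ aₙ qⁿ` and `ℓ^c ∣ aₙ` for all `n ≥ 1`.  Then `ℓ^c ∣ (p + 1) a₀`. -/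
theorem const_test (hℓp : ℓ ≠ p) (c : ℕ) (hc : ℓ ^ c ∣ 24)
    (F : ModularForm ((Gamma0 p).map (mapGL ℝ)) 2) (a : ℕ → ℤ)
    (ha : ∀ n, (qExpansion 1 F).coeff n = (a n : ℂ))
    (h : ∀ n, 1 ≤ n → ((ℓ : ℕ) : ℤ) ^ c ∣ a n) :
    ((ℓ : ℕ) : ℤ) ^ c ∣ ((p : ℤ) + 1) * a 0 := by
  have : NeZero p := ⟨hp.out.ne_zero⟩
  obtain ⟨s, Pa, Pb, hs, hPb, hPa, hswap⟩ := exists_pair_const_test F a ha
  set A := zl ℓ with hA
  set ϖ : A := ((ℓ : ℕ) : A) with hϖ
  have hpinv : ((p : ℚ))⁻¹ ∈ zl ℓ := inv_natCast_mem_zl ℓ hp.out (Ne.symm hℓp)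
  set u : A := ⟨((p : ℚ))⁻¹, hpinv⟩ with hu
  have hpQ : ((p : ℕ) : ℚ) ≠ 0 := Nat.cast_ne_zero.2 hp.out.ne_zero
  -- inverses of the two denominators
  obtain ⟨e6i, he6i⟩ := exists_mul_eq_one_of_constantCoeff (H95.e6 A) (H95.constantCoeff_e6 A)
  obtain ⟨e6ei, he6ei⟩ := exists_mul_eq_one_of_constantCoeff
    ((H95.e6 A).expand p hp.out.ne_zero)
    (by rw [PowerSeries.constantCoeff_expand, H95.constantCoeff_e6])
  set xs : PowerSeries A := aSer A a * H95.e4 A * e6i with hxs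
  set xz : PowerSeries A :=
    PowerSeries.C (-u) * uSer p A a * (H95.e4 A).expand p hp.out.ne_zero * e6ei with hxz
  have hb0 : ofPS ℚ (H95.e6 ℚ) ≠ 0 := by
    intro h0
    have h1 := ofPS_injective (h0.trans (map_zero _).symm)
    have h2 := congrArg PowerSeries.constantCoeff h1
    rw [H95.constantCoeff_e6, map_zero] at h2
    exact one_ne_zero h2
  -- `s` is the `A`-integral series `xs`
  have hs' : s = up A (ofPS A xs) := by
    apply mul_right_cancel₀ hb0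
    rw [hs, ← ofPS_map, ← map_mul]
    congr 1
    rw [hxs, map_mul, map_mul, aSer_map, H95.e4_map, ← H95.e6_map A.subtype, mul_assoc,
      ← map_mul, mul_comm e6i, he6i, map_one, mul_one]
  -- the swapped series is the `A`-integral series `xz`
  have hz' := hswap (up A (ofPS A xz)) (by
    rw [← ofPS_map, ← map_mul]
    congr 1
    rw [hxz, map_mul, map_mul, map_mul, uSer_map, PowerSeries.map_expand, H95.e4_map,
      ← H95.e6_map A.subtype, ← PowerSeries.map_expand, PowerSeries.map_C]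
    have hCu : (A.subtype (-u)) = -((p : ℚ))⁻¹ := rfl
    rw [hCu]
    have h5 : PowerSeries.C ((p : ℚ) ^ 5) = PowerSeries.C (p : ℚ) * PowerSeries.C ((p : ℚ) ^ 3) *
        PowerSeries.C (p : ℚ) := by
      rw [← map_mul, ← map_mul]; congr 1; ring
    have h6 : PowerSeries.C (-((p : ℚ))⁻¹) * PowerSeries.C (p : ℚ) = -1 := by
      rw [← map_mul, neg_mul, inv_mul_cancel₀ hpQ, map_neg, map_one]
    calc PowerSeries.C (-((p : ℚ))⁻¹) * uSer p ℚ a * (H95.e4 ℚ).expand p hp.out.ne_zero *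
          e6ei.map A.subtype *
          (PowerSeries.C ((p : ℚ) ^ 5) * ((H95.e6 A).expand p hp.out.ne_zero).map A.subtype)
        = (PowerSeries.C (-((p : ℚ))⁻¹) * PowerSeries.C (p : ℚ)) *
          (PowerSeries.C (p : ℚ) * (uSer p ℚ a *
            (PowerSeries.C ((p : ℚ) ^ 3) * (H95.e4 ℚ).expand p hp.out.ne_zero))) *
          (((H95.e6 A).expand p hp.out.ne_zero * e6ei).map A.subtype) := by
            rw [h5, map_mul]; ring
      _ = PowerSeries.C (p : ℚ) * (-uSer p ℚ a *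
            (PowerSeries.C ((p : ℚ) ^ 3) * (H95.e4 ℚ).expand p hp.out.ne_zero)) := by
            rw [h6, he6ei, map_one]; ring)
  rw [hs'] at hPa
  -- reduction data
  have hNk : ((p : ℕ) : ZMod ℓ) ≠ 0 := by
    rw [Ne, ZMod.natCast_eq_zero_iff]
    intro hdvd
    exact hℓp ((Nat.prime_dvd_prime_iff_eq hℓ.out hp.out).1 hdvd)
  -- the congruence for `xs`
  have h24 : ((ℓ : ℕ) : ℤ) ^ c ∣ 24 := by exact_mod_cast hc
  have hcong : ∀ n, ϖ ^ c ∣ (ofPS A xs - HahnSeries.C ((a 0 : ℤ) : A)).coeff n := by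
    set I : Ideal A := Ideal.span {ϖ ^ c} with hI
    set ρ := Ideal.Quotient.mk I with hρ
    have hρ0 : ∀ m : ℤ, ((ℓ : ℕ) : ℤ) ^ c ∣ m → ρ ((m : ℤ) : A) = 0 := by
      intro m hm
      rw [Ideal.Quotient.eq_zero_iff_mem, hI, Ideal.mem_span_singleton, hϖ,
        pow_dvd_intCast_iff]
      exact hm
    have h240 : (240 : A ⧸ I) = 0 := by
      have := hρ0 240 (h24.trans (by norm_num))
      rwa [Int.cast_ofNat, map_ofNat] at this
    have h504 : (504 : A ⧸ I) = 0 := by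
      have := hρ0 504 (h24.trans (by norm_num))
      rwa [Int.cast_ofNat, map_ofNat] at this
    have hx : (xs - PowerSeries.C ((a 0 : ℤ) : A)).map ρ = 0 := by
      rw [map_sub, hxs, map_mul, map_mul, H95.e4_map, e4_map_eq_one h240,
        mul_one]
      have he6i' : e6i.map ρ = 1 := by
        have := congrArg (PowerSeries.map ρ) he6i
        rwa [map_mul, H95.e6_map, e6_map_eq_one h504, one_mul, map_one] at this
      rw [he6i', mul_one, sub_eq_zero]
      ext n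
      rw [PowerSeries.coeff_map, PowerSeries.map_C, PowerSeries.coeff_C]
      simp only [aSer, PowerSeries.coeff_mk]
      split_ifs with hn
      · rw [hn]
      · exact hρ0 _ (h n (Nat.one_le_iff_ne_zero.2 hn))
    have hx' := (forall_dvd_coeff_iff_map_eq_zero (ϖ ^ c) _).2 hx
    intro n
    by_cases hn : 0 ≤ n
    · obtain ⟨m, rfl⟩ := Int.eq_ofNat_of_zero_le hn
      have := hx' m
      rw [map_sub, PowerSeries.coeff_C] at this
      rw [HahnSeries.coeff_sub, ofPS_coeff_natCast, HahnSeries.C_apply, HahnSeries.coeff_single]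
      convert this using 3
      simp
    · rw [HahnSeries.coeff_sub, ofPS_coeff_of_neg _ (not_le.mp hn), HahnSeries.C_apply,
        HahnSeries.coeff_single_of_ne (by omega), sub_zero]
      exact dvd_zero _
  -- apply the abstract constant test
  have hfinal := forall_pow_dvd_coeff_sub_X0 A (zlRes ℓ) (zlRes_surjective ℓ) p hNk
    (natCast_zl_ne_zero ℓ) (zlRes_eq_zero_iff ℓ) c Pa Pb (ofPS A xs) (ofPS A xz)
    ((a 0 : ℤ) : A) hcong hPa hPb hz' 0
  -- the constant term of `xz`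
  have hconst : (ofPS A xz).coeff 0 = -u * ((a 0 : ℤ) : A) := by
    have h0 : (ofPS A xz).coeff ((0 : ℕ) : ℤ) = PowerSeries.coeff 0 xz := ofPS_coeff_natCast xz 0
    rw [Nat.cast_zero] at h0
    rw [h0, PowerSeries.coeff_zero_eq_constantCoeff_apply, hxz, map_mul, map_mul, map_mul,
      PowerSeries.constantCoeff_C, PowerSeries.constantCoeff_expand, H95.constantCoeff_e4]
    have h1 : PowerSeries.constantCoeff e6ei = 1 := by
      have := congrArg PowerSeries.constantCoeff he6ei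
      rwa [map_mul, PowerSeries.constantCoeff_expand, H95.constantCoeff_e6, one_mul,
        map_one] at this
    have h2 : PowerSeries.constantCoeff (uSer p A a) = ((a 0 : ℤ) : A) := by
      rw [← PowerSeries.coeff_zero_eq_constantCoeff_apply]
      simp [uSer]
    rw [h1, h2, mul_one, mul_one]
  rw [HahnSeries.coeff_sub, hconst, HahnSeries.C_apply, HahnSeries.coeff_single_same] at hfinal
  -- multiply by `-p`
  have hmul : ((((p : ℤ) + 1) * a 0 : ℤ) : A) =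
      -((p : ℕ) : A) * (-u * ((a 0 : ℤ) : A) - ((a 0 : ℤ) : A)) := by
    apply Subtype.ext
    show ((((p : ℤ) + 1) * a 0 : ℤ) : ℚ) = -((p : ℕ) : ℚ) * (-((p : ℚ))⁻¹ * ((a 0 : ℤ) : ℚ) -
      ((a 0 : ℤ) : ℚ))
    push_cast
    field_simp
    ring
  rw [← pow_dvd_intCast_iff ℓ c, hmul]
  exact Dvd.dvd.mul_left hfinal _

end Main

end Fermat.Agent.S16.H63
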