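/-
S16, package (QP) (helper63): the three CONSTANT-TEST leaves in helper39's `ULeaf` shape:

* `uLeaf_three_zero`  : `p ≡ 1 mod 3`  ⇒ `ULeaf p 3 0`      (U3a)
* `uLeaf_two_one`     : `p ≡ 1 mod 4`  ⇒ `ULeaf p 2 1`      (U2a)
* `uLeaf_two_two`     : `p ≡ 3 mod 8`  ⇒ `ULeaf p 2 2`      (half of U2b)

all from `H63.const_test` by induction on the exponent.
-/
import Mathlib
import Fermat.Agent.S16.H63_ConstTest
import Fermat.Agent.S16.H39_Leaves

set_option autoImplicit false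

open UpperHalfPlane ModularForm CongruenceSubgroup Matrix.SpecialLinearGroup ModularFormClass
open scoped MatrixGroups ModularForm

noncomputable section

namespace Fermat.Agent.S16.H63

open Fermat.Agent.S16.H39 (ULeaf)

/-- **Induction on the exponent.**  If, for forms with integral coefficients, `ℓ^(e+1) ∣ aₙ` for
all `n ≥ 1` forces `ℓ ∣ a₀`, then `ULeaf p ℓ e`. -/
theorem uLeaf_of_step (p ℓ e : ℕ) (hℓ : ℓ.Prime)
    (hstep : ∀ (F : ModularForm (Gamma0 p) 2) (a : ℕ → ℤ),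
      (∀ n, (qExpansion 1 F).coeff n = (a n : ℂ)) →
      (∀ n, 1 ≤ n → (ℓ : ℤ) ^ (e + 1) ∣ a n) → (ℓ : ℤ) ∣ a 0) : ULeaf p ℓ e := by
  intro F a ha A
  induction A generalizing F a with
  | zero => intro _; rw [pow_zero]; exact one_dvd _
  | succ A ih =>
    intro h
    by_cases hAe : A + 1 ≤ e
    · exact Dvd.dvd.mul_right (pow_dvd_pow _ hAe) _
    · have hAe' : e + 1 ≤ A + 1 := by omega
      have hℓ0 : (ℓ : ℤ) ≠ 0 := by exact_mod_cast hℓ.ne_zero
      have hℓC : (ℓ : ℂ) ≠ 0 := by exact_mod_cast hℓ.ne_zero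
      -- `ℓ ∣ a 0`
      have h0 : (ℓ : ℤ) ∣ a 0 :=
        hstep F a ha fun n hn => (pow_dvd_pow _ hAe').trans (h n hn)
      -- all coefficients are divisible by `ℓ`
      have hall : ∀ n, (ℓ : ℤ) ∣ a n := by
        intro n
        rcases Nat.eq_zero_or_pos n with rfl | hn
        · exact h0
        · exact (dvd_pow_self _ (Nat.succ_ne_zero A)).trans (h n hn)
      choose a' ha' using hall
      -- the form `F / ℓ`
      have hΓ := CongruenceSubgroup.one_mem_strictPeriods_Gamma0 p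
      set F' : ModularForm (Gamma0 p) 2 := ((ℓ : ℂ)⁻¹) • F with hF'
      have hcoe : (F' : ℍ → ℂ) = ((ℓ : ℂ)⁻¹) • (F : ℍ → ℂ) := by
        ext z; simp [hF']
      have hF'a : ∀ n, (qExpansion 1 F').coeff n = (a' n : ℂ) := by
        intro n
        rw [hcoe, ModularForm.qExpansion_smul one_pos hΓ, PowerSeries.coeff_smul, ha n,
          ha' n, smul_eq_mul]
        push_cast
        rw [← mul_assoc, inv_mul_cancel₀ hℓC, one_mul]
      have h' : ∀ n, 1 ≤ n → (ℓ : ℤ) ^ A ∣ a' n := by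
        intro n hn
        have := h n hn
        rw [ha' n, pow_succ'] at this
        exact (mul_dvd_mul_iff_left hℓ0).mp this
      have := ih F' a' hF'a h'
      rw [ha' 0, pow_succ', mul_left_comm]
      exact mul_dvd_mul_left _ this

variable {p : ℕ} [hp : Fact p.Prime]

/-- **(U3a)**: `p ≡ 1 mod 3`. -/
theorem uLeaf_three_zero (hp3 : p % 3 = 1) : ULeaf p 3 0 := by
  have : Fact (Nat.Prime 3) := ⟨Nat.prime_three⟩
  refine uLeaf_of_step p 3 0 Nat.prime_three fun F a ha h => ?_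
  have hne : (3 : ℕ) ≠ p := by
    rintro rfl
    omega
  have h1 := const_test (p := p) 3 hne 1 (by norm_num) F a ha (by simpa using h)
  rw [pow_one] at h1
  have hprime : Prime ((3 : ℕ) : ℤ) := Nat.prime_iff_prime_int.mp Nat.prime_three
  rcases hprime.dvd_or_dvd h1 with h2 | h2
  · exfalso
    have h3 : ((3 : ℕ) : ℤ) ∣ ((p + 1 : ℕ) : ℤ) := by
      push_cast
      exact h2
    rw [Int.natCast_dvd_natCast] at h3
    omega
  · exact_mod_cast h2

/-- **(U2a)**: `p ≡ 1 mod 4`. -/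
theorem uLeaf_two_one (hp4 : p % 4 = 1) : ULeaf p 2 1 := by
  have : Fact (Nat.Prime 2) := ⟨Nat.prime_two⟩
  refine uLeaf_of_step p 2 1 Nat.prime_two fun F a ha h => ?_
  have hne : (2 : ℕ) ≠ p := by
    rintro rfl
    omega
  have h1 := const_test (p := p) 2 hne 2 (by norm_num) F a ha (by simpa using h)
  -- `p + 1 = 2 * m` with `m` odd
  obtain ⟨m, hm⟩ : ∃ m : ℕ, p + 1 = 2 * (2 * m + 1) := ⟨p / 4, by omega⟩
  have h2 : ((p : ℤ) + 1) = 2 * (2 * (m : ℤ) + 1) := by exact_mod_cast hm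
  rw [h2] at h1
  have h3 : (2 : ℤ) ∣ (2 * (m : ℤ) + 1) * a 0 := by
    have : ((2 : ℕ) : ℤ) ^ 2 = 2 * 2 := by norm_num
    rw [this, mul_assoc] at h1
    exact (mul_dvd_mul_iff_left (by norm_num : (2 : ℤ) ≠ 0)).mp h1
  rcases Int.prime_two.dvd_or_dvd h3 with h4 | h4
  · exfalso
    omega
  · exact_mod_cast h4

/-- **(U2; `p ≡ 3 mod 8`)**. -/
theorem uLeaf_two_two (hp8 : p % 8 = 3) : ULeaf p 2 2 := by
  have : Fact (Nat.Prime 2) := ⟨Nat.prime_two⟩
  refine uLeaf_of_step p 2 2 Nat.prime_two fun F a ha h => ?_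
  have hne : (2 : ℕ) ≠ p := by
    rintro rfl
    omega
  have h1 := const_test (p := p) 2 hne 3 (by norm_num) F a ha (by simpa using h)
  -- `p + 1 = 4 * m` with `m` odd
  obtain ⟨m, hm⟩ : ∃ m : ℕ, p + 1 = 4 * (2 * m + 1) := ⟨p / 8, by omega⟩
  have h2 : ((p : ℤ) + 1) = 4 * (2 * (m : ℤ) + 1) := by exact_mod_cast hm
  rw [h2] at h1
  have h3 : (2 : ℤ) ∣ (2 * (m : ℤ) + 1) * a 0 := by
    have : ((2 : ℕ) : ℤ) ^ 3 = 4 * 2 := by norm_num
    rw [this, mul_assoc] at h1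
    exact (mul_dvd_mul_iff_left (by norm_num : (4 : ℤ) ≠ 0)).mp h1
  rcases Int.prime_two.dvd_or_dvd h3 with h4 | h4
  · exfalso
    omega
  · exact_mod_cast h4

end Fermat.Agent.S16.H63
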