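/-
S16, package (QP) "q-expansion principle at prime level" (helper63), abstract core.

`T`, `T'` two-generator data (helper92's `S18.H92.TwoGen`) over a valuation subring `A` of `L`, with
`T'` the SWAP of `T` (`T'.x = T.y`, `T'.y = T.x`, same `Φ`): for `X₀(N)` this is the Atkin-Lehner
involution `j ↔ j_N`, i.e. the passage from the cusp `∞` to the cusp `0`.

Main theorem `forall_pow_dvd_coeff_swap`: if a function `f = P_a(x,y)/P_b(x,y)` has a `q`-expansion
with all coefficients divisible by `ϖ^e`, and its swap `P_a(y,x)/P_b(y,x)` has an `A`-integral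
expansion `z`, then all coefficients of `z` are divisible by `ϖ^e`.  (`ϖ` generates the kernel of
the residue map.)  Corollary: the CONSTANT TEST.
-/
import Mathlib
import Fermat.Agent.S18.H92_GaussModel

set_option autoImplicit false

noncomputable section

namespace Fermat.Agent.S16.H63

open ModularCurve Polynomial
open Fermat.Agent.S18.H92 (TwoGen up ev2 up_injective)

/-! ### Coefficientwise divisibility in Laurent series -/

section Content

variable {R : Type*} [CommRing R] [IsDomain R]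

/-- Coefficientwise division by a nonzero element. -/
theorem exists_eq_C_mul_of_forall_dvd {ϖ : R} (hϖ : ϖ ≠ 0) (y : LaurentSeries R)
    (h : ∀ n, ϖ ∣ y.coeff n) : ∃ y' : LaurentSeries R, y = HahnSeries.C ϖ * y' := by
  classical
  choose c hc using h
  have hsupp : (Function.support c) ⊆ y.support := by
    intro n hn
    rw [Function.mem_support] at hn
    rw [HahnSeries.mem_support, hc n]
    exact mul_ne_zero hϖ hn
  have hbdd : BddBelow (Function.support c) := by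
    have h : BddBelow y.support :=
      ⟨y.order, fun m hm => by
        by_contra hlt
        exact hm (HahnSeries.coeff_eq_zero_of_lt_order (not_le.mp hlt))⟩
    exact h.mono hsupp
  refine ⟨HahnSeries.ofSuppBddBelow c hbdd, ?_⟩
  ext n
  rw [HahnSeries.C_mul_eq_smul, HahnSeries.coeff_smul, smul_eq_mul, hc n]
  rfl

omit [IsDomain R] in
theorem coeff_C_mul' (a : R) (y : LaurentSeries R) (n : ℤ) :
    (HahnSeries.C a * y).coeff n = a * y.coeff n := by
  rw [HahnSeries.C_mul_eq_smul, HahnSeries.coeff_smul, smul_eq_mul]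

variable {k : Type*} [Field k]

/-- **Gauss lemma.**  `π : R → k` with kernel `(ϖ)`; if the reduction of `δ` is nonzero and
`ϖ^e` divides all coefficients of `δ * y`, then it divides all coefficients of `y`. -/
theorem forall_pow_dvd_coeff_of_mul (π : R →+* k) {ϖ : R} (hϖ0 : ϖ ≠ 0)
    (hker : ∀ a, π a = 0 ↔ ϖ ∣ a) (δ : LaurentSeries R) (hδ : coeffMap π δ ≠ 0) (e : ℕ) :
    ∀ y : LaurentSeries R, (∀ n, ϖ ^ e ∣ (δ * y).coeff n) → ∀ n, ϖ ^ e ∣ y.coeff n := by
  induction e with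
  | zero => intro y _ n; rw [pow_zero]; exact one_dvd _
  | succ e ih =>
    intro y h
    have h1 : coeffMap π (δ * y) = 0 := by
      ext n
      rw [coeffMap_coeff, HahnSeries.coeff_zero, hker]
      exact (dvd_pow_self ϖ (Nat.succ_ne_zero e)).trans (h n)
    rw [map_mul, mul_eq_zero] at h1
    have h2 : coeffMap π y = 0 := h1.resolve_left hδ
    have h3 : ∀ n, ϖ ∣ y.coeff n := by
      intro n
      rw [← hker, ← coeffMap_coeff, h2, HahnSeries.coeff_zero]
    obtain ⟨y', rfl⟩ := exists_eq_C_mul_of_forall_dvd hϖ0 y h3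
    have h4 : ∀ n, ϖ ^ e ∣ (δ * y').coeff n := by
      intro n
      have := h n
      rw [show δ * (HahnSeries.C ϖ * y') = HahnSeries.C ϖ * (δ * y') by ring, coeff_C_mul',
        pow_succ'] at this
      exact (mul_dvd_mul_iff_left hϖ0).mp this
    intro n
    rw [coeff_C_mul', pow_succ']
    exact mul_dvd_mul_left ϖ (ih y' h4 n)

end Content

/-! ### The kernel of a two-variable evaluation -/

section Kernel

variable {R : Type*} [CommRing R]

/-- If `1, y, …, y^(n-1)` are independent over `R[x]` and `Φ` is monic of degree `n` with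
`Φ(x)(y) = 0`, then the kernel of `P ↦ P(x)(y)` is `(Φ)`. -/
theorem dvd_of_ev2_eq_zero {x y : LaurentSeries R} {Φ : R[X][X]} (hΦ : Φ.Monic)
    (hroot : ev2 x y Φ = 0)
    (hind : ∀ P : R[X][X], P.degree < Φ.degree → ev2 x y P = 0 → P = 0)
    {P : R[X][X]} (hP : ev2 x y P = 0) : Φ ∣ P := by
  rw [← Polynomial.modByMonic_eq_zero_iff_dvd hΦ]
  by_cases hR : Nontrivial R
  · apply hind _ (Polynomial.degree_modByMonic_lt P hΦ)
    have h1 := Polynomial.modByMonic_add_div P Φ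
    have h2 : ev2 x y P = ev2 x y (P %ₘ Φ) + ev2 x y Φ * ev2 x y (P /ₘ Φ) := by
      rw [← map_mul, ← map_add, h1]
    rw [hP, hroot, zero_mul, add_zero] at h2
    exact h2.symm
  · rw [not_nontrivial_iff_subsingleton] at hR
    exact Subsingleton.elim _ _

end Kernel

/-! ### The swap theorem -/

section Swap

variable {L : Type*} [Field L] {k : Type*} [Field k] {A : ValuationSubring L} {π : A →+* k}

/-- independence over `L`, from the independence over `k`. -/
theorem TwoGen_indepL (T : TwoGen A π) (P : L[X][X]) (hdeg : P.degree < T.ΦL.degree)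
    (h : ev2 T.xL T.yL P = 0) : P = 0 := by
  by_contra hP
  rw [T.ΦL_degree] at hdeg
  obtain ⟨c, hc, Q, hQ, hred⟩ := T.exists_scale_poly P hP hdeg
  apply hred
  have h1 : up A (ev2 T.x T.y Q) = 0 := by
    rw [T.up_ev2, hQ, map_mul, h, mul_zero]
  rw [up_injective A (h1.trans (map_zero _).symm), map_zero]

theorem TwoGen_dvd_of_ev2L (T : TwoGen A π) {P : L[X][X]} (h : ev2 T.xL T.yL P = 0) :
    T.ΦL ∣ P :=
  dvd_of_ev2_eq_zero T.ΦL_monic T.ev2_ΦL (TwoGen_indepL T) h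

theorem TwoGen_dvd_of_ev2k (T : TwoGen A π) {P : k[X][X]} (h : ev2 T.xk T.yk P = 0) :
    T.Φ.map (Polynomial.mapRingHom π) ∣ P := by
  have hmonic : (T.Φ.map (Polynomial.mapRingHom π)).Monic := T.monic.map _
  have hdeg : (T.Φ.map (Polynomial.mapRingHom π)).degree = T.n := by
    rw [Polynomial.degree_eq_natDegree hmonic.ne_zero, T.monic.natDegree_map, T.natDegree_eq]
  refine dvd_of_ev2_eq_zero hmonic ?_ (fun P hP h => T.indep P (hdeg ▸ hP) h) h
  rw [← T.red_ev2, T.root, map_zero]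

/-- `L`-polynomial expressions in `x, y` lie in the function field. -/
theorem ev2_mem_FL (T : TwoGen A π) (P : L[X][X]) : ev2 T.xL T.yL P ∈ T.FL := by
  have h1 : ev2 T.xL T.yL P ∈ Algebra.adjoin L {T.xL, T.yL} := by
    rw [Fermat.Agent.S18.H92.adjoin_pair_eq_range]
    exact ⟨P, rfl⟩
  exact IntermediateField.algebra_adjoin_le_adjoin L _ h1

variable (T T' : TwoGen A π)

/-- **The swap theorem.**  `T'` is the swap of `T`.  If `f = P_a(x,y)/P_b(x,y)` has all
coefficients divisible by `ϖ^e` and `P_a(y,x)/P_b(y,x) = z` is `A`-integral, then all coefficients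
of `z` are divisible by `ϖ^e`. -/
theorem forall_pow_dvd_coeff_swap (hx : T'.x = T.y) (hy : T'.y = T.x) (hΦ : T'.Φ = T.Φ)
    {ϖ : A} (hϖ0 : ϖ ≠ 0) (hker : ∀ a, π a = 0 ↔ ϖ ∣ a) (e : ℕ)
    (Pa Pb : L[X][X]) (f1 z : LaurentSeries A)
    (h1 : ev2 T.xL T.yL Pa = up A (HahnSeries.C (ϖ ^ e) * f1) * ev2 T.xL T.yL Pb)
    (h1b : ev2 T.xL T.yL Pb ≠ 0)
    (h2 : ev2 T.yL T.xL Pa = up A z * ev2 T.yL T.xL Pb) :
    ∀ n, ϖ ^ e ∣ z.coeff n := by
  have hxL : T'.xL = T.yL := by rw [TwoGen.xL, hx]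
  have hyL : T'.yL = T.xL := by rw [TwoGen.yL, hy]
  have hΦL : T'.ΦL = T.ΦL := by rw [TwoGen.ΦL, hΦ]; rfl
  -- the swapped evaluation kills `Φ`
  have hswapΦ : ev2 T.yL T.xL T.ΦL = 0 := by
    rw [← hxL, ← hyL, ← hΦL]; exact T'.ev2_ΦL
  have hswap_of_dvd : ∀ P : L[X][X], ev2 T.xL T.yL P = 0 → ev2 T.yL T.xL P = 0 := by
    intro P hP
    obtain ⟨S, rfl⟩ := TwoGen_dvd_of_ev2L T hP
    rw [map_mul, hswapΦ, zero_mul]
  have hswap_ne : ∀ P : L[X][X], ev2 T.xL T.yL P ≠ 0 → ev2 T.yL T.xL P ≠ 0 := by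
    intro P hP h0
    apply hP
    have h3 : ev2 T'.xL T'.yL P = 0 := by rw [hxL, hyL]; exact h0
    obtain ⟨S, rfl⟩ := TwoGen_dvd_of_ev2L T' h3
    rw [hΦL, map_mul, T.ev2_ΦL, zero_mul]
  have hPb' : ev2 T.yL T.xL Pb ≠ 0 := hswap_ne Pb h1b
  set f : LaurentSeries L := up A (HahnSeries.C (ϖ ^ e) * f1) with hf
  by_cases hf0 : f = 0
  · -- then `z = 0`
    have h3 : ev2 T.xL T.yL Pa = 0 := by rw [h1, hf0, zero_mul]
    have h4 := hswap_of_dvd Pa h3
    rw [h2, mul_eq_zero] at h4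
    have h5 : up A z = 0 := h4.resolve_right hPb'
    have h6 : z = 0 := up_injective A (h5.trans (map_zero _).symm)
    intro n
    rw [h6, HahnSeries.coeff_zero]
    exact dvd_zero _
  · have hfFL : f ∈ T.FL := by
      have h3 : f = ev2 T.xL T.yL Pa / ev2 T.xL T.yL Pb := by
        rw [h1, mul_div_assoc, div_self h1b, mul_one]
      rw [h3]
      exact T.FL.div_mem (ev2_mem_FL T Pa) (ev2_mem_FL T Pb)
    obtain ⟨c, hc, a, ⟨Qa, rfl⟩, b, ⟨Qb, rfl⟩, ha0, hb0, hrel⟩ := T.exists_frac hfFL hf0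
    -- the polynomial identity
    set QaL : L[X][X] := Qa.map (Polynomial.mapRingHom A.subtype) with hQaL
    set QbL : L[X][X] := Qb.map (Polynomial.mapRingHom A.subtype) with hQbL
    have hupa : up A (ev2 T.x T.y Qa) = ev2 T.xL T.yL QaL := T.up_ev2 Qa
    have hupb : up A (ev2 T.x T.y Qb) = ev2 T.xL T.yL QbL := T.up_ev2 Qb
    have hΨ : ev2 T.xL T.yL (C (C c) * Pa * QbL - QaL * Pb) = 0 := by
      rw [map_sub, map_mul, map_mul, map_mul, Fermat.Agent.S18.H92.ev2_C_C, h1, ← hupa, ← hupb,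
        ← hrel]
      ring
    have hΨ' := hswap_of_dvd _ hΨ
    rw [map_sub, map_mul, map_mul, map_mul, Fermat.Agent.S18.H92.ev2_C_C, h2, sub_eq_zero] at hΨ'
    -- swapped integral expressions
    have hupa' : ev2 T.yL T.xL QaL = up A (ev2 T'.x T'.y Qa) := by
      rw [T'.up_ev2, hxL, hyL]
    have hupb' : ev2 T.yL T.xL QbL = up A (ev2 T'.x T'.y Qb) := by
      rw [T'.up_ev2, hxL, hyL]
    set a' : LaurentSeries A := ev2 T'.x T'.y Qa with ha'
    set b' : LaurentSeries A := ev2 T'.x T'.y Qb with hb'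
    have hrel' : HahnSeries.C c * up A z * up A b' = up A a' := by
      rw [hupa', hupb'] at hΨ'
      have h3 : (HahnSeries.C c * up A z * up A b') * ev2 T.yL T.xL Pb =
          up A a' * ev2 T.yL T.xL Pb := by
        rw [← hΨ']; ring
      exact mul_right_cancel₀ hPb' h3
    -- nonvanishing of the reduction of `b'`
    have hredb' : coeffMap π b' ≠ 0 := by
      intro h0
      rw [hb', T'.red_ev2] at h0
      obtain ⟨S, hS⟩ := TwoGen_dvd_of_ev2k T' h0
      apply hb0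
      rw [T.red_ev2, hS, hΦ, map_mul, ← T.red_ev2 T.Φ, T.root, map_zero, zero_mul]
    -- the constant: `(c ϖ^e)⁻¹ ∈ A`
    have hcinv : ∃ u : A, c⁻¹ = ((ϖ ^ e * u : A) : L) := by
      set c' : L := c * ((ϖ ^ e : A) : L) with hc'
      have hϖe : ((ϖ ^ e : A) : L) ≠ 0 := by
        intro h0
        exact pow_ne_zero e hϖ0 (Subtype.ext h0)
      have hc'0 : c' ≠ 0 := mul_ne_zero hc hϖe
      have hmem : c'⁻¹ ∈ A := by
        rcases A.mem_or_inv_mem c' with hcA | hcA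
        · have hcoe : (((⟨c', hcA⟩ : A) : A) : L) = c * ((ϖ ^ e : A) : L) := rfl
          have h3 : up A (HahnSeries.C ⟨c', hcA⟩ * f1 * ev2 T.x T.y Qb) =
              up A (ev2 T.x T.y Qa) := by
            rw [← hrel, hf, map_mul, map_mul, map_mul, Fermat.Agent.S18.H92.TwoGen.up_C,
              Fermat.Agent.S18.H92.TwoGen.up_C, hcoe, map_mul]
            ring
          have h4 := up_injective A h3
          have hu : IsUnit (⟨c', hcA⟩ : A) := by
            by_contra hnu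
            apply ha0
            rw [← h4, map_mul, map_mul, T.red_C, (T.map_eq_zero_iff _).mpr hnu]
            simp
          obtain ⟨u, hu⟩ := hu
          have h5 : (((u⁻¹ : Aˣ) : A) : L) * c' = 1 := by
            have : ((u⁻¹ : Aˣ) : A) * (⟨c', hcA⟩ : A) = 1 := by rw [← hu]; simp
            have := congrArg Subtype.val this
            simpa using this
          have h6 : c'⁻¹ = (((u⁻¹ : Aˣ) : A) : L) := by
            field_simp
            rw [mul_comm]; exact h5.symm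
          rw [h6]; exact ((u⁻¹ : Aˣ) : A).2
        · exact hcA
      refine ⟨⟨c'⁻¹, hmem⟩, ?_⟩
      show c⁻¹ = ((ϖ ^ e : A) : L) * c'⁻¹
      rw [hc', mul_inv, mul_comm c⁻¹, ← mul_assoc, mul_inv_cancel₀ hϖe, one_mul]
    obtain ⟨u, hu⟩ := hcinv
    have hfinal : b' * z = HahnSeries.C (ϖ ^ e * u) * a' := by
      apply up_injective A
      rw [map_mul, map_mul, Fermat.Agent.S18.H92.TwoGen.up_C, ← hu, ← hrel', map_inv₀]
      have : (HahnSeries.C c : LaurentSeries L) ≠ 0 := by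
        rw [Ne, map_eq_zero]; exact hc
      field_simp
    apply forall_pow_dvd_coeff_of_mul π hϖ0 hker b' hredb' e z
    intro n
    rw [hfinal, coeff_C_mul']
    exact ⟨u * a'.coeff n, by ring⟩

/-- The swap theorem, with the divisibility hypothesis stated coefficientwise. -/
theorem forall_pow_dvd_coeff_swap' (hx : T'.x = T.y) (hy : T'.y = T.x) (hΦ : T'.Φ = T.Φ)
    {ϖ : A} (hϖ0 : ϖ ≠ 0) (hker : ∀ a, π a = 0 ↔ ϖ ∣ a) (e : ℕ)
    (Pa Pb : L[X][X]) (s z : LaurentSeries A) (hs : ∀ n, ϖ ^ e ∣ s.coeff n)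
    (h1 : ev2 T.xL T.yL Pa = up A s * ev2 T.xL T.yL Pb)
    (h1b : ev2 T.xL T.yL Pb ≠ 0)
    (h2 : ev2 T.yL T.xL Pa = up A z * ev2 T.yL T.xL Pb) :
    ∀ n, ϖ ^ e ∣ z.coeff n := by
  obtain ⟨f1, rfl⟩ := exists_eq_C_mul_of_forall_dvd (pow_ne_zero e hϖ0) s hs
  exact forall_pow_dvd_coeff_swap T T' hx hy hΦ hϖ0 hker e Pa Pb f1 z h1 h1b h2

/-- **Constant test (abstract form).**  If `f = P_a(x,y)/P_b(x,y)` has an `A`-integral expansion
`s ≡ c₁ mod ϖ^e` (`c₁ ∈ A` a constant) and the swap `P_a(y,x)/P_b(y,x)` has an `A`-integral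
expansion `z`, then `z ≡ c₁ mod ϖ^e` as well. -/
theorem forall_pow_dvd_coeff_sub_swap (hx : T'.x = T.y) (hy : T'.y = T.x) (hΦ : T'.Φ = T.Φ)
    {ϖ : A} (hϖ0 : ϖ ≠ 0) (hker : ∀ a, π a = 0 ↔ ϖ ∣ a) (e : ℕ)
    (Pa Pb : L[X][X]) (s z : LaurentSeries A) (c₁ : A)
    (hs : ∀ n, ϖ ^ e ∣ (s - HahnSeries.C c₁).coeff n)
    (h1 : ev2 T.xL T.yL Pa = up A s * ev2 T.xL T.yL Pb)
    (h1b : ev2 T.xL T.yL Pb ≠ 0)
    (h2 : ev2 T.yL T.xL Pa = up A z * ev2 T.yL T.xL Pb) :
    ∀ n, ϖ ^ e ∣ (z - HahnSeries.C c₁).coeff n := by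
  refine forall_pow_dvd_coeff_swap' T T' hx hy hΦ hϖ0 hker e (Pa - C (C (c₁ : L)) * Pb) Pb
    (s - HahnSeries.C c₁) (z - HahnSeries.C c₁) hs ?_ h1b ?_
  · rw [map_sub, map_mul, Fermat.Agent.S18.H92.ev2_C_C, h1, map_sub,
      Fermat.Agent.S18.H92.TwoGen.up_C, sub_mul]
  · rw [map_sub, map_mul, Fermat.Agent.S18.H92.ev2_C_C, h2, map_sub,
      Fermat.Agent.S18.H92.TwoGen.up_C, sub_mul]

/-- In particular the constant terms: `ϖ^e ∣ z₀ - c₁`. -/
theorem pow_dvd_coeff_zero_sub_swap (hx : T'.x = T.y) (hy : T'.y = T.x) (hΦ : T'.Φ = T.Φ)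
    {ϖ : A} (hϖ0 : ϖ ≠ 0) (hker : ∀ a, π a = 0 ↔ ϖ ∣ a) (e : ℕ)
    (Pa Pb : L[X][X]) (s z : LaurentSeries A) (c₁ : A)
    (hs : ∀ n, ϖ ^ e ∣ (s - HahnSeries.C c₁).coeff n)
    (h1 : ev2 T.xL T.yL Pa = up A s * ev2 T.xL T.yL Pb)
    (h1b : ev2 T.xL T.yL Pb ≠ 0)
    (h2 : ev2 T.yL T.xL Pa = up A z * ev2 T.yL T.xL Pb) :
    ϖ ^ e ∣ z.coeff 0 - c₁ := by
  have h := forall_pow_dvd_coeff_sub_swap T T' hx hy hΦ hϖ0 hker e Pa Pb s z c₁ hs h1 h1b h2 0
  rwa [HahnSeries.coeff_sub, HahnSeries.C_apply, HahnSeries.coeff_single_same] at h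

end Swap

end Fermat.Agent.S16.H63
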