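/-
S16 (helper63): pre-flight assembly.  The frozen statement S16 from the SINGLE remaining leaf
`ULeaf p 2 2` for `p ≡ 7 mod 8`; all other leaves are on main:
U5 (helper46 `H46.uLeaf_five`), U3a / U2a / U2b for `p ≡ 3 mod 8` (`H63_Leaves`),
U3b (helper17 `H17.uLeaf_three_one_final`).
-/
import Fermat.Agent.S16.H16_FinalDraftU
import Fermat.Agent.S16.H63_Leaves
import Fermat.Agent.S16.H17_U3bFinal
import Fermat.Agent.S16.H46_U5b

set_option autoImplicit false
open ModularCurve CuspForm

namespace Fermat.Agent.S16.H63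

open Fermat.Agent.S16

/-- **S16 from the single remaining leaf**: `ULeaf p 2 2` for `p ≡ 7 mod 8`
(`p ∉ {2, 3, 5, 7, 13}`). -/
theorem s16_of_seven_mod_eight (p : ℕ) [Fact p.Prime]
    (h7 : p ∉ ({2, 3, 5, 7, 13} : Finset ℕ) → p % 8 = 7 → H39.ULeaf p 2 2) :
    Nat.card (↥(heckeLatticeAlgebra p ∅) ⧸
        Ideal.map ((latticeRestrictHom p ∅).toRingHom.comp (heckeEvalForms p 2))
          (eisensteinIdeal p)) =
      eisensteinNumerator p := by
  refine H16.result_of_uLeaves p ?_ ?_ ?_ ?_ ?_
  · exact fun _ l hl hl5 => H46.uLeaf_five p l hl hl5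
  · exact fun _ h => uLeaf_three_zero h
  · exact fun hp _ => H17.uLeaf_three_one_final p
      (le_trans (by norm_num) (H16.eleven_le_of_not_mem Fact.out hp))
  · exact fun _ h => uLeaf_two_one h
  · intro hp h
    have h8 : p % 8 = 3 ∨ p % 8 = 7 := by omega
    rcases h8 with h8 | h8
    · exact uLeaf_two_two h8
    · exact h7 hp h8

/-- Reformulation with the `uLeaf_of_step` core: it suffices that, for `p ≡ 7 mod 8`, a form in
`M₂(Γ₀(p))` with integral coefficients `≡ 0 mod 8` away from the constant term has an even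
constant term. -/
theorem s16_of_core_seven_mod_eight (p : ℕ) [Fact p.Prime]
    (h7 : p ∉ ({2, 3, 5, 7, 13} : Finset ℕ) → p % 8 = 7 →
      ∀ (F : ModularForm (CongruenceSubgroup.Gamma0 p) 2) (a : ℕ → ℤ),
        (∀ n, (UpperHalfPlane.qExpansion 1 F).coeff n = (a n : ℂ)) →
        (∀ n, 1 ≤ n → (8 : ℤ) ∣ a n) → (2 : ℤ) ∣ a 0) :
    Nat.card (↥(heckeLatticeAlgebra p ∅) ⧸
        Ideal.map ((latticeRestrictHom p ∅).toRingHom.comp (heckeEvalForms p 2))
          (eisensteinIdeal p)) =
      eisensteinNumerator p := by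
  refine s16_of_seven_mod_eight p fun hp h8 => ?_
  refine uLeaf_of_step p 2 2 Nat.prime_two fun F a ha h => ?_
  have := h7 hp h8 F a ha (fun n hn => by
    have := h n hn
    norm_num at this
    exact this)
  exact_mod_cast this

end Fermat.Agent.S16.H63
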