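import Mathlib
import Fermat.Agent.S16.H6_G0Iface
import Fermat.Agent.S16.H94_RRBridge

/-!
# (G0) adapters (helper6): the place-language lattices of `H94_RRBridge` in the vocabulary of
`H6_G0Iface`

* `Rfin_eq`, `Rinf_zero_eq` : `H94.Rfin x = H6.Rfin k x`, `H94.Rinf x 0 = H6.Rinf k x`
* `mem_Rfin_iff_isIntegral_Afin`, `mem_Rinf_iff_isIntegral_Binf` : the two lattices are the
  integral closures of `Afin k x`, `Binf k x` (subalgebras of `k⟮x⟯`) in `F`.
-/

set_option autoImplicit false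

noncomputable section

namespace Fermat.Agent.S16.H6

open AlgebraicCurve IntermediateField Polynomial

section General

variable {R S F : Type*} [CommRing R] [CommRing S] [CommRing F] [Nontrivial S]

/-- Integrality only depends on the image of the coefficient ring. -/
theorem isIntegralElem_iff_of_surjective (f1 : R →+* F) (f2 : S →+* F) (φ : R →+* S)
    (hφ : Function.Surjective φ) (h : f1 = f2.comp φ) (y : F) :
    f1.IsIntegralElem y ↔ f2.IsIntegralElem y := by
  constructor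
  · rintro ⟨p, hp, he⟩
    refine ⟨p.map φ, hp.map φ, ?_⟩
    rw [Polynomial.eval₂_map, ← h]
    exact he
  · rintro ⟨p, hp, he⟩
    have hlift : p ∈ Polynomial.lifts φ := by
      obtain ⟨q, hq⟩ := Polynomial.map_surjective φ hφ p
      exact ⟨q, hq⟩
    obtain ⟨q, hq, -, hqm⟩ := Polynomial.lifts_and_degree_eq_and_monic hlift hp
    refine ⟨q, hqm, ?_⟩
    rw [h, ← Polynomial.eval₂_map, hq]
    exact he

end General

variable {k F : Type*} [Field k] [Field F] [Algebra k F]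

theorem Rfin_eq {x : F} (hx : x ≠ 0) : H94.Rfin (K := k) x = Rfin k x := by
  ext f
  rw [H94.mem_Rfin, mem_Rfin]
  constructor
  · intro h v hv
    exact h v ((S18.H33.mem_place_iff_ord_nonneg v hx).mpr hv)
  · intro h v hv
    exact h v ((S18.H33.mem_place_iff_ord_nonneg v hx).mp hv)

theorem Rinf_zero_eq {x : F} (hx : x ≠ 0) : H94.Rinf (K := k) x 0 = Rinf k x := by
  ext f
  rw [H94.mem_Rinf_zero, mem_Rinf]
  constructor
  · intro h v hv
    exact h v ((H94.not_mem_place_iff_ord_neg v hx).mpr hv)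
  · intro h v hv
    exact h v ((H94.not_mem_place_iff_ord_neg v hx).mp hv)

/-- The image of `Afin k x` in `F` is `k[x]`. -/
theorem coe_mem_adjoin_of_mem_Afin {x : F} {e : k⟮x⟯} (he : e ∈ Afin k x) :
    (e : F) ∈ Algebra.adjoin k {x} := by
  have h1 : (IntermediateField.val k⟮x⟯) e ∈
      (Algebra.adjoin k {AdjoinSimple.gen k x}).map (IntermediateField.val k⟮x⟯) :=
    ⟨e, he, rfl⟩
  rw [AlgHom.map_adjoin, Set.image_singleton] at h1
  simpa using h1

theorem exists_mem_Afin_of_mem_adjoin {x : F} {f : F} (hf : f ∈ Algebra.adjoin k {x}) :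
    ∃ e : k⟮x⟯, e ∈ Afin k x ∧ (e : F) = f := by
  have h1 : f ∈ (Algebra.adjoin k {AdjoinSimple.gen k x}).map (IntermediateField.val k⟮x⟯) := by
    rw [AlgHom.map_adjoin, Set.image_singleton]
    simpa using hf
  obtain ⟨e, he, rfl⟩ := h1
  exact ⟨e, he, rfl⟩

/-- The ring homomorphism `Afin k x → k[x] ⊆ F`. -/
def afinToAdjoin (x : F) : ↥(Afin k x) →+* ↥(Algebra.adjoin k {x}) where
  toFun a := ⟨((a : k⟮x⟯) : F), coe_mem_adjoin_of_mem_Afin a.2⟩
  map_one' := rfl
  map_mul' _ _ := rfl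
  map_zero' := rfl
  map_add' _ _ := rfl

theorem afinToAdjoin_surjective (x : F) : Function.Surjective (afinToAdjoin (k := k) x) := by
  rintro ⟨f, hf⟩
  obtain ⟨e, he, rfl⟩ := exists_mem_Afin_of_mem_adjoin hf
  exact ⟨⟨e, he⟩, rfl⟩

theorem isIntegral_Afin_iff (x : F) (y : F) :
    IsIntegral ↥(Afin k x) y ↔ IsIntegral ↥(Algebra.adjoin k {x}) y :=
  isIntegralElem_iff_of_surjective (algebraMap ↥(Afin k x) F)
    (algebraMap ↥(Algebra.adjoin k {x}) F) (afinToAdjoin x) (afinToAdjoin_surjective x)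
    (RingHom.ext fun _ => rfl) y

/-- The ring homomorphism `Binf k x → Oinf x ⊆ F`. -/
def binfToOinf {x : F} (hx : x ≠ 0) : ↥(Binf k x) →+* ↥(H94.Oinf (K := k) x) where
  toFun b := ⟨((b : k⟮x⟯) : F), by
    refine ⟨(b : k⟮x⟯).2, ?_⟩
    rw [Rinf_zero_eq hx]
    exact b.2⟩
  map_one' := rfl
  map_mul' _ _ := rfl
  map_zero' := rfl
  map_add' _ _ := rfl

theorem binfToOinf_surjective {x : F} (hx : x ≠ 0) :
    Function.Surjective (binfToOinf (k := k) hx) := by
  rintro ⟨f, hf1, hf2⟩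
  refine ⟨⟨⟨f, hf1⟩, ?_⟩, rfl⟩
  rw [mem_Binf, ← Rinf_zero_eq hx]
  exact hf2

theorem isIntegral_Binf_iff {x : F} (hx : x ≠ 0) (y : F) :
    IsIntegral ↥(Binf k x) y ↔ IsIntegral ↥(H94.Oinf (K := k) x) y :=
  isIntegralElem_iff_of_surjective (algebraMap ↥(Binf k x) F)
    (algebraMap ↥(H94.Oinf (K := k) x) F) (binfToOinf hx) (binfToOinf_surjective hx)
    (RingHom.ext fun _ => rfl) y

/-- `Rfin k x` is the integral closure of `Afin k x` in `F`. -/
theorem mem_Rfin_iff_isIntegral_Afin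
    (hplace : ∀ O : ValuationSubring F, (∀ a : k, algebraMap k F a ∈ O) → O ≠ ⊤ →
      IsPrincipalIdealRing O) {x : F} (hx : x ≠ 0) (y : F) :
    y ∈ Rfin k x ↔ IsIntegral ↥(Afin k x) y := by
  rw [← Rfin_eq hx, H94.mem_Rfin_iff_isIntegral hplace, isIntegral_Afin_iff]

/-- `Rinf k x` is the integral closure of `Binf k x` in `F`. -/
theorem mem_Rinf_iff_isIntegral_Binf [IsAlgClosed k]
    (hfin : ∀ v : Place k F, Module.Finite k v.ResidueField)
    (hplace : ∀ O : ValuationSubring F, (∀ a : k, algebraMap k F a ∈ O) → O ≠ ⊤ →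
      IsPrincipalIdealRing O) {x : F} (htr : Transcendental k x) (y : F) :
    y ∈ Rinf k x ↔ IsIntegral ↥(Binf k x) y := by
  have hx : x ≠ 0 := fun h => htr (h ▸ (isAlgebraic_zero))
  rw [← Rinf_zero_eq hx, H94.mem_Rinf_zero_iff_isIntegral_Oinf hfin hplace htr,
    isIntegral_Binf_iff hx]

end Fermat.Agent.S16.H6
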