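import Mathlib
import Fermat.Agent.S16.H6_G0Iface
import Fermat.Agent.S16.H85_LatticeChi

/-!
# (G0) package P4 (helper6): the duality formula for lattice Euler characteristics

Abstract, `k`-linear.  Two "dual systems" `(LatA, dA)`, `(LatB, dB)` of subspaces of `V`
(`H6.DualSys`: any two lattices are commensurable, and the duality reverses finite-colength
inclusions preserving the colength).  Then the quantity

  `Φ(U, W) := chi U W + chi (dA U) (dB W)`

does not depend on `U ∈ LatA`, `W ∈ LatB` (and the Fredholm property of both pairs propagates).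
So it equals its value `c` at one base pair.  For self-dual-up-to-finite-colength lattices
`R ≤ dA R`, `Ri ≤ dB Ri` this gives

  `2 * chi R Ri + colen R (dA R) + colen Ri (dB Ri) = c`.
-/

set_option autoImplicit false
set_option linter.style.haveILetI false

noncomputable section

namespace Fermat.Agent.S16.H6

open Fermat.Agent.S16

section Duality

variable {k V : Type*} [Field k] [AddCommGroup V] [Module k V]

theorem colen_eq_colength (U U' : Submodule k V) : colen U U' = H85.colength U U' := rfl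

/-- One elementary move in the first argument (the second pair `W`, `dW` is arbitrary). -/
theorem dual_step {LatA : Set (Submodule k V)} {dA : Submodule k V → Submodule k V}
    (hA : DualSys LatA dA) (W dW : Submodule k V) {U U' : Submodule k V}
    (hU : U ∈ LatA) (hU' : U' ∈ LatA) (h : FinCol U U') :
    ((H85.IsFred U W ∧ H85.IsFred (dA U) dW) ↔ (H85.IsFred U' W ∧ H85.IsFred (dA U') dW)) ∧
    ((H85.IsFred U W ∧ H85.IsFred (dA U) dW) →
      H85.chi U W + H85.chi (dA U) dW = H85.chi U' W + H85.chi (dA U') dW) := by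
  obtain ⟨⟨hle', hfin'⟩, hcol⟩ := hA.anti U hU U' hU' h
  obtain ⟨hle, hfin⟩ := h
  haveI := hfin
  haveI := hfin'
  have e1 : H85.IsFred U W ↔ H85.IsFred U' W := H85.isFred_iff_of_le W hle
  have e2 : H85.IsFred (dA U') dW ↔ H85.IsFred (dA U) dW := H85.isFred_iff_of_le dW hle'
  refine ⟨by rw [e1, e2], ?_⟩
  rintro ⟨f1, f2⟩
  have c1 := H85.chi_of_le W hle f1
  have c2 := H85.chi_of_le dW hle' (e2.mpr f2)
  rw [← colen_eq_colength] at c1 c2
  rw [c1, c2, hcol]
  ring

/-- Any two lattices in the first argument. -/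
theorem dual_first {LatA : Set (Submodule k V)} {dA : Submodule k V → Submodule k V}
    (hA : DualSys LatA dA) (W dW : Submodule k V) {U U' : Submodule k V}
    (hU : U ∈ LatA) (hU' : U' ∈ LatA) :
    ((H85.IsFred U W ∧ H85.IsFred (dA U) dW) ↔ (H85.IsFred U' W ∧ H85.IsFred (dA U') dW)) ∧
    ((H85.IsFred U W ∧ H85.IsFred (dA U) dW) →
      H85.chi U W + H85.chi (dA U) dW = H85.chi U' W + H85.chi (dA U') dW) := by
  obtain ⟨U'', hU'', h1, h2⟩ := hA.comm U hU U' hU'
  obtain ⟨a1, b1⟩ := dual_step hA W dW hU'' hU h1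
  obtain ⟨a2, b2⟩ := dual_step hA W dW hU'' hU' h2
  refine ⟨a1.symm.trans a2, ?_⟩
  intro hF
  have hF'' := a1.mpr hF
  rw [← b1 hF'', b2 hF'']

/-- **The duality formula** (abstract form): `chi U W + chi (dA U) (dB W)` is the same for all
`U ∈ LatA`, `W ∈ LatB`, and both pairs are Fredholm as soon as they are for one base pair. -/
theorem dual_formula {LatA LatB : Set (Submodule k V)} {dA dB : Submodule k V → Submodule k V}
    (hA : DualSys LatA dA) (hB : DualSys LatB dB)
    {U0 W0 : Submodule k V} (hU0 : U0 ∈ LatA) (hW0 : W0 ∈ LatB)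
    (hF0 : H85.IsFred U0 W0) (hF0' : H85.IsFred (dA U0) (dB W0)) {c : ℤ}
    (hc : H85.chi U0 W0 + H85.chi (dA U0) (dB W0) = c)
    {U W : Submodule k V} (hU : U ∈ LatA) (hW : W ∈ LatB) :
    H85.IsFred U W ∧ H85.IsFred (dA U) (dB W) ∧ H85.chi U W + H85.chi (dA U) (dB W) = c := by
  -- move the first argument
  obtain ⟨a1, b1⟩ := dual_first hA W0 (dB W0) hU0 hU
  have hF1 := a1.mp ⟨hF0, hF0'⟩
  have hc1 : H85.chi U W0 + H85.chi (dA U) (dB W0) = c := by
    rw [← b1 ⟨hF0, hF0'⟩]; exact hc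
  -- move the second argument (swap the roles)
  obtain ⟨a2, b2⟩ := dual_first hB U (dA U) hW0 hW
  have hF2 := a2.mp ⟨hF1.1.symm, hF1.2.symm⟩
  refine ⟨hF2.1.symm, hF2.2.symm, ?_⟩
  have := b2 ⟨hF1.1.symm, hF1.2.symm⟩
  rw [H85.chi_comm U W, H85.chi_comm (dA U) (dB W), ← this, H85.chi_comm W0 U,
    H85.chi_comm (dB W0) (dA U)]
  exact hc1

/-- **Corollary**: for `R ≤ dA R`, `Ri ≤ dB Ri` of finite colength,
`2 chi R Ri + colen R (dA R) + colen Ri (dB Ri) = c`. -/
theorem two_chi_add_colen {LatA LatB : Set (Submodule k V)}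
    {dA dB : Submodule k V → Submodule k V}
    (hA : DualSys LatA dA) (hB : DualSys LatB dB)
    {U0 W0 : Submodule k V} (hU0 : U0 ∈ LatA) (hW0 : W0 ∈ LatB)
    (hF0 : H85.IsFred U0 W0) (hF0' : H85.IsFred (dA U0) (dB W0)) {c : ℤ}
    (hc : H85.chi U0 W0 + H85.chi (dA U0) (dB W0) = c)
    {R Ri : Submodule k V} (hR : R ∈ LatA) (hRi : Ri ∈ LatB)
    (hRd : FinCol R (dA R)) (hRid : FinCol Ri (dB Ri)) :
    H85.IsFred R Ri ∧
      2 * H85.chi R Ri + (colen R (dA R) : ℤ) + (colen Ri (dB Ri) : ℤ) = c := by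
  obtain ⟨f1, _, e⟩ := dual_formula hA hB hU0 hW0 hF0 hF0' hc hR hRi
  refine ⟨f1, ?_⟩
  obtain ⟨l1, fin1⟩ := hRd
  obtain ⟨l2, fin2⟩ := hRid
  haveI := fin1
  haveI := fin2
  have := H85.chi_of_le_of_le l1 l2 f1
  rw [← colen_eq_colength, ← colen_eq_colength] at this
  rw [this] at e
  linarith

/-- **Riemann inequality from the duality formula** (abstract numerics).
If moreover `chi R (T m) = chi R Ri + m * n` for twists `T m` of `Ri` (P3), then
`finrank (R ⊓ T m) ≥ m n + c/2 − (δA + δB)/2`; stated without division. -/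
theorem two_finrank_inf_ge {LatA LatB : Set (Submodule k V)}
    {dA dB : Submodule k V → Submodule k V}
    (hA : DualSys LatA dA) (hB : DualSys LatB dB)
    {U0 W0 : Submodule k V} (hU0 : U0 ∈ LatA) (hW0 : W0 ∈ LatB)
    (hF0 : H85.IsFred U0 W0) (hF0' : H85.IsFred (dA U0) (dB W0)) {c : ℤ}
    (hc : H85.chi U0 W0 + H85.chi (dA U0) (dB W0) = c)
    {R Ri : Submodule k V} (hR : R ∈ LatA) (hRi : Ri ∈ LatB)
    (hRd : FinCol R (dA R)) (hRid : FinCol Ri (dB Ri))
    {T : Submodule k V} {t : ℕ} (hT : FinCol Ri T) (ht : colen Ri T = t) :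
    c + 2 * (t : ℤ) ≤ 2 * (Module.finrank k ↥(R ⊓ T) : ℤ) + (colen R (dA R) : ℤ)
      + (colen Ri (dB Ri) : ℤ) := by
  obtain ⟨f1, e⟩ := two_chi_add_colen hA hB hU0 hW0 hF0 hF0' hc hR hRi hRd hRid
  obtain ⟨l, fin⟩ := hT
  haveI := fin
  have h1 := H85.chi_of_le_right R l f1
  rw [← colen_eq_colength, ht] at h1
  have h2 := H85.chi_le_finrank R T
  linarith

end Duality

end Fermat.Agent.S16.H6
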