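/-
S16 / (G0) package P3 (helper85): THE BASE PAIR, in the shape of helper6's interface `H6_G0Iface`
(the inputs `hU0 hW0 hF0 hF0' hc` of `H6.dual_formula` / `H6.two_chi_add_colen`).

`A B : Subalgebra k E` with `E = A + B` and `A ∩ B = k`; `b` an `E`-basis of `F`.  Then
`U0 := span_A b`, `W0 := span_B b` (as `k`-subspaces) satisfy `chi U0 W0 = n`, and the same for the
trace duals (which are the spans of the trace-dual basis), so
`chi U0 W0 + chi (dualK A U0) (dualK B W0) = 2 n`.
-/
import Mathlib
import Fermat.Agent.S16.H6_G0Iface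
import Fermat.Agent.S16.H38_G0DualSys
import Fermat.Agent.S16.H6_G0Duality
import Fermat.Agent.S16.H85_CoeffSub

set_option autoImplicit false
set_option linter.unusedSectionVars false
set_option linter.style.haveILetI false

open Module

noncomputable section

namespace Fermat.Agent.S16.H85

open Fermat.Agent.S16

section Pair

variable {k E : Type*} [Field k] [Field E] [Algebra k E]

/-- The pair `(A, B)` of subalgebras with `E = A + B`, `A ∩ B = k` is Fredholm of index `1`. -/
theorem isFred_chi_subalgebra_pair (A B : Subalgebra k E)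
    (hsum : ∀ e : E, ∃ a ∈ A, ∃ b ∈ B, e = a + b)
    (hint : ∀ e : E, e ∈ A → e ∈ B → e ∈ (algebraMap k E).range) :
    IsFred (Subalgebra.toSubmodule A) (Subalgebra.toSubmodule B) ∧
      chi (Subalgebra.toSubmodule A) (Subalgebra.toSubmodule B) = 1 := by
  have hsup : Subalgebra.toSubmodule A ⊔ Subalgebra.toSubmodule B = ⊤ := by
    rw [eq_top_iff]
    intro e _
    obtain ⟨a, ha, b, hb, rfl⟩ := hsum e
    exact Submodule.add_mem_sup (show a ∈ Subalgebra.toSubmodule A from ha)
      (show b ∈ Subalgebra.toSubmodule B from hb)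
  have hinf : Subalgebra.toSubmodule A ⊓ Subalgebra.toSubmodule B = Submodule.span k {(1 : E)} := by
    ext e
    rw [Submodule.mem_inf, Subalgebra.mem_toSubmodule, Subalgebra.mem_toSubmodule,
      Submodule.mem_span_singleton]
    constructor
    · rintro ⟨h1, h2⟩
      obtain ⟨c, rfl⟩ := hint e h1 h2
      exact ⟨c, by rw [Algebra.algebraMap_eq_smul_one]⟩
    · rintro ⟨c, rfl⟩
      rw [← Algebra.algebraMap_eq_smul_one]
      exact ⟨A.algebraMap_mem c, B.algebraMap_mem c⟩
  have hfin : FiniteDimensional k ↥(Subalgebra.toSubmodule A ⊓ Subalgebra.toSubmodule B) := by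
    rw [hinf]
    infer_instance
  refine ⟨isFred_of_sup_eq_top hsup, ?_⟩
  rw [chi_of_sup_eq_top hsup, hinf, finrank_span_singleton (one_ne_zero)]
  rfl

end Pair

section Base

variable {k E F ι : Type*} [Field k] [Field E] [Field F] [Algebra k E] [Algebra E F] [Algebra k F]
  [IsScalarTower k E F] [Fintype ι]

/-- The `k`-subspace underlying the `A`-span of a basis. -/
def spanK (A : Subalgebra k E) (b : Basis ι E F) : Submodule k F :=
  (Submodule.span ↥A (Set.range b)).restrictScalars k

theorem spanK_eq_coeffSub (A : Subalgebra k E) (b : Basis ι E F) :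
    spanK A b = coeffSub b (Subalgebra.toSubmodule A) := by
  unfold spanK
  refine span_restrictScalars_eq_coeffSub (O := ↥A) b (Subalgebra.toSubmodule A) ?_
  intro f
  rw [Subalgebra.mem_toSubmodule]
  constructor
  · intro hf
    exact ⟨⟨f, hf⟩, rfl⟩
  · rintro ⟨a, rfl⟩
    exact a.2

theorem spanK_mem_LatK (A : Subalgebra k E) (b : Basis ι E F) :
    spanK A b ∈ H6.LatK A (F := F) := by
  refine ⟨Submodule.span ↥A (Set.range b), Submodule.fg_span (Set.finite_range b), ?_, rfl⟩
  rw [eq_top_iff, ← b.span_eq]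
  exact Submodule.span_mono Submodule.subset_span

/-- **The base pair**: `chi (span_A b) (span_B b) = n`. -/
theorem isFred_chi_spanK (A B : Subalgebra k E)
    (hsum : ∀ e : E, ∃ a ∈ A, ∃ b ∈ B, e = a + b)
    (hint : ∀ e : E, e ∈ A → e ∈ B → e ∈ (algebraMap k E).range) (b : Basis ι E F) :
    IsFred (spanK A b) (spanK B b) ∧ chi (spanK A b) (spanK B b) = Fintype.card ι := by
  obtain ⟨h1, h2⟩ := isFred_chi_subalgebra_pair A B hsum hint
  rw [spanK_eq_coeffSub, spanK_eq_coeffSub]
  refine ⟨isFred_coeffSub b h1, ?_⟩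
  rw [chi_coeffSub b h1, h2, mul_one]

variable [FiniteDimensional E F] [Algebra.IsSeparable E F] [DecidableEq ι]

/-- The trace dual of the span of a basis is the span of the trace-dual basis. -/
theorem dualK_spanK (A : Subalgebra k E) (b : Basis ι E F) :
    H6.dualK A (spanK A b) =
      spanK A ((Algebra.traceForm E F).dualBasis (traceForm_nondegenerate E F) b) := by
  unfold spanK
  rw [H38.dualK_restrictScalars,
    LinearMap.BilinForm.dualSubmodule_span_of_basis _ (traceForm_nondegenerate E F) b]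

/-- **The base pair with its dual**: all the inputs of `H6.dual_formula`, with `c = 2 n`. -/
theorem basePair (A B : Subalgebra k E)
    (hsum : ∀ e : E, ∃ a ∈ A, ∃ b ∈ B, e = a + b)
    (hint : ∀ e : E, e ∈ A → e ∈ B → e ∈ (algebraMap k E).range) (b : Basis ι E F) :
    spanK A b ∈ H6.LatK A (F := F) ∧ spanK B b ∈ H6.LatK B (F := F) ∧
    IsFred (spanK A b) (spanK B b) ∧
    IsFred (H6.dualK A (spanK A b)) (H6.dualK B (spanK B b)) ∧
    chi (spanK A b) (spanK B b) + chi (H6.dualK A (spanK A b)) (H6.dualK B (spanK B b))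
      = 2 * (Fintype.card ι : ℤ) := by
  obtain ⟨f1, c1⟩ := isFred_chi_spanK A B hsum hint b
  obtain ⟨f2, c2⟩ := isFred_chi_spanK A B hsum hint
    ((Algebra.traceForm E F).dualBasis (traceForm_nondegenerate E F) b)
  rw [← dualK_spanK A b, ← dualK_spanK B b] at f2 c2
  refine ⟨spanK_mem_LatK A b, spanK_mem_LatK B b, f1, f2, ?_⟩
  rw [c1, c2]
  ring

omit [Fintype ι] [DecidableEq ι] in
/-- Existential form with `n = [F : E]`. -/
theorem exists_basePair (A B : Subalgebra k E)
    (hsum : ∀ e : E, ∃ a ∈ A, ∃ b ∈ B, e = a + b)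
    (hint : ∀ e : E, e ∈ A → e ∈ B → e ∈ (algebraMap k E).range) :
    ∃ U0 ∈ H6.LatK A (F := F), ∃ W0 ∈ H6.LatK B (F := F),
      IsFred U0 W0 ∧ IsFred (H6.dualK A U0) (H6.dualK B W0) ∧
      chi U0 W0 + chi (H6.dualK A U0) (H6.dualK B W0) = 2 * (finrank E F : ℤ) := by
  obtain ⟨h1, h2, h3, h4, h5⟩ := basePair A B hsum hint (Module.finBasis E F)
  refine ⟨_, h1, _, h2, h3, h4, ?_⟩
  rw [h5, Fintype.card_fin]

end Base

/-! ### The twist -/

section Twist

variable {k E F : Type*} [Field k] [Field E] [Field F] [Algebra k E] [Algebra E F] [Algebra k F]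
  [IsScalarTower k E F]

/-- Every lattice over a PID subalgebra `B` (with fraction field `E`) is a coefficient subspace
`⊕ B w_i` for an `E`-basis `w` of `F`. -/
theorem exists_basis_eq_coeffSub (B : Subalgebra k E) [IsPrincipalIdealRing ↥B]
    [IsFractionRing ↥B E] {W : Submodule k F} (hW : W ∈ H6.LatK B (F := F)) :
    ∃ (n : ℕ) (w : Basis (Fin n) E F), W = coeffSub w (Subalgebra.toSubmodule B) := by
  obtain ⟨U, hfg, hspan, rfl⟩ := hW
  haveI : Submodule.IsLattice E U := ⟨hfg, hspan⟩
  obtain ⟨n, w, hw⟩ := exists_basis_span_eq (L := E) U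
  refine ⟨n, w, ?_⟩
  rw [hw]
  exact spanK_eq_coeffSub B w

/-- **The twist.**  For a lattice `W` over the PID subalgebra `B` and `c ∈ Eˣ` with
`B ⊆ c B` of finite colength: `W ⊆ c W` of finite colength `n · colength (B, c B)`. -/
theorem twist_LatK (B : Subalgebra k E) [IsPrincipalIdealRing ↥B] [IsFractionRing ↥B E]
    [FiniteDimensional E F] {W : Submodule k F} (hW : W ∈ H6.LatK B (F := F))
    (c : E) (hc : c ≠ 0)
    (hle : Subalgebra.toSubmodule B ≤
      (Subalgebra.toSubmodule B).map (smulEquiv (k := k) (V := E) c hc : E →ₗ[k] E))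
    [hfin : FiniteDimensional k
      (↥((Subalgebra.toSubmodule B).map (smulEquiv (k := k) (V := E) c hc : E →ₗ[k] E)) ⧸
        (Subalgebra.toSubmodule B).submoduleOf
          ((Subalgebra.toSubmodule B).map (smulEquiv (k := k) (V := E) c hc : E →ₗ[k] E)))] :
    H6.FinCol W (W.map (smulEquiv (k := k) (V := F) c hc : F →ₗ[k] F)) ∧
      H6.colen W (W.map (smulEquiv (k := k) (V := F) c hc : F →ₗ[k] F)) =
        finrank E F * colength (Subalgebra.toSubmodule B)
          ((Subalgebra.toSubmodule B).map (smulEquiv (k := k) (V := E) c hc : E →ₗ[k] E)) := by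
  obtain ⟨n, w, rfl⟩ := exists_basis_eq_coeffSub B hW
  rw [map_smulEquiv_coeffSub]
  refine ⟨⟨coeffSub_mono w hle, finiteDimensional_colength_coeffSub w _ _⟩, ?_⟩
  rw [H6.colen_eq_colength, colength_coeffSub, Fintype.card_fin, Module.finrank_eq_card_basis w,
    Fintype.card_fin]

end Twist

end Fermat.Agent.S16.H85
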