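/-
helper94 — (G0) P5 adapters in the vocabulary of helper6's interface `H6_G0Iface`:

* `H6.Rfin K x = H94.Rfin x`, `H6.Rinf K x = H94.Rinf x 0` (same sets),
* `f ∈ H6.Rfin K x ↔ IsIntegral ↥(H6.Afin K x) f`,
* `f ∈ H6.Rinf K x ↔ IsIntegral ↥(H6.Binf K x) f`,
* the Riemann step with the twisted lattice given by a membership predicate.
-/
import Mathlib
import Fermat.Agent.S16.H94_RRBridge
import Fermat.Agent.S16.H6_G0Iface

set_option autoImplicit false

noncomputable section

namespace Fermat.Agent.S16.H94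

open AlgebraicCurve IntermediateField

variable {K F : Type*} [Field K] [Field F] [Algebra K F]

/-! ### The two vocabularies agree -/

/-- `x ∈ O_v ↔ 0 ≤ ord_v x` (also for `x = 0`, where `ord_v 0 = 0` by convention). -/
theorem mem_place_iff_ord_nonneg' (v : Place K F) (x : F) :
    x ∈ v.toValuationSubring ↔ 0 ≤ v.ord x := by
  by_cases hx : x = 0
  · subst hx
    simp [Place.ord_zero, v.toValuationSubring.zero_mem]
  · exact S18.H33.mem_place_iff_ord_nonneg v hx

theorem not_mem_place_iff_ord_neg' (v : Place K F) (x : F) :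
    x ∉ v.toValuationSubring ↔ v.ord x < 0 := by
  rw [mem_place_iff_ord_nonneg', not_le]

theorem Rfin_eq_H6 (x : F) : Rfin (K := K) x = H6.Rfin K x := by
  ext f
  rw [mem_Rfin, H6.mem_Rfin]
  exact forall_congr' fun v => by rw [mem_place_iff_ord_nonneg']

theorem Rinf_zero_eq_H6 (x : F) : Rinf (K := K) x 0 = H6.Rinf K x := by
  ext f
  rw [mem_Rinf_zero, H6.mem_Rinf]
  exact forall_congr' fun v => by rw [not_mem_place_iff_ord_neg']

/-- The twisted lattice `x^m • Rinf`, presented by the membership predicate used in helper6's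
assembly, is `Rinf x m`. -/
theorem eq_Rinf_of_forall_mem {x : F} {m : ℕ} {T : Submodule K F}
    (hT : ∀ f : F, f ∈ T ↔ x⁻¹ ^ m * f ∈ H6.Rinf K x) : T = Rinf (K := K) x (m : ℤ) := by
  ext f
  rw [hT f, ← Rinf_zero_eq_H6, mem_Rinf_zero, mem_Rinf]
  have h : x⁻¹ ^ m * f = f * x ^ (-(m : ℤ)) := by
    rw [zpow_neg, zpow_natCast, inv_pow, mul_comm]
  rw [h]

/-! ### Integral closures -/

section Integral

variable {E : Type*} [Field E] [Algebra K E] [Algebra E F] [IsScalarTower K E F]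

/-- Integrality over a subalgebra `A ⊆ E` is integrality over its image in `F`. -/
theorem isIntegral_map_iff (A : Subalgebra K E) (f : F) :
    IsIntegral ↥(A.map (IsScalarTower.toAlgHom K E F)) f ↔ IsIntegral ↥A f := by
  have hinj : Function.Injective (IsScalarTower.toAlgHom K E F) :=
    (algebraMap E F).injective
  refine (RingEquiv.isIntegral_iff
    (A.equivMapOfInjective (IsScalarTower.toAlgHom K E F) hinj).toRingEquiv ?_ f).symm
  ext a
  rfl

/-- The same, with the image given up to a propositional equality. -/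
theorem isIntegral_iff_of_map_eq (A : Subalgebra K E) (S : Subalgebra K F)
    (hS : A.map (IsScalarTower.toAlgHom K E F) = S) (f : F) :
    IsIntegral ↥S f ↔ IsIntegral ↥A f := by
  subst hS
  exact isIntegral_map_iff A f

end Integral

theorem map_Afin (x : F) :
    (H6.Afin K x).map (IsScalarTower.toAlgHom K K⟮x⟯ F) = Algebra.adjoin K {x} := by
  unfold H6.Afin
  rw [AlgHom.map_adjoin_singleton]
  rfl

theorem map_Binf (x : F) :
    (H6.Binf K x).map (IsScalarTower.toAlgHom K K⟮x⟯ F) = Oinf (K := K) x := by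
  ext f
  rw [Subalgebra.mem_map, mem_Oinf, Rinf_zero_eq_H6]
  constructor
  · rintro ⟨e, he, rfl⟩
    exact ⟨e.2, he⟩
  · rintro ⟨h1, h2⟩
    exact ⟨⟨f, h1⟩, h2, rfl⟩

/-- **(5a-adapter, finite part)** `H6.Rfin K x` is the integral closure of `H6.Afin K x = K[x]`
in `F`. -/
theorem mem_H6Rfin_iff_isIntegral
    (hplace : ∀ O : ValuationSubring F, (∀ a : K, algebraMap K F a ∈ O) → O ≠ ⊤ →
      IsPrincipalIdealRing O) (x : F) (f : F) :
    f ∈ H6.Rfin K x ↔ IsIntegral ↥(H6.Afin K x) f := by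
  rw [← Rfin_eq_H6]
  exact (mem_Rfin_iff_isIntegral hplace).trans
    (isIntegral_iff_of_map_eq (H6.Afin K x) (Algebra.adjoin K {x}) (map_Afin x) f)

/-- **(5a-adapter, infinite part)** `H6.Rinf K x` is the integral closure of `H6.Binf K x`
(the local ring of `K(x)` at infinity) in `F`. -/
theorem mem_H6Rinf_iff_isIntegral [IsAlgClosed K]
    (hfin : ∀ v : Place K F, Module.Finite K v.ResidueField)
    (hplace : ∀ O : ValuationSubring F, (∀ a : K, algebraMap K F a ∈ O) → O ≠ ⊤ →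
      IsPrincipalIdealRing O) {x : F} (htr : Transcendental K x) (f : F) :
    f ∈ H6.Rinf K x ↔ IsIntegral ↥(H6.Binf K x) f := by
  rw [← Rinf_zero_eq_H6]
  exact (mem_Rinf_zero_iff_isIntegral_Oinf hfin hplace htr).trans
    (isIntegral_iff_of_map_eq (H6.Binf K x) (Oinf (K := K) x) (map_Binf x) f)

/-! ### The Riemann step -/

/-- **(5c)** Riemann's theorem for the pair `(Rfin, x^m • Rinf)`, the twisted lattice being given
by its membership predicate: for `m` large, `dim (Rfin ⊓ T) = m n + 1 - gR`,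
`n = deg (x)_∞`. -/
theorem exists_finrank_H6_inf_eq (h : RR.H76.FFBase K F) {x : F} (hx : x ≠ 0)
    {D0 : Divisor K F} (hD0 : S18.H33.IsPoleDivisor x D0) (hdeg : 0 < Divisor.degree D0) :
    ∃ m0 : ℕ, ∀ m : ℕ, m0 ≤ m → ∀ T : Submodule K F,
      (∀ f : F, f ∈ T ↔ x⁻¹ ^ m * f ∈ H6.Rinf K x) →
      (Module.finrank K ↥(H6.Rfin K x ⊓ T) : ℤ) = m * Divisor.degree D0 + 1 - h.gR := by
  obtain ⟨m0, hm0⟩ := exists_finrank_inf_eq h hx hD0 hdeg
  refine ⟨m0, fun m hm T hT => ?_⟩
  rw [eq_Rinf_of_forall_mem hT, ← Rfin_eq_H6]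
  exact hm0 m hm

/-- Riemann's inequality in the same shape, valid for every `m`. -/
theorem le_finrank_H6_inf (h : RR.H76.FFBase K F) {x : F} (hx : x ≠ 0)
    {D0 : Divisor K F} (hD0 : S18.H33.IsPoleDivisor x D0) (m : ℕ) (T : Submodule K F)
    (hT : ∀ f : F, f ∈ T ↔ x⁻¹ ^ m * f ∈ H6.Rinf K x) :
    m * Divisor.degree D0 + 1 - h.gR ≤ (Module.finrank K ↥(H6.Rfin K x ⊓ T) : ℤ) := by
  rw [eq_Rinf_of_forall_mem hT, ← Rfin_eq_H6]
  exact le_finrank_inf h hx hD0 m

/-- `L(m (x)_∞) = Rfin ⊓ T` in the interface vocabulary. -/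
theorem riemannRochSpace_nsmul_eq_H6 {x : F} (hx : x ≠ 0) {D0 : Divisor K F}
    (hD0 : S18.H33.IsPoleDivisor x D0) (m : ℕ) (T : Submodule K F)
    (hT : ∀ f : F, f ∈ T ↔ x⁻¹ ^ m * f ∈ H6.Rinf K x) :
    riemannRochSpace (m • D0) = H6.Rfin K x ⊓ T := by
  rw [eq_Rinf_of_forall_mem hT, ← Rfin_eq_H6]
  exact riemannRochSpace_nsmul_eq hx hD0 m

/-! ### Packaged forms: everything from `FFInputs` and one transcendental `x` -/

section Packaged

variable (h : RR.H43.FFInputs K F) {x : F} (hx : Transcendental K x)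

include h hx in
/-- Stichtenoth 1.1.6 in the shape of the `hplace` hypothesis above. -/
theorem hplace_of_ffInputs :
    ∀ O : ValuationSubring F, (∀ a : K, algebraMap K F a ∈ O) → O ≠ ⊤ →
      IsPrincipalIdealRing O := fun O hK _ => by
  have := h.finAdj x hx
  exact RR.H52.isPrincipalIdealRing_of_valuationSubring (K := K) O hK x hx

theorem isPoleDivisor_divPole (y : F) : S18.H33.IsPoleDivisor y (h.divPole y) := fun v => by
  rw [h.divPole_apply, max_comm]

include h hx in
theorem finrank_adjoin_pos : 0 < Module.finrank K⟮x⟯ F := by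
  have := h.finAdj x hx
  exact Module.finrank_pos

include hx in
theorem ne_zero_of_transcendental : x ≠ 0 := fun h0 => hx (h0 ▸ isAlgebraic_zero)

include h hx in
/-- **(5a-adapter, finite part), packaged.** -/
theorem mem_H6Rfin_iff_isIntegral_of_ffInputs (f : F) :
    f ∈ H6.Rfin K x ↔ IsIntegral ↥(H6.Afin K x) f :=
  mem_H6Rfin_iff_isIntegral (hplace_of_ffInputs h hx) x f

include h hx in
/-- **(5a-adapter, infinite part), packaged.** -/
theorem mem_H6Rinf_iff_isIntegral_of_ffInputs [IsAlgClosed K] (f : F) :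
    f ∈ H6.Rinf K x ↔ IsIntegral ↥(H6.Binf K x) f :=
  mem_H6Rinf_iff_isIntegral h.finRes (hplace_of_ffInputs h hx) hx f

include hx in
/-- **(5c), packaged**: for `m` large, `dim (Rfin ⊓ x^m Rinf) = m [F : K(x)] + 1 - gR`. -/
theorem exists_finrank_H6_inf_eq_of_ffInputs :
    ∃ m0 : ℕ, ∀ m : ℕ, m0 ≤ m → ∀ T : Submodule K F,
      (∀ f : F, f ∈ T ↔ x⁻¹ ^ m * f ∈ H6.Rinf K x) →
      (Module.finrank K ↥(H6.Rfin K x ⊓ T) : ℤ)
        = m * (Module.finrank K⟮x⟯ F : ℤ) + 1 - h.ffBase.gR := by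
  have hdeg : Divisor.degree (h.divPole x) = (Module.finrank K⟮x⟯ F : ℤ) :=
    h.degree_divPole_eq hx
  have hpos : 0 < Divisor.degree (h.divPole x) := by
    rw [hdeg]; exact_mod_cast finrank_adjoin_pos h hx
  obtain ⟨m0, hm0⟩ := exists_finrank_H6_inf_eq h.ffBase (ne_zero_of_transcendental hx)
    (isPoleDivisor_divPole h x) hpos
  refine ⟨m0, fun m hm T hT => ?_⟩
  rw [hm0 m hm T hT, hdeg]

include hx in
/-- Riemann's inequality, packaged, every `m`. -/
theorem le_finrank_H6_inf_of_ffInputs (m : ℕ) (T : Submodule K F)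
    (hT : ∀ f : F, f ∈ T ↔ x⁻¹ ^ m * f ∈ H6.Rinf K x) :
    m * (Module.finrank K⟮x⟯ F : ℤ) + 1 - h.ffBase.gR
      ≤ (Module.finrank K ↥(H6.Rfin K x ⊓ T) : ℤ) := by
  have := le_finrank_H6_inf h.ffBase (ne_zero_of_transcendental hx)
    (isPoleDivisor_divPole h x) m T hT
  rwa [h.degree_divPole_eq hx] at this

end Packaged

end Fermat.Agent.S16.H94
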