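import Mathlib
import Fermat.Agent.S16.H6_G0Duality
import Fermat.Agent.S16.H6_G0Adapters
import Fermat.Agent.S16.H94_G0Adapters
import Fermat.Agent.S16.H38_G0DualSys
import Fermat.Agent.S16.H38_G0IntClosure
import Fermat.Agent.S16.H85_G0BasePair
import Fermat.Agent.S16.H85_G0Twist
import Fermat.Agent.S16.H35_G0Inst

/-!
# (G0) the generic assembly (helper6)

For a function field `F / K` (`K` algebraically closed of characteristic `0`, the Riemann-Roch
bank `FFInputs K F` available) and a transcendental `x : F`: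

  `2 gR - 2 + 2 [F : K(x)] ≤ colen R R^ + colen Ri Ri^`

where `R = Rfin K x`, `Ri = Rinf K x` are the integral closures of `K[x]` and of the local ring at
infinity of `K(x)`, and `^` is the trace dual (`dualK`).
-/

set_option autoImplicit false
set_option linter.style.haveILetI false

noncomputable section

namespace Fermat.Agent.S16.H6

open AlgebraicCurve IntermediateField

variable {K F : Type*} [Field K] [Field F] [Algebra K F]

/-- **(G0) generic assembly.** -/
theorem rh_ineq_of_ffInputs [IsAlgClosed K] [CharZero K] (h : RR.H43.FFInputs K F) {x : F}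
    (hx : Transcendental K x) :
    2 * (h.ffBase.gR : ℤ) - 2 + 2 * (Module.finrank K⟮x⟯ F : ℤ) ≤
      (colen (Rfin K x) (dualK (Afin K x) (Rfin K x)) : ℤ) +
        (colen (Rinf K x) (dualK (Binf K x) (Rinf K x)) : ℤ) := by
  haveI : FiniteDimensional K⟮x⟯ F := h.finAdj x hx
  haveI : Algebra.IsSeparable K⟮x⟯ F := Algebra.IsAlgebraic.isSeparable_of_perfectField
  have hpole : ∃ v : Place K F, v.ord x < 0 := h.existsPole x hx
  have hx0 : x ≠ 0 := fun h0 => hx (h0 ▸ isAlgebraic_zero)
  -- the two coefficient rings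
  haveI := H35.isPrincipalIdealRing_Afin (k := K) hx
  haveI := H35.isFractionRing_Afin (k := K) x
  haveI := H35.isPrincipalIdealRing_Binf (k := K) hx hpole
  haveI := H35.isFractionRing_Binf (k := K) hx
  have hfinA := H35.hfin_Afin (k := K) hx
  have hfinB := H35.hfin_Binf (k := K) hx hpole
  have hA : DualSys (LatK (Afin K x) (F := F)) (dualK (Afin K x)) := H38.dualSys_LatK hfinA
  have hB : DualSys (LatK (Binf K x) (F := F)) (dualK (Binf K x)) := H38.dualSys_LatK hfinB
  -- the base pair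
  obtain ⟨U0, hU0, W0, hW0, hF0, hF0', hc⟩ :=
    H85.exists_basePair (F := F) (Afin K x) (Binf K x) (H35.hsum_Afin_Binf hx)
      (H35.hint_Afin_Binf hx hpole)
  -- the two integral closures
  have hplace := H94.hplace_of_ffInputs h hx
  have hRint : ∀ f : F, f ∈ Rfin K x ↔ IsIntegral ↥(Afin K x) f :=
    fun f => mem_Rfin_iff_isIntegral_Afin hplace hx0 f
  have hRiint : ∀ f : F, f ∈ Rinf K x ↔ IsIntegral ↥(Binf K x) f :=
    fun f => mem_Rinf_iff_isIntegral_Binf h.finRes hplace hx f
  have hR : Rfin K x ∈ LatK (Afin K x) (F := F) := H38.mem_LatK_of_integral hRint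
  have hRi : Rinf K x ∈ LatK (Binf K x) (F := F) := H38.mem_LatK_of_integral hRiint
  have hRd : FinCol (Rfin K x) (dualK (Afin K x) (Rfin K x)) :=
    H38.finCol_dualK_of_integral hfinA hRint
  have hRid : FinCol (Rinf K x) (dualK (Binf K x) (Rinf K x)) :=
    H38.finCol_dualK_of_integral hfinB hRiint
  -- Riemann
  obtain ⟨m, hm⟩ := H94.exists_finrank_H6_inf_eq_of_ffInputs h hx
  -- the twisted lattice `T = x^m • Rinf`
  set T : Submodule K F := (Rinf K x).comap (LinearMap.mulLeft K (x⁻¹ ^ m)) with hTdef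
  have hT1 : ∀ f : F, f ∈ T ↔ x⁻¹ ^ m * f ∈ Rinf K x := fun f => Iff.rfl
  have hT2 : ∀ f : F, f ∈ T ↔
      (((H35.tinf hx : ↥(Binf K x)) : K⟮x⟯)) ^ m • f ∈ Rinf K x := by
    intro f
    rw [hT1, Algebra.smul_def]
    have : algebraMap K⟮x⟯ F ((((H35.tinf hx : ↥(Binf K x)) : K⟮x⟯)) ^ m) = x⁻¹ ^ m := by
      rw [map_pow, H35.coe_tinf, map_inv₀]
      rfl
    rw [this]
  obtain ⟨hTfc, hTcol⟩ := H85.twist_end (F := F) (Binf K x) (H35.tinf hx) (H35.tinf_ne_zero hx)
    (H35.finrank_quotient_tinf hx hpole) hRi m T hT2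
  have key := two_finrank_inf_ge hA hB hU0 hW0 hF0 hF0' hc hR hRi hRd hRid hTfc hTcol
  have hRiem := hm m le_rfl T hT1
  rw [hRiem] at key
  push_cast at key
  linarith

end Fermat.Agent.S16.H6
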