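import Mathlib

/-!
# (ORTHO): a finite-dimensional subspace of a space with an "orthonormal" family has a basis
with independent residues (helper6, for helper1's `(G)` = easy genus inequality)

* `exists_pivot_family` : coordinate core, `V ≤ (ι → L)`, `A` ANY valuation subring of `L`,
  `π : A →+* k` ANY ring hom to a field (pivoted elimination / echelon form).
* `exists_indep_residues_of_mul`, `exists_indep_residues` : the transfer to `F ⊇ L` with a
  subring `O`, a reduction `res : O →+* Fk` compatible with `π`, and a family `m : κ → O` whose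
  residues are `k`-independent; `V` finite-dimensional with `d • V ⊆ span_L (range m)`,
  `d` a unit of `O`.

No completeness, no discreteness, no surjectivity of `π`.
-/

set_option autoImplicit false

noncomputable section

namespace Fermat.Agent.S16.H6

section Pivot

variable {L : Type*} [Field L] (A : ValuationSubring L) {k : Type*} [Field k] (π : A →+* k)
variable {ι : Type*} [Fintype ι]

/-- **Pivoted elimination**, general `π`. -/
theorem exists_pivot_family_aux (r : ℕ) :
    ∀ V : Submodule L (ι → L), Module.finrank L V = r →
      ∃ b : Fin r → (ι → A), (∀ i, (fun j => ((b i j : A) : L)) ∈ V) ∧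
        LinearIndependent k (fun i => fun j => π (b i j)) := by
  induction r with
  | zero =>
    intro V _
    exact ⟨Fin.elim0, fun i => i.elim0, linearIndependent_empty_type⟩
  | succ r ih =>
    intro V hV
    classical
    have hVne : V ≠ ⊥ := by
      intro h
      rw [h, finrank_bot] at hV
      omega
    obtain ⟨v, hvV, hv0⟩ := Submodule.exists_mem_ne_zero_of_ne_bot hVne
    have hex : ∃ i, v i ≠ 0 := by
      by_contra h
      push Not at h
      exact hv0 (funext h)
    obtain ⟨i1, hi1⟩ := hex
    have : Nonempty ι := ⟨i1⟩
    obtain ⟨i0, -, hmax⟩ := Finset.exists_max_image Finset.univ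
      (fun i => A.valuation (v i)) Finset.univ_nonempty
    have hvi0 : v i0 ≠ 0 := by
      intro h0
      have := hmax i1 (Finset.mem_univ _)
      rw [h0, map_zero] at this
      exact hi1 ((A.valuation).zero_iff.mp (le_antisymm this zero_le))
    set w : ι → L := (v i0)⁻¹ • v with hw
    have hwV : w ∈ V := V.smul_mem _ hvV
    have hwi0 : w i0 = 1 := by simp [hw, hvi0]
    have hwO : ∀ j, w j ∈ A := by
      intro j
      rw [← ValuationSubring.valuation_le_one_iff]
      have h1 : A.valuation (w j) = (A.valuation (v i0))⁻¹ * A.valuation (v j) := by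
        simp [hw, map_mul, map_inv₀]
      rw [h1]
      have hpos : A.valuation (v i0) ≠ 0 := by
        simpa [(A.valuation).zero_iff] using hvi0
      calc (A.valuation (v i0))⁻¹ * A.valuation (v j)
          ≤ (A.valuation (v i0))⁻¹ * A.valuation (v i0) :=
            mul_le_mul' le_rfl (hmax j (Finset.mem_univ _))
        _ = 1 := inv_mul_cancel₀ hpos
    let wO : ι → A := fun j => ⟨w j, hwO j⟩
    let f : V →ₗ[L] L := (LinearMap.proj i0).comp V.subtype
    have hfsurj : Function.Surjective f := by
      intro c
      refine ⟨c • ⟨w, hwV⟩, ?_⟩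
      simp [f, hwi0]
    let V' : Submodule L (ι → L) := (LinearMap.ker f).map V.subtype
    have hV'le : V' ≤ V := by
      rintro x ⟨y, -, rfl⟩
      exact y.2
    have hV'0 : ∀ x ∈ V', x i0 = 0 := by
      rintro x ⟨y, hy, rfl⟩
      exact hy
    have hV'rank : Module.finrank L V' = r := by
      have h1 : Module.finrank L V' = Module.finrank L (LinearMap.ker f) :=
        Submodule.finrank_map_subtype_eq V (LinearMap.ker f)
      have h2 := LinearMap.finrank_range_add_finrank_ker f
      rw [LinearMap.range_eq_top.mpr hfsurj, finrank_top, Module.finrank_self, hV] at h2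
      omega
    obtain ⟨b', hb'V, hb'ind⟩ := ih V' hV'rank
    refine ⟨Fin.cons wO b', ?_, ?_⟩
    · intro i
      refine Fin.cases ?_ (fun j => ?_) i
      · simpa using hwV
      · simpa using hV'le (hb'V j)
    · have hfun : (fun i => fun j => π ((Fin.cons wO b' : Fin (r + 1) → (ι → A)) i j)) =
          Fin.cons (fun j => π (wO j)) (fun i => fun j => π (b' i j)) := by
        funext i
        refine Fin.cases ?_ (fun j => ?_) i <;> simp
      rw [hfun, linearIndependent_finCons]
      refine ⟨hb'ind, ?_⟩
      intro hmem
      have hle : Submodule.span k (Set.range fun i => fun j => π (b' i j)) ≤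
          LinearMap.ker (LinearMap.proj (R := k) (φ := fun _ : ι => k) i0) := by
        rw [Submodule.span_le]
        rintro _ ⟨i, rfl⟩
        have h0 : ((b' i i0 : A) : L) = 0 := hV'0 _ (hb'V i)
        have h0' : b' i i0 = 0 := by exact_mod_cast h0
        simp [h0']
      have := hle hmem
      have h1 : π (wO i0) = 1 := by
        have : wO i0 = 1 := Subtype.ext hwi0
        simp [this]
      simp only [LinearMap.mem_ker, LinearMap.proj_apply] at this
      rw [h1] at this
      exact one_ne_zero this

/-- **Coordinate core**: `finrank V` integral vectors of `V` with `k`-independent images. -/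
theorem exists_pivot_family (V : Submodule L (ι → L)) :
    ∃ b : Fin (Module.finrank L V) → (ι → A), (∀ i, (fun j => ((b i j : A) : L)) ∈ V) ∧
      LinearIndependent k (fun i => fun j => π (b i j)) :=
  exists_pivot_family_aux A π _ V rfl

end Pivot

section Transfer

variable {L k F Fk : Type*} [Field L] [Field k] [Field F] [Field Fk] [Algebra L F] [Algebra k Fk]

/-- **(ORTHO), with a unit denominator `d`** (helper1's shape, #2338). -/
theorem exists_indep_residues_of_mul (A : ValuationSubring L) (π : A →+* k) (O : Subring F)
    (res : O →+* Fk) (hAO : ∀ a : A, algebraMap L F (a : L) ∈ O)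
    (hcompat : ∀ a : A, res ⟨algebraMap L F (a : L), hAO a⟩ = algebraMap k Fk (π a))
    {κ : Type*} (m : κ → F) (hm : ∀ s, m s ∈ O)
    (hmk : LinearIndependent k (fun s => res ⟨m s, hm s⟩))
    (V : Submodule L F) [FiniteDimensional L V] (d : F) (hd0 : d ≠ 0) (hd : d ∈ O)
    (hdinv : d⁻¹ ∈ O) (hV : ∀ v ∈ V, d * v ∈ Submodule.span L (Set.range m)) :
    ∃ (b : Fin (Module.finrank L V) → F) (hb : ∀ i, b i ∈ O), (∀ i, b i ∈ V) ∧
      LinearIndependent k (fun i => res ⟨b i, hb i⟩) := by
  classical
  set r := Module.finrank L V with hr
  -- a basis of `V`, multiplied by `d`, expressed in the family `m`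
  let B := Module.finBasis L V
  have hex : ∀ i : Fin r, ∃ c : κ →₀ L, (c.sum fun s a => a • m s) = d * (B i : F) := by
    intro i
    exact Finsupp.mem_span_range_iff_exists_finsupp.mp (hV _ (B i).2)
  choose c hc using hex
  let S : Finset κ := Finset.univ.biUnion fun i => (c i).support
  have hsupp : ∀ i, (c i).support ⊆ S := fun i =>
    Finset.subset_biUnion_of_mem (fun i => (c i).support) (Finset.mem_univ i)
  -- coordinates on `S`
  let T : (S → L) →ₗ[L] F := Fintype.linearCombination L (fun s : S => m s)
  let c' : Fin r → (S → L) := fun i s => c i s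
  have hTc' : ∀ i, T (c' i) = d * (B i : F) := by
    intro i
    rw [← hc i, Fintype.linearCombination_apply, Finsupp.sum]
    have h1 : ∑ a ∈ (c i).support, (c i) a • m a = ∑ a ∈ S, (c i) a • m a :=
      Finset.sum_subset (hsupp i) (fun s _ hs => by
        rw [Finsupp.notMem_support_iff.mp hs, zero_smul])
    rw [h1]
    exact (Finset.sum_coe_sort S (fun s => c i s • m s))
  let V' : Submodule L (S → L) := Submodule.span L (Set.range c')
  let W : Submodule L F := V.map (LinearMap.mulLeft L d)
  have hWeq : V'.map T = W := by
    have h1 : V'.map T = Submodule.span L (Set.range fun i => T (c' i)) := by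
      rw [Submodule.map_span, ← Set.range_comp]; rfl
    have h2 : W = Submodule.span L (Set.range fun i => d * (B i : F)) := by
      have hB : Submodule.span L (Set.range fun i => (B i : F)) = V := by
        have := B.span_eq
        have h3 : (Submodule.span L (Set.range B)).map V.subtype =
            Submodule.span L (Set.range fun i => (B i : F)) := by
          rw [Submodule.map_span, ← Set.range_comp]; rfl
        rw [← h3, this, Submodule.map_top, Submodule.range_subtype]
      calc W = (Submodule.span L (Set.range fun i => (B i : F))).map (LinearMap.mulLeft L d) :=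
            congrArg (Submodule.map (LinearMap.mulLeft L d)) hB.symm
        _ = Submodule.span L (Set.range fun i => d * (B i : F)) := by
            rw [Submodule.map_span, ← Set.range_comp]; rfl
    rw [h1, h2]
    congr 2
    funext i
    exact hTc' i
  have hWrank : Module.finrank L W = r := by
    have hinj : Function.Injective (LinearMap.mulLeft L d) := by
      intro x y hxy
      exact mul_left_cancel₀ hd0 hxy
    exact (Submodule.equivMapOfInjective (LinearMap.mulLeft L d) hinj V).finrank_eq.symm
  have hV'rank : Module.finrank L V' = r := by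
    apply le_antisymm
    · have := finrank_range_le_card (R := L) c'
      simpa [Set.finrank] using this
    · have := Submodule.finrank_map_le T V'
      rw [hWeq, hWrank] at this
      exact this
  -- pivot
  obtain ⟨b', hb'V, hb'ind⟩ := exists_pivot_family_aux A π r V' hV'rank
  -- the elements of `O`
  let bO : Fin r → O := fun i =>
    ⟨d⁻¹, hdinv⟩ * ∑ s : S, (⟨algebraMap L F ((b' i s : A) : L), hAO (b' i s)⟩ : O) * ⟨m s, hm s⟩
  have hbO_coe : ∀ i, ((bO i : O) : F) = d⁻¹ * T (fun s => ((b' i s : A) : L)) := by
    intro i
    simp only [bO, Subring.coe_mul, AddSubmonoidClass.coe_finsetSum, T,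
      Fintype.linearCombination_apply, Algebra.smul_def]
  refine ⟨fun i => (bO i : F), fun i => (bO i).2, ?_, ?_⟩
  · intro i
    have h1 : T (fun s => ((b' i s : A) : L)) ∈ W := by
      rw [← hWeq]
      exact Submodule.mem_map_of_mem (hb'V i)
    obtain ⟨v, hvV, hv⟩ := h1
    have hv' : d * v = T (fun s => ((b' i s : A) : L)) := hv
    change ((bO i : O) : F) ∈ V
    rw [hbO_coe, ← hv', ← mul_assoc, inv_mul_cancel₀ hd0, one_mul]
    exact hvV
  · -- independence of the residues
    have hres : ∀ i, res (bO i) = res ⟨d⁻¹, hdinv⟩ *
        ∑ s : S, algebraMap k Fk (π (b' i s)) * res ⟨m s, hm s⟩ := by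
      intro i
      simp only [bO, map_mul, map_sum, hcompat]
    have hu : res ⟨d⁻¹, hdinv⟩ ≠ 0 := by
      intro h0
      have h1 : (⟨d⁻¹, hdinv⟩ : O) * ⟨d, hd⟩ = 1 := Subtype.ext (inv_mul_cancel₀ hd0)
      have h2 := congrArg res h1
      rw [map_mul, h0, zero_mul, map_one] at h2
      exact zero_ne_one h2
    have hmS : LinearIndependent k (fun s : S => res ⟨m s, hm s⟩) :=
      hmk.comp (fun s : S => (s : κ)) Subtype.val_injective
    have heta : (fun i => res ⟨((bO i : O) : F), (bO i).2⟩) = fun i => res (bO i) := rfl
    rw [heta, Fintype.linearIndependent_iff]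
    intro g hg
    have h1 : res ⟨d⁻¹, hdinv⟩ *
        ∑ s : S, (∑ i, g i * π (b' i s)) • res ⟨m s, hm s⟩ = 0 := by
      rw [← hg]
      simp only [hres, Algebra.smul_def, Finset.mul_sum, map_sum, map_mul, Finset.sum_mul]
      rw [Finset.sum_comm]
      refine Finset.sum_congr rfl fun i _ => Finset.sum_congr rfl fun s _ => ?_
      ring
    have h2 : ∑ s : S, (∑ i, g i * π (b' i s)) • res ⟨m s, hm s⟩ = 0 := by
      rcases mul_eq_zero.mp h1 with h | h
      · exact absurd h hu
      · exact h
    have h3 := (Fintype.linearIndependent_iff.mp hmS) _ h2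
    have h4 : ∑ i, g i • (fun s : S => π (b' i s)) = 0 := by
      funext s
      simp only [Finset.sum_apply, Pi.smul_apply, smul_eq_mul, Pi.zero_apply]
      exact h3 s
    exact (Fintype.linearIndependent_iff.mp hb'ind) g h4

/-- **(ORTHO)**, `d = 1`. -/
theorem exists_indep_residues (A : ValuationSubring L) (π : A →+* k) (O : Subring F)
    (res : O →+* Fk) (hAO : ∀ a : A, algebraMap L F (a : L) ∈ O)
    (hcompat : ∀ a : A, res ⟨algebraMap L F (a : L), hAO a⟩ = algebraMap k Fk (π a))
    {κ : Type*} (m : κ → F) (hm : ∀ s, m s ∈ O)
    (hmk : LinearIndependent k (fun s => res ⟨m s, hm s⟩))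
    (V : Submodule L F) [FiniteDimensional L V]
    (hV : V ≤ Submodule.span L (Set.range m)) :
    ∃ (b : Fin (Module.finrank L V) → F) (hb : ∀ i, b i ∈ O), (∀ i, b i ∈ V) ∧
      LinearIndependent k (fun i => res ⟨b i, hb i⟩) :=
  exists_indep_residues_of_mul A π O res hAO hcompat m hm hmk V 1 one_ne_zero O.one_mem
    (by rw [inv_one]; exact O.one_mem) (fun v hv => by rw [one_mul]; exact hV hv)

end Transfer

end Fermat.Agent.S16.H6
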