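import Mathlib

/-!
# Reduction of a subspace of `(K^ι, max norm)` over a valued field (helper6)

`K` a field with a valuation subring `O` (NO completeness, NO discreteness), `κ` its residue
field, `ι` a finite index type.  For a `K`-subspace `V ⊆ ι → K`:

* `exists_integral_family` : there are `finrank K V` vectors of `V` with coordinates in `O`
  whose coordinatewise reductions are `κ`-linearly independent (pivoted Gaussian elimination);
* `linearIndependent_of_redVec` : integral vectors with independent reductions are independent;
* `finrank_redSubmodule` : the reduction `redSubmodule O V ⊆ ι → κ` has the same dimension as `V`.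

This is the coordinate form of "a subspace of a space with an orthonormal basis has an
orthonormal basis"; the coordinate-free statement is false over non-complete fields.
-/

set_option autoImplicit false

noncomputable section

namespace Fermat.Agent.S16.H6

open IsLocalRing

variable {K : Type*} [Field K] (O : ValuationSubring K) {ι : Type*}

/-- coordinatewise reduction of an integral vector -/
def redVec (b : ι → O) : ι → ResidueField O := fun j => residue O (b j)

/-- the underlying `K`-vector of an integral vector -/
def coeVec (b : ι → O) : ι → K := fun j => (b j : K)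

@[simp] theorem redVec_apply (b : ι → O) (j : ι) : redVec O b j = residue O (b j) := rfl

@[simp] theorem coeVec_apply (b : ι → O) (j : ι) : coeVec O b j = (b j : K) := rfl

theorem coeVec_add (b c : ι → O) : coeVec O (b + c) = coeVec O b + coeVec O c := by
  funext j; simp [coeVec]

theorem coeVec_smul (a : O) (b : ι → O) : coeVec O (a • b) = (a : K) • coeVec O b := by
  funext j; simp [coeVec]

theorem redVec_add (b c : ι → O) : redVec O (b + c) = redVec O b + redVec O c := by
  funext j; simp [redVec]

theorem redVec_smul (a : O) (b : ι → O) : redVec O (a • b) = residue O a • redVec O b := by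
  funext j; simp [redVec]

theorem redVec_zero : redVec O (0 : ι → O) = 0 := by
  funext j; simp [redVec]

theorem redVec_sum {n : Type*} (s : Finset n) (f : n → (ι → O)) :
    redVec O (∑ k ∈ s, f k) = ∑ k ∈ s, redVec O (f k) := by
  classical
  induction s using Finset.induction_on with
  | empty => simp [redVec_zero]
  | insert a t ha iht => rw [Finset.sum_insert ha, Finset.sum_insert ha, redVec_add, iht]

variable [Fintype ι]

/-- **Pivoted elimination.** -/
theorem exists_integral_family_aux (r : ℕ) :
    ∀ V : Submodule K (ι → K), Module.finrank K V = r →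
      ∃ b : Fin r → (ι → O), (∀ i, coeVec O (b i) ∈ V) ∧
        LinearIndependent (ResidueField O) (fun i => redVec O (b i)) := by
  induction r with
  | zero =>
    intro V _
    exact ⟨Fin.elim0, fun i => i.elim0, linearIndependent_empty_type⟩
  | succ r ih =>
    intro V hV
    classical
    -- a nonzero vector
    have hVne : V ≠ ⊥ := by
      intro h
      rw [h, finrank_bot] at hV
      omega
    obtain ⟨v, hvV, hv0⟩ := Submodule.exists_mem_ne_zero_of_ne_bot hVne
    have hex : ∃ i, v i ≠ 0 := by
      by_contra h
      push Not at h
      exact hv0 (funext h)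
    obtain ⟨i1, hi1⟩ := hex
    have : Nonempty ι := ⟨i1⟩
    obtain ⟨i0, -, hmax⟩ := Finset.exists_max_image Finset.univ
      (fun i => O.valuation (v i)) Finset.univ_nonempty
    have hvi0 : v i0 ≠ 0 := by
      intro h0
      have := hmax i1 (Finset.mem_univ _)
      rw [h0, map_zero] at this
      exact hi1 ((O.valuation).zero_iff.mp (le_antisymm this zero_le))
    -- normalise
    set w : ι → K := (v i0)⁻¹ • v with hw
    have hwV : w ∈ V := V.smul_mem _ hvV
    have hwi0 : w i0 = 1 := by simp [hw, hvi0]
    have hwO : ∀ j, w j ∈ O := by
      intro j
      rw [← ValuationSubring.valuation_le_one_iff]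
      have h1 : O.valuation (w j) = (O.valuation (v i0))⁻¹ * O.valuation (v j) := by
        simp [hw, map_mul, map_inv₀]
      rw [h1]
      have hpos : O.valuation (v i0) ≠ 0 := by
        simpa [(O.valuation).zero_iff] using hvi0
      calc (O.valuation (v i0))⁻¹ * O.valuation (v j)
          ≤ (O.valuation (v i0))⁻¹ * O.valuation (v i0) :=
            mul_le_mul' le_rfl (hmax j (Finset.mem_univ _))
        _ = 1 := inv_mul_cancel₀ hpos
    let wO : ι → O := fun j => ⟨w j, hwO j⟩
    have hwOcoe : coeVec O wO = w := rfl
    -- the hyperplane section
    let f : V →ₗ[K] K := (LinearMap.proj i0).comp V.subtype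
    have hfsurj : Function.Surjective f := by
      intro c
      refine ⟨c • ⟨w, hwV⟩, ?_⟩
      simp [f, hwi0]
    let V' : Submodule K (ι → K) := (LinearMap.ker f).map V.subtype
    have hV'le : V' ≤ V := by
      rintro x ⟨y, -, rfl⟩
      exact y.2
    have hV'0 : ∀ x ∈ V', x i0 = 0 := by
      rintro x ⟨y, hy, rfl⟩
      exact hy
    have hV'rank : Module.finrank K V' = r := by
      have h1 : Module.finrank K V' = Module.finrank K (LinearMap.ker f) :=
        Submodule.finrank_map_subtype_eq V (LinearMap.ker f)
      have h2 := LinearMap.finrank_range_add_finrank_ker f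
      rw [LinearMap.range_eq_top.mpr hfsurj, finrank_top, Module.finrank_self, hV] at h2
      omega
    obtain ⟨b', hb'V, hb'ind⟩ := ih V' hV'rank
    refine ⟨Fin.cons wO b', ?_, ?_⟩
    · intro i
      refine Fin.cases ?_ (fun k => ?_) i
      · simpa [hwOcoe] using hwV
      · simpa using hV'le (hb'V k)
    · have hfun : (fun i => redVec O ((Fin.cons wO b' : Fin (r + 1) → (ι → O)) i)) =
          Fin.cons (redVec O wO) (fun k => redVec O (b' k)) := by
        funext i
        refine Fin.cases ?_ (fun k => ?_) i <;> simp
      rw [hfun, linearIndependent_finCons]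
      refine ⟨hb'ind, ?_⟩
      intro hmem
      have hle : Submodule.span (ResidueField O) (Set.range fun k => redVec O (b' k)) ≤
          LinearMap.ker (LinearMap.proj (R := ResidueField O)
            (φ := fun _ : ι => ResidueField O) i0) := by
        rw [Submodule.span_le]
        rintro _ ⟨k, rfl⟩
        have h0 : ((b' k i0 : O) : K) = 0 := hV'0 _ (hb'V k)
        have h0' : b' k i0 = 0 := by exact_mod_cast h0
        simp [h0']
      have := hle hmem
      have h1 : redVec O wO i0 = 1 := by
        have : wO i0 = 1 := Subtype.ext hwi0
        simp [this]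
      simp only [LinearMap.mem_ker, LinearMap.proj_apply] at this
      rw [h1] at this
      exact one_ne_zero this

/-- **Existence of an integral family with independent reductions**, of size `dim V`. -/
theorem exists_integral_family (V : Submodule K (ι → K)) :
    ∃ b : Fin (Module.finrank K V) → (ι → O), (∀ i, coeVec O (b i) ∈ V) ∧
      LinearIndependent (ResidueField O) (fun i => redVec O (b i)) :=
  exists_integral_family_aux O _ V rfl

omit [Fintype ι] in
/-- Integral vectors with independent reductions are independent. -/
theorem linearIndependent_of_redVec {n : Type*} (b : n → (ι → O))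
    (h : LinearIndependent (ResidueField O) (fun i => redVec O (b i))) :
    LinearIndependent K (fun i => coeVec O (b i)) := by
  classical
  rw [linearIndependent_iff']
  intro s c hc i hi
  by_contra hci
  -- pivot of maximal valuation
  have hsne : s.Nonempty := ⟨i, hi⟩
  obtain ⟨i0, hi0s, hmax⟩ := Finset.exists_max_image s (fun i => O.valuation (c i)) hsne
  have hc0 : c i0 ≠ 0 := by
    intro h0
    have := hmax i hi
    rw [h0, map_zero] at this
    exact hci ((O.valuation).zero_iff.mp (le_antisymm this zero_le))
  have hpos : O.valuation (c i0) ≠ 0 := by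
    simpa [(O.valuation).zero_iff] using hc0
  have hdO : ∀ k ∈ s, (c i0)⁻¹ * c k ∈ O := by
    intro k hk
    rw [← ValuationSubring.valuation_le_one_iff, map_mul, map_inv₀]
    calc (O.valuation (c i0))⁻¹ * O.valuation (c k)
        ≤ (O.valuation (c i0))⁻¹ * O.valuation (c i0) := mul_le_mul' le_rfl (hmax k hk)
      _ = 1 := inv_mul_cancel₀ hpos
  let d : n → O := fun k => if hk : k ∈ s then ⟨(c i0)⁻¹ * c k, hdO k hk⟩ else 0
  have hd0 : d i0 = 1 := by
    simp only [d, dif_pos hi0s]
    exact Subtype.ext (inv_mul_cancel₀ hc0)
  have hsum : ∑ k ∈ s, d k • b k = 0 := by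
    funext j
    have hj := congrFun hc j
    simp only [Finset.sum_apply, Pi.smul_apply, coeVec_apply, smul_eq_mul, Pi.zero_apply] at hj ⊢
    apply Subtype.ext
    push_cast
    have : ∑ k ∈ s, ((d k : O) : K) * (b k j : K) = (c i0)⁻¹ * ∑ k ∈ s, c k * (b k j : K) := by
      rw [Finset.mul_sum]
      refine Finset.sum_congr rfl fun k hk => ?_
      simp only [d, dif_pos hk]
      ring
    rw [this, hj, mul_zero]
  have hred : ∑ k ∈ s, residue O (d k) • redVec O (b k) = 0 := by
    have := congrArg (redVec O) hsum
    rw [redVec_zero, redVec_sum] at this
    simpa [redVec_smul] using this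
  have hall := (linearIndependent_iff'.mp h) s (fun k => residue O (d k)) hred i0 hi0s
  rw [hd0, map_one] at hall
  exact one_ne_zero hall


/-- The reduction of a subspace `V ⊆ ι → K`: all `redVec b` for integral `b` with `↑b ∈ V`. -/
def redSubmodule (V : Submodule K (ι → K)) :
    Submodule (ResidueField O) (ι → ResidueField O) where
  carrier := {x | ∃ b : ι → O, coeVec O b ∈ V ∧ redVec O b = x}
  add_mem' := by
    rintro _ _ ⟨b, hb, rfl⟩ ⟨c, hc, rfl⟩
    exact ⟨b + c, by rw [coeVec_add]; exact V.add_mem hb hc, redVec_add O b c⟩
  zero_mem' := ⟨0, by
    have : coeVec O (0 : ι → O) = 0 := by funext j; simp [coeVec]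
    rw [this]; exact V.zero_mem, redVec_zero O⟩
  smul_mem' := by
    rintro a _ ⟨b, hb, rfl⟩
    obtain ⟨a', rfl⟩ := residue_surjective a
    exact ⟨a' • b, by rw [coeVec_smul]; exact V.smul_mem _ hb, redVec_smul O a' b⟩

omit [Fintype ι] in
theorem mem_redSubmodule {V : Submodule K (ι → K)} {x : ι → ResidueField O} :
    x ∈ redSubmodule O V ↔ ∃ b : ι → O, coeVec O b ∈ V ∧ redVec O b = x := Iff.rfl

/-- **The reduction has the same dimension** (valued field arbitrary: no completeness). -/
theorem finrank_redSubmodule (V : Submodule K (ι → K)) :
    Module.finrank (ResidueField O) (redSubmodule O V) = Module.finrank K V := by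
  classical
  apply le_antisymm
  · -- a basis of the reduction lifts to an independent family in `V`
    let B := Module.finBasis (ResidueField O) (redSubmodule O V)
    have hB : ∀ i, ∃ b : ι → O, coeVec O b ∈ V ∧ redVec O b = (B i : ι → ResidueField O) :=
      fun i => (B i).2
    choose b hbV hbred using hB
    have hind : LinearIndependent (ResidueField O) (fun i => redVec O (b i)) := by
      have h1 : LinearIndependent (ResidueField O)
          (fun i => ((B i : redSubmodule O V) : ι → ResidueField O)) :=
        B.linearIndependent.map' (redSubmodule O V).subtype (Submodule.ker_subtype _)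
      convert h1 using 2
      exact hbred _
    have hK := linearIndependent_of_redVec O b hind
    have hK' : LinearIndependent K (fun i => (⟨coeVec O (b i), hbV i⟩ : V)) := by
      apply LinearIndependent.of_comp V.subtype
      exact hK
    have := hK'.fintype_card_le_finrank
    simpa using this
  · obtain ⟨b, hbV, hind⟩ := exists_integral_family O V
    have h' : LinearIndependent (ResidueField O)
        (fun i => (⟨redVec O (b i), ⟨b i, hbV i, rfl⟩⟩ : redSubmodule O V)) := by
      apply LinearIndependent.of_comp (redSubmodule O V).subtype
      exact hind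
    have := h'.fintype_card_le_finrank
    simpa using this

end Fermat.Agent.S16.H6
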