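/-
S16 project, GEO-e instance, part (b) (helper70): **the place of the special fibre of the Hesse
cover over `μ = 0`, with `μ` as uniformiser**, generic in the DVR `A₁` and its fraction field `L1`
(instantiate with `A₁ = H45.A0 A 2`, `L1 = H45.unrCyclo 2` at the very end; `3` must be a unit).

`F1 = modularFunctionFieldFullC L1 N`, `j1 = H16.jK L1 N`, `θ = H16.jNK L1 N`,
`F' = H70.HesField j1`, `μ = H70.hesMu j1`, line `f = X³ - 1`.
One application of `H70.exists_place_over_point` at `a = 0`.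
-/
import Fermat.Agent.S16.H70_AuxLinePlace
import Fermat.Agent.S18.H26_BaseLineHes
import Fermat.Agent.S18.H16_VertSep

set_option autoImplicit false
set_option linter.unusedSectionVars false
set_option linter.style.haveILetI false

namespace Fermat.Agent.S16.H70

open Polynomial IntermediateField AlgebraicCurve ModularCurve Fermat.Agent.S18

noncomputable section

section Unit

variable {A₁ L1 : Type} [CommRing A₁] [Field L1] [CharZero L1] (N : ℕ) [NeZero N]
  [Algebra A₁ ↥(modularFunctionFieldFullC L1 N)]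

/-- `μ³ - 1` is a unit of the Hesse field (generic base ring). -/
theorem isUnit_aeval_hesMu_fullC :
    IsUnit (aeval (S18.H70.hesMu (H16.jK L1 N)) (H26.hesLineF A₁)) := by
  haveI hczF1 : CharZero ↥(modularFunctionFieldFullC L1 N) :=
    charZero_of_injective_algebraMap (algebraMap L1 _).injective
  rw [H26.aeval_hesLineF]
  refine IsUnit.mk0 _ fun h0 => S18.H70.hesB_hesMu_ne_zero (H16.jK L1 N) ?_
  unfold H26.hesB
  rw [h0]; ring

end Unit

variable {A₁ L1 : Type} [CommRing A₁] [IsDomain A₁] [IsDiscreteValuationRing A₁]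
  [Field L1] [Algebra A₁ L1] [IsFractionRing A₁ L1] [CharZero L1] (N : ℕ) [NeZero N]
  [Algebra A₁ ↥(modularFunctionFieldFullC L1 N)]
  [IsScalarTower A₁ L1 ↥(modularFunctionFieldFullC L1 N)]

set_option maxHeartbeats 1600000 in
set_option synthInstance.maxHeartbeats 400000 in
/-- **The Hesse place over `μ = 0`** (`3` invertible, in particular residue characteristic `2`). -/
theorem exists_hesse_place {ϖ : A₁} (hϖ : Irreducible ϖ)
    {k : Type} [Field k] (res : A₁ →+* k) (hres : Function.Surjective res)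
    (hker : RingHom.ker res = Ideal.span {ϖ})
    (h3 : IsUnit (3 : A₁)) (hNk : ((N : ℕ) : k) ≠ 0)
    (hunr : ∀ (v : Place L1 (S18.H70.HesField (H16.jK L1 N)))
      (g₀ : L1[X]), Irreducible g₀ → ¬ g₀ ∣ (X ^ 3 - 1 : L1[X]) →
      0 < v.ord (aeval (S18.H70.hesMu (H16.jK L1 N)) g₀) →
      v.ord (aeval (S18.H70.hesMu (H16.jK L1 N)) g₀) = 1) :
    letI : Algebra (H26.HesLine A₁) (S18.H70.HesField (H16.jK L1 N)) :=
      H26.LineRing.algebraOfCoord (H26.hesLineF A₁) (S18.H70.hesMu (H16.jK L1 N))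
        (isUnit_aeval_hesMu_fullC N)
    ∃ (κ : Type) (_ : Field κ)
      (φ : integralClosure (H26.HesLine A₁) (S18.H70.HesField (H16.jK L1 N)) →+* κ)
      (O : ValuationSubring κ),
      φ (algebraMap (H26.HesLine A₁) _ (algebraMap A₁ (H26.HesLine A₁) ϖ)) = 0 ∧
      (∀ z : κ, ∃ x y : integralClosure (H26.HesLine A₁) (S18.H70.HesField (H16.jK L1 N)),
        φ y ≠ 0 ∧ z * φ y = φ x) ∧
      (∀ b, φ b ∈ O) ∧ O ≠ ⊤ ∧
      φ (algebraMap (H26.HesLine A₁) _ (H26.HesLine.mu A₁)) ≠ 0 ∧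
      O.valuation (φ (algebraMap (H26.HesLine A₁) _ (H26.HesLine.mu A₁))) < 1 ∧
      (∀ γ : O.ValueGroup, γ ^ 2 ≠
        O.valuation (φ (algebraMap (H26.HesLine A₁) _ (H26.HesLine.mu A₁)))) ∧
      (∀ y : κ, y ≠ 0 → ∃ m : ℤ, O.valuation y =
        O.valuation (φ (algebraMap (H26.HesLine A₁) _ (H26.HesLine.mu A₁))) ^ m) := by
  classical
  have hNL : ((N : ℕ) : L1) ≠ 0 := Nat.cast_ne_zero.mpr (NeZero.ne N)
  haveI hfin1 : FiniteDimensional L1⟮H16.jK L1 N⟯ (modularFunctionFieldFullC L1 N) :=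
    H16.finiteDimensional_fullC_gen N L1 hNL
  have hj1 : Transcendental L1 (H16.jK L1 N) := H16.transcendental_jK L1 N
  have hgen : L1⟮H16.jK L1 N⟯⟮H16.jNK L1 N⟯ = ⊤ := H16.adjoin_jNK_eq_top_gen N L1 hNL
  have hθalg : IsAlgebraic L1⟮H16.jK L1 N⟯ (H16.jNK L1 N) := Algebra.IsAlgebraic.isAlgebraic _
  haveI hczF1 : CharZero ↥(modularFunctionFieldFullC L1 N) :=
    charZero_of_injective_algebraMap (algebraMap L1 _).injective
  have hμ : Transcendental L1 (S18.H70.hesMu (H16.jK L1 N)) :=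
    S18.H70.transcendental_hesMu (L := L1) hj1
  have hμA : Transcendental A₁ (S18.H70.hesMu (H16.jK L1 N)) :=
    H40.transcendental_of_tower (K := L1) _ hμ
  have hμtop : (↥(modularFunctionFieldFullC L1 N))⟮S18.H70.hesMu (H16.jK L1 N)⟯ = ⊤ :=
    S18.H70.adjoin_hesMu (H16.jK L1 N)
  haveI hfinμ : FiniteDimensional L1⟮S18.H70.hesMu (H16.jK L1 N)⟯
      (S18.H70.HesField (H16.jK L1 N)) :=
    S18.H70.finiteDimensional_hesField_over (L := L1)
      (KY := L1⟮S18.H70.hesMu (H16.jK L1 N)⟯) hgen hθalg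
      (AdjoinSimple.gen L1 (S18.H70.hesMu (H16.jK L1 N)))
      (AdjoinSimple.algebraMap_gen L1 (S18.H70.hesMu (H16.jK L1 N)))
  -- the Hesse line
  have hfμ := isUnit_aeval_hesMu_fullC (A₁ := A₁) (L1 := L1) N
  have hf : (H26.hesLineF A₁).map res ≠ 0 := H26.HesLine.map_ne_zero res
  haveI hdom : IsDomain (H26.HesLine A₁) :=
    H26.LineRing.isDomain _ (H26.LineRing.ne_zero_of_map_ne_zero _ res hf)
  have hJ : H26.hesJ (S18.H70.hesMu (H16.jK L1 N)) =
      algebraMap ↥(modularFunctionFieldFullC L1 N) (S18.H70.HesField (H16.jK L1 N))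
        (H16.jK L1 N) := S18.H70.hesJ_hesMu (H16.jK L1 N)
  have hjY : H26.LineRing.liftAlg (H26.hesLineF A₁) (S18.H70.hesMu (H16.jK L1 N)) hfμ
      (H26.HesLine.jY A₁) =
      algebraMap ↥(modularFunctionFieldFullC L1 N) (S18.H70.HesField (H16.jK L1 N))
        (H16.jK L1 N) := by
    rw [H26.HesLine.liftAlg_jY, hJ]
  -- (VERT)
  obtain ⟨D, hD, -⟩ := H16.exists_modPoly_gen N
  have h3k : (3 : k) ≠ 0 := by
    have := h3.map res
    rw [map_ofNat] at this
    exact this.ne_zero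
  have hsep : ((H16.modPolyAt D (H26.HesLine.jY A₁)).map
      (H26.LineRing.toRatFunc (H26.hesLineF A₁) res hf)).Separable := by
    refine H16.separable_map_modPolyAt (K := k) hNk D hD _ _ ?_
    rw [H26.HesLine.toRatFunc_jY]
    exact H26.transcendental_hesJ RatFunc.transcendental_X h3k
  have hroot : (H16.modPolyAt D (H26.HesLine.jY A₁)).eval₂
      (H26.LineRing.liftAlg (H26.hesLineF A₁) (S18.H70.hesMu (H16.jK L1 N)) hfμ).toRingHom
      (algebraMap ↥(modularFunctionFieldFullC L1 N) (S18.H70.HesField (H16.jK L1 N))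
        (H16.jNK L1 N)) = 0 := by
    rw [← Polynomial.eval_map, H16.modPolyAt_map]
    have : (H26.LineRing.liftAlg (H26.hesLineF A₁) (S18.H70.hesMu (H16.jK L1 N)) hfμ).toRingHom
        (H26.HesLine.jY A₁) = algebraMap ↥(modularFunctionFieldFullC L1 N)
          (S18.H70.HesField (H16.jK L1 N)) (H16.jK L1 N) := hjY
    rw [this]
    exact H16.eval_modPolyAt_of_hom N D L1
      (algebraMap ↥(modularFunctionFieldFullC L1 N) (S18.H70.HesField (H16.jK L1 N)))
  have hunr' : ∀ (v : Place L1 (S18.H70.HesField (H16.jK L1 N))) (g₀ : L1[X]), Irreducible g₀ →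
      ¬ g₀ ∣ (H26.hesLineF A₁).map (algebraMap A₁ L1) →
      0 < v.ord (aeval (S18.H70.hesMu (H16.jK L1 N)) g₀) →
      v.ord (aeval (S18.H70.hesMu (H16.jK L1 N)) g₀) = 1 := by
    intro v g₀ hirr hnd
    rw [H26.hesLineF_map] at hnd
    exact hunr v g₀ hirr hnd
  have hfa : res ((H26.hesLineF A₁).eval 0) ≠ 0 := by
    rw [H26.eval_hesLineF]
    simp
  have key := exists_place_over_point (L1 := L1) hϖ res hres hker (H16.jK L1 N) (H16.jNK L1 N)
    hgen (S18.H70.hesMu (H16.jK L1 N)) hμ hμtop (H26.hesLineF A₁) hf hfμ hμA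
    (H26.HesLine.jY A₁) hjY (H16.modPolyAt D (H26.HesLine.jY A₁)) (H16.modPolyAt_monic D _)
    hroot hsep hunr' 0 hfa
  simp only [map_zero, sub_zero] at key
  exact key

end

end Fermat.Agent.S16.H70
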