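/-
S16 project, GEO-e instance, part (b) (helper70): `H70.exists_hesse_place` at the concrete model
`A₁ = H45.A0 A ℓ`, `L₁ = H45.unrCyclo ℓ`, `F₁ = modularFunctionFieldFullC L₁ N` (`ℓ ≠ 3`, `ℓ ∤ N`;
the (U2b) leaf uses `ℓ = 2`, `N = p`).  No hypothesis left.
-/
import Fermat.Agent.S16.H70_HessePlace
import Fermat.Agent.S18.H55_HorInst
import Fermat.Agent.S18.H45_A0Units

set_option autoImplicit false
set_option linter.unusedSectionVars false
set_option linter.style.haveILetI false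
set_option synthInstance.maxHeartbeats 400000

namespace Fermat.Agent.S16.H70

open Polynomial IntermediateField ModularCurve AlgebraicCurve Fermat.Agent.S18

noncomputable section

variable (N : ℕ) [NeZero N] {ℓ : ℕ} [hℓ : Fact ℓ.Prime] (hℓN : ¬ ℓ ∣ N)
variable (A : ValuationSubring (AlgebraicClosure ℚ)) (hA : A.LiesOverPrime ℓ)

local notation "kA" => IsLocalRing.ResidueField A
local notation "L₁" => H45.unrCyclo ℓ
local notation "A₁" => H45.A0 A ℓ
local notation "F₁" => modularFunctionFieldFullC (H45.unrCyclo ℓ) N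
local notation "j₁" => H16.jK (H45.unrCyclo ℓ) N

include hℓN hA in
set_option maxHeartbeats 4000000 in
/-- **The Hesse place over `μ = 0` at the model**, `ℓ ≠ 3`, `ℓ ∤ N`. -/
theorem exists_hesse_place_model (hℓ3 : ℓ ≠ 3) :
    letI : Algebra (H26.HesLine A₁) (S18.H70.HesField j₁) :=
      H26.LineRing.algebraOfCoord (H26.hesLineF A₁) (S18.H70.hesMu j₁)
        (isUnit_aeval_hesMu_fullC N)
    ∃ (κ : Type) (_ : Field κ)
      (φ : integralClosure (H26.HesLine A₁) (S18.H70.HesField j₁) →+* κ)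
      (O : ValuationSubring κ),
      φ (algebraMap (H26.HesLine A₁) _ (algebraMap A₁ (H26.HesLine A₁) ((ℓ : ℕ) : A₁))) = 0 ∧
      (∀ z : κ, ∃ x y : integralClosure (H26.HesLine A₁) (S18.H70.HesField j₁),
        φ y ≠ 0 ∧ z * φ y = φ x) ∧
      (∀ b, φ b ∈ O) ∧ O ≠ ⊤ ∧
      φ (algebraMap (H26.HesLine A₁) _ (H26.HesLine.mu A₁)) ≠ 0 ∧
      O.valuation (φ (algebraMap (H26.HesLine A₁) _ (H26.HesLine.mu A₁))) < 1 ∧
      (∀ γ : O.ValueGroup, γ ^ 2 ≠
        O.valuation (φ (algebraMap (H26.HesLine A₁) _ (H26.HesLine.mu A₁)))) ∧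
      (∀ y : κ, y ≠ 0 → ∃ m : ℤ, O.valuation y =
        O.valuation (φ (algebraMap (H26.HesLine A₁) _ (H26.HesLine.mu A₁))) ^ m) := by
  haveI hdvr : IsDiscreteValuationRing A₁ := H45.isDiscreteValuationRing_A0 hℓ.out hA
  have hNk : ((N : ℕ) : kA) ≠ 0 := H45.natCast_ne_zero_residueField hℓ.out hA hℓN
  exact exists_hesse_place N (H45.irreducible_natCast_A0 hℓ.out hA) (H45.resA0 A ℓ)
    (H45.resA0_surjective hℓ.out hA) (H45.ker_resA0_eq_span hℓ.out hA)
    (H45.isUnit_three_A0 hℓ.out hA hℓ3) hNk (H55.hunr_hesse ℓ N)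

end

end Fermat.Agent.S16.H70
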