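import Mathlib
import Fermat.Agent.S16.H72_FormFunction
import Fermat.Agent.S16.H95_Isobaric

/-!
# S16 / constant test: the `q`-series bookkeeping (helper72)

For `a : ℕ → ℤ` (the coefficients of `F ∈ M₂(Γ₀(p))`) and any commutative ring `R` with an element
`pinv` (`= 1/p`):

* `sS R a = a(q) e₄(q) / e₆(q)` = the expansion of `g = F E₄ / E₆` at `∞`;
* `zS R a p pinv = -(1/p) (U_p a)(q) e₄(q^p) / e₆(q^p)` = the expansion of `g ∘ W`;

both natural in `R`; `sS ≡ a 0` modulo any ideal containing `m` when `m ∣ 24` and `m ∣ a n`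
(`n ≥ 1`); the constant term of `zS` is `-(1/p) a 0`.
-/

set_option autoImplicit false

noncomputable section

namespace Fermat.Agent.S16.H72

open ModularCurve PowerSeries

/-! ### `qExpand` on power series -/

section QExpand

variable {R : Type*} [CommRing R]

/-- `qExpand` on the image of a power series is `PowerSeries.expand`. -/
theorem qExpand_ofPowerSeries (n : ℕ) [NeZero n] (φ : PowerSeries R) :
    qExpand R n (HahnSeries.ofPowerSeries ℤ R φ) =
      HahnSeries.ofPowerSeries ℤ R (PowerSeries.expand n (NeZero.ne n) φ) := by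
  ext k
  by_cases hk : (n : ℤ) ∣ k
  · obtain ⟨m, rfl⟩ := hk
    rw [qExpand_coeff_mul]
    rcases le_or_gt 0 m with hm | hm
    · lift m to ℕ using hm
      have h1 : ((n : ℤ) * (m : ℤ)) = ((n * m : ℕ) : ℤ) := by push_cast; ring
      rw [h1, HahnSeries.ofPowerSeries_apply_coeff, HahnSeries.ofPowerSeries_apply_coeff,
        PowerSeries.coeff_expand_mul]
    · have hn : (0 : ℤ) < n := by exact_mod_cast Nat.pos_of_ne_zero (NeZero.ne n)
      have h2 : (n : ℤ) * m < 0 := mul_neg_of_pos_of_neg hn hm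
      rw [ofPowerSeries_coeff_of_neg _ hm, ofPowerSeries_coeff_of_neg _ h2]
  · rw [qExpand_coeff_of_not_dvd n _ hk]
    rcases le_or_gt 0 k with hk0 | hk0
    · lift k to ℕ using hk0
      rw [HahnSeries.ofPowerSeries_apply_coeff, PowerSeries.coeff_expand_of_not_dvd]
      intro h
      exact hk (by exact_mod_cast h)
    · rw [ofPowerSeries_coeff_of_neg _ hk0]

theorem map_map_intCast {S : Type*} [CommRing S] (φ : R →+* S) (x : PowerSeries ℤ) :
    (x.map (Int.castRingHom R)).map φ = x.map (Int.castRingHom S) := by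
  ext n
  simp

end QExpand

/-! ### the series -/

section Series

variable (R : Type*) [CommRing R]

/-- `1 / e₆`. -/
def inv6 : PowerSeries R := PowerSeries.invOfUnit (H95.e6 R) 1

theorem e6_mul_inv6 : H95.e6 R * inv6 R = 1 :=
  PowerSeries.mul_invOfUnit _ _ (by simp)

theorem inv6_mul_e6 : inv6 R * H95.e6 R = 1 := by
  rw [mul_comm]; exact e6_mul_inv6 R

variable {R} in
theorem inv6_map {S : Type*} [CommRing S] (φ : R →+* S) : (inv6 R).map φ = inv6 S := by
  have h1 : (inv6 R).map φ * H95.e6 S = 1 := by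
    rw [← H95.e6_map (R := R) (S := S) φ, ← map_mul, inv6_mul_e6, map_one]
  calc (inv6 R).map φ = (inv6 R).map φ * (H95.e6 S * inv6 S) := by rw [e6_mul_inv6, mul_one]
    _ = ((inv6 R).map φ * H95.e6 S) * inv6 S := by ring
    _ = inv6 S := by rw [h1, one_mul]

@[simp] theorem constantCoeff_inv6 : PowerSeries.constantCoeff (inv6 R) = 1 := by
  have h := congrArg PowerSeries.constantCoeff (e6_mul_inv6 R)
  simpa using h

/-- the series of `F`. -/
def aS (a : ℕ → ℤ) : PowerSeries R := (PowerSeries.mk a).map (Int.castRingHom R)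

/-- the series of `U_p F`. -/
def uS (a : ℕ → ℤ) (p : ℕ) : PowerSeries R :=
  (PowerSeries.mk fun n => a (n * p)).map (Int.castRingHom R)

/-- the expansion of `F E₄ / E₆` at `∞`. -/
def sS (a : ℕ → ℤ) : PowerSeries R := aS R a * H95.e4 R * inv6 R

/-- the expansion of `(F E₄ / E₆) ∘ W`. -/
def zS (a : ℕ → ℤ) (p : ℕ) (hp : p ≠ 0) (pinv : R) : PowerSeries R :=
  PowerSeries.C (-pinv) * uS R a p * PowerSeries.expand p hp (H95.e4 R * inv6 R)

variable {R}

theorem aS_map {S : Type*} [CommRing S] (φ : R →+* S) (a : ℕ → ℤ) :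
    (aS R a).map φ = aS S a := map_map_intCast φ _

theorem uS_map {S : Type*} [CommRing S] (φ : R →+* S) (a : ℕ → ℤ) (p : ℕ) :
    (uS R a p).map φ = uS S a p := map_map_intCast φ _

theorem sS_map {S : Type*} [CommRing S] (φ : R →+* S) (a : ℕ → ℤ) :
    (sS R a).map φ = sS S a := by
  rw [sS, map_mul, map_mul, aS_map, H95.e4_map, inv6_map, sS]

theorem zS_map {S : Type*} [CommRing S] (φ : R →+* S) (a : ℕ → ℤ) (p : ℕ) (hp : p ≠ 0)
    (pinv : R) : (zS R a p hp pinv).map φ = zS S a p hp (φ pinv) := by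
  rw [zS, map_mul, map_mul, PowerSeries.map_C, uS_map, PowerSeries.map_expand, map_mul,
    H95.e4_map, inv6_map, map_neg, zS]

theorem sS_mul_e6 (a : ℕ → ℤ) : sS R a * H95.e6 R = aS R a * H95.e4 R := by
  rw [sS, mul_assoc, inv6_mul_e6, mul_one]

theorem zS_mul (a : ℕ → ℤ) (p : ℕ) (hp : p ≠ 0) (pinv : R) (hpinv : (p : R) * pinv = 1) :
    zS R a p hp pinv * (PowerSeries.C ((p : R) ^ 5) * PowerSeries.expand p hp (H95.e6 R))
      = PowerSeries.C (-(p : R) ^ 4) * uS R a p * PowerSeries.expand p hp (H95.e4 R) := by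
  have h1 : PowerSeries.expand p hp (H95.e4 R * inv6 R) * PowerSeries.expand p hp (H95.e6 R)
      = PowerSeries.expand p hp (H95.e4 R) := by
    rw [← map_mul, mul_assoc, inv6_mul_e6, mul_one]
  have h2 : (-pinv) * (p : R) ^ 5 = -(p : R) ^ 4 := by
    have : pinv * (p : R) ^ 5 = (p : R) ^ 4 := by
      calc pinv * (p : R) ^ 5 = ((p : R) * pinv) * (p : R) ^ 4 := by ring
        _ = (p : R) ^ 4 := by rw [hpinv, one_mul]
    rw [neg_mul, this]
  calc zS R a p hp pinv * (PowerSeries.C ((p : R) ^ 5) * PowerSeries.expand p hp (H95.e6 R))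
      = (PowerSeries.C (-pinv) * PowerSeries.C ((p : R) ^ 5)) * uS R a p *
          (PowerSeries.expand p hp (H95.e4 R * inv6 R) * PowerSeries.expand p hp (H95.e6 R)) := by
        rw [zS]; ring
    _ = _ := by rw [h1, ← map_mul, h2]

theorem constantCoeff_zS (a : ℕ → ℤ) (p : ℕ) (hp : p ≠ 0) (pinv : R) :
    PowerSeries.constantCoeff (zS R a p hp pinv) = -pinv * (a 0 : R) := by
  rw [zS, map_mul, map_mul, PowerSeries.constantCoeff_C, PowerSeries.constantCoeff_expand, map_mul,
    H95.constantCoeff_e4, constantCoeff_inv6, mul_one, mul_one, uS,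
    ← PowerSeries.coeff_zero_eq_constantCoeff_apply, PowerSeries.coeff_map, PowerSeries.coeff_mk,
    zero_mul]
  simp

/-! ### the congruence -/

theorem map_mk_eq_zero_iff (I : Ideal R) (x : PowerSeries R) :
    PowerSeries.map (Ideal.Quotient.mk I) x = 0 ↔ ∀ n, PowerSeries.coeff n x ∈ I := by
  constructor
  · intro h n
    have := congrArg (PowerSeries.coeff n) h
    rwa [PowerSeries.coeff_map, map_zero, Ideal.Quotient.eq_zero_iff_mem] at this
  · intro h
    ext n
    rw [PowerSeries.coeff_map, map_zero, Ideal.Quotient.eq_zero_iff_mem]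
    exact h n

/-- **`s ≡ a₀`**: if `m ∣ 24`, `m ∣ a n` for `n ≥ 1` and `m ∈ I`, then all coefficients of
`a e₄ / e₆ - a₀` lie in `I`. -/
theorem coeff_sS_sub_mem (I : Ideal R) (a : ℕ → ℤ) (m : ℤ) (hm : (m : R) ∈ I) (h24 : m ∣ 24)
    (ha : ∀ n, 1 ≤ n → m ∣ a n) (n : ℕ) :
    PowerSeries.coeff n (sS R a - PowerSeries.C ((a 0 : ℤ) : R)) ∈ I := by
  revert n
  rw [← map_mk_eq_zero_iff]
  set φ := Ideal.Quotient.mk I with hφ
  have hkill : ∀ x : ℤ, m ∣ x → φ ((x : ℤ) : R) = 0 := by
    rintro x ⟨y, rfl⟩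
    rw [Int.cast_mul, map_mul, hφ, Ideal.Quotient.eq_zero_iff_mem.mpr hm, zero_mul]
  have h1 : (aS R a).map φ = PowerSeries.C (φ ((a 0 : ℤ) : R)) := by
    ext n
    rw [PowerSeries.coeff_map, aS, PowerSeries.coeff_map, PowerSeries.coeff_mk, PowerSeries.coeff_C]
    rcases Nat.eq_zero_or_pos n with rfl | hn
    · simp
    · rw [if_neg hn.ne']
      exact hkill _ (ha n hn)
  have h2 : (H95.e4 R).map φ = 1 := by
    ext n
    rw [PowerSeries.coeff_map, H95.e4, PowerSeries.coeff_map, H95.e4Z, PowerSeries.coeff_mk,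
      PowerSeries.coeff_one]
    rcases Nat.eq_zero_or_pos n with rfl | hn
    · simp
    · rw [if_neg hn.ne', if_neg hn.ne']
      exact hkill _ (Dvd.dvd.mul_right (h24.trans (by norm_num)) _)
  have h3 : (H95.e6 R).map φ = 1 := by
    ext n
    rw [PowerSeries.coeff_map, H95.e6, PowerSeries.coeff_map, H95.e6Z, PowerSeries.coeff_mk,
      PowerSeries.coeff_one]
    rcases Nat.eq_zero_or_pos n with rfl | hn
    · simp
    · rw [if_neg hn.ne', if_neg hn.ne']
      exact hkill _ (Dvd.dvd.mul_right (h24.trans (by norm_num)) _)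
  have h4 : (inv6 R).map φ = 1 := by
    have := congrArg (PowerSeries.map φ) (e6_mul_inv6 R)
    rwa [map_mul, h3, one_mul, map_one] at this
  rw [map_sub, sS, map_mul, map_mul, h1, h2, h4, mul_one, mul_one, PowerSeries.map_C, sub_self]

end Series

end Fermat.Agent.S16.H72
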