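import Mathlib

/-!
# S16 / constant test: `ℤ_(ℓ)` as a valuation subring of `ℚ` (helper72)

`Zl ℓ := (Rat.padicValuation ℓ).valuationSubring`, with the facts needed to instantiate the abstract
swap theorem `H63.forall_pow_dvd_coeff_sub_X0` at `L = ℚ`.
-/

set_option autoImplicit false

noncomputable section

namespace Fermat.Agent.S16.H72

open WithZero

variable (ℓ : ℕ) [Fact ℓ.Prime]

/-- `ℤ_(ℓ) ⊆ ℚ`. -/
def Zl : ValuationSubring ℚ := (Rat.padicValuation ℓ).valuationSubring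

theorem mem_Zl {x : ℚ} : x ∈ Zl ℓ ↔ Rat.padicValuation ℓ x ≤ 1 :=
  Valuation.mem_valuationSubring_iff _ _

theorem intCast_mem_Zl (m : ℤ) : (m : ℚ) ∈ Zl ℓ := by
  rw [mem_Zl, Rat.padicValuation_cast]
  exact Int.padicValuation_le_one ℓ m

/-- The structure map `ℤ → ℤ_(ℓ)`. -/
def intZl : ℤ →+* Zl ℓ := Int.castRingHom (Zl ℓ)

@[simp] theorem coe_intZl (m : ℤ) : ((intZl ℓ m : Zl ℓ) : ℚ) = (m : ℚ) := by
  simp [intZl]

theorem intZl_injective : Function.Injective (intZl ℓ) := by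
  intro a b h
  have := congrArg (fun x : Zl ℓ => (x : ℚ)) h
  simpa using this

/-- `ϖ = ℓ`. -/
def piZl : Zl ℓ := intZl ℓ (ℓ : ℤ)

@[simp] theorem coe_piZl : ((piZl ℓ : Zl ℓ) : ℚ) = (ℓ : ℚ) := by
  simp [piZl]

theorem piZl_ne_zero : piZl ℓ ≠ 0 := by
  intro h
  have := congrArg (fun x : Zl ℓ => (x : ℚ)) h
  simp only [coe_piZl, ZeroMemClass.coe_zero] at this
  exact (Fact.out : ℓ.Prime).ne_zero (by exact_mod_cast this)

theorem padicValuation_natCast_self : Rat.padicValuation ℓ (ℓ : ℚ) = exp (-1 : ℤ) :=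
  Rat.padicValuation_self ℓ

/-- Discreteness: `v x < 1 → v (x / ℓ) ≤ 1`. -/
theorem div_mem_Zl_of_lt_one {x : ℚ} (hx : Rat.padicValuation ℓ x < 1) : x / (ℓ : ℚ) ∈ Zl ℓ := by
  rw [mem_Zl, map_div₀, padicValuation_natCast_self]
  rcases eq_or_ne (Rat.padicValuation ℓ x) 0 with h0 | h0
  · rw [h0, zero_div]; exact zero_le_one
  · obtain ⟨n, hn⟩ : ∃ n : ℤ, Rat.padicValuation ℓ x = exp n := ⟨log _, (exp_log h0).symm⟩
    rw [hn] at hx ⊢
    rw [← exp_zero, exp_lt_exp] at hx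
    rw [← exp_sub, ← exp_zero, exp_le_exp]
    omega

/-- The kernel of the residue map is `(ℓ)`. -/
theorem residue_eq_zero_iff (a : Zl ℓ) :
    IsLocalRing.residue (Zl ℓ) a = 0 ↔ piZl ℓ ∣ a := by
  rw [IsLocalRing.residue_eq_zero_iff, ValuationSubring.valuation_lt_one_iff]
  constructor
  · intro h
    have h' : Rat.padicValuation ℓ (a : ℚ) < 1 := by
      have := (Valuation.isEquiv_valuation_valuationSubring (Rat.padicValuation ℓ)).lt_one_iff_lt_one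
        (x := (a : ℚ))
      exact this.mpr h
    refine ⟨⟨(a : ℚ) / ℓ, div_mem_Zl_of_lt_one ℓ h'⟩, ?_⟩
    apply Subtype.ext
    have hℓ : (ℓ : ℚ) ≠ 0 := by exact_mod_cast (Fact.out : ℓ.Prime).ne_zero
    simp only [MulMemClass.coe_mul, coe_piZl]
    field_simp
  · rintro ⟨b, rfl⟩
    have := (Valuation.isEquiv_valuation_valuationSubring (Rat.padicValuation ℓ)).lt_one_iff_lt_one
      (x := ((piZl ℓ * b : Zl ℓ) : ℚ))
    refine this.mp ?_
    simp only [MulMemClass.coe_mul, coe_piZl, map_mul, padicValuation_natCast_self]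
    have hb : Rat.padicValuation ℓ (b : ℚ) ≤ 1 := (mem_Zl ℓ).mp b.2
    calc exp (-1 : ℤ) * Rat.padicValuation ℓ (b : ℚ) ≤ exp (-1 : ℤ) * 1 := by gcongr
      _ < 1 := by rw [mul_one, ← exp_zero, exp_lt_exp]; norm_num

/-- Divisibility by `ℓ^e` descends from `ℤ_(ℓ)` to `ℤ`. -/
theorem pow_dvd_of_piZl_pow_dvd (e : ℕ) (m : ℤ) (h : piZl ℓ ^ e ∣ intZl ℓ m) : (ℓ : ℤ) ^ e ∣ m := by
  induction e generalizing m with
  | zero => simp
  | succ e ih =>
    obtain ⟨u, hu⟩ := h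
    have hℓ : (ℓ : ℚ) ≠ 0 := by exact_mod_cast (Fact.out : ℓ.Prime).ne_zero
    -- `ℓ ∣ m`
    have h1 : piZl ℓ ∣ intZl ℓ m := ⟨piZl ℓ ^ e * u, by rw [hu]; ring⟩
    rw [← residue_eq_zero_iff, IsLocalRing.residue_eq_zero_iff,
      ValuationSubring.valuation_lt_one_iff] at h1
    have h2 : Rat.padicValuation ℓ ((intZl ℓ m : Zl ℓ) : ℚ) < 1 :=
      ((Valuation.isEquiv_valuation_valuationSubring (Rat.padicValuation ℓ)).lt_one_iff_lt_one
        (x := ((intZl ℓ m : Zl ℓ) : ℚ))).mpr h1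
    rw [coe_intZl, Rat.padicValuation_cast, Int.padicValuation_lt_one_iff] at h2
    obtain ⟨m', rfl⟩ := h2
    have h3 : piZl ℓ ^ e ∣ intZl ℓ m' := by
      refine ⟨u, ?_⟩
      apply Subtype.ext
      have := congrArg (fun x : Zl ℓ => (x : ℚ)) hu
      simp only [coe_intZl, MulMemClass.coe_mul, SubmonoidClass.coe_pow, coe_piZl,
        Int.cast_mul, Int.cast_natCast] at this ⊢
      have h4 : (ℓ : ℚ) * (m' : ℚ) = (ℓ : ℚ) * ((ℓ : ℚ) ^ e * (u : ℚ)) := by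
        rw [this]; ring
      exact mul_left_cancel₀ hℓ h4
    rw [pow_succ']
    exact mul_dvd_mul_left _ (ih m' h3)

/-- Divisibility by `ℓ^e` ascends from `ℤ` to `ℤ_(ℓ)`. -/
theorem piZl_pow_dvd_of_pow_dvd (e : ℕ) (m : ℤ) (h : (ℓ : ℤ) ^ e ∣ m) : piZl ℓ ^ e ∣ intZl ℓ m := by
  obtain ⟨m', rfl⟩ := h
  exact ⟨intZl ℓ m', by simp [piZl]⟩

/-- A prime `p ≠ ℓ` is invertible in `ℤ_(ℓ)`. -/
theorem inv_natCast_mem_Zl {p : ℕ} (hp : p.Prime) (hpl : ℓ ≠ p) : ((p : ℚ))⁻¹ ∈ Zl ℓ := by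
  rw [mem_Zl, map_inv₀]
  have h1 : Rat.padicValuation ℓ (p : ℚ) = 1 := by
    have : ((p : ℤ) : ℚ) = (p : ℚ) := by push_cast; rfl
    rw [← this, Rat.padicValuation_cast, Int.padicValuation_eq_one_iff]
    intro h
    have h2 : ℓ ∣ p := by exact_mod_cast h
    exact hpl ((Nat.prime_dvd_prime_iff_eq (Fact.out : ℓ.Prime) hp).mp h2)
  rw [h1, inv_one]

/-- `p ≠ 0` in the residue field of `ℤ_(ℓ)` for a prime `p ≠ ℓ`. -/
theorem natCast_residueField_ne_zero {p : ℕ} (hp : p.Prime) (hpl : ℓ ≠ p) :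
    ((p : ℕ) : IsLocalRing.ResidueField (Zl ℓ)) ≠ 0 := by
  intro h
  have h1 : IsLocalRing.residue (Zl ℓ) (intZl ℓ (p : ℤ)) = 0 := by
    have h0 : intZl ℓ (p : ℤ) = ((p : ℕ) : Zl ℓ) := by simp [intZl]
    rw [h0, map_natCast]
    exact h
  rw [residue_eq_zero_iff] at h1
  have h2 := pow_dvd_of_piZl_pow_dvd ℓ 1 (p : ℤ) (by rwa [pow_one])
  rw [pow_one] at h2
  have h3 : ℓ ∣ p := by exact_mod_cast h2
  exact hpl ((Nat.prime_dvd_prime_iff_eq (Fact.out : ℓ.Prime) hp).mp h3)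

end Fermat.Agent.S16.H72
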