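import Mathlib
import Fermat.Agent.S16.H72_Zl
import Fermat.Agent.S16.H72_CTSeries
import Fermat.Agent.S16.H72_FormSwap
import Fermat.Agent.S16.H63_QPInst
import Fermat.Agent.S16.H14_Trace
import Fermat.Agent.S16.H95_LevelOneStructure
import Fermat.Agent.S16.H39_Leaves
import Fermat.Agent.S18.H8_FullCBridge
import Fermat.Agent.S18.H16_FKGen

/-!
# S16 / the CONSTANT TEST (helper72, parallel hedge of helper63's `H63_ConstTest`)

`const_test`: for `F ∈ M₂(Γ₀(p))` with integer `q`-coefficients `a n`, a prime `ℓ ≠ p` and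
`ℓ^c ∣ 24`: if `ℓ^c ∣ a n` for all `n ≥ 1` then `ℓ^c ∣ (p + 1) a 0`.

Proof: `g := F E₄ / E₆` is a function on `X₀(p)` with `q`-expansion `≡ a 0 mod ℓ^c` at `∞`, and
`g ∘ W = -(1/p) (U_p F)(q) E₄(q^p)/E₆(q^p)` has a `ℤ_(ℓ)`-integral expansion with constant term
`-(a 0)/p`; the `q`-expansion principle at the cusp `0` (`H63.forall_pow_dvd_coeff_sub_X0`, fed by
`H72.exists_swap_polys`) gives `-(a 0)/p ≡ a 0 mod ℓ^c`.
-/

set_option autoImplicit false

open Complex Filter Function Polynomial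
open UpperHalfPlane hiding I
open ModularForm CongruenceSubgroup Matrix.SpecialLinearGroup ModularCurve EisensteinSeries
open scoped Real Topology Manifold MatrixGroups ModularForm

noncomputable section

namespace Fermat.Agent.S16.H72

open Fermat.Agent.S24 Fermat.Agent.S24.H81 Fermat.Agent.S24.H4 Fermat.Agent.S24.H17
open Fermat.Agent.S29.H72
open Fermat.Agent.S18.H92 (ev2 up)

/-! ### `q`-expansions as power series -/

section qexp

variable {N : ℕ} {k k' : ℤ} {F G : ℍ → ℂ}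

theorem qExpansion_eq_of_qLaurent_eq {F : ℍ → ℂ} {P : PowerSeries ℂ}
    (h : IsFormOn.qLaurent F = HahnSeries.ofPowerSeries ℤ ℂ P) : qExpansion 1 F = P :=
  HahnSeries.ofPowerSeries_injective h

theorem IsFormOn.qExpansion_mul (hF : IsFormOn N k F) (hG : IsFormOn N k' G) :
    qExpansion 1 (F * G) = qExpansion 1 F * qExpansion 1 G := by
  apply qExpansion_eq_of_qLaurent_eq
  rw [hF.qLaurent_mul hG, map_mul]
  rfl

theorem IsFormOn.qExpansion_const_smul (c : ℂ) (hF : IsFormOn N k F) :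
    qExpansion 1 (c • F) = PowerSeries.C c * qExpansion 1 F := by
  apply qExpansion_eq_of_qLaurent_eq
  rw [hF.qLaurent_const_smul c, map_mul, HahnSeries.ofPowerSeries_C]
  rfl

theorem qExpansion_levelOne_slash_frickeMat (N : ℕ) [NeZero N] {k : ℤ} (E : ModularForm 𝒮ℒ k) :
    qExpansion 1 ((E : ℍ → ℂ) ∣[k] H14.frickeMat N)
      = PowerSeries.C ((N : ℂ) ^ (k - 1)) * PowerSeries.expand N (NeZero.ne N) (qExpansion 1 E) := by
  apply qExpansion_eq_of_qLaurent_eq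
  rw [qLaurent_levelOne_slash_frickeMat, map_mul, HahnSeries.ofPowerSeries_C,
    ← qExpand_ofPowerSeries]
  rfl

end qexp

/-! ### the forms -/

section main

variable (p : ℕ) [hp : Fact p.Prime] [NeZero p]

omit hp [NeZero p] in
theorem qExpansion_eq_aS (F : ModularForm ((Gamma0 p).map (mapGL ℝ)) 2) (a : ℕ → ℤ)
    (ha : ∀ n, (qExpansion 1 F).coeff n = (a n : ℂ)) : qExpansion 1 F = aS ℂ a := by
  ext n
  rw [ha, aS, PowerSeries.coeff_map, PowerSeries.coeff_mk]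
  simp

/-- **TRACE**: the `q`-expansion of `F ∣ W` is `-(U_p a)(q)`. -/
theorem qExpansion_slash_frickeMat_two (F : ModularForm ((Gamma0 p).map (mapGL ℝ)) 2) (a : ℕ → ℤ)
    (ha : ∀ n, (qExpansion 1 F).coeff n = (a n : ℂ)) :
    qExpansion 1 ((F : ℍ → ℂ) ∣[(2 : ℤ)] H14.frickeMat p) = -(uS ℂ a p) := by
  ext n
  have h := H14.qCoeff_fricke F n
  unfold ModularFormClass.qCoeff at h
  rw [H14.coe_fricke] at h
  rw [h, ha, map_neg, uS, PowerSeries.coeff_map, PowerSeries.coeff_mk]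
  simp

theorem E6_ne_zero : ((E₆ : ModularForm 𝒮ℒ 6) : ℍ → ℂ) ≠ 0 := by
  intro h
  have h1 := H95.qExpansion_E6
  rw [h, qExpansion_zero] at h1
  have h2 := congrArg PowerSeries.constantCoeff h1
  simp at h2

theorem ofPowerSeries_ne_zero {R : Type*} [CommRing R] {x : PowerSeries R} (hx : x ≠ 0) :
    HahnSeries.ofPowerSeries ℤ R x ≠ 0 := fun h =>
  hx (HahnSeries.ofPowerSeries_injective (h.trans (map_zero _).symm))

/-- **The constant test.** -/
theorem const_test (ℓ c : ℕ) [Fact ℓ.Prime] (hℓp : ℓ ≠ p) (hc : ℓ ^ c ∣ 24)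
    (F : ModularForm ((Gamma0 p).map (mapGL ℝ)) 2) (a : ℕ → ℤ)
    (ha : ∀ n, (qExpansion 1 F).coeff n = (a n : ℂ))
    (h : ∀ n, 1 ≤ n → (ℓ : ℤ) ^ c ∣ a n) : (ℓ : ℤ) ^ c ∣ ((p : ℤ) + 1) * a 0 := by
  have hpP : p.Prime := hp.out
  have hp0 : p ≠ 0 := hpP.ne_zero
  have hNQ : ((p : ℕ) : ℚ) ≠ 0 := by exact_mod_cast hp0
  -- forms
  have hF : IsFormOn p 2 F := isFormOn_modularForm F
  have hE4 : IsFormOn p 4 E₄ := isFormOn_levelOne p E₄
  have hE6 : IsFormOn p 6 E₆ := isFormOn_levelOne p E₆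
  have hF6 : IsFormOn p 6 ((F : ℍ → ℂ) * E₄) := hF.mul hE4
  -- `q`-expansions over `ℚ`
  have hqF := qExpansion_eq_aS p F a ha
  have ha6 : qExpansion 1 ((F : ℍ → ℂ) * E₄) = (aS ℚ a * H95.e4 ℚ).map (algebraMap ℚ ℂ) := by
    rw [hF.qExpansion_mul hE4, hqF, H95.qExpansion_E4, map_mul, aS_map, H95.e4_map]
  have hb6 : qExpansion 1 (E₆ : ℍ → ℂ) = (H95.e6 ℚ).map (algebraMap ℚ ℂ) := by
    rw [H95.qExpansion_E6, H95.e6_map]
  have e3 : ((p : ℂ)) ^ ((4 : ℤ) - 1) = (p : ℂ) ^ 3 := by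
    have : ((4 : ℤ) - 1) = ((3 : ℕ) : ℤ) := by norm_num
    rw [this, zpow_natCast]
  have e5 : ((p : ℂ)) ^ ((6 : ℤ) - 1) = (p : ℂ) ^ 5 := by
    have : ((6 : ℤ) - 1) = ((5 : ℕ) : ℤ) := by norm_num
    rw [this, zpow_natCast]
  have ha6' : qExpansion 1 (((F : ℍ → ℂ) * E₄) ∣[(6 : ℤ)] H14.frickeMat p)
      = (PowerSeries.C (-(p : ℚ) ^ 4) * uS ℚ a p
          * PowerSeries.expand p hp0 (H95.e4 ℚ)).map (algebraMap ℚ ℂ) := by
    have e : ((F : ℍ → ℂ) * E₄) ∣[(6 : ℤ)] H14.frickeMat p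
        = (p : ℂ) • (((F : ℍ → ℂ) ∣[(2 : ℤ)] H14.frickeMat p)
            * ((E₄ : ℍ → ℂ) ∣[(4 : ℤ)] H14.frickeMat p)) :=
      mul_slash_frickeMat p 2 4 F E₄
    rw [e, (hF.fricke.mul hE4.fricke).qExpansion_const_smul, hF.fricke.qExpansion_mul hE4.fricke,
      qExpansion_slash_frickeMat_two p F a ha, qExpansion_levelOne_slash_frickeMat,
      H95.qExpansion_E4, e3]
    simp only [map_mul, uS_map, PowerSeries.map_expand, H95.e4_map, map_neg,
      map_pow, map_natCast]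
    ring
  have hb6' : qExpansion 1 ((E₆ : ℍ → ℂ) ∣[(6 : ℤ)] H14.frickeMat p)
      = (PowerSeries.C ((p : ℚ) ^ 5) * PowerSeries.expand p hp0 (H95.e6 ℚ)).map
          (algebraMap ℚ ℂ) := by
    rw [qExpansion_levelOne_slash_frickeMat, H95.qExpansion_E6, e5]
    simp only [map_mul, PowerSeries.map_expand, H95.e6_map, map_pow,
      map_natCast]
  -- the function-field element
  obtain ⟨f₀, hf₀, -⟩ := exists_baseChange_eq_ratio p (K := ℚ) hF6 hE6 E6_ne_zero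
    (aS ℚ a * H95.e4 ℚ) (H95.e6 ℚ) ha6 hb6
  have hs : (f₀ : LaurentSeries ℚ)
      ∈ IntermediateField.adjoin ℚ {jqModC ℚ, qExpand ℚ p (jqModC ℚ)} := by
    have h1 : (f₀ : LaurentSeries ℚ) ∈ modularFunctionFieldFullC ℚ p := by
      rw [Fermat.Agent.S18.H8.fullC_eq_laurentBaseChange]
      exact f₀.2
    rw [Fermat.Agent.S18.H16.fullC_eq_adjoin_gen p ℚ hNQ] at h1
    exact h1
  obtain ⟨Pa, Pb, hPb, hPa, hswap⟩ := exists_swap_polys p hF6 hE6 _ _ _ _ ha6 hb6 ha6' hb6'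
    (f₀ : LaurentSeries ℚ) hs hf₀
  -- the `ℓ`-adic side
  have hπ : Function.Surjective (IsLocalRing.residue (Zl ℓ)) := IsLocalRing.residue_surjective
  have hNk : ((p : ℕ) : IsLocalRing.ResidueField (Zl ℓ)) ≠ 0 :=
    natCast_residueField_ne_zero ℓ hpP hℓp
  set pinv : Zl ℓ := ⟨((p : ℚ))⁻¹, inv_natCast_mem_Zl ℓ hpP hℓp⟩ with hpinv
  set sA : LaurentSeries (Zl ℓ) := HahnSeries.ofPowerSeries ℤ (Zl ℓ) (sS (Zl ℓ) a) with hsA
  set zA : LaurentSeries (Zl ℓ) := HahnSeries.ofPowerSeries ℤ (Zl ℓ) (zS (Zl ℓ) a p hp0 pinv)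
    with hzA
  have hup_s : up (Zl ℓ) sA = HahnSeries.ofPowerSeries ℤ ℚ (sS ℚ a) := by
    rw [hsA, ← ofPowerSeries_map, sS_map]
  have hup_z : up (Zl ℓ) zA = HahnSeries.ofPowerSeries ℤ ℚ (zS ℚ a p hp0 ((p : ℚ))⁻¹) := by
    rw [hzA, ← ofPowerSeries_map, zS_map]
    rfl
  have he6 : H95.e6 ℚ ≠ 0 := by
    intro h0
    have := congrArg PowerSeries.constantCoeff h0
    simp at this
  have hb0 : HahnSeries.ofPowerSeries ℤ ℚ (H95.e6 ℚ) ≠ 0 := ofPowerSeries_ne_zero he6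
  have hf₀s : (f₀ : LaurentSeries ℚ) = up (Zl ℓ) sA := by
    rw [hup_s]
    apply mul_right_cancel₀ hb0
    rw [hf₀, ← map_mul, sS_mul_e6]
  have h1 : ev2 (jqModC ℚ) (jqNModC ℚ p) Pa
      = up (Zl ℓ) sA * ev2 (jqModC ℚ) (jqNModC ℚ p) Pb := by
    rw [← hf₀s]; exact hPa
  have hb0' : HahnSeries.ofPowerSeries ℤ ℚ
      (PowerSeries.C ((p : ℚ) ^ 5) * PowerSeries.expand p hp0 (H95.e6 ℚ)) ≠ 0 := by
    apply ofPowerSeries_ne_zero
    intro h0
    have := congrArg PowerSeries.constantCoeff h0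
    simp [hp0] at this
  have h2 : ev2 (jqNModC ℚ p) (jqModC ℚ) Pa
      = up (Zl ℓ) zA * ev2 (jqNModC ℚ p) (jqModC ℚ) Pb := by
    apply hswap (up (Zl ℓ) zA) _ hb0'
    rw [hup_z, ← map_mul, zS_mul a p hp0 _ (mul_inv_cancel₀ hNQ)]
  -- the congruence at `∞`
  have hcongr : ∀ n : ℤ, piZl ℓ ^ c ∣ (sA - HahnSeries.C (intZl ℓ (a 0))).coeff n := by
    intro n
    have e : sA - HahnSeries.C (intZl ℓ (a 0))
        = HahnSeries.ofPowerSeries ℤ (Zl ℓ) (sS (Zl ℓ) a - PowerSeries.C (intZl ℓ (a 0))) := by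
      rw [map_sub, HahnSeries.ofPowerSeries_C]
    rw [e]
    rcases lt_or_ge n 0 with hn | hn
    · rw [ofPowerSeries_coeff_of_neg _ hn]; exact dvd_zero _
    · lift n to ℕ using hn
      rw [HahnSeries.ofPowerSeries_apply_coeff]
      have hm : (((ℓ : ℤ) ^ c : ℤ) : Zl ℓ) ∈ Ideal.span {piZl ℓ ^ c} := by
        have : (((ℓ : ℤ) ^ c : ℤ) : Zl ℓ) = piZl ℓ ^ c := by
          simp [piZl, intZl]
        rw [this]
        exact Ideal.mem_span_singleton_self _
      have h24 : ((ℓ : ℤ) ^ c) ∣ 24 := by exact_mod_cast hc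
      have := coeff_sS_sub_mem (Ideal.span {piZl ℓ ^ c}) a ((ℓ : ℤ) ^ c) hm h24 h n
      rw [Ideal.mem_span_singleton] at this
      exact this
  have key := H63.forall_pow_dvd_coeff_sub_X0 (Zl ℓ) (IsLocalRing.residue (Zl ℓ)) hπ p hNk
    (piZl_ne_zero ℓ) (residue_eq_zero_iff ℓ) c Pa Pb sA zA (intZl ℓ (a 0)) hcongr h1 hPb h2 0
  -- read off the constant term
  have hz0 : (zA - HahnSeries.C (intZl ℓ (a 0))).coeff 0
      = -pinv * intZl ℓ (a 0) - intZl ℓ (a 0) := by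
    rw [HahnSeries.coeff_sub, HahnSeries.C_apply, HahnSeries.coeff_single_same, hzA]
    have : ((0 : ℕ) : ℤ) = 0 := rfl
    rw [← this, HahnSeries.ofPowerSeries_apply_coeff, PowerSeries.coeff_zero_eq_constantCoeff_apply,
      constantCoeff_zS]
    rfl
  rw [hz0] at key
  have hpp : intZl ℓ (p : ℤ) * pinv = 1 := by
    apply Subtype.ext
    simp only [MulMemClass.coe_mul, coe_intZl, hpinv, OneMemClass.coe_one, Int.cast_natCast]
    exact mul_inv_cancel₀ hNQ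
  have hfin : piZl ℓ ^ c ∣ intZl ℓ (((p : ℤ) + 1) * a 0) := by
    have h3 : intZl ℓ (((p : ℤ) + 1) * a 0)
        = -(intZl ℓ (p : ℤ)) * (-pinv * intZl ℓ (a 0) - intZl ℓ (a 0)) := by
      rw [map_mul, map_add, map_one]
      calc (intZl ℓ (p : ℤ) + 1) * intZl ℓ (a 0)
          = (intZl ℓ (p : ℤ) * pinv) * intZl ℓ (a 0) + intZl ℓ (p : ℤ) * intZl ℓ (a 0) := by
            rw [hpp]; ring
        _ = _ := by ring
    rw [h3]
    exact Dvd.dvd.mul_left key _
  exact pow_dvd_of_piZl_pow_dvd ℓ c _ hfin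

end main

/-! ### the leaves -/

section leaves

variable (p : ℕ) [hp : Fact p.Prime]

/-- **Constant test ⇒ leaf.**  If `l^(e+1) ∣ 24` and `l^(e+1) ∤ p + 1` (`l ≠ p` prime), then
`ULeaf p l e`. -/
theorem uLeaf_of_const_test (l e : ℕ) [hl : Fact l.Prime] (hlp : l ≠ p) (h24 : l ^ (e + 1) ∣ 24)
    (hv : ¬ (l : ℤ) ^ (e + 1) ∣ (p : ℤ) + 1) : H39.ULeaf p l e := by
  have : NeZero p := ⟨hp.out.ne_zero⟩
  have hlP : Prime (l : ℤ) := Nat.prime_iff_prime_int.mp hl.out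
  have hl0 : (l : ℂ) ≠ 0 := by exact_mod_cast hl.out.ne_zero
  intro F a ha A
  induction A generalizing F a with
  | zero => intro _; simp
  | succ A ih =>
    intro hA
    rcases Nat.lt_or_ge A e with hAe | hAe
    · -- `A + 1 ≤ e`
      exact Dvd.dvd.mul_right (pow_dvd_pow _ hAe) _
    · by_cases h0 : (l : ℤ) ∣ a 0
      · -- divide `F` by `l`
        have hdiv : ∀ n, (l : ℤ) ∣ a n := by
          intro n
          rcases Nat.eq_zero_or_pos n with rfl | hn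
          · exact h0
          · exact (dvd_pow_self _ (Nat.succ_ne_zero A)).trans (hA n hn)
        choose a' ha' using hdiv
        have hF : IsFormOn p 2 F := isFormOn_modularForm F
        have hq : ∀ n, (qExpansion 1 (((l : ℂ)⁻¹) • F)).coeff n = (a' n : ℂ) := by
          intro n
          rw [hF.qExpansion_const_smul, PowerSeries.coeff_C_mul, ha n, ha' n]
          push_cast
          field_simp
        have h1 := ih (((l : ℂ)⁻¹) • F) a' hq (fun n hn => by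
          have := hA n hn
          rw [ha' n, pow_succ'] at this
          exact (mul_dvd_mul_iff_left hlP.ne_zero).mp this)
        rw [ha' 0, pow_succ']
        calc (l : ℤ) * (l : ℤ) ^ A ∣ (l : ℤ) * ((l : ℤ) ^ e * a' 0) := mul_dvd_mul_left _ h1
          _ = (l : ℤ) ^ e * ((l : ℤ) * a' 0) := by ring
      · -- `l ∤ a 0`: contradiction with the constant test
        exfalso
        apply hv
        have hc := const_test p l (e + 1) hlp h24 F a ha (fun n hn =>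
          (pow_dvd_pow _ (Nat.succ_le_succ hAe)).trans (hA n hn))
        exact (hlP.pow_dvd_of_dvd_mul_right (e + 1) h0 hc)

/-- `(U3a)`: `p ≡ 1 mod 3`. -/
theorem uLeaf_three_zero (h : p % 3 = 1) : H39.ULeaf p 3 0 := by
  have : Fact (Nat.Prime 3) := ⟨Nat.prime_three⟩
  refine uLeaf_of_const_test p 3 0 (by rintro rfl; simp at h) (by norm_num) ?_
  intro hd
  have : ((p : ℤ) + 1) % 3 = 0 := Int.emod_eq_zero_of_dvd (by simpa using hd)
  omega

/-- `(U2a)`: `p ≡ 1 mod 4`. -/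
theorem uLeaf_two_one (h : p % 4 = 1) : H39.ULeaf p 2 1 := by
  have : Fact (Nat.Prime 2) := ⟨Nat.prime_two⟩
  refine uLeaf_of_const_test p 2 1 (by rintro rfl; simp at h) (by norm_num) ?_
  intro hd
  have : ((p : ℤ) + 1) % 4 = 0 := Int.emod_eq_zero_of_dvd (by simpa using hd)
  omega

/-- half of `(U2b)`: `p ≡ 3 mod 8`. -/
theorem uLeaf_two_two (h : p % 8 = 3) : H39.ULeaf p 2 2 := by
  have : Fact (Nat.Prime 2) := ⟨Nat.prime_two⟩
  refine uLeaf_of_const_test p 2 2 (by rintro rfl; simp at h) (by norm_num) ?_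
  intro hd
  have : ((p : ℤ) + 1) % 8 = 0 := Int.emod_eq_zero_of_dvd (by simpa using hd)
  omega

end leaves

end Fermat.Agent.S16.H72
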