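import Mathlib
import Fermat.Agent.S16.H72_FormSwap

/-!
# S16 / QP-DICT, the `W`-side in helper63's shape (helper72)

`swap_of_fricke` : the analytic swap theorem with the Fricke transforms replaced by ANY pair of
`q`-sums `F'`, `G'` with `F(W τ) G'(τ) = G(W τ) F'(τ)` (`W τ = -1/(N τ)`); no holomorphy of `F'`,
`G'` is needed.
-/

set_option autoImplicit false

open Complex Filter Function Polynomial
open UpperHalfPlane hiding I
open ModularForm CongruenceSubgroup Matrix.SpecialLinearGroup ModularCurve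
open scoped Real Topology Manifold MatrixGroups ModularForm

noncomputable section

namespace Fermat.Agent.S16.H72

open Fermat.Agent.S24 Fermat.Agent.S24.H81 Fermat.Agent.S24.H4 Fermat.Agent.S24.H17
open Fermat.Agent.S29.H72
open Fermat.Agent.S18.H92 (ev2)

/-- The Fricke transform of a nonzero function is nonzero. -/
theorem slash_frickeMat_ne_zero (N : ℕ) [NeZero N] (k : ℤ) {G : ℍ → ℂ} (h0 : G ≠ 0) :
    G ∣[k] H14.frickeMat N ≠ 0 := by
  intro h
  apply h0
  funext τ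
  have h1 := congrFun h (H14.frickeMat N • τ)
  rw [H14.slash_frickeMat_apply, H14.frickeMat_smul_smul] at h1
  have hN : (N : ℂ) ≠ 0 := Nat.cast_ne_zero.mpr (NeZero.ne N)
  have hτ : (N : ℂ) * ((H14.frickeMat N • τ : ℍ) : ℂ) ≠ 0 := mul_ne_zero hN (ne_zero _)
  simp only [Pi.zero_apply, mul_eq_zero] at h1
  rcases h1 with (h1 | h1) | h1
  · exact h1
  · exact absurd h1 (zpow_ne_zero _ hN)
  · exact absurd h1 (zpow_ne_zero _ hτ)

/-- **The analytic swap theorem, cross-ratio form** (helper63's shape). -/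
theorem swap_of_fricke (N : ℕ) [NeZero N] {k : ℤ} {F G : ℍ → ℂ} (hF : IsFormOn N k F)
    (hG : IsFormOn N k G) (hG0 : G ≠ 0) (Pa Pb : ℂ[X][X])
    (h : ev2 (jqModC ℂ) (jqNModC ℂ N) Pa * IsFormOn.qLaurent G
      = IsFormOn.qLaurent F * ev2 (jqModC ℂ) (jqNModC ℂ N) Pb)
    {F' G' : ℍ → ℂ} {f' g' : LaurentSeries ℂ} (hf' : IsQSum f' F') (hg' : IsQSum g' G')
    (hW : ∀ τ τ' : ℍ, (τ' : ℂ) = -1 / ((N : ℂ) * (τ : ℂ)) → F τ' * G' τ = G τ' * F' τ) :
    ev2 (jqNModC ℂ N) (jqModC ℂ) Pa * g' = f' * ev2 (jqNModC ℂ N) (jqModC ℂ) Pb := by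
  have hjN : jqNModC ℂ N = jNSerC N := rfl
  rw [hjN] at h ⊢
  set J := H28.J with hJ
  set JN : ℍ → ℂ := fun τ => H28.J (H17.mulD N τ) with hJN
  -- the function identity
  have hfun : (fun τ => ev2pt (J τ) (JN τ) Pa) * G = F * (fun τ => ev2pt (J τ) (JN τ) Pb) := by
    have e1 := (isQSum_ev2 isQSum_jSerC (isQSum_jNSerC N) Pa).mul hG.isQSum
    have e2 := hF.isQSum.mul (isQSum_ev2 isQSum_jSerC (isQSum_jNSerC N) Pb)
    rw [h] at e1
    exact e1.unique e2
  -- the difference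
  set D : ℍ → ℂ := (fun τ => ev2pt (JN τ) (J τ) Pa) * G' - F' * (fun τ => ev2pt (JN τ) (J τ) Pb)
    with hD
  have hDsum : IsQSum (ev2 (jNSerC N) jSerC Pa * g' - f' * ev2 (jNSerC N) jSerC Pb) D :=
    ((isQSum_ev2 (isQSum_jNSerC N) isQSum_jSerC Pa).mul hg').sub
      (hf'.mul (isQSum_ev2 (isQSum_jNSerC N) isQSum_jSerC Pb))
  -- `G (W τ) * D τ = 0`
  have hzero : ∀ τ : ℍ, G (H14.frickeMat N • τ) * D τ = 0 := by
    intro τ
    have h1 := congrFun hfun (H14.frickeMat N • τ)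
    simp only [Pi.mul_apply, hJ, hJN, J_frickeMat_smul, J_mulD_frickeMat_smul] at h1
    have h2 := hW τ (H14.frickeMat N • τ) (H14.coe_frickeMat_smul N τ)
    simp only [hD, Pi.sub_apply, Pi.mul_apply, hJ, hJN]
    calc G (H14.frickeMat N • τ) *
          (ev2pt (H28.J (H17.mulD N τ)) (H28.J τ) Pa * G' τ
            - F' τ * ev2pt (H28.J (H17.mulD N τ)) (H28.J τ) Pb)
        = (ev2pt (H28.J (H17.mulD N τ)) (H28.J τ) Pa * G (H14.frickeMat N • τ)) * G' τ
            - (G (H14.frickeMat N • τ) * F' τ) * ev2pt (H28.J (H17.mulD N τ)) (H28.J τ) Pb := by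
          ring
      _ = (F (H14.frickeMat N • τ) * ev2pt (H28.J (H17.mulD N τ)) (H28.J τ) Pb) * G' τ
            - (F (H14.frickeMat N • τ) * G' τ) * ev2pt (H28.J (H17.mulD N τ)) (H28.J τ) Pb := by
          rw [h1, h2]
      _ = 0 := by ring
  -- `(G ∣ W) * D = 0` as functions, hence as series
  have hprod : (G ∣[k] H14.frickeMat N) * D = 0 := by
    funext τ
    rw [Pi.mul_apply, H14.slash_frickeMat_apply, Pi.zero_apply]
    calc G (H14.frickeMat N • τ) * (N : ℂ) ^ (k - 1) * ((N : ℂ) * τ) ^ (-k) * D τ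
        = (G (H14.frickeMat N • τ) * D τ) * ((N : ℂ) ^ (k - 1) * ((N : ℂ) * τ) ^ (-k)) := by ring
      _ = 0 := by rw [hzero τ, zero_mul]
  have hser := hG.fricke.isQSum.mul hDsum
  rw [hprod] at hser
  have h0 := hser.eq_zero
  have hne : IsFormOn.qLaurent (G ∣[k] H14.frickeMat N) ≠ 0 :=
    hG.fricke.qLaurent_ne_zero (slash_frickeMat_ne_zero N k hG0)
  rcases mul_eq_zero.mp h0 with h1 | h1
  · exact absurd h1 hne
  · exact sub_eq_zero.mp h1

end Fermat.Agent.S16.H72
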