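import Mathlib
import Fermat.Agent.S16.H72_FormSwapCross
import Fermat.Agent.S16.H48_FrickeBridgeFullC

/-!
# S16 / QP-DICT: the `W`-side on `Mer` (helper72)

The function-level half of helper48's `W`-bridge: precomposition with the Fricke matrix sends the
ratio of two forms of the same weight on `Γ₀(N)` to the ratio of their Fricke transforms,

  `actGL (wPos N) (ratioMer hF hG) = ratioMer hF.fricke hG.fricke`,

and the consequences for any ring endomorphism `w` of the function field which fixes the constants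
and swaps `j(q^d)` and `j(q^(N/d))`: the Laurent series of `w x` is PINNED,
`(w x) * q(G|W) = q(F|W)` whenever `x * q(G) = q(F)`.
-/

set_option autoImplicit false

open Complex Filter Function Polynomial
open UpperHalfPlane hiding I
open ModularForm CongruenceSubgroup Matrix.SpecialLinearGroup ModularCurve
open scoped Real Topology Manifold MatrixGroups ModularForm

noncomputable section

namespace Fermat.Agent.S16.H72

open Fermat.Agent.S24 Fermat.Agent.S24.H81 Fermat.Agent.S24.H4 Fermat.Agent.S24.H17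
open Fermat.Agent.S29 Fermat.Agent.S29.H72

variable (N : ℕ) [NeZero N] {k : ℤ} {F G : ℍ → ℂ}

/-- The two incarnations of the Fricke matrix act in the same way on `ℍ`. -/
theorem wPos_smul_eq (τ : ℍ) :
    ((H48.wPos N : GL(2, ℝ)⁺) : GL (Fin 2) ℝ) • τ = H14.frickeMat N • τ :=
  UpperHalfPlane.ext (by rw [H48.coe_wPos_smul, H14.coe_frickeMat_smul])

/-- **`W` on ratios of forms.** -/
theorem actGL_wPos_ratioMer (hF : IsFormOn N k F) (hG : IsFormOn N k G) (h0 : G ≠ 0) :
    H65.actGL (H48.wPos N) (ratioMer hF hG) = ratioMer hF.fricke hG.fricke := by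
  unfold ratioMer
  rw [H65.actGL_div, div_eq_div_iff_hol
    ((map_ne_zero_iff _ (H65.compHol_injective _)).mpr (hG.toHol_ne_zero h0))
    (hG.fricke.toHol_ne_zero (slash_frickeMat_ne_zero N k h0))]
  apply Subtype.ext
  funext τ
  show F (((H48.wPos N : GL(2, ℝ)⁺) : GL (Fin 2) ℝ) • τ) * (G ∣[k] H14.frickeMat N) τ
    = (F ∣[k] H14.frickeMat N) τ * G (((H48.wPos N : GL(2, ℝ)⁺) : GL (Fin 2) ℝ) • τ)
  rw [wPos_smul_eq, H14.slash_frickeMat_apply, H14.slash_frickeMat_apply]
  ring

/-- **`W` on ratios of forms, cross-ratio form**: any pair of holomorphic `F'`, `G'` with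
`F(Wτ) G'(τ) = G(Wτ) F'(τ)` represents `W(F/G)`. -/
theorem actGL_wPos_ratioMer_of_cross (hF : IsFormOn N k F) (hG : IsFormOn N k G) (h0 : G ≠ 0)
    (F' G' : Hol) (hG' : G' ≠ 0)
    (hW : ∀ τ τ' : ℍ, (τ' : ℂ) = -1 / ((N : ℂ) * (τ : ℂ)) →
      F τ' * (G' : ℍ → ℂ) τ = G τ' * (F' : ℍ → ℂ) τ) :
    H65.actGL (H48.wPos N) (ratioMer hF hG) = algebraMap Hol Mer F' / algebraMap Hol Mer G' := by
  unfold ratioMer
  rw [H65.actGL_div, div_eq_div_iff_hol
    ((map_ne_zero_iff _ (H65.compHol_injective _)).mpr (hG.toHol_ne_zero h0)) hG']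
  apply Subtype.ext
  funext τ
  show F (((H48.wPos N : GL(2, ℝ)⁺) : GL (Fin 2) ℝ) • τ) * (G' : ℍ → ℂ) τ
    = (F' : ℍ → ℂ) τ * G (((H48.wPos N : GL(2, ℝ)⁺) : GL (Fin 2) ℝ) • τ)
  rw [hW τ _ (H48.coe_wPos_smul N τ)]
  ring

/-- **The Laurent series of `w x` is pinned** (complex function field `FC N`). -/
theorem w_ratio_series (hF : IsFormOn N k F) (hG : IsFormOn N k G) (h0 : G ≠ 0)
    (w : FC N →+* FC N)
    (hc : ∀ c : ℂ, w (algebraMap ℂ (FC N) c) = algebraMap ℂ (FC N) c)
    (hj : ∀ (d d' : ℕ) [NeZero d] [NeZero d'] (h : d * d' = N),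
      w (jdC N d (Dvd.intro d' h)) = jdC N d' (Dvd.intro_left d h))
    {x : FC N} (hx : (x : LaurentSeries ℂ) * IsFormOn.qLaurent G = IsFormOn.qLaurent F) :
    ((w x : FC N) : LaurentSeries ℂ) * IsFormOn.qLaurent (G ∣[k] H14.frickeMat N)
      = IsFormOn.qLaurent (F ∣[k] H14.frickeMat N) := by
  obtain ⟨f, hf1, hf2⟩ := exists_FC_eq_ratio N hF hG h0
  have hxf : x = f := FC_ratio_unique N hG h0 hx hf2
  subst hxf
  have h0' := slash_frickeMat_ne_zero N k h0
  obtain ⟨f', hf1', hf2'⟩ := exists_FC_eq_ratio N hF.fricke hG.fricke h0'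
  have h1 : toMer N (w x) = toMer N f' := by
    rw [H48.toMer_comp_eq_actGL_wPos N w hc hj, hf1, actGL_wPos_ratioMer N hF hG h0, hf1']
  rw [toMer_injective N h1]
  exact hf2'

/-- **The Laurent series of `w x` is pinned** (function field `K(j(q^d) : d ∣ N)` over a subfield
`K` of `ℂ`, prelude vocabulary; `w` any ring endomorphism fixing `K` and swapping `j`, `j_N`). -/
theorem w_ratio_series_K (K : Type) [Field K] [Algebra K ℂ]
    (hF : IsFormOn N k F) (hG : IsFormOn N k G) (h0 : G ≠ 0)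
    (w : modularFunctionFieldFullC K N →+* modularFunctionFieldFullC K N)
    (hc : ∀ c : K, w (algebraMap K (modularFunctionFieldFullC K N) c)
      = algebraMap K (modularFunctionFieldFullC K N) c)
    (h1 : w (S18.H16.jK K N) = S18.H16.jNK K N) (h2 : w (S18.H16.jNK K N) = S18.H16.jK K N)
    {x : modularFunctionFieldFullC K N}
    (hx : coeffMap (algebraMap K ℂ) (x : LaurentSeries K) * IsFormOn.qLaurent G
      = IsFormOn.qLaurent F) :
    coeffMap (algebraMap K ℂ) ((w x : modularFunctionFieldFullC K N) : LaurentSeries K)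
        * IsFormOn.qLaurent (G ∣[k] H14.frickeMat N)
      = IsFormOn.qLaurent (F ∣[k] H14.frickeMat N) := by
  obtain ⟨f, hf1, hf2⟩ := exists_FC_eq_ratio N hF hG h0
  have hxf : S18.H8.toFL ℂ N K x = f := FC_ratio_unique N hG h0 hx hf2
  have h0' := slash_frickeMat_ne_zero N k h0
  obtain ⟨f', hf1', hf2'⟩ := exists_FC_eq_ratio N hF.fricke hG.fricke h0'
  have h3 : toMer N (S18.H8.toFL ℂ N K (w x)) = toMer N f' := by
    rw [H48.toMer_toFL_comp_eq_actGL_wPos N K w hc h1 h2, hxf, hf1,
      actGL_wPos_ratioMer N hF hG h0, hf1']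
  have h4 : S18.H8.toFL ℂ N K (w x) = f' := toMer_injective N h3
  have h5 : coeffMap (algebraMap K ℂ) ((w x : modularFunctionFieldFullC K N) : LaurentSeries K)
      = (f' : LaurentSeries ℂ) := by
    rw [← h4]; rfl
  rw [h5]
  exact hf2'

/-- **The Laurent series of `w x` is pinned**, power series form over `K`: if the `q`-expansions of
`F`, `G`, `F|W`, `G|W` are `a`, `b`, `a'`, `b'` with coefficients in `K` and `x * b = a`, then
`(w x) * b' = a'`. -/
theorem w_ratio_powerSeries_K (K : Type) [Field K] [Algebra K ℂ]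
    (hF : IsFormOn N k F) (hG : IsFormOn N k G) (h0 : G ≠ 0)
    (w : modularFunctionFieldFullC K N →+* modularFunctionFieldFullC K N)
    (hc : ∀ c : K, w (algebraMap K (modularFunctionFieldFullC K N) c)
      = algebraMap K (modularFunctionFieldFullC K N) c)
    (h1 : w (S18.H16.jK K N) = S18.H16.jNK K N) (h2 : w (S18.H16.jNK K N) = S18.H16.jK K N)
    (a b a' b' : PowerSeries K)
    (ha : qExpansion 1 F = a.map (algebraMap K ℂ)) (hb : qExpansion 1 G = b.map (algebraMap K ℂ))
    (ha' : qExpansion 1 (F ∣[k] H14.frickeMat N) = a'.map (algebraMap K ℂ))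
    (hb' : qExpansion 1 (G ∣[k] H14.frickeMat N) = b'.map (algebraMap K ℂ))
    {x : modularFunctionFieldFullC K N}
    (hx : (x : LaurentSeries K) * HahnSeries.ofPowerSeries ℤ K b = HahnSeries.ofPowerSeries ℤ K a) :
    ((w x : modularFunctionFieldFullC K N) : LaurentSeries K) * HahnSeries.ofPowerSeries ℤ K b'
      = HahnSeries.ofPowerSeries ℤ K a' := by
  have e : ∀ (H : ℍ → ℂ) (c : PowerSeries K), qExpansion 1 H = c.map (algebraMap K ℂ) →
      IsFormOn.qLaurent H = coeffMap (algebraMap K ℂ) (HahnSeries.ofPowerSeries ℤ K c) := by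
    intro H c hc'
    rw [IsFormOn.qLaurent, hc', ofPowerSeries_map]
  have hx' : coeffMap (algebraMap K ℂ) (x : LaurentSeries K) * IsFormOn.qLaurent G
      = IsFormOn.qLaurent F := by
    rw [e G b hb, e F a ha, ← map_mul, hx]
  have h := w_ratio_series_K N K hF hG h0 w hc h1 h2 hx'
  rw [e _ b' hb', e _ a' ha', ← map_mul] at h
  exact (coeffMap (algebraMap K ℂ)).injective h

end Fermat.Agent.S16.H72
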