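/-
helper76 — S16 leaf (U2b): `¬ Cong p f 2` for `p ≡ 3 mod 4` from the geometric cover data
(Hesse place), with ALL modular-form / `q`-series inputs discharged.

`not_cong_two_of_cover` = `u2_rel_qseries` with `hrel` supplied by `exists_rel_of_cong`.
Remaining hypotheses = the GEO-e instance: a function field `F` over a field `k` of characteristic
two with its `q`-expansion embedding, `F = F² + J F²`, and a valued extension field `F' ⊇ F` with a
Hesse parameter `μ` (`J (μ³+1)³ = μ¹²`) whose value is `< 1` and not a square in the value group,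
`v J = v J_p`, and `v ≤ 1` on the constants.
-/
import Mathlib
import Fermat.Agent.S16.H76_U2RelDescent

set_option autoImplicit false

namespace Fermat.Agent.S16.H76

open ModularCurve CongruenceSubgroup Fermat.Agent.S28

/-- **The (U2b) leaf from the geometric cover data.** -/
theorem not_cong_two_of_cover (p : ℕ) [hp : Fact p.Prime] (hp4 : p % 4 = 3)
    (k : Type*) [Field k] [CharP k 2]
    {F F' : Type*} [Field F] [Algebra k F] [Field F'] [CharP F' 2]
    (ιQ : F →ₐ[k] LaurentSeries k) (ι' : F →+* F') (J Jp : F)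
    (hJ : ιQ J = jqModC k) (hJp : ιQ Jp = jqNModC k p)
    (hdec : ∀ y : F, ∃ A B : F, y = A ^ 2 + J * B ^ 2)
    {Γ₀ : Type*} [LinearOrderedCommGroupWithZero Γ₀] (v : Valuation F' Γ₀)
    (μ : F') (hμ0 : μ ≠ 0) (hμ : v μ < 1)
    (hnsq : ∀ g : Γ₀, g ^ 2 ≠ v μ)
    (hJμ : ι' J * (μ ^ 3 + 1) ^ 3 = μ ^ 12)
    (hunit : v (ι' J) = v (ι' Jp))
    (hk : ∀ c : k, v (ι' (algebraMap k F c)) ≤ 1)
    (f : CuspForm (Gamma0 p) 2) : ¬ H52.Cong p f 2 := by
  intro hf
  have hp2 : p ≠ 2 := by rintro rfl; omega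
  have : NeZero p := ⟨hp.out.ne_zero⟩
  obtain ⟨P, hP, hrel⟩ := exists_rel_of_cong p hp2 f hf k
  exact u2_rel_qseries k p hp4 ιQ ι' J Jp hJ hJp hdec (p + 1) (Nat.succ_pos p) P hP hrel v μ hμ0 hμ
    hnsq hJμ hunit hk

end Fermat.Agent.S16.H76
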