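import Mathlib
import Fermat.Agent.S28.H39_Laurent
import Fermat.Agent.S16.H76_U2Core

/-!
# S16, case (U,2), `p ≡ 3 mod 4`: the `q`-series side  (helper76)

Over a field `k` of characteristic two, in `k((q))` with `θ = q d/dq` (`S28.thetaOp`):

* `thetaPS_etaProd` : over `ℤ`, `θ P = -(P * ∑ σ(n) q^n)` for `P = ∏ (1 - q^n)` (`etaProd`);
* `theta_jbar`      : `θ J = J` for `J = jqModC k` (`= 1/Δ` in characteristic two);
* `zq_pow_eight`    : `z^8 * J(q^p) = J^p` for `z = P(q^p)^3 / P(q)^(3p)`;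
* `theta_zq`        : `θ z = δ z`, `δ = ∑_{n ≥ 1} σ'(n) q^n`, `σ'(n) = ∑_{d ∣ n, p ∤ d} d`  (`p` odd);
* `u2_core_qseries` : `u2_core` specialised to `Q = k((q))` with these data.
-/

set_option autoImplicit false

namespace Fermat.Agent.S16.H76

open PowerSeries Filter Topology
open scoped PowerSeries.WithPiTopology

section PS

variable (R : Type*) [CommRing R]

/-- `θ = X d/dX` on power series, as a derivation. -/
noncomputable def thetaPS : Derivation R R⟦X⟧ R⟦X⟧ := (X : R⟦X⟧) • derivative R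

variable {R}

theorem thetaPS_apply (f : R⟦X⟧) : thetaPS R f = X * derivative R f := rfl

theorem coeff_thetaPS (f : R⟦X⟧) (n : ℕ) : coeff n (thetaPS R f) = n * coeff n f := by
  rw [thetaPS_apply]
  cases n with
  | zero => simp
  | succ n =>
    rw [coeff_succ_X_mul, coeff_derivative]
    push_cast
    ring

theorem thetaPS_map {S : Type*} [CommRing S] (φ : R →+* S) (f : R⟦X⟧) :
    thetaPS S (map φ f) = map φ (thetaPS R f) := by
  ext n
  simp [coeff_thetaPS]

end PS

/-- The series `∑ σ(k) q^k` over `ℤ`. -/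
noncomputable def sigmaPS : ℤ⟦X⟧ := PowerSeries.mk fun k => (ArithmeticFunction.sigma 1 k : ℤ)

/-- `(n+1) ∑_{m ≥ 1} q^{(n+1) m}`. -/
noncomputable def lambertTerm (n : ℕ) : ℤ⟦X⟧ :=
  PowerSeries.mk fun k => if k ≠ 0 ∧ (n + 1) ∣ k then ((n + 1 : ℕ) : ℤ) else 0

theorem one_sub_mul_lambertTerm (n : ℕ) :
    (1 - X ^ (n + 1)) * lambertTerm n = C ((n + 1 : ℕ) : ℤ) * X ^ (n + 1) := by
  ext k
  rw [sub_mul, one_mul, map_sub, coeff_X_pow_mul', coeff_C_mul_X_pow]
  simp only [lambertTerm, coeff_mk]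
  by_cases hk : n + 1 ≤ k
  · rw [if_pos hk]
    by_cases hd : (n + 1) ∣ k
    · have hk0 : k ≠ 0 := by omega
      have hd' : (n + 1) ∣ (k - (n + 1)) := Nat.dvd_sub hd (dvd_refl _)
      by_cases hkn : k = n + 1
      · subst hkn; simp
      · have : k - (n + 1) ≠ 0 := by omega
        simp [hk0, hd, hd', this, hkn]
    · have hd' : ¬ (n + 1) ∣ (k - (n + 1)) := fun h => hd (by
        have hkk : k = (k - (n + 1)) + (n + 1) := by omega
        rw [hkk]; exact dvd_add h (dvd_refl _))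
      have hkn : k ≠ n + 1 := by rintro rfl; exact hd (dvd_refl _)
      simp [hd, hd', hkn]
  · rw [if_neg hk]
    have hkn : k ≠ n + 1 := by omega
    have hd : ¬ ((n + 1) ∣ k ∧ k ≠ 0) := by
      rintro ⟨h1, h2⟩
      exact hk (Nat.le_of_dvd (Nat.pos_of_ne_zero h2) h1)
    have : ¬ (k ≠ 0 ∧ (n + 1) ∣ k) := fun h => hd ⟨h.2, h.1⟩
    simp [this, hkn]

theorem thetaPS_one_sub_X_pow (n : ℕ) :
    thetaPS ℤ (1 - X ^ (n + 1)) = -((1 - X ^ (n + 1)) * lambertTerm n) := by
  rw [one_sub_mul_lambertTerm]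
  ext k
  rw [coeff_thetaPS, map_sub, map_neg, coeff_C_mul_X_pow, coeff_one, coeff_X_pow]
  by_cases hk : k = n + 1
  · subst hk; simp
  · by_cases hk0 : k = 0
    · subst hk0; simp
    · simp [hk, hk0]

theorem thetaPS_finset_prod (s : Finset ℕ) :
    thetaPS ℤ (∏ n ∈ s, (1 - X ^ (n + 1) : ℤ⟦X⟧)) =
      -((∏ n ∈ s, (1 - X ^ (n + 1) : ℤ⟦X⟧)) * ∑ n ∈ s, lambertTerm n) := by
  classical
  induction s using Finset.induction_on with
  | empty => simp
  | insert a s ha ih =>
    rw [Finset.prod_insert ha, Finset.sum_insert ha, Derivation.leibniz, ih,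
      thetaPS_one_sub_X_pow, smul_eq_mul, smul_eq_mul]
    ring

theorem hasSum_lambertTerm : HasSum lambertTerm sigmaPS := by
  rw [PowerSeries.WithPiTopology.hasSum_iff_hasSum_coeff]
  intro d
  have h0 : ∀ n ∉ Finset.range d, coeff d (lambertTerm n) = 0 := by
    intro n hn
    rw [Finset.mem_range, not_lt] at hn
    simp only [lambertTerm, coeff_mk]
    rw [if_neg]
    rintro ⟨h1, h2⟩
    have := Nat.le_of_dvd (Nat.pos_of_ne_zero h1) h2
    omega
  have hsum : coeff d sigmaPS = ∑ b ∈ Finset.range d, coeff d (lambertTerm b) := by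
    simp only [sigmaPS, coeff_mk, lambertTerm]
    rw [ArithmeticFunction.sigma_one_apply, Nat.divisors, Finset.sum_filter,
      Finset.sum_Ico_eq_sum_range]
    push_cast
    refine Finset.sum_congr rfl fun n hn => ?_
    have hd0 : d ≠ 0 := by
      rintro rfl; simp at hn
    simp only [hd0, ne_eq, not_false_eq_true, true_and, add_comm 1 n, add_comm (1 : ℤ) (n : ℤ)]
  rw [hsum]
  exact hasSum_sum_of_ne_finset_zero (L := SummationFilter.unconditional ℕ) h0

theorem thetaPS_etaProd : thetaPS ℤ ModularCurve.etaProd = -(ModularCurve.etaProd * sigmaPS) := by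
  have hP : Tendsto (fun s : Finset ℕ => ∏ n ∈ s, (1 - X ^ (n + 1) : ℤ⟦X⟧)) atTop
      (𝓝 ModularCurve.etaProd) :=
    (PowerSeries.WithPiTopology.multipliable_one_sub_X_pow ℤ).hasProd
  have hG : Tendsto (fun s : Finset ℕ => ∑ n ∈ s, lambertTerm n) atTop (𝓝 sigmaPS) :=
    hasSum_lambertTerm
  have h1 : Tendsto (fun s : Finset ℕ => thetaPS ℤ (∏ n ∈ s, (1 - X ^ (n + 1) : ℤ⟦X⟧))) atTop
      (𝓝 (thetaPS ℤ ModularCurve.etaProd)) := by
    rw [PowerSeries.WithPiTopology.tendsto_iff_coeff_tendsto]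
    intro d
    simp only [coeff_thetaPS]
    exact ((PowerSeries.WithPiTopology.continuous_coeff ℤ d).tendsto _).comp hP |>.const_mul _
  have h2 : Tendsto (fun s : Finset ℕ => thetaPS ℤ (∏ n ∈ s, (1 - X ^ (n + 1) : ℤ⟦X⟧))) atTop
      (𝓝 (-(ModularCurve.etaProd * sigmaPS))) := by
    simp only [thetaPS_finset_prod]
    exact (hP.mul hG).neg
  exact tendsto_nhds_unique h1 h2


/-! ## Laurent series side -/

open ModularCurve Fermat.Agent.S28 Fermat.Agent.S28.H39

section Laurent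

variable {R : Type*} [CommRing R]

theorem thetaOp_ofPowerSeries (f : R⟦X⟧) :
    thetaOp (HahnSeries.ofPowerSeries ℤ R f) = HahnSeries.ofPowerSeries ℤ R (thetaPS R f) := by
  ext n
  rw [thetaOp_coeff, thetaPS_apply]
  rcases le_or_gt 0 n with hn | hn
  · lift n to ℕ using hn
    rw [HahnSeries.ofPowerSeries_apply_coeff, HahnSeries.ofPowerSeries_apply_coeff]
    cases n with
    | zero => simp
    | succ n =>
      rw [coeff_succ_X_mul, coeff_derivative]
      push_cast
      ring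
  · rw [ofPowerSeries_coeff_of_neg _ hn, ofPowerSeries_coeff_of_neg _ hn, mul_zero]

/-- A `ℤ`-derivation from an additive map satisfying the Leibniz rule. -/
def derivationOfLeibniz {A : Type*} [CommRing A] (f : A →+ A) (h1 : f 1 = 0)
    (hm : ∀ a b, f (a * b) = f a * b + a * f b) : Derivation ℤ A A where
  toLinearMap := f.toIntLinearMap
  map_one_eq_zero' := h1
  leibniz' a b := by
    show f (a * b) = a • f b + b • f a
    rw [hm, smul_eq_mul, smul_eq_mul]
    ring

/-- `ℤ`-derivations of a commutative ring (with the generic instances). -/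
abbrev ZDer (A : Type*) [CommRing A] := Derivation ℤ A A

variable (R) in
/-- `θ = q d/dq` on `R((q))` as a `ℤ`-derivation. -/
noncomputable def thetaZ : ZDer (LaurentSeries R) :=
  derivationOfLeibniz thetaOp thetaOp_one thetaOp_mul

@[simp]
theorem thetaZ_apply (x : LaurentSeries R) : thetaZ R x = thetaOp x := rfl

variable (R) in
/-- `P = ∏ (1 - q^n)` in `R((q))`. -/
noncomputable def etaL : LaurentSeries R :=
  HahnSeries.ofPowerSeries ℤ R (etaProd.map (Int.castRingHom R))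

variable (R) in
/-- `∑ σ(n) q^n` in `R((q))`. -/
noncomputable def sigmaL : LaurentSeries R :=
  HahnSeries.ofPowerSeries ℤ R (sigmaPS.map (Int.castRingHom R))

theorem thetaOp_etaL : thetaOp (etaL R) = -(etaL R * sigmaL R) := by
  rw [etaL, thetaOp_ofPowerSeries, thetaPS_map, thetaPS_etaProd, map_neg, map_neg, map_mul,
    map_mul, sigmaL]

theorem etaL_coeff_zero : (etaL R).coeff 0 = 1 := by
  have h := HahnSeries.ofPowerSeries_apply_coeff (Γ := ℤ) (etaProd.map (Int.castRingHom R)) 0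
  rw [Nat.cast_zero] at h
  rw [etaL, h, PowerSeries.coeff_map, coeff_zero_eq_constantCoeff_apply, constantCoeff_etaProd,
    map_one]

theorem DeltaS_eq_etaL : DeltaS R = HahnSeries.single (1 : ℤ) 1 * etaL R ^ 24 := by
  rw [DeltaS, etaL, ← map_pow, dedekindEtaUnit, map_pow]

end Laurent

section CharTwo

variable (k : Type*) [Field k] [CharP k 2]

theorem charP_laurent : CharP (LaurentSeries k) 2 :=
  charP_of_injective_algebraMap (algebraMap k (LaurentSeries k)).injective 2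

omit [CharP k 2] in
theorem etaL_ne_zero : etaL k ≠ 0 := fun h => by
  have := etaL_coeff_zero (R := k)
  rw [h, HahnSeries.coeff_zero] at this
  exact zero_ne_one this

theorem natCast_of_odd {A : Type*} [Ring A] [CharP A 2] {n : ℕ} (hn : Odd n) : (n : A) = 1 := by
  obtain ⟨m, rfl⟩ := hn
  have h2 : (2 : A) = 0 := two_eq_zero_of_charP A
  push_cast
  rw [h2, zero_mul, zero_add]

theorem natCast_of_even {A : Type*} [Ring A] [CharP A 2] {n : ℕ} (hn : Even n) : (n : A) = 0 := by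
  obtain ⟨m, rfl⟩ := hn
  have h2 : (2 : A) = 0 := two_eq_zero_of_charP A
  rw [← two_mul]
  push_cast
  rw [h2, zero_mul]

/-- `θ Δ = Δ` in characteristic two. -/
theorem thetaOp_DeltaS : thetaOp (DeltaS k) = DeltaS k := by
  have := charP_laurent k
  rw [DeltaS_eq_etaL, thetaOp_mul, thetaOp_single, thetaOp_pow,
    natCast_of_even (A := LaurentSeries k) (n := 24) (by decide)]
  simp

/-- `θ (1/Δ) = 1/Δ` in characteristic two. -/
theorem thetaOp_DeltaS_inv : thetaOp (DeltaS k)⁻¹ = (DeltaS k)⁻¹ := by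
  have := charP_laurent k
  have h0 : DeltaS k ≠ 0 := DeltaS_ne_zero
  have h1 : thetaOp (DeltaS k * (DeltaS k)⁻¹) = 0 := by rw [mul_inv_cancel₀ h0, thetaOp_one]
  rw [thetaOp_mul, thetaOp_DeltaS, mul_inv_cancel₀ h0] at h1
  have h2 : DeltaS k * thetaOp (DeltaS k)⁻¹ = 1 := by
    have := eq_neg_of_add_eq_zero_right h1
    rw [this, CharTwo.neg_eq]
  exact (eq_inv_of_mul_eq_one_right h2)

/-- In characteristic two `j = 1/Δ` (`E₄ ≡ 1`). -/
theorem jqModC_eq_DeltaS_inv : jqModC k = (DeltaS k)⁻¹ := by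
  have h240 : ((240 : ℤ) : k) = 0 := by
    have : ((240 : ℕ) : k) = 0 := natCast_of_even (A := k) (n := 240) (by decide)
    exact_mod_cast this
  have hE4 : eisenstein4.map (Int.castRingHom k) = 1 := by
    ext n
    rw [PowerSeries.coeff_map, eisenstein4, PowerSeries.coeff_mk, PowerSeries.coeff_one]
    split_ifs with h
    · simp
    · rw [map_mul, eq_intCast, h240, zero_mul]
  have hinv : dedekindEtaUnit.map (Int.castRingHom k) * dedekindEtaUnitInv.map (Int.castRingHom k)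
      = 1 := by
    rw [← map_mul, dedekindEtaUnit_mul_inv, map_one]
  apply eq_inv_of_mul_eq_one_left
  rw [jqModC, DeltaS, jNum, map_mul, map_pow, hE4, one_pow, one_mul]
  rw [mul_mul_mul_comm, HahnSeries.single_mul_single, ← map_mul, mul_comm (PowerSeries.map _ _),
    hinv, map_one, mul_one]
  simp

/-- `θ j = j` in characteristic two. -/
theorem theta_jbar : thetaZ k (jqModC k) = jqModC k := by
  rw [thetaZ_apply, jqModC_eq_DeltaS_inv, thetaOp_DeltaS_inv]

variable (p : ℕ) [NeZero p]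

/-- `z = P(q^p)^3 / P(q)^(3p)`. -/
noncomputable def zq : LaurentSeries k := qExpand k p (etaL k) ^ 3 / etaL k ^ (3 * p)

omit [CharP k 2] in
theorem qExpand_etaL_ne_zero : qExpand k p (etaL k) ≠ 0 :=
  (map_ne_zero_iff _ (qExpand_injective p)).mpr (etaL_ne_zero k)

omit [CharP k 2] in
theorem zq_ne_zero : zq k p ≠ 0 :=
  div_ne_zero (pow_ne_zero _ (qExpand_etaL_ne_zero k p)) (pow_ne_zero _ (etaL_ne_zero k))

/-- `z^8 = J^p / J_p`. -/
theorem zq_pow_eight : zq k p ^ 8 * qExpand k p (jqModC k) = jqModC k ^ p := by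
  have hA := qExpand_etaL_ne_zero k p
  have hB := etaL_ne_zero k
  have hs : (HahnSeries.single (1 : ℤ) (1 : k)) ≠ 0 := by simp
  have hsp : (HahnSeries.single ((p : ℤ)) (1 : k)) ≠ 0 := by simp
  have hsingle : (HahnSeries.single (1 : ℤ) (1 : k)) ^ p = HahnSeries.single (p : ℤ) 1 := by
    rw [HahnSeries.single_pow, one_pow]; simp
  rw [jqModC_eq_DeltaS_inv, map_inv₀, DeltaS_eq_etaL, map_mul, map_pow, qExpand_single, mul_one,
    zq, inv_pow, mul_pow, hsingle, ← pow_mul, div_pow, ← pow_mul, ← pow_mul]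
  have e1 : 3 * 8 = 24 := rfl
  have e2 : 3 * p * 8 = 24 * p := by ring
  rw [e1, e2]
  field_simp

/-- `θ z = 3p (G(q) - G(q^p)) z`, any characteristic. -/
theorem thetaOp_zq_general {K : Type*} [Field K] :
    thetaOp (qExpand K p (etaL K) ^ 3 / etaL K ^ (3 * p)) =
      ((3 * p : ℕ) : LaurentSeries K) * (sigmaL K - qExpand K p (sigmaL K)) *
        (qExpand K p (etaL K) ^ 3 / etaL K ^ (3 * p)) := by
  have hB : etaL K ≠ 0 := fun h => by
    have := etaL_coeff_zero (R := K)
    rw [h, HahnSeries.coeff_zero] at this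
    exact zero_ne_one this
  set A := qExpand K p (etaL K) with hA
  set B := etaL K with hBdef
  set G := sigmaL K with hG
  set z := A ^ 3 / B ^ (3 * p) with hz
  have hB3 : B ^ (3 * p) ≠ 0 := pow_ne_zero _ hB
  have hzB : z * B ^ (3 * p) = A ^ 3 := by rw [hz]; field_simp
  have hθB : thetaOp B = -(B * G) := thetaOp_etaL
  have hθA : thetaOp A = -((p : LaurentSeries K) * (A * qExpand K p G)) := by
    rw [hA, thetaOp_qExpand, hθB, map_neg, map_mul, mul_neg]
  have h1 := congrArg thetaOp hzB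
  rw [thetaOp_mul, thetaOp_pow, thetaOp_pow, hθA, hθB] at h1
  have h3p : 3 * p - 1 + 1 = 3 * p := Nat.sub_add_cancel (by have := NeZero.pos p; omega)
  have hBpow : B ^ (3 * p) = B ^ (3 * p - 1) * B := by rw [← pow_succ, h3p]
  apply mul_right_cancel₀ hB3
  push_cast at h1 ⊢
  have hA3 : A ^ 3 = z * B ^ (3 * p) := hzB.symm
  clear_value z A B G
  linear_combination h1 - (3 * (p : LaurentSeries K) * qExpand K p G) * hA3 -
    (3 * (p : LaurentSeries K) * z * G) * hBpow

end CharTwo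

/-! ### The Eisenstein series `δ = ∑ σ'(n) q^n` -/

/-- `σ'(n) = ∑_{d ∣ n, p ∤ d} d`. -/
def sigmaPrime (p n : ℕ) : ℕ := ∑ d ∈ n.divisors.filter (fun d => ¬ p ∣ d), d

theorem sum_divisors_filter_dvd (p : ℕ) (hp : p ≠ 0) (m : ℕ) :
    ∑ d ∈ (p * m).divisors.filter (fun d => p ∣ d), d = p * ∑ e ∈ m.divisors, e := by
  have hpos : 0 < p := Nat.pos_of_ne_zero hp
  rw [Finset.mul_sum]
  symm
  refine Finset.sum_nbij' (fun e => p * e) (fun d => d / p) ?_ ?_ ?_ ?_ ?_
  · intro e he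
    simp only [Nat.mem_divisors, Finset.mem_filter] at he ⊢
    exact ⟨⟨Nat.mul_dvd_mul_left p he.1, Nat.mul_ne_zero hp he.2⟩, dvd_mul_right _ _⟩
  · intro d hd
    simp only [Nat.mem_divisors, Finset.mem_filter] at hd ⊢
    obtain ⟨⟨h1, h2⟩, c, rfl⟩ := hd
    rw [Nat.mul_div_cancel_left _ hpos]
    exact ⟨(Nat.mul_dvd_mul_iff_left hpos).mp h1, fun h => h2 (by rw [h, mul_zero])⟩
  · intro e _
    simp only [Nat.mul_div_cancel_left _ hpos]
  · intro d hd
    simp only [Finset.mem_filter] at hd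
    exact Nat.mul_div_cancel' hd.2
  · intro e _
    rfl

theorem sigma_one_eq_sigmaPrime_add (p : ℕ) (hp : p ≠ 0) (n : ℕ) :
    ArithmeticFunction.sigma 1 n =
      sigmaPrime p n + if p ∣ n then p * ArithmeticFunction.sigma 1 (n / p) else 0 := by
  rw [ArithmeticFunction.sigma_one_apply, sigmaPrime,
    ← Finset.sum_filter_not_add_sum_filter n.divisors (fun d => p ∣ d)]
  congr 1
  split_ifs with h
  · obtain ⟨m, rfl⟩ := h
    rw [sum_divisors_filter_dvd p hp, Nat.mul_div_cancel_left _ (Nat.pos_of_ne_zero hp),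
      ArithmeticFunction.sigma_one_apply]
  · apply Finset.sum_eq_zero
    intro d hd
    simp only [Nat.mem_divisors, Finset.mem_filter] at hd
    exact absurd (dvd_trans hd.2 hd.1.1) h

/-- `∑ σ'(n) q^n` over `ℤ`. -/
noncomputable def eisPS (p : ℕ) : ℤ⟦X⟧ := PowerSeries.mk fun n => (sigmaPrime p n : ℤ)

section deltaDef

variable (R : Type*) [CommRing R] (p : ℕ)

/-- `δ = ∑_{n ≥ 1} σ'(n) q^n` in `R((q))`. -/
noncomputable def deltaL : LaurentSeries R :=
  HahnSeries.ofPowerSeries ℤ R ((eisPS p).map (Int.castRingHom R))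

theorem deltaL_coeff_natCast (n : ℕ) : (deltaL R p).coeff (n : ℤ) = (sigmaPrime p n : R) := by
  rw [deltaL, HahnSeries.ofPowerSeries_apply_coeff, PowerSeries.coeff_map, eisPS,
    PowerSeries.coeff_mk]
  simp

theorem deltaL_coeff_neg {n : ℤ} (hn : n < 0) : (deltaL R p).coeff n = 0 :=
  ofPowerSeries_coeff_of_neg _ hn

theorem sigmaL_coeff_natCast (n : ℕ) :
    (sigmaL R).coeff (n : ℤ) = (ArithmeticFunction.sigma 1 n : R) := by
  rw [sigmaL, HahnSeries.ofPowerSeries_apply_coeff, PowerSeries.coeff_map, sigmaPS,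
    PowerSeries.coeff_mk]
  simp

theorem sigmaL_coeff_neg {n : ℤ} (hn : n < 0) : (sigmaL R).coeff n = 0 :=
  ofPowerSeries_coeff_of_neg _ hn

end deltaDef

section CharTwoDelta

variable (k : Type*) [Field k] [CharP k 2] (p : ℕ) [NeZero p]

/-- In characteristic two, for odd `p`: `δ = G(q) + G(q^p)`. -/
theorem deltaL_eq (hp : Odd p) : deltaL k p = sigmaL k + qExpand k p (sigmaL k) := by
  have hpk : (p : k) = 1 := natCast_of_odd hp
  ext n
  rw [HahnSeries.coeff_add]
  rcases le_or_gt 0 n with hn | hn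
  · lift n to ℕ using hn
    rw [deltaL_coeff_natCast, sigmaL_coeff_natCast, sigma_one_eq_sigmaPrime_add p (NeZero.ne p) n]
    by_cases hd : p ∣ n
    · obtain ⟨m, rfl⟩ := hd
      rw [if_pos (dvd_mul_right _ _), Nat.mul_div_cancel_left _ (NeZero.pos p)]
      have : ((p * m : ℕ) : ℤ) = (p : ℤ) * (m : ℤ) := by push_cast; ring
      rw [this, qExpand_coeff_mul, sigmaL_coeff_natCast]
      push_cast
      rw [hpk, one_mul, add_assoc, CharTwo.add_self_eq_zero, add_zero]
    · rw [if_neg hd, qExpand_coeff_of_not_dvd p _ (by exact_mod_cast hd)]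
      simp
  · rw [deltaL_coeff_neg _ _ hn, sigmaL_coeff_neg _ hn]
    by_cases hd : (p : ℤ) ∣ n
    · obtain ⟨m, rfl⟩ := hd
      have hm : m < 0 := by
        by_contra h
        rw [not_lt] at h
        have : (0 : ℤ) ≤ (p : ℤ) * m := mul_nonneg (by positivity) h
        omega
      rw [qExpand_coeff_mul, sigmaL_coeff_neg _ hm, add_zero]
    · rw [qExpand_coeff_of_not_dvd p _ hd, add_zero]

/-- `θ z = δ z` in characteristic two, `p` odd. -/
theorem theta_zq (hp : Odd p) : thetaZ k (zq k p) = deltaL k p * zq k p := by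
  have := charP_laurent k
  have h3p : ((3 * p : ℕ) : LaurentSeries k) = 1 :=
    natCast_of_odd (A := LaurentSeries k) (by
      obtain ⟨m, rfl⟩ := hp
      exact ⟨3 * m + 1, by ring⟩)
  rw [thetaZ_apply, zq, thetaOp_zq_general, h3p, one_mul, CharTwo.sub_eq_add, deltaL_eq k p hp]

end CharTwoDelta

/-! ### The core, specialised to `k((q))` -/

section CoreQ

/-- `u2_core` with `Q = k((q))`, `DQ = θ`, `z = zq`, `δ = deltaL`. The remaining hypotheses are
the geometric ones (see `H76_U2Core`). -/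
theorem u2_core_qseries (k : Type*) [Field k] [CharP k 2] (p : ℕ) [NeZero p] (hp : p % 4 = 3)
    {F F' : Type*} [Field F] [Field F'] [CharP F' 2]
    (ιQ : F →+* LaurentSeries k) (ι' : F →+* F') (J Jp : F)
    (hJ : ιQ J = jqModC k) (hJp : ιQ Jp = jqNModC k p)
    (hdec : ∀ y : F, ∃ A B : F, y = A ^ 2 + J * B ^ 2)
    (hbar : F) (hh : ιQ hbar = deltaL k p ^ 6 * jqModC k)
    {Γ₀ : Type*} [LinearOrderedCommGroupWithZero Γ₀] (v : Valuation F' Γ₀)
    (μ : F') (hμ0 : μ ≠ 0) (hμ : v μ < 1)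
    (hunif : ∀ x : F', x ≠ 0 → ∃ m : ℤ, v x = v μ ^ m)
    (hJμ : ι' J * (μ ^ 3 + 1) ^ 3 = μ ^ 12)
    (d : Derivation ℤ F' F') (hdμ : d μ = 1) (hdv : ∀ x, v x ≤ 1 → v (d x) ≤ 1)
    (hunit : v (ι' J) = v (ι' Jp))
    (hint : v (ι' hbar) ≤ 1) : False := by
  have := charP_laurent k
  have hodd : Odd p := by
    rw [Nat.odd_iff]; omega
  have hj0 : jqModC k ≠ 0 := by
    rw [jqModC_eq_DeltaS_inv]; exact inv_ne_zero DeltaS_ne_zero
  have hJ0 : J ≠ 0 := by
    intro h; rw [h, map_zero] at hJ; exact hj0 hJ.symm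
  have hJp0 : Jp ≠ 0 := by
    intro h
    rw [h, map_zero, jqNModC] at hJp
    exact hj0 ((map_eq_zero_iff _ (qExpand_injective p)).mp hJp.symm)
  refine u2_core ιQ ι' J Jp hJ0 hJp0 hdec (thetaZ k) ?_ p hp (zq k p) (deltaL k p) ?_ ?_ hbar ?_
    v μ hμ0 hμ hunif hJμ d hdμ hdv hunit hint
  · rw [hJ, theta_jbar]
  · rw [hJ, hJp, jqNModC, zq_pow_eight]
  · exact theta_zq k p hodd
  · rw [hh, hJ]

end CoreQ

end Fermat.Agent.S16.H76
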