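/-
S16 / (U2b)-(G3)(c) and (U5b), helper77: the CONCRETE `Γ₀(p)`, weight-2 instance of the
elementary-symmetric-function calculus.

For `F ∈ M₂(Γ₀(p))` (`p` prime) with `q`-coefficients `a_n`:

* `hasSum_translate` / `qExpansion_translate_coeff` : the `p + 1` translates `F ∣ γ` (cosets
  `H46.cosetEquiv p`) have width-`p` expansions with coefficients `translateCoeff p a o`:
  `a_(m/p)` (at `p ∣ m`) for `F` itself, and `-(1/p) a_(mp) ζ_p^(xm)` for `F ∣ S T^x`
  (`F ∣ S T^x = -(U_p F) ∣ [[1,x],[0,p]]`, helper46's `slash_S_mul_T_zpow_eq`);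
* **(i)** `esymm_gamma0_coeff_mem` : if `a_n ∈ 𝒪` for a subring `𝒪 ⊆ ℂ` containing `ζ_p` and `1/p`,
  every `q`-coefficient of every `esymmForm 𝒮ℒ F i ∈ M_(2i)(SL₂(ℤ))` lies in `𝒪`;
* **(ii)** `gamma0_monic_relation(')` : `∑_j (-1)^j E_j Φ^(p+1-j) = 0` in `ℂ⟦X⟧`, `Φ = qExpansion 1 F`,
  `E_j = qExpansion 1 (esymmForm 𝒮ℒ F j)`, `E_0 = 1` (any weight);
* **(iii)** `gamma0_reduced_relation` : for `π : 𝒪 →+* κ` with `2 = 0` in `κ` the reduction
  `Ψ = F'.map π` satisfies `Ψ^(p+1) + ∑_(m<p+1) P_m(Δ̄) Ψ^m = 0`, `6 deg P_m ≤ p + 1 - m`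
  (= `hrel` + `hP` of `H76.u2_rel_qseries`, via `H76.exists_poly_Delta_of_coeff_mem`).
-/
import Mathlib
import Fermat.Prelude.Def_ModularForm_HeckeOperator
import Fermat.Prelude.Thm_ModularFormClass_qCoeff_heckeU
import Fermat.Prelude.Thm_ModularForm_mdifferentiable_heckeU
import Fermat.Prelude.Thm_ModularForm_isBoundedAtImInfty_heckeU
import Fermat.Prelude.Thm_ModularForm_periodic_heckeU_comp_ofComplex
import Fermat.Prelude.Thm_CongruenceSubgroup_one_mem_strictPeriods_Gamma0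
import Fermat.Agent.S16.H77_EsymmQExpGen
import Fermat.Agent.S16.H46_AtkinLehner
import Fermat.Agent.S16.H46_Expansion
import Fermat.Agent.S16.H76_LevelOneMod2

set_option autoImplicit false

open UpperHalfPlane Matrix.SpecialLinearGroup CongruenceSubgroup ModularGroup ModularForm
  SlashInvariantForm Function
open scoped ModularForm MatrixGroups Manifold

noncomputable section

namespace Fermat.Agent.S16.H77

local notation "𝕢" => Periodic.qParam

variable {p : ℕ} [hp : Fact p.Prime]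

local notation "Γp" => (Gamma0 p : Subgroup (GL (Fin 2) ℝ))

/-- The width-one `q`-series of a form on `Γ₀(p)`. -/
theorem hasSum_gamma0 {k : ℤ} (F : ModularForm Γp k) (τ : ℍ) :
    HasSum (fun m => (qExpansion 1 F).coeff m • 𝕢 1 τ ^ m) (F τ) := by
  have h1 := CongruenceSubgroup.one_mem_strictPeriods_Gamma0 p
  exact UpperHalfPlane.hasSum_qExpansion one_pos
    (SlashInvariantFormClass.periodic_comp_ofComplex F h1) (ModularFormClass.holo F)
    (ModularFormClass.bdd_at_infty F) τ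

/-- The width-one `q`-series of `U_p F`: coefficients `a_(np)`. -/
theorem hasSum_heckeU {k : ℤ} (F : ModularForm Γp k) (τ : ℍ) :
    HasSum (fun m => (qExpansion 1 F).coeff (m * p) • 𝕢 1 τ ^ m) (heckeU k p (F : ℍ → ℂ) τ) := by
  have h1 := CongruenceSubgroup.one_mem_strictPeriods_Gamma0 p
  have hper : Periodic ((F : ℍ → ℂ) ∘ ofComplex) ((1 : ℝ) : ℂ) :=
    SlashInvariantFormClass.periodic_comp_ofComplex F h1
  have hper' : Periodic ((F : ℍ → ℂ) ∘ ofComplex) 1 := by simpa using hper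
  have hU := ModularForm.periodic_heckeU_comp_ofComplex hper' k p
  have hU' : Periodic (heckeU k p (F : ℍ → ℂ) ∘ ofComplex) ((1 : ℝ) : ℂ) := by simpa using hU
  have hs := UpperHalfPlane.hasSum_qExpansion one_pos hU'
    (ModularForm.mdifferentiable_heckeU (ModularFormClass.holo F) k p)
    (ModularForm.isBoundedAtImInfty_heckeU (ModularFormClass.bdd_at_infty F) k p) τ
  convert hs using 2 with m
  have := ModularFormClass.qCoeff_heckeU F h1 hp.out.ne_zero m
  simp only [ModularFormClass.qCoeff, coeffHeckeU_apply] at this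
  rw [this]


/-- The width-`p` coefficients of the translate attached to the coset `o`. -/
def translateCoeff (p : ℕ) (a : ℕ → ℂ) : Option (Fin p) → ℕ → ℂ
  | none => fun m => if p ∣ m then a (m / p) else 0
  | some x => fun m => -((p : ℂ)⁻¹ * (a (m * p) * H46.zetaC p ^ ((x : ℕ) * m)))

omit hp in
theorem translateCoeff_mem (𝒪 : Subring ℂ) (hζ : H46.zetaC p ∈ 𝒪) (hpinv : (p : ℂ)⁻¹ ∈ 𝒪)
    {a : ℕ → ℂ} (ha : ∀ n, a n ∈ 𝒪) (o : Option (Fin p)) (m : ℕ) :
    translateCoeff p a o m ∈ 𝒪 := by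
  rcases o with _ | x
  · simp only [translateCoeff]
    split_ifs
    · exact ha _
    · exact 𝒪.zero_mem
  · simp only [translateCoeff]
    exact 𝒪.neg_mem (𝒪.mul_mem hpinv (𝒪.mul_mem (ha _) (𝒪.pow_mem hζ _)))

/-- The translates of `F ∈ M₂(Γ₀(p))` by the coset representatives, as `q_p`-series. -/
theorem hasSum_translate' (F : ModularForm Γp 2) (o : Option (Fin p)) (τ : ℍ) :
    HasSum (fun m => translateCoeff p (fun n => (qExpansion 1 F).coeff n) o m • 𝕢 (p : ℝ) τ ^ m)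
      (((F : ℍ → ℂ) ∣[(2 : ℤ)] mapGL ℝ (H46.rho p o)) τ) := by
  rcases o with _ | x
  · have h1 : (F : ℍ → ℂ) ∣[(2 : ℤ)] mapGL ℝ (H46.rho p none) = F := by
      change (F : ℍ → ℂ) ∣[(2 : ℤ)] mapGL ℝ (1 : SL(2, ℤ)) = _
      rw [map_one, SlashAction.slash_one]
    rw [h1]
    have h2 := H46.hasSum_width (p := p) hp.out.ne_zero (hasSum_gamma0 F τ)
    simp only [translateCoeff]
    exact h2
  · have h1 : (F : ℍ → ℂ) ∣[(2 : ℤ)] mapGL ℝ (H46.rho p (some x)) =
        -(heckeU 2 p (F : ℍ → ℂ) ∣[(2 : ℤ)] heckeMatrix p x) :=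
      H46.slash_S_mul_T_zpow_eq F x
    rw [h1, Pi.neg_apply, slash_heckeMatrix_apply 2 hp.out.ne_zero]
    have h2 := H46.hasSum_comp_heckeMatrix hp.out.ne_zero (hasSum_heckeU F) x τ
    have h3 := (h2.mul_left ((p : ℂ)⁻¹)).neg
    have hfun : (fun m => translateCoeff p (fun n => (qExpansion 1 F).coeff n) (some x) m •
        𝕢 (p : ℝ) τ ^ m) = fun b => -((p : ℂ)⁻¹ * (((qExpansion 1 F).coeff (b * p) *
          H46.zetaC p ^ ((x : ℕ) * b)) • 𝕢 (p : ℝ) τ ^ b)) := by
      funext m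
      simp only [translateCoeff, smul_eq_mul]
      ring
    rw [hfun]
    exact h3

theorem hasSum_translate (F : ModularForm Γp 2) (o : Option (Fin p)) (τ : ℍ) :
    HasSum (fun m => translateCoeff p (fun n => (qExpansion 1 F).coeff n) o m • 𝕢 (p : ℝ) τ ^ m)
      (quotientFunc (ℋ := 𝒮ℒ) F (H46.cosetEquiv p o) τ) := by
  have h := H46.quotientFunc_cosetEquiv (k := 2) F o
  rw [h]
  exact hasSum_translate' F o τ


theorem good_translate (F : ModularForm Γp 2) (o : Option (Fin p)) :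
    Good (p : ℝ) (quotientFunc (ℋ := 𝒮ℒ) F (H46.cosetEquiv p o)) :=
  H46.analyticAt_of_hasSum (by exact_mod_cast hp.out.pos) (hasSum_translate F o)
    (mdifferentiable_quotientFunc F _)

theorem qExpansion_translate_coeff (F : ModularForm Γp 2) (o : Option (Fin p)) (m : ℕ) :
    (qExpansion (p : ℝ) (quotientFunc (ℋ := 𝒮ℒ) F (H46.cosetEquiv p o))).coeff m =
      translateCoeff p (fun n => (qExpansion 1 F).coeff n) o m :=
  H46.qExpansion_coeff_of_hasSum (by exact_mod_cast hp.out.pos) (hasSum_translate F o)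
    (mdifferentiable_quotientFunc F _) m

/-- **(i) Integrality.**  If `F ∈ M₂(Γ₀(p))` has all its `q`-coefficients in a subring `𝒪 ⊆ ℂ`
containing `ζ_p` and `1/p`, then so have all the level-one forms `e_i(F ∣ γ)`. -/
theorem esymm_gamma0_coeff_mem (F : ModularForm Γp 2) (𝒪 : Subring ℂ) (hζ : H46.zetaC p ∈ 𝒪)
    (hpinv : (p : ℂ)⁻¹ ∈ 𝒪) (hF : ∀ n, (qExpansion 1 F).coeff n ∈ 𝒪) (i m : ℕ) :
    (qExpansion 1 (esymmForm 𝒮ℒ F i)).coeff m ∈ 𝒪 := by
  refine esymmForm_coeff_mem 𝒮ℒ F one_mem_strictPeriods_SL (H46.cosetEquiv p) hp.out.pos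
    (good_translate F) 𝒪 ?_ i m
  intro o n
  rw [qExpansion_translate_coeff]
  exact translateCoeff_mem 𝒪 hζ hpinv hF o n


/-! ### (ii) the monic relation -/

theorem Good.smul {h : ℝ} {g : ℍ → ℂ} (hg : Good h g) (c : ℂ) : Good h (c • g) := by
  unfold Good at *
  rw [cuspFunction_smul hg.continuousAt]
  exact hg.const_smul

theorem Good.pow {h : ℝ} {g : ℍ → ℂ} (hg : Good h g) (n : ℕ) :
    Good h (g ^ n) ∧ qExpansion h (g ^ n) = qExpansion h g ^ n := by
  have := good_prod (h := h) (Finset.range n) (fun _ => g) (fun _ _ => hg)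
  simpa [Finset.prod_const] using this

theorem good_one_form {Γ : Subgroup (GL (Fin 2) ℝ)} {k : ℤ} (G : ModularForm Γ k)
    (hΓ : (1 : ℝ) ∈ Γ.strictPeriods) : Good 1 (G : ℍ → ℂ) :=
  ModularFormClass.analyticAt_cuspFunction_zero G one_pos hΓ

/-- The pointwise relation `∑ (-1)^j e_j(τ) F(τ)^(p+1-j) = 0`. -/
theorem gamma0_relation_apply {k : ℤ} (F : ModularForm Γp k) (τ : ℍ) :
    ∑ j ∈ Finset.range (p + 2),
      (-1 : ℂ) ^ j * (esymmForm 𝒮ℒ F j τ * F τ ^ (p + 1 - j)) = 0 := by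
  have h := prod_X_sub_quotientFunc 𝒮ℒ F (H46.cosetEquiv p) τ
  have hcard : Fintype.card (Option (Fin p)) = p + 1 := by
    rw [Fintype.card_option, Fintype.card_fin]
  rw [hcard] at h
  have h2 := congrArg (Polynomial.eval (F τ)) h
  rw [Polynomial.eval_prod, Polynomial.eval_finsetSum] at h2
  have hnone : quotientFunc (ℋ := 𝒮ℒ) F (H46.cosetEquiv p none) τ = F τ := by
    have h3 := H46.quotientFunc_cosetEquiv (k := k) F (none : Option (Fin p))
    rw [h3]
    change ((F : ℍ → ℂ) ∣[k] mapGL ℝ (1 : SL(2, ℤ))) τ = _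
    rw [map_one, SlashAction.slash_one]
  have hzero : ∏ j : Option (Fin p), Polynomial.eval (F τ)
      (Polynomial.X - Polynomial.C (quotientFunc (ℋ := 𝒮ℒ) F (H46.cosetEquiv p j) τ)) = 0 := by
    apply Finset.prod_eq_zero (Finset.mem_univ (none : Option (Fin p)))
    rw [Polynomial.eval_sub, Polynomial.eval_X, Polynomial.eval_C, hnone, sub_self]
  rw [hzero] at h2
  rw [h2]
  refine Finset.sum_congr rfl fun j _ => ?_
  simp only [Polynomial.eval_mul, Polynomial.eval_pow, Polynomial.eval_neg, Polynomial.eval_one,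
    Polynomial.eval_C, Polynomial.eval_X]

/-- **(ii) The monic relation of degree `p + 1`** satisfied by the `q`-expansion of
`F ∈ M_k(Γ₀(p))` over the level-one forms `e_j(F ∣ γ)`. -/
theorem gamma0_monic_relation {k : ℤ} (F : ModularForm Γp k) :
    ∑ j ∈ Finset.range (p + 2),
      ((-1 : ℂ) ^ j) • (qExpansion 1 (esymmForm 𝒮ℒ F j) * qExpansion 1 F ^ (p + 1 - j)) = 0 := by
  have h1 := CongruenceSubgroup.one_mem_strictPeriods_Gamma0 p
  have hF : Good 1 (F : ℍ → ℂ) := good_one_form F h1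
  have hs : ∀ j, Good 1 (esymmForm 𝒮ℒ F j : ℍ → ℂ) := fun j =>
    good_one_form _ one_mem_strictPeriods_SL
  set φ : ℕ → ℍ → ℂ := fun j =>
    ((-1 : ℂ) ^ j) • ((esymmForm 𝒮ℒ F j : ℍ → ℂ) * (F : ℍ → ℂ) ^ (p + 1 - j)) with hφ
  have hgood : ∀ j, Good 1 (φ j) := fun j => ((hs j).mul (hF.pow _).1).smul _
  have hq : ∀ j, qExpansion 1 (φ j) =
      ((-1 : ℂ) ^ j) • (qExpansion 1 (esymmForm 𝒮ℒ F j) * qExpansion 1 F ^ (p + 1 - j)) := by
    intro j
    rw [hφ]
    simp only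
    rw [UpperHalfPlane.qExpansion_smul ((hs j).mul (hF.pow _).1), qExpansion_mul (hs j) (hF.pow _).1,
      (hF.pow _).2]
  have hsum := good_sum (h := (1 : ℝ)) (Finset.range (p + 2)) φ (fun j _ => hgood j)
  have hzero : ∑ j ∈ Finset.range (p + 2), φ j = 0 := by
    funext τ
    rw [Finset.sum_apply, Pi.zero_apply, ← gamma0_relation_apply F τ]
    refine Finset.sum_congr rfl fun j _ => ?_
    simp [hφ]
  rw [hzero, qExpansion_zero] at hsum
  rw [hsum.2]
  exact Finset.sum_congr rfl fun j _ => (hq j).symm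


/-! ### (iii) the reduced relation -/

theorem coe_esymmForm_zero {k : ℤ} (F : ModularForm Γp k) :
    (esymmForm 𝒮ℒ F 0 : ℍ → ℂ) = 1 := by
  funext τ
  let _ := Fintype.ofFinite (↥(𝒮ℒ) ⧸ (Γp).subgroupOf 𝒮ℒ)
  rw [esymmForm_apply 𝒮ℒ F 0 τ]
  simp

/-- ring-multiplication form of `gamma0_monic_relation`. -/
theorem gamma0_monic_relation' {k : ℤ} (F : ModularForm Γp k) :
    ∑ j ∈ Finset.range (p + 2),
      (-1 : PowerSeries ℂ) ^ j *
        (qExpansion 1 (esymmForm 𝒮ℒ F j) * qExpansion 1 F ^ (p + 1 - j)) = 0 := by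
  rw [← gamma0_monic_relation F]
  refine Finset.sum_congr rfl fun j _ => ?_
  rw [PowerSeries.smul_eq_C_mul, map_pow, map_neg, map_one]


open ModularCurve in
/-- **(iii) The reduced relation** (shape of `hrel` in `H76.u2_rel_qseries`).  Let `𝒪 ⊆ ℂ` contain
`ζ_p` and `1/p`, let `π : 𝒪 →+* κ` with `2 = 0` in `κ`, and let `F ∈ M₂(Γ₀(p))` have `q`-expansion
`F'.map 𝒪.subtype`, `F' ∈ 𝒪⟦X⟧`.  Then `Ψ := F'.map π` satisfies a monic relation of degree `p + 1`
whose coefficient of `Ψ^m` is a polynomial in `Δ̄ = q ∏ (1 - qⁿ)²⁴` of degree `≤ (p + 1 - m) / 6`. -/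
theorem gamma0_reduced_relation (F : ModularForm Γp 2) (𝒪 : Subring ℂ) (hζ : H46.zetaC p ∈ 𝒪)
    (hpinv : (p : ℂ)⁻¹ ∈ 𝒪) {κ : Type*} [CommRing κ] (π : 𝒪 →+* κ) (h2 : (2 : κ) = 0)
    (F' : PowerSeries 𝒪) (hF' : F'.map 𝒪.subtype = qExpansion 1 F) :
    ∃ P : ℕ → Polynomial κ, (∀ m, m < p + 1 → 6 * (P m).natDegree ≤ p + 1 - m) ∧
      (F'.map π) ^ (p + 1) + ∑ m ∈ Finset.range (p + 1),
        Polynomial.aeval (PowerSeries.X * dedekindEtaUnit.map (Int.castRingHom κ)) (P m) *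
          (F'.map π) ^ m = 0 := by
  have hinj : Function.Injective (PowerSeries.map 𝒪.subtype) :=
    PowerSeries.map_injective _ Subtype.val_injective
  have hF : ∀ n, (qExpansion 1 F).coeff n ∈ 𝒪 := by
    intro n
    rw [← hF', PowerSeries.coeff_map]
    exact (PowerSeries.coeff n F').2
  -- integral models of the level-one forms
  set E' : ℕ → PowerSeries 𝒪 := fun j => PowerSeries.mk fun m =>
    ⟨_, esymm_gamma0_coeff_mem F 𝒪 hζ hpinv hF j m⟩ with hE'
  have hE'map : ∀ j, (E' j).map 𝒪.subtype = qExpansion 1 (esymmForm 𝒮ℒ F j) := by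
    intro j
    ext m
    simp [hE', PowerSeries.coeff_map, PowerSeries.coeff_mk]
  have hE'0 : E' 0 = 1 := by
    apply hinj
    rw [hE'map, coe_esymmForm_zero, qExpansion_one, map_one]
  -- the relation over `𝒪`
  have hrel𝒪 : ∑ j ∈ Finset.range (p + 2),
      (-1 : PowerSeries 𝒪) ^ j * (E' j * F' ^ (p + 1 - j)) = 0 := by
    apply hinj
    rw [map_zero, map_sum, ← gamma0_monic_relation' F]
    refine Finset.sum_congr rfl fun j _ => ?_
    rw [map_mul, map_mul, map_pow, map_pow, map_neg, map_one, hE'map, hF']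
  -- level one modulo two
  have hlev : ∀ j, ∃ Pj : Polynomial κ, 12 * Pj.natDegree ≤ 2 * j ∧
      (E' j).map π =
        Polynomial.aeval (PowerSeries.X * dedekindEtaUnit.map (Int.castRingHom κ)) Pj := by
    intro j
    have hw : (2 : ℤ) * (j : ℤ) = ((2 * j : ℕ) : ℤ) := by push_cast; rfl
    exact H76.exists_poly_Delta_of_coeff_mem 𝒪 π h2 (2 * j)
      (ModularForm.mcast hw (esymmForm 𝒮ℒ F j) rfl) (E' j) (hE'map j)
  choose Pj hPdeg hPeq using hlev
  refine ⟨fun m => Polynomial.C ((-1 : κ) ^ (p + 1 - m)) * Pj (p + 1 - m), ?_, ?_⟩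
  · intro m hm
    show 6 * (Polynomial.C ((-1 : κ) ^ (p + 1 - m)) * Pj (p + 1 - m)).natDegree ≤ p + 1 - m
    have h1 : (Polynomial.C ((-1 : κ) ^ (p + 1 - m)) * Pj (p + 1 - m)).natDegree ≤
        (Pj (p + 1 - m)).natDegree := Polynomial.natDegree_C_mul_le _ _
    have h3 := hPdeg (p + 1 - m)
    omega
  · have h := congrArg (PowerSeries.map π) hrel𝒪
    rw [map_zero, map_sum, Finset.sum_range_succ', ← Finset.sum_range_reflect] at h
    rw [add_comm]
    rw [← h]
    congr 1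
    · refine Finset.sum_congr rfl fun m hm => ?_
      have hm' : m < p + 1 := Finset.mem_range.mp hm
      have e1 : p + 1 - 1 - m + 1 = p + 1 - m := by omega
      have e2 : p + 1 - (p + 1 - m) = m := by omega
      rw [e1, e2]
      simp only [map_mul, map_pow, map_neg, map_one, hPeq]
      ring
    · rw [pow_zero, one_mul, hE'0, one_mul, Nat.sub_zero, map_pow]

end Fermat.Agent.S16.H77
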