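/-
S16 / (U2b), helper77: TRANSFER of a valuation subring `A` of an algebraically closed field `L`
(e.g. `Qbar`) to a subring `𝒪 ⊆ ℂ` along an embedding `ι : L →+* ℂ`, with the residue map
`π : 𝒪 →+* ResidueField A`.  `𝒪` contains all algebraic integers of `ℂ` (so `ζ_p`) and `1/p` for
every prime `p` different from the residue characteristic.  So the `𝒪`-integrality calculus for
modular forms (`H77_Gamma0Rel`, `H46_U5b`, ...) can be run with `κ := ResidueField A`.
-/
import Mathlib
import Fermat.Prelude.Def_FLTPrelim_Ramification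

set_option autoImplicit false

noncomputable section

namespace Fermat.Agent.S16.H77

open IsLocalRing Polynomial

/-- An algebraic integer of `ℂ` is the image of an algebraic integer of any algebraically closed
field `L` mapping to `ℂ`. -/
theorem exists_isIntegral_map_eq {L : Type*} [Field L] [IsAlgClosed L] (ι : L →+* ℂ) {x : ℂ}
    (hx : IsIntegral ℤ x) : ∃ y : L, IsIntegral ℤ y ∧ ι y = x := by
  obtain ⟨f, hf, hfx⟩ := hx
  set g : L[X] := f.map (Int.castRingHom L) with hg
  have hgm : g.Monic := hf.map _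
  have hsplit : g.Splits := IsAlgClosed.splits g
  have hroot : x ∈ (g.map ι).roots := by
    rw [Polynomial.mem_roots (Polynomial.map_ne_zero hgm.ne_zero), Polynomial.IsRoot.def, hg,
      Polynomial.map_map, Polynomial.eval_map]
    have : ι.comp (Int.castRingHom L) = algebraMap ℤ ℂ := RingHom.ext_int _ _
    rw [this]
    exact hfx
  rw [hsplit.roots_map ι] at hroot
  obtain ⟨y, hy, rfl⟩ := Multiset.mem_map.mp hroot
  refine ⟨y, ⟨f, hf, ?_⟩, rfl⟩
  have := (Polynomial.mem_roots hgm.ne_zero).mp hy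
  rw [Polynomial.IsRoot.def, hg, Polynomial.eval_map] at this
  have h2 : Int.castRingHom L = algebraMap ℤ L := RingHom.ext_int _ _
  rw [h2] at this
  exact this


/-- Valuation subrings contain the algebraic integers. -/
theorem mem_valuationSubring_of_isIntegral {L : Type*} [Field L] (A : ValuationSubring L) {y : L}
    (hy : IsIntegral ℤ y) : y ∈ A := by
  have hy' : IsIntegral A y := by
    obtain ⟨P, hP, hPy⟩ := hy
    refine ⟨P.map (Int.castRingHom A), hP.map _, ?_⟩
    rw [Polynomial.eval₂_map]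
    have : (algebraMap A L).comp (Int.castRingHom A) = algebraMap ℤ L := RingHom.ext_int _ _
    rw [this]
    exact hPy
  obtain ⟨z, hz⟩ := (IsIntegrallyClosed.isIntegral_iff (R := A) (K := L)).mp hy'
  rw [← hz]
  exact z.2

/-- A natural number prime to the residue characteristic is a unit of `A`. -/
theorem natCast_inv_mem_of_liesOverPrime {L : Type*} [Field L] (A : ValuationSubring L)
    {ℓ p : ℕ} (hℓ : ℓ.Prime) (hA : A.LiesOverPrime ℓ) (hp : p.Prime) (hpℓ : p ≠ ℓ) :
    ((p : L))⁻¹ ∈ A := by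
  have hcop : Nat.Coprime ℓ p := (Nat.coprime_primes hℓ hp).mpr hpℓ.symm
  have hab : (ℓ : ℤ) * Nat.gcdA ℓ p + (p : ℤ) * Nat.gcdB ℓ p = 1 := by
    have := Nat.gcd_eq_gcd_ab ℓ p
    rw [hcop.gcd_eq_one] at this
    exact_mod_cast this.symm
  set a := Nat.gcdA ℓ p
  set b := Nat.gcdB ℓ p
  have hZ : ∀ z : ℤ, (z : L) ∈ A := fun z => by
    have : ((z : A) : L) = (z : L) := by simp
    rw [← this]; exact (z : A).2
  by_contra hmV
  have hv_l : A.valuation (ℓ : L) < 1 := A.mem_nonunits_iff.mp hA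
  have hv_m : A.valuation (p : L) < 1 :=
    A.mem_nonunits_iff.mp (A.mem_nonunits_iff_or.mpr (Or.inr hmV))
  have hv_a : A.valuation (a : L) ≤ 1 := (A.valuation_le_one_iff _).mpr (hZ a)
  have hv_b : A.valuation (b : L) ≤ 1 := (A.valuation_le_one_iff _).mpr (hZ b)
  have hsum : (1 : L) = (ℓ : L) * (a : L) + (p : L) * (b : L) := by
    have := congrArg (fun z : ℤ => (z : L)) hab
    push_cast at this
    exact this.symm
  have h1 : A.valuation ((ℓ : L) * (a : L)) < 1 := by
    rw [map_mul]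
    exact Left.mul_lt_one_of_lt_of_le hv_l hv_a
  have h2 : A.valuation ((p : L) * (b : L)) < 1 := by
    rw [map_mul]
    exact Left.mul_lt_one_of_lt_of_le hv_m hv_b
  have h3 : A.valuation (1 : L) < 1 := by
    rw [hsum]
    exact lt_of_le_of_lt (Valuation.map_add _ _ _) (max_lt h1 h2)
  rw [map_one] at h3
  exact lt_irrefl _ h3


/-- **TRANSFER.** A valuation subring `A` of an algebraically closed field `L` over the prime `ℓ`,
transported along `ι : L →+* ℂ`: a subring `𝒪 ⊆ ℂ` with a surjection `π` onto the residue field of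
`A`, containing `ζ_p` and `1/p` for every prime `p ≠ ℓ`. -/
theorem exists_subring_of_valuationSubring {L : Type*} [Field L] [IsAlgClosed L] (ι : L →+* ℂ)
    (A : ValuationSubring L) {ℓ : ℕ} (hℓ : ℓ.Prime) (hA : A.LiesOverPrime ℓ) :
    ∃ (𝒪 : Subring ℂ) (π : 𝒪 →+* ResidueField A),
      Function.Surjective π ∧ ((ℓ : ℕ) : ResidueField A) = 0 ∧
      (∀ a : A, ∃ h : ι a ∈ 𝒪, π ⟨ι a, h⟩ = residue A a) ∧
      (∀ x : ℂ, IsIntegral ℤ x → x ∈ 𝒪) ∧
      (∀ p : ℕ, p.Prime → p ≠ ℓ → ((p : ℂ))⁻¹ ∈ 𝒪) := by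
  set 𝒪 : Subring ℂ := A.toSubring.map ι with h𝒪
  let e : A.toSubring ≃+* 𝒪 := A.toSubring.equivMapOfInjective ι ι.injective
  let π : 𝒪 →+* ResidueField A := (residue A).comp (e.symm : 𝒪 →+* A.toSubring)
  have he : ∀ a : A, ((e a : 𝒪) : ℂ) = ι a := fun a => rfl
  have hmem : ∀ a : A, ι a ∈ 𝒪 := fun a => ⟨a, a.2, rfl⟩
  have hπ : ∀ a : A, π ⟨ι a, hmem a⟩ = residue A a := by
    intro a
    have : (⟨ι a, hmem a⟩ : 𝒪) = e a := Subtype.ext (he a).symm
    change residue A (e.symm ⟨ι a, hmem a⟩) = _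
    rw [this, RingEquiv.symm_apply_apply]
  refine ⟨𝒪, π, ?_, ?_, fun a => ⟨hmem a, hπ a⟩, ?_, ?_⟩
  · intro x
    obtain ⟨a, rfl⟩ := residue_surjective x
    exact ⟨⟨ι a, hmem a⟩, hπ a⟩
  · have h1 : ((ℓ : A) : L) ∈ A.nonunits := by
      have : ((ℓ : A) : L) = (ℓ : L) := by simp
      rw [this]; exact hA
    have h2 : (ℓ : A) ∈ maximalIdeal A :=
      (ValuationSubring.coe_mem_nonunits_iff (A := A) (a := (ℓ : A))).mp h1
    have h3 : residue A (ℓ : A) = 0 := (residue_eq_zero_iff _).mpr h2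
    simpa using h3
  · intro x hx
    obtain ⟨y, hy, rfl⟩ := exists_isIntegral_map_eq ι hx
    exact hmem ⟨y, mem_valuationSubring_of_isIntegral A hy⟩
  · intro p hp hpℓ
    have h := natCast_inv_mem_of_liesOverPrime A hℓ hA hp hpℓ
    have : ((p : ℂ))⁻¹ = ι ((p : L))⁻¹ := by simp
    rw [this]
    exact hmem ⟨_, h⟩

end Fermat.Agent.S16.H77
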