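/-
S16 / (U2b)-(G3), helper77: `Cong p f 2` ⟹ the monic relation `hrel` of `H76.u2_rel_qseries`
over `k = ResidueField A`, for ANY valuation subring `A` over `2` of an algebraically closed field
embedded in `ℂ` (in particular `A ⊆ ℚ̄`, the `kA` of the S18 / GEO-e instances).
Glue of `H77_Gamma0Rel.gamma0_reduced_relation` + `H77_TransferA`.
-/
import Fermat.Agent.S16.H77_Gamma0Rel
import Fermat.Agent.S16.H77_TransferA
import Fermat.Agent.S16.H77_ChooseO
import Fermat.Agent.S16.H76_U2RelQ
import Fermat.Agent.S16.H52_Assembly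

set_option autoImplicit false

open UpperHalfPlane CongruenceSubgroup ModularForm IsLocalRing
open scoped ModularForm MatrixGroups

noncomputable section

namespace Fermat.Agent.S16.H77

/-- **(U2b)/(G3), end shape.**  A cusp form `f ∈ S₂(Γ₀(p))` (`p` an odd prime) congruent to
`δ = ∑ σ'(n) qⁿ` modulo `2` forces a monic relation of degree `p + 1` for `δ̄` over `k[Δ̄]`,
`k` the residue field of ANY valuation subring `A` over `2` of an algebraically closed field `L`
embedded in `ℂ` — `hP` and `hrel` of `H76.u2_rel_qseries` (with `n = p + 1`). -/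
theorem exists_rel_of_cong {L : Type*} [Field L] [IsAlgClosed L] (ι : L →+* ℂ)
    (A : ValuationSubring L) (hA : A.LiesOverPrime 2) (p : ℕ) [hp : Fact p.Prime] (hp2 : p ≠ 2)
    (f : CuspForm (Gamma0 p) 2) (hf : H52.Cong p f 2) :
    ∃ P : ℕ → Polynomial (ResidueField A),
      (∀ m, m < p + 1 → 6 * (P m).natDegree ≤ p + 1 - m) ∧
      H76.deltaPS (ResidueField A) p ^ (p + 1) + ∑ m ∈ Finset.range (p + 1),
        Polynomial.aeval (H76.DeltaPS (ResidueField A)) (P m) *
          H76.deltaPS (ResidueField A) p ^ m = 0 := by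
  obtain ⟨𝒪, π, -, h2, -, hint, hinv⟩ :=
    exists_subring_of_valuationSubring ι A Nat.prime_two hA
  have h2' : (2 : ResidueField A) = 0 := by exact_mod_cast h2
  have hζ : H46.zetaC p ∈ 𝒪 := hint _ (isIntegral_exp_two_pi_div p hp.out.ne_zero)
  have hpinv : ((p : ℂ))⁻¹ ∈ 𝒪 := hinv p hp.out hp2
  choose z hz hdvd using hf
  set F : ModularForm (Gamma0 p) 2 := CuspForm.toModularFormₗ f with hFdef
  have hcoe : (F : ℍ → ℂ) = f := rfl
  set F' : PowerSeries 𝒪 := PowerSeries.mk fun n => ((z n : ℤ) : 𝒪) with hF'def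
  have hF' : F'.map 𝒪.subtype = qExpansion 1 F := by
    ext n
    rw [PowerSeries.coeff_map, hF'def, PowerSeries.coeff_mk, hcoe]
    have := hz n
    simp only [ModularFormClass.qCoeff] at this
    rw [this]
    simp
  obtain ⟨P, hP, hrel⟩ := gamma0_reduced_relation F 𝒪 hζ hpinv π h2' F' hF'
  have hred : F'.map π = H76.deltaPS (ResidueField A) p := by
    ext n
    rw [PowerSeries.coeff_map, hF'def, PowerSeries.coeff_mk, map_intCast, H76.coeff_deltaPS]
    rcases Nat.eq_zero_or_pos n with rfl | hn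
    · have h0 : ModularFormClass.qCoeff f 0 = 0 :=
        CuspFormClass.qExpansion_coeff_zero f one_pos
          (CongruenceSubgroup.one_mem_strictPeriods_Gamma0 p)
      have hz0 : z 0 = 0 := by
        have := hz 0
        rw [h0] at this
        exact_mod_cast this.symm
      rw [hz0]
      simp [H76.sigmaPrime]
    · obtain ⟨w, hw⟩ := hdvd n hn
      have hzn : z n = ((H52.sigmaP p n : ℕ) : ℤ) + 2 * w := by
        have : ((2 : ℕ) : ℤ) = 2 := by norm_num
        rw [this] at hw
        linarith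
      rw [hzn]
      push_cast
      rw [h2', zero_mul, add_zero]
      rfl
  refine ⟨P, hP, ?_⟩
  rw [hred] at hrel
  exact hrel


/-- The same for `L = ℚ̄` (no embedding to choose). -/
theorem exists_rel_of_cong_Qbar (A : ValuationSubring (AlgebraicClosure ℚ))
    (hA : A.LiesOverPrime 2) (p : ℕ) [hp : Fact p.Prime] (hp2 : p ≠ 2)
    (f : CuspForm (Gamma0 p) 2) (hf : H52.Cong p f 2) :
    ∃ P : ℕ → Polynomial (ResidueField A),
      (∀ m, m < p + 1 → 6 * (P m).natDegree ≤ p + 1 - m) ∧
      H76.deltaPS (ResidueField A) p ^ (p + 1) + ∑ m ∈ Finset.range (p + 1),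
        Polynomial.aeval (H76.DeltaPS (ResidueField A)) (P m) *
          H76.deltaPS (ResidueField A) p ^ m = 0 := by
  have : Algebra.IsAlgebraic ℚ (AlgebraicClosure ℚ) := AlgebraicClosure.isAlgebraic ℚ
  exact exists_rel_of_cong
    ((IsAlgClosed.lift : AlgebraicClosure ℚ →ₐ[ℚ] ℂ) : AlgebraicClosure ℚ →+* ℂ) A hA p hp2 f hf

end Fermat.Agent.S16.H77
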