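/-
S16 / (U2b) alternative route, package (G) concrete side (helper7):
the EASY genus inequality `gR(F̄_N) ≤ gR(F_N)` (upper semicontinuity of the genus under the
Gauss reduction of `X₀(N)` at a valuation subring of `Qbar` over `ℓ ∤ N`), from ONE named
hypothesis `OrthoHyp` (= helper1's abstract ORTHO lemma, instantiated at `H92.stdO / H92.stdRes`):
every finite-dimensional `Qbar`-subspace `V` of `F_N` contains `dim V` elements of the Gauss unit
ball with `k`-linearly independent residues.

* `isIntegral_res_of_isIntegral`  : abstract; `b ∈ O` integral over `L[t]` has residue integral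
                                    over `k[tk]`  ((O3) of `H27.GaussData` + reduction).
* `res_mem_riemannRochSpace`      : `f ∈ L(n (j)_∞) ∩ O  ⇒  res f ∈ L_k(n (j̄)_∞)`.
* `ell_le_ell_of_ortho`           : `l(n (j)_∞) ≤ l_k(n (j̄)_∞)`.
* `gR_Fk_le_gR_FN_of_ortho`       : the genus inequality.
-/
import Mathlib
import Fermat.Agent.S18.H33_LatticeInst
import Fermat.Agent.S18.H27_CenterInstMod
import Fermat.Agent.S18.H27_GRBridge
import Fermat.Agent.S18.H92_IndepK
import Fermat.Agent.S18.H61_GenusBridge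
import Fermat.Agent.S18.H40_LatticeInstR0

set_option autoImplicit false
set_option synthInstance.maxHeartbeats 400000
set_option linter.unusedSectionVars false
set_option linter.style.haveILetI false

noncomputable section

namespace Fermat.Agent.S16.H7

open AlgebraicCurve ModularCurve IntermediateField Polynomial
open Fermat.Agent.S24 Fermat.Agent.RR Fermat.Agent.S18

/-! ### Abstract part: residues of integral elements -/

section Abstract

variable {L k F Fk : Type*} [Field L] [Field k] [Field F] [Field Fk] [Algebra L F] [Algebra k Fk]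
variable {A : ValuationSubring L} {π : A →+* k} {O : ValuationSubring F} {res : O →+* Fk} {t : F}

theorem AT_le (G : H27.GaussData A π O res t) : H27.AT A t ≤ O.toSubring := by
  unfold H27.AT
  rw [Subring.closure_le]
  rintro x (⟨a, rfl⟩ | hx)
  · exact (G.const_mem_iff _).2 a.2
  · rw [Set.mem_singleton_iff] at hx
    rw [hx]
    exact G.t_mem

theorem res_AT_mem (G : H27.GaussData A π O res t) (s : H27.AT A t) :
    res ⟨(s : F), AT_le G s.2⟩ ∈ (Algebra.adjoin k {G.tk}).toSubring := by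
  -- the subring of `F` of elements of `O` whose residue lies in `k[tk]`
  let S'' : Subring F :=
    (((Algebra.adjoin k {G.tk}).toSubring.comap res).map O.toSubring.subtype)
  have hle : H27.AT A t ≤ S'' := by
    unfold H27.AT
    rw [Subring.closure_le]
    rintro x (⟨a, rfl⟩ | hx)
    · refine ⟨⟨_, (G.const_mem_iff _).2 a.2⟩, ?_, rfl⟩
      show res _ ∈ (Algebra.adjoin k {G.tk}).toSubring
      rw [G.res_const a]
      exact (Algebra.adjoin k {G.tk}).algebraMap_mem _
    · rw [Set.mem_singleton_iff] at hx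
      refine ⟨⟨t, G.t_mem⟩, ?_, hx.symm⟩
      show res _ ∈ (Algebra.adjoin k {G.tk}).toSubring
      exact Algebra.self_mem_adjoin_singleton k G.tk
  obtain ⟨y, hy, hys⟩ := hle s.2
  have : (⟨(s : F), AT_le G s.2⟩ : O) = y := Subtype.ext hys.symm
  rw [this]
  exact hy

/-- **(O3) + reduction**: an element of the Gauss unit ball which is integral over `L[t]` has a
residue which is integral over `k[tk]`. -/
theorem isIntegral_res_of_isIntegral (G : H27.GaussData A π O res t)
    {ι : Type*} [Fintype ι] (e : ι → F) (he : ∀ i, e i ∈ O)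
    (hek : LinearIndependent k⟮G.tk⟯ (fun i => res ⟨e i, he i⟩))
    (hspan : ∀ x : F, ∃ c : ι → F, (∀ i, c i ∈ L⟮t⟯) ∧ x = ∑ i, c i * e i)
    {b : F} (hbO : b ∈ O) (hb : IsIntegral (Algebra.adjoin L {t}) b) :
    IsIntegral (Algebra.adjoin k {G.tk}) (res ⟨b, hbO⟩) := by
  have h1 : IsIntegral (H27.AT A t) b := G.isIntegral_AT e he hek hspan hbO hb
  have h2 := H27.isIntegral_map_of_isIntegral O.toSubring res (H27.AT A t) (AT_le G)
    (Algebra.adjoin k {G.tk}).toSubring (res_AT_mem G) hbO h1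
  obtain ⟨p, hp, hpb⟩ := h2
  let φ : (Algebra.adjoin k {G.tk}).toSubring →+* Algebra.adjoin k {G.tk} := RingHom.id _
  refine ⟨p.map φ, hp.map φ, ?_⟩
  rw [Polynomial.eval₂_map]
  exact hpb

end Abstract

/-! ### Concrete part -/

section Concrete

variable (N : ℕ) [NeZero N] {ℓ : ℕ} [hℓ : Fact ℓ.Prime] (hℓN : ¬ ℓ ∣ N)
variable (A : ValuationSubring (AlgebraicClosure ℚ)) (hA : A.LiesOverPrime ℓ)

local notation "kA" => IsLocalRing.ResidueField A

/-- **(ORTHO)**, the named hypothesis: every finite-dimensional `Qbar`-subspace of `F_N` has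
`dim V` elements in the Gauss unit ball with `k`-linearly independent residues. -/
def OrthoHyp : Prop :=
  ∀ V : Submodule (AlgebraicClosure ℚ) (modularFunctionFieldBar N),
    FiniteDimensional (AlgebraicClosure ℚ) V →
    ∃ e : Fin (Module.finrank (AlgebraicClosure ℚ) V) → modularFunctionFieldBar N,
      (∀ i, e i ∈ V) ∧ ∃ he : ∀ i, e i ∈ H92.stdO N hℓN A hA,
        LinearIndependent kA (fun i => H92.stdRes N hℓN A hA ⟨e i, he i⟩)

/-- every proper valuation subring of `F_N / Qbar` is a principal ideal ring. -/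
theorem isPrincipalIdealRing_of_valuationSubring_FN
    (V : ValuationSubring (modularFunctionFieldBar N))
    (hV : ∀ a : AlgebraicClosure ℚ,
      algebraMap (AlgebraicClosure ℚ) (modularFunctionFieldBar N) a ∈ V) (_hne : V ≠ ⊤) :
    IsPrincipalIdealRing V := by
  haveI : FiniteDimensional Qbar⟮jBar N⟯ (FN N) := S24.H40.finiteDimensional_FN N
  exact H52.isPrincipalIdealRing_of_valuationSubring (K := Qbar) V hV (jBar N)
    (S24.H40.transcendental_jBar N)


theorem jBar_ne_zero : jBar N ≠ 0 := by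
  intro h0
  exact S24.H40.transcendental_jBar N (h0 ▸ isAlgebraic_zero)

theorem jK_ne_zero : H16.jK kA N ≠ 0 := by
  intro h0
  exact H16.transcendental_jK kA N (h0 ▸ isAlgebraic_zero)

theorem res_jBar (h : jBar N ∈ H92.stdO N hℓN A hA) :
    H92.stdRes N hℓN A hA ⟨jBar N, h⟩ = H16.jK kA N := by
  obtain ⟨_, h2⟩ := H40.stdRes_jBar N hℓN A hA
  exact h2

theorem res_jBar_inv (h : (jBar N)⁻¹ ∈ H92.stdO N hℓN A hA) :
    H92.stdRes N hℓN A hA ⟨(jBar N)⁻¹, h⟩ = (H16.jK kA N)⁻¹ := by
  obtain ⟨hj, h2⟩ := H40.stdRes_jBar N hℓN A hA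
  have h1 : H92.stdRes N hℓN A hA ⟨(jBar N)⁻¹, h⟩ * H92.stdRes N hℓN A hA ⟨jBar N, hj⟩ = 1 := by
    rw [← map_mul]
    have : (⟨(jBar N)⁻¹, h⟩ : H92.stdO N hℓN A hA) * ⟨jBar N, hj⟩ = 1 := by
      apply Subtype.ext
      show (jBar N)⁻¹ * jBar N = 1
      exact inv_mul_cancel₀ (jBar_ne_zero N)
    rw [this, map_one]
  rw [h2] at h1
  exact eq_inv_of_mul_eq_one_left h1

/-- **Reduction of Riemann-Roch spaces**: an element of `L(n (j)_∞)` in the Gauss unit ball
reduces into `L_k(n (j̄)_∞)`. -/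
theorem res_mem_riemannRochSpace [CharP kA ℓ] (n : ℕ) {f : modularFunctionFieldBar N}
    (hf : f ∈ riemannRochSpace (n • (H76.ffInputs_FN N).divPole (jBar N)))
    (hfO : f ∈ H92.stdO N hℓN A hA) :
    H92.stdRes N hℓN A hA ⟨f, hfO⟩ ∈
      riemannRochSpace (n • (H33.ffInputs_Fk N ℓ hℓN kA).divPole (H16.jK kA N)) := by
  have hjb := jBar_ne_zero N
  have hjk := jK_ne_zero N A
  obtain ⟨h1, h2⟩ := H33.isIntegral_of_mem_riemannRochSpace
    (isPrincipalIdealRing_of_valuationSubring_FN N) hjb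
    (D := (H76.ffInputs_FN N).divPole (jBar N))
    (fun v => by rw [(H76.ffInputs_FN N).divPole_apply (jBar N) v, max_comm]) n hf
  have G1 := H27.gaussData_j A N (H92.modData N) (H92.indepK_residueField N hℓN A hA)
  have G2 := H27.gaussData_jinv A N (H92.modData N) (H92.indepK_residueField N hℓN A hA)
  have hjinvO : (jBar N)⁻¹ ∈ H92.stdO N hℓN A hA :=
    H27.jBar_inv_mem_gaussO A N (H92.modData N) (H92.indepK_residueField N hℓN A hA)
  have hjO : jBar N ∈ H92.stdO N hℓN A hA :=
    H27.jBar_mem_gaussO A N (H92.modData N) (H92.indepK_residueField N hℓN A hA)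
  have hg : f / jBar N ^ n ∈ H92.stdO N hℓN A hA := by
    rw [div_eq_mul_inv, ← inv_pow]
    exact mul_mem hfO (pow_mem hjinvO n)
  have r1 : IsIntegral (Algebra.adjoin kA {G1.tk}) (H92.stdRes N hℓN A hA ⟨f, hfO⟩) :=
    isIntegral_res_of_isIntegral G1 (H27.jFam N)
      (H27.jFam_mem A N (H92.modData N) (H92.indepK_residueField N hℓN A hA))
      (H27.linearIndependent_res_jFam A N (H92.modData N) (H92.indepK_residueField N hℓN A hA))
      (H27.exists_sum_jFam A N (H92.modData N) (H92.indepK_residueField N hℓN A hA)) hfO h1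
  have r2 : IsIntegral (Algebra.adjoin kA {G2.tk})
      (H92.stdRes N hℓN A hA ⟨f / jBar N ^ n, hg⟩) :=
    isIntegral_res_of_isIntegral G2 (H27.jFam N)
      (H27.jFam_mem A N (H92.modData N) (H92.indepK_residueField N hℓN A hA))
      (H27.linearIndependent_res_jFam_inv A N (H92.modData N)
        (H92.indepK_residueField N hℓN A hA))
      (H27.exists_sum_jFam_inv A N (H92.modData N) (H92.indepK_residueField N hℓN A hA)) hg h2
  have e1 : G1.tk = H16.jK kA N := res_jBar N hℓN A hA _
  have e2 : G2.tk = (H16.jK kA N)⁻¹ := res_jBar_inv N hℓN A hA _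
  rw [e1] at r1
  rw [e2] at r2
  have e3 : H92.stdRes N hℓN A hA ⟨f / jBar N ^ n, hg⟩ =
      H92.stdRes N hℓN A hA ⟨f, hfO⟩ / H16.jK kA N ^ n := by
    rw [eq_div_iff (pow_ne_zero n hjk), ← res_jBar N hℓN A hA hjO, ← map_pow, ← map_mul]
    congr 1
    apply Subtype.ext
    show f / jBar N ^ n * jBar N ^ n = f
    exact div_mul_cancel₀ f (pow_ne_zero n hjb)
  rw [e3] at r2
  exact H33.mem_riemannRochSpace_of_isIntegral hjk
    (fun v => by rw [(H33.ffInputs_Fk N ℓ hℓN kA).divPole_apply (H16.jK kA N) v, max_comm]) n r1 r2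

/-- `l(n (j)_∞) ≤ l_k(n (j̄)_∞)` from (ORTHO). -/
theorem ell_le_ell_of_ortho [CharP kA ℓ] (hortho : OrthoHyp N hℓN A hA) (n : ℕ) :
    H76.ell (n • (H76.ffInputs_FN N).divPole (jBar N)) ≤
      H76.ell (n • (H33.ffInputs_Fk N ℓ hℓN kA).divPole (H16.jK kA N)) := by
  haveI := (H76.ffBase_FN N).finiteDimensional_riemannRochSpace
    (n • (H76.ffInputs_FN N).divPole (jBar N))
  haveI := (H33.ffBase_Fk N ℓ hℓN kA).finiteDimensional_riemannRochSpace
    (n • (H33.ffInputs_Fk N ℓ hℓN kA).divPole (H16.jK kA N))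
  obtain ⟨e, heV, heO, hli⟩ :=
    hortho (riemannRochSpace (n • (H76.ffInputs_FN N).divPole (jBar N))) inferInstance
  let g : Fin (Module.finrank (AlgebraicClosure ℚ)
      (riemannRochSpace (n • (H76.ffInputs_FN N).divPole (jBar N)))) →
      riemannRochSpace (n • (H33.ffInputs_Fk N ℓ hℓN kA).divPole (H16.jK kA N)) :=
    fun i => ⟨H92.stdRes N hℓN A hA ⟨e i, heO i⟩,
      res_mem_riemannRochSpace N hℓN A hA n (heV i) (heO i)⟩
  have hg : LinearIndependent kA g := by
    apply LinearIndependent.of_comp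
      (riemannRochSpace (n • (H33.ffInputs_Fk N ℓ hℓN kA).divPole (H16.jK kA N))).subtype
    exact hli
  have h := hg.fintype_card_le_finrank
  rw [Fintype.card_fin] at h
  exact h

/-- **(G) the easy genus inequality** from (ORTHO): the Riemann genus of the reduction of
`X₀(N)` mod `ℓ ∤ N` is at most the Riemann genus of `X₀(N)` over `Qbar`. -/
theorem gR_Fk_le_gR_FN_of_ortho [CharP kA ℓ] (hortho : OrthoHyp N hℓN A hA) :
    (H33.ffBase_Fk N ℓ hℓN kA).gR ≤ (H76.ffBase_FN N).gR := by
  refine H61.gR_le_of_forall_ell_le (H33.ffBase_Fk N ℓ hℓN kA) (H76.ffBase_FN N)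
    ((H33.ffInputs_Fk N ℓ hℓN kA).divPole (H16.jK kA N))
    ((H76.ffInputs_FN N).divPole (jBar N)) ?_ ?_ (ell_le_ell_of_ortho N hℓN A hA hortho)
  · rw [H33.degree_divPole_jBar, H33.degree_divPole_jK N ℓ hℓN kA]
  · rw [H33.degree_divPole_jK N ℓ hℓN kA]
    exact_mod_cast H16.dedekindPsi_pos' N

end Concrete

end Fermat.Agent.S16.H7
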