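/-
S16 / (U2b) alternative route, package (G), FINAL (helper7 + helper1):
the EASY genus inequality `gR(F̄_N) ≤ gR(F_N)`, unconditional:
the Riemann genus of the reduction of `X₀(N)` at a valuation subring of `Qbar` over a prime
`ℓ ∤ N` is at most the Riemann genus of `X₀(N)` over `Qbar`.

= `H7.gR_Fk_le_gR_FN_of_ortho` (helper7, dictionary + (O3) on both charts + Riemann) fed with
`H1.hortho_std` (helper1, orthonormal reduction of finite-dimensional subspaces).
-/
import Mathlib
import Fermat.Agent.S16.H7_GenusLe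
import Fermat.Agent.S16.H1_OrthoStd

set_option autoImplicit false
set_option synthInstance.maxHeartbeats 400000
set_option linter.style.haveILetI false
set_option linter.unusedSectionVars false

noncomputable section

namespace Fermat.Agent.S16.H7

open AlgebraicCurve ModularCurve
open Fermat.Agent.S24 Fermat.Agent.RR Fermat.Agent.S18

variable (N : ℕ) [NeZero N] {ℓ : ℕ} [hℓ : Fact ℓ.Prime] (hℓN : ¬ ℓ ∣ N)
variable (A : ValuationSubring (AlgebraicClosure ℚ)) (hA : A.LiesOverPrime ℓ)

local notation "kA" => IsLocalRing.ResidueField A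

/-- (ORTHO) holds for the standard Gauss valuation ring (helper1). -/
theorem orthoHyp_std : OrthoHyp N hℓN A hA :=
  Fermat.Agent.S16.H1.hortho_std N hℓN A hA

include hA in
/-- `l(n (j)_∞) ≤ l_k(n (j̄)_∞)` for every `n`. -/
theorem ell_le_ell [CharP kA ℓ] (n : ℕ) :
    H76.ell (n • (H76.ffInputs_FN N).divPole (jBar N)) ≤
      H76.ell (n • (H33.ffInputs_Fk N ℓ hℓN kA).divPole (H16.jK kA N)) :=
  ell_le_ell_of_ortho N hℓN A hA (orthoHyp_std N hℓN A hA) n

include hA in
/-- **(G)**: `gR(F̄_N) ≤ gR(F_N)`, unconditional. -/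
theorem gR_Fk_le_gR_FN [CharP kA ℓ] :
    (H33.ffBase_Fk N ℓ hℓN kA).gR ≤ (H76.ffBase_FN N).gR :=
  gR_Fk_le_gR_FN_of_ortho N hℓN A hA (orthoHyp_std N hℓN A hA)

/-- **(G)** with the `CharP` instance supplied. -/
theorem gR_Fk_le_gR_FN' :
    haveI := H92.charP_residueField A hA
    (H33.ffBase_Fk N ℓ hℓN kA).gR ≤ (H76.ffBase_FN N).gR := by
  haveI := H92.charP_residueField A hA
  exact gR_Fk_le_gR_FN N hℓN A hA

end Fermat.Agent.S16.H7
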