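import Fermat.Agent.S16.H83_RamanujanE2
import Fermat.Agent.S28.H17_FormalIdentity

/-!
# Formal `q`-series `P, Q, R` and Ramanujan's identities in `A⟦q⟧`

* `theta` : `θ = q d/dq` on power series (a derivation).
* `eisSer A c k = 1 + c ∑_{n ≥ 1} σ_k(n) qⁿ`; `Pser = eisSer (-24) 1`, `Qser = eisSer 240 3`,
  `Rser = eisSer (-504) 5`.
* `ramanujan_P/Q/R` : `12 θP = P² - Q`, `3 θQ = PQ - R`, `2 θR = PR - Q²` over every commutative
  ring (transferred from the analytic identities via uniqueness of `q`-expansions).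
-/

set_option autoImplicit false

noncomputable section

namespace Fermat.Agent.S16.H83

open PowerSeries

section Theta

variable {A B : Type*} [CommRing A] [CommRing B]

/-- `θ = q d/dq` on power series. -/
def theta (f : A⟦X⟧) : A⟦X⟧ := PowerSeries.mk fun n => (n : A) * coeff n f

@[simp] theorem coeff_theta (f : A⟦X⟧) (n : ℕ) : coeff n (theta f) = (n : A) * coeff n f := by
  simp [theta]

theorem theta_add (f g : A⟦X⟧) : theta (f + g) = theta f + theta g := by
  ext n; simp [mul_add]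

theorem theta_sub (f g : A⟦X⟧) : theta (f - g) = theta f - theta g := by
  ext n; simp [mul_sub]

theorem theta_neg (f : A⟦X⟧) : theta (-f) = -theta f := by
  ext n; simp

@[simp] theorem theta_zero : theta (0 : A⟦X⟧) = 0 := by
  ext n; simp

theorem theta_smul (a : A) (f : A⟦X⟧) : theta (a • f) = a • theta f := by
  ext n; simp [mul_left_comm]

theorem theta_C_mul (a : A) (f : A⟦X⟧) : theta (C a * f) = C a * theta f := by
  ext n; simp [mul_left_comm]

@[simp] theorem theta_C (a : A) : theta (C a : A⟦X⟧) = 0 := by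
  ext n
  rcases Nat.eq_zero_or_pos n with rfl | hn
  · simp
  · simp [coeff_C, hn.ne']

@[simp] theorem theta_one : theta (1 : A⟦X⟧) = 0 := by
  rw [← map_one (C (R := A)), theta_C]

theorem theta_mul (f g : A⟦X⟧) : theta (f * g) = theta f * g + f * theta g := by
  ext n
  simp only [coeff_theta, map_add, coeff_mul, Finset.mul_sum, ← Finset.sum_add_distrib]
  refine Finset.sum_congr rfl fun ij hij => ?_
  have hn : ij.1 + ij.2 = n := Finset.HasAntidiagonal.mem_antidiagonal.mp hij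
  rw [← hn]
  push_cast
  ring

theorem theta_pow (f : A⟦X⟧) (n : ℕ) : theta (f ^ (n + 1)) = (n + 1 : ℕ) • (f ^ n * theta f) := by
  induction n with
  | zero => simp
  | succ n ih =>
    rw [pow_succ, theta_mul, ih]
    simp only [nsmul_eq_mul, Nat.cast_add, Nat.cast_one]
    ring

theorem map_theta (φ : A →+* B) (f : A⟦X⟧) :
    PowerSeries.map φ (theta f) = theta (PowerSeries.map φ f) := by
  ext n; simp

/-- `θ` as an additive map. -/
def thetaHom : A⟦X⟧ →+ A⟦X⟧ where
  toFun := theta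
  map_zero' := theta_zero
  map_add' := theta_add

end Theta

section EisSer

variable (A : Type*) {B : Type*} [CommRing A] [CommRing B]

/-- `1 + c ∑_{n ≥ 1} σ_k(n) qⁿ`. -/
def eisSer (c : ℤ) (k : ℕ) : A⟦X⟧ :=
  PowerSeries.mk fun n => if n = 0 then 1 else ((c * (ArithmeticFunction.sigma k n : ℤ) : ℤ) : A)

/-- `P = E₂ = 1 - 24 ∑ σ₁(n) qⁿ`. -/
abbrev Pser : A⟦X⟧ := eisSer A (-24) 1

/-- `Q = E₄ = 1 + 240 ∑ σ₃(n) qⁿ`. -/
abbrev Qser : A⟦X⟧ := eisSer A 240 3

/-- `R = E₆ = 1 - 504 ∑ σ₅(n) qⁿ`. -/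
abbrev Rser : A⟦X⟧ := eisSer A (-504) 5

variable {A}

theorem coeff_eisSer (c : ℤ) (k n : ℕ) : coeff n (eisSer A c k) =
    if n = 0 then 1 else ((c * (ArithmeticFunction.sigma k n : ℤ) : ℤ) : A) := by
  simp [eisSer]

@[simp] theorem coeff_zero_eisSer (c : ℤ) (k : ℕ) : coeff 0 (eisSer A c k) = 1 := by
  simp [coeff_eisSer]

@[simp] theorem constantCoeff_eisSer (c : ℤ) (k : ℕ) : constantCoeff (eisSer A c k) = 1 := by
  rw [← coeff_zero_eq_constantCoeff_apply, coeff_zero_eisSer]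

theorem coeff_one_eisSer (c : ℤ) (k : ℕ) : coeff 1 (eisSer A c k) = (c : A) := by
  simp [coeff_eisSer]

theorem map_eisSer (φ : A →+* B) (c : ℤ) (k : ℕ) :
    PowerSeries.map φ (eisSer A c k) = eisSer B c k := by
  ext n
  simp only [coeff_map, coeff_eisSer]
  split_ifs <;> simp

end EisSer

section Bridge

open UpperHalfPlane ModularForm EisensteinSeries Derivative
open Fermat.Agent.S24.H17 (IsQSum)
open Fermat.Agent.S28 (thetaOp thetaOp_coeff)
open scoped MatrixGroups

local notation "𝕢" => Function.Periodic.qParam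

/-- A convergent power series expansion in `q` gives an `IsQSum`. -/
theorem isQSum_ofPowerSeries {p : PowerSeries ℂ} {g : ℍ → ℂ}
    (h : ∀ τ : ℍ, HasSum (fun m : ℕ => coeff m p * 𝕢 1 (τ : ℂ) ^ m) (g τ)) :
    IsQSum (HahnSeries.ofPowerSeries ℤ ℂ p) g := by
  intro τ
  rw [Fermat.Agent.S24.H17.hasSum_int_iff_nat 0
    (F := fun n : ℤ => (HahnSeries.ofPowerSeries ℤ ℂ p).coeff n * 𝕢 1 (τ : ℂ) ^ n)
    (fun n hn => by
      have hn' : n < 0 := by simpa using hn
      simp [ModularCurve.ofPowerSeries_coeff_of_neg p hn'])]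
  have := h τ
  simpa [HahnSeries.ofPowerSeries_apply_coeff] using this

theorem ofPowerSeries_theta (p : PowerSeries ℂ) :
    HahnSeries.ofPowerSeries ℤ ℂ (theta p) = thetaOp (HahnSeries.ofPowerSeries ℤ ℂ p) := by
  ext n
  rw [thetaOp_coeff]
  rcases lt_or_ge n 0 with hn | hn
  · rw [ModularCurve.ofPowerSeries_coeff_of_neg _ hn, ModularCurve.ofPowerSeries_coeff_of_neg _ hn,
      mul_zero]
  · obtain ⟨m, rfl⟩ := Int.eq_ofNat_of_zero_le hn
    rw [HahnSeries.ofPowerSeries_apply_coeff, HahnSeries.ofPowerSeries_apply_coeff, coeff_theta]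
    simp

theorem isQSum_P : IsQSum (HahnSeries.ofPowerSeries ℤ ℂ (Pser ℂ)) E2 := by
  refine isQSum_ofPowerSeries fun τ => ?_
  have := hasSum_qExpansion_E2 (z := τ)
  have hq : 𝕢 1 (τ : ℂ) = Complex.exp (2 * Real.pi * Complex.I * τ) := by
    simp [Function.Periodic.qParam]
  convert this using 1
  funext m
  rw [coeff_eisSer, smul_eq_mul, hq]
  congr 1
  split_ifs with h
  · rfl
  · push_cast; rfl

theorem qExpansion_E₄ : qExpansion 1 E₄ = Qser ℂ := by
  ext m
  rw [E_qExpansion_coeff _ ⟨2, rfl⟩, coeff_eisSer,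
    show bernoulli 4 = -1 / 30 by decide +kernel]
  split_ifs
  · rfl
  · push_cast; ring

theorem qExpansion_E₆ : qExpansion 1 E₆ = Rser ℂ := by
  ext m
  rw [E_qExpansion_coeff _ ⟨3, rfl⟩, coeff_eisSer,
    show bernoulli 6 = 1 / 42 by decide +kernel]
  split_ifs
  · rfl
  · push_cast; ring

theorem isQSum_Q : IsQSum (HahnSeries.ofPowerSeries ℤ ℂ (Qser ℂ)) E₄ := by
  refine isQSum_ofPowerSeries fun τ => ?_
  rw [← qExpansion_E₄]
  haveI : Fact (IsCusp OnePoint.infty 𝒮ℒ) := ⟨Subgroup.isCusp_of_mem_strictPeriods one_pos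
    one_mem_strictPeriods_SL⟩
  exact ModularForm.hasSum_qExpansion (f := E₄) one_pos one_mem_strictPeriods_SL τ

theorem isQSum_R : IsQSum (HahnSeries.ofPowerSeries ℤ ℂ (Rser ℂ)) E₆ := by
  refine isQSum_ofPowerSeries fun τ => ?_
  rw [← qExpansion_E₆]
  haveI : Fact (IsCusp OnePoint.infty 𝒮ℒ) := ⟨Subgroup.isCusp_of_mem_strictPeriods one_pos
    one_mem_strictPeriods_SL⟩
  exact ModularForm.hasSum_qExpansion (f := E₆) one_pos one_mem_strictPeriods_SL τ

/-- Two power series summing to the same function are equal. -/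
theorem eq_of_isQSum {p₁ p₂ : PowerSeries ℂ} {g : ℍ → ℂ}
    (h₁ : IsQSum (HahnSeries.ofPowerSeries ℤ ℂ p₁) g)
    (h₂ : IsQSum (HahnSeries.ofPowerSeries ℤ ℂ p₂) g) : p₁ = p₂ :=
  HahnSeries.ofPowerSeries_injective (h₁.series_unique h₂)

theorem isQSum_C_mul (c : ℂ) {p : PowerSeries ℂ} {g : ℍ → ℂ}
    (h : IsQSum (HahnSeries.ofPowerSeries ℤ ℂ p) g) :
    IsQSum (HahnSeries.ofPowerSeries ℤ ℂ (C c * p)) (fun z => c * g z) := by
  have := (IsQSum.single_zero c).mul h
  rw [map_mul, HahnSeries.ofPowerSeries_C]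
  exact this

theorem isQSum_theta' {p : PowerSeries ℂ} {g : ℍ → ℂ}
    (h : IsQSum (HahnSeries.ofPowerSeries ℤ ℂ p) g) :
    IsQSum (HahnSeries.ofPowerSeries ℤ ℂ (theta p)) (D g) := by
  rw [ofPowerSeries_theta]
  exact Fermat.Agent.S28.H17.isQSum_theta h

theorem isQSum_mul' {p₁ p₂ : PowerSeries ℂ} {g₁ g₂ : ℍ → ℂ}
    (h₁ : IsQSum (HahnSeries.ofPowerSeries ℤ ℂ p₁) g₁)
    (h₂ : IsQSum (HahnSeries.ofPowerSeries ℤ ℂ p₂) g₂) :
    IsQSum (HahnSeries.ofPowerSeries ℤ ℂ (p₁ * p₂)) (g₁ * g₂) := by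
  rw [map_mul]; exact h₁.mul h₂

theorem isQSum_sub' {p₁ p₂ : PowerSeries ℂ} {g₁ g₂ : ℍ → ℂ}
    (h₁ : IsQSum (HahnSeries.ofPowerSeries ℤ ℂ p₁) g₁)
    (h₂ : IsQSum (HahnSeries.ofPowerSeries ℤ ℂ p₂) g₂) :
    IsQSum (HahnSeries.ofPowerSeries ℤ ℂ (p₁ - p₂)) (g₁ - g₂) := by
  rw [map_sub]; exact h₁.sub h₂

theorem ramanujan_Q_complex :
    C (3 : ℂ) * theta (Qser ℂ) = Pser ℂ * Qser ℂ - Rser ℂ := by
  refine eq_of_isQSum (isQSum_C_mul 3 (isQSum_theta' isQSum_Q)) ?_
  have h := isQSum_sub' (isQSum_mul' isQSum_P isQSum_Q) isQSum_R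
  convert h using 1
  funext z
  simp only [Pi.sub_apply, Pi.mul_apply]
  rw [Fermat.Agent.S24.H8.D_E₄]
  ring

theorem ramanujan_R_complex :
    C (2 : ℂ) * theta (Rser ℂ) = Pser ℂ * Rser ℂ - Qser ℂ * Qser ℂ := by
  refine eq_of_isQSum (isQSum_C_mul 2 (isQSum_theta' isQSum_R)) ?_
  have h := isQSum_sub' (isQSum_mul' isQSum_P isQSum_R) (isQSum_mul' isQSum_Q isQSum_Q)
  convert h using 1
  funext z
  simp only [Pi.sub_apply, Pi.mul_apply]
  rw [Fermat.Agent.S24.H8.D_E₆]
  ring

theorem ramanujan_P_complex :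
    C (12 : ℂ) * theta (Pser ℂ) = Pser ℂ * Pser ℂ - Qser ℂ := by
  refine eq_of_isQSum (isQSum_C_mul 12 (isQSum_theta' isQSum_P)) ?_
  have h := isQSum_sub' (isQSum_mul' isQSum_P isQSum_P) isQSum_Q
  convert h using 1
  funext z
  simp only [Pi.sub_apply, Pi.mul_apply]
  rw [D_E2]
  ring

end Bridge

section Formal

variable (A : Type*) [CommRing A]

theorem map_intCast_injective :
    Function.Injective (PowerSeries.map (Int.castRingHom ℂ)) := by
  intro f g h
  ext n
  have := congrArg (coeff n) h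
  simpa using this

theorem ramanujan_Q_int :
    C (3 : ℤ) * theta (Qser ℤ) = Pser ℤ * Qser ℤ - Rser ℤ := by
  apply map_intCast_injective
  simp only [map_mul, map_sub, map_theta, map_eisSer, map_C]
  exact ramanujan_Q_complex

theorem ramanujan_R_int :
    C (2 : ℤ) * theta (Rser ℤ) = Pser ℤ * Rser ℤ - Qser ℤ * Qser ℤ := by
  apply map_intCast_injective
  simp only [map_mul, map_sub, map_theta, map_eisSer, map_C]
  exact ramanujan_R_complex

theorem ramanujan_P_int :
    C (12 : ℤ) * theta (Pser ℤ) = Pser ℤ * Pser ℤ - Qser ℤ := by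
  apply map_intCast_injective
  simp only [map_mul, map_sub, map_theta, map_eisSer, map_C]
  exact ramanujan_P_complex

/-- Ramanujan: `3 θQ = PQ - R` over any commutative ring. -/
theorem ramanujan_Q : C (3 : A) * theta (Qser A) = Pser A * Qser A - Rser A := by
  have := congrArg (PowerSeries.map (Int.castRingHom A)) ramanujan_Q_int
  rw [map_mul, map_sub, map_mul, map_theta, map_eisSer, map_eisSer, map_eisSer,
    PowerSeries.map_C] at this
  simpa using this

/-- Ramanujan: `2 θR = PR - Q²` over any commutative ring. -/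
theorem ramanujan_R : C (2 : A) * theta (Rser A) = Pser A * Rser A - Qser A * Qser A := by
  have := congrArg (PowerSeries.map (Int.castRingHom A)) ramanujan_R_int
  rw [map_mul, map_sub, map_mul, map_mul, map_theta, map_eisSer, map_eisSer, map_eisSer,
    PowerSeries.map_C] at this
  simpa using this

/-- Ramanujan: `12 θP = P² - Q` over any commutative ring. -/
theorem ramanujan_P : C (12 : A) * theta (Pser A) = Pser A * Pser A - Qser A := by
  have := congrArg (PowerSeries.map (Int.castRingHom A)) ramanujan_P_int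
  rw [map_mul, map_sub, map_mul, map_theta, map_eisSer, map_eisSer,
    PowerSeries.map_C] at this
  simpa using this

end Formal

end Fermat.Agent.S16.H83
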