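import Fermat.Agent.S24.H8_Ramanujan

/-!
# Ramanujan's identity for `E₂`: `D E₂ = (E₂² - E₄) / 12`

(`D = (2πi)⁻¹ d/dτ`.)  The function `D E₂ - E₂² / 12` is invariant of weight `4` under `SL(2, ℤ)`
(the quasi-modular corrections cancel), holomorphic and bounded at `i∞`, hence a multiple of `E₄`;
the constant is read off at `i∞`.
-/

set_option autoImplicit false

open UpperHalfPlane hiding I
open Real Complex Filter Topology Function
open scoped Manifold MatrixGroups ModularForm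
open Derivative ModularForm EisensteinSeries

namespace Fermat.Agent.S16.H83

open Fermat.Agent.S24.H8

local notation "𝕢" => Periodic.qParam

/-- The function `D E₂ - E₂² / 12`. -/
noncomputable def ramG : ℍ → ℂ := fun z => D E2 z - 12⁻¹ * (E2 z * E2 z)

theorem mdiff_D2 (γ : SL(2, ℤ)) : MDiff (D2 γ) := by
  rw [UpperHalfPlane.mdifferentiable_iff]
  have h : DifferentiableOn ℂ (fun w : ℂ => (2 * π * I * (γ 1 0 : ℂ)) / denom γ w)
      upperHalfPlaneSet := by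
    intro w hw
    have hd : DifferentiableAt ℂ (fun z : ℂ => denom (γ : GL (Fin 2) ℝ) z) w := by
      have := (hasDerivAt_denom_zpow (γ : GL (Fin 2) ℝ) 1 ⟨w, hw⟩)
      simp only [zpow_one] at this
      exact this.differentiableAt
    exact ((differentiableAt_const _).div hd (denom_ne_zero _ ⟨w, hw⟩)).differentiableWithinAt
  refine h.congr fun w hw => ?_
  simp only [Function.comp_apply, ofComplex_apply_of_im_pos hw, D2]

theorem D_D2 (γ : SL(2, ℤ)) (z : ℍ) :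
    D (D2 γ) z = -((γ 1 0 : ℂ) ^ 2) / (denom γ z) ^ 2 := by
  have hz : denom (γ : GL (Fin 2) ℝ) (z : ℂ) ≠ 0 := denom_ne_zero _ z
  have h1 : HasDerivAt (fun w : ℂ => denom (γ : GL (Fin 2) ℝ) w ^ (-1 : ℤ))
      (((-1 : ℤ) : ℂ) * ((γ : GL (Fin 2) ℝ) 1 0 : ℝ) * denom (γ : GL (Fin 2) ℝ) z ^ ((-1 : ℤ) - 1))
      (z : ℂ) := hasDerivAt_denom_zpow (γ : GL (Fin 2) ℝ) (-1) z
  have h2 : HasDerivAt (fun w : ℂ => (2 * π * I * (γ 1 0 : ℂ)) *
      denom (γ : GL (Fin 2) ℝ) w ^ (-1 : ℤ))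
      ((2 * π * I * (γ 1 0 : ℂ)) * (((-1 : ℤ) : ℂ) * ((γ : GL (Fin 2) ℝ) 1 0 : ℝ) *
        denom (γ : GL (Fin 2) ℝ) z ^ ((-1 : ℤ) - 1))) (z : ℂ) := h1.const_mul _
  have heq : ((D2 γ) ∘ ofComplex) =ᶠ[𝓝 (z : ℂ)]
      (fun w : ℂ => (2 * π * I * (γ 1 0 : ℂ)) * denom (γ : GL (Fin 2) ℝ) w ^ (-1 : ℤ)) := by
    filter_upwards [isOpen_upperHalfPlaneSet.mem_nhds z.im_pos] with w hw
    simp only [Function.comp_apply, ofComplex_apply_of_im_pos hw, D2, zpow_neg_one]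
    rfl
  have hc : ((γ : GL (Fin 2) ℝ) 1 0 : ℝ) = ((γ 1 0 : ℤ) : ℝ) := by simp
  rw [normalizedDerivOfComplex, heq.deriv_eq, h2.deriv, hc]
  have h2pi : (2 * π * I : ℂ) ≠ 0 := two_pi_I_ne_zero
  rw [show ((-1 : ℤ) - 1) = -2 by norm_num, zpow_neg, zpow_ofNat]
  push_cast
  field_simp

theorem ramG_eq : ramG = D E2 - (12⁻¹ : ℂ) • (E2 * E2) := by
  ext z; simp [ramG]

theorem mdiff_ramG : MDiff ramG := by
  rw [ramG_eq]
  exact (normalizedDerivOfComplex_mdifferentiable E2_mdifferentiable).sub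
    ((E2_mdifferentiable.mul E2_mdifferentiable).const_smul _)

theorem ramG_slash (γ : SL(2, ℤ)) : ramG ∣[(4 : ℤ)] γ = ramG := by
  have hE : E2 ∣[(2 : ℤ)] γ = E2 - (1 / (2 * riemannZeta 2)) • D2 γ := E2_slash_action γ
  have hD := normalizedDerivOfComplex_SL_slash (k := 2) E2_mdifferentiable (γ := γ)
  ext z
  have h1 : (ramG ∣[(4 : ℤ)] γ) z =
      (D E2 ∣[(2 + 2 : ℤ)] γ) z - 12⁻¹ * ((E2 ∣[(2 : ℤ)] γ) z * (E2 ∣[(2 : ℤ)] γ) z) := by
    have hm := congrFun (ModularForm.mul_slash_SL2 2 2 γ E2 E2) z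
    simp only [Pi.mul_apply] at hm
    rw [← hm]
    simp only [ModularForm.SL_slash_apply, ramG, Pi.mul_apply]
    norm_num
    ring
  have hDz : D (E2 ∣[(2 : ℤ)] γ) z = (D E2 ∣[(2 + 2 : ℤ)] γ) z -
      (((2 : ℤ) : ℂ) * (2 * π * I)⁻¹ * ((γ 1 0 : ℂ) / denom γ z) * (E2 ∣[(2 : ℤ)] γ) z) := by
    have := congrFun hD z
    simpa using this
  have hDz' : D (E2 ∣[(2 : ℤ)] γ) z =
      D E2 z - (1 / (2 * riemannZeta 2)) * D (D2 γ) z := by
    rw [hE, normalizedDerivOfComplex_sub _ _ E2_mdifferentiable ((mdiff_D2 γ).const_smul _),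
      normalizedDerivOfComplex_smul _ _ (mdiff_D2 γ)]
    simp
  have hEz : (E2 ∣[(2 : ℤ)] γ) z = E2 z - 1 / (2 * riemannZeta 2) * D2 γ z := by
    rw [hE]; simp
  have hz : denom (γ : GL (Fin 2) ℝ) (z : ℂ) ≠ 0 := denom_ne_zero _ z
  have hpi : (π : ℂ) ≠ 0 := by exact_mod_cast Real.pi_ne_zero
  rw [h1]
  have key : (D E2 ∣[(2 + 2 : ℤ)] γ) z = D E2 z - (1 / (2 * riemannZeta 2)) * D (D2 γ) z +
      (((2 : ℤ) : ℂ) * (2 * π * I)⁻¹ * ((γ 1 0 : ℂ) / denom γ z) * (E2 ∣[(2 : ℤ)] γ) z) := by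
    rw [← hDz', hDz]; ring
  rw [key, hEz, D_D2, riemannZeta_two]
  simp only [ramG, D2]
  have hI : (I : ℂ) ^ 2 = -1 := I_sq
  field_simp
  ring_nf
  linear_combination (-(72 : ℂ) * I * (γ 1 0 : ℂ) ^ 2 +
    24 * (π : ℂ) * denom (γ : GL (Fin 2) ℝ) (z : ℂ) * (γ 1 0 : ℂ) * E2 z) * hI

theorem isBoundedAtImInfty_ramG : IsBoundedAtImInfty ramG := by
  have h1 : IsBoundedAtImInfty (D E2) :=
    (isZeroAtImInfty_normalizedDeriv E2_periodic E2_mdifferentiable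
      isBoundedAtImInfty_E2).isBoundedAtImInfty
  have h2 : IsBoundedAtImInfty (fun z => (12⁻¹ : ℂ) * (E2 z * E2 z)) := by
    have hc : IsBoundedAtImInfty (fun _ : ℍ => (12⁻¹ : ℂ)) := const_boundedAtFilter _ _
    exact hc.mul (isBoundedAtImInfty_E2.mul isBoundedAtImInfty_E2)
  exact h1.sub h2

/-- `D E₂ - E₂² / 12` as a modular form of weight `4` and level one. -/
noncomputable def ramGForm : ModularForm 𝒮ℒ 4 where
  toFun := ramG
  slash_action_eq' := by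
    rintro _ ⟨γ, rfl⟩
    exact ramG_slash γ
  holo' := mdiff_ramG
  bdd_at_cusps' {c} hc := by
    rw [Subgroup.IsArithmetic.isCusp_iff_isCusp_SL2Z] at hc
    rw [OnePoint.isBoundedAt_iff_forall_SL2Z hc]
    intro γ _
    have : ramG ∣[(4 : ℤ)] γ = ramG := ramG_slash γ
    rw [this]
    exact isBoundedAtImInfty_ramG

@[simp] theorem ramGForm_apply (z : ℍ) : ramGForm z = D E2 z - 12⁻¹ * (E2 z * E2 z) := rfl

theorem tendsto_ramGForm : Tendsto ramGForm atImInfty (𝓝 (-(12⁻¹ : ℂ))) := by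
  have hD : Tendsto (D E2) atImInfty (𝓝 0) :=
    isZeroAtImInfty_normalizedDeriv E2_periodic E2_mdifferentiable isBoundedAtImInfty_E2
  have h2 : Tendsto (fun z => (12⁻¹ : ℂ) * (E2 z * E2 z)) atImInfty (𝓝 (12⁻¹ * (1 * 1))) :=
    tendsto_const_nhds.mul (tendsto_E2_atImInfty.mul tendsto_E2_atImInfty)
  have := hD.sub h2
  simp only [mul_one, zero_sub] at this
  exact this.congr fun z => (ramGForm_apply z).symm

/-- Ramanujan: `D E₂ = (E₂² - E₄) / 12`. -/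
theorem D_E2 (z : ℍ) : D E2 z = (E2 z ^ 2 - E₄ z) / 12 := by
  have key := eq_smul_of_rank_one levelOne_weight_four_rank_one ramGForm E₄
    tendsto_ramGForm tendsto_E₄_atImInfty one_ne_zero
  have := congrArg (fun f : ModularForm 𝒮ℒ 4 => f z) key
  simp only [smul_apply, smul_eq_mul, ramGForm_apply] at this
  linear_combination this

end Fermat.Agent.S16.H83
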