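import Mathlib
import Fermat.Agent.S16.H95_LevelOneStructure

set_option autoImplicit false

/-!
# S16 / (U5a) `E_{l-1} ≡ 1 mod l` over a local subring of `ℂ`

`helper95`.  `𝒪 ⊆ ℂ` a local subring with `l ∈ 𝔪`, `l ≥ 5` prime.  By von Staudt–Clausen
(`Bernoulli.vonStaudt_clausen`) the q-expansion of `E_{l-1}` has coefficients in `𝒪`, constant term
`1`, and all higher coefficients in `𝔪`.  Hence (structure theorem) there is an isobaric
`A ∈ 𝒪[X,Y]` of weight `l - 1` whose reduction `Ã` has `ev Ã = 1` (the Hasse invariant).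
-/

noncomputable section

namespace Fermat.Agent.S16.H95

open UpperHalfPlane ModularForm EisensteinSeries MatrixGroups ModularFormClass MvPolynomial

section LocalSubring

variable {l : ℕ} {𝒪 : Subring ℂ} [IsLocalRing 𝒪]

theorem natCast_notMem_of_coprime (hl𝒪 : (l : 𝒪) ∈ IsLocalRing.maximalIdeal 𝒪) {m : ℕ}
    (hm : Nat.Coprime m l) : (m : 𝒪) ∉ IsLocalRing.maximalIdeal 𝒪 := by
  intro hmem
  obtain ⟨a, b, hab⟩ := Nat.isCoprime_iff_coprime.mpr hm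
  have h1 : ((a : 𝒪) * (m : 𝒪) + (b : 𝒪) * (l : 𝒪)) = 1 := by
    have := congrArg (Int.cast : ℤ → 𝒪) hab
    push_cast at this
    exact this
  have h2 : (1 : 𝒪) ∈ IsLocalRing.maximalIdeal 𝒪 := by
    rw [← h1]
    exact Ideal.add_mem _ (Ideal.mul_mem_left _ _ hmem) (Ideal.mul_mem_left _ _ hl𝒪)
  exact (Ideal.ne_top_iff_one _).mp (IsLocalRing.maximalIdeal.isMaximal 𝒪).ne_top h2

theorem isUnit_natCast_of_coprime (hl𝒪 : (l : 𝒪) ∈ IsLocalRing.maximalIdeal 𝒪) {m : ℕ}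
    (hm : Nat.Coprime m l) : IsUnit (m : 𝒪) := by
  by_contra h
  exact natCast_notMem_of_coprime hl𝒪 hm ((IsLocalRing.mem_maximalIdeal _).mpr h)

omit [IsLocalRing 𝒪] in
/-- the inverse in `ℂ` of a unit of `𝒪` lies in `𝒪`. -/
theorem inv_mem_of_isUnit {x : 𝒪} (hx : IsUnit x) : ((x : ℂ))⁻¹ ∈ 𝒪 := by
  obtain ⟨u, rfl⟩ := hx
  have h1 : ((↑u⁻¹ : 𝒪) : ℂ) * ((u : 𝒪) : ℂ) = 1 := by
    rw [← Subring.coe_mul, Units.inv_mul, Subring.coe_one]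
  have h2 : (((u : 𝒪) : ℂ))⁻¹ = ((↑u⁻¹ : 𝒪) : ℂ) := inv_eq_of_mul_eq_one_left h1
  rw [h2]
  exact (↑u⁻¹ : 𝒪).2

theorem inv_natCast_mem (hl𝒪 : (l : 𝒪) ∈ IsLocalRing.maximalIdeal 𝒪) {m : ℕ}
    (hm : Nat.Coprime m l) : ((m : ℂ))⁻¹ ∈ 𝒪 := by
  have := inv_mem_of_isUnit (isUnit_natCast_of_coprime hl𝒪 hm)
  simpa using this

theorem isUnit_six_of_five_le [Fact l.Prime] (hl : 5 ≤ l)
    (hl𝒪 : (l : 𝒪) ∈ IsLocalRing.maximalIdeal 𝒪) : IsUnit (6 : 𝒪) := by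
  have hp : l.Prime := Fact.out
  have hcop : Nat.Coprime 6 l := by
    rw [Nat.coprime_comm, Nat.Prime.coprime_iff_not_dvd hp]
    intro hdvd
    have h6 : l ≤ 6 := Nat.le_of_dvd (by norm_num) hdvd
    interval_cases l
    · norm_num at hdvd
    · norm_num at hp
  have := isUnit_natCast_of_coprime hl𝒪 hcop
  simpa using this

end LocalSubring

section Bernoulli

variable {l : ℕ} [Fact l.Prime]

/-- von Staudt–Clausen at `l - 1`: `-l B_{l-1} = 1 + l (∑_{p ∈ S} 1/p - n)` with all `p ∈ S`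
prime to `l`. -/
theorem bernoulli_pred_prime (hl : 3 ≤ l) :
    ∃ (S : Finset ℕ) (n : ℤ), (∀ p ∈ S, Nat.Coprime p l) ∧
      -(l : ℚ) * bernoulli (l - 1) = 1 + l * (∑ p ∈ S, ((p : ℚ))⁻¹ - n) := by
  have hp : l.Prime := Fact.out
  have hodd : Odd l := hp.odd_of_ne_two (by omega)
  obtain ⟨t, ht⟩ := hodd
  have h2 : 2 * t = l - 1 := by omega
  obtain ⟨n, hn⟩ := Bernoulli.vonStaudt_clausen t
  rw [h2] at hn
  set T := (Finset.range (l - 1 + 2)).filter (fun p => p.Prime ∧ (p - 1) ∣ l - 1) with hT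
  have hlT : l ∈ T := by
    rw [hT, Finset.mem_filter, Finset.mem_range]
    exact ⟨by omega, hp, dvd_rfl⟩
  refine ⟨T.erase l, n, ?_, ?_⟩
  · intro p hpS
    rw [Finset.mem_erase, hT, Finset.mem_filter] at hpS
    exact (Nat.coprime_primes hpS.2.2.1 hp).mpr hpS.1
  · have hsum : ∑ p ∈ T, (1 : ℚ) / p = 1 / l + ∑ p ∈ T.erase l, (1 : ℚ) / p :=
      (Finset.add_sum_erase T (fun p => (1 : ℚ) / p) hlT).symm
    rw [hsum] at hn
    have hl0 : (l : ℚ) ≠ 0 := Nat.cast_ne_zero.mpr hp.ne_zero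
    have hB : bernoulli (l - 1) = n - 1 / l - ∑ p ∈ T.erase l, (1 : ℚ) / p := by
      linarith
    rw [hB]
    simp only [one_div]
    field_simp
    ring

end Bernoulli

section Hasse

variable {l : ℕ} [Fact l.Prime] {𝒪 : Subring ℂ} [IsLocalRing 𝒪]

/-- the coefficient `-(2(l-1)/B_{l-1})` of `E_{l-1}` lies in `𝔪`. -/
theorem exists_hasse_coeff (hl : 5 ≤ l) (hl𝒪 : (l : 𝒪) ∈ IsLocalRing.maximalIdeal 𝒪) :
    ∃ c : 𝒪, c ∈ IsLocalRing.maximalIdeal 𝒪 ∧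
      (c : ℂ) = -(2 * ((l - 1 : ℕ) : ℂ) / ((bernoulli (l - 1) : ℚ) : ℂ)) := by
  have hp : l.Prime := Fact.out
  obtain ⟨S, n, hS, hB⟩ := bernoulli_pred_prime (l := l) (by omega)
  have hBc : -(l : ℂ) * ((bernoulli (l - 1) : ℚ) : ℂ) =
      1 + l * (∑ p ∈ S, ((p : ℂ))⁻¹ - n) := by
    have := congrArg (fun q : ℚ => (q : ℂ)) hB
    push_cast at this
    exact this
  have hr : (∑ p ∈ S, ((p : ℂ))⁻¹ - n) ∈ 𝒪 :=
    Subring.sub_mem _ (Subring.sum_mem _ fun p hp => inv_natCast_mem hl𝒪 (hS p hp))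
      (intCast_mem 𝒪 n)
  set r' : 𝒪 := ⟨_, hr⟩ with hr'
  set u' : 𝒪 := 1 + (l : 𝒪) * r' with hu'def
  have hu' : IsUnit u' := by
    by_contra h
    have hmem : u' ∈ IsLocalRing.maximalIdeal 𝒪 := (IsLocalRing.mem_maximalIdeal _).mpr h
    have h1 : (1 : 𝒪) ∈ IsLocalRing.maximalIdeal 𝒪 := by
      have : (1 : 𝒪) = u' - (l : 𝒪) * r' := by rw [hu'def]; ring
      rw [this]
      exact Ideal.sub_mem _ hmem (Ideal.mul_mem_right _ _ hl𝒪)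
    exact (Ideal.ne_top_iff_one _).mp (IsLocalRing.maximalIdeal.isMaximal 𝒪).ne_top h1
  have hv := inv_mem_of_isUnit hu'
  refine ⟨(l : 𝒪) * (2 * ((l - 1 : ℕ) : 𝒪) * ⟨_, hv⟩), Ideal.mul_mem_right _ _ hl𝒪, ?_⟩
  have hu'c : (u' : ℂ) = -(l : ℂ) * ((bernoulli (l - 1) : ℚ) : ℂ) := by
    rw [hBc, hu'def, hr']
    push_cast
    rfl
  have hu0 : (u' : ℂ) ≠ 0 := by
    intro h0
    have : u' = 0 := Subtype.ext h0
    rw [this] at hu'
    exact not_isUnit_zero hu'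
  have hl0 : (l : ℂ) ≠ 0 := Nat.cast_ne_zero.mpr hp.ne_zero
  have hB0 : ((bernoulli (l - 1) : ℚ) : ℂ) ≠ 0 := by
    intro h0
    rw [h0, mul_zero] at hu'c
    exact hu0 hu'c
  push_cast
  rw [hu'c]
  field_simp
  have h2 : (((2 : 𝒪)) : ℂ) = 2 := rfl
  rw [h2]
  ring

/-- the Hasse form `E_{l-1}`. -/
def hasseForm (hl : 5 ≤ l) : ModularForm 𝒮ℒ ((l - 1 : ℕ) : ℤ) := E (k := l - 1) (by omega)

theorem even_pred (hl : 5 ≤ l) : Even (l - 1) := by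
  have hp : l.Prime := Fact.out
  obtain ⟨t, ht⟩ := hp.odd_of_ne_two (by omega)
  exact ⟨t, by omega⟩

theorem coeff_zero_hasseForm (hl : 5 ≤ l) :
    PowerSeries.coeff 0 (qExpansion 1 (hasseForm hl)) = 1 :=
  E_qExpansion_coeff_zero _ (even_pred hl)

theorem exists_coeff_hasseForm (hl : 5 ≤ l) (hl𝒪 : (l : 𝒪) ∈ IsLocalRing.maximalIdeal 𝒪) :
    ∃ c : 𝒪, c ∈ IsLocalRing.maximalIdeal 𝒪 ∧ ∀ n : ℕ, n ≠ 0 →
      PowerSeries.coeff n (qExpansion 1 (hasseForm hl)) =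
        (c : ℂ) * (ArithmeticFunction.sigma (l - 1 - 1) n : ℂ) := by
  obtain ⟨c, hc, hcc⟩ := exists_hasse_coeff hl hl𝒪
  refine ⟨c, hc, fun n hn => ?_⟩
  rw [hasseForm, E_qExpansion_coeff _ (even_pred hl), if_neg hn, hcc]

theorem coeff_hasseForm_mem (hl : 5 ≤ l) (hl𝒪 : (l : 𝒪) ∈ IsLocalRing.maximalIdeal 𝒪) (n : ℕ) :
    PowerSeries.coeff n (qExpansion 1 (hasseForm hl)) ∈ 𝒪 := by
  rcases Nat.eq_zero_or_pos n with rfl | hn
  · rw [coeff_zero_hasseForm]; exact 𝒪.one_mem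
  · obtain ⟨c, -, hcn⟩ := exists_coeff_hasseForm hl hl𝒪
    rw [hcn n hn.ne']
    exact 𝒪.mul_mem c.2 (natCast_mem 𝒪 _)

theorem coeff_hasseForm_mem_maximalIdeal (hl : 5 ≤ l)
    (hl𝒪 : (l : 𝒪) ∈ IsLocalRing.maximalIdeal 𝒪) (n : ℕ) (hn : 1 ≤ n) :
    (⟨_, coeff_hasseForm_mem hl hl𝒪 n⟩ : 𝒪) ∈ IsLocalRing.maximalIdeal 𝒪 := by
  obtain ⟨c, hc, hcn⟩ := exists_coeff_hasseForm hl hl𝒪
  have : (⟨_, coeff_hasseForm_mem hl hl𝒪 n⟩ : 𝒪) =
      c * ((ArithmeticFunction.sigma (l - 1 - 1) n : ℕ) : 𝒪) := by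
    apply Subtype.ext
    rw [Subring.coe_mul, Subring.coe_natCast]
    exact hcn n (by omega)
  rw [this]
  exact Ideal.mul_mem_right _ _ hc

/-- **reduction of a level-one form that is constant mod `𝔪`**: the reduction of its isobaric
polynomial has constant q-series. -/
theorem exists_isobaric_residue_of_const (h6 : IsUnit (6 : 𝒪)) (k : ℕ)
    (f : ModularForm 𝒮ℒ (k : ℤ)) (hf : ∀ n, PowerSeries.coeff n (qExpansion 1 f) ∈ 𝒪)
    (hpos : ∀ n, 1 ≤ n → (⟨_, hf n⟩ : 𝒪) ∈ IsLocalRing.maximalIdeal 𝒪) :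
    ∃ P : MvPolynomial (Fin 2) (IsLocalRing.ResidueField 𝒪), P.IsWeightedHomogeneous wt k ∧
      ev _ P = PowerSeries.C (IsLocalRing.residue 𝒪 ⟨_, hf 0⟩) := by
  obtain ⟨P, hP, hPq⟩ := exists_isobaric_of_coeff_mem 𝒪 h6 k f hf
  refine ⟨MvPolynomial.map (IsLocalRing.residue 𝒪) P, isWeightedHomogeneous_map _ hP, ?_⟩
  rw [ev_map]
  ext n
  rw [PowerSeries.coeff_map, PowerSeries.coeff_C]
  have hc : PowerSeries.coeff n (ev 𝒪 P) = ⟨_, hf n⟩ := by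
    apply Subtype.ext
    have := congrArg (PowerSeries.coeff n) hPq
    rw [PowerSeries.coeff_map] at this
    exact this.symm
  rw [hc]
  split_ifs with h0
  · subst h0; rfl
  · exact (IsLocalRing.residue_eq_zero_iff _).mpr (hpos n (by omega))

/-- **the Hasse invariant**: an isobaric `Ã` of weight `l - 1` over the residue field with
`ev Ã = 1`. -/
theorem exists_hasse (hl : 5 ≤ l) (hl𝒪 : (l : 𝒪) ∈ IsLocalRing.maximalIdeal 𝒪) :
    ∃ A : MvPolynomial (Fin 2) (IsLocalRing.ResidueField 𝒪),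
      A.IsWeightedHomogeneous wt (l - 1) ∧ ev _ A = 1 := by
  obtain ⟨A, hA, hAev⟩ := exists_isobaric_residue_of_const (isUnit_six_of_five_le hl hl𝒪)
    (l - 1) (hasseForm hl) (coeff_hasseForm_mem hl hl𝒪)
    (coeff_hasseForm_mem_maximalIdeal hl hl𝒪)
  refine ⟨A, hA, ?_⟩
  rw [hAev]
  have : (⟨_, coeff_hasseForm_mem hl hl𝒪 0⟩ : 𝒪) = 1 :=
    Subtype.ext (coeff_zero_hasseForm hl)
  rw [this, map_one, map_one]

end Hasse

end Fermat.Agent.S16.H95
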