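import Mathlib
import Fermat.Agent.S16.H95_Isobaric

set_option autoImplicit false

/-!
# S16 / (U5a) weak Swinnerton-Dyer, algebra part (helper39's shortcut #2221)

`helper95`.  `κ` a field with `6 ≠ 0`, `A ∈ κ[X,Y]` isobaric of weight `L ≥ 4` (weights `4, 6`)
with `ev A = 1` (the Hasse invariant).  Then there is a FIXED `D ≥ 4`, `D ∣ L`, dividing the weight
of every isobaric `F` whose q-series `ev F` is a nonzero constant.

Method: `F^L = c^L A^k` (injectivity of `ev` on isobaric pieces), UFD multiplicities at an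
irreducible factor `π` of `A`, and the weight bound `4 · mult_π(A) ≤ L` obtained from the
substitution `X ↦ X T⁴`, `Y ↦ Y T⁶` into `κ[X,Y][T]`.
-/

noncomputable section

namespace Fermat.Agent.S16.H95

open MvPolynomial

section WSub

variable (R : Type*) [CommRing R]

/-- the weight substitution `X ↦ X T⁴`, `Y ↦ Y T⁶`. -/
def wSub : MvPolynomial (Fin 2) R →ₐ[R] Polynomial (MvPolynomial (Fin 2) R) :=
  MvPolynomial.aeval (fun i => Polynomial.C (X i) * Polynomial.X ^ (wt i))

variable {R}

theorem wSub_monomial (s : Fin 2 →₀ ℕ) (c : R) :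
    wSub R (monomial s c) = Polynomial.monomial (Finsupp.weight wt s) (monomial s c) := by
  rw [wSub, aeval_monomial, Finsupp.prod_fintype _ _ (fun i => by simp), Fin.prod_univ_two,
    weight_eq, monomial_eq_C_mul, ← Polynomial.C_mul_X_pow_eq_monomial]
  simp only [wt, Matrix.cons_val_zero, Matrix.cons_val_one, mul_pow, ← pow_mul,
    Polynomial.algebraMap_apply, MvPolynomial.algebraMap_eq, map_mul, map_pow, pow_add]
  ring

theorem coeff_coeff_wSub (P : MvPolynomial (Fin 2) R) (j : ℕ) (s : Fin 2 →₀ ℕ) :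
    MvPolynomial.coeff s (Polynomial.coeff (wSub R P) j) =
      if Finsupp.weight wt s = j then MvPolynomial.coeff s P else 0 := by
  induction P using MvPolynomial.induction_on' with
  | monomial u a =>
    rw [wSub_monomial, Polynomial.coeff_monomial]
    by_cases hus : u = s
    · subst hus
      by_cases hj : Finsupp.weight wt u = j
      · simp [hj]
      · simp [hj]
    · by_cases hj : Finsupp.weight wt u = j
      · simp [hj, hus]
      · simp [hj, hus]
  | add p q hp hq =>
    rw [map_add, Polynomial.coeff_add, MvPolynomial.coeff_add, hp, hq, MvPolynomial.coeff_add]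
    split_ifs <;> simp

theorem wSub_of_isobaric {P : MvPolynomial (Fin 2) R} {w : ℕ}
    (hP : P.IsWeightedHomogeneous wt w) : wSub R P = Polynomial.monomial w P := by
  ext j s
  rw [coeff_coeff_wSub, Polynomial.coeff_monomial]
  by_cases hs : MvPolynomial.coeff s P = 0
  · split_ifs <;> simp [hs]
  · have hw : Finsupp.weight wt s = w := hP hs
    rw [hw]
    split_ifs <;> simp

theorem eq_C_of_natDegree_wSub_lt {P : MvPolynomial (Fin 2) R}
    (h : (wSub R P).natDegree < 4) : P = C (MvPolynomial.coeff 0 P) := by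
  ext s
  by_cases hs : s = 0
  · subst hs; simp
  · have hw : 4 ≤ Finsupp.weight wt s := by
      rw [weight_eq]
      have : s 0 ≠ 0 ∨ s 1 ≠ 0 := by
        by_contra hcon
        push Not at hcon
        apply hs
        ext i
        fin_cases i
        · exact hcon.1
        · exact hcon.2
      omega
    have h0 : Polynomial.coeff (wSub R P) (Finsupp.weight wt s) = 0 :=
      Polynomial.coeff_eq_zero_of_natDegree_lt (lt_of_lt_of_le h hw)
    have h1 := coeff_coeff_wSub P (Finsupp.weight wt s) s
    rw [h0, if_pos rfl, MvPolynomial.coeff_zero] at h1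
    rw [← h1, MvPolynomial.coeff_C, if_neg (Ne.symm hs)]

end WSub

section Field

variable {κ : Type*} [Field κ]

/-- **weight bound**: a non-unit `π` with `π^m ∣ A`, `A ≠ 0` isobaric of weight `w`, has
`4 m ≤ w`. -/
theorem four_mul_le_of_pow_dvd {π A : MvPolynomial (Fin 2) κ} {m w : ℕ} (hπ : ¬ IsUnit π)
    (hA : A.IsWeightedHomogeneous wt w) (hA0 : A ≠ 0) (hdvd : π ^ m ∣ A) : 4 * m ≤ w := by
  rcases Nat.eq_zero_or_pos m with rfl | hm
  · omega
  have hπ0 : π ≠ 0 := by
    rintro rfl
    rw [zero_pow hm.ne', zero_dvd_iff] at hdvd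
    exact hA0 hdvd
  have h1 : wSub κ π ^ m ∣ wSub κ A := by
    rw [← map_pow]; exact map_dvd (wSub κ) hdvd
  have hA' : wSub κ A = Polynomial.monomial w A := wSub_of_isobaric hA
  have hne : wSub κ A ≠ 0 := by
    rw [hA']
    intro h
    exact hA0 ((Polynomial.monomial_eq_zero_iff _ _).mp h)
  have h2 := Polynomial.natDegree_le_of_dvd h1 hne
  rw [Polynomial.natDegree_pow, hA', Polynomial.natDegree_monomial_eq w hA0] at h2
  have h4 : 4 ≤ (wSub κ π).natDegree := by
    by_contra hlt
    push Not at hlt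
    have hC := eq_C_of_natDegree_wSub_lt hlt
    apply hπ
    rw [hC]
    have hc0 : MvPolynomial.coeff 0 π ≠ 0 := by
      intro h0
      rw [h0, C_0] at hC
      exact hπ0 hC
    exact (isUnit_iff_ne_zero.mpr hc0).map C
  calc 4 * m ≤ (wSub κ π).natDegree * m := Nat.mul_le_mul_right m h4
    _ = m * (wSub κ π).natDegree := Nat.mul_comm _ _
    _ ≤ w := h2

theorem not_isUnit_of_isobaric {A : MvPolynomial (Fin 2) κ} {w : ℕ} (hw : 0 < w)
    (hA : A.IsWeightedHomogeneous wt w) (hA0 : A ≠ 0) : ¬ IsUnit A := by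
  intro hu
  have h1 : IsUnit (wSub κ A) := hu.map (wSub κ)
  have h2 := Polynomial.natDegree_eq_zero_of_isUnit h1
  rw [wSub_of_isobaric hA, Polynomial.natDegree_monomial_eq w hA0] at h2
  omega

/-- **the UFD count.** -/
theorem exists_uniform_divisor (h6 : (6 : κ) ≠ 0) {L : ℕ} (hL : 4 ≤ L)
    {A : MvPolynomial (Fin 2) κ} (hA : A.IsWeightedHomogeneous wt L) (hAev : ev κ A = 1) :
    ∃ D : ℕ, 4 ≤ D ∧ D ∣ L ∧ ∀ (k : ℕ) (F : MvPolynomial (Fin 2) κ),
      F.IsWeightedHomogeneous wt k → (∃ c : κ, c ≠ 0 ∧ ev κ F = PowerSeries.C c) → D ∣ k := by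
  have hA0 : A ≠ 0 := by
    rintro rfl
    rw [map_zero] at hAev
    exact zero_ne_one hAev
  have hAu : ¬ IsUnit A := not_isUnit_of_isobaric (by omega) hA hA0
  obtain ⟨π, hπirr, hπA⟩ := WfDvdMonoid.exists_irreducible_factor hAu hA0
  have hπ : Prime π := hπirr.prime
  have hfinA : FiniteMultiplicity π A := FiniteMultiplicity.of_prime_left hπ hA0
  set m := multiplicity π A with hm
  have hmpos : 0 < m := multiplicity_pos_of_dvd hπA
  have hmdvd : π ^ m ∣ A := pow_multiplicity_dvd π A
  have hbound : 4 * m ≤ L := four_mul_le_of_pow_dvd hπ.not_isUnit hA hA0 hmdvd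
  set g := Nat.gcd L m with hg
  have hgpos : 0 < g := Nat.gcd_pos_of_pos_right _ hmpos
  have hgm : g ≤ m := Nat.le_of_dvd hmpos (Nat.gcd_dvd_right _ _)
  refine ⟨L / g, ?_, Nat.div_dvd_of_dvd (Nat.gcd_dvd_left _ _), ?_⟩
  · rw [Nat.le_div_iff_mul_le hgpos]
    calc 4 * g ≤ 4 * m := Nat.mul_le_mul_left 4 hgm
      _ ≤ L := hbound
  · rintro k F hF ⟨c, hc, hFev⟩
    have hF0 : F ≠ 0 := by
      rintro rfl
      rw [map_zero] at hFev
      have := congrArg (PowerSeries.coeff 0) hFev
      rw [map_zero, PowerSeries.coeff_zero_C] at this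
      exact hc this.symm
    have heq : F ^ L = C (c ^ L) * A ^ k := by
      have h1 : (F ^ L).IsWeightedHomogeneous wt (L * k) := by
        have := hF.pow L
        simpa [smul_eq_mul] using this
      have h2 : (C (c ^ L) * A ^ k).IsWeightedHomogeneous wt (L * k) := by
        have := (hA.pow k).C_mul (c ^ L)
        simpa [smul_eq_mul, mul_comm] using this
      refine ev_eq_of_isobaric h6 h1 h2 ?_
      rw [map_pow, hFev, map_mul, ev_C, map_pow (ev κ), hAev, one_pow, mul_one, map_pow]
    have hfinF : FiniteMultiplicity π F := FiniteMultiplicity.of_prime_left hπ hF0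
    have hCu : IsUnit (C (c ^ L) : MvPolynomial (Fin 2) κ) :=
      (isUnit_iff_ne_zero.mpr (pow_ne_zero L hc)).map C
    have e1 : emultiplicity π (F ^ L) = L * multiplicity π F := by
      rw [emultiplicity_pow hπ, hfinF.emultiplicity_eq_multiplicity]
    have e2 : emultiplicity π (C (c ^ L) * A ^ k) = k * m := by
      rw [emultiplicity_mul hπ, emultiplicity_of_isUnit_right hπ.not_isUnit hCu, zero_add,
        emultiplicity_pow hπ, hfinA.emultiplicity_eq_multiplicity]
    rw [heq, e2] at e1
    have e3 : k * m = L * multiplicity π F := by exact_mod_cast e1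
    -- `L / g ∣ k`
    obtain ⟨L', hL'⟩ : g ∣ L := Nat.gcd_dvd_left _ _
    obtain ⟨m', hm'⟩ : g ∣ m := Nat.gcd_dvd_right _ _
    have hcop : Nat.Coprime L' m' := by
      have := Nat.coprime_div_gcd_div_gcd (m := L) (n := m) hgpos
      rwa [← hg, show L / g = L' by rw [hL', Nat.mul_div_cancel_left _ hgpos],
        show m / g = m' by rw [hm', Nat.mul_div_cancel_left _ hgpos]] at this
    have hLg : L / g = L' := by rw [hL', Nat.mul_div_cancel_left _ hgpos]
    rw [hLg]
    have e4 : L' ∣ k * m' := by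
      have : g * (k * m') = g * (L' * multiplicity π F) := by
        calc g * (k * m') = k * (g * m') := by ring
          _ = k * m := by rw [← hm']
          _ = L * multiplicity π F := e3
          _ = g * (L' * multiplicity π F) := by rw [hL']; ring
      exact ⟨_, Nat.eq_of_mul_eq_mul_left hgpos this⟩
    exact hcop.dvd_of_dvd_mul_right e4

end Field

end Fermat.Agent.S16.H95
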