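import Mathlib
import Fermat.Agent.S16.H95_Hasse
import Fermat.Agent.S16.H95_SwdAlgebra

set_option autoImplicit false

/-!
# S16 / (U5a) the weak Swinnerton-Dyer weight lemma at level one

`helper95` (helper39's shortcut #2221).  `l ≥ 5` prime, `𝒪 ⊆ ℂ` a local subring with `l ∈ 𝔪`.
There is a FIXED `D ≥ 4`, `D ∣ l - 1`, dividing the weight of every level-one form with
coefficients in `𝒪` that is a unit constant mod `𝔪` (`swd_weak`), and the consumer shape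
`count_sparse` (`∃ d, 1 < d ∧ ¬ l ∣ d ∧ 2 d ∣ k`).
-/

noncomputable section

namespace Fermat.Agent.S16.H95

open UpperHalfPlane ModularForm EisensteinSeries MatrixGroups ModularFormClass MvPolynomial

theorem coeff_zero_notMem_imp_ne_zero {𝒪 : Subring ℂ} [IsLocalRing 𝒪] {k : ℤ}
    (f : ModularForm 𝒮ℒ k) (hf : ∀ n, PowerSeries.coeff n (qExpansion 1 f) ∈ 𝒪)
    (h0 : (⟨_, hf 0⟩ : 𝒪) ∉ IsLocalRing.maximalIdeal 𝒪) : (f : ℍ → ℂ) ≠ 0 := by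
  intro hz
  apply h0
  have h1 : PowerSeries.coeff 0 (qExpansion 1 f) = 0 := by
    rw [hz, UpperHalfPlane.qExpansion_zero, map_zero]
  have h2 : (⟨_, hf 0⟩ : 𝒪) = 0 := Subtype.ext h1
  rw [h2]
  exact zero_mem _

/-- **weak Swinnerton-Dyer.** -/
theorem swd_weak (l : ℕ) [Fact l.Prime] (hl : 5 ≤ l) (𝒪 : Subring ℂ) [IsLocalRing 𝒪]
    (hl𝒪 : (l : 𝒪) ∈ IsLocalRing.maximalIdeal 𝒪) :
    ∃ D : ℕ, 4 ≤ D ∧ D ∣ l - 1 ∧ ∀ (k : ℤ) (f : ModularForm 𝒮ℒ k)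
      (hf : ∀ n, PowerSeries.coeff n (qExpansion 1 f) ∈ 𝒪)
      (_ : ∀ n, 1 ≤ n → (⟨_, hf n⟩ : 𝒪) ∈ IsLocalRing.maximalIdeal 𝒪)
      (_ : (⟨_, hf 0⟩ : 𝒪) ∉ IsLocalRing.maximalIdeal 𝒪), (D : ℤ) ∣ k := by
  have h6u := isUnit_six_of_five_le hl hl𝒪
  have h6 : (6 : IsLocalRing.ResidueField 𝒪) ≠ 0 := by
    have := (IsLocalRing.residue 𝒪).isUnit_map h6u
    rw [map_ofNat] at this
    exact this.ne_zero
  obtain ⟨A, hA, hAev⟩ := exists_hasse hl hl𝒪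
  obtain ⟨D, hD4, hDL, hD⟩ := exists_uniform_divisor h6 (by omega) hA hAev
  refine ⟨D, hD4, hDL, ?_⟩
  intro k f hf hpos h0
  have hk0 : 0 ≤ k := by
    by_contra hneg
    push Not at hneg
    exact coeff_zero_notMem_imp_ne_zero f hf h0 (levelOne_neg_weight_eq_zero hneg f)
  obtain ⟨k', rfl⟩ := Int.eq_ofNat_of_zero_le hk0
  obtain ⟨P, hP, hPev⟩ := exists_isobaric_residue_of_const h6u k' f hf hpos
  have hne : IsLocalRing.residue 𝒪 ⟨_, hf 0⟩ ≠ 0 := by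
    rw [Ne, IsLocalRing.residue_eq_zero_iff]
    exact h0
  have := hD k' P hP ⟨_, hne, hPev⟩
  exact_mod_cast this

/-- **consumer shape** (`helper51`'s `count_sparse` binder block, #2252 (4)). -/
theorem count_sparse (l : ℕ) [Fact l.Prime] (hl : 5 ≤ l) (𝒪 : Subring ℂ) [IsLocalRing 𝒪]
    (hl𝒪 : (l : 𝒪) ∈ IsLocalRing.maximalIdeal 𝒪) :
    ∃ d : ℕ, 1 < d ∧ ¬ l ∣ d ∧ ∀ (k : ℤ) (f : ModularForm 𝒮ℒ k)
      (hf : ∀ n, PowerSeries.coeff n (qExpansion 1 f) ∈ 𝒪)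
      (_ : ∀ n, 1 ≤ n → (⟨_, hf n⟩ : 𝒪) ∈ IsLocalRing.maximalIdeal 𝒪)
      (_ : (⟨_, hf 0⟩ : 𝒪) ∉ IsLocalRing.maximalIdeal 𝒪), (2 * d : ℤ) ∣ k := by
  obtain ⟨D, hD4, hDL, hD⟩ := swd_weak l hl 𝒪 hl𝒪
  have h2L : 2 ∣ l - 1 := (even_pred hl).two_dvd
  set M := Nat.lcm D 2 with hM
  have hML : M ∣ l - 1 := Nat.lcm_dvd hDL h2L
  have hDM : D ∣ M := Nat.dvd_lcm_left D 2
  have h2M : 2 ∣ M := Nat.dvd_lcm_right D 2
  have hMpos : 0 < M := Nat.lcm_pos (by omega) (by norm_num)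
  have hM4 : 4 ≤ M := le_trans hD4 (Nat.le_of_dvd hMpos hDM)
  obtain ⟨d, hd⟩ := h2M
  refine ⟨d, by omega, ?_, ?_⟩
  · intro hld
    have hdL : d ∣ l - 1 := Dvd.dvd.trans ⟨2, by omega⟩ hML
    have hl1 : 0 < l - 1 := by omega
    have h1 := Nat.le_of_dvd hl1 hdL
    have h2 := Nat.le_of_dvd (by omega) hld
    omega
  · intro k f hf hpos h0
    have hDk := hD k f hf hpos h0
    have hne := coeff_zero_notMem_imp_ne_zero f hf h0
    have heven : Even k := by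
      by_contra hodd
      rw [Int.not_even_iff_odd] at hodd
      apply hne
      rw [levelOne_odd_weight_eq_zero hodd f]
      rfl
    have h2k : (2 : ℤ) ∣ k := heven.two_dvd
    have h1 : D ∣ k.natAbs := Int.natCast_dvd.mp hDk
    have h2 : 2 ∣ k.natAbs := Int.natCast_dvd.mp (by exact_mod_cast h2k)
    have h3 : M ∣ k.natAbs := Nat.lcm_dvd h1 h2
    have h4 : (M : ℤ) ∣ k := Int.natCast_dvd.mpr h3
    rw [hd] at h4
    exact_mod_cast h4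

end Fermat.Agent.S16.H95
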