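/-
S16 project, package (WSD) (helper9): **weak Swinnerton-Dyer, abstract algebra core**.  Mathlib only.

`κ` a field of characteristic `l`, `P Q R : κ⟦q⟧` power series with constant terms `1` satisfying
Ramanujan's differential equations (`θ = q d/dq`)
`3 θQ = PQ - R`, `2 θR = PR - Q²`, `12 θP = P² - Q`, with `Q³ - R² ≠ 0`, and an isobaric polynomial
`A(X, Y)` of weight `l - 1` (`wt X = 4`, `wt Y = 6`) with `A(Q, R) = 1` (the Hasse invariant).
THEN an isobaric polynomial `Φ` of weight `k` with `Φ(Q, R) = c ≠ 0` constant has `(l - 1) ∣ k`.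

Route (Swinnerton-Dyer 1973, Serre Bourbaki 416), arranged so that only the injectivity of
`Φ ↦ Φ(Q, R)` on each isobaric piece and the squarefreeness of `A` are used.
-/
import Mathlib

set_option autoImplicit false
set_option linter.unusedSectionVars false
set_option linter.style.haveILetI false

open scoped Polynomial PowerSeries

namespace Fermat.Agent.S16.H9

/-! ## `θ = q d/dq` on power series -/

section Theta

variable {κ : Type*} [CommRing κ]

/-- `θ = q d/dq`. -/
noncomputable def thetaPS (f : κ⟦X⟧) : κ⟦X⟧ := PowerSeries.X * PowerSeries.derivative κ f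

theorem thetaPS_add (f g : κ⟦X⟧) : thetaPS (f + g) = thetaPS f + thetaPS g := by
  simp [thetaPS, mul_add]

theorem thetaPS_mul (f g : κ⟦X⟧) : thetaPS (f * g) = thetaPS f * g + f * thetaPS g := by
  simp only [thetaPS, Derivation.leibniz, smul_eq_mul]
  ring

theorem thetaPS_C (a : κ) : thetaPS (PowerSeries.C a : κ⟦X⟧) = 0 := by
  simp [thetaPS]

theorem thetaPS_one : thetaPS (1 : κ⟦X⟧) = 0 := by
  simp [thetaPS]

theorem thetaPS_zero : thetaPS (0 : κ⟦X⟧) = 0 := by
  simp [thetaPS]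

theorem constantCoeff_thetaPS (f : κ⟦X⟧) : PowerSeries.constantCoeff (thetaPS f) = 0 := by
  simp [thetaPS]

theorem coeff_thetaPS (f : κ⟦X⟧) (n : ℕ) :
    PowerSeries.coeff n (thetaPS f) = n * PowerSeries.coeff n f := by
  rcases n with _ | n
  · simp [thetaPS]
  · rw [thetaPS, PowerSeries.coeff_succ_X_mul, PowerSeries.coeff_derivative]
    push_cast
    ring

end Theta

/-! ## The polynomial ring `κ[X, Y]`, weights `(4, 6)`, and the substitution `τ` -/

section Tau

variable {κ : Type*} [CommRing κ]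

/-- The weights of `X = X 0` (the variable for `Q = E₄`) and `Y = X 1` (for `R = E₆`). -/
def wt : Fin 2 → ℕ := ![4, 6]

@[simp] theorem wt_zero : wt 0 = 4 := rfl
@[simp] theorem wt_one : wt 1 = 6 := rfl

/-- The substitution `X ↦ t⁴ X`, `Y ↦ t⁶ Y`, with values in `κ[X, Y][t]`. -/
noncomputable def tau : MvPolynomial (Fin 2) κ →ₐ[κ] (MvPolynomial (Fin 2) κ)[X] :=
  MvPolynomial.aeval fun i => Polynomial.C (MvPolynomial.X i) * Polynomial.X ^ wt i

@[simp] theorem tau_X (i : Fin 2) :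
    tau (MvPolynomial.X i : MvPolynomial (Fin 2) κ) =
      Polynomial.C (MvPolynomial.X i) * Polynomial.X ^ wt i := by
  simp [tau]

@[simp] theorem tau_C (a : κ) :
    tau (MvPolynomial.C a : MvPolynomial (Fin 2) κ) = Polynomial.C (MvPolynomial.C a) := by
  simp [tau]

theorem tau_monomial (d : Fin 2 →₀ ℕ) (a : κ) :
    tau (MvPolynomial.monomial d a) =
      Polynomial.C (MvPolynomial.monomial d a) * Polynomial.X ^ (Finsupp.weight wt d) := by
  induction d using Finsupp.induction with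
  | zero =>
    simp
  | single_add j n d' hj hn ih =>
    rw [add_comm, MvPolynomial.monomial_add_single, map_mul, map_pow, ih, tau_X, map_add,
      Finsupp.weight_single, map_mul, map_pow, mul_pow, ← pow_mul, pow_add]
    simp only [smul_eq_mul]
    rw [mul_comm (wt j) n]
    ring

theorem tau_of_isWeightedHomogeneous {Φ : MvPolynomial (Fin 2) κ} {k : ℕ}
    (h : MvPolynomial.IsWeightedHomogeneous wt Φ k) :
    tau Φ = Polynomial.C Φ * Polynomial.X ^ k := by
  induction h using MvPolynomial.IsWeightedHomogeneous.induction_on with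
  | zero => simp
  | add p q hp hq ihp ihq => rw [map_add, ihp, ihq, map_add, add_mul]
  | monomial d r hr => rw [tau_monomial, hr]

theorem coeff_tau (Φ : MvPolynomial (Fin 2) κ) (i : ℕ) :
    (tau Φ).coeff i = MvPolynomial.weightedHomogeneousComponent wt i Φ := by
  classical
  induction Φ using MvPolynomial.induction_on' with
  | monomial d a =>
    rw [tau_monomial, Polynomial.coeff_C_mul_X_pow,
      MvPolynomial.weightedHomogeneousComponent_of_mem
        (MvPolynomial.isWeightedHomogeneous_monomial wt d a rfl)]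
  | add p q hp hq => rw [map_add, Polynomial.coeff_add, hp, hq, map_add]

/-- Evaluating `τ Φ` at `t = 1` gives back `Φ`. -/
theorem eval_one_tau (Φ : MvPolynomial (Fin 2) κ) : (tau Φ).eval 1 = Φ := by
  have h : ((Polynomial.evalRingHom (1 : MvPolynomial (Fin 2) κ)).comp
      (tau : MvPolynomial (Fin 2) κ →ₐ[κ] _).toRingHom) = RingHom.id _ := by
    apply MvPolynomial.ringHom_ext
    · intro a
      simp
    · intro i
      simp
  exact DFunLike.congr_fun h Φ

theorem isWeightedHomogeneous_coeff_tau (Φ : MvPolynomial (Fin 2) κ) (i : ℕ) :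
    MvPolynomial.IsWeightedHomogeneous wt ((tau Φ).coeff i) i := by
  rw [coeff_tau]
  exact MvPolynomial.weightedHomogeneousComponent_isWeightedHomogeneous i Φ

/-- `Φ` is isobaric of weight `k` iff `τ Φ = Φ t^k`. -/
theorem isWeightedHomogeneous_iff_tau {Φ : MvPolynomial (Fin 2) κ} {k : ℕ} :
    MvPolynomial.IsWeightedHomogeneous wt Φ k ↔ tau Φ = Polynomial.C Φ * Polynomial.X ^ k := by
  refine ⟨tau_of_isWeightedHomogeneous, fun h => ?_⟩
  have h1 := isWeightedHomogeneous_coeff_tau Φ k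
  rwa [h, Polynomial.coeff_C_mul_X_pow, if_pos rfl] at h1

end Tau

/-! ## (S1) injectivity of `Φ ↦ Φ(Q, R)` on each isobaric piece -/

section Injectivity

variable {κ : Type*} [Field κ]

/-- A cofactor of an isobaric polynomial by a nonzero isobaric polynomial is isobaric. -/
theorem isWeightedHomogeneous_of_mul {Ω Ψ : MvPolynomial (Fin 2) κ} {m k : ℕ}
    (hΩ : MvPolynomial.IsWeightedHomogeneous wt Ω m) (hΩ0 : Ω ≠ 0)
    (h : MvPolynomial.IsWeightedHomogeneous wt (Ω * Ψ) k) (hΨ : Ψ ≠ 0) :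
    m ≤ k ∧ MvPolynomial.IsWeightedHomogeneous wt Ψ (k - m) := by
  have h1 := tau_of_isWeightedHomogeneous h
  rw [map_mul, tau_of_isWeightedHomogeneous hΩ, map_mul, mul_assoc, mul_assoc] at h1
  have hC : (Polynomial.C Ω : (MvPolynomial (Fin 2) κ)[X]) ≠ 0 := by
    rwa [Ne, Polynomial.C_eq_zero]
  have h2 : Polynomial.X ^ m * tau Ψ = Polynomial.C Ψ * Polynomial.X ^ k :=
    mul_left_cancel₀ hC h1
  have hmk : m ≤ k := by
    by_contra hlt
    rw [not_le] at hlt
    have h3 := congrArg (fun p => Polynomial.coeff p k) h2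
    simp only [Polynomial.coeff_C_mul_X_pow] at h3
    rw [Polynomial.coeff_X_pow_mul', if_neg (not_le.2 hlt), if_pos trivial] at h3
    exact hΨ h3.symm
  refine ⟨hmk, ?_⟩
  rw [isWeightedHomogeneous_iff_tau]
  have hX : (Polynomial.X ^ m : (MvPolynomial (Fin 2) κ)[X]) ≠ 0 := pow_ne_zero _ Polynomial.X_ne_zero
  apply mul_left_cancel₀ hX
  rw [h2, ← Nat.sub_add_cancel hmk, pow_add]
  simp only [Nat.add_sub_cancel]
  ring

/-- Evaluation at `(Q, R)`. -/
noncomputable def evQR (Q R : κ⟦X⟧) : MvPolynomial (Fin 2) κ →ₐ[κ] κ⟦X⟧ :=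
  MvPolynomial.aeval ![Q, R]

@[simp] theorem evQR_X0 (Q R : κ⟦X⟧) : evQR Q R (MvPolynomial.X 0) = Q := by simp [evQR]
@[simp] theorem evQR_X1 (Q R : κ⟦X⟧) : evQR Q R (MvPolynomial.X 1) = R := by simp [evQR]
@[simp] theorem evQR_C (Q R : κ⟦X⟧) (a : κ) :
    evQR Q R (MvPolynomial.C a) = PowerSeries.C a := by
  simp [evQR]

/-- The constant term of `Φ(Q, R)` is `Φ(1, 1)`. -/
theorem constantCoeff_evQR {Q R : κ⟦X⟧} (hQ0 : PowerSeries.constantCoeff Q = 1)
    (hR0 : PowerSeries.constantCoeff R = 1) (Φ : MvPolynomial (Fin 2) κ) :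
    PowerSeries.constantCoeff (evQR Q R Φ) = MvPolynomial.eval (fun _ => (1 : κ)) Φ := by
  have h : (PowerSeries.constantCoeff (R := κ)).comp (evQR Q R).toRingHom =
      MvPolynomial.eval (fun _ => (1 : κ)) := by
    apply MvPolynomial.ringHom_ext
    · intro a
      simp
    · intro i
      fin_cases i
      · simpa using hQ0
      · simpa using hR0
  exact DFunLike.congr_fun h Φ

/-- The substitution `X ↦ t⁴`, `Y ↦ t⁶`. -/
noncomputable def iotaT : MvPolynomial (Fin 2) κ →ₐ[κ] κ[X] :=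
  MvPolynomial.aeval fun i => (Polynomial.X : κ[X]) ^ wt i

theorem iotaT_eq (Φ : MvPolynomial (Fin 2) κ) :
    iotaT Φ = (tau Φ).map (MvPolynomial.eval (fun _ => (1 : κ))) := by
  have h : (iotaT : MvPolynomial (Fin 2) κ →ₐ[κ] κ[X]).toRingHom =
      (Polynomial.mapRingHom (MvPolynomial.eval (fun _ => (1 : κ)))).comp
        (tau : MvPolynomial (Fin 2) κ →ₐ[κ] _).toRingHom := by
    apply MvPolynomial.ringHom_ext
    · intro a
      simp [iotaT]
    · intro i
      simp [iotaT]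
  exact DFunLike.congr_fun h Φ

theorem iotaT_of_isWeightedHomogeneous {Φ : MvPolynomial (Fin 2) κ} {k : ℕ}
    (h : MvPolynomial.IsWeightedHomogeneous wt Φ k) :
    iotaT Φ = Polynomial.C (MvPolynomial.eval (fun _ => (1 : κ)) Φ) * Polynomial.X ^ k := by
  rw [iotaT_eq, tau_of_isWeightedHomogeneous h]
  simp

/-- Division by `Y² - X³`. -/
theorem exists_eq_mul_add (Φ : MvPolynomial (Fin 2) κ) :
    ∃ (Ψ : MvPolynomial (Fin 2) κ) (A B : κ[X]),
      Φ = (MvPolynomial.X 1 ^ 2 - MvPolynomial.X 0 ^ 3) * Ψ +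
        Polynomial.aeval (MvPolynomial.X 0 : MvPolynomial (Fin 2) κ) A +
        Polynomial.aeval (MvPolynomial.X 0 : MvPolynomial (Fin 2) κ) B * MvPolynomial.X 1 := by
  induction Φ using MvPolynomial.induction_on with
  | C a => exact ⟨0, Polynomial.C a, 0, by simp⟩
  | add p q hp hq =>
    obtain ⟨Ψ₁, A₁, B₁, h₁⟩ := hp
    obtain ⟨Ψ₂, A₂, B₂, h₂⟩ := hq
    refine ⟨Ψ₁ + Ψ₂, A₁ + A₂, B₁ + B₂, ?_⟩
    rw [h₁, h₂]
    simp only [map_add]
    ring
  | mul_X p i hp =>
    obtain ⟨Ψ, A, B, h⟩ := hp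
    fin_cases i
    · refine ⟨Ψ * MvPolynomial.X 0, A * Polynomial.X, B * Polynomial.X, ?_⟩
      rw [h]
      simp only [map_mul, Polynomial.aeval_X]
      show _ * MvPolynomial.X 0 = _
      ring
    · refine ⟨Ψ * MvPolynomial.X 1 + Polynomial.aeval (MvPolynomial.X 0) B,
        B * Polynomial.X ^ 3, A, ?_⟩
      rw [h]
      simp only [map_mul, map_pow, Polynomial.aeval_X]
      show _ * MvPolynomial.X 1 = _
      ring

theorem iotaT_aeval_X0 (A : κ[X]) :
    iotaT (Polynomial.aeval (MvPolynomial.X 0 : MvPolynomial (Fin 2) κ) A) =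
      Polynomial.expand κ 4 A := by
  have h : (iotaT : MvPolynomial (Fin 2) κ →ₐ[κ] κ[X]).comp
      (Polynomial.aeval (MvPolynomial.X 0 : MvPolynomial (Fin 2) κ)) = Polynomial.expand κ 4 := by
    apply Polynomial.algHom_ext
    simp [iotaT]
  exact DFunLike.congr_fun h A

/-- The kernel of `X ↦ t⁴, Y ↦ t⁶` is generated by `Y² - X³`. -/
theorem dvd_of_iotaT_eq_zero {Φ : MvPolynomial (Fin 2) κ} (h : iotaT Φ = 0) :
    (MvPolynomial.X 1 ^ 2 - MvPolynomial.X 0 ^ 3 : MvPolynomial (Fin 2) κ) ∣ Φ := by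
  obtain ⟨Ψ, A, B, hΦ⟩ := exists_eq_mul_add Φ
  have h1 : iotaT Φ = Polynomial.expand κ 4 A + Polynomial.expand κ 4 B * Polynomial.X ^ 6 := by
    rw [hΦ]
    simp only [map_add, map_mul, map_sub, map_pow, iotaT_aeval_X0]
    simp only [iotaT, MvPolynomial.aeval_X, wt_zero, wt_one]
    ring
  rw [h] at h1
  have hA : A = 0 := by
    ext m
    have h2 := congrArg (fun p => Polynomial.coeff p (4 * m)) h1
    simp only [Polynomial.coeff_zero, Polynomial.coeff_add, Polynomial.coeff_mul_X_pow',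
      Polynomial.coeff_expand (by norm_num : 0 < 4)] at h2
    rw [if_pos (dvd_mul_right 4 m), Nat.mul_div_cancel_left m (by norm_num : 0 < 4)] at h2
    have h3 : (if 6 ≤ 4 * m then (if 4 ∣ 4 * m - 6 then B.coeff ((4 * m - 6) / 4) else 0)
        else 0) = 0 := by
      split_ifs with h4 h5
      · exfalso; omega
      · rfl
      · rfl
    rw [h3, add_zero] at h2
    rw [Polynomial.coeff_zero]
    exact h2.symm
  have hB : B = 0 := by
    rw [hA, map_zero, zero_add] at h1
    have h2 : Polynomial.expand κ 4 B = 0 := by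
      rcases mul_eq_zero.1 h1.symm with h3 | h3
      · exact h3
      · exact absurd h3 (pow_ne_zero _ Polynomial.X_ne_zero)
    exact Polynomial.expand_injective (by norm_num : 0 < 4) (by rw [h2, map_zero])
  rw [hΦ, hA, hB]
  simp

/-- **(S1)** `Φ ↦ Φ(Q, R)` is injective on isobaric polynomials of a given weight. -/
theorem eq_zero_of_evQR_eq_zero {Q R : κ⟦X⟧} (hQ0 : PowerSeries.constantCoeff Q = 1)
    (hR0 : PowerSeries.constantCoeff R = 1) (hΔ : Q ^ 3 - R ^ 2 ≠ 0) :
    ∀ (k : ℕ) (Φ : MvPolynomial (Fin 2) κ), MvPolynomial.IsWeightedHomogeneous wt Φ k →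
      evQR Q R Φ = 0 → Φ = 0 := by
  intro k
  induction k using Nat.strong_induction_on with
  | _ k ih =>
    intro Φ hΦ hev
    have h1 : MvPolynomial.eval (fun _ => (1 : κ)) Φ = 0 := by
      rw [← constantCoeff_evQR hQ0 hR0, hev, map_zero]
    have h2 : iotaT Φ = 0 := by
      rw [iotaT_of_isWeightedHomogeneous hΦ, h1, map_zero, zero_mul]
    obtain ⟨Ψ, hΨ⟩ := dvd_of_iotaT_eq_zero h2
    by_cases hΨ0 : Ψ = 0
    · rw [hΨ, hΨ0, mul_zero]
    · have hΩ : MvPolynomial.IsWeightedHomogeneous wt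
          (MvPolynomial.X 1 ^ 2 - MvPolynomial.X 0 ^ 3 : MvPolynomial (Fin 2) κ) 12 := by
        refine MvPolynomial.IsWeightedHomogeneous.sub ?_ ?_
        · exact (MvPolynomial.isWeightedHomogeneous_X κ wt 1).pow 2
        · exact (MvPolynomial.isWeightedHomogeneous_X κ wt 0).pow 3
      have hΩ0 : (MvPolynomial.X 1 ^ 2 - MvPolynomial.X 0 ^ 3 : MvPolynomial (Fin 2) κ) ≠ 0 := by
        intro h0
        have := congrArg (evQR Q R) h0
        simp only [map_sub, map_pow, evQR_X0, evQR_X1, map_zero] at this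
        apply hΔ
        rw [← neg_sub, this, neg_zero]
      rw [hΨ] at hΦ
      obtain ⟨h12, hΨk⟩ := isWeightedHomogeneous_of_mul hΩ hΩ0 hΦ hΨ0
      have hevΨ : evQR Q R Ψ = 0 := by
        rw [hΨ, map_mul] at hev
        rcases mul_eq_zero.1 hev with h3 | h3
        · exfalso
          simp only [map_sub, map_pow, evQR_X0, evQR_X1] at h3
          apply hΔ
          rw [← neg_sub, h3, neg_zero]
        · exact h3
      exact absurd (ih (k - 12) (by omega) Ψ hΨk hevΨ) hΨ0

end Injectivity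

/-! ## The derivation `∂X = -4Y`, `∂Y = -6X²` and the Euler derivation -/

section Derivations

variable {κ : Type*} [Field κ]

/-- Swinnerton-Dyer's derivation `∂X = -4Y`, `∂Y = -6X²` (it raises weights by `2`). -/
noncomputable def dSD : Derivation κ (MvPolynomial (Fin 2) κ) (MvPolynomial (Fin 2) κ) :=
  MvPolynomial.mkDerivation κ ![-4 * MvPolynomial.X 1, -6 * MvPolynomial.X 0 ^ 2]

/-- The Euler derivation `EX = 4X`, `EY = 6Y`. -/
noncomputable def eulerD : Derivation κ (MvPolynomial (Fin 2) κ) (MvPolynomial (Fin 2) κ) :=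
  MvPolynomial.mkDerivation κ ![4 * MvPolynomial.X 0, 6 * MvPolynomial.X 1]

@[simp] theorem dSD_X0 : dSD (MvPolynomial.X 0 : MvPolynomial (Fin 2) κ) = -4 * MvPolynomial.X 1 := by
  simp [dSD, MvPolynomial.mkDerivation_X]

@[simp] theorem dSD_X1 :
    dSD (MvPolynomial.X 1 : MvPolynomial (Fin 2) κ) = -6 * MvPolynomial.X 0 ^ 2 := by
  simp [dSD, MvPolynomial.mkDerivation_X]

@[simp] theorem dSD_C (a : κ) : dSD (MvPolynomial.C a : MvPolynomial (Fin 2) κ) = 0 := by
  rw [← MvPolynomial.algebraMap_eq]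
  exact Derivation.map_algebraMap _ a

@[simp] theorem eulerD_X0 :
    eulerD (MvPolynomial.X 0 : MvPolynomial (Fin 2) κ) = 4 * MvPolynomial.X 0 := by
  simp [eulerD, MvPolynomial.mkDerivation_X]

@[simp] theorem eulerD_X1 :
    eulerD (MvPolynomial.X 1 : MvPolynomial (Fin 2) κ) = 6 * MvPolynomial.X 1 := by
  simp [eulerD, MvPolynomial.mkDerivation_X]

@[simp] theorem eulerD_C (a : κ) : eulerD (MvPolynomial.C a : MvPolynomial (Fin 2) κ) = 0 := by
  rw [← MvPolynomial.algebraMap_eq]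
  exact Derivation.map_algebraMap _ a

theorem eulerD_X (i : Fin 2) :
    eulerD (MvPolynomial.X i : MvPolynomial (Fin 2) κ) = (wt i : MvPolynomial (Fin 2) κ) * MvPolynomial.X i := by
  fin_cases i
  · simp
  · simp

/-- `τ (E Φ) = t · d/dt (τ Φ)`. -/
theorem tau_eulerD (Φ : MvPolynomial (Fin 2) κ) :
    tau (eulerD Φ) = Polynomial.X * Polynomial.derivative (tau Φ) := by
  induction Φ using MvPolynomial.induction_on with
  | C a => simp
  | add p q hp hq => simp only [map_add, hp, hq, mul_add]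
  | mul_X p i hp =>
    rw [Derivation.leibniz, smul_eq_mul, smul_eq_mul, map_add, map_mul, map_mul, hp, eulerD_X,
      map_mul, map_mul, tau_X, Polynomial.derivative_mul, Polynomial.derivative_mul,
      Polynomial.derivative_C, Polynomial.derivative_X_pow, map_natCast]
    have hw : 1 ≤ wt i := by fin_cases i <;> simp
    obtain ⟨n, hn⟩ : ∃ n, wt i = n + 1 := ⟨wt i - 1, by omega⟩
    rw [hn]
    simp only [Nat.add_sub_cancel, Nat.cast_add, Nat.cast_one, map_add, map_one]
    rw [show (Polynomial.C ((n : ℕ) : MvPolynomial (Fin 2) κ) : (MvPolynomial (Fin 2) κ)[X]) =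
      (n : (MvPolynomial (Fin 2) κ)[X]) from map_natCast _ n]
    ring

/-- Euler's relation for isobaric polynomials. -/
theorem eulerD_of_isWeightedHomogeneous {Φ : MvPolynomial (Fin 2) κ} {k : ℕ}
    (h : MvPolynomial.IsWeightedHomogeneous wt Φ k) :
    eulerD Φ = (k : MvPolynomial (Fin 2) κ) * Φ := by
  have h1 := tau_eulerD Φ
  rw [tau_of_isWeightedHomogeneous h, Polynomial.derivative_mul, Polynomial.derivative_C,
    Polynomial.derivative_X_pow] at h1
  have h2 := congrArg (Polynomial.eval 1) h1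
  rw [eval_one_tau] at h2
  rw [h2]
  simp [mul_comm]

/-- **Compatibility of `∂` with `θ`**: `(∂Φ)(Q, R) = 12 θ(Φ(Q,R)) - P · (EΦ)(Q, R)`. -/
theorem evQR_dSD {P Q R : κ⟦X⟧} (hθQ : 3 * thetaPS Q = P * Q - R)
    (hθR : 2 * thetaPS R = P * R - Q ^ 2) (Φ : MvPolynomial (Fin 2) κ) :
    evQR Q R (dSD Φ) = 12 * thetaPS (evQR Q R Φ) - P * evQR Q R (eulerD Φ) := by
  induction Φ using MvPolynomial.induction_on with
  | C a => simp [thetaPS_C]
  | add p q hp hq =>
    simp only [map_add, hp, hq, thetaPS_add]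
    ring
  | mul_X p i hp =>
    rw [Derivation.leibniz, Derivation.leibniz, smul_eq_mul, smul_eq_mul, smul_eq_mul, smul_eq_mul,
      map_add, map_add, map_mul, map_mul, map_mul, map_mul, map_mul, hp, thetaPS_mul]
    fin_cases i
    · simp only [Fin.zero_eta, Fin.isValue, dSD_X0, eulerD_X0, map_mul, map_neg, evQR_X1, evQR_X0]
      have h4 : evQR Q R (4 : MvPolynomial (Fin 2) κ) = 4 := map_ofNat (evQR Q R) 4
      rw [h4]
      have h12 : 12 * thetaPS Q = 4 * (P * Q - R) := by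
        rw [← hθQ]; ring
      linear_combination (-(evQR Q R p)) * h12
    · simp only [Fin.mk_one, Fin.isValue, dSD_X1, eulerD_X1, map_mul, map_neg, map_pow, evQR_X1,
        evQR_X0]
      have h6 : evQR Q R (6 : MvPolynomial (Fin 2) κ) = 6 := map_ofNat (evQR Q R) 6
      rw [h6]
      have h12 : 12 * thetaPS R = 6 * (P * R - Q ^ 2) := by
        rw [← hθR]; ring
      linear_combination (-(evQR Q R p)) * h12

theorem evQR_dSD_of_isWeightedHomogeneous {P Q R : κ⟦X⟧} (hθQ : 3 * thetaPS Q = P * Q - R)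
    (hθR : 2 * thetaPS R = P * R - Q ^ 2) {Φ : MvPolynomial (Fin 2) κ} {k : ℕ}
    (h : MvPolynomial.IsWeightedHomogeneous wt Φ k) :
    evQR Q R (dSD Φ) = 12 * thetaPS (evQR Q R Φ) - (k : κ⟦X⟧) * P * evQR Q R Φ := by
  rw [evQR_dSD hθQ hθR, eulerD_of_isWeightedHomogeneous h, map_mul, map_natCast]
  ring

end Derivations

/-! ## `∂` raises weights by `2` -/

section WeightShift

variable {κ : Type*} [Field κ]

theorem weight_wt (d : Fin 2 →₀ ℕ) : Finsupp.weight wt d = d 0 * 4 + d 1 * 6 := by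
  rw [Finsupp.weight_eq_sum, Fin.sum_univ_two]
  simp

theorem isWeightedHomogeneous_dSD_mul {a b : MvPolynomial (Fin 2) κ} {m n : ℕ}
    (ha : MvPolynomial.IsWeightedHomogeneous wt a m)
    (hb : MvPolynomial.IsWeightedHomogeneous wt b n)
    (hda : MvPolynomial.IsWeightedHomogeneous wt (dSD a) (m + 2))
    (hdb : MvPolynomial.IsWeightedHomogeneous wt (dSD b) (n + 2)) :
    MvPolynomial.IsWeightedHomogeneous wt (dSD (a * b)) (m + n + 2) := by
  rw [Derivation.leibniz, smul_eq_mul, smul_eq_mul]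
  refine MvPolynomial.IsWeightedHomogeneous.add ?_ ?_
  · have := ha.mul hdb
    rwa [show m + (n + 2) = m + n + 2 by ring] at this
  · have := hb.mul hda
    rwa [show n + (m + 2) = m + n + 2 by ring] at this

theorem isWeightedHomogeneous_dSD_X (i : Fin 2) :
    MvPolynomial.IsWeightedHomogeneous wt
      (dSD (MvPolynomial.X i : MvPolynomial (Fin 2) κ)) (wt i + 2) := by
  fin_cases i
  · simp only [Fin.zero_eta, Fin.isValue, dSD_X0, wt_zero]
    have h : (-4 : MvPolynomial (Fin 2) κ) = MvPolynomial.C (-4) := by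
      rw [map_neg, map_ofNat]
    rw [h]
    exact (MvPolynomial.isWeightedHomogeneous_X κ wt 1).C_mul _
  · simp only [Fin.mk_one, Fin.isValue, dSD_X1, wt_one]
    have h : (-6 : MvPolynomial (Fin 2) κ) = MvPolynomial.C (-6) := by
      rw [map_neg, map_ofNat]
    rw [h]
    exact ((MvPolynomial.isWeightedHomogeneous_X κ wt 0).pow 2).C_mul _

theorem isWeightedHomogeneous_dSD_X_pow (i : Fin 2) (n : ℕ) :
    MvPolynomial.IsWeightedHomogeneous wt
      (dSD ((MvPolynomial.X i : MvPolynomial (Fin 2) κ) ^ n)) (n * wt i + 2) := by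
  induction n with
  | zero =>
    simp only [pow_zero, Derivation.map_one_eq_zero]
    exact MvPolynomial.isWeightedHomogeneous_zero κ wt _
  | succ n ih =>
    rw [pow_succ]
    have h1 : MvPolynomial.IsWeightedHomogeneous wt
        ((MvPolynomial.X i : MvPolynomial (Fin 2) κ) ^ n) (n * wt i) := by
      have := (MvPolynomial.isWeightedHomogeneous_X κ wt i).pow n
      simpa [smul_eq_mul] using this
    have := isWeightedHomogeneous_dSD_mul h1 (MvPolynomial.isWeightedHomogeneous_X κ wt i) ih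
      (isWeightedHomogeneous_dSD_X i)
    rwa [show n * wt i + wt i + 2 = (n + 1) * wt i + 2 by ring] at this

theorem isWeightedHomogeneous_dSD_monomial (d : Fin 2 →₀ ℕ) (r : κ) :
    MvPolynomial.IsWeightedHomogeneous wt (dSD (MvPolynomial.monomial d r))
      (Finsupp.weight wt d + 2) := by
  induction d using Finsupp.induction with
  | zero =>
    have : (MvPolynomial.monomial (0 : Fin 2 →₀ ℕ) r : MvPolynomial (Fin 2) κ) =
        MvPolynomial.C r := rfl
    rw [this, dSD_C]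
    exact MvPolynomial.isWeightedHomogeneous_zero κ wt _
  | single_add j n d' hj hn ih =>
    rw [add_comm, MvPolynomial.monomial_add_single, map_add, Finsupp.weight_single, smul_eq_mul]
    exact isWeightedHomogeneous_dSD_mul
      (MvPolynomial.isWeightedHomogeneous_monomial wt d' r rfl)
      (by
        have := (MvPolynomial.isWeightedHomogeneous_X κ wt j).pow n
        simpa [smul_eq_mul] using this) ih (isWeightedHomogeneous_dSD_X_pow j n)

/-- **`∂` raises weights by `2`.** -/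
theorem isWeightedHomogeneous_dSD {Φ : MvPolynomial (Fin 2) κ} {k : ℕ}
    (h : MvPolynomial.IsWeightedHomogeneous wt Φ k) :
    MvPolynomial.IsWeightedHomogeneous wt (dSD Φ) (k + 2) := by
  induction h using MvPolynomial.IsWeightedHomogeneous.induction_on with
  | zero =>
    rw [map_zero]
    exact MvPolynomial.isWeightedHomogeneous_zero κ wt _
  | add p q hp hq ihp ihq =>
    rw [map_add]
    exact ihp.add ihq
  | monomial d r hr =>
    rw [← hr]
    exact isWeightedHomogeneous_dSD_monomial d r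

theorem tau_eq_zero_iff {Φ : MvPolynomial (Fin 2) κ} : tau Φ = 0 ↔ Φ = 0 := by
  refine ⟨fun h => ?_, fun h => by rw [h, map_zero]⟩
  rw [← eval_one_tau Φ, h, Polynomial.eval_zero]

/-- `Φ` is the sum of its isobaric components. -/
theorem sum_coeff_tau (Φ : MvPolynomial (Fin 2) κ) :
    Φ = ∑ i ∈ Finset.range ((tau Φ).natDegree + 1), (tau Φ).coeff i := by
  conv_lhs => rw [← eval_one_tau Φ, Polynomial.eval_eq_sum_range]
  simp

theorem tau_dSD (Φ : MvPolynomial (Fin 2) κ) :
    tau (dSD Φ) = ∑ i ∈ Finset.range ((tau Φ).natDegree + 1),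
      Polynomial.C (dSD ((tau Φ).coeff i)) * Polynomial.X ^ (i + 2) := by
  conv_lhs => rw [sum_coeff_tau Φ, map_sum, map_sum]
  refine Finset.sum_congr rfl fun i _ => ?_
  exact tau_of_isWeightedHomogeneous (isWeightedHomogeneous_dSD (isWeightedHomogeneous_coeff_tau Φ i))

theorem coeff_tau_dSD (Φ : MvPolynomial (Fin 2) κ) (i : ℕ) :
    (tau (dSD Φ)).coeff (i + 2) = dSD ((tau Φ).coeff i) := by
  rw [tau_dSD, Polynomial.finsetSum_coeff]
  simp only [Polynomial.coeff_C_mul_X_pow, add_left_inj]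
  rw [Finset.sum_ite_eq]
  split_ifs with h
  · rfl
  · rw [Finset.mem_range, not_lt] at h
    rw [Polynomial.coeff_eq_zero_of_natDegree_lt (by omega), map_zero]

theorem coeff_tau_dSD_of_lt (Φ : MvPolynomial (Fin 2) κ) {i : ℕ} (hi : i < 2) :
    (tau (dSD Φ)).coeff i = 0 := by
  rw [tau_dSD, Polynomial.finsetSum_coeff]
  refine Finset.sum_eq_zero fun j _ => ?_
  rw [Polynomial.coeff_C_mul_X_pow, if_neg (by omega)]

theorem natDegree_tau_dSD_le (Φ : MvPolynomial (Fin 2) κ) :
    (tau (dSD Φ)).natDegree ≤ (tau Φ).natDegree + 2 := by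
  rw [Polynomial.natDegree_le_iff_coeff_eq_zero]
  intro N hN
  obtain ⟨i, rfl⟩ : ∃ i, N = i + 2 := ⟨N - 2, by omega⟩
  rw [coeff_tau_dSD, Polynomial.coeff_eq_zero_of_natDegree_lt (by omega), map_zero]

theorem le_natTrailingDegree_tau_dSD {Φ : MvPolynomial (Fin 2) κ} (h : dSD Φ ≠ 0) :
    (tau Φ).natTrailingDegree + 2 ≤ (tau (dSD Φ)).natTrailingDegree := by
  apply Polynomial.le_natTrailingDegree (by rwa [Ne, tau_eq_zero_iff])
  intro m hm
  by_cases hm2 : m < 2
  · exact coeff_tau_dSD_of_lt Φ hm2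
  · obtain ⟨i, rfl⟩ : ∃ i, m = i + 2 := ⟨m - 2, by omega⟩
    rw [coeff_tau_dSD, Polynomial.coeff_eq_zero_of_lt_natTrailingDegree (by omega), map_zero]

/-- There is no nonzero isobaric polynomial of weight `2`. -/
theorem eq_zero_of_isWeightedHomogeneous_two {Φ : MvPolynomial (Fin 2) κ}
    (h : MvPolynomial.IsWeightedHomogeneous wt Φ 2) : Φ = 0 := by
  apply h.eq_zero_of_no_monomials
  intro d
  rw [weight_wt]
  omega

/-- Constants are the polynomials whose `τ` has degree `0`. -/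
theorem eq_C_of_natDegree_tau_eq_zero {Φ : MvPolynomial (Fin 2) κ}
    (h : (tau Φ).natDegree = 0) : Φ = MvPolynomial.C (MvPolynomial.coeff 0 Φ) := by
  have h1 := sum_coeff_tau Φ
  rw [h, zero_add, Finset.sum_range_one] at h1
  have h2 : MvPolynomial.IsWeightedHomogeneous wt Φ 0 := by
    rw [h1]
    exact isWeightedHomogeneous_coeff_tau Φ 0
  have h3 := h2.eq_monomial_of_unique_weight (d₀ := 0) (by
    intro d hd
    rw [weight_wt] at hd
    ext i
    fin_cases i
    · simp only [Fin.zero_eta, Fin.isValue, Finsupp.coe_zero, Pi.zero_apply]; omega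
    · simp only [Fin.mk_one, Fin.isValue, Finsupp.coe_zero, Pi.zero_apply]; omega)
  exact h3

end WeightShift

/-! ## General lemmas on primes and derivations -/

section PrimeLemmas

variable {κ : Type*} [Field κ]

theorem pow_mul_eq_imp {S : Type*} [CommRing S] [IsDomain S] {φ x y : S} (hφ : Prime φ)
    (hx : ¬ φ ∣ x) (hy : ¬ φ ∣ y) {a b : ℕ} (h : φ ^ a * x = φ ^ b * y) : a = b := by
  have key : ∀ {a b : ℕ} {x y : S}, ¬ φ ∣ x → a < b → φ ^ a * x = φ ^ b * y → False := by
    intro a b x y hx hab h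
    obtain ⟨d, rfl⟩ : ∃ d, b = a + (d + 1) := ⟨b - a - 1, by omega⟩
    rw [pow_add, mul_assoc] at h
    have h2 := mul_left_cancel₀ (pow_ne_zero a hφ.ne_zero) h
    exact hx ⟨φ ^ d * y, by rw [h2, pow_succ]; ring⟩
  rcases lt_trichotomy a b with hab | hab | hab
  · exact (key hx hab h).elim
  · exact hab
  · exact (key hy hab h.symm).elim

theorem not_dvd_C_of_prime {φ : MvPolynomial (Fin 2) κ} (hφ : Prime φ) {c : κ} (hc : c ≠ 0) :
    ¬ φ ∣ MvPolynomial.C c := by
  intro h
  apply hφ.not_isUnit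
  apply isUnit_of_dvd_unit h
  exact (IsUnit.mk0 c hc).map MvPolynomial.C

/-- If `φ^m ∣ ∂(φ^m C)` with `φ` prime, `φ ∤ C` and `m` invertible in `κ`, then `φ ∣ ∂φ`. -/
theorem dvd_dSD_of_pow_dvd {φ C : MvPolynomial (Fin 2) κ} (hφ : Prime φ) {m : ℕ} (hm : 1 ≤ m)
    (hmκ : (m : κ) ≠ 0) (hC : ¬ φ ∣ C) (h : φ ^ m ∣ dSD (φ ^ m * C)) : φ ∣ dSD φ := by
  obtain ⟨m', rfl⟩ : ∃ m', m = m' + 1 := ⟨m - 1, by omega⟩
  rw [Derivation.leibniz, Derivation.leibniz_pow, smul_eq_mul, smul_eq_mul, smul_eq_mul,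
    Nat.add_sub_cancel] at h
  have h1 : φ ^ (m' + 1) ∣ C * ((m' + 1 : ℕ) • (φ ^ m' * dSD φ)) := by
    have h2 : φ ^ (m' + 1) ∣ φ ^ (m' + 1) * dSD C := dvd_mul_right _ _
    exact (dvd_add_right h2).1 h
  have h3 : C * ((m' + 1 : ℕ) • (φ ^ m' * dSD φ)) =
      φ ^ m' * (C * (MvPolynomial.C ((m' + 1 : ℕ) : κ)) * dSD φ) := by
    rw [nsmul_eq_mul, map_natCast]
    ring
  rw [h3, pow_succ] at h1
  have h4 : φ ∣ C * (MvPolynomial.C ((m' + 1 : ℕ) : κ)) * dSD φ :=
    (mul_dvd_mul_iff_left (pow_ne_zero m' hφ.ne_zero)).1 h1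
  rcases hφ.dvd_or_dvd h4 with h5 | h5
  · rcases hφ.dvd_or_dvd h5 with h6 | h6
    · exact absurd h6 hC
    · exact absurd h6 (not_dvd_C_of_prime hφ hmκ)
  · exact h5

theorem natDegree_tau_of_isWeightedHomogeneous {Φ : MvPolynomial (Fin 2) κ} {k : ℕ}
    (h : MvPolynomial.IsWeightedHomogeneous wt Φ k) (h0 : Φ ≠ 0) : (tau Φ).natDegree = k := by
  rw [tau_of_isWeightedHomogeneous h, Polynomial.natDegree_C_mul_X_pow _ _ h0]

theorem leadingCoeff_tau_of_isWeightedHomogeneous {Φ : MvPolynomial (Fin 2) κ} {k : ℕ}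
    (h : MvPolynomial.IsWeightedHomogeneous wt Φ k) : (tau Φ).leadingCoeff = Φ := by
  rw [tau_of_isWeightedHomogeneous h, Polynomial.leadingCoeff_mul_X_pow, Polynomial.leadingCoeff_C]

/-- `φ ∣ ∂φ` forces `∂φ = 0` (weights). -/
theorem dSD_eq_zero_of_dvd {φ : MvPolynomial (Fin 2) κ} (h : φ ∣ dSD φ) : dSD φ = 0 := by
  classical
  by_contra h0
  obtain ⟨ψ, hψ⟩ := h
  have hφ0 : φ ≠ 0 := by
    rintro rfl
    exact h0 (map_zero _)
  have hψ0 : ψ ≠ 0 := by
    rintro rfl
    exact h0 (by rw [hψ, mul_zero])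
  have hτφ : tau φ ≠ 0 := by rwa [Ne, tau_eq_zero_iff]
  have hτψ : tau ψ ≠ 0 := by rwa [Ne, tau_eq_zero_iff]
  have h1 : (tau ψ).natDegree ≤ 2 := by
    have := natDegree_tau_dSD_le φ
    rw [hψ, map_mul, Polynomial.natDegree_mul hτφ hτψ] at this
    omega
  have h2 : 2 ≤ (tau ψ).natTrailingDegree := by
    have := le_natTrailingDegree_tau_dSD h0
    rw [hψ, map_mul, Polynomial.natTrailingDegree_mul hτφ hτψ] at this
    omega
  have h3 : MvPolynomial.IsWeightedHomogeneous wt ψ 2 := by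
    intro d hd
    by_contra hne
    apply hd
    have h4 := MvPolynomial.coeff_weightedHomogeneousComponent (w := wt)
      (Finsupp.weight wt d) ψ d
    rw [if_pos rfl, ← coeff_tau] at h4
    rw [← h4]
    rcases lt_or_gt_of_ne hne with hlt | hgt
    · rw [Polynomial.coeff_eq_zero_of_lt_natTrailingDegree (by omega), MvPolynomial.coeff_zero]
    · rw [Polynomial.coeff_eq_zero_of_natDegree_lt (by omega), MvPolynomial.coeff_zero]
  exact hψ0 (eq_zero_of_isWeightedHomogeneous_two h3)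

end PrimeLemmas

/-! ## The Hasse invariant is squarefree; weak Swinnerton-Dyer -/

section Main

variable {κ : Type*} [Field κ] (l : ℕ) [hl : Fact l.Prime] [CharP κ l]
  {P Q R : κ⟦X⟧}

include hl in
theorem natCast_ne_zero_of_lt {n : ℕ} (h1 : 1 ≤ n) (h2 : n < l) : ((n : ℕ) : κ) ≠ 0 := by
  rw [Ne, CharP.cast_eq_zero_iff κ l]
  intro h
  exact absurd (Nat.le_of_dvd (by omega) h) (by omega)

variable (hP0 : PowerSeries.constantCoeff P = 1) (hQ0 : PowerSeries.constantCoeff Q = 1)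
  (hR0 : PowerSeries.constantCoeff R = 1) (hΔ : Q ^ 3 - R ^ 2 ≠ 0)
  (hθQ : 3 * thetaPS Q = P * Q - R) (hθR : 2 * thetaPS R = P * R - Q ^ 2)
  (hθP : 12 * thetaPS P = P ^ 2 - Q)
  {A : MvPolynomial (Fin 2) κ} (hA : MvPolynomial.IsWeightedHomogeneous wt A (l - 1))
  (hevA : evQR Q R A = 1)

include hl hθQ hθR hA hevA in
/-- `B := ∂A` has `B(Q, R) = P`. -/
theorem evQR_dSD_hasse : evQR Q R (dSD A) = P := by
  have hl1 : 1 ≤ l := hl.out.one_lt.le
  rw [evQR_dSD_of_isWeightedHomogeneous hθQ hθR hA, hevA, thetaPS_one, Nat.cast_sub hl1,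
    Nat.cast_one]
  have : ((l : ℕ) : κ⟦X⟧) = 0 := by
    rw [← map_natCast (PowerSeries.C (R := κ)), CharP.cast_eq_zero κ l, map_zero]
  rw [this]
  ring

include hl hP0 hQ0 hR0 hΔ hθQ hθR hθP hA hevA in
/-- `∂²A = -X A`. -/
theorem dSD_dSD_hasse : dSD (dSD A) = -(MvPolynomial.X 0 * A) := by
  have hl2 : 2 ≤ l := hl.out.two_le
  have hB : MvPolynomial.IsWeightedHomogeneous wt (dSD A) (l + 1) := by
    have := isWeightedHomogeneous_dSD hA
    rwa [show l - 1 + 2 = l + 1 by omega] at this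
  have h1 : MvPolynomial.IsWeightedHomogeneous wt (dSD (dSD A)) (l + 3) :=
    isWeightedHomogeneous_dSD hB
  have h2 : MvPolynomial.IsWeightedHomogeneous wt (MvPolynomial.X 0 * A) (l + 3) := by
    have := (MvPolynomial.isWeightedHomogeneous_X κ wt 0).mul hA
    rwa [show wt 0 + (l - 1) = l + 3 by simp; omega] at this
  have h3 : MvPolynomial.IsWeightedHomogeneous wt (dSD (dSD A) + MvPolynomial.X 0 * A) (l + 3) :=
    h1.add h2
  have h4 : evQR Q R (dSD (dSD A) + MvPolynomial.X 0 * A) = 0 := by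
    rw [map_add, evQR_dSD_of_isWeightedHomogeneous hθQ hθR hB,
      evQR_dSD_hasse l hθQ hθR hA hevA, map_mul, evQR_X0, hevA, hθP, Nat.cast_add, Nat.cast_one]
    have : ((l : ℕ) : κ⟦X⟧) = 0 := by
      rw [← map_natCast (PowerSeries.C (R := κ)), CharP.cast_eq_zero κ l, map_zero]
    rw [this]
    ring
  have h5 := eq_zero_of_evQR_eq_zero hQ0 hR0 hΔ _ _ h3 h4
  exact eq_neg_of_add_eq_zero_left h5

include hevA in
theorem hasse_ne_zero : A ≠ 0 := by
  rintro rfl
  rw [map_zero] at hevA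
  exact zero_ne_one hevA

include hl hP0 hQ0 hR0 hΔ hθQ hθR hθP hA hevA in
/-- **The Hasse invariant `A` is squarefree.** -/
theorem not_sq_dvd_hasse {φ : MvPolynomial (Fin 2) κ} (hφ : Irreducible φ) : ¬ φ ^ 2 ∣ A := by
  intro hsq
  have hl2 : 2 ≤ l := hl.out.two_le
  have hA0 : A ≠ 0 := hasse_ne_zero hevA
  have hφp : Prime φ := hφ.prime
  have hτφ : tau φ ≠ 0 := by rw [Ne, tau_eq_zero_iff]; exact hφ.ne_zero
  -- `τ φ` has positive degree
  have hdeg1 : 1 ≤ (tau φ).natDegree := by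
    by_contra h
    have h0 : (tau φ).natDegree = 0 := by omega
    have hC := eq_C_of_natDegree_tau_eq_zero h0
    by_cases hc : MvPolynomial.coeff 0 φ = 0
    · rw [hc, map_zero] at hC
      exact hφ.ne_zero hC
    · apply hφ.not_isUnit
      rw [hC]
      exact (IsUnit.mk0 _ hc).map MvPolynomial.C
  -- degrees
  have hdegA : (tau A).natDegree = l - 1 := natDegree_tau_of_isWeightedHomogeneous hA hA0
  -- step 1: `φ ∣ ∂φ`
  have hdvd : φ ∣ dSD φ := by
    obtain ⟨n, C', hC', hAeq⟩ := WfDvdMonoid.max_power_factor hA0 hφ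
    have hn2 : 2 ≤ n := by
      by_contra hn
      have hn' : n = 0 ∨ n = 1 := by omega
      rcases hn' with rfl | rfl
      · rw [pow_zero, one_mul] at hAeq
        rw [hAeq] at hsq
        exact hC' (dvd_trans (dvd_pow_self φ two_ne_zero) hsq)
      · rw [pow_one] at hAeq
        rw [hAeq, pow_two] at hsq
        exact hC' ((mul_dvd_mul_iff_left hφ.ne_zero).1 hsq)
    have hC'0 : C' ≠ 0 := by
      rintro rfl
      exact hA0 (by rw [hAeq, mul_zero])
    have hτC' : tau C' ≠ 0 := by rwa [Ne, tau_eq_zero_iff]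
    have hnl : n < l := by
      have h1 : (tau A).natDegree = n * (tau φ).natDegree + (tau C').natDegree := by
        rw [hAeq, map_mul, map_pow, Polynomial.natDegree_mul (pow_ne_zero _ hτφ) hτC',
          Polynomial.natDegree_pow]
      rw [hdegA] at h1
      have h2 : n * 1 ≤ n * (tau φ).natDegree := Nat.mul_le_mul_left n hdeg1
      omega
    have hnκ : ((n : ℕ) : κ) ≠ 0 := natCast_ne_zero_of_lt l (by omega) hnl
    have hn1κ : ((n - 1 : ℕ) : κ) ≠ 0 := natCast_ne_zero_of_lt l (by omega) (by omega)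
    -- `B = φ^(n-1) G`
    set G : MvPolynomial (Fin 2) κ :=
      MvPolynomial.C ((n : ℕ) : κ) * dSD φ * C' + φ * dSD C' with hG
    have hB : dSD A = φ ^ (n - 1) * G := by
      obtain ⟨n', rfl⟩ : ∃ n', n = n' + 1 := ⟨n - 1, by omega⟩
      rw [hAeq, Derivation.leibniz, Derivation.leibniz_pow, smul_eq_mul, smul_eq_mul, smul_eq_mul,
        Nat.add_sub_cancel, nsmul_eq_mul, hG, map_natCast]
      ring
    by_cases hφG : φ ∣ G
    · -- then `φ ∣ n ∂φ C'`
      have h1 : φ ∣ MvPolynomial.C ((n : ℕ) : κ) * dSD φ * C' := by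
        have h2 : φ ∣ φ * dSD C' := dvd_mul_right _ _
        exact (dvd_add_left h2).1 hφG
      rcases hφp.dvd_or_dvd h1 with h3 | h3
      · rcases hφp.dvd_or_dvd h3 with h4 | h4
        · exact absurd h4 (not_dvd_C_of_prime hφp hnκ)
        · exact h4
      · exact absurd h3 hC'
    · -- apply the lemma to `B = φ^(n-1) G`
      apply dvd_dSD_of_pow_dvd hφp (m := n - 1) (by omega) hn1κ hφG
      rw [← hB, dSD_dSD_hasse l hP0 hQ0 hR0 hΔ hθQ hθR hθP hA hevA, hAeq]
      refine Dvd.dvd.neg_right ?_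
      refine Dvd.dvd.mul_left ?_ _
      exact Dvd.dvd.mul_right (pow_dvd_pow φ (by omega)) _
  -- step 2: `∂φ = 0`
  have hd0 : dSD φ = 0 := dSD_eq_zero_of_dvd hdvd
  -- step 3: the top component
  obtain ⟨D, hD⟩ : φ ∣ A := dvd_trans (dvd_pow_self φ two_ne_zero) hsq
  have hD0 : D ≠ 0 := by
    rintro rfl
    exact hA0 (by rw [hD, mul_zero])
  have hτD : tau D ≠ 0 := by rwa [Ne, tau_eq_zero_iff]
  set n0 := (tau φ).natDegree with hn0
  set φt := (tau φ).leadingCoeff with hφt
  have hφt_wh : MvPolynomial.IsWeightedHomogeneous wt φt n0 := isWeightedHomogeneous_coeff_tau φ n0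
  have hφt_d : dSD φt = 0 := by
    have := coeff_tau_dSD φ n0
    rw [hd0, map_zero, Polynomial.coeff_zero] at this
    exact this.symm
  have hlead : A = φt * (tau D).leadingCoeff := by
    have h1 := leadingCoeff_tau_of_isWeightedHomogeneous hA
    rw [hD, map_mul, Polynomial.leadingCoeff_mul] at h1
    rw [hD]
    exact h1.symm
  have hn0l : n0 ≤ l - 1 := by
    have h1 : (tau A).natDegree = (tau φ).natDegree + (tau D).natDegree := by
      rw [hD, map_mul, Polynomial.natDegree_mul hτφ hτD]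
    rw [hdegA] at h1
    omega
  have hg : PowerSeries.constantCoeff (evQR Q R φt) ≠ 0 := by
    intro h0
    have h1 := congrArg (fun x => PowerSeries.constantCoeff (evQR Q R x)) hlead
    simp only [map_mul, hevA, h0, zero_mul, map_one] at h1
    exact one_ne_zero h1
  have h2 := evQR_dSD_of_isWeightedHomogeneous hθQ hθR hφt_wh
  rw [hφt_d, map_zero] at h2
  have h3 := congrArg PowerSeries.constantCoeff h2
  simp only [map_zero, map_sub, map_mul, map_natCast, constantCoeff_thetaPS, mul_zero, hP0,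
    mul_one, zero_sub] at h3
  have h4 : ((n0 : ℕ) : κ) = 0 := by
    have h5 : ((n0 : ℕ) : κ) * PowerSeries.constantCoeff (evQR Q R φt) = 0 := by
      rw [eq_comm, neg_eq_zero] at h3
      exact h3
    rcases mul_eq_zero.1 h5 with h6 | h6
    · exact h6
    · exact absurd h6 hg
  exact natCast_ne_zero_of_lt l hdeg1 (by omega) h4

include hl hP0 hQ0 hR0 hΔ hθQ hθR hθP hA hevA in
/-- **Weak Swinnerton-Dyer (abstract form).**  An isobaric polynomial `Φ` of weight `k` whose
value `Φ(Q, R)` is a nonzero constant has `(l - 1) ∣ k`. -/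
theorem dvd_of_evQR_eq_C {Φ : MvPolynomial (Fin 2) κ} {k : ℕ}
    (hΦ : MvPolynomial.IsWeightedHomogeneous wt Φ k) {c0 : κ} (hc0 : c0 ≠ 0)
    (hev : evQR Q R Φ = PowerSeries.C c0) : (l - 1) ∣ k := by
  have hl2 : 2 ≤ l := hl.out.two_le
  have hA0 : A ≠ 0 := hasse_ne_zero hevA
  have hΦ0 : Φ ≠ 0 := by
    rintro rfl
    rw [map_zero] at hev
    apply hc0
    have := congrArg PowerSeries.constantCoeff hev
    simpa using this.symm
  set g := Nat.gcd k (l - 1) with hg
  have hgpos : 0 < g := Nat.gcd_pos_of_pos_right _ (by omega)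
  set m := (l - 1) / g with hm
  set K := k / g with hK
  have hgm : g * m = l - 1 := Nat.mul_div_cancel' (Nat.gcd_dvd_right _ _)
  have hgK : g * K = k := Nat.mul_div_cancel' (Nat.gcd_dvd_left _ _)
  have hcop : Nat.Coprime K m := Nat.coprime_div_gcd_div_gcd hgpos
  -- `Φ^m = c0^m A^K`
  have h1 : Φ ^ m = MvPolynomial.C (c0 ^ m) * A ^ K := by
    have hw1 : MvPolynomial.IsWeightedHomogeneous wt (Φ ^ m) (m * k) := by
      have := hΦ.pow m
      simpa [smul_eq_mul] using this
    have hw2 : MvPolynomial.IsWeightedHomogeneous wt (MvPolynomial.C (c0 ^ m) * A ^ K) (m * k) := by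
      have := (hA.pow K).C_mul (c0 ^ m)
      have e : K • (l - 1) = m * k := by
        rw [smul_eq_mul, ← hgm, ← hgK]; ring
      rwa [e] at this
    have hw3 := hw1.sub hw2
    have hev3 : evQR Q R (Φ ^ m - MvPolynomial.C (c0 ^ m) * A ^ K) = 0 := by
      simp only [map_sub, map_pow, map_mul, hev, hevA, evQR_C, one_pow, mul_one, sub_self]
    exact sub_eq_zero.1 (eq_zero_of_evQR_eq_zero hQ0 hR0 hΔ _ _ hw3 hev3)
  -- `A` is not a unit
  have hAu : ¬ IsUnit A := by
    intro hu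
    have h2 : IsUnit (tau A) := hu.map tau
    have h3 := Polynomial.natDegree_eq_zero_of_isUnit h2
    rw [natDegree_tau_of_isWeightedHomogeneous hA hA0] at h3
    omega
  obtain ⟨φ, hφ, hφA⟩ := WfDvdMonoid.exists_irreducible_factor hAu hA0
  have hφp : Prime φ := hφ.prime
  have hsq := not_sq_dvd_hasse l hP0 hQ0 hR0 hΔ hθQ hθR hθP hA hevA hφ
  obtain ⟨C1, hC1⟩ := hφA
  have hC1' : ¬ φ ∣ C1 := by
    rintro ⟨E, rfl⟩
    apply hsq
    exact ⟨E, by rw [hC1]; ring⟩
  obtain ⟨e, D, hD, hΦeq⟩ := WfDvdMonoid.max_power_factor hΦ0 hφ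
  have h2 : φ ^ (m * e) * D ^ m = φ ^ K * (MvPolynomial.C (c0 ^ m) * C1 ^ K) := by
    have : Φ ^ m = φ ^ (m * e) * D ^ m := by
      rw [hΦeq, mul_pow, ← pow_mul, mul_comm e m]
    rw [← this, h1, hC1, mul_pow]
    ring
  have h3 : m * e = K := by
    refine pow_mul_eq_imp hφp ?_ ?_ h2
    · intro h
      exact hD (hφp.dvd_of_dvd_pow h)
    · intro h
      rcases hφp.dvd_or_dvd h with h4 | h4
      · exact not_dvd_C_of_prime hφp (pow_ne_zero m hc0) h4
      · exact hC1' (hφp.dvd_of_dvd_pow h4)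
  have hm1 : m = 1 := by
    have h4 : m ∣ K := ⟨e, h3.symm⟩
    exact hcop.symm.eq_one_of_dvd h4
  rw [hm1, mul_one] at hgm
  rw [← hgm]
  exact Nat.gcd_dvd_left _ _

end Main

end Fermat.Agent.S16.H9
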