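import Mathlib
import Fermat.Agent.S16.H9_SwDAlgebra
import Fermat.Agent.S16.H95_SwdWeak
import Fermat.Agent.S16.H8_RamanujanFormal

set_option autoImplicit false

/-!
# S16 / (U5a) the STRONG Swinnerton-Dyer weight lemma at level one

`helper9`.  Glue of the abstract squarefree-Hasse-invariant argument
(`H9_SwDAlgebra.dvd_of_evQR_eq_C`) with the formal Ramanujan identities
(`H8_RamanujanFormal`), the level-one structure theorem and the Hasse invariant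
(`H95_LevelOneStructure`, `H95_Hasse`):

a level-one form with coefficients in a local subring `𝒪 ⊆ ℂ`, `l ∈ 𝔪`, `l ≥ 5`, which is a unit
constant mod `𝔪`, has weight divisible by `l - 1`.
-/

noncomputable section

namespace Fermat.Agent.S16.H9

open UpperHalfPlane ModularForm EisensteinSeries MatrixGroups ModularFormClass MvPolynomial

theorem wt_eq_wt95 : H95.wt = wt := rfl

theorem evQR_eq_ev95 (κ : Type*) [Field κ] : evQR (H95.e4 κ) (H95.e6 κ) = H95.ev κ := rfl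

theorem thetaPS_eq_qD {κ : Type*} [CommRing κ] (f : PowerSeries κ) : thetaPS f = H12.qD f := rfl

theorem constantCoeff_e2 (κ : Type*) [CommRing κ] :
    PowerSeries.constantCoeff (H8.e2 κ) = 1 := by
  simp [H8.e2, H8.e2Z, ← PowerSeries.coeff_zero_eq_constantCoeff_apply]

theorem six_ne_zero_of_charP (l : ℕ) [Fact l.Prime] (hl : 5 ≤ l) (κ : Type*) [Field κ]
    [CharP κ l] : (6 : κ) ≠ 0 := by
  have h := natCast_ne_zero_of_lt (κ := κ) l (n := 6) (by norm_num)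
  rcases Nat.lt_or_ge 6 l with h6 | h6
  · have := h h6
    exact_mod_cast this
  · -- `l = 5`
    have hl5 : l = 5 := by
      have hp : l.Prime := Fact.out
      interval_cases l
      · rfl
      · exact absurd hp (by norm_num)
    subst hl5
    have h1 : ((1 : ℕ) : κ) ≠ 0 := natCast_ne_zero_of_lt (κ := κ) 5 (n := 1) le_rfl (by norm_num)
    have h5 : ((5 : ℕ) : κ) = 0 := CharP.cast_eq_zero κ 5
    intro h6'
    apply h1
    have : ((1 : ℕ) : κ) = 6 - ((5 : ℕ) : κ) := by push_cast; ring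
    rw [this, h6', h5, sub_zero]

/-- **Strong Swinnerton-Dyer, abstract form in `helper95`'s vocabulary**: over a field `κ` of
characteristic `l ≥ 5`, given a Hasse invariant `A` (isobaric of weight `l - 1`, `ev A = 1`), an
isobaric `Φ` of weight `k` with `ev Φ` a nonzero constant has `(l - 1) ∣ k`. -/
theorem dvd_of_ev_eq_C (l : ℕ) [Fact l.Prime] (hl : 5 ≤ l) {κ : Type*} [Field κ] [CharP κ l]
    {A : MvPolynomial (Fin 2) κ} (hA : A.IsWeightedHomogeneous H95.wt (l - 1))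
    (hevA : H95.ev κ A = 1) {Φ : MvPolynomial (Fin 2) κ} {k : ℕ}
    (hΦ : Φ.IsWeightedHomogeneous H95.wt k) {c0 : κ} (hc0 : c0 ≠ 0)
    (hev : H95.ev κ Φ = PowerSeries.C c0) : (l - 1) ∣ k := by
  have h6 : (6 : κ) ≠ 0 := six_ne_zero_of_charP l hl κ
  have hΔ : H95.e4 κ ^ 3 - H95.e6 κ ^ 2 ≠ 0 := by
    rw [← H95.ev_disc]
    exact H95.ev_disc_ne_zero h6
  exact dvd_of_evQR_eq_C l (P := H8.e2 κ) (Q := H95.e4 κ) (R := H95.e6 κ)
    (constantCoeff_e2 κ) (H95.constantCoeff_e4 κ) (H95.constantCoeff_e6 κ) hΔ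
    (H8.ramanujan_e4 κ) (H8.ramanujan_e6 κ) (H8.ramanujan_e2 κ) hA hevA hΦ hc0 hev

/-- the residue field of a local subring of `ℂ` with `l ∈ 𝔪` has characteristic `l`. -/
theorem charP_residueField (l : ℕ) [Fact l.Prime] (𝒪 : Subring ℂ) [IsLocalRing 𝒪]
    (hl𝒪 : (l : 𝒪) ∈ IsLocalRing.maximalIdeal 𝒪) : CharP (IsLocalRing.ResidueField 𝒪) l := by
  have h0 : ((l : ℕ) : IsLocalRing.ResidueField 𝒪) = 0 := by
    have := (IsLocalRing.residue_eq_zero_iff (l : 𝒪)).mpr hl𝒪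
    rwa [map_natCast] at this
  have hp : l.Prime := Fact.out
  exact (CharP.charP_iff_prime_eq_zero hp).mpr h0

/-- **Strong Swinnerton-Dyer at level one** (binder block of `H95.swd_weak`): the weight of a
level-one form with `𝒪`-coefficients which is a unit constant mod `𝔪` is divisible by `l - 1`. -/
theorem swd_strong (l : ℕ) [Fact l.Prime] (hl : 5 ≤ l) (𝒪 : Subring ℂ) [IsLocalRing 𝒪]
    (hl𝒪 : (l : 𝒪) ∈ IsLocalRing.maximalIdeal 𝒪) (k : ℤ) (f : ModularForm 𝒮ℒ k)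
    (hf : ∀ n, PowerSeries.coeff n (qExpansion 1 f) ∈ 𝒪)
    (hpos : ∀ n, 1 ≤ n → (⟨_, hf n⟩ : 𝒪) ∈ IsLocalRing.maximalIdeal 𝒪)
    (h0 : (⟨_, hf 0⟩ : 𝒪) ∉ IsLocalRing.maximalIdeal 𝒪) : ((l - 1 : ℕ) : ℤ) ∣ k := by
  have := charP_residueField l 𝒪 hl𝒪
  have h6u := H95.isUnit_six_of_five_le hl hl𝒪
  obtain ⟨A, hA, hAev⟩ := H95.exists_hasse hl hl𝒪
  have hk0 : 0 ≤ k := by
    by_contra hneg
    rw [not_le] at hneg
    exact H95.coeff_zero_notMem_imp_ne_zero f hf h0 (levelOne_neg_weight_eq_zero hneg f)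
  obtain ⟨k', rfl⟩ := Int.eq_ofNat_of_zero_le hk0
  obtain ⟨P, hP, hPev⟩ := H95.exists_isobaric_residue_of_const h6u k' f hf hpos
  have hne : IsLocalRing.residue 𝒪 ⟨_, hf 0⟩ ≠ 0 := by
    rw [Ne, IsLocalRing.residue_eq_zero_iff]
    exact h0
  have := dvd_of_ev_eq_C l hl hA hAev hP hne hPev
  exact_mod_cast this

/-- the `ℤ`-shape `(l : ℤ) - 1 ∣ k` of `swd_strong`. -/
theorem swd_strong' (l : ℕ) [Fact l.Prime] (hl : 5 ≤ l) (𝒪 : Subring ℂ) [IsLocalRing 𝒪]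
    (hl𝒪 : (l : 𝒪) ∈ IsLocalRing.maximalIdeal 𝒪) (k : ℤ) (f : ModularForm 𝒮ℒ k)
    (hf : ∀ n, PowerSeries.coeff n (qExpansion 1 f) ∈ 𝒪)
    (hpos : ∀ n, 1 ≤ n → (⟨_, hf n⟩ : 𝒪) ∈ IsLocalRing.maximalIdeal 𝒪)
    (h0 : (⟨_, hf 0⟩ : 𝒪) ∉ IsLocalRing.maximalIdeal 𝒪) : ((l : ℤ) - 1) ∣ k := by
  have h := swd_strong l hl 𝒪 hl𝒪 k f hf hpos h0
  have hl1 : 1 ≤ l := by omega
  rwa [Nat.cast_sub hl1, Nat.cast_one] at h

end Fermat.Agent.S16.H9
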