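import Mathlib
import Fermat.Agent.S16.H83_SwD
import Fermat.Agent.S16.H9_SwDStrong

set_option autoImplicit false

/-!
# S16 / (U5a): the strong Swinnerton-Dyer theorem in the `φ`-shape (`helper83`)

Glue of `helper9`'s abstract strong form `H9.dvd_of_ev_eq_C` with the Hasse invariant
`H83.exists_hasse` and the reduction `H83.exists_isobaric_reduction`: no local ring needed.
-/

noncomputable section

namespace Fermat.Agent.S16.H83

open UpperHalfPlane ModularForm EisensteinSeries MatrixGroups ModularFormClass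
open Fermat.Agent.S16.H95

/-- **Strong Swinnerton-Dyer theorem, `φ`-shape.**  `l ≥ 5` prime, `𝒪 ⊆ ℂ` a subring with `6`
invertible, `φ : 𝒪 →+* κ` a ring hom to a field with `φ l = 0`.  A level-one form of weight `k`
with coefficients in `𝒪` whose reduction along `φ` is a nonzero constant has `(l - 1) ∣ k`. -/
theorem swd_strong (l : ℕ) [hl : Fact l.Prime] (hl5 : 5 ≤ l) (𝒪 : Subring ℂ)
    (h6 : IsUnit (6 : 𝒪)) {κ : Type*} [Field κ] (φ : 𝒪 →+* κ) (hφl : φ (l : 𝒪) = 0)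
    (k : ℤ) (f : ModularForm 𝒮ℒ k)
    (hf : ∀ n, PowerSeries.coeff n (qExpansion 1 f) ∈ 𝒪)
    (h0 : φ ⟨_, hf 0⟩ ≠ 0) (hpos : ∀ n, 1 ≤ n → φ ⟨_, hf n⟩ = 0) :
    ((l - 1 : ℕ) : ℤ) ∣ k := by
  have hlκ : (l : κ) = 0 := by simpa using hφl
  have : CharP κ l := (CharP.charP_iff_prime_eq_zero hl.out).mpr hlκ
  obtain ⟨A, hA, hevA⟩ := exists_hasse l hl5 𝒪 h6 φ hφl
  have hk : 0 ≤ k := by
    by_contra hcon
    have hq := qExpansion_eq_zero_of_neg (not_le.mp hcon) f
    apply h0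
    have : (⟨_, hf 0⟩ : 𝒪) = 0 := by
      apply Subtype.ext
      simp [hq]
    rw [this, map_zero]
  obtain ⟨m, rfl⟩ := Int.eq_ofNat_of_zero_le hk
  obtain ⟨F, hF, hFc⟩ := exists_isobaric_reduction 𝒪 h6 φ m f hf
  have hFev : ev κ F = PowerSeries.C (φ ⟨_, hf 0⟩) := by
    ext n
    rw [hFc, PowerSeries.coeff_C]
    split_ifs with hn
    · subst hn; rfl
    · exact hpos n (Nat.one_le_iff_ne_zero.mpr hn)
  have := Fermat.Agent.S16.H9.dvd_of_ev_eq_C l hl5 hA hevA hF h0 hFev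
  exact_mod_cast this

end Fermat.Agent.S16.H83
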