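/-
S16 / (G0): THE GENERIC ASSEMBLY (helper85, ruling #2521 (1)).

`k` algebraically closed of characteristic `0`, `F/k` a function field (`RR.H76.FFBase`), `x ∈ F`
transcendental, `n = [F : k(x)] = deg (x)_∞`.  With `R = Rfin k x` (integral closure of `k[x]`),
`Ri = Rinf k x` (integral closure of the local ring at infinity) and their trace duals:

  `2 gR - 2 + 2 n ≤ colen R R^ + colen Ri Ri^`.

Ingredients (all on main): P1 `H85_LatticeChi`, P2 `H38_G0DualSys`, P3 `H85_G0BasePair`,
`H85_G0Twist`, P3i `H35_G0Inst`, P4 `H6_G0Duality`, P5 `H94_G0Adapters`, `H6_G0Adapters`,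
P5a `H38_G0IntClosure`.
-/
import Mathlib
import Fermat.Agent.S16.H6_G0Iface
import Fermat.Agent.S16.H6_G0Duality
import Fermat.Agent.S16.H6_G0Adapters
import Fermat.Agent.S16.H35_G0Inst
import Fermat.Agent.S16.H38_G0DualSys
import Fermat.Agent.S16.H38_G0IntClosure
import Fermat.Agent.S16.H94_G0Adapters
import Fermat.Agent.S16.H85_G0BasePair
import Fermat.Agent.S16.H85_G0Twist

set_option autoImplicit false
set_option linter.unusedSectionVars false
set_option linter.style.haveILetI false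

open Module IntermediateField AlgebraicCurve

noncomputable section

namespace Fermat.Agent.S16.H85

open Fermat.Agent.S16 Fermat.Agent

variable {k F : Type*} [Field k] [Field F] [Algebra k F]

/-- A transcendental element whose pole divisor has positive degree has a pole. -/
theorem exists_pole_of_degree_pos {x : F} {D0 : Divisor k F}
    (hD0 : S18.H33.IsPoleDivisor x D0) (hdeg : 0 < Divisor.degree D0) :
    ∃ v : Place k F, v.ord x < 0 := by
  by_contra hno
  simp only [not_exists, not_lt] at hno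
  have h0 : D0 = 0 := by
    ext v
    rw [hD0 v]
    simp [hno v]
  rw [h0, map_zero] at hdeg
  exact lt_irrefl _ hdeg

/-- The twisted lattice `x^m • Rinf`, as the preimage of `Rinf` under `f ↦ x⁻¹ ^ m * f`. -/
def twistRinf (k : Type*) {F : Type*} [Field k] [Field F] [Algebra k F] (x : F) (m : ℕ) :
    Submodule k F :=
  (H6.Rinf k x).comap (LinearMap.mulLeft k (x⁻¹ ^ m))

theorem mem_twistRinf {x : F} {m : ℕ} {f : F} :
    f ∈ twistRinf k x m ↔ x⁻¹ ^ m * f ∈ H6.Rinf k x := Iff.rfl

/-- **(G0), generic assembly.** -/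
theorem two_gR_le_colen_add_colen [IsAlgClosed k] [CharZero k] (h : RR.H76.FFBase k F)
    (hplace : ∀ O : ValuationSubring F, (∀ a : k, algebraMap k F a ∈ O) → O ≠ ⊤ →
      IsPrincipalIdealRing O)
    (x : F) (htr : Transcendental k x) [FiniteDimensional k⟮x⟯ F] {D0 : Divisor k F}
    (hD0 : S18.H33.IsPoleDivisor x D0)
    (hdeg : Divisor.degree D0 = (Module.finrank k⟮x⟯ F : ℤ)) :
    2 * (h.gR : ℤ) - 2 + 2 * (Module.finrank k⟮x⟯ F : ℤ) ≤
      (H6.colen (H6.Rfin k x) (H6.dualK (H6.Afin k x) (H6.Rfin k x)) : ℤ) +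
      (H6.colen (H6.Rinf k x) (H6.dualK (H6.Binf k x) (H6.Rinf k x)) : ℤ) := by
  have hx0 : x ≠ 0 := fun h0 => htr (h0 ▸ isAlgebraic_zero)
  have hnpos : 0 < Module.finrank k⟮x⟯ F := Module.finrank_pos
  have hdegpos : 0 < Divisor.degree D0 := by
    rw [hdeg]
    exact_mod_cast hnpos
  have hpole : ∃ v : Place k F, v.ord x < 0 := exists_pole_of_degree_pos hD0 hdegpos
  -- separability (characteristic zero)
  haveI : CharZero k⟮x⟯ := charZero_of_injective_algebraMap (algebraMap k k⟮x⟯).injective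
  haveI : Algebra.IsSeparable k⟮x⟯ F := Algebra.IsAlgebraic.isSeparable_of_perfectField
  -- the two coefficient rings
  haveI := H35.isPrincipalIdealRing_Afin htr
  haveI := H35.isFractionRing_Afin (k := k) x
  haveI := H35.isPrincipalIdealRing_Binf htr hpole
  haveI := H35.isFractionRing_Binf (F := F) htr
  have hA : H6.DualSys (H6.LatK (H6.Afin k x) (F := F)) (H6.dualK (H6.Afin k x)) :=
    H38.dualSys_LatK (H35.hfin_Afin htr)
  have hB : H6.DualSys (H6.LatK (H6.Binf k x) (F := F)) (H6.dualK (H6.Binf k x)) :=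
    H38.dualSys_LatK (H35.hfin_Binf htr hpole)
  -- the base pair
  obtain ⟨U0, hU0, W0, hW0, hF0, hF0', hc⟩ :=
    exists_basePair (F := F) (H6.Afin k x) (H6.Binf k x) (H35.hsum_Afin_Binf htr)
      (H35.hint_Afin_Binf htr hpole)
  -- the two integral closures
  have hRint : ∀ f : F, f ∈ H6.Rfin k x ↔ IsIntegral ↥(H6.Afin k x) f :=
    H6.mem_Rfin_iff_isIntegral_Afin hplace hx0
  have hRiint : ∀ f : F, f ∈ H6.Rinf k x ↔ IsIntegral ↥(H6.Binf k x) f :=
    H6.mem_Rinf_iff_isIntegral_Binf h.finRes hplace htr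
  have hR : H6.Rfin k x ∈ H6.LatK (H6.Afin k x) (F := F) := H38.mem_LatK_of_integral hRint
  have hRi : H6.Rinf k x ∈ H6.LatK (H6.Binf k x) (F := F) := H38.mem_LatK_of_integral hRiint
  have hRd : H6.FinCol (H6.Rfin k x) (H6.dualK (H6.Afin k x) (H6.Rfin k x)) :=
    H38.finCol_dualK_of_integral (H35.hfin_Afin htr) hRint
  have hRid : H6.FinCol (H6.Rinf k x) (H6.dualK (H6.Binf k x) (H6.Rinf k x)) :=
    H38.finCol_dualK_of_integral (H35.hfin_Binf htr hpole) hRiint
  -- Riemann
  obtain ⟨m, hm⟩ := H94.exists_finrank_H6_inf_eq h hx0 hD0 hdegpos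
  have hRiem := hm m le_rfl (twistRinf k x m) (fun f => mem_twistRinf)
  -- the twist
  have hsmul : ∀ f : F, ((H35.tinf htr : ↥(H6.Binf k x)) : k⟮x⟯) ^ m • f = x⁻¹ ^ m * f := by
    intro f
    rw [Algebra.smul_def, H35.coe_tinf]
    simp
  obtain ⟨hT, ht⟩ := twist_end (H6.Binf k x) (H35.tinf htr) (H35.tinf_ne_zero htr)
    (H35.finrank_quotient_tinf htr hpole) hRi m (twistRinf k x m)
    (fun f => by rw [hsmul f]; exact mem_twistRinf)
  -- the duality formula
  have key := H6.two_finrank_inf_ge hA hB hU0 hW0 hF0 hF0' hc hR hRi hRd hRid hT ht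
  rw [hRiem, hdeg] at key
  push_cast at key
  linarith

end Fermat.Agent.S16.H85
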