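/-
S16 / (U2b-alt) package (L): local expansion at a degree-one place (helper85).

Part 1 (`section DVR`, Mathlib only).  `O` a discrete valuation ring which is a `k`-algebra with
residue field `k` (`hres : ∀ a, ∃ c : k, a - c ∈ 𝔪`), `t` a uniformiser.  Then

* `expandO hres ht : O →ₐ[k] k⟦X⟧`, injective, `expandO t = X`,
  `t ^ n ∣ a - aeval t (trunc n (expandO a))` and this characterises `expandO a`;
* `order_expandO` : `a = u * t ^ m` ⟹ `(expandO a).order = m`.
-/
import Mathlib
import Fermat.Prelude.Def_AlgebraicCurve_DivisorClassGroup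

set_option autoImplicit false
set_option linter.unusedSectionVars false
set_option linter.style.haveILetI false

open PowerSeries Polynomial IsLocalRing

noncomputable section

namespace Fermat.Agent.S16.H85

section DVR

variable {k O : Type*} [Field k] [CommRing O] [IsDomain O] [IsDiscreteValuationRing O]
  [Algebra k O]

/-- `f` approximates `a` to all orders in the `t`-adic sense. -/
def Approx (t a : O) (f : k⟦X⟧) : Prop :=
  ∀ n : ℕ, t ^ n ∣ a - aeval t (trunc n f)

variable {t : O}

theorem X_pow_dvd_sub_trunc (n : ℕ) (p : k[X]) : (X : k[X]) ^ n ∣ p - trunc n (p : k⟦X⟧) := by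
  rw [Polynomial.X_pow_dvd_iff]
  intro d hd
  rw [Polynomial.coeff_sub, coeff_trunc, if_pos hd, Polynomial.coeff_coe, sub_self]

theorem pow_dvd_aeval_sub_trunc (t : O) (n : ℕ) (p : k[X]) :
    t ^ n ∣ aeval t p - aeval t (trunc n (p : k⟦X⟧)) := by
  obtain ⟨q, hq⟩ := X_pow_dvd_sub_trunc n p
  rw [← map_sub, hq, map_mul, map_pow, aeval_X]
  exact dvd_mul_right _ _

theorem Approx.add {a b : O} {f g : k⟦X⟧} (ha : Approx t a f) (hb : Approx t b g) :
    Approx t (a + b) (f + g) := fun n => by
  have : a + b - aeval t (trunc n (f + g))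
      = (a - aeval t (trunc n f)) + (b - aeval t (trunc n g)) := by
    rw [map_add, map_add]; ring
  rw [this]
  exact dvd_add (ha n) (hb n)

theorem Approx.mul {a b : O} {f g : k⟦X⟧} (ha : Approx t a f) (hb : Approx t b g) :
    Approx t (a * b) (f * g) := fun n => by
  have h1 := pow_dvd_aeval_sub_trunc t n (trunc n f * trunc n g)
  rw [Polynomial.coe_mul, trunc_trunc_mul_trunc, map_mul] at h1
  have : a * b - aeval t (trunc n (f * g))
      = (a - aeval t (trunc n f)) * b + aeval t (trunc n f) * (b - aeval t (trunc n g))
        + (aeval t (trunc n f) * aeval t (trunc n g) - aeval t (trunc n (f * g))) := by ring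
  rw [this]
  exact dvd_add (dvd_add (Dvd.dvd.mul_right (ha n) _) (Dvd.dvd.mul_left (hb n) _)) h1

theorem approx_algebraMap (t : O) (c : k) : Approx t (algebraMap k O c) (PowerSeries.C c) := by
  intro n
  rcases n with _ | n
  · simp
  · rw [trunc_C, aeval_C, sub_self]
    exact dvd_zero _

theorem approx_t (t : O) : Approx t t (PowerSeries.X : k⟦X⟧) := by
  intro n
  rcases n with _ | _ | n
  · simp
  · simp
  · rw [trunc_X, aeval_X, sub_self]
    exact dvd_zero _

/-- Uniqueness of the expansion. -/
theorem Approx.unique (ht : Irreducible t) {a : O} {f g : k⟦X⟧} (hf : Approx t a f)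
    (hg : Approx t a g) : f = g := by
  have ht0 : t ≠ 0 := ht.ne_zero
  have key : ∀ n, trunc n f = trunc n g := by
    intro n
    induction n with
    | zero => simp
    | succ n ih =>
      rw [trunc_succ, trunc_succ, ih]
      congr 2
      obtain ⟨r, hr⟩ := hf (n + 1)
      obtain ⟨s, hs⟩ := hg (n + 1)
      rw [trunc_succ, map_add, aeval_monomial] at hr hs
      rw [ih] at hr
      set d : k := coeff n f - coeff n g with hd
      have h1 : t ^ n * algebraMap k O d = t ^ n * (t * (s - r)) := by
        rw [hd, map_sub]
        have e1 : algebraMap k O (coeff n f) * t ^ n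
            = a - aeval t (trunc n g) - t ^ (n + 1) * r := by
          rw [← hr]; ring
        have e2 : algebraMap k O (coeff n g) * t ^ n
            = a - aeval t (trunc n g) - t ^ (n + 1) * s := by
          rw [← hs]; ring
        rw [mul_sub, mul_comm (t ^ n) (algebraMap k O (coeff n f)),
          mul_comm (t ^ n) (algebraMap k O (coeff n g)), e1, e2]
        ring
      have h2 : algebraMap k O d = t * (s - r) := mul_left_cancel₀ (pow_ne_zero n ht0) h1
      by_contra hne
      have hd0 : d ≠ 0 := fun h => hne (sub_eq_zero.mp h)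
      have hu : IsUnit (algebraMap k O d) := (IsUnit.mk0 d hd0).map _
      rw [h2] at hu
      exact ht.not_isUnit (isUnit_of_mul_isUnit_left hu)
  ext n
  have := congrArg (fun p : k[X] => p.coeff n) (key (n + 1))
  simpa [coeff_trunc] using this

variable (hres : ∀ a : O, ∃ c : k, a - algebraMap k O c ∈ maximalIdeal O)

/-- the residue constant of `a`. -/
def c0 (a : O) : k := (hres a).choose

theorem c0_spec (a : O) : a - algebraMap k O (c0 hres a) ∈ maximalIdeal O :=
  (hres a).choose_spec

theorem exists_next (ht : Irreducible t) (a : O) :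
    ∃ b : O, a = algebraMap k O (c0 hres a) + t * b := by
  have h := c0_spec hres a
  rw [ht.maximalIdeal_eq, Ideal.mem_span_singleton] at h
  obtain ⟨b, hb⟩ := h
  exact ⟨b, by rw [← hb]; ring⟩

/-- `(a - c0 a) / t`. -/
def next (ht : Irreducible t) (a : O) : O := (exists_next hres ht a).choose

theorem next_spec (ht : Irreducible t) (a : O) :
    a = algebraMap k O (c0 hres a) + t * next hres ht a :=
  (exists_next hres ht a).choose_spec

/-- The expansion of `a` as a power series in the uniformiser `t`. -/
def expandFun (ht : Irreducible t) (a : O) : k⟦X⟧ :=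
  PowerSeries.mk fun n => c0 hres ((next hres ht)^[n] a)

theorem eq_trunc_add (ht : Irreducible t) (a : O) (n : ℕ) :
    a = aeval t (trunc n (expandFun hres ht a)) + t ^ n * (next hres ht)^[n] a := by
  induction n with
  | zero => simp
  | succ n ih =>
    rw [trunc_succ, map_add, aeval_monomial, Function.iterate_succ_apply']
    have h1 := next_spec hres ht ((next hres ht)^[n] a)
    have h2 : coeff n (expandFun hres ht a) = c0 hres ((next hres ht)^[n] a) := by
      rw [expandFun, coeff_mk]
    rw [h2]
    calc a = aeval t (trunc n (expandFun hres ht a)) + t ^ n * (next hres ht)^[n] a := ih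
      _ = aeval t (trunc n (expandFun hres ht a))
          + t ^ n * (algebraMap k O (c0 hres ((next hres ht)^[n] a))
            + t * next hres ht ((next hres ht)^[n] a)) := by rw [← h1]
      _ = _ := by ring

theorem approx_expandFun (ht : Irreducible t) (a : O) : Approx t a (expandFun hres ht a) := by
  intro n
  refine ⟨(next hres ht)^[n] a, ?_⟩
  have := eq_trunc_add hres ht a n
  rw [sub_eq_iff_eq_add']
  exact this

theorem expandFun_eq_of_approx (ht : Irreducible t) {a : O} {f : k⟦X⟧} (hf : Approx t a f) :
    expandFun hres ht a = f :=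
  (approx_expandFun hres ht a).unique ht hf

/-- The expansion as a `k`-algebra homomorphism `O → k⟦X⟧`. -/
def expandO (ht : Irreducible t) : O →ₐ[k] k⟦X⟧ where
  toFun := expandFun hres ht
  map_one' := by
    have := approx_algebraMap (k := k) t (1 : k)
    rw [map_one, map_one] at this
    exact expandFun_eq_of_approx hres ht this
  map_mul' a b := expandFun_eq_of_approx hres ht
    ((approx_expandFun hres ht a).mul (approx_expandFun hres ht b))
  map_zero' := by
    have := approx_algebraMap (k := k) t (0 : k)
    rw [map_zero, map_zero] at this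
    exact expandFun_eq_of_approx hres ht this
  map_add' a b := expandFun_eq_of_approx hres ht
    ((approx_expandFun hres ht a).add (approx_expandFun hres ht b))
  commutes' c := expandFun_eq_of_approx hres ht (approx_algebraMap t c)

theorem expandO_apply (ht : Irreducible t) (a : O) : expandO hres ht a = expandFun hres ht a := rfl

theorem approx_expandO (ht : Irreducible t) (a : O) : Approx t a (expandO hres ht a) :=
  approx_expandFun hres ht a

theorem expandO_t (ht : Irreducible t) : expandO hres ht t = PowerSeries.X :=
  expandFun_eq_of_approx hres ht (approx_t t)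

theorem coeff_zero_expandO (ht : Irreducible t) (a : O) :
    coeff 0 (expandO hres ht a) = c0 hres a := by
  rw [expandO_apply, expandFun, coeff_mk, Function.iterate_zero, id]

theorem sub_coeff_zero_mem (ht : Irreducible t) (a : O) :
    a - algebraMap k O (coeff 0 (expandO hres ht a)) ∈ maximalIdeal O := by
  rw [coeff_zero_expandO]
  exact c0_spec hres a

theorem expandO_injective (ht : Irreducible t) : Function.Injective (expandO hres ht) := by
  rw [injective_iff_map_eq_zero]
  intro a ha
  by_contra hne
  obtain ⟨n, u, hu⟩ := IsDiscreteValuationRing.eq_unit_mul_pow_irreducible hne ht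
  have h := approx_expandO hres ht a (n + 1)
  rw [ha, map_zero, map_zero, sub_zero, hu, pow_succ] at h
  have h2 : t ∣ (u : O) := by
    have h3 : t ^ n * t ∣ t ^ n * (u : O) := by rwa [mul_comm (u : O)] at h
    exact (mul_dvd_mul_iff_left (pow_ne_zero n ht.ne_zero)).mp h3
  exact ht.not_isUnit (isUnit_of_dvd_unit h2 u.isUnit)

theorem coeff_zero_expandO_ne_zero (ht : Irreducible t) {a : O} (ha : IsUnit a) :
    coeff 0 (expandO hres ht a) ≠ 0 := by
  intro h0
  have h := sub_coeff_zero_mem hres ht a
  rw [h0, map_zero, sub_zero] at h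
  exact (mem_maximalIdeal a).mp h ha

theorem order_expandO (ht : Irreducible t) (u : Oˣ) (m : ℕ) :
    (expandO hres ht ((u : O) * t ^ m)).order = m := by
  rw [map_mul, map_pow, expandO_t, mul_comm]
  rw [PowerSeries.order_mul, PowerSeries.order_X_pow]
  have : (expandO hres ht (u : O)).order = 0 :=
    PowerSeries.order_zero_of_unit
      (PowerSeries.isUnit_iff_constantCoeff.mpr
        (IsUnit.mk0 _ (by
          rw [← PowerSeries.coeff_zero_eq_constantCoeff_apply]
          exact coeff_zero_expandO_ne_zero hres ht u.isUnit)))
  rw [this, add_zero]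

end DVR

/-! ### Laurent series lemmas -/

section Laurent

variable {k : Type*} [Field k]

theorem coeff_ofPowerSeries_neg (g : k⟦X⟧) {m : ℤ} (hm : m < 0) :
    (HahnSeries.ofPowerSeries ℤ k g).coeff m = 0 := by
  rw [HahnSeries.ofPowerSeries_apply, HahnSeries.embDomain_of_notMem_range]
  simp only [Nat.castOrderEmbedding_apply, Set.mem_range, not_exists]
  intro n hn
  omega

theorem single_mul_ofPowerSeries_ne_zero (n : ℤ) {g : k⟦X⟧} (hg : PowerSeries.coeff 0 g ≠ 0) :
    HahnSeries.single n (1 : k) * HahnSeries.ofPowerSeries ℤ k g ≠ 0 := by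
  intro h
  have h1 := congrArg (fun x : HahnSeries ℤ k => x.coeff (0 + n)) h
  simp only [HahnSeries.coeff_single_mul_add, one_mul, HahnSeries.coeff_zero] at h1
  have h2 : (HahnSeries.ofPowerSeries ℤ k g).coeff ((0 : ℕ) : ℤ) = PowerSeries.coeff 0 g :=
    HahnSeries.ofPowerSeries_apply_coeff g 0
  rw [Nat.cast_zero] at h2
  exact hg (h2 ▸ h1)

/-- `X ^ n * (unit power series)` has order `n`. -/
theorem order_single_mul_ofPowerSeries (n : ℤ) {g : k⟦X⟧} (hg : PowerSeries.coeff 0 g ≠ 0) :
    (HahnSeries.single n (1 : k) * HahnSeries.ofPowerSeries ℤ k g).order = n := by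
  set y := HahnSeries.single n (1 : k) * HahnSeries.ofPowerSeries ℤ k g with hy
  have hy0 : y ≠ 0 := single_mul_ofPowerSeries_ne_zero n hg
  have hcoeff : ∀ m : ℤ, y.coeff m = (HahnSeries.ofPowerSeries ℤ k g).coeff (m - n) := by
    intro m
    have := HahnSeries.coeff_single_mul_add (r := (1 : k))
      (x := HahnSeries.ofPowerSeries ℤ k g) (a := m - n) (b := n)
    rw [sub_add_cancel, one_mul] at this
    exact this
  apply le_antisymm
  · apply HahnSeries.order_le_of_coeff_ne_zero
    rw [hcoeff, sub_self]
    have h2 : (HahnSeries.ofPowerSeries ℤ k g).coeff ((0 : ℕ) : ℤ) = PowerSeries.coeff 0 g :=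
      HahnSeries.ofPowerSeries_apply_coeff g 0
    rw [Nat.cast_zero] at h2
    rw [h2]
    exact hg
  · by_contra hlt
    rw [not_le] at hlt
    have h1 : y.coeff y.order ≠ 0 := fun h => hy0 (HahnSeries.coeff_order_eq_zero.mp h)
    apply h1
    rw [hcoeff]
    exact coeff_ofPowerSeries_neg g (by omega)

end Laurent

/-! ### Extension to the fraction field -/

section Frac

variable {k O K : Type*} [Field k] [CommRing O] [IsDomain O] [IsDiscreteValuationRing O]
  [Algebra k O] [Field K] [Algebra O K] [IsFractionRing O K] [Algebra k K] [IsScalarTower k O K]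
  {t : O} (hres : ∀ a : O, ∃ c : k, a - algebraMap k O c ∈ maximalIdeal O)

/-- `O → k⟦X⟧ → k⸨X⸩`. -/
def expandOL (ht : Irreducible t) : O →ₐ[k] LaurentSeries k where
  toRingHom := (HahnSeries.ofPowerSeries ℤ k).comp (expandO hres ht).toRingHom
  commutes' c := by
    show HahnSeries.ofPowerSeries ℤ k (expandO hres ht (algebraMap k O c)) = _
    rw [AlgHom.commutes]
    rfl

theorem expandOL_apply (ht : Irreducible t) (a : O) :
    expandOL hres ht a = HahnSeries.ofPowerSeries ℤ k (expandO hres ht a) := rfl

theorem expandOL_injective (ht : Irreducible t) : Function.Injective (expandOL hres ht) :=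
  HahnSeries.ofPowerSeries_injective.comp (expandO_injective hres ht)

/-- **The local expansion** `K → k⸨X⸩` at the discrete valuation ring `O` with uniformiser `t`. -/
def expandK (ht : Irreducible t) : K →ₐ[k] LaurentSeries k :=
  IsFractionRing.liftAlgHom (expandOL_injective hres ht)

theorem expandK_algebraMap (ht : Irreducible t) (a : O) :
    expandK (K := K) hres ht (algebraMap O K a)
      = HahnSeries.ofPowerSeries ℤ k (expandO hres ht a) := by
  rw [expandK, IsFractionRing.liftAlgHom_apply, IsFractionRing.lift_algebraMap]
  rfl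

theorem expandK_t (ht : Irreducible t) :
    expandK (K := K) hres ht (algebraMap O K t) = HahnSeries.single 1 (1 : k) := by
  rw [expandK_algebraMap, expandO_t, HahnSeries.ofPowerSeries_X]

theorem expandK_injective (ht : Irreducible t) :
    Function.Injective (expandK (K := K) hres ht) :=
  (expandK (K := K) hres ht).toRingHom.injective

/-- Every nonzero `f ∈ K` expands as `X ^ n * (unit power series)` where `f = u t ^ n`. -/
theorem expandK_unit_mul_zpow (ht : Irreducible t) (u : Oˣ) (n : ℤ) :
    ∃ g : k⟦X⟧, PowerSeries.coeff 0 g ≠ 0 ∧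
      expandK (K := K) hres ht (algebraMap O K (u : O) * algebraMap O K t ^ n)
        = HahnSeries.single n (1 : k) * HahnSeries.ofPowerSeries ℤ k g := by
  refine ⟨expandO hres ht (u : O), coeff_zero_expandO_ne_zero hres ht u.isUnit, ?_⟩
  rw [map_mul, map_zpow₀, expandK_t, expandK_algebraMap, ← RatFunc.single_zpow, mul_comm]

theorem order_expandK_unit_mul_zpow (ht : Irreducible t) (u : Oˣ) (n : ℤ) :
    (expandK (K := K) hres ht (algebraMap O K (u : O) * algebraMap O K t ^ n)).order = n := by
  obtain ⟨g, hg, h⟩ := expandK_unit_mul_zpow (K := K) hres ht u n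
  rw [h]
  exact order_single_mul_ofPowerSeries n hg

end Frac

/-! ### Places -/

section PlaceSec

open AlgebraicCurve

variable {k K : Type*} [Field k] [Field K] [Algebra k K] (v : Place k K)

/-- The residue field of `v` is `k`. -/
def ResidueTrivial : Prop :=
  ∀ a : v.toValuationSubring, ∃ c : k,
    a - algebraMap k v.toValuationSubring c ∈ maximalIdeal v.toValuationSubring

theorem residueTrivial_of_surjective
    (h : Function.Surjective (algebraMap k v.ResidueField)) : ResidueTrivial v := by
  intro a
  obtain ⟨c, hc⟩ := h (IsLocalRing.residue _ a)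
  refine ⟨c, ?_⟩
  rw [← Ideal.Quotient.eq_zero_iff_mem]
  have h1 : IsLocalRing.residue v.toValuationSubring (algebraMap k v.toValuationSubring c)
      = algebraMap k v.ResidueField c := rfl
  show IsLocalRing.residue _ (a - algebraMap k v.toValuationSubring c) = 0
  rw [map_sub, h1, hc, sub_self]

theorem residueTrivial_of_isAlgClosed [IsAlgClosed k] [Algebra.IsIntegral k v.ResidueField] :
    ResidueTrivial v :=
  residueTrivial_of_surjective v IsAlgClosed.algebraMap_bijective_of_isIntegral.2

variable {v}

/-- an element of order `1` lies in the valuation ring and is irreducible there. -/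
theorem exists_irreducible_of_ord_eq_one {t : K} (ht : v.ord t = 1) :
    ∃ π : v.toValuationSubring, Irreducible π ∧ (π : K) = t := by
  obtain ⟨ϖ, hϖ⟩ := IsDiscreteValuationRing.exists_irreducible v.toValuationSubring
  have ht0 : t ≠ 0 := by
    rintro rfl
    rw [Place.ord_zero] at ht
    exact zero_ne_one ht
  obtain ⟨u, hu⟩ := v.exists_unit_mul_zpow ht0 hϖ
  rw [ht, zpow_one] at hu
  refine ⟨(u : v.toValuationSubring) * ϖ, ?_, ?_⟩
  · exact (irreducible_isUnit_mul u.isUnit).mpr hϖ
  · rw [hu]; rfl

variable (v)

/-- **Local expansion at a place** `v` with trivial residue field extension, w.r.t. an element `t`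
of order `1`. -/
def expand (hv : ResidueTrivial v) {t : K} (ht : v.ord t = 1) : K →ₐ[k] LaurentSeries k :=
  expandK (O := v.toValuationSubring) (K := K) hv
    (exists_irreducible_of_ord_eq_one ht).choose_spec.1

theorem expand_t (hv : ResidueTrivial v) {t : K} (ht : v.ord t = 1) :
    expand v hv ht t = HahnSeries.single 1 (1 : k) := by
  have h := (exists_irreducible_of_ord_eq_one ht).choose_spec
  have := expandK_t (O := v.toValuationSubring) (K := K) hv h.1
  rw [expand]
  convert this using 2
  exact h.2.symm

theorem expand_injective (hv : ResidueTrivial v) {t : K} (ht : v.ord t = 1) :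
    Function.Injective (expand v hv ht) :=
  (expand v hv ht).toRingHom.injective

/-- Shape of the expansion: `X ^ (ord f) * (unit power series)`. -/
theorem expand_eq_single_mul (hv : ResidueTrivial v) {t : K} (ht : v.ord t = 1) {f : K}
    (hf : f ≠ 0) :
    ∃ g : k⟦X⟧, PowerSeries.coeff 0 g ≠ 0 ∧
      expand v hv ht f = HahnSeries.single (v.ord f) (1 : k) * HahnSeries.ofPowerSeries ℤ k g := by
  have h := (exists_irreducible_of_ord_eq_one ht).choose_spec
  obtain ⟨u, hu⟩ := v.exists_unit_mul_zpow hf h.1
  have := expandK_unit_mul_zpow (O := v.toValuationSubring) (K := K) hv h.1 u (v.ord f)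
  obtain ⟨g, hg, hgg⟩ := this
  refine ⟨g, hg, ?_⟩
  rw [expand]
  rw [← hgg]
  congr 1

/-- **The expansion preserves orders.** -/
theorem order_expand (hv : ResidueTrivial v) {t : K} (ht : v.ord t = 1) {f : K} (hf : f ≠ 0) :
    (expand v hv ht f).order = v.ord f := by
  obtain ⟨g, hg, h⟩ := expand_eq_single_mul v hv ht hf
  rw [h]
  exact order_single_mul_ofPowerSeries _ hg

/-- Elements of the valuation ring expand to power series; the constant coefficient is the residue
constant. -/
theorem expand_of_mem (hv : ResidueTrivial v) {t : K} (ht : v.ord t = 1)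
    (a : v.toValuationSubring) :
    ∃ g : k⟦X⟧, expand v hv ht (a : K) = HahnSeries.ofPowerSeries ℤ k g ∧
      a - algebraMap k v.toValuationSubring (PowerSeries.coeff 0 g)
        ∈ maximalIdeal v.toValuationSubring := by
  have h := (exists_irreducible_of_ord_eq_one ht).choose_spec
  refine ⟨expandO hv h.1 a, ?_, sub_coeff_zero_mem hv h.1 a⟩
  rw [expand]
  exact expandK_algebraMap (O := v.toValuationSubring) (K := K) hv h.1 a

end PlaceSec

/-! ### Derivations and separable algebraic extensions -/

section Deriv

variable {k K M : Type*} [Field k] [Field K] [Algebra k K] [AddCommGroup M] [Module K M]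
  [Module k M] [IsScalarTower k K M]

/-- The constants of a derivation form an intermediate field. -/
def kerField (D : Derivation k K M) : IntermediateField k K where
  carrier := {x | D x = 0}
  mul_mem' {a b} ha hb := by
    have ha' : D a = 0 := ha
    have hb' : D b = 0 := hb
    show D (a * b) = 0
    rw [Derivation.leibniz, ha', hb', smul_zero, smul_zero, add_zero]
  one_mem' := D.map_one_eq_zero
  add_mem' {a b} ha hb := by
    have ha' : D a = 0 := ha
    have hb' : D b = 0 := hb
    show D (a + b) = 0
    rw [map_add, ha', hb', add_zero]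
  zero_mem' := map_zero D
  algebraMap_mem' c := D.map_algebraMap c
  inv_mem' x hx := by
    have hx' : D x = 0 := hx
    show D x⁻¹ = 0
    rw [Derivation.leibniz_inv, hx', smul_zero]

theorem mem_kerField {D : Derivation k K M} {x : K} : x ∈ kerField D ↔ D x = 0 := Iff.rfl

/-- **A derivation killing `s` vanishes on every separable algebraic extension of `k(s)`.** -/
theorem derivation_apply_eq_zero (D : Derivation k K M) {s : K} (hs : D s = 0)
    [Algebra.IsSeparable (IntermediateField.adjoin k {s}) K] (x : K) : D x = 0 := by
  set F := IntermediateField.adjoin k {s} with hF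
  have hle : F ≤ kerField D := IntermediateField.adjoin_simple_le_iff.mpr hs
  have hFker : ∀ a : F, D (a : K) = 0 := fun a => hle a.2
  -- `D` as an `F`-derivation
  letI : Module F M := Module.compHom M (algebraMap F K)
  have hsmul : ∀ (a : F) (m : M), a • m = (a : K) • m := fun _ _ => rfl
  haveI : IsScalarTower F K M := ⟨fun a y m => by
    rw [Algebra.smul_def]
    exact mul_smul _ _ _⟩
  let D' : Derivation F K M :=
    { toFun := D
      map_add' := map_add D
      map_smul' := fun a y => by
        have h0 : D (algebraMap F K a) = 0 := hFker a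
        rw [RingHom.id_apply, Algebra.smul_def, Derivation.leibniz, h0, smul_zero, add_zero]
        rfl
      map_one_eq_zero' := D.map_one_eq_zero
      leibniz' := D.leibniz }
  have hsep : IsSeparable F x := Algebra.IsSeparable.isSeparable F x
  have h1 : D' (Polynomial.aeval x (minpoly F x)) = 0 := by rw [minpoly.aeval, map_zero]
  rw [Derivation.map_aeval] at h1
  have h2 : Polynomial.aeval x (Polynomial.derivative (minpoly F x)) ≠ 0 :=
    Polynomial.Separable.aeval_derivative_ne_zero hsep (minpoly.aeval F x)
  have h3 : D' x = 0 := (smul_eq_zero.mp h1).resolve_left h2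
  exact h3

end Deriv

section Transport

variable {k K L : Type*} [Field k] [Field K] [Algebra k K] [Field L] [Algebra k L]

/-- **Proportionality of derivations along an embedding.**  `θ` a `k`-derivation of `K`, `D` a
`k`-derivation of `L`, `ι : K → L` a `k`-embedding, `K` separable algebraic over `k(s)`:
`ι (θ f) * D (ι s) = ι (θ s) * D (ι f)` for every `f`. -/
theorem derivation_proportional (θ : Derivation k K K) (D : Derivation k L L) (ι : K →ₐ[k] L)
    (s : K) [Algebra.IsSeparable (IntermediateField.adjoin k {s}) K] (f : K) :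
    ι (θ f) * D (ι s) = ι (θ s) * D (ι f) := by
  letI : Algebra K L := ι.toRingHom.toAlgebra
  have hsm : ∀ (a : K) (m : L), a • m = ι a * m := fun a m => by
    rw [Algebra.smul_def]; rfl
  haveI : IsScalarTower k K L := IsScalarTower.of_algebraMap_eq fun c => (ι.commutes c).symm
  let Δ : Derivation k K L :=
    { toFun := fun f => ι (θ f) * D (ι s) - ι (θ s) * D (ι f)
      map_add' := fun a b => by
        simp only [map_add]; ring
      map_smul' := fun c a => by
        show ι (θ (c • a)) * D (ι s) - ι (θ s) * D (ι (c • a))
          = c • (ι (θ a) * D (ι s) - ι (θ s) * D (ι a))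
        rw [Derivation.map_smul, map_smul ι, map_smul ι, Derivation.map_smul, smul_sub,
          smul_mul_assoc, mul_smul_comm]
      map_one_eq_zero' := by
        show ι (θ 1) * D (ι s) - ι (θ s) * D (ι 1) = 0
        rw [θ.map_one_eq_zero, map_zero, zero_mul, map_one, D.map_one_eq_zero, mul_zero, sub_zero]
      leibniz' := fun a b => by
        show ι (θ (a * b)) * D (ι s) - ι (θ s) * D (ι (a * b))
          = a • (ι (θ b) * D (ι s) - ι (θ s) * D (ι b))
            + b • (ι (θ a) * D (ι s) - ι (θ s) * D (ι a))
        rw [hsm, hsm, θ.leibniz, map_mul, D.leibniz, map_add, smul_eq_mul, smul_eq_mul, map_mul,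
          map_mul, smul_eq_mul, smul_eq_mul]
        ring }
  have h0 : Δ s = 0 := by
    show ι (θ s) * D (ι s) - ι (θ s) * D (ι s) = 0
    exact sub_self _
  have := derivation_apply_eq_zero Δ h0 f
  exact sub_eq_zero.mp this

/-- **Derivation transport.**  If moreover `D (ι t) = 1` then `ι (θ f) = ι (θ t) * D (ι f)`:
in the coordinate `t`, `θ = (θ t) • d/dt`. -/
theorem derivation_transport (θ : Derivation k K K) (D : Derivation k L L) (ι : K →ₐ[k] L)
    (s : K) [Algebra.IsSeparable (IntermediateField.adjoin k {s}) K] {t : K} (ht : D (ι t) = 1)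
    (f : K) : ι (θ f) = ι (θ t) * D (ι f) := by
  have h1 := derivation_proportional θ D ι s f
  have h2 := derivation_proportional θ D ι s t
  rw [ht, mul_one] at h2
  by_cases hs : θ s = 0
  · -- then `θ = 0`
    have hθ : ∀ x, θ x = 0 := fun x => derivation_apply_eq_zero θ hs x
    rw [hθ f, hθ t, map_zero, zero_mul]
  · have hne : D (ι s) ≠ 0 := by
      intro h
      rw [h, mul_zero] at h2
      exact hs ((map_eq_zero_iff ι ι.toRingHom.injective).mp h2.symm)
    apply mul_right_cancel₀ hne
    rw [h1, ← h2]
    ring

end Transport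

end Fermat.Agent.S16.H85
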