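/-
S16 / (U2b-alt) package (L), part 2 (helper85): `d/dX` on `k⸨X⸩` as a derivation and the
derivation transport at a place:

  `expand v hv ht (θ f) = expand v hv ht (θ t) * ddX (expand v hv ht f)`

for every `k`-derivation `θ` of `K`, provided `K` is separable algebraic over `k(s)` for some `s`.
-/
import Mathlib
import Fermat.Agent.S16.H85_LocalExpansion
import Fermat.Agent.S28.H39_Laurent

set_option autoImplicit false

open HahnSeries AlgebraicCurve

noncomputable section

namespace Fermat.Agent.S16.H85

variable {k : Type*} [Field k]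

/-- `d/dX` on Laurent series, as a `k`-derivation: `X⁻¹ • (X d/dX)`.  Domain and codomain carry
the module structure of the ambient `k`-algebra structure of `k⸨X⸩` (so that the type unifies with
`Derivation k L L` for an abstract `k`-algebra `L`), as for `S28.H39.thetaDer`. -/
def ddX : @Derivation k (LaurentSeries k) (LaurentSeries k) _ _ _ _ _ Algebra.toModule :=
  letI : Module k (LaurentSeries k) := Algebra.toModule
  { toFun := fun f => HahnSeries.single (-1 : ℤ) (1 : k) * S28.thetaOp f
    map_add' := fun a b => by rw [map_add, mul_add]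
    map_smul' := fun c a => by
      have h := (S28.H39.thetaDer (R := k)).map_smul c a
      rw [S28.H39.thetaDer_apply, S28.H39.thetaDer_apply] at h
      rw [RingHom.id_apply, h, Algebra.mul_smul_comm]
    map_one_eq_zero' := by
      show HahnSeries.single (-1 : ℤ) (1 : k) * S28.thetaOp 1 = 0
      rw [S28.H39.thetaOp_one, mul_zero]
    leibniz' := fun a b => by
      show HahnSeries.single (-1 : ℤ) (1 : k) * S28.thetaOp (a * b)
        = a • (HahnSeries.single (-1 : ℤ) (1 : k) * S28.thetaOp b)
          + b • (HahnSeries.single (-1 : ℤ) (1 : k) * S28.thetaOp a)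
      rw [S28.thetaOp_mul, smul_eq_mul, smul_eq_mul]
      ring }

theorem ddX_apply (f : LaurentSeries k) :
    ddX f = HahnSeries.single (-1 : ℤ) (1 : k) * S28.thetaOp f := rfl

@[simp] theorem ddX_coeff (f : LaurentSeries k) (n : ℤ) :
    (ddX f).coeff n = ((n + 1 : ℤ) : k) * f.coeff (n + 1) := by
  rw [ddX_apply]
  have := HahnSeries.coeff_single_mul_add (r := (1 : k)) (x := S28.thetaOp f) (a := n + 1)
    (b := (-1 : ℤ))
  rw [add_neg_cancel_right, one_mul] at this
  rw [this, S28.thetaOp_coeff]

theorem ddX_single_one : ddX (HahnSeries.single (1 : ℤ) (1 : k)) = 1 := by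
  ext n
  rw [ddX_coeff, HahnSeries.coeff_one]
  by_cases hn : n = 0
  · subst hn
    simp
  · rw [if_neg hn, HahnSeries.coeff_single_of_ne (by omega), mul_zero]

/-- `ddX` of a power series is the formal derivative. -/
theorem ddX_ofPowerSeries_coeff (g : PowerSeries k) (n : ℕ) :
    (ddX (HahnSeries.ofPowerSeries ℤ k g)).coeff (n : ℤ)
      = ((n + 1 : ℕ) : k) * PowerSeries.coeff (n + 1) g := by
  rw [ddX_coeff]
  have h := HahnSeries.ofPowerSeries_apply_coeff (Γ := ℤ) g (n + 1)
  push_cast at h ⊢
  rw [h]

variable {K : Type*} [Field K] [Algebra k K] (v : Place k K)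

/-- **Derivation transport at a place.**  In the local coordinate `t`, every `k`-derivation `θ` of
`K` is `(θ t) • d/dt`. -/
theorem expand_derivation (hv : ResidueTrivial v) {t : K} (ht : v.ord t = 1)
    (θ : Derivation k K K) (s : K) [Algebra.IsSeparable (IntermediateField.adjoin k {s}) K]
    (f : K) :
    expand v hv ht (θ f) = expand v hv ht (θ t) * ddX (expand v hv ht f) :=
  derivation_transport θ ddX (expand v hv ht) s (by rw [expand_t]; exact ddX_single_one) f

/-- proportional form, no coordinate: for any two elements `f`, `s`. -/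
theorem expand_derivation_proportional (hv : ResidueTrivial v) {t : K} (ht : v.ord t = 1)
    (θ : Derivation k K K) (s : K) [Algebra.IsSeparable (IntermediateField.adjoin k {s}) K]
    (f : K) :
    expand v hv ht (θ f) * ddX (expand v hv ht s)
      = expand v hv ht (θ s) * ddX (expand v hv ht f) :=
  derivation_proportional θ ddX (expand v hv ht) s f

end Fermat.Agent.S16.H85
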