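import Fermat.Agent.S24.H8_Ramanujan

/-!
Ramanujan's identity for `E₂`: `D E₂ = (E₂² - E₄) / 12`, where `D = (2πi)⁻¹ d/dτ`.

`serreDerivative 1 E₂ = D E₂ - E₂² / 12` is invariant of weight `4` (the quasi-modular corrections
cancel), holomorphic and bounded, hence a multiple of `E₄`; compare the limits at `i∞`.
-/

set_option autoImplicit false

open UpperHalfPlane hiding I
open Real Complex Filter Topology Function
open scoped Manifold MatrixGroups ModularForm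
open Derivative ModularForm EisensteinSeries

namespace Fermat.Agent.S16.H8

open Fermat.Agent.S24.H8

theorem D2_apply (γ : SL(2, ℤ)) (z : ℍ) : D2 γ z = (2 * π * I * γ 1 0) / denom γ z := rfl

theorem mdifferentiable_D2 (γ : SL(2, ℤ)) : MDiff (D2 γ) := by
  have h := E2_slash_action γ
  have hz : (riemannZeta 2 : ℂ) ≠ 0 := by
    rw [riemannZeta_two]
    have hpi : (π : ℂ) ≠ 0 := ofReal_ne_zero.mpr pi_ne_zero
    exact div_ne_zero (pow_ne_zero 2 hpi) (by norm_num)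
  have h2 : D2 γ = (2 * riemannZeta 2) • (E2 - E2 ∣[(2 : ℤ)] γ) := by
    rw [h]
    ext w
    simp only [Pi.smul_apply, Pi.sub_apply, smul_eq_mul]
    field_simp
    ring
  rw [h2]
  have hs : MDiff (E2 ∣[(2 : ℤ)] γ) := by
    rw [ModularForm.SL_slash]
    exact E2_mdifferentiable.slash 2 _
  exact (E2_mdifferentiable.sub hs).const_smul _

theorem D_D2 (γ : SL(2, ℤ)) (z : ℍ) : D (D2 γ) z = -((γ 1 0 : ℂ) / denom γ z) ^ 2 := by
  have hz := denom_ne_zero (γ : GL (Fin 2) ℝ) z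
  have h1 : HasDerivAt (fun w : ℂ => denom (γ : GL (Fin 2) ℝ) w ^ (-1 : ℤ))
      (((-1 : ℤ) : ℂ) * ((γ : GL (Fin 2) ℝ) 1 0 : ℂ) * denom (γ : GL (Fin 2) ℝ) z ^ ((-1 : ℤ) - 1))
      (z : ℂ) :=
    hasDerivAt_denom_zpow (γ : GL (Fin 2) ℝ) (-1) z
  have hcomp : ((D2 γ) ∘ ofComplex) =ᶠ[𝓝 (z : ℂ)]
      fun w : ℂ => (2 * π * I * γ 1 0) * denom (γ : GL (Fin 2) ℝ) w ^ (-1 : ℤ) := by
    filter_upwards [isOpen_upperHalfPlaneSet.mem_nhds z.im_pos] with w hw
    simp only [comp_apply, ofComplex_apply_of_im_pos hw, D2_apply, zpow_neg_one, div_eq_mul_inv]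
  have hd := (h1.const_mul (2 * π * I * (γ 1 0 : ℂ))).congr_of_eventuallyEq hcomp
  rw [normalizedDerivOfComplex, hd.deriv]
  have h2pi : (2 * π * I : ℂ) ≠ 0 := two_pi_I_ne_zero
  have hc : ((γ : GL (Fin 2) ℝ) 1 0 : ℂ) = (γ 1 0 : ℂ) := by simp
  rw [hc, show ((-1 : ℤ) - 1) = -2 by norm_num, zpow_neg, zpow_ofNat]
  push_cast
  field_simp

/-- The quasi-modular corrections cancel: `D E₂ - E₂² / 12` is invariant of weight `4`. -/
theorem serreDerivative_one_E2_slash (γ : SL(2, ℤ)) :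
    serreDerivative 1 E2 ∣[(4 : ℤ)] γ = serreDerivative 1 E2 := by
  ext z
  have hE : E2 ∣[(2 : ℤ)] γ = E2 - (1 / (2 * riemannZeta 2)) • D2 γ := E2_slash_action γ
  have hEz : (E2 ∣[(2 : ℤ)] γ) z = E2 z - 1 / (2 * riemannZeta 2) * D2 γ z := by
    rw [hE]; simp
  -- `D (E₂ ∣ γ)` in two ways
  have hD1 : D (E2 ∣[(2 : ℤ)] γ) z = (D E2 ∣[(2 : ℤ) + 2] γ) z -
      ((2 : ℤ) : ℂ) * (2 * π * I)⁻¹ * (γ 1 0 / denom γ z) * (E2 ∣[(2 : ℤ)] γ) z := by
    rw [normalizedDerivOfComplex_SL_slash E2_mdifferentiable]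
    rfl
  have hD2 : D (E2 ∣[(2 : ℤ)] γ) z = D E2 z - 1 / (2 * riemannZeta 2) * D (D2 γ) z := by
    rw [hE, normalizedDerivOfComplex_sub _ _ E2_mdifferentiable
      ((mdifferentiable_D2 γ).const_smul _),
      normalizedDerivOfComplex_smul _ _ (mdifferentiable_D2 γ)]
    simp
  have hmul : ((E2 * E2) ∣[(4 : ℤ)] γ) z = (E2 ∣[(2 : ℤ)] γ) z * (E2 ∣[(2 : ℤ)] γ) z := by
    have := congrFun (ModularForm.mul_slash_SL2 2 2 γ E2 E2) z
    simpa using this
  have hLHS : (serreDerivative 1 E2 ∣[(4 : ℤ)] γ) z =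
      (D E2 ∣[(4 : ℤ)] γ) z - 12⁻¹ * ((E2 * E2) ∣[(4 : ℤ)] γ) z := by
    simp only [ModularForm.SL_slash_apply, serreDerivative_apply, Pi.mul_apply]
    ring
  rw [hLHS, hmul, hEz, serreDerivative_apply]
  have h4 : (D E2 ∣[(4 : ℤ)] γ) z = (D E2 ∣[(2 : ℤ) + 2] γ) z := rfl
  rw [h4]
  have key : (D E2 ∣[(2 : ℤ) + 2] γ) z = D E2 z - 1 / (2 * riemannZeta 2) * D (D2 γ) z +
      ((2 : ℤ) : ℂ) * (2 * π * I)⁻¹ * (γ 1 0 / denom γ z) * (E2 ∣[(2 : ℤ)] γ) z := by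
    rw [← hD2, hD1]; ring
  rw [key, hEz, D_D2, D2_apply, riemannZeta_two]
  have hpi : (π : ℂ) ≠ 0 := ofReal_ne_zero.mpr pi_ne_zero
  have hz := denom_ne_zero (γ : GL (Fin 2) ℝ) z
  have hinv : (2 * π * I : ℂ)⁻¹ = -I / (2 * π) := by
    rw [mul_inv, inv_I]
    ring
  rw [hinv]
  field_simp
  ring_nf
  simp only [I_sq]
  ring

theorem isZeroAtImInfty_D_E2 : IsZeroAtImInfty (D E2) :=
  isZeroAtImInfty_normalizedDeriv E2_periodic E2_mdifferentiable isBoundedAtImInfty_E2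

theorem tendsto_serreDerivative_one_E2 :
    Tendsto (serreDerivative 1 E2) atImInfty (𝓝 (-(12⁻¹ : ℂ))) := by
  have h1 : Tendsto (D E2) atImInfty (𝓝 0) := isZeroAtImInfty_D_E2
  have h2 : Tendsto (fun z => (1 : ℂ) * 12⁻¹ * E2 z * E2 z) atImInfty
      (𝓝 ((1 : ℂ) * 12⁻¹ * 1 * 1)) :=
    (tendsto_const_nhds.mul tendsto_E2_atImInfty).mul tendsto_E2_atImInfty
  have := h1.sub h2
  simp only [mul_one, zero_sub, one_mul] at this
  refine this.congr fun z => ?_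
  rw [serreDerivative_apply]
  ring

theorem isBoundedAtImInfty_serreDerivative_one_E2 :
    IsBoundedAtImInfty (serreDerivative 1 E2) :=
  tendsto_serreDerivative_one_E2.isBigO_one ℝ

/-- `D E₂ - E₂² / 12` as a level one modular form of weight `4`. -/
noncomputable def E2D : ModularForm 𝒮ℒ 4 where
  toFun := serreDerivative 1 E2
  slash_action_eq' := by
    rintro _ ⟨γ, rfl⟩
    exact serreDerivative_one_E2_slash γ
  holo' := serreDerivative_mdifferentiable 1 E2_mdifferentiable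
  bdd_at_cusps' {c} hc := by
    rw [Subgroup.IsArithmetic.isCusp_iff_isCusp_SL2Z] at hc
    rw [OnePoint.isBoundedAt_iff_forall_SL2Z hc]
    intro γ _
    rw [serreDerivative_one_E2_slash γ]
    exact isBoundedAtImInfty_serreDerivative_one_E2

@[simp] theorem E2D_apply (z : ℍ) : E2D z = D E2 z - 12⁻¹ * E2 z * E2 z := by
  show serreDerivative 1 E2 z = _
  rw [serreDerivative_apply]
  ring

theorem E2D_eq : E2D = (-(12⁻¹ : ℂ)) • E₄ := by
  have key := eq_smul_of_rank_one levelOne_weight_four_rank_one E2D E₄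
    (show Tendsto E2D atImInfty (𝓝 (-(12⁻¹ : ℂ))) from tendsto_serreDerivative_one_E2)
    tendsto_E₄_atImInfty one_ne_zero
  rw [key, div_one]

/-- Ramanujan: `D E₂ = (E₂² - E₄) / 12`. -/
theorem D_E2 (z : ℍ) : D E2 z = (E2 z ^ 2 - E₄ z) / 12 := by
  have h := congrArg (fun f : ModularForm 𝒮ℒ 4 => f z) E2D_eq
  simp only [E2D_apply, smul_apply, smul_eq_mul] at h
  linear_combination h

end Fermat.Agent.S16.H8
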