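import Mathlib
import Fermat.Prelude.Def_ModularForm_HeckeOperator

/-!
# Width-`p` `q`-expansions of the translates `τ ↦ f ((τ + x) / p)`

If `f τ = ∑ c n q^n` (`q = 𝕢 1 τ`) for all `τ`, then `g τ = f ((τ + x)/p)` satisfies
`g τ = ∑ (c n ζ^(x n)) q_p^n` with `q_p = 𝕢 p τ`, `ζ = exp (2πi/p)`; hence (given `MDiff g`) the cusp
function of width `p` is analytic at `0` and `qExpansion p g` has coefficients `c n ζ^(x n)`.
The instance for `f ∣[k] heckeMatrix p j` (prelude Hecke matrix `[[1,j],[0,p]]`) is included.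
-/

set_option autoImplicit false

open UpperHalfPlane hiding I
open Real Complex Filter Topology Function
open scoped Manifold MatrixGroups ModularForm

namespace Fermat.Agent.S16.H8

local notation "𝕢" => Periodic.qParam

/-! ### Functions given by a convergent `q_h`-expansion -/

theorem qParam_add_period (h : ℝ) (w : ℂ) : 𝕢 h (w + h) = 𝕢 h w := by
  rcases eq_or_ne h 0 with rfl | hh
  · simp [Periodic.qParam]
  · have hh' : (h : ℂ) ≠ 0 := ofReal_ne_zero.mpr hh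
    simp only [Periodic.qParam]
    have : 2 * (π : ℂ) * I * (w + h) / h = 2 * π * I * w / h + 2 * π * I := by
      field_simp
    rw [this, Complex.exp_add, Complex.exp_two_pi_mul_I, mul_one]

/-- A function given everywhere by a convergent `q_h`-expansion is `h`-periodic. -/
theorem periodic_of_hasSum {h : ℝ} {g : ℍ → ℂ} {d : ℕ → ℂ}
    (hg : ∀ τ : ℍ, HasSum (fun n => d n • 𝕢 h τ ^ n) (g τ)) :
    Periodic (g ∘ ofComplex) h := by
  intro w
  by_cases! hw : 0 < im w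
  · have hw' : 0 < im (w + h) := by simp [hw]
    simp only [comp_apply, ofComplex_apply_of_im_pos hw', ofComplex_apply_of_im_pos hw]
    have h1 := hg ⟨w + h, hw'⟩
    have h2 := hg ⟨w, hw⟩
    have e : 𝕢 h ((⟨w + h, hw'⟩ : ℍ) : ℂ) = 𝕢 h ((⟨w, hw⟩ : ℍ) : ℂ) := qParam_add_period h w
    rw [e] at h1
    exact h1.unique h2
  · have : im (w + h) ≤ 0 := by simpa using hw
    simp [ofComplex_apply_of_im_nonpos this, ofComplex_apply_of_im_nonpos hw]

/-- Uniqueness of `q`-expansion coefficients for plain functions on `ℍ`, any width. -/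
theorem qExpansion_coeff_unique_width {h : ℝ} (hh : 0 < h) {f : ℍ → ℂ} {c : ℕ → ℂ}
    (hfanalytic : AnalyticAt ℂ (cuspFunction h f) 0)
    (hf : ∀ τ : ℍ, HasSum (fun m ↦ c m • 𝕢 h τ ^ m) (f τ)) (m : ℕ) :
    c m = (qExpansion h f).coeff m := by
  have h1 := (hasFPowerSeriesOnBall_cuspFunction hh hfanalytic hf).hasFPowerSeriesAt
  have h2 : HasFPowerSeriesAt (cuspFunction h f)
      (.ofScalars ℂ fun m ↦ (qExpansion h f).coeff m) 0 := by
    simpa [qExpansion_coeff, div_eq_mul_inv, mul_comm] using hfanalytic.hasFPowerSeriesAt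
  simpa [FormalMultilinearSeries.coeff_ofScalars] using
    congr_arg (FormalMultilinearSeries.coeff · m) (h1.eq_formalMultilinearSeries h2)

/-- A holomorphic function given everywhere by a convergent `q_h`-expansion: periodicity,
boundedness, analyticity of the cusp function and the `q`-expansion coefficients. -/
theorem qExpansion_of_hasSum {h : ℝ} (hh : 0 < h) {g : ℍ → ℂ} {d : ℕ → ℂ}
    (hg : ∀ τ : ℍ, HasSum (fun n => d n • 𝕢 h τ ^ n) (g τ)) (hdiff : MDiff g) :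
    Periodic (g ∘ ofComplex) h ∧ IsBoundedAtImInfty g ∧ AnalyticAt ℂ (cuspFunction h g) 0 ∧
      ∀ n, (qExpansion h g).coeff n = d n := by
  have hper := periodic_of_hasSum hg
  have hbdd := isBoundedAtImInfty_of_hasSum_qExpansion hh hg
  have han := analyticAt_cuspFunction_zero hh hper hdiff hbdd
  exact ⟨hper, hbdd, han, fun n => (qExpansion_coeff_unique_width hh han hg n).symm⟩

/-! ### The translates -/

/-- `ζ_p = exp (2πi / p)`. -/
noncomputable def zetaW (p : ℕ) : ℂ := cexp (2 * π * I / p)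

theorem zetaW_ne_zero (p : ℕ) : zetaW p ≠ 0 := Complex.exp_ne_zero _

theorem zetaW_pow_self {p : ℕ} (hp : 0 < p) : zetaW p ^ p = 1 := by
  have hp' : (p : ℂ) ≠ 0 := by exact_mod_cast hp.ne'
  rw [zetaW, ← Complex.exp_nat_mul, mul_div_cancel₀ _ hp', Complex.exp_two_pi_mul_I]

theorem isPrimitiveRoot_zetaW {p : ℕ} (hp : 0 < p) : IsPrimitiveRoot (zetaW p) p := by
  have := Complex.isPrimitiveRoot_exp p hp.ne'
  rwa [zetaW]

theorem qParam_one_translate {p : ℕ} (hp : 0 < p) (x : ℤ) {τ τ' : ℂ}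
    (h : τ' = (τ + x) / p) : 𝕢 1 τ' = zetaW p ^ x * 𝕢 p τ := by
  have hp' : (p : ℂ) ≠ 0 := by exact_mod_cast hp.ne'
  rw [h]
  simp only [Periodic.qParam, zetaW]
  rw [← Complex.exp_int_mul, ← Complex.exp_add]
  congr 1
  push_cast
  field_simp
  ring

/-- The width-`p` expansion of `τ ↦ f ((τ + x)/p)`. -/
theorem hasSum_translate {p : ℕ} (hp : 0 < p) (x : ℤ) {f : ℍ → ℂ} {c : ℕ → ℂ}
    (hf : ∀ τ : ℍ, HasSum (fun n => c n • 𝕢 1 τ ^ n) (f τ)) (σ : ℍ → ℍ)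
    (hσ : ∀ τ : ℍ, (σ τ : ℂ) = ((τ : ℂ) + x) / p) (τ : ℍ) :
    HasSum (fun n => (c n * zetaW p ^ (x * n)) • 𝕢 p τ ^ n) (f (σ τ)) := by
  have h := hf (σ τ)
  rw [qParam_one_translate hp x (hσ τ)] at h
  convert h using 2 with n
  rw [mul_pow, smul_eq_mul, smul_eq_mul, zpow_mul, zpow_natCast, mul_assoc]

/-- **Width-`p` `q`-expansion of the translate `g = f ∘ σ`, `σ τ = (τ + x)/p`.** -/
theorem qExpansion_translate {p : ℕ} (hp : 0 < p) (x : ℤ) {f g : ℍ → ℂ} {c : ℕ → ℂ}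
    (hf : ∀ τ : ℍ, HasSum (fun n => c n • 𝕢 1 τ ^ n) (f τ)) (σ : ℍ → ℍ)
    (hσ : ∀ τ : ℍ, (σ τ : ℂ) = ((τ : ℂ) + x) / p) (hg : g = f ∘ σ) (hdiff : MDiff g) :
    (∀ τ : ℍ, HasSum (fun n => (c n * zetaW p ^ (x * n)) • 𝕢 p τ ^ n) (g τ)) ∧
      Periodic (g ∘ ofComplex) p ∧ IsBoundedAtImInfty g ∧
      AnalyticAt ℂ (cuspFunction p g) 0 ∧
      ∀ n, (qExpansion p g).coeff n = c n * zetaW p ^ (x * n) := by
  have hs : ∀ τ : ℍ, HasSum (fun n => (c n * zetaW p ^ (x * n)) • 𝕢 p τ ^ n) (g τ) := by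
    intro τ
    rw [hg]
    exact hasSum_translate hp x hf σ hσ τ
  exact ⟨hs, qExpansion_of_hasSum (by exact_mod_cast hp) hs hdiff⟩

/-- Natural-number shift version: `ζ ^ (j * n)` with `j n : ℕ`. -/
theorem qExpansion_translate_nat {p : ℕ} (hp : 0 < p) (j : ℕ) {f g : ℍ → ℂ} {c : ℕ → ℂ}
    (hf : ∀ τ : ℍ, HasSum (fun n => c n • 𝕢 1 τ ^ n) (f τ)) (σ : ℍ → ℍ)
    (hσ : ∀ τ : ℍ, (σ τ : ℂ) = ((τ : ℂ) + j) / p) (hg : g = f ∘ σ) (hdiff : MDiff g) :
    (∀ τ : ℍ, HasSum (fun n => (c n * zetaW p ^ (j * n)) • 𝕢 p τ ^ n) (g τ)) ∧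
      Periodic (g ∘ ofComplex) p ∧ IsBoundedAtImInfty g ∧
      AnalyticAt ℂ (cuspFunction p g) 0 ∧
      ∀ n, (qExpansion p g).coeff n = c n * zetaW p ^ (j * n) := by
  have h := qExpansion_translate hp (j : ℤ) hf σ (by simpa using hσ) hg hdiff
  have e : ∀ n : ℕ, zetaW p ^ ((j : ℤ) * (n : ℤ)) = zetaW p ^ (j * n) := by
    intro n
    rw [← Nat.cast_mul, zpow_natCast]
  simpa only [e] using h

/-! ### The instance `f ∣[k] heckeMatrix p j` -/

open ModularForm in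
/-- The slash by the prelude Hecke matrix `[[1, j], [0, p]]`: width-`p` expansion with
coefficients `p⁻¹ c n ζ^(j n)`. -/
theorem hasSum_slash_heckeMatrix (k : ℤ) {p : ℕ} (hp : 0 < p) (j : ℕ) {f : ℍ → ℂ} {c : ℕ → ℂ}
    (hf : ∀ τ : ℍ, HasSum (fun n => c n • 𝕢 1 τ ^ n) (f τ)) (τ : ℍ) :
    HasSum (fun n => ((p : ℂ)⁻¹ * c n * zetaW p ^ (j * n)) • 𝕢 p τ ^ n)
      ((f ∣[k] heckeMatrix p j) τ) := by
  rw [slash_heckeMatrix_apply k hp.ne']
  have h := hasSum_translate hp (j : ℤ) hf (fun τ => heckeMatrix p j • τ)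
    (fun τ => by simpa using coe_heckeMatrix_smul hp.ne' j τ) τ
  have e : ∀ n : ℕ, zetaW p ^ ((j : ℤ) * (n : ℤ)) = zetaW p ^ (j * n) := by
    intro n
    rw [← Nat.cast_mul, zpow_natCast]
  have h2 : HasSum (fun n => (p : ℂ)⁻¹ * ((c n * zetaW p ^ ((j : ℤ) * (n : ℤ))) • 𝕢 p τ ^ n))
      ((p : ℂ)⁻¹ * f (heckeMatrix p j • τ)) := h.mul_left _
  have e2 : (fun n => ((p : ℂ)⁻¹ * c n * zetaW p ^ (j * n)) • 𝕢 p τ ^ n) =
      fun n => (p : ℂ)⁻¹ * ((c n * zetaW p ^ ((j : ℤ) * (n : ℤ))) • 𝕢 p τ ^ n) := by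
    funext n
    rw [e n]
    simp only [smul_eq_mul]
    ring
  rw [e2]
  exact h2

open ModularForm in
/-- **Width-`p` `q`-expansion of `f ∣[k] heckeMatrix p j`.** -/
theorem qExpansion_slash_heckeMatrix (k : ℤ) {p : ℕ} (hp : 0 < p) (j : ℕ) {f : ℍ → ℂ}
    {c : ℕ → ℂ} (hf : ∀ τ : ℍ, HasSum (fun n => c n • 𝕢 1 τ ^ n) (f τ))
    (hdiff : MDiff (f ∣[k] heckeMatrix p j)) :
    Periodic ((f ∣[k] heckeMatrix p j) ∘ ofComplex) p ∧
      IsBoundedAtImInfty (f ∣[k] heckeMatrix p j) ∧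
      AnalyticAt ℂ (cuspFunction p (f ∣[k] heckeMatrix p j)) 0 ∧
      ∀ n, (qExpansion p (f ∣[k] heckeMatrix p j)).coeff n =
        (p : ℂ)⁻¹ * c n * zetaW p ^ (j * n) :=
  qExpansion_of_hasSum (by exact_mod_cast hp) (hasSum_slash_heckeMatrix k hp j hf) hdiff

open ModularForm in
/-- Version assuming `MDiff f` only. -/
theorem qExpansion_slash_heckeMatrix' (k : ℤ) {p : ℕ} (hp : 0 < p) (j : ℕ) {f : ℍ → ℂ}
    {c : ℕ → ℂ} (hf : ∀ τ : ℍ, HasSum (fun n => c n • 𝕢 1 τ ^ n) (f τ)) (hdiff : MDiff f) :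
    Periodic ((f ∣[k] heckeMatrix p j) ∘ ofComplex) p ∧
      IsBoundedAtImInfty (f ∣[k] heckeMatrix p j) ∧
      AnalyticAt ℂ (cuspFunction p (f ∣[k] heckeMatrix p j)) 0 ∧
      ∀ n, (qExpansion p (f ∣[k] heckeMatrix p j)).coeff n =
        (p : ℂ)⁻¹ * c n * zetaW p ^ (j * n) :=
  qExpansion_slash_heckeMatrix k hp j hf (hdiff.slash k _)

open ModularForm in
/-- **Modular forms of period `1`: width-`p` `q`-expansion of `G ∣[k] heckeMatrix p j`** in terms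
of `qExpansion 1 G`. -/
theorem qExpansion_slash_heckeMatrix_form {Γ : Subgroup (GL (Fin 2) ℝ)} {F : Type*}
    [FunLike F ℍ ℂ] {w : ℤ} [ModularFormClass F Γ w] [Fact (IsCusp OnePoint.infty Γ)]
    (hΓ : (1 : ℝ) ∈ Γ.strictPeriods) (G : F) (k : ℤ) {p : ℕ} (hp : 0 < p) (j : ℕ) :
    (∀ τ : ℍ, HasSum (fun n => ((p : ℂ)⁻¹ * (qExpansion 1 G).coeff n * zetaW p ^ (j * n)) •
        𝕢 p τ ^ n) ((⇑G ∣[k] heckeMatrix p j) τ)) ∧
      Periodic ((⇑G ∣[k] heckeMatrix p j) ∘ ofComplex) p ∧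
      IsBoundedAtImInfty (⇑G ∣[k] heckeMatrix p j) ∧
      AnalyticAt ℂ (cuspFunction p (⇑G ∣[k] heckeMatrix p j)) 0 ∧
      ∀ n, (qExpansion p (⇑G ∣[k] heckeMatrix p j)).coeff n =
        (p : ℂ)⁻¹ * (qExpansion 1 G).coeff n * zetaW p ^ (j * n) := by
  have hf : ∀ τ : ℍ, HasSum (fun n => (qExpansion 1 G).coeff n • 𝕢 1 τ ^ n) (G τ) := fun τ => by
    simpa only [smul_eq_mul] using ModularForm.hasSum_qExpansion G one_pos hΓ τ
  exact ⟨hasSum_slash_heckeMatrix k hp j hf,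
    qExpansion_slash_heckeMatrix' k hp j hf (ModularFormClass.holo G)⟩

end Fermat.Agent.S16.H8
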