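/-
S16, package DUAL: the `a_1`-duality between the Hecke algebra acting on the lattice of
weight-2 cusp forms with integral `q`-expansion and that lattice.
-/
import Mathlib
import Fermat.Prelude.Def_CuspForm_HeckeLocal
import Fermat.Prelude.Def_CuspForm_HeckeEvalForms
import Fermat.Prelude.Def_HeckeGalois_EichlerShimura
import Fermat.Prelude.Def_ModularCurve_ModularUnit
import Fermat.Agent.S49.H70_ModThree
import Fermat.Agent.S49.H90_Normalize

set_option autoImplicit false

open CongruenceSubgroup ModularFormClass CuspForm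

namespace Fermat.Agent.S16.H93

noncomputable section

variable (N : ℕ) [NeZero N]

/-- The lattice of weight-2 cusp forms with integral `q`-expansion. -/
abbrev Lam : Type := ↥(intLattice N 2)

/-- The Hecke algebra acting on the lattice. -/
abbrev TT : Type := ↥(heckeLatticeAlgebra N ∅)

variable {N}

/-- The integral `q`-coefficient. -/
def aInt (f : Lam N) (k : ℕ) : ℤ :=
  Classical.choose ((Fermat.Agent.S49.H70.mem_intLattice_iff (f : CuspForm (Gamma0 N) 2)).mp f.2 k)

theorem aInt_spec (f : Lam N) (k : ℕ) :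
    qCoeff (f : CuspForm (Gamma0 N) 2) k = ((aInt f k : ℤ) : ℂ) :=
  Classical.choose_spec
    ((Fermat.Agent.S49.H70.mem_intLattice_iff (f : CuspForm (Gamma0 N) 2)).mp f.2 k)

theorem aInt_eq_iff (f : Lam N) (k : ℕ) (m : ℤ) :
    aInt f k = m ↔ qCoeff (f : CuspForm (Gamma0 N) 2) k = (m : ℂ) := by
  rw [aInt_spec]
  exact ⟨fun h => by rw [h], fun h => by exact_mod_cast h⟩

theorem aInt_zero_index (f : Lam N) : aInt f 0 = 0 := by
  rw [aInt_eq_iff, Fermat.Agent.S49.H90.qCoeff_zero_eq]
  simp

theorem aInt_add (f g : Lam N) (k : ℕ) : aInt (f + g) k = aInt f k + aInt g k := by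
  rw [aInt_eq_iff, Submodule.coe_add, Fermat.Agent.S49.H70.qCoeff_add, aInt_spec, aInt_spec]
  push_cast
  rfl

theorem aInt_zsmul (c : ℤ) (f : Lam N) (k : ℕ) : aInt (c • f) k = c * aInt f k := by
  rw [aInt_eq_iff, Submodule.coe_smul, Fermat.Agent.S49.H70.qCoeff_zsmul, aInt_spec]
  push_cast
  rfl

theorem aInt_zero (k : ℕ) : aInt (0 : Lam N) k = 0 := by
  have := aInt_zsmul (0 : ℤ) (0 : Lam N) k
  simpa using this

/-- The `k`-th coefficient as a linear functional. -/
def aHom (k : ℕ) : Lam N →ₗ[ℤ] ℤ where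
  toFun f := aInt f k
  map_add' f g := aInt_add f g k
  map_smul' c f := by simpa using aInt_zsmul c f k

@[simp] theorem aHom_apply (k : ℕ) (f : Lam N) : aHom k f = aInt f k := rfl

theorem eq_zero_of_aInt {f : Lam N} (h : ∀ k : ℕ, 1 ≤ k → aInt f k = 0) : f = 0 := by
  apply Subtype.ext
  apply Fermat.Agent.S49.H90.eq_zero_of_forall_qCoeff_eq_zero
  intro k
  rcases Nat.eq_zero_or_pos k with rfl | hk
  · exact Fermat.Agent.S49.H90.qCoeff_zero_eq _
  · rw [aInt_spec, h k hk]
    simp

theorem ext_aInt {f g : Lam N} (h : ∀ k : ℕ, 1 ≤ k → aInt f k = aInt g k) : f = g := by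
  have h0 : f + (-1 : ℤ) • g = 0 := by
    apply eq_zero_of_aInt
    intro k hk
    rw [aInt_add, aInt_zsmul, h k hk]
    ring
  have : f = f + (-1 : ℤ) • g + g := by
    rw [add_assoc, neg_one_smul, neg_add_cancel, add_zero]
  rw [this, h0, zero_add]

theorem aInt_sub (f g : Lam N) (k : ℕ) : aInt (f - g) k = aInt f k - aInt g k := by
  have : f - g = f + (-1 : ℤ) • g := by rw [neg_one_smul, sub_eq_add_neg]
  rw [this, aInt_add, aInt_zsmul]; ring

/-! ### The Hecke action -/

/-- The Hecke operator `T_ℓ` (`ℓ ∤ N`) in the lattice Hecke algebra. -/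
def genT {ℓ : ℕ} (hℓ : ℓ.Prime) (hℓN : ¬ ℓ ∣ N) : TT N :=
  latticeRestrictHom N ∅ (heckeAlgebra.T hℓ hℓN (Set.notMem_empty _))

/-- The Hecke operator `U_q` (`q ∣ N`) in the lattice Hecke algebra. -/
def genU {q : ℕ} (hq : q.Prime) (hqN : q ∣ N) : TT N :=
  latticeRestrictHom N ∅ (heckeAlgebra.U hq hqN (Set.notMem_empty _))

/-- The action of the lattice Hecke algebra on the lattice. -/
def act (t : TT N) (f : Lam N) : Lam N := (t : Module.End ℤ (Lam N)) f

theorem act_one (f : Lam N) : act (1 : TT N) f = f := rfl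

theorem act_mul (s t : TT N) (f : Lam N) : act (s * t) f = act s (act t f) := rfl

theorem act_add (s t : TT N) (f : Lam N) : act (s + t) f = act s f + act t f := rfl

theorem act_sub (s t : TT N) (f : Lam N) : act (s - t) f = act s f - act t f := rfl

theorem act_zsmul (c : ℤ) (t : TT N) (f : Lam N) : act (c • t) f = c • act t f := rfl

theorem act_map_add (t : TT N) (f g : Lam N) : act t (f + g) = act t f + act t g :=
  map_add _ f g

theorem act_map_sub (t : TT N) (f g : Lam N) : act t (f - g) = act t f - act t g :=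
  map_sub _ f g

theorem act_map_zsmul (t : TT N) (c : ℤ) (f : Lam N) : act t (c • f) = c • act t f :=
  map_zsmul _ c f

theorem act_map_zero (t : TT N) : act t (0 : Lam N) = 0 := map_zero _

theorem act_comm (s t : TT N) (f : Lam N) : act s (act t f) = act t (act s f) := by
  rw [← act_mul, ← act_mul, mul_comm]

theorem eq_of_act_eq {s t : TT N} (h : ∀ f : Lam N, act s f = act t f) : s = t :=
  Subtype.ext (LinearMap.ext h)

theorem aInt_act_genT {ℓ : ℕ} (hℓ : ℓ.Prime) (hℓN : ¬ ℓ ∣ N) (f : Lam N) (m : ℕ) :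
    aInt (act (genT hℓ hℓN) f) m =
      aInt f (m * ℓ) + if ℓ ∣ m then (ℓ : ℤ) * aInt f (m / ℓ) else 0 := by
  have hc : ((act (genT hℓ hℓN) f : Lam N) : CuspForm (Gamma0 N) 2) =
      heckeTLin 2 hℓ hℓN (f : CuspForm (Gamma0 N) 2) := rfl
  rw [aInt_eq_iff, hc, Fermat.Agent.S49.H90.qCoeff_heckeTLin,
    ModularForm.coeffHeckeT_apply, aInt_spec]
  split_ifs with h
  · rw [aInt_spec]
    norm_num
  · simp

theorem aInt_act_genU {q : ℕ} (hq : q.Prime) (hqN : q ∣ N) (f : Lam N) (m : ℕ) :
    aInt (act (genU hq hqN) f) m = aInt f (m * q) := by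
  have hc : ((act (genU hq hqN) f : Lam N) : CuspForm (Gamma0 N) 2) =
      heckeULin 2 hqN (f : CuspForm (Gamma0 N) 2) := rfl
  rw [aInt_eq_iff, hc, Fermat.Agent.S49.H90.qCoeff_heckeULin hq.ne_zero,
    ModularForm.coeffHeckeU_apply, aInt_spec]

/-- (D0) every `q`-coefficient is the first coefficient of a Hecke translate. -/
theorem exists_hecke (k : ℕ) (hk : 1 ≤ k) :
    ∃ t : TT N, ∀ f : Lam N, aInt (act t f) 1 = aInt f k := by
  induction k using Nat.strong_induction_on with
  | _ k ih =>
    rcases Nat.lt_or_ge 1 k with h1 | h1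
    swap
    · have : k = 1 := le_antisymm h1 hk
      subst this
      exact ⟨1, fun f => by rw [act_one]⟩
    · set ℓ := k.minFac with hℓdef
      have hℓ : ℓ.Prime := Nat.minFac_prime (by omega)
      obtain ⟨k', hk'⟩ : ∃ k', k = k' * ℓ := ⟨k / ℓ, (Nat.div_mul_cancel (Nat.minFac_dvd k)).symm⟩
      have hk'pos : 1 ≤ k' := by
        rcases Nat.eq_zero_or_pos k' with h0 | h0
        · rw [h0, zero_mul] at hk'; omega
        · exact h0
      have hk'lt : k' < k := by
        rw [hk']
        have := hℓ.two_le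
        nlinarith
      obtain ⟨t', ht'⟩ := ih k' hk'lt hk'pos
      by_cases hℓN : ℓ ∣ N
      · refine ⟨t' * genU hℓ hℓN, fun f => ?_⟩
        rw [act_mul, ht', aInt_act_genU, ← hk']
      · by_cases hd : ℓ ∣ k'
        · obtain ⟨k'', hk''⟩ := hd
          have hk''pos : 1 ≤ k'' := by
            rcases Nat.eq_zero_or_pos k'' with h0 | h0
            · rw [h0, mul_zero] at hk''; omega
            · exact h0
          have hk''lt : k'' < k := by
            have := hℓ.two_le
            have : k'' < k' := by rw [hk'']; nlinarith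
            omega
          obtain ⟨t'', ht''⟩ := ih k'' hk''lt hk''pos
          refine ⟨t' * genT hℓ hℓN - (ℓ : ℤ) • t'', fun f => ?_⟩
          rw [act_sub, aInt_sub, act_mul, ht', aInt_act_genT, act_zsmul, aInt_zsmul, ht'',
            if_pos ⟨k'', hk''⟩, ← hk']
          have : k' / ℓ = k'' := by rw [hk'']; exact Nat.mul_div_cancel_left _ hℓ.pos
          rw [this]; ring
        · refine ⟨t' * genT hℓ hℓN, fun f => ?_⟩
          rw [act_mul, ht', aInt_act_genT, if_neg hd, add_zero, ← hk']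

/-! ### The `a_1`-pairing -/

/-- The `a_1`-pairing. -/
def pair : TT N →ₗ[ℤ] Lam N →ₗ[ℤ] ℤ :=
  LinearMap.mk₂ ℤ (fun t f => aInt (act t f) 1)
    (fun s t f => by rw [act_add, aInt_add])
    (fun c t f => by rw [act_zsmul, aInt_zsmul]; rfl)
    (fun t f g => by rw [act_map_add, aInt_add])
    (fun c t f => by rw [act_map_zsmul, aInt_zsmul]; rfl)

@[simp] theorem pair_apply (t : TT N) (f : Lam N) : pair t f = aInt (act t f) 1 := rfl

theorem pair_left_injective : Function.Injective (pair (N := N)) := by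
  rw [injective_iff_map_eq_zero]
  intro t ht
  apply eq_of_act_eq
  intro f
  show act t f = 0
  apply eq_zero_of_aInt
  intro k hk
  obtain ⟨s, hs⟩ := exists_hecke (N := N) k hk
  rw [← hs, act_comm]
  have := LinearMap.congr_fun ht (act s f)
  simpa using this

theorem pair_right_injective : Function.Injective (pair (N := N)).flip := by
  rw [injective_iff_map_eq_zero]
  intro f hf
  apply eq_zero_of_aInt
  intro k hk
  obtain ⟨s, hs⟩ := exists_hecke (N := N) k hk
  rw [← hs]
  have := LinearMap.congr_fun hf s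
  simpa using this

/-- Division of a lattice element all of whose coefficients are divisible by `a`. -/
theorem exists_eq_zsmul_of_dvd (g : Lam N) (a : ℤ) (ha : a ≠ 0)
    (h : ∀ k : ℕ, 1 ≤ k → a ∣ aInt g k) : ∃ f : Lam N, a • f = g := by
  have hmem : ((a : ℂ)⁻¹ • (g : CuspForm (Gamma0 N) 2)) ∈ intLattice N 2 := by
    rw [Fermat.Agent.S49.H70.mem_intLattice_iff]
    intro k
    rcases Nat.eq_zero_or_pos k with rfl | hk
    · exact ⟨0, by rw [Fermat.Agent.S49.H90.qCoeff_zero_eq]; simp⟩
    · obtain ⟨c, hc⟩ := h k hk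
      refine ⟨c, ?_⟩
      rw [Fermat.Agent.S49.H90.qCoeff_smul, aInt_spec, hc]
      have : (a : ℂ) ≠ 0 := by exact_mod_cast ha
      push_cast
      field_simp
  refine ⟨⟨_, hmem⟩, Subtype.ext ?_⟩
  rw [Submodule.coe_smul]
  show (a : ℤ) • ((a : ℂ)⁻¹ • (g : CuspForm (Gamma0 N) 2)) = g
  have : (a : ℂ) ≠ 0 := by exact_mod_cast ha
  rw [← Int.cast_smul_eq_zsmul ℂ, smul_smul, mul_inv_cancel₀ this, one_smul]

/-- (D1) the `a_1`-pairing is perfect on the form side: every functional on the Hecke algebra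
is represented by a form with integral coefficients. -/
theorem exists_form_of_functional (φ : TT N →ₗ[ℤ] ℤ) :
    ∃ f : Lam N, ∀ t : TT N, pair t f = φ t := by
  have := intLattice.moduleFinite N
  have := intLattice.moduleFree N
  set α : Lam N →ₗ[ℤ] (TT N →ₗ[ℤ] ℤ) := (pair (N := N)).flip with hα
  have h1 : Module.finrank ℤ (TT N) ≤ Module.finrank ℤ (Lam N) := by
    have := LinearMap.finrank_le_finrank_of_injective (pair_left_injective (N := N))
    rwa [Module.finrank_linearMap_self] at this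
  have h2 := (LinearMap.range α).finrank_quotient_add_finrank
  have h3 : Module.finrank ℤ (LinearMap.range α) = Module.finrank ℤ (Lam N) :=
    LinearMap.finrank_range_of_inj pair_right_injective
  have h4 : Module.finrank ℤ (TT N →ₗ[ℤ] ℤ) = Module.finrank ℤ (TT N) :=
    Module.finrank_linearMap_self ℤ ℤ (TT N)
  have h5 : Module.finrank ℤ ((TT N →ₗ[ℤ] ℤ) ⧸ LinearMap.range α) = 0 := by omega
  obtain ⟨a, ha0, ha⟩ := (Module.finrank_eq_zero_iff).mp h5 (Submodule.Quotient.mk φ)
  rw [← Submodule.Quotient.mk_smul, Submodule.Quotient.mk_eq_zero] at ha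
  obtain ⟨g, hg⟩ := ha
  have hg' : ∀ t : TT N, pair t g = a * φ t := by
    intro t
    have := LinearMap.congr_fun hg t
    simpa [hα] using this
  obtain ⟨f, hf⟩ := exists_eq_zsmul_of_dvd g a ha0 (by
    intro k hk
    obtain ⟨s, hs⟩ := exists_hecke (N := N) k hk
    refine ⟨φ s, ?_⟩
    rw [← hs, ← pair_apply, hg'])
  refine ⟨f, fun t => ?_⟩
  have := hg' t
  rw [← hf, map_zsmul, smul_eq_mul] at this
  exact mul_left_cancel₀ ha0 this

end

end Fermat.Agent.S16.H93
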