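import Mathlib
import Fermat.Prelude.Def_CuspForm_HeckeLocal
import Fermat.Prelude.Def_CuspForm_HeckeEvalForms
import Fermat.Prelude.Def_HeckeGalois_EichlerShimura
import Fermat.Prelude.Def_ModularCurve_ModularUnit

set_option autoImplicit false

/-!
# S16 interface layer: the frozen statement from the two bounds

`T := heckeLatticeAlgebra p ∅`, `I' :=` the image of the Eisenstein ideal in `T`,
`n := eisensteinNumerator p`.  We show that `ℤ → T ⧸ I'` is surjective and that the frozen
statement `Nat.card (T ⧸ I') = n` follows from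
* (U) `(n : T) ∈ I'`, and
* (L) `∀ a : ℤ, (a : T) ∈ I' → (n : ℤ) ∣ a`.
-/

open ModularCurve CuspForm

namespace Fermat.Agent.S16.H94

noncomputable section

section Generic

/-- `heckeEvalForms N k` is surjective: the Hecke algebra away from `∅` is generated by the
images of the `heckeGen ℓ`. -/
theorem heckeEvalForms_surjective (N : ℕ) [NeZero N] (k : ℤ) :
    Function.Surjective (heckeEvalForms N k) := by
  have hle : heckeAlgebra N k ∅ ≤
      ((heckeAlgebra N k ∅).val.comp (MvPolynomial.aeval (heckeFormsGen N k))).range := by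
    refine Algebra.adjoin_le ?_
    rintro T (⟨ℓ, hℓ, hℓN, -, rfl⟩ | ⟨q, hqN, hq, -, rfl⟩)
    · obtain ⟨P, hP⟩ : ∃ P : Nat.Primes, (P : ℕ) = ℓ := ⟨⟨ℓ, hℓ⟩, rfl⟩
      subst hP
      have h : ¬ (P : ℕ) ∣ N := hℓN
      refine (AlgHom.mem_range _).mpr ⟨MvPolynomial.X P, ?_⟩
      rw [AlgHom.comp_apply, MvPolynomial.aeval_X, heckeFormsGen_of_not_dvd h]
      rfl
    · obtain ⟨P, hP⟩ : ∃ P : Nat.Primes, (P : ℕ) = q := ⟨⟨q, hq⟩, rfl⟩
      subst hP
      have h : (P : ℕ) ∣ N := hqN
      refine (AlgHom.mem_range _).mpr ⟨MvPolynomial.X P, ?_⟩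
      rw [AlgHom.comp_apply, MvPolynomial.aeval_X, heckeFormsGen_of_dvd h]
      rfl
  intro x
  obtain ⟨t, ht⟩ := (AlgHom.mem_range _).mp (hle x.2)
  exact ⟨t, Subtype.ext ht⟩

/-- For every `t : HeckeAlg`, `t - C (aeval a t)` lies in the span of the `X ℓ - C (a ℓ)`. -/
theorem sub_C_aeval_mem_span (a : Nat.Primes → ℤ) (t : HeckeAlg) :
    t - MvPolynomial.C (MvPolynomial.aeval a t) ∈
      Ideal.span (Set.range fun ℓ : Nat.Primes => heckeGen ℓ - MvPolynomial.C (a ℓ)) := by
  set J := Ideal.span (Set.range fun ℓ : Nat.Primes => heckeGen ℓ - MvPolynomial.C (a ℓ)) with hJ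
  induction t using MvPolynomial.induction_on with
  | C c => simp
  | add p q hp hq =>
    have : p + q - MvPolynomial.C (MvPolynomial.aeval a (p + q)) =
        (p - MvPolynomial.C (MvPolynomial.aeval a p)) +
          (q - MvPolynomial.C (MvPolynomial.aeval a q)) := by
      simp only [map_add]; ring
    rw [this]; exact J.add_mem hp hq
  | mul_X p ℓ hp =>
    have hℓ : (MvPolynomial.X ℓ - MvPolynomial.C (a ℓ) : HeckeAlg) ∈ J :=
      Ideal.subset_span ⟨ℓ, rfl⟩
    have : p * MvPolynomial.X ℓ - MvPolynomial.C (MvPolynomial.aeval a (p * MvPolynomial.X ℓ)) =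
        (p - MvPolynomial.C (MvPolynomial.aeval a p)) * MvPolynomial.X ℓ +
          MvPolynomial.C (MvPolynomial.aeval a p) * (MvPolynomial.X ℓ - MvPolynomial.C (a ℓ)) := by
      simp only [map_mul, MvPolynomial.aeval_X]; ring
    rw [this]
    exact J.add_mem (J.mul_mem_right _ hp) (J.mul_mem_left _ hℓ)

/-- `eigenIdeal a` is generated by the `heckeGen ℓ - C (a ℓ)`. -/
theorem eigenIdeal_eq_span (a : Nat.Primes → ℤ) :
    eigenIdeal a =
      Ideal.span (Set.range fun ℓ : Nat.Primes => heckeGen ℓ - MvPolynomial.C (a ℓ)) := by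
  apply le_antisymm
  · intro t ht
    have h0 : MvPolynomial.aeval a t = 0 := (mem_eigenIdeal_iff a t).mp ht
    have := sub_C_aeval_mem_span a t
    rwa [h0, map_zero, sub_zero] at this
  · rw [Ideal.span_le]
    rintro _ ⟨ℓ, rfl⟩
    rw [SetLike.mem_coe, mem_eigenIdeal_iff]
    simp [heckeGen]

end Generic

section Abstract

variable {A T F : Type*} [CommRing A] [CommRing T] (φ : A →+* T)
  [FunLike F A ℤ] [RingHomClass F A ℤ] (ε : F)

/-- If `φ : A → T` is surjective and `ε : A → ℤ` is a ring hom, every element of `T` is congruent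
to an integer modulo the image of `ker ε`. -/
theorem exists_int_sub_mem_map_ker (hφ : Function.Surjective φ) (x : T) :
    ∃ a : ℤ, x - (a : T) ∈ Ideal.map φ (RingHom.ker ε) := by
  obtain ⟨t, rfl⟩ := hφ x
  refine ⟨ε t, ?_⟩
  have h : t - ((ε t : ℤ) : A) ∈ RingHom.ker ε := by
    rw [RingHom.mem_ker, map_sub, map_intCast, Int.cast_id, sub_self]
  have := Ideal.mem_map_of_mem φ h
  simpa using this

theorem intCast_quotient_map_ker_surjective (hφ : Function.Surjective φ) :
    Function.Surjective (Int.castRingHom (T ⧸ Ideal.map φ (RingHom.ker ε))) := by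
  intro y
  obtain ⟨x, rfl⟩ := Ideal.Quotient.mk_surjective y
  obtain ⟨a, ha⟩ := exists_int_sub_mem_map_ker φ ε hφ x
  refine ⟨a, ?_⟩
  have h1 : Int.castRingHom (T ⧸ Ideal.map φ (RingHom.ker ε)) a =
      Ideal.Quotient.mk (Ideal.map φ (RingHom.ker ε)) (a : T) :=
    (map_intCast (Ideal.Quotient.mk (Ideal.map φ (RingHom.ker ε))) a).symm
  rw [h1]
  exact (Ideal.Quotient.eq.mpr ha).symm

theorem card_quotient_map_ker_eq (hφ : Function.Surjective φ) (n : ℕ)
    (hU : ((n : ℤ) : T) ∈ Ideal.map φ (RingHom.ker ε))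
    (hL : ∀ a : ℤ, (a : T) ∈ Ideal.map φ (RingHom.ker ε) → (n : ℤ) ∣ a) :
    Nat.card (T ⧸ Ideal.map φ (RingHom.ker ε)) = n := by
  set I := Ideal.map φ (RingHom.ker ε) with hI
  let f := Int.castRingHom (T ⧸ I)
  have hker : RingHom.ker f = Ideal.span {(n : ℤ)} := by
    ext a
    rw [RingHom.mem_ker, Ideal.mem_span_singleton]
    have h1 : f a = Ideal.Quotient.mk I (a : T) := (map_intCast (Ideal.Quotient.mk I) a).symm
    rw [h1, Ideal.Quotient.eq_zero_iff_mem]
    constructor
    · exact hL a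
    · rintro ⟨b, rfl⟩
      rw [Int.cast_mul]
      exact Ideal.mul_mem_right _ _ hU
  let e : (ℤ ⧸ RingHom.ker f) ≃+* (T ⧸ I) :=
    RingHom.quotientKerEquivOfSurjective (intCast_quotient_map_ker_surjective φ ε hφ)
  rw [← Nat.card_congr e.toEquiv, hker]
  rw [Nat.card_congr (Int.quotientSpanNatEquivZMod n).toEquiv, Nat.card_zmod]

end Abstract

section S16

variable (p : ℕ) [Fact p.Prime]

/-- The structure map `HeckeAlg → T = heckeLatticeAlgebra p ∅` of the frozen statement. -/
abbrev toT : HeckeAlg →+* ↥(heckeLatticeAlgebra p ∅) :=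
  (latticeRestrictHom p ∅).toRingHom.comp (heckeEvalForms p 2)

/-- The image `I'` of the Eisenstein ideal in `T` (the ideal of the frozen statement). -/
def eisT : Ideal ↥(heckeLatticeAlgebra p ∅) :=
  Ideal.map (toT p) (eisensteinIdeal p)

theorem eisT_def : eisT p = Ideal.map (toT p) (eisensteinIdeal p) := rfl

theorem toT_surjective : Function.Surjective (toT p) :=
  (latticeRestrictHom_surjective p ∅).comp (heckeEvalForms_surjective p 2)

/-- The generator `T_ℓ` (resp. `U_p`) of `T`. -/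
def genT (ℓ : Nat.Primes) : ↥(heckeLatticeAlgebra p ∅) := toT p (heckeGen ℓ)

/-- `I'` is generated by the `T_ℓ - (1 + ℓ)` (`ℓ ≠ p`) and `U_p - 1`. -/
theorem eisT_eq_span :
    eisT p = Ideal.span (Set.range fun ℓ : Nat.Primes =>
      genT p ℓ - ((eisensteinSystem p ℓ : ℤ) : ↥(heckeLatticeAlgebra p ∅))) := by
  rw [eisT_def]
  unfold eisensteinIdeal
  rw [eigenIdeal_eq_span, Ideal.map_span]
  congr 1
  ext x
  constructor
  · rintro ⟨_, ⟨ℓ, rfl⟩, rfl⟩
    exact ⟨ℓ, by simp [genT]⟩
  · rintro ⟨ℓ, rfl⟩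
    exact ⟨_, ⟨ℓ, rfl⟩, by simp [genT]⟩

/-- Every element of `T` is congruent to an integer modulo `I'`. -/
theorem exists_int_sub_mem_eisT (x : ↥(heckeLatticeAlgebra p ∅)) :
    ∃ a : ℤ, x - (a : ↥(heckeLatticeAlgebra p ∅)) ∈ eisT p :=
  exists_int_sub_mem_map_ker (toT p) (MvPolynomial.aeval (R := ℤ) (eisensteinSystem p))
    (toT_surjective p) x

/-- `ℤ → T ⧸ I'` is surjective. -/
theorem intCast_quotient_surjective :
    Function.Surjective (Int.castRingHom (↥(heckeLatticeAlgebra p ∅) ⧸ eisT p)) :=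
  intCast_quotient_map_ker_surjective (toT p) (MvPolynomial.aeval (R := ℤ) (eisensteinSystem p))
    (toT_surjective p)

/-- **S16 from the two bounds** (`eisT p` is by definition the ideal of the frozen statement). -/
theorem card_eq_of_bounds
    (hU : ((eisensteinNumerator p : ℤ) : ↥(heckeLatticeAlgebra p ∅)) ∈ eisT p)
    (hL : ∀ a : ℤ, (a : ↥(heckeLatticeAlgebra p ∅)) ∈ eisT p → (eisensteinNumerator p : ℤ) ∣ a) :
    Nat.card (↥(heckeLatticeAlgebra p ∅) ⧸ eisT p) = eisensteinNumerator p :=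
  card_quotient_map_ker_eq (toT p) (MvPolynomial.aeval (R := ℤ) (eisensteinSystem p))
    (toT_surjective p) (eisensteinNumerator p) hU hL

/-- The frozen S16 statement, literally, from the two bounds. -/
theorem frozen_of_bounds
    (hU : ((eisensteinNumerator p : ℤ) : ↥(heckeLatticeAlgebra p ∅)) ∈ eisT p)
    (hL : ∀ a : ℤ, (a : ↥(heckeLatticeAlgebra p ∅)) ∈ eisT p → (eisensteinNumerator p : ℤ) ∣ a) :
    Nat.card (↥(heckeLatticeAlgebra p ∅) ⧸
        Ideal.map ((latticeRestrictHom p ∅).toRingHom.comp (heckeEvalForms p 2))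
          (eisensteinIdeal p)) =
      eisensteinNumerator p :=
  card_eq_of_bounds p hU hL

end S16

end

end Fermat.Agent.S16.H94
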