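import Mathlib
import Fermat.Agent.S24.H42_FF2
import Fermat.Agent.S24.H97_Degree

set_option autoImplicit false
set_option linter.unusedSectionVars false
set_option linter.style.haveILetI false

/-!
# (G0) P6 dictionary: primes of the integral closure of `K[t]` versus places of `F/K`

For a function field `F/K` with `t` transcendental and `[F : K(t)] < ∞`, `A := K[t]`
(`H97.polyRing K t`), `B :=` integral closure of `A` in `F` (`H97.intRing K t`):
the nonzero primes `w` of `B` are the places `v` of `F/K` with `t ∈ O_v`
(`H97.placeEquiv`), `w` lies over `(t - a)` for the value `a` of `t` at `v`, and the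
ramification index of `w` over `A` is `ord_v (t - a)`.
-/

open IsDedekindDomain Polynomial AlgebraicCurve
open scoped IntermediateField IntermediateField.algebraAdjoinAdjoin

noncomputable section

namespace Fermat.Agent.S16.H95

open Fermat.Agent.S24 Fermat.Agent.S24.H97

variable {K F : Type*} [Field K] [Field F] [Algebra K F]
variable (t : F) [FiniteDimensional K⟮t⟯ F] [CharZero K] [Fact (Transcendental K t)]

/-- The image of `t - a` in the integral closure of `K[t]`. -/
theorem coe_algebraMap_linElt (a : K) :
    algebraMap (intRing K t) F (algebraMap (polyRing K t) (intRing K t) (H42.linElt t a))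
      = t - algebraMap K F a := rfl

theorem algebraMap_linElt_ne_zero (a : K) :
    algebraMap (polyRing K t) (intRing K t) (H42.linElt t a) ≠ 0 := by
  intro h
  have h1 := congrArg (algebraMap (intRing K t) F) h
  rw [coe_algebraMap_linElt, map_zero] at h1
  exact H97.sub_algebraMap_ne_zero (K := K) (Fact.out : Transcendental K t) a h1

/-- A prime `w` of the integral closure at whose place `t - a` vanishes lies over `(t - a)`. -/
theorem liesOver_linElt (w : HeightOneSpectrum (intRing K t)) (a : K)
    (ha : 0 < (placeOfPrime t w).ord (t - algebraMap K F a)) :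
    w.asIdeal.LiesOver (Ideal.span {H42.linElt t a}) := by
  have ht : Transcendental K t := Fact.out
  have hmem : algebraMap (polyRing K t) (intRing K t) (H42.linElt t a) ∈ w.asIdeal := by
    rw [← H42.ord_placeOf_pos_iff (K := K) (F := F) w _ (algebraMap_linElt_ne_zero t a)]
    exact ha
  have hle : Ideal.span {H42.linElt t a} ≤ w.asIdeal.under (polyRing K t) := by
    rw [Ideal.span_le, Set.singleton_subset_iff]
    exact hmem
  have hne : w.asIdeal.under (polyRing K t) ≠ ⊤ := by
    have := w.isPrime
    exact (Ideal.IsPrime.under (polyRing K t) w.asIdeal).ne_top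
  exact ⟨(H42.span_linElt_isMaximal t ht a).eq_of_le hne hle⟩

/-- **Dictionary.** The ramification index of `w` over `K[t]` is `ord_v (t - a)`. -/
theorem ramificationIdx_eq_ord_sub (w : HeightOneSpectrum (intRing K t)) (a : K)
    (ha : 0 < (placeOfPrime t w).ord (t - algebraMap K F a)) :
    ((w.asIdeal.ramificationIdx (polyRing K t) : ℕ) : ℤ)
      = (placeOfPrime t w).ord (t - algebraMap K F a) := by
  haveI := liesOver_linElt t w a ha
  haveI := isDedekindDomain_polyRing (K := K) t Fact.out
  exact H42.ramificationIdx_eq_ord (K := K) (F := F) w (H42.linElt t a)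
    (algebraMap_linElt_ne_zero t a)

end Fermat.Agent.S16.H95
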