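import Mathlib
import Fermat.Agent.S16.H6_G0Iface
import Fermat.Agent.S16.H1_TameDedekind
import Fermat.Agent.S16.H95_PartialL
import Fermat.Agent.S16.H95_RamDict

set_option autoImplicit false
set_option linter.unusedSectionVars false
set_option linter.style.haveILetI false

/-!
# (G0) P6, finite side: the tame bound on the trace dual in place language

`F/K` a function field, `K` algebraically closed of characteristic zero, `x` transcendental with
`[F : K(x)] < ∞`.  For `y` in the trace dual `dualK (Afin K x) (Rfin K x)` of the integral closure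
of `K[x]` and every place `v` with `x` regular at `v`, `x(v) = a`:
`ord_v y ≥ -(ord_v (x - a) - 1)`.  Hence the colength of `Rfin` in its trace dual is at most the
degree of the finite part of the ramification divisor.
-/

open IsDedekindDomain Polynomial AlgebraicCurve WithZero
open scoped IntermediateField IntermediateField.algebraAdjoinAdjoin

noncomputable section

namespace Fermat.Agent.S16.H95

open Fermat.Agent.S24 Fermat.Agent.S24.H97 Fermat.Agent.RR.H76

variable {K F : Type*} [Field K] [Field F] [Algebra K F]

/-! ### Interface objects versus S24 objects -/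

/-- `Rfin K x` (interface) is `partialL` of the places where `x` is regular. -/
theorem Rfin_eq_partialL (x : F) :
    H6.Rfin K x = partialL {v : Place K F | 0 ≤ v.ord x} 0 := by
  ext f
  rw [H6.mem_Rfin, mem_partialL_zero_iff]
  rfl

/-- `Rinf K x` (interface) is `partialL` of the poles of `x`. -/
theorem Rinf_eq_partialL (x : F) :
    H6.Rinf K x = partialL {v : Place K F | v.ord x < 0} 0 := by
  ext f
  rw [H6.mem_Rinf, mem_partialL_zero_iff]
  rfl

/-- The elements of `Afin K x ⊆ K(x)` come from `K[x] = polyRing K x`. -/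
theorem mem_range_of_mem_Afin (x : F) {e : K⟮x⟯} (he : e ∈ H6.Afin K x) :
    e ∈ (algebraMap (polyRing K x) K⟮x⟯).range := by
  have h1 : (e : F) ∈ Algebra.adjoin K {x} := by
    have h2 : (e : F) ∈ (H6.Afin K x).map (IntermediateField.val K⟮x⟯) :=
      ⟨e, he, rfl⟩
    have h3 : (H6.Afin K x).map (IntermediateField.val K⟮x⟯) = Algebra.adjoin K {x} := by
      unfold H6.Afin
      rw [AlgHom.map_adjoin, Set.image_singleton]
      rfl
    rwa [h3] at h2
  exact ⟨⟨(e : F), h1⟩, Subtype.ext rfl⟩

section Main

variable (x : F) [FiniteDimensional K⟮x⟯ F] [CharZero K] [Fact (Transcendental K x)]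

omit [CharZero K] [Fact (Transcendental K x)] [FiniteDimensional K⟮x⟯ F] in
/-- Integral elements over `K[x]` lie in `Rfin K x`. -/
theorem coe_mem_Rfin (b : intRing K x) : (b : F) ∈ H6.Rfin K x := by
  intro v hv
  have hxv : x ∈ v.toValuationSubring := (mem_valSubring_iff v).mpr (Or.inr hv)
  exact coe_mem_of_mem x v hxv b

/-- The trace dual in the interface sense lies in Mathlib's trace dual of the integral closure. -/
theorem mem_traceDual_of_mem_dualK {y : F}
    (hy : y ∈ H6.dualK (H6.Afin K x) (H6.Rfin K x)) :
    y ∈ Submodule.traceDual (polyRing K x) K⟮x⟯ (1 : Submodule (intRing K x) F) := by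
  rw [Submodule.mem_traceDual]
  intro r hr
  obtain ⟨b, rfl⟩ := Submodule.mem_one.mp hr
  rw [Algebra.traceForm_apply]
  exact mem_range_of_mem_Afin x (hy _ (coe_mem_Rfin x b))

/-- **Tame bound, finite side, pointwise.** -/
theorem le_ord_of_mem_dualK {y : F} (hy : y ∈ H6.dualK (H6.Afin K x) (H6.Rfin K x))
    (v : Place K F) (a : K) (ha : 0 < v.ord (x - algebraMap K F a)) :
    y = 0 ∨ -(v.ord (x - algebraMap K F a) - 1) ≤ v.ord y := by
  have ht : Transcendental K x := Fact.out
  rcases eq_or_ne y 0 with rfl | hy0
  · exact Or.inl rfl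
  right
  -- `x` is regular at `v`
  have hne : x - algebraMap K F a ≠ 0 := H97.sub_algebraMap_ne_zero ht a
  have hmem : x - algebraMap K F a ∈ v.toValuationSubring :=
    (mem_valSubring_iff v).mpr (Or.inr ha.le)
  have hxv : x ∈ v.toValuationSubring := by
    have := v.toValuationSubring.add_mem _ _ hmem (v.algebraMap_mem' a)
    simpa using this
  -- the prime of the integral closure
  set w := primeOfPlace x v hxv with hw
  have hwv : placeOfPrime x w = v := placeOfPrime_primeOfPlace x v hxv
  haveI := isDedekindDomain_polyRing (K := K) x ht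
  haveI hmax : (Ideal.span {H42.linElt x a}).IsMaximal := H42.span_linElt_isMaximal x ht a
  have hwπ : algebraMap (polyRing K x) (intRing K x) (H42.linElt x a) ∈ w.asIdeal := by
    rw [← H42.ord_placeOf_pos_iff (K := K) (F := F) w _ (algebraMap_linElt_ne_zero x a)]
    have : (H42.placeOf (K := K) (F := F) w) = v := hwv
    rw [this]
    exact ha
  have hchar : ∀ n : ℕ, n ≠ 0 →
      ((n : ℕ) : polyRing K x ⧸ Ideal.span {H42.linElt x a}) ≠ 0 := by
    intro n hn
    haveI : Nontrivial (polyRing K x ⧸ Ideal.span {H42.linElt x a}) :=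
      Ideal.Quotient.nontrivial_iff.mpr hmax.ne_top
    have h1 : ((n : ℕ) : polyRing K x ⧸ Ideal.span {H42.linElt x a})
        = algebraMap K (polyRing K x ⧸ Ideal.span {H42.linElt x a}) (n : K) := by
      rw [map_natCast]
    rw [h1]
    intro h0
    have := (algebraMap K (polyRing K x ⧸ Ideal.span {H42.linElt x a})).injective
      (h0.trans (map_zero _).symm)
    exact hn (by exact_mod_cast this)
  have hT := H1.valuation_mul_lt_one_of_mem_traceDual (polyRing K x) K⟮x⟯ w (H42.linElt x a)
    hwπ hchar y (mem_traceDual_of_mem_dualK x hy)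
  have hcoe : algebraMap (polyRing K x) F (H42.linElt x a) = x - algebraMap K F a := rfl
  rw [hcoe] at hT
  -- translate to `ord`
  have hprod : (x - algebraMap K F a) * y ≠ 0 := mul_ne_zero hne hy0
  have hord : 0 < v.ord ((x - algebraMap K F a) * y) := by
    rw [← hwv, ord_placeOfPrime]
    have h0 : w.valuation F ((x - algebraMap K F a) * y) ≠ 0 :=
      (Valuation.ne_zero_iff _).mpr hprod
    have : log (w.valuation F ((x - algebraMap K F a) * y)) < 0 := by
      rw [log_lt_iff_lt_exp h0, exp_zero]
      exact hT
    omega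
  rw [v.ord_mul hne hy0] at hord
  omega

/-- **Tame bound, finite side, as an inclusion.** -/
theorem dualK_Afin_Rfin_le_partialL (Ram : Divisor K F) [IsAlgClosed K]
    (hfin : ∀ (v : Place K F) (a : K), 0 < v.ord (x - algebraMap K F a) →
      Ram v = v.ord (x - algebraMap K F a) - 1) :
    H6.dualK (H6.Afin K x) (H6.Rfin K x) ≤ partialL {v : Place K F | 0 ≤ v.ord x} Ram := by
  have ht : Transcendental K x := Fact.out
  intro y hy
  rw [mem_partialL_iff]
  intro v hv
  have hxv : x ∈ v.toValuationSubring := (mem_valSubring_iff v).mpr (Or.inr hv)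
  obtain ⟨a, ha⟩ := exists_zero_of_mem x ht v hxv
  rw [hfin v a ha]
  exact le_ord_of_mem_dualK x hy v a ha

/-- **Tame bound, finite side, colength form.**  `Dfin` is any effective divisor that agrees with
the ramification divisor `v ↦ e_v - 1` at the places where `x` is regular. -/
theorem colen_Rfin_dualK_le (Dfin : Divisor K F) [IsAlgClosed K] (hD : 0 ≤ Dfin)
    (hfin : ∀ (v : Place K F) (a : K), 0 < v.ord (x - algebraMap K F a) →
      Dfin v = v.ord (x - algebraMap K F a) - 1) :
    FiniteDimensional K (↥(H6.dualK (H6.Afin K x) (H6.Rfin K x)) ⧸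
        (H6.Rfin K x).submoduleOf (H6.dualK (H6.Afin K x) (H6.Rfin K x))) ∧
      (H6.colen (H6.Rfin K x) (H6.dualK (H6.Afin K x) (H6.Rfin K x)) : ℤ)
        ≤ Divisor.degree Dfin := by
  have ht : Transcendental K x := Fact.out
  have hres : ∀ v : Place K F, Module.Finite K v.ResidueField :=
    fun v => finite_residueField x ht v
  have h := finrank_quotient_le_of_le_partialL hres {v : Place K F | 0 ≤ v.ord x} Dfin hD
    (H6.dualK (H6.Afin K x) (H6.Rfin K x)) (dualK_Afin_Rfin_le_partialL x Dfin hfin)
  rw [← Rfin_eq_partialL] at h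
  exact h

end Main

end Fermat.Agent.S16.H95
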