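import Mathlib
import Fermat.Agent.S16.H95_G0Tame

set_option autoImplicit false
set_option linter.unusedSectionVars false
set_option linter.style.haveILetI false

/-!
# (G0) P6: the two tame colength bounds add up to `deg Ram`

`Ram` is any divisor with `Ram v = ord_v (x - a) - 1` at the zeros of `x - a` and
`Ram v = - ord_v x - 1` at the poles of `x`.  Given the pointwise tame bound at infinity
(`dualK Binf Rinf ≤ partialL poles Ram`, helper1's `H1.dualK_Binf_le_partialL`), the colengths of
`Rfin` and `Rinf` in their trace duals add up to at most `deg Ram`.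
-/

open IsDedekindDomain Polynomial AlgebraicCurve WithZero
open scoped IntermediateField IntermediateField.algebraAdjoinAdjoin

noncomputable section

namespace Fermat.Agent.S16.H95

open Fermat.Agent.S24 Fermat.Agent.S24.H97 Fermat.Agent.RR.H76

variable {K F : Type*} [Field K] [Field F] [Algebra K F]
variable (x : F) [FiniteDimensional K⟮x⟯ F] [CharZero K] [Fact (Transcendental K x)]
  [IsAlgClosed K]

/-- A ramification divisor is effective. -/
theorem ram_nonneg (Ram : Divisor K F)
    (hfin : ∀ (v : Place K F) (a : K), 0 < v.ord (x - algebraMap K F a) →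
      Ram v = v.ord (x - algebraMap K F a) - 1)
    (hpole : ∀ v : Place K F, v.ord x < 0 → Ram v = - v.ord x - 1) : 0 ≤ Ram := by
  have ht : Transcendental K x := Fact.out
  intro v
  rcases pole_or_zero x ht v with h | ⟨a, ha⟩
  · rw [hpole v h]
    show (0 : ℤ) ≤ _
    omega
  · rw [hfin v a ha]
    show (0 : ℤ) ≤ _
    omega

/-- **Tame bound, infinite side, colength form**, from the pointwise bound. -/
theorem colen_Rinf_dualK_le (B : Subalgebra K K⟮x⟯) (Dinf : Divisor K F) (hD : 0 ≤ Dinf)
    (hInf : H6.dualK B (H6.Rinf K x) ≤ partialL {v : Place K F | v.ord x < 0} Dinf) :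
    FiniteDimensional K (↥(H6.dualK B (H6.Rinf K x)) ⧸
        (H6.Rinf K x).submoduleOf (H6.dualK B (H6.Rinf K x))) ∧
      (H6.colen (H6.Rinf K x) (H6.dualK B (H6.Rinf K x)) : ℤ) ≤ Divisor.degree Dinf := by
  have ht : Transcendental K x := Fact.out
  have hres : ∀ v : Place K F, Module.Finite K v.ResidueField :=
    fun v => finite_residueField x ht v
  have h := finrank_quotient_le_of_le_partialL hres {v : Place K F | v.ord x < 0} Dinf hD
    (H6.dualK B (H6.Rinf K x)) hInf
  rw [← Rinf_eq_partialL] at h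
  exact h

open Classical in
/-- **(G0) P6, final form.**  The sum of the two colengths is at most `deg Ram`. -/
theorem colen_add_colen_le_degree (B : Subalgebra K K⟮x⟯) (Ram : Divisor K F)
    (hfin : ∀ (v : Place K F) (a : K), 0 < v.ord (x - algebraMap K F a) →
      Ram v = v.ord (x - algebraMap K F a) - 1)
    (hpole : ∀ v : Place K F, v.ord x < 0 → Ram v = - v.ord x - 1)
    (hInf : H6.dualK B (H6.Rinf K x) ≤ partialL {v : Place K F | v.ord x < 0} Ram) :
    (FiniteDimensional K (↥(H6.dualK (H6.Afin K x) (H6.Rfin K x)) ⧸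
        (H6.Rfin K x).submoduleOf (H6.dualK (H6.Afin K x) (H6.Rfin K x))) ∧
      FiniteDimensional K (↥(H6.dualK B (H6.Rinf K x)) ⧸
        (H6.Rinf K x).submoduleOf (H6.dualK B (H6.Rinf K x)))) ∧
      (H6.colen (H6.Rfin K x) (H6.dualK (H6.Afin K x) (H6.Rfin K x)) : ℤ)
        + (H6.colen (H6.Rinf K x) (H6.dualK B (H6.Rinf K x)) : ℤ) ≤ Divisor.degree Ram := by
  have h0 := ram_nonneg x Ram hfin hpole
  set Dfin : Divisor K F := Ram.filter (fun v => 0 ≤ v.ord x) with hDfin
  set Dinf : Divisor K F := Ram.filter (fun v => ¬ 0 ≤ v.ord x) with hDinf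
  have hsplit : Dfin + Dinf = Ram := Finsupp.filter_pos_add_filter_neg Ram _
  have hDfin0 : 0 ≤ Dfin := by
    intro v
    rw [hDfin, Finsupp.filter_apply]
    by_cases h : 0 ≤ v.ord x
    · rw [if_pos h]; exact h0 v
    · rw [if_neg h]; exact le_rfl
  have hDinf0 : 0 ≤ Dinf := by
    intro v
    rw [hDinf, Finsupp.filter_apply]
    by_cases h : ¬ 0 ≤ v.ord x
    · rw [if_pos h]; exact h0 v
    · rw [if_neg h]; exact le_rfl
  have hfin' : ∀ (v : Place K F) (a : K), 0 < v.ord (x - algebraMap K F a) →
      Dfin v = v.ord (x - algebraMap K F a) - 1 := by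
    intro v a ha
    have hne : x - algebraMap K F a ≠ 0 :=
      H97.sub_algebraMap_ne_zero (Fact.out : Transcendental K x) a
    have hmem : x - algebraMap K F a ∈ v.toValuationSubring :=
      (mem_valSubring_iff v).mpr (Or.inr ha.le)
    have hxv : x ∈ v.toValuationSubring := by
      have := v.toValuationSubring.add_mem _ _ hmem (v.algebraMap_mem' a)
      simpa using this
    have hx0 : x ≠ 0 := H97.ne_zero_of_transcendental (Fact.out : Transcendental K x)
    have hvx : 0 ≤ v.ord x := ((mem_valSubring_iff v).mp hxv).resolve_left hx0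
    rw [hDfin, Finsupp.filter_apply, if_pos hvx]
    exact hfin v a ha
  have hInf' : H6.dualK B (H6.Rinf K x) ≤ partialL {v : Place K F | v.ord x < 0} Dinf := by
    refine hInf.trans (le_of_eq (partialL_congr fun v hv => ?_))
    have hv' : ¬ 0 ≤ v.ord x := not_le.mpr hv
    rw [hDinf, Finsupp.filter_apply, if_pos hv']
  have h1 := colen_Rfin_dualK_le x Dfin hDfin0 hfin'
  have h2 := colen_Rinf_dualK_le x B Dinf hDinf0 hInf'
  refine ⟨⟨h1.1, h2.1⟩, ?_⟩
  rw [← hsplit, map_add]
  exact add_le_add h1.2 h2.2

end Fermat.Agent.S16.H95
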