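import Mathlib
import Fermat.Agent.S16.H95_G0TameSum
import Fermat.Agent.S16.H1_TameInf
import Fermat.Agent.S16.H35_G0Inst
import Fermat.Agent.RR.H23_PlaceExist

set_option autoImplicit false
set_option linter.unusedSectionVars false
set_option linter.style.haveILetI false

/-!
# (G0) P6 at the instance rings `Afin K x`, `Binf K x`

All instance facts about `Binf K x` (helper35's `H35_G0Inst`) are plugged into helper1's
infinity adapter `H1.dualK_Binf_le_partialL`; together with the finite side this gives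
`colen Rfin^ + colen Rinf^ ≤ deg Ram` with a single remaining hypothesis: the dictionary
`f ∈ Rinf K x ↔ IsIntegral ↥(Binf K x) f`.
-/

open IsDedekindDomain Polynomial AlgebraicCurve WithZero
open scoped IntermediateField IntermediateField.algebraAdjoinAdjoin

noncomputable section

namespace Fermat.Agent.S16.H95

open Fermat.Agent.S24 Fermat.Agent.S24.H97 Fermat.Agent.RR.H76

variable {K F : Type*} [Field K] [Field F] [Algebra K F]
variable (x : F) [FiniteDimensional K⟮x⟯ F] [CharZero K] [Fact (Transcendental K x)]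

/-- The pointwise tame bound at infinity, at the instance ring `Binf K x`. -/
theorem dualK_Binf_Rinf_le_partialL
    (hint : ∀ f : F, f ∈ H6.Rinf K x ↔ IsIntegral ↥(H6.Binf K x) f)
    (Ram : Divisor K F) (hpole : ∀ v : Place K F, v.ord x < 0 → Ram v = - v.ord x - 1) :
    H6.dualK (H6.Binf K x) (H6.Rinf K x) ≤ partialL {v : Place K F | v.ord x < 0} Ram := by
  have hx : Transcendental K x := Fact.out
  have hp : ∃ v : Place K F, v.ord x < 0 := RR.H23.exists_place_neg_ord x hx
  haveI := H35.isDiscreteValuationRing_Binf hx hp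
  haveI := H35.isFractionRing_Binf (F := F) hx
  have hπ : IsLocalRing.maximalIdeal ↥(H6.Binf K x) = Ideal.span {H35.tinf hx} :=
    (IsDiscreteValuationRing.irreducible_iff_uniformizer _).mp (H35.irreducible_tinf hx hp)
  have hπx : (((H35.tinf hx : ↥(H6.Binf K x)) : K⟮x⟯) : F) = x⁻¹ := by
    rw [H35.coe_tinf]
    simp
  exact H1.dualK_Binf_le_partialL x (finite_poles x hx) hint (H35.tinf hx) hπ hπx Ram hpole

/-- **(G0) P6 at the instance rings.** -/
theorem colen_add_colen_le_degree_Binf [IsAlgClosed K]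
    (hint : ∀ f : F, f ∈ H6.Rinf K x ↔ IsIntegral ↥(H6.Binf K x) f)
    (Ram : Divisor K F)
    (hfin : ∀ (v : Place K F) (a : K), 0 < v.ord (x - algebraMap K F a) →
      Ram v = v.ord (x - algebraMap K F a) - 1)
    (hpole : ∀ v : Place K F, v.ord x < 0 → Ram v = - v.ord x - 1) :
    (FiniteDimensional K (↥(H6.dualK (H6.Afin K x) (H6.Rfin K x)) ⧸
        (H6.Rfin K x).submoduleOf (H6.dualK (H6.Afin K x) (H6.Rfin K x))) ∧
      FiniteDimensional K (↥(H6.dualK (H6.Binf K x) (H6.Rinf K x)) ⧸
        (H6.Rinf K x).submoduleOf (H6.dualK (H6.Binf K x) (H6.Rinf K x)))) ∧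
      (H6.colen (H6.Rfin K x) (H6.dualK (H6.Afin K x) (H6.Rfin K x)) : ℤ)
        + (H6.colen (H6.Rinf K x) (H6.dualK (H6.Binf K x) (H6.Rinf K x)) : ℤ)
        ≤ Divisor.degree Ram :=
  colen_add_colen_le_degree x (H6.Binf K x) Ram hfin hpole
    (dualK_Binf_Rinf_le_partialL x hint Ram hpole)

end Fermat.Agent.S16.H95
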