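import Mathlib
import Fermat.Agent.S16.H95_G0TameAll
import Fermat.Agent.S16.H38_G0Adapters

set_option autoImplicit false
set_option linter.unusedSectionVars false
set_option linter.style.haveILetI false

/-!
# (G0) P6, unconditional generic form

`F/K` a function field, `K` algebraically closed of characteristic zero, `x` transcendental,
`[F : K(x)] < ∞`, `Ram` a divisor with `Ram v = e_v - 1` (`e_v = ord_v (x - a)` at a zero of
`x - a`, `e_v = - ord_v x` at a pole).  Then the colengths of `Rfin K x`, `Rinf K x` in their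
trace duals (w.r.t. `Afin K x`, `Binf K x`) are finite and add up to at most `deg Ram`.
-/

open IsDedekindDomain Polynomial AlgebraicCurve WithZero
open scoped IntermediateField IntermediateField.algebraAdjoinAdjoin

noncomputable section

namespace Fermat.Agent.S16.H95

open Fermat.Agent.S24 Fermat.Agent.S24.H97 Fermat.Agent.RR.H76

variable {K F : Type*} [Field K] [Field F] [Algebra K F]
variable (x : F) [FiniteDimensional K⟮x⟯ F] [CharZero K] [Fact (Transcendental K x)]
  [IsAlgClosed K]

/-- `Rinf K x` is the integral closure of `Binf K x` (helper38's adapter, hypotheses discharged). -/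
theorem mem_Rinf_iff_isIntegral_Binf :
    ∀ f : F, f ∈ H6.Rinf K x ↔ IsIntegral ↥(H6.Binf K x) f := by
  have hx : Transcendental K x := Fact.out
  exact H38.mem_Rinf_iff_isIntegral_Binf (fun v => finite_residueField x hx v)
    (fun O hK _ => RR.H23.isPrincipalIdealRing_of_valuationSubring O x hK) hx

/-- **(G0) P6, unconditional.** -/
theorem colen_add_colen_le_degree_final (Ram : Divisor K F)
    (hfin : ∀ (v : Place K F) (a : K), 0 < v.ord (x - algebraMap K F a) →
      Ram v = v.ord (x - algebraMap K F a) - 1)
    (hpole : ∀ v : Place K F, v.ord x < 0 → Ram v = - v.ord x - 1) :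
    (FiniteDimensional K (↥(H6.dualK (H6.Afin K x) (H6.Rfin K x)) ⧸
        (H6.Rfin K x).submoduleOf (H6.dualK (H6.Afin K x) (H6.Rfin K x))) ∧
      FiniteDimensional K (↥(H6.dualK (H6.Binf K x) (H6.Rinf K x)) ⧸
        (H6.Rinf K x).submoduleOf (H6.dualK (H6.Binf K x) (H6.Rinf K x)))) ∧
      (H6.colen (H6.Rfin K x) (H6.dualK (H6.Afin K x) (H6.Rfin K x)) : ℤ)
        + (H6.colen (H6.Rinf K x) (H6.dualK (H6.Binf K x) (H6.Rinf K x)) : ℤ)
        ≤ Divisor.degree Ram :=
  colen_add_colen_le_degree_Binf x (mem_Rinf_iff_isIntegral_Binf x) Ram hfin hpole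

end Fermat.Agent.S16.H95
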