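import Mathlib
import Fermat.Agent.S16.H95_G0TameFinal
import Fermat.Agent.S16.H85_G0Assembly
import Fermat.Agent.S16.H24_GenusBridge
import Fermat.Agent.S18.H95_BranchData

set_option autoImplicit false
set_option linter.unusedSectionVars false
set_option linter.style.haveILetI false

/-!
# (G0): the Riemann genus of `X₀(N)` over `ℚ̄` is at most the genus formula

* `rh_inequality` : the **Riemann–Hurwitz inequality for the Riemann genus** `gR` of the RR bank,
  for a function field `F/K` (`K` algebraically closed of characteristic zero) and a separating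
  element `x` of degree `n`: `2 gR - 2 + 2 n ≤ deg Ram`, `Ram = ∑ (e_v - 1) v`.
  (lattice Euler characteristics: helper85's assembly `H85.two_gR_le_colen_add_colen`, and the
  tame bound `H95.colen_add_colen_le_degree_final`.)
* `gR_FN_le_genusFormula` : `gR (F_N / ℚ̄) ≤ genusFormula N`
  (helper24's `H24.gR_FN_le_genusFormula_of_RH`: the S24 ramification count).
-/

open AlgebraicCurve ModularCurve
open scoped IntermediateField

noncomputable section

namespace Fermat.Agent.S16.H95

open Fermat.Agent.S24

section Generic

variable {K F : Type*} [Field K] [Field F] [Algebra K F] [IsAlgClosed K] [CharZero K]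

/-- **Riemann–Hurwitz inequality for the Riemann genus.** -/
theorem rh_inequality (h : RR.H43.FFInputs K F) (x : F) (hx : Transcendental K x)
    [FiniteDimensional K⟮x⟯ F] (Ram : Divisor K F)
    (hfin : ∀ (v : Place K F) (a : K), 0 < v.ord (x - algebraMap K F a) →
      Ram v = v.ord (x - algebraMap K F a) - 1)
    (hpole : ∀ v : Place K F, v.ord x < 0 → Ram v = - v.ord x - 1) :
    2 * (h.ffBase.gR : ℤ) - 2 + 2 * (Module.finrank K⟮x⟯ F : ℤ) ≤ Divisor.degree Ram := by
  haveI : Fact (Transcendental K x) := ⟨hx⟩
  have h1 := H85.two_gR_le_colen_add_colen h.ffBase (H94.hplace_of_ffInputs h hx) x hx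
    (H94.isPoleDivisor_divPole h x) (h.degree_divPole_eq hx)
  have h2 := (colen_add_colen_le_degree_final x Ram hfin hpole).2
  exact h1.trans h2

end Generic

section Instance

variable (N : ℕ) [NeZero N]

/-- **(G0).** The Riemann genus of the function field of `X₀(N)` over `ℚ̄` is at most the
classical genus formula. -/
theorem gR_FN_le_genusFormula :
    ((RR.H76.ffBase_FN N).gR : ℚ) ≤ genusFormula N := by
  haveI : FiniteDimensional (AlgebraicClosure ℚ)⟮jBar N⟯ (FN N) := H40.finiteDimensional_FN N
  refine H24.gR_FN_le_genusFormula_of_RH N (fun Ram hfin hpole => ?_)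
  have h := rh_inequality (RR.H76.ffInputs_FN N) (jBar N) (H40.transcendental_jBar N) Ram
    hfin hpole
  rw [S18.H95.finrank_eq_dedekindPsi] at h
  exact h

end Instance

end Fermat.Agent.S16.H95
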