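import Mathlib
import Fermat.Agent.S16.H95_Hasse

set_option autoImplicit false

/-!
# S16 / (U5a) the Hasse invariant along a ring hom `φ : 𝒪 →+* κ`, and over every field of char `l`

`helper95`.  `helper83`'s shape (#2272): `𝒪 ⊆ ℂ` ANY subring with `6` invertible (not necessarily
local), `φ : 𝒪 →+* κ` a ring hom to a field with `φ l = 0`.  Then there is an isobaric
`A ∈ κ[X,Y]` of weight `l - 1` with `ev κ A = 1`.  Also the version for every field of
characteristic `l`.

Proof: by von Staudt–Clausen there is an integer `U` prime to `l` such that `U • E_{l-1}` has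
integer q-coefficients `U, l M σ_{l-2}(n)`.
-/

noncomputable section

namespace Fermat.Agent.S16.H95

open UpperHalfPlane ModularForm EisensteinSeries MatrixGroups ModularFormClass MvPolynomial

section Bernoulli

variable {l : ℕ} [Fact l.Prime]

/-- clearing denominators in von Staudt–Clausen: `c U = l M` with `U` prime to `l`,
`c = -2(l-1)/B_{l-1}`. -/
theorem exists_int_hasse_coeff (hl : 3 ≤ l) :
    ∃ U M : ℤ, IsCoprime U (l : ℤ) ∧
      -(2 * ((l - 1 : ℕ) : ℚ) / bernoulli (l - 1)) * U = l * M := by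
  have hp : l.Prime := Fact.out
  obtain ⟨S, n, hS, hB⟩ := bernoulli_pred_prime (l := l) hl
  set N₀ : ℕ := ∏ p ∈ S, p with hN₀
  set T : ℕ := ∑ p ∈ S, N₀ / p with hT
  have hS0 : ∀ p ∈ S, (p : ℚ) ≠ 0 := by
    intro p hpS h0
    have : p = 0 := by exact_mod_cast h0
    have hc := hS p hpS
    rw [this, Nat.coprime_zero_left] at hc
    exact hp.one_lt.ne' hc
  have hTq : (N₀ : ℚ) * ∑ p ∈ S, ((p : ℚ))⁻¹ = T := by
    rw [hT, Finset.mul_sum]
    push_cast
    refine Finset.sum_congr rfl fun p hpS => ?_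
    have hdvd : p ∣ N₀ := Finset.dvd_prod_of_mem _ hpS
    rw [Nat.cast_div hdvd (hS0 p hpS)]
    rfl
  set U : ℤ := N₀ + l * (T - n * N₀) with hU
  have hUq : (U : ℚ) = N₀ * (-(l : ℚ) * bernoulli (l - 1)) := by
    rw [hB, hU]
    push_cast
    rw [← hTq]
    ring
  have hcopN : IsCoprime (N₀ : ℤ) (l : ℤ) := by
    rw [Nat.isCoprime_iff_coprime]
    exact Nat.Coprime.prod_left hS
  have hcop : IsCoprime U (l : ℤ) := by
    rw [hU]
    have := hcopN.add_mul_left_left (T - n * N₀)
    convert this using 1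
  have hU0 : (U : ℚ) ≠ 0 := by
    intro h0
    have : U = 0 := by exact_mod_cast h0
    rw [this, isCoprime_zero_left] at hcop
    have := Int.isUnit_iff.mp hcop
    have h2 : (2 : ℤ) ≤ l := by exact_mod_cast hp.two_le
    omega
  have hB0 : bernoulli (l - 1) ≠ 0 := by
    intro h0
    rw [h0, mul_zero, mul_zero] at hUq
    exact hU0 hUq
  refine ⟨U, 2 * ((l - 1 : ℕ) : ℤ) * N₀, hcop, ?_⟩
  rw [hUq]
  push_cast
  field_simp

end Bernoulli

section Hom

variable {l : ℕ} [Fact l.Prime]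

/-- `U • E_{l-1}`. -/
def hasseFormSMul (hl : 5 ≤ l) (U : ℤ) : ModularForm 𝒮ℒ ((l - 1 : ℕ) : ℤ) :=
  (U : ℂ) • hasseForm hl

theorem coeff_hasseFormSMul (hl : 5 ≤ l) {U M : ℤ}
    (hUM : -(2 * ((l - 1 : ℕ) : ℚ) / bernoulli (l - 1)) * U = l * M) (n : ℕ) :
    PowerSeries.coeff n (qExpansion 1 (hasseFormSMul hl U)) =
      if n = 0 then (U : ℂ) else ((l : ℂ) * M * (ArithmeticFunction.sigma (l - 1 - 1) n : ℂ)) := by
  have hUMc : -(2 * ((l - 1 : ℕ) : ℂ) / ((bernoulli (l - 1) : ℚ) : ℂ)) * U = l * M := by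
    have := congrArg (fun q : ℚ => (q : ℂ)) hUM
    push_cast at this
    exact this
  rw [hasseFormSMul, FunLike.coe_smul,
    ModularForm.qExpansion_smul one_pos one_mem_strictPeriods_SL, PowerSeries.coeff_smul,
    hasseForm, E_qExpansion_coeff _ (even_pred hl)]
  split_ifs with h0
  · simp
  · rw [smul_eq_mul, ← hUMc]
    ring

/-- **the Hasse invariant along `φ`** (`helper83`'s shape). -/
theorem exists_hasse_of_ringHom (l : ℕ) [Fact l.Prime] (hl : 5 ≤ l) (𝒪 : Subring ℂ)
    (h6 : IsUnit (6 : 𝒪)) {κ : Type*} [Field κ] (φ : 𝒪 →+* κ) (hφl : φ (l : 𝒪) = 0) :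
    ∃ A : MvPolynomial (Fin 2) κ, A.IsWeightedHomogeneous wt (l - 1) ∧ ev κ A = 1 := by
  obtain ⟨U, M, hcop, hUM⟩ := exists_int_hasse_coeff (l := l) (by omega)
  have hcoeff := coeff_hasseFormSMul hl hUM
  have hmem : ∀ n, PowerSeries.coeff n (qExpansion 1 (hasseFormSMul hl U)) ∈ 𝒪 := by
    intro n
    rw [hcoeff]
    split_ifs
    · exact intCast_mem 𝒪 U
    · exact 𝒪.mul_mem (𝒪.mul_mem (natCast_mem 𝒪 l) (intCast_mem 𝒪 M)) (natCast_mem 𝒪 _)
  obtain ⟨P, hP, hPq⟩ := exists_isobaric_of_coeff_mem 𝒪 h6 (l - 1) (hasseFormSMul hl U) hmem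
  have hlκ : (l : κ) = 0 := by rw [← hφl, map_natCast]
  have hUκ : (U : κ) ≠ 0 := by
    obtain ⟨a, b, hab⟩ := hcop
    intro h0
    have := congrArg (Int.cast : ℤ → κ) hab
    push_cast at this
    rw [h0, hlκ, mul_zero, mul_zero, add_zero] at this
    exact zero_ne_one this
  have hev : ev κ (MvPolynomial.map φ P) = PowerSeries.C (U : κ) := by
    rw [ev_map]
    ext n
    rw [PowerSeries.coeff_map, PowerSeries.coeff_C]
    have hc : PowerSeries.coeff n (ev 𝒪 P) = ⟨_, hmem n⟩ := by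
      apply Subtype.ext
      have := congrArg (PowerSeries.coeff n) hPq
      rw [PowerSeries.coeff_map] at this
      exact this.symm
    rw [hc]
    split_ifs with h0
    · subst h0
      have : (⟨_, hmem 0⟩ : 𝒪) = (U : 𝒪) :=
        Subtype.ext ((hcoeff 0).trans (by rw [if_pos rfl]; rfl))
      rw [this, map_intCast]
    · have : (⟨_, hmem n⟩ : 𝒪) =
          (l : 𝒪) * (M : 𝒪) * ((ArithmeticFunction.sigma (l - 1 - 1) n : ℕ) : 𝒪) :=
        Subtype.ext ((hcoeff n).trans (by rw [if_neg h0]; push_cast; rfl))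
      rw [this, map_mul, map_mul, hφl, zero_mul, zero_mul]
  refine ⟨C ((U : κ)⁻¹) * MvPolynomial.map φ P,
    (isWeightedHomogeneous_map φ hP).C_mul _, ?_⟩
  rw [map_mul, ev_C, hev, ← map_mul, inv_mul_cancel₀ hUκ, map_one]

end Hom

section CharP

/-- the embedding `ℤ[1/6] → ℂ`. -/
def sixIota : Localization.Away (6 : ℤ) →+* ℂ :=
  IsLocalization.Away.lift (6 : ℤ) (g := Int.castRingHom ℂ) (by
    rw [isUnit_iff_ne_zero]; norm_num)

theorem sixIota_injective : Function.Injective sixIota := by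
  unfold sixIota IsLocalization.Away.lift
  rw [IsLocalization.lift_injective_iff]
  intro _ _
  have h1 : Function.Injective (algebraMap ℤ (Localization.Away (6 : ℤ))) :=
    IsLocalization.injective _ (M := Submonoid.powers (6 : ℤ))
      (powers_le_nonZeroDivisors_of_noZeroDivisors (by norm_num))
  have h2 : Function.Injective (Int.castRingHom ℂ) := Int.cast_injective
  rw [h1.eq_iff, h2.eq_iff]

/-- `ℤ[1/6]` as a subring of `ℂ`. -/
def sixSubring : Subring ℂ := sixIota.range

def sixEquiv : Localization.Away (6 : ℤ) ≃+* sixSubring :=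
  RingEquiv.ofBijective sixIota.rangeRestrict
    ⟨fun _ _ h => sixIota_injective (congrArg Subtype.val h), sixIota.rangeRestrict_surjective⟩

theorem isUnit_six_sixSubring : IsUnit (6 : sixSubring) := by
  have h : IsUnit (algebraMap ℤ (Localization.Away (6 : ℤ)) 6) :=
    IsLocalization.Away.algebraMap_isUnit 6
  have h2 := h.map sixEquiv
  have h3 : sixEquiv (algebraMap ℤ (Localization.Away (6 : ℤ)) 6) = 6 := by
    rw [map_ofNat, map_ofNat]
  rwa [h3] at h2

theorem exists_hasse_of_charP (l : ℕ) [Fact l.Prime] (hl : 5 ≤ l) (κ : Type*) [Field κ]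
    [CharP κ l] :
    ∃ A : MvPolynomial (Fin 2) κ, A.IsWeightedHomogeneous wt (l - 1) ∧ ev κ A = 1 := by
  have h6κ : IsUnit ((Int.castRingHom κ) 6) := by
    rw [isUnit_iff_ne_zero]
    have hp : l.Prime := Fact.out
    intro h0
    have h1 : ((6 : ℕ) : κ) = 0 := by simpa using h0
    rw [CharP.cast_eq_zero_iff κ l] at h1
    have h6 : l ≤ 6 := Nat.le_of_dvd (by norm_num) h1
    interval_cases l
    · norm_num at h1
    · norm_num at hp
  let ψ : Localization.Away (6 : ℤ) →+* κ := IsLocalization.Away.lift (6 : ℤ) h6κ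
  let φ : sixSubring →+* κ := ψ.comp sixEquiv.symm.toRingHom
  have hφl : φ (l : sixSubring) = 0 := by
    rw [map_natCast]
    exact CharP.cast_eq_zero κ l
  exact exists_hasse_of_ringHom l hl sixSubring isUnit_six_sixSubring φ hφl

end CharP

end Fermat.Agent.S16.H95
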