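import Mathlib
import Fermat.Agent.S16.H83_SwDWeak
import Fermat.Agent.S16.H95_HasseHom

set_option autoImplicit false

/-!
# S16 / (U5a) weak Swinnerton-Dyer along ring homs `φ : 𝒪 →+* κ`, `char κ = l ≥ 5` — UNCONDITIONAL

`helper95`.  `helper83`'s `swd_weak_of_hasse` (H83_SwDWeak) fed with the Hasse invariant
`exists_hasse_of_charP` (H95_HasseHom).  `𝒪 ⊆ ℂ` is ANY subring with `6` invertible (no local ring
needed), `φ : 𝒪 →+* κ` ANY ring hom to a field of characteristic `l`; `D` depends only on `κ`.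
-/

noncomputable section

namespace Fermat.Agent.S16.H95

open UpperHalfPlane ModularForm EisensteinSeries MatrixGroups ModularFormClass MvPolynomial

theorem six_ne_zero_of_charP (l : ℕ) [Fact l.Prime] (hl : 5 ≤ l) (κ : Type*) [Field κ]
    [CharP κ l] : (6 : κ) ≠ 0 := by
  have hp : l.Prime := Fact.out
  intro h0
  have h1 : ((6 : ℕ) : κ) = 0 := by simpa using h0
  rw [CharP.cast_eq_zero_iff κ l] at h1
  have h6 : l ≤ 6 := Nat.le_of_dvd (by norm_num) h1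
  interval_cases l
  · norm_num at h1
  · norm_num at hp

/-- **weak Swinnerton-Dyer along ring homs to a field of characteristic `l`** (one-form and
two-form versions, same `D`). -/
theorem swd_weak_charP (l : ℕ) [Fact l.Prime] (hl : 5 ≤ l) (κ : Type*) [Field κ] [CharP κ l] :
    ∃ D : ℕ, 4 ≤ D ∧ D ∣ l - 1 ∧
      (∀ (𝒪 : Subring ℂ) (_ : IsUnit (6 : 𝒪)) (φ : 𝒪 →+* κ) (k : ℤ) (f : ModularForm 𝒮ℒ k)
        (hf : ∀ n, PowerSeries.coeff n (qExpansion 1 f) ∈ 𝒪),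
        φ ⟨_, hf 0⟩ ≠ 0 → (∀ n, 1 ≤ n → φ ⟨_, hf n⟩ = 0) → (D : ℤ) ∣ k) ∧
      (∀ (𝒪 : Subring ℂ) (_ : IsUnit (6 : 𝒪)) (φ : 𝒪 →+* κ) (k k' : ℤ) (f : ModularForm 𝒮ℒ k)
        (g : ModularForm 𝒮ℒ k')
        (hf : ∀ n, PowerSeries.coeff n (qExpansion 1 f) ∈ 𝒪)
        (hg : ∀ n, PowerSeries.coeff n (qExpansion 1 g) ∈ 𝒪),
        (∀ n, φ ⟨_, hf n⟩ = φ ⟨_, hg n⟩) → (∃ n, φ ⟨_, hf n⟩ ≠ 0) → (D : ℤ) ∣ k - k') :=
  Fermat.Agent.S16.H83.swd_weak_of_hasse (six_ne_zero_of_charP l hl κ) (by omega)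
    (exists_hasse_of_charP l hl κ)

/-- the `count_sparse` consumer shape along ring homs: `∃ d, 1 < d ∧ ¬ l ∣ d ∧ 2 d ∣ k`. -/
theorem count_sparse_charP (l : ℕ) [Fact l.Prime] (hl : 5 ≤ l) (κ : Type*) [Field κ]
    [CharP κ l] :
    ∃ d : ℕ, 1 < d ∧ ¬ l ∣ d ∧
      ∀ (𝒪 : Subring ℂ) (_ : IsUnit (6 : 𝒪)) (φ : 𝒪 →+* κ) (k : ℤ) (f : ModularForm 𝒮ℒ k)
        (hf : ∀ n, PowerSeries.coeff n (qExpansion 1 f) ∈ 𝒪),
        φ ⟨_, hf 0⟩ ≠ 0 → (∀ n, 1 ≤ n → φ ⟨_, hf n⟩ = 0) → (2 * d : ℤ) ∣ k := by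
  obtain ⟨D, hD4, hDL, hD, -⟩ := swd_weak_charP l hl κ
  have h2L : 2 ∣ l - 1 := (even_pred hl).two_dvd
  set M := Nat.lcm D 2 with hM
  have hML : M ∣ l - 1 := Nat.lcm_dvd hDL h2L
  have hDM : D ∣ M := Nat.dvd_lcm_left D 2
  have h2M : 2 ∣ M := Nat.dvd_lcm_right D 2
  have hMpos : 0 < M := Nat.lcm_pos (by omega) (by norm_num)
  have hM4 : 4 ≤ M := le_trans hD4 (Nat.le_of_dvd hMpos hDM)
  obtain ⟨d, hd⟩ := h2M
  refine ⟨d, by omega, ?_, ?_⟩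
  · intro hld
    have hdL : d ∣ l - 1 := Dvd.dvd.trans ⟨2, by omega⟩ hML
    have hl1 : 0 < l - 1 := by omega
    have h1 := Nat.le_of_dvd hl1 hdL
    have h2 := Nat.le_of_dvd (by omega) hld
    omega
  · intro 𝒪 h6 φ k f hf h0 hpos
    have hDk := hD 𝒪 h6 φ k f hf h0 hpos
    have hne : (f : ℍ → ℂ) ≠ 0 := by
      intro hz
      apply h0
      have h1 : PowerSeries.coeff 0 (qExpansion 1 f) = 0 := by
        rw [hz, UpperHalfPlane.qExpansion_zero, map_zero]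
      have h2 : (⟨_, hf 0⟩ : 𝒪) = 0 := Subtype.ext h1
      rw [h2, map_zero]
    have heven : Even k := by
      by_contra hodd
      rw [Int.not_even_iff_odd] at hodd
      apply hne
      rw [levelOne_odd_weight_eq_zero hodd f]
      rfl
    have h2k : (2 : ℤ) ∣ k := heven.two_dvd
    have h1 : D ∣ k.natAbs := Int.natCast_dvd.mp hDk
    have h2 : 2 ∣ k.natAbs := Int.natCast_dvd.mp (by exact_mod_cast h2k)
    have h3 : M ∣ k.natAbs := Nat.lcm_dvd h1 h2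
    have h4 : (M : ℤ) ∣ k := Int.natCast_dvd.mpr h3
    rw [hd] at h4
    exact_mod_cast h4

end Fermat.Agent.S16.H95
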