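import Mathlib

/-!
# S16 / (U2b) tool: extension of derivations along formally étale algebras

Mathlib only.

* `extDeriv R d : Derivation R T T` for `d : Derivation R S S` and `T` a formally étale
  `S`-algebra (localisations, separable algebraic field extensions), with
  `extDeriv_algebraMap : extDeriv R d (algebraMap S T s) = algebraMap S T (d s)`;
* `derivation_ext_of_algebraMap` : uniqueness (only formally unramified needed);
* `exists_derivation_of_transcendental` : for a field `F` separable algebraic over `k(μ)`, `μ`
  transcendental over `k`, there is a `k`-derivation `d` of `F` with `d μ = 1` (= `d/dμ`);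
  `exists_int_derivation_of_transcendental` is the `ℤ`-linear form.
-/

set_option autoImplicit false

noncomputable section

open KaehlerDifferential TensorProduct
open scoped IntermediateField IntermediateField.algebraAdjoinAdjoin

namespace Fermat.Agent.S16.H97

section Ext

variable (R : Type*) {S T : Type*} [CommRing R] [CommRing S] [CommRing T]
  [Algebra R S] [Algebra R T] [Algebra S T] [IsScalarTower R S T]

section Etale

variable [Algebra.FormallyEtale S T]

/-- The `T`-linear form on `Ω[T⁄R]` attached to a derivation of `S`. -/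
def extLin (d : Derivation R S S) : Ω[T⁄R] →ₗ[T] T :=
  (LinearMap.liftBaseChange T ((Algebra.linearMap S T).comp d.liftKaehlerDifferential)) ∘ₗ
    (tensorKaehlerEquivOfFormallyEtale R S T).symm.toLinearMap

/-- The unique extension of a derivation of `S` to a formally étale `S`-algebra `T`. -/
def extDeriv (d : Derivation R S S) : Derivation R T T :=
  (extLin R d).compDer (KaehlerDifferential.D R T)

theorem extDeriv_algebraMap (d : Derivation R S S) (s : S) :
    extDeriv R d (algebraMap S T s) = algebraMap S T (d s) := by
  change (LinearMap.liftBaseChange T ((Algebra.linearMap S T).comp d.liftKaehlerDifferential))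
    ((tensorKaehlerEquivOfFormallyEtale R S T).symm (D R T (algebraMap S T s))) = _
  rw [tensorKaehlerEquivOfFormallyEtale_symm_D_algebraMap, LinearMap.liftBaseChange_tmul,
    one_smul, LinearMap.comp_apply, Derivation.liftKaehlerDifferential_comp_D]
  rfl

end Etale

omit [Algebra R S] [IsScalarTower R S T] in
/-- A derivation of a formally unramified `S`-algebra `T` is determined by its values on `S`. -/
theorem derivation_ext_of_algebraMap [Algebra.FormallyUnramified S T] (d₁ d₂ : Derivation R T T)
    (h : ∀ s : S, d₁ (algebraMap S T s) = d₂ (algebraMap S T s)) : d₁ = d₂ := by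
  have h0 : ∀ s : S, (d₁ - d₂) (algebraMap S T s) = 0 := fun s => by
    rw [Derivation.sub_apply, h, sub_self]
  let δ : Derivation S T T :=
    { toLinearMap :=
        { toFun := fun t => (d₁ - d₂) t
          map_add' := fun a b => map_add _ a b
          map_smul' := fun s t => by
            simp only [RingHom.id_apply]
            rw [Algebra.smul_def, Derivation.leibniz, h0, smul_zero, add_zero, smul_eq_mul,
              Algebra.smul_def] }
      map_one_eq_zero' := (d₁ - d₂).map_one_eq_zero
      leibniz' := fun a b => (d₁ - d₂).leibniz a b }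
  have hδ : ∀ t, δ t = 0 := fun t => by
    have h1 : δ t = δ.liftKaehlerDifferential (KaehlerDifferential.D S T t) :=
      (Derivation.liftKaehlerDifferential_comp_D δ t).symm
    rw [h1, Subsingleton.elim (KaehlerDifferential.D S T t) 0, map_zero]
  ext t
  have := hδ t
  change (d₁ - d₂) t = 0 at this
  rwa [Derivation.sub_apply, sub_eq_zero] at this

end Ext

section Field

variable {k F : Type*} [Field k] [Field F] [Algebra k F]

/-- The derivation `d/dμ` of `k[μ]` for `μ` transcendental. -/
def polyDeriv (μ : F) (hμ : Transcendental k μ) :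
    Derivation k (Algebra.adjoin k {μ}) (Algebra.adjoin k {μ}) :=
  Derivation.mk'
    ((Polynomial.algEquivOfTranscendental k μ hμ).toLinearMap ∘ₗ
      (Polynomial.derivative (R := k)) ∘ₗ
        (Polynomial.algEquivOfTranscendental k μ hμ).symm.toLinearMap)
    (fun a b => by
      simp only [LinearMap.comp_apply, AlgEquiv.toLinearMap_apply, map_mul,
        Polynomial.derivative_mul, map_add, AlgEquiv.apply_symm_apply, smul_eq_mul]
      ring)

theorem polyDeriv_gen (μ : F) (hμ : Transcendental k μ) :
    polyDeriv μ hμ ⟨μ, Algebra.self_mem_adjoin_singleton k μ⟩ = 1 := by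
  have h1 : (Polynomial.algEquivOfTranscendental k μ hμ).symm
      ⟨μ, Algebra.self_mem_adjoin_singleton k μ⟩ = Polynomial.X := by
    rw [AlgEquiv.symm_apply_eq]
    apply Subtype.ext
    simp [Polynomial.algEquivOfTranscendental]
  change (Polynomial.algEquivOfTranscendental k μ hμ) (Polynomial.derivative
    ((Polynomial.algEquivOfTranscendental k μ hμ).symm
      ⟨μ, Algebra.self_mem_adjoin_singleton k μ⟩)) = 1
  rw [h1, Polynomial.derivative_X, map_one]

/-- **`d/dμ`**: a field `F` separable algebraic over `k(μ)`, `μ` transcendental over `k`, carries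
a `k`-derivation `d` with `d μ = 1`. -/
theorem exists_derivation_of_transcendental (μ : F) (hμ : Transcendental k μ)
    [Algebra.IsSeparable k⟮μ⟯ F] : ∃ d : Derivation k F F, d μ = 1 := by
  have : Algebra.FormallyEtale (Algebra.adjoin k {μ}) k⟮μ⟯ :=
    Algebra.FormallyEtale.of_isLocalization (nonZeroDivisors (Algebra.adjoin k {μ}))
  have : Algebra.FormallyEtale k⟮μ⟯ F := Algebra.FormallyEtale.of_isSeparable k⟮μ⟯ F
  let d₁ : Derivation k k⟮μ⟯ k⟮μ⟯ := extDeriv k (polyDeriv μ hμ)
  refine ⟨extDeriv k d₁, ?_⟩
  have h1 : d₁ (IntermediateField.AdjoinSimple.gen k μ) = 1 := by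
    have : IntermediateField.AdjoinSimple.gen k μ =
        algebraMap (Algebra.adjoin k {μ}) k⟮μ⟯ ⟨μ, Algebra.self_mem_adjoin_singleton k μ⟩ := rfl
    rw [this, extDeriv_algebraMap, polyDeriv_gen, map_one]
  calc extDeriv k d₁ μ
      = extDeriv k d₁ (algebraMap k⟮μ⟯ F (IntermediateField.AdjoinSimple.gen k μ)) := rfl
    _ = 1 := by rw [extDeriv_algebraMap, h1, map_one]

/-- A derivation with `d μ = 1` acts on `k[μ]` as the polynomial derivative. -/
theorem derivation_aeval_of_apply_eq_one (d : Derivation k F F) {μ : F} (hd : d μ = 1)
    (p : Polynomial k) :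
    d (Polynomial.aeval μ p) = Polynomial.aeval μ (Polynomial.derivative p) := by
  rw [Derivation.map_aeval, hd, smul_eq_mul, mul_one]

/-- The `ℤ`-linear form of `exists_derivation_of_transcendental`, also killing constants. -/
theorem exists_int_derivation_of_transcendental (μ : F) (hμ : Transcendental k μ)
    [Algebra.IsSeparable k⟮μ⟯ F] :
    ∃ d : Derivation ℤ F F, d μ = 1 ∧ ∀ c : k, d (algebraMap k F c) = 0 := by
  obtain ⟨d, hd⟩ := exists_derivation_of_transcendental μ hμ
  exact ⟨d.restrictScalars ℤ, hd, fun c => d.map_algebraMap c⟩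

/-- The `ℤ`-linear form, with the action on `k[μ]`. -/
theorem exists_int_derivation_of_transcendental' (μ : F) (hμ : Transcendental k μ)
    [Algebra.IsSeparable k⟮μ⟯ F] :
    ∃ d : Derivation ℤ F F, d μ = 1 ∧ (∀ c : k, d (algebraMap k F c) = 0) ∧
      ∀ p : Polynomial k,
        d (Polynomial.aeval μ p) = Polynomial.aeval μ (Polynomial.derivative p) := by
  obtain ⟨d, hd⟩ := exists_derivation_of_transcendental μ hμ
  exact ⟨d.restrictScalars ℤ, hd, fun c => d.map_algebraMap c,
    fun p => derivation_aeval_of_apply_eq_one d hd p⟩

end Field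

end Fermat.Agent.S16.H97

end
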