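/-
S16 / (L) bridge: the lower bound `H98.lower_bound` in the hypothesis shapes of the two interface
layers on main (`H94_Iface.card_eq_of_bounds` and `H48_Step0.natCard_eq_of_LU'`), and the frozen
S16 statement from the upper bound (U) alone.
-/
import Mathlib
import Fermat.Agent.S16.H98_ShimuraClass
import Fermat.Agent.S16.H94_Iface
import Fermat.Agent.S16.H48_Step0

set_option autoImplicit false

open ModularCurve CuspForm

namespace Fermat.Agent.S16.H98

variable (p : ℕ) [hp : Fact p.Prime]

/-- (L) in the shape of `H94.card_eq_of_bounds` / `H94.frozen_of_bounds`. -/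
theorem hL_iface : ∀ a : ℤ, (a : ↥(heckeLatticeAlgebra p ∅)) ∈ H94.eisT p →
    (eisensteinNumerator p : ℤ) ∣ a :=
  fun a ha => lower_bound p a ha

/-- (L) in the shape of `H48.natCard_eq_of_LU`. -/
theorem hL_step0 : ∀ t : HeckeAlg, H48.evalLattice p t = 0 →
    (eisensteinNumerator p : ℤ) ∣ H48.eisChar p t := by
  intro t ht
  have h1 : t - MvPolynomial.C (H48.eisChar p t) ∈ eisensteinIdeal p := by
    rw [← H48.ker_eisChar, RingHom.mem_ker, map_sub, H48.eisChar_C, sub_self]
  have h2 := Ideal.mem_map_of_mem (H48.evalLattice p) h1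
  rw [map_sub, ht, zero_sub] at h2
  have h3 : H48.evalLattice p (MvPolynomial.C (H48.eisChar p t)) =
      ((H48.eisChar p t : ℤ) : ↥(heckeLatticeAlgebra p ∅)) := by
    have : (MvPolynomial.C (H48.eisChar p t) : HeckeAlg) = ((H48.eisChar p t : ℤ) : HeckeAlg) := by
      simp
    rw [this, map_intCast]
  rw [h3] at h2
  have h4 := (Ideal.neg_mem_iff _).mp h2
  exact lower_bound p _ h4

/-- (L) in the shape of `H48.natCard_eq_of_LU'`. -/
theorem hL_step0' : ∀ t : HeckeAlg, heckeEvalForms p 2 t = 0 →
    (eisensteinNumerator p : ℤ) ∣ H48.eisChar p t := by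
  intro t ht
  refine hL_step0 p t ?_
  change (latticeRestrictHom p ∅) (heckeEvalForms p 2 t) = 0
  rw [ht, map_zero]

/-- **S16 from (U) alone**, `H94` shape of (U): `n ∈ I'`. -/
theorem frozen_of_upper
    (hU : ((eisensteinNumerator p : ℤ) : ↥(heckeLatticeAlgebra p ∅)) ∈
      Ideal.map ((latticeRestrictHom p ∅).toRingHom.comp (heckeEvalForms p 2))
        (eisensteinIdeal p)) :
    Nat.card (↥(heckeLatticeAlgebra p ∅) ⧸
        Ideal.map ((latticeRestrictHom p ∅).toRingHom.comp (heckeEvalForms p 2))
          (eisensteinIdeal p)) =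
      eisensteinNumerator p :=
  H94.frozen_of_bounds p hU (hL_iface p)

/-- **S16 from (U) alone**, `H48` shape of (U): some `t` killing the cusp forms has Eisenstein
value `n`. -/
theorem frozen_of_upper'
    (hU : ∃ t : HeckeAlg, heckeEvalForms p 2 t = 0 ∧
      H48.eisChar p t = (eisensteinNumerator p : ℤ)) :
    Nat.card (↥(heckeLatticeAlgebra p ∅) ⧸
        Ideal.map ((latticeRestrictHom p ∅).toRingHom.comp (heckeEvalForms p 2))
          (eisensteinIdeal p)) =
      eisensteinNumerator p :=
  H48.natCard_eq_of_LU' p (Fermat.Agent.S23.result p) (eisensteinNumerator p) (hL_step0' p) hU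

end Fermat.Agent.S16.H98
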