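import Mathlib
import Fermat.Agent.S16.H9_SwDStrong
import Fermat.Agent.S16.H83_SwD

set_option autoImplicit false

/-!
# S16 / (U5a) the STRONG Swinnerton-Dyer weight lemma, `φ`-shape

`helper9`.  Same statement as `H9_SwDStrong.swd_strong`, in helper83's "ring hom to a field"
binder shape (`H83.swd_weak`): `𝒪 ⊆ ℂ` any subring with `6` invertible, `φ : 𝒪 →+* κ` a ring hom to
a field with `φ l = 0`.  A level-one form with coefficients in `𝒪` whose reduction is a nonzero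
constant has weight divisible by `l - 1`.
-/

noncomputable section

namespace Fermat.Agent.S16.H9

open UpperHalfPlane ModularForm EisensteinSeries MatrixGroups ModularFormClass MvPolynomial

/-- **Strong Swinnerton-Dyer at level one, `φ`-shape** (binder block of `H83.swd_weak`). -/
theorem swd_strong_hom (l : ℕ) [hl : Fact l.Prime] (hl5 : 5 ≤ l) (𝒪 : Subring ℂ)
    (h6 : IsUnit (6 : 𝒪)) {κ : Type*} [Field κ] (φ : 𝒪 →+* κ) (hφl : φ (l : 𝒪) = 0)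
    (k : ℤ) (f : ModularForm 𝒮ℒ k) (hf : ∀ n, PowerSeries.coeff n (qExpansion 1 f) ∈ 𝒪)
    (h0 : φ ⟨_, hf 0⟩ ≠ 0) (hpos : ∀ n, 1 ≤ n → φ ⟨_, hf n⟩ = 0) :
    ((l - 1 : ℕ) : ℤ) ∣ k := by
  have hlκ : (l : κ) = 0 := by simpa using hφl
  have : CharP κ l := (CharP.charP_iff_prime_eq_zero hl.out).mpr hlκ
  obtain ⟨A, hA, hAev⟩ := H83.exists_hasse l hl5 𝒪 h6 φ hφl
  have hk0 : 0 ≤ k := by
    by_contra hneg
    rw [not_le] at hneg
    apply h0
    have hz : (f : ℍ → ℂ) = 0 := levelOne_neg_weight_eq_zero hneg f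
    have h1 : PowerSeries.coeff 0 (qExpansion 1 f) = 0 := by
      rw [hz, UpperHalfPlane.qExpansion_zero, map_zero]
    have h2 : (⟨_, hf 0⟩ : 𝒪) = 0 := Subtype.ext h1
    rw [h2, map_zero]
  obtain ⟨k', rfl⟩ := Int.eq_ofNat_of_zero_le hk0
  obtain ⟨F, hF, hFc⟩ := H83.exists_isobaric_reduction 𝒪 h6 φ k' f hf
  have hFev : H95.ev κ F = PowerSeries.C (φ ⟨_, hf 0⟩) := by
    ext n
    rw [hFc, PowerSeries.coeff_C]
    split_ifs with h
    · subst h; rfl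
    · exact hpos n (by omega)
  have := dvd_of_ev_eq_C l hl5 hA hAev hF h0 hFev
  exact_mod_cast this

/-- the `ℤ`-shape `(l : ℤ) - 1 ∣ k`. -/
theorem swd_strong_hom' (l : ℕ) [hl : Fact l.Prime] (hl5 : 5 ≤ l) (𝒪 : Subring ℂ)
    (h6 : IsUnit (6 : 𝒪)) {κ : Type*} [Field κ] (φ : 𝒪 →+* κ) (hφl : φ (l : 𝒪) = 0)
    (k : ℤ) (f : ModularForm 𝒮ℒ k) (hf : ∀ n, PowerSeries.coeff n (qExpansion 1 f) ∈ 𝒪)
    (h0 : φ ⟨_, hf 0⟩ ≠ 0) (hpos : ∀ n, 1 ≤ n → φ ⟨_, hf n⟩ = 0) :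
    ((l : ℤ) - 1) ∣ k := by
  have h := swd_strong_hom l hl5 𝒪 h6 φ hφl k f hf h0 hpos
  have hl1 : 1 ≤ l := by omega
  rwa [Nat.cast_sub hl1, Nat.cast_one] at h

end Fermat.Agent.S16.H9
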